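import Fermat.Agent.S29.Cyclo_helper44

/-!
# S29: the interface statement (CYC), in the literal shape of the (TOP) file

`cycStmt` is, verbatim, the body of `H24.CycStmt` (helper24, board #1984): for every prime `p`
and every field `k0` of characteristic `p` there is a character `δ : G_ℚ →* k0ˣ` of finite
level which is trivial on inertia at every `ℓ ≠ p` and takes the value `ℓ` at every Frobenius
lift at `ℓ ≠ p`.  Witness: `H44.cycloK p k0`.
-/

set_option autoImplicit false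

namespace Fermat.Agent.S29.H44

local notation "Qb" => AlgebraicClosure ℚ

theorem cycStmt : ∀ (p : ℕ), p.Prime → ∀ (k0 : Type) [Field k0] [CharP k0 p],
    ∃ δ : (Qb ≃ₐ[ℚ] Qb) →* k0ˣ, GaloisFactorsThroughFiniteLevel δ ∧
      ∀ ℓ : ℕ, ℓ.Prime → ℓ ≠ p → ∀ A : ValuationSubring Qb, A.LiesOverPrime ℓ →
        (∀ σ ∈ A.inertiaSubgroupIn ℚ, δ σ = 1) ∧
          ∀ σ, A.IsFrobeniusAt σ ℓ → ((δ σ : k0ˣ) : k0) = (ℓ : k0) := by
  intro p hp k0 _ _
  have : Fact p.Prime := ⟨hp⟩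
  refine ⟨cycloK p k0, cycloK_finiteLevel p k0, ?_⟩
  intro ℓ hℓ hℓp A hA
  exact ⟨fun σ hσ => cycloK_inertia p A k0 hℓ hℓp hA σ hσ,
    fun σ hσ => cycloK_frob p A k0 hℓ hℓp hA σ hσ⟩

end Fermat.Agent.S29.H44
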