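/-
S29, node (FD) "Frobenius power" (helper86), part 1: the counting lemma.

`L / ℚ` a finite Galois number field, `G = Gal(L/ℚ)`, `H' ≤ G`, `F = L^{H'}`.  At a prime `ℓ`
above which all inertia groups are trivial (`GoodPrime L ℓ`):

  `#{degree-one primes of F above ℓ} * |H'| = ∑_{P | ℓ, Stab_G(P) ≤ H'} |Stab_G(P)|`

(`sum_card_stabilizer_eq`).  Mathlib only.
-/
import Mathlib

set_option autoImplicit false

open NumberField Ideal
open scoped Pointwise

namespace Fermat.Agent.S29.H86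

/-! ### orbit sums -/

section OrbitSum

variable {H X : Type*} [Group H] [Finite H] [MulAction H X]

theorem natCard_orbit_mul_natCard_stabilizer (x : X) :
    Nat.card (MulAction.orbit H x) * Nat.card (MulAction.stabilizer H x) = Nat.card H := by
  classical
  have := Fintype.ofFinite H
  have : Finite (MulAction.orbit H x) := Set.finite_range _
  have : Fintype (MulAction.orbit H x) := Fintype.ofFinite _
  have : Fintype (MulAction.stabilizer H x) := Fintype.ofFinite _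
  rw [Nat.card_eq_fintype_card, Nat.card_eq_fintype_card, Nat.card_eq_fintype_card]
  exact MulAction.card_orbit_mul_card_stabilizer_eq_card_group H x

/-- `∑_{x ∈ orbit} |Stab x| = |H|`. -/
theorem sum_card_stabilizer_orbit (x₀ : X) (O : Finset X)
    (hO : ∀ x, x ∈ O ↔ x ∈ MulAction.orbit H x₀) :
    ∑ x ∈ O, Nat.card (MulAction.stabilizer H x) = Nat.card H := by
  classical
  have hne : O.Nonempty := ⟨x₀, (hO x₀).mpr (MulAction.mem_orbit_self x₀)⟩
  have hOc : Nat.card (MulAction.orbit H x₀) = O.card := by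
    have : (MulAction.orbit H x₀) = (O : Set X) := by
      ext x
      exact ((hO x).symm.trans Finset.mem_coe.symm)
    rw [this, Nat.card_coe_set_eq, Set.ncard_coe_finset]
  have hcard : ∀ x ∈ O, O.card * Nat.card (MulAction.stabilizer H x) = Nat.card H := by
    intro x hx
    have hx' : MulAction.orbit H x = MulAction.orbit H x₀ :=
      MulAction.orbit_eq_iff.mpr ((hO x).mp hx)
    rw [← natCard_orbit_mul_natCard_stabilizer (H := H) x, hx', hOc]
  have h2 : O.card * ∑ x ∈ O, Nat.card (MulAction.stabilizer H x) = O.card * Nat.card H := by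
    rw [Finset.mul_sum, Finset.sum_congr rfl hcard, Finset.sum_const, smul_eq_mul]
  exact Nat.eq_of_mul_eq_mul_left (Finset.card_pos.mpr hne) h2

end OrbitSum

/-! ### the counting lemma -/

section Count

variable (L : Type*) [Field L] [NumberField L] [IsGalois ℚ L]

/-- `ℓ` is *good* for `L`: prime, and all inertia groups above `ℓ` are trivial. -/
def GoodPrime (ℓ : ℕ) : Prop :=
  ℓ.Prime ∧ ∀ P : Ideal (𝓞 L), P.IsPrime → (ℓ : 𝓞 L) ∈ P → P.inertia (L ≃ₐ[ℚ] L) = ⊥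

variable {L}

/-- a prime containing `ℓ` lies over `(ℓ)`. -/
theorem liesOver_span_of_mem {F : Type*} [Field F] [NumberField F] {ℓ : ℕ} (hℓ : ℓ.Prime)
    (P : Ideal (𝓞 F)) [hP : P.IsPrime] (hm : (ℓ : 𝓞 F) ∈ P) :
    P.LiesOver (Ideal.span {(ℓ : ℤ)}) := by
  constructor
  have hmax : (Ideal.span {(ℓ : ℤ)}).IsMaximal :=
    PrincipalIdealRing.isMaximal_of_irreducible (Nat.prime_iff_prime_int.mp hℓ).irreducible
  refine hmax.eq_of_le ?_ ?_
  · exact (Ideal.IsPrime.under ℤ P).ne_top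
  · rw [Ideal.span_le, Set.singleton_subset_iff]
    show (ℓ : ℤ) ∈ P.under ℤ
    rw [Ideal.mem_comap]
    simpa using hm


theorem span_natCast_isMaximal {ℓ : ℕ} (hℓ : ℓ.Prime) : (Ideal.span {(ℓ : ℤ)}).IsMaximal :=
  PrincipalIdealRing.isMaximal_of_irreducible (Nat.prime_iff_prime_int.mp hℓ).irreducible

/-- at a good prime the decomposition group has order `f`. -/
theorem card_stabilizer_eq_inertiaDeg {ℓ : ℕ} (hℓ : GoodPrime L ℓ) (P : Ideal (𝓞 L)) [hP : P.IsPrime]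
    (hm : (ℓ : 𝓞 L) ∈ P) :
    Nat.card (MulAction.stabilizer (L ≃ₐ[ℚ] L) P) = P.inertiaDeg ℤ := by
  have := liesOver_span_of_mem hℓ.1 P hm
  have : Fact ℓ.Prime := ⟨hℓ.1⟩
  have hmax := span_natCast_isMaximal hℓ.1
  rw [Ideal.card_stabilizer_eq_card_inertia_mul_finrank (Ideal.span {(ℓ : ℤ)}) P, hℓ.2 P hP hm]
  simp


variable (H' : Subgroup (L ≃ₐ[ℚ] L))

/-- the fixed field of `H'`. -/
abbrev fixF : IntermediateField ℚ L := FixedPoints.intermediateField H'

theorem isGaloisGroup_int : IsGaloisGroup H' (𝓞 (fixF H')) (𝓞 L) :=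
  IsGaloisGroup.of_isFractionRing H' (𝓞 (fixF H')) (𝓞 L) (fixF H') L

/-- at a good prime the decomposition group inside `H'` has order `f(P | P ∩ F)`. -/
theorem card_stabilizer_sub_eq_inertiaDeg {ℓ : ℕ} (hℓ : GoodPrime L ℓ) (P : Ideal (𝓞 L))
    [hP : P.IsPrime] (hm : (ℓ : 𝓞 L) ∈ P) :
    Nat.card ((MulAction.stabilizer (L ≃ₐ[ℚ] L) P).subgroupOf H') =
      P.inertiaDeg (𝓞 (fixF H')) := by
  have := isGaloisGroup_int H'
  have hin : Ideal.inertia H' P = ⊥ := by
    rw [eq_bot_iff]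
    intro σ hσ
    have h1 : (σ : L ≃ₐ[ℚ] L) ∈ P.inertia (L ≃ₐ[ℚ] L) := fun x => hσ x
    rw [hℓ.2 P hP hm, Subgroup.mem_bot] at h1
    exact Subgroup.mem_bot.mpr (Subtype.ext h1)
  have hq : (P.under (𝓞 (fixF H'))).IsPrime := Ideal.IsPrime.under _ P
  have h := Ideal.card_stabilizer_eq_card_inertia_mul_finrank (G := H') (P.under (𝓞 (fixF H'))) P
  rw [hin] at h
  simp only [Subgroup.card_bot, one_mul] at h
  rw [← h]
  refine Nat.card_congr (Equiv.subtypeEquivRight fun x => ?_)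
  rw [Subgroup.mem_subgroupOf, MulAction.mem_stabilizer_iff, MulAction.mem_stabilizer_iff]
  rfl


omit [IsGalois ℚ L] in
theorem natCast_mem_under {ℓ : ℕ} (P : Ideal (𝓞 L)) (hm : (ℓ : 𝓞 L) ∈ P) :
    (ℓ : 𝓞 (fixF H')) ∈ P.under (𝓞 (fixF H')) := by
  rw [Ideal.mem_comap]
  simpa using hm

/-- **the degree criterion**: at a good prime, `P ∩ F` has degree one iff the decomposition
group of `P` lies in `H'`. -/
theorem absNorm_under_eq_iff {ℓ : ℕ} (hℓ : GoodPrime L ℓ) (P : Ideal (𝓞 L)) [hP : P.IsPrime]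
    (hm : (ℓ : 𝓞 L) ∈ P) :
    absNorm (P.under (𝓞 (fixF H'))) = ℓ ↔ MulAction.stabilizer (L ≃ₐ[ℚ] L) P ≤ H' := by
  have hq : (P.under (𝓞 (fixF H'))).IsPrime := Ideal.IsPrime.under _ P
  have hmq := natCast_mem_under H' P hm
  have hlq := liesOver_span_of_mem hℓ.1 (P.under (𝓞 (fixF H'))) hmq
  have hmax := span_natCast_isMaximal hℓ.1
  have hqmax : (P.under (𝓞 (fixF H'))).IsMaximal :=
    Ideal.IsMaximal.of_liesOver_isMaximal (P.under (𝓞 (fixF H'))) (Ideal.span {(ℓ : ℤ)})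
  have h1 := card_stabilizer_eq_inertiaDeg hℓ P hm
  have h2 := card_stabilizer_sub_eq_inertiaDeg H' hℓ P hm
  have h3 : P.inertiaDeg ℤ = (P.under (𝓞 (fixF H'))).inertiaDeg ℤ * P.inertiaDeg (𝓞 (fixF H')) :=
    Ideal.inertiaDeg_tower (P.under (𝓞 (fixF H'))) P
  have h4 : absNorm (P.under (𝓞 (fixF H'))) = ℓ ^ ((P.under (𝓞 (fixF H'))).inertiaDeg ℤ) := by
    rw [Ideal.absNorm_eq_pow_inertiaDeg' (P.under (𝓞 (fixF H'))) hℓ.1,
      Ideal.inertiaDeg'_eq_inertiaDeg]
  have hpos : 0 < P.inertiaDeg (𝓞 (fixF H')) := Ideal.inertiaDeg_pos P _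
  constructor
  · intro habs
    have hf : (P.under (𝓞 (fixF H'))).inertiaDeg ℤ = 1 := by
      rw [h4] at habs
      exact Nat.pow_right_injective hℓ.1.two_le (habs.trans (pow_one ℓ).symm)
    rw [hf, one_mul] at h3
    have hcard : Nat.card ((MulAction.stabilizer (L ≃ₐ[ℚ] L) P).subgroupOf H') =
        Nat.card (MulAction.stabilizer (L ≃ₐ[ℚ] L) P) := by rw [h1, h2, h3]
    have hmap : Nat.card ((MulAction.stabilizer (L ≃ₐ[ℚ] L) P ⊓ H' : Subgroup (L ≃ₐ[ℚ] L))) =
        Nat.card ((MulAction.stabilizer (L ≃ₐ[ℚ] L) P).subgroupOf H') := by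
      rw [← Subgroup.subgroupOf_map_subtype]
      exact Nat.card_congr
        (Subgroup.equivMapOfInjective _ _ (Subgroup.subtype_injective H')).symm.toEquiv
    have heq : MulAction.stabilizer (L ≃ₐ[ℚ] L) P ⊓ H' = MulAction.stabilizer (L ≃ₐ[ℚ] L) P :=
      Subgroup.eq_of_le_of_card_ge inf_le_left (by rw [hmap, hcard])
    exact inf_eq_left.mp heq
  · intro hle
    have hcard : Nat.card ((MulAction.stabilizer (L ≃ₐ[ℚ] L) P).subgroupOf H') =
        Nat.card (MulAction.stabilizer (L ≃ₐ[ℚ] L) P) :=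
      Nat.card_congr (Subgroup.subgroupOfEquivOfLe hle).toEquiv
    rw [h1, h2, h3] at hcard
    have hf : (P.under (𝓞 (fixF H'))).inertiaDeg ℤ = 1 := by
      have := Nat.eq_of_mul_eq_mul_right hpos (hcard.symm.trans (one_mul _).symm)
      exact this
    rw [h4, hf, pow_one]


end Count

section Finsets

variable (F : Type*) [Field F] [NumberField F]

theorem finite_primesAbove {ℓ : ℕ} (hℓ : ℓ.Prime) :
    {P : Ideal (𝓞 F) | P.IsPrime ∧ (ℓ : 𝓞 F) ∈ P}.Finite := by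
  have hsub : {P : Ideal (𝓞 F) | P.IsPrime ∧ (ℓ : 𝓞 F) ∈ P} ⊆
      (Ideal.span {(ℓ : ℤ)}).primesOver (𝓞 F) := by
    rintro P ⟨hP, hm⟩
    exact ⟨hP, liesOver_span_of_mem hℓ P hm⟩
  have hmax := span_natCast_isMaximal hℓ
  exact (IsDedekindDomain.primesOver_finite (Ideal.span {(ℓ : ℤ)}) (𝓞 F)).subset hsub

open Classical in
/-- the primes of `𝓞 F` containing the prime number `ℓ`. -/
noncomputable def primesAbove (ℓ : ℕ) : Finset (Ideal (𝓞 F)) :=
  if h : ℓ.Prime then (finite_primesAbove F h).toFinset else ∅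

variable {F}

theorem mem_primesAbove {ℓ : ℕ} (hℓ : ℓ.Prime) {P : Ideal (𝓞 F)} :
    P ∈ primesAbove F ℓ ↔ P.IsPrime ∧ (ℓ : 𝓞 F) ∈ P := by
  rw [primesAbove, dif_pos hℓ, Set.Finite.mem_toFinset]
  rfl

variable (F)

open Classical in
/-- the degree-one primes of `𝓞 F` above `ℓ`. -/
noncomputable def degOne (ℓ : ℕ) : Finset (Ideal (𝓞 F)) :=
  (primesAbove F ℓ).filter (fun 𝔮 => absNorm 𝔮 = ℓ)

variable {F}

theorem mem_degOne {ℓ : ℕ} (hℓ : ℓ.Prime) {P : Ideal (𝓞 F)} :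
    P ∈ degOne F ℓ ↔ P.IsPrime ∧ (ℓ : 𝓞 F) ∈ P ∧ absNorm P = ℓ := by
  rw [degOne, Finset.mem_filter, mem_primesAbove hℓ, and_assoc]

end Finsets


section KL

variable {L : Type*} [Field L] [NumberField L] [IsGalois ℚ L] (H' : Subgroup (L ≃ₐ[ℚ] L))

open Classical in
/-- **the counting lemma**: at a good prime `ℓ`, the number of degree-one primes of the fixed
field of `H'` above `ℓ`, times `|H'|`, is the sum of the orders of the decomposition groups of
the primes `P` of `L` above `ℓ` whose decomposition group lies in `H'`. -/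
theorem sum_card_stabilizer_eq {ℓ : ℕ} (hℓ : GoodPrime L ℓ) :
    ∑ P ∈ (primesAbove L ℓ).filter (fun P => MulAction.stabilizer (L ≃ₐ[ℚ] L) P ≤ H'),
        Nat.card (MulAction.stabilizer (L ≃ₐ[ℚ] L) P) =
      (degOne (fixF H') ℓ).card * Nat.card H' := by
  have hmaps : ∀ P ∈ (primesAbove L ℓ).filter
      (fun P => MulAction.stabilizer (L ≃ₐ[ℚ] L) P ≤ H'),
      P.under (𝓞 (fixF H')) ∈ degOne (fixF H') ℓ := by
    intro P hP
    rw [Finset.mem_filter, mem_primesAbove hℓ.1] at hP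
    obtain ⟨⟨hPp, hm⟩, hle⟩ := hP
    rw [mem_degOne hℓ.1]
    exact ⟨Ideal.IsPrime.under _ P, natCast_mem_under H' P hm,
      (absNorm_under_eq_iff H' hℓ P hm).mpr hle⟩
  rw [← Finset.sum_fiberwise_of_maps_to hmaps]
  have hfiber : ∀ 𝔮 ∈ degOne (fixF H') ℓ,
      ∑ P ∈ ((primesAbove L ℓ).filter
        (fun P => MulAction.stabilizer (L ≃ₐ[ℚ] L) P ≤ H')).filter
          (fun P => P.under (𝓞 (fixF H')) = 𝔮),
        Nat.card (MulAction.stabilizer (L ≃ₐ[ℚ] L) P) = Nat.card H' := by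
    intro 𝔮 h𝔮
    rw [mem_degOne hℓ.1] at h𝔮
    obtain ⟨h𝔮p, h𝔮m, h𝔮n⟩ := h𝔮
    have := isGaloisGroup_int H'
    obtain ⟨⟨P₀, hP₀p, hP₀l⟩⟩ := (inferInstance : Nonempty (𝔮.primesOver (𝓞 L)))
    have hmem : ∀ P : Ideal (𝓞 L), P.IsPrime → P.under (𝓞 (fixF H')) = 𝔮 →
        (ℓ : 𝓞 L) ∈ P := by
      intro P _ hPu
      have h1 : (ℓ : 𝓞 (fixF H')) ∈ P.under (𝓞 (fixF H')) := hPu ▸ h𝔮m
      rw [Ideal.mem_comap] at h1
      simpa using h1
    have hO : ∀ P, P ∈ ((primesAbove L ℓ).filter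
        (fun P => MulAction.stabilizer (L ≃ₐ[ℚ] L) P ≤ H')).filter
          (fun P => P.under (𝓞 (fixF H')) = 𝔮) ↔ P ∈ MulAction.orbit H' P₀ := by
      intro P
      rw [Finset.mem_filter, Finset.mem_filter, mem_primesAbove hℓ.1]
      constructor
      · rintro ⟨⟨⟨hPp, hPm⟩, hle⟩, hPu⟩
        obtain ⟨g, hg⟩ := Algebra.IsInvariant.exists_smul_of_under_eq (𝓞 (fixF H')) (𝓞 L) H' P₀ P
          ((hP₀l.over).symm.trans hPu.symm)
        exact ⟨g, hg.symm⟩
      · rintro ⟨g, rfl⟩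
        have hPp : ((g : L ≃ₐ[ℚ] L) • P₀).IsPrime := Ideal.IsPrime.smul _
        have hPu : ((g : L ≃ₐ[ℚ] L) • P₀).under (𝓞 (fixF H')) = 𝔮 := by
          have h1 : (g • P₀).under (𝓞 (fixF H')) = P₀.under (𝓞 (fixF H')) :=
            Ideal.under_smul (𝓞 (fixF H')) P₀ g
          exact h1.trans hP₀l.over.symm
        have hPm := hmem _ hPp hPu
        refine ⟨⟨⟨hPp, hPm⟩, ?_⟩, hPu⟩
        exact (absNorm_under_eq_iff H' hℓ _ hPm).mp (by rw [hPu]; exact h𝔮n)
    rw [← sum_card_stabilizer_orbit (H := H') P₀ _ hO]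
    refine Finset.sum_congr rfl fun P hP => ?_
    rw [Finset.mem_filter, Finset.mem_filter] at hP
    have hle := hP.1.2
    calc Nat.card (MulAction.stabilizer (L ≃ₐ[ℚ] L) P)
        = Nat.card ((MulAction.stabilizer (L ≃ₐ[ℚ] L) P).subgroupOf H') :=
          (Nat.card_congr (Subgroup.subgroupOfEquivOfLe hle).toEquiv).symm
      _ = Nat.card (MulAction.stabilizer H' P) := by
          refine Nat.card_congr (Equiv.subtypeEquivRight fun x => ?_)
          rw [Subgroup.mem_subgroupOf, MulAction.mem_stabilizer_iff,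
            MulAction.mem_stabilizer_iff]
          rfl
  rw [Finset.sum_congr rfl hfiber, Finset.sum_const, smul_eq_mul]

end KL

end Fermat.Agent.S29.H86
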