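/-
S29, node (FD) "Frobenius power" (helper86), part 3: every cyclic subgroup of the Galois group
of a finite Galois extension `L / ℚ` is a decomposition group at an unramified prime outside
any given finite set (`exists_prime_stabilizer_eq_zpowers`).

Möbius inversion over the subgroups `⟨h ^ d⟩`, `d ∣ orderOf h`, of the counting lemma
(`FrobCount_helper86`), fed into the density statement (`FrobMass_helper86`).
-/
import Mathlib
import Fermat.Agent.S29.FrobCount_helper86
import Fermat.Agent.S29.FrobMass_helper86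

set_option autoImplicit false

open NumberField Ideal
open scoped Pointwise

namespace Fermat.Agent.S29.H86

/-! ### all inertia groups are trivial outside a finite set -/

section Good

variable (L : Type*) [Field L] [NumberField L] [IsGalois ℚ L]

/-- a nontrivial automorphism moves some integer. -/
theorem exists_smul_ne {σ : L ≃ₐ[ℚ] L} (hσ : σ ≠ 1) : ∃ x : 𝓞 L, σ • x ≠ x := by
  by_contra h
  apply hσ
  have hf : FaithfulSMul (L ≃ₐ[ℚ] L) (𝓞 L) :=
    (inferInstance : IsGaloisGroup (L ≃ₐ[ℚ] L) ℤ (𝓞 L)).faithful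
  refine hf.eq_of_smul_eq_smul (fun x => ?_)
  rw [one_smul]
  by_contra hx
  exact h ⟨x, hx⟩

open Classical in
/-- **all inertia groups are trivial outside a finite set of primes.** -/
theorem exists_finset_goodPrime :
    ∃ S : Finset ℕ, ∀ ℓ : ℕ, ℓ.Prime → ℓ ∉ S → GoodPrime L ℓ := by
  have hx : ∀ σ : L ≃ₐ[ℚ] L, ∃ x : 𝓞 L, σ ≠ 1 → σ • x ≠ x := by
    intro σ
    by_cases hσ : σ = 1
    · exact ⟨0, fun h => absurd hσ h⟩
    · obtain ⟨x, hx⟩ := exists_smul_ne L hσ
      exact ⟨x, fun _ => hx⟩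
  choose x hx using hx
  have := Fintype.ofFinite (L ≃ₐ[ℚ] L)
  refine ⟨Finset.univ.biUnion fun σ : L ≃ₐ[ℚ] L =>
    (absNorm (Ideal.span {σ • x σ - x σ})).primeFactors, fun ℓ hℓ hS => ⟨hℓ, fun P hP hm => ?_⟩⟩
  rw [eq_bot_iff]
  intro σ hσ
  rw [Subgroup.mem_bot]
  by_contra hne
  apply hS
  rw [Finset.mem_biUnion]
  refine ⟨σ, Finset.mem_univ _, ?_⟩
  have hne0 : σ • x σ - x σ ≠ 0 := sub_ne_zero.mpr (hx σ hne)
  have hle : Ideal.span {σ • x σ - x σ} ≤ P := by
    rw [Ideal.span_le, Set.singleton_subset_iff]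
    exact hσ (x σ)
  have hdvd : absNorm P ∣ absNorm (Ideal.span {σ • x σ - x σ}) :=
    Ideal.absNorm_dvd_absNorm_of_le hle
  have hℓP : ℓ ∣ absNorm P := by
    have := liesOver_span_of_mem hℓ P hm
    have h1 : ((absNorm P : ℕ) : ℤ) ∈ P.under ℤ := by
      rw [Ideal.mem_comap]
      simpa using Ideal.absNorm_mem P
    rw [← Ideal.over_def P (Ideal.span {(ℓ : ℤ)}), Ideal.mem_span_singleton] at h1
    exact_mod_cast h1
  rw [Nat.mem_primeFactors]
  refine ⟨hℓ, hℓP.trans hdvd, ?_⟩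
  rw [Ne, Ideal.absNorm_eq_zero_iff, Ideal.span_singleton_eq_bot]
  exact hne0

end Good

/-! ### Möbius inversion over the subgroups of a cyclic group -/

section Cyclic

variable {G : Type*} [Group G] [Finite G]

omit [Finite G] in
/-- for `d ∣ orderOf h`: `h ^ a ∈ ⟨h ^ d⟩ ↔ d ∣ a`. -/
theorem pow_mem_zpowers_pow_iff (h : G) {d : ℕ} (hd : d ∣ orderOf h) (a : ℕ) :
    h ^ a ∈ Subgroup.zpowers (h ^ d) ↔ d ∣ a := by
  constructor
  · intro hmem
    obtain ⟨z, hz⟩ := Subgroup.mem_zpowers_iff.mp hmem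
    have h1 : h ^ ((d : ℤ) * z - a) = 1 := by
      rw [zpow_sub, zpow_mul, zpow_natCast, zpow_natCast, hz, mul_inv_cancel]
    have h2 : (orderOf h : ℤ) ∣ (d : ℤ) * z - a := orderOf_dvd_iff_zpow_eq_one.mpr h1
    have h3 : (d : ℤ) ∣ (d : ℤ) * z - a := (Int.natCast_dvd_natCast.mpr hd).trans h2
    have h4 : (d : ℤ) ∣ (a : ℤ) := by
      have := dvd_sub (dvd_mul_right (d : ℤ) z) h3
      simpa using this
    exact Int.natCast_dvd_natCast.mp h4
  · rintro ⟨c, rfl⟩
    rw [pow_mul]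
    exact Subgroup.npow_mem_zpowers _ c

omit [Finite G] in
theorem zpowers_pow_le_iff (h : G) {d : ℕ} (hd : d ∣ orderOf h) (a : ℕ) :
    Subgroup.zpowers (h ^ a) ≤ Subgroup.zpowers (h ^ d) ↔ d ∣ a := by
  rw [Subgroup.zpowers_le]
  exact pow_mem_zpowers_pow_iff h hd a

theorem zpowers_pow_eq_iff (h : G) (a : ℕ) :
    Subgroup.zpowers (h ^ a) = Subgroup.zpowers h ↔ Nat.gcd (orderOf h) a = 1 := by
  have hn : 0 < orderOf h := orderOf_pos h
  have hle : Subgroup.zpowers (h ^ a) ≤ Subgroup.zpowers h :=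
    Subgroup.zpowers_le.mpr (Subgroup.npow_mem_zpowers h a)
  have hord : orderOf (h ^ a) = orderOf h / Nat.gcd (orderOf h) a := orderOf_pow h
  constructor
  · intro heq
    have h1 : orderOf (h ^ a) = orderOf h := by
      rw [← Nat.card_zpowers, heq, Nat.card_zpowers]
    rw [hord] at h1
    exact (Nat.div_eq_self.mp h1).resolve_left hn.ne'
  · intro hg
    refine Subgroup.eq_of_le_of_card_ge hle ?_
    rw [Nat.card_zpowers, Nat.card_zpowers, hord, hg, Nat.div_one]

theorem sum_moebius_divisors (m : ℕ) :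
    ∑ d ∈ m.divisors, (ArithmeticFunction.moebius d : ℤ) = if m = 1 then 1 else 0 := by
  rw [← ArithmeticFunction.coe_mul_zeta_apply, ArithmeticFunction.moebius_mul_coe_zeta,
    ArithmeticFunction.one_apply]

open Classical in
/-- Möbius inversion: `∑_{d ∣ n} μ(d) [D ≤ ⟨h ^ d⟩] = [D = ⟨h⟩]`, `n = orderOf h`. -/
theorem sum_moebius_le_zpowers (h : G) (D : Subgroup G) :
    ∑ d ∈ (orderOf h).divisors, (ArithmeticFunction.moebius d : ℤ) *
        (if D ≤ Subgroup.zpowers (h ^ d) then 1 else 0) =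
      if D = Subgroup.zpowers h then 1 else 0 := by
  have hn : 0 < orderOf h := orderOf_pos h
  by_cases hD : D ≤ Subgroup.zpowers h
  · obtain ⟨a, rfl⟩ := (Subgroup.le_zpowers_iff h D).mp hD
    have h1 : ∀ d ∈ (orderOf h).divisors, (ArithmeticFunction.moebius d : ℤ) *
        (if Subgroup.zpowers (h ^ a) ≤ Subgroup.zpowers (h ^ d) then 1 else 0) =
        if d ∣ a then (ArithmeticFunction.moebius d : ℤ) else 0 := by
      intro d hd
      by_cases hda : d ∣ a
      · rw [if_pos ((zpowers_pow_le_iff h (Nat.dvd_of_mem_divisors hd) a).mpr hda), if_pos hda,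
          mul_one]
      · rw [if_neg (fun hc => hda ((zpowers_pow_le_iff h (Nat.dvd_of_mem_divisors hd) a).mp hc)),
          if_neg hda, mul_zero]
    rw [Finset.sum_congr rfl h1, ← Finset.sum_filter]
    have h2 : (orderOf h).divisors.filter (fun d => d ∣ a) = (Nat.gcd (orderOf h) a).divisors := by
      ext d
      rw [Finset.mem_filter, Nat.mem_divisors, Nat.mem_divisors, Nat.dvd_gcd_iff]
      constructor
      · rintro ⟨⟨h1, _⟩, h3⟩
        exact ⟨⟨h1, h3⟩, (Nat.gcd_pos_of_pos_left _ hn).ne'⟩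
      · rintro ⟨⟨h1, h3⟩, _⟩
        exact ⟨⟨h1, hn.ne'⟩, h3⟩
    rw [h2, sum_moebius_divisors]
    by_cases hg : Nat.gcd (orderOf h) a = 1
    · rw [if_pos hg, if_pos ((zpowers_pow_eq_iff h a).mpr hg)]
    · rw [if_neg hg, if_neg (fun hc => hg ((zpowers_pow_eq_iff h a).mp hc))]
  · have h1 : ∀ d ∈ (orderOf h).divisors, (ArithmeticFunction.moebius d : ℤ) *
        (if D ≤ Subgroup.zpowers (h ^ d) then 1 else 0) = 0 := by
      intro d _
      rw [if_neg, mul_zero]
      intro hle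
      exact hD (hle.trans (Subgroup.zpowers_le.mpr (Subgroup.npow_mem_zpowers h d)))
    rw [Finset.sum_congr rfl h1, Finset.sum_const_zero, if_neg]
    rintro rfl
    exact hD le_rfl

open Classical in
/-- the Möbius weights `μ(d) |⟨h ^ d⟩|` have total mass `≥ 1` (it is `φ(orderOf h)`). -/
theorem one_le_sum_moebius_card (h : G) :
    1 ≤ ∑ d ∈ (orderOf h).divisors, (ArithmeticFunction.moebius d : ℤ) *
      (Nat.card (Subgroup.zpowers (h ^ d)) : ℤ) := by
  have := Fintype.ofFinite G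
  have hcard : ∀ d : ℕ, (Nat.card (Subgroup.zpowers (h ^ d)) : ℤ) =
      ∑ y : G, (if Subgroup.zpowers y ≤ Subgroup.zpowers (h ^ d) then (1 : ℤ) else 0) := by
    intro d
    rw [Finset.sum_boole, Nat.card_eq_fintype_card, Fintype.card_subtype]
    congr 2
    refine Finset.filter_congr fun y _ => ?_
    exact Subgroup.zpowers_le.symm
  have h1 : ∑ d ∈ (orderOf h).divisors, (ArithmeticFunction.moebius d : ℤ) *
      (Nat.card (Subgroup.zpowers (h ^ d)) : ℤ) =
      ∑ y : G, (if Subgroup.zpowers y = Subgroup.zpowers h then (1 : ℤ) else 0) := by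
    simp_rw [hcard, Finset.mul_sum]
    rw [Finset.sum_comm]
    refine Finset.sum_congr rfl fun y _ => ?_
    exact sum_moebius_le_zpowers h (Subgroup.zpowers y)
  rw [h1]
  calc (1 : ℤ) = if Subgroup.zpowers h = Subgroup.zpowers h then 1 else 0 := by rw [if_pos rfl]
    _ ≤ ∑ y : G, (if Subgroup.zpowers y = Subgroup.zpowers h then (1 : ℤ) else 0) :=
        Finset.single_le_sum
          (f := fun y : G => if Subgroup.zpowers y = Subgroup.zpowers h then (1 : ℤ) else 0)
          (fun y _ => by split_ifs <;> norm_num) (Finset.mem_univ h)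

end Cyclic

/-! ### cyclic subgroups are decomposition groups -/

section Galois

variable (L : Type) [Field L] [NumberField L] [IsGalois ℚ L]

open Classical in
theorem sum_weights_eq (h : L ≃ₐ[ℚ] L) {ℓ : ℕ} (hℓ : GoodPrime L ℓ) :
    ∑ d ∈ (orderOf h).divisors, ((ArithmeticFunction.moebius d : ℤ) *
        (Nat.card (Subgroup.zpowers (h ^ d)) : ℤ)) *
        ((degOne (fixF (Subgroup.zpowers (h ^ d))) ℓ).card : ℤ) =
      ∑ P ∈ primesAbove L ℓ, (Nat.card (MulAction.stabilizer (L ≃ₐ[ℚ] L) P) : ℤ) *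
        (if MulAction.stabilizer (L ≃ₐ[ℚ] L) P = Subgroup.zpowers h then 1 else 0) := by
  have h1 : ∀ d : ℕ, ((degOne (fixF (Subgroup.zpowers (h ^ d))) ℓ).card : ℤ) *
      (Nat.card (Subgroup.zpowers (h ^ d)) : ℤ) =
      ∑ P ∈ primesAbove L ℓ, (Nat.card (MulAction.stabilizer (L ≃ₐ[ℚ] L) P) : ℤ) *
        (if MulAction.stabilizer (L ≃ₐ[ℚ] L) P ≤ Subgroup.zpowers (h ^ d) then 1 else 0) := by
    intro d
    have h2 := sum_card_stabilizer_eq (Subgroup.zpowers (h ^ d)) hℓ
    rw [← Nat.cast_mul, ← h2, Nat.cast_sum, Finset.sum_filter]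
    refine Finset.sum_congr rfl fun P _ => ?_
    split_ifs <;> simp
  calc ∑ d ∈ (orderOf h).divisors, ((ArithmeticFunction.moebius d : ℤ) *
        (Nat.card (Subgroup.zpowers (h ^ d)) : ℤ)) *
        ((degOne (fixF (Subgroup.zpowers (h ^ d))) ℓ).card : ℤ)
      = ∑ d ∈ (orderOf h).divisors, (ArithmeticFunction.moebius d : ℤ) *
          ∑ P ∈ primesAbove L ℓ, (Nat.card (MulAction.stabilizer (L ≃ₐ[ℚ] L) P) : ℤ) *
            (if MulAction.stabilizer (L ≃ₐ[ℚ] L) P ≤ Subgroup.zpowers (h ^ d) then 1 else 0) := by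
        refine Finset.sum_congr rfl fun d _ => ?_
        rw [← h1 d]
        ring
    _ = ∑ P ∈ primesAbove L ℓ, (Nat.card (MulAction.stabilizer (L ≃ₐ[ℚ] L) P) : ℤ) *
          ∑ d ∈ (orderOf h).divisors, (ArithmeticFunction.moebius d : ℤ) *
            (if MulAction.stabilizer (L ≃ₐ[ℚ] L) P ≤ Subgroup.zpowers (h ^ d) then 1 else 0) := by
        simp_rw [Finset.mul_sum]
        rw [Finset.sum_comm]
        refine Finset.sum_congr rfl fun P _ => Finset.sum_congr rfl fun d _ => ?_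
        ring
    _ = _ := by
        refine Finset.sum_congr rfl fun P _ => ?_
        rw [sum_moebius_le_zpowers h]

/-- **Frobenius density, cyclic form**: every cyclic subgroup `⟨h⟩` of `Gal(L/ℚ)` is the
decomposition group of a prime `P` of `L` above a prime number `ℓ` outside `S₀` above which all
inertia groups are trivial. -/
theorem exists_prime_stabilizer_eq_zpowers (h : L ≃ₐ[ℚ] L) (S₀ : Finset ℕ) :
    ∃ ℓ : ℕ, GoodPrime L ℓ ∧ ℓ ∉ S₀ ∧ ∃ P : Ideal (𝓞 L), P.IsPrime ∧ (ℓ : 𝓞 L) ∈ P ∧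
      MulAction.stabilizer (L ≃ₐ[ℚ] L) P = Subgroup.zpowers h := by
  classical
  obtain ⟨S, hS⟩ := exists_finset_goodPrime L
  obtain ⟨ℓ, hℓ, hℓS, hne⟩ := exists_prime_sum_ne_zero (orderOf h).divisors
    (fun d => ↥(fixF (Subgroup.zpowers (h ^ d))))
    (fun d => (ArithmeticFunction.moebius d : ℤ) * (Nat.card (Subgroup.zpowers (h ^ d)) : ℤ))
    (one_le_sum_moebius_card h) (S₀ ∪ S)
  rw [Finset.mem_union, not_or] at hℓS
  have hgood := hS ℓ hℓ hℓS.2
  rw [sum_weights_eq L h hgood] at hne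
  obtain ⟨P, hP, hPne⟩ := Finset.exists_ne_zero_of_sum_ne_zero hne
  rw [mem_primesAbove hℓ] at hP
  refine ⟨ℓ, hgood, hℓS.1, P, hP.1, hP.2, ?_⟩
  by_contra hcon
  rw [if_neg hcon, mul_zero] at hPne
  exact hPne rfl

end Galois

end Fermat.Agent.S29.H86
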