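/-
S29, node (FD) "Frobenius power" (helper86): the export.

`frobenius_power`: for a finite Galois `K / ℚ` inside `Qbar = AlgebraicClosure ℚ`, an element
`g` of `Gal(Qbar/ℚ)` and a finite set `S0` of primes, there are a prime `ℓ ∉ S0`, a valuation
subring `A` of `Qbar` over `ℓ`, a Frobenius lift `τ` at `A` and `j : ℕ` with `τ ^ j = g` on `K`.

Proof: the cyclic subgroup generated by `g|_K` is the decomposition group of a prime `P` of `K`
above an unramified `ℓ ∉ S0` (`exists_prime_stabilizer_eq_zpowers`, the elementary Frobenius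
density theorem); extend `P` to a valuation subring `A` of `Qbar`, take a Frobenius lift `τ` at
`A` (`S54.H86.exists_isFrobeniusAt`); `τ|_K` lies in the decomposition group of `P` and has order
at least `f(P | ℓ)`, so it generates it.
-/
import Mathlib
import Fermat.Prelude.Def_EllipticCurve_FrobeniusTrace
import Fermat.Prelude.Def_FLTPrelim_Ramification
import Fermat.Agent.S54.Frob
import Fermat.Agent.S29.FrobCount_helper86
import Fermat.Agent.S29.FrobCheb_helper86

set_option autoImplicit false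

open NumberField Ideal
open scoped Pointwise

namespace Fermat.Agent.S29.H86

local notation "Qbar" => AlgebraicClosure ℚ

/-! ### an automorphism acting as Frobenius modulo `P` generates the decomposition group -/

section Frob

variable {L : Type*} [Field L] [NumberField L] [IsGalois ℚ L]

omit [IsGalois ℚ L] in
/-- powers of a Frobenius element. -/
theorem frob_pow_sub_mem {ℓ : ℕ} (P : Ideal (𝓞 L)) (t : L ≃ₐ[ℚ] L)
    (ht : ∀ x : 𝓞 L, t • x - x ^ ℓ ∈ P) (j : ℕ) (x : 𝓞 L) : t ^ j • x - x ^ (ℓ ^ j) ∈ P := by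
  induction j generalizing x with
  | zero => simp
  | succ j ih =>
    have h1 : t ^ (j + 1) • x - x ^ (ℓ ^ (j + 1)) =
        (t ^ j • (t • x) - (t • x) ^ (ℓ ^ j)) + ((t • x) ^ (ℓ ^ j) - (x ^ ℓ) ^ (ℓ ^ j)) := by
      rw [pow_succ, mul_smul, ← pow_mul, pow_succ' ℓ j]
      ring
    rw [h1]
    refine P.add_mem (ih (t • x)) ?_
    obtain ⟨c, hc⟩ := sub_dvd_pow_sub_pow (t • x) (x ^ ℓ) (ℓ ^ j)
    rw [hc]
    exact P.mul_mem_right c (ht x)

/-- at a good prime, an automorphism acting as `x ↦ x ^ ℓ` modulo `P` generates the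
decomposition group of `P`. -/
theorem zpowers_eq_stabilizer_of_frob {ℓ : ℕ} (hℓ : GoodPrime L ℓ) (P : Ideal (𝓞 L))
    [hP : P.IsPrime] (hm : (ℓ : 𝓞 L) ∈ P) (t : L ≃ₐ[ℚ] L)
    (ht : ∀ x : 𝓞 L, t • x - x ^ ℓ ∈ P) :
    Subgroup.zpowers t = MulAction.stabilizer (L ≃ₐ[ℚ] L) P := by
  classical
  have hlies := liesOver_span_of_mem hℓ.1 P hm
  have hmaxℓ := span_natCast_isMaximal hℓ.1
  have hPmax : P.IsMaximal := Ideal.IsMaximal.of_liesOver_isMaximal P (Ideal.span {(ℓ : ℤ)})
  -- `t` stabilises `P`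
  have htP : t ∈ MulAction.stabilizer (L ≃ₐ[ℚ] L) P := by
    rw [MulAction.mem_stabilizer_iff]
    have hle : P ≤ t⁻¹ • P := by
      intro x hx
      rw [Ideal.mem_inv_pointwise_smul_iff]
      have h1 := ht x
      have h2 : x ^ ℓ ∈ P := P.pow_mem_of_mem hx ℓ hℓ.1.pos
      have h3 : t • x = (t • x - x ^ ℓ) + x ^ ℓ := by ring
      rw [h3]
      exact P.add_mem h1 h2
    have hprime : (t⁻¹ • P).IsPrime := Ideal.IsPrime.smul _
    have heq : P = t⁻¹ • P := hPmax.eq_of_le hprime.ne_top hle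
    conv_lhs => rw [heq]
    exact smul_inv_smul t P
  have hle : Subgroup.zpowers t ≤ MulAction.stabilizer (L ≃ₐ[ℚ] L) P :=
    (Subgroup.zpowers_le).mpr htP
  refine Subgroup.eq_of_le_of_card_ge hle ?_
  rw [Nat.card_zpowers, card_stabilizer_eq_inertiaDeg hℓ P hm]
  have hord : 0 < orderOf t := orderOf_pos t
  have hpow : ∀ x : 𝓞 L, x - x ^ (ℓ ^ orderOf t) ∈ P := by
    intro x
    have := frob_pow_sub_mem P t ht (orderOf t) x
    rwa [pow_orderOf_eq_one, one_smul] at this
  have habs : absNorm P = ℓ ^ (P.inertiaDeg ℤ) := by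
    rw [Ideal.absNorm_eq_pow_inertiaDeg' P hℓ.1, Ideal.inertiaDeg'_eq_inertiaDeg]
  have hcard : absNorm P ≤ ℓ ^ orderOf t := by
    have hq : 1 < ℓ ^ orderOf t := Nat.one_lt_pow hord.ne' hℓ.1.one_lt
    have hfin : Finite (𝓞 L ⧸ P) := by
      apply Nat.finite_of_card_ne_zero
      have h0 : absNorm P ≠ 0 := by
        rw [habs]
        exact pow_ne_zero _ hℓ.1.ne_zero
      rwa [Ideal.absNorm_apply, Submodule.cardQuot_apply] at h0
    have := Fintype.ofFinite (𝓞 L ⧸ P)
    have hdeg : (Polynomial.X ^ (ℓ ^ orderOf t) - Polynomial.X :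
        Polynomial (𝓞 L ⧸ P)).natDegree = ℓ ^ orderOf t := by
      rw [Polynomial.natDegree_sub_eq_left_of_natDegree_lt, Polynomial.natDegree_X_pow]
      rw [Polynomial.natDegree_X_pow, Polynomial.natDegree_X]
      exact hq
    have hne : (Polynomial.X ^ (ℓ ^ orderOf t) - Polynomial.X : Polynomial (𝓞 L ⧸ P)) ≠ 0 :=
      Polynomial.ne_zero_of_natDegree_gt (n := 0) (by rw [hdeg]; omega)
    have hroots : (Finset.univ : Finset (𝓞 L ⧸ P)).val ⊆
        (Polynomial.X ^ (ℓ ^ orderOf t) - Polynomial.X : Polynomial (𝓞 L ⧸ P)).roots := by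
      intro a _
      rw [Polynomial.mem_roots hne, Polynomial.IsRoot.def, Polynomial.eval_sub,
        Polynomial.eval_pow, Polynomial.eval_X]
      obtain ⟨x, rfl⟩ := Ideal.Quotient.mk_surjective a
      rw [← map_pow, ← map_sub, Ideal.Quotient.eq_zero_iff_mem]
      have h2 : x ^ (ℓ ^ orderOf t) - x = -(x - x ^ (ℓ ^ orderOf t)) := by ring
      rw [h2]
      exact P.neg_mem (hpow x)
    have hc := Polynomial.card_le_degree_of_subset_roots hroots
    rw [hdeg, Finset.card_univ, ← Nat.card_eq_fintype_card] at hc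
    rwa [Ideal.absNorm_apply, Submodule.cardQuot_apply]
  rw [habs] at hcard
  exact (Nat.pow_le_pow_iff_right hℓ.1.one_lt).mp hcard

end Frob

/-! ### valuation subrings of an extension above a prime of a number field -/

section Val

variable {K E : Type*} [Field K] [NumberField K] [Field E] [Algebra K E]

omit [NumberField K] in
/-- a proper ideal of `𝓞 K` lies in the nonunits of a valuation subring of any extension. -/
theorem exists_valuationSubring_of_ideal (P : Ideal (𝓞 K)) (hP : P ≠ ⊤) :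
    ∃ A : ValuationSubring E, ∀ x ∈ P, algebraMap K E (algebraMap (𝓞 K) K x) ∈ A.nonunits := by
  let φ : 𝓞 K →+* E := (algebraMap K E).comp (algebraMap (𝓞 K) K)
  have hφ : Function.Injective φ :=
    (algebraMap K E).injective.comp RingOfIntegers.coe_injective
  have hI : P.map φ.rangeRestrict ≠ ⊤ := by
    intro h
    have h1 : (1 : φ.range) ∈ P.map φ.rangeRestrict := by rw [h]; trivial
    rw [Ideal.mem_map_iff_of_surjective _ φ.rangeRestrict_surjective] at h1
    obtain ⟨x, hx, hx1⟩ := h1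
    have h2 : φ x = 1 := congrArg Subtype.val hx1
    have h3 : x = 1 := hφ (h2.trans (map_one φ).symm)
    exact hP ((Ideal.eq_top_iff_one P).mpr (h3 ▸ hx))
  obtain ⟨A, -, hA⟩ := Ideal.image_subset_nonunits_valuationSubring _ hI
  exact ⟨A, fun x hx => hA ⟨φ.rangeRestrict x, Ideal.mem_map_of_mem _ hx, rfl⟩⟩

omit [NumberField K] in
/-- a maximal ideal of `𝓞 K` inside the nonunits of `A` is the whole centre of `A` on `𝓞 K`. -/
theorem mem_of_mem_nonunits (P : Ideal (𝓞 K)) (hP : P.IsMaximal) (A : ValuationSubring E)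
    (hA : ∀ x ∈ P, algebraMap K E (algebraMap (𝓞 K) K x) ∈ A.nonunits) (x : 𝓞 K)
    (hx : algebraMap K E (algebraMap (𝓞 K) K x) ∈ A.nonunits) : x ∈ P := by
  by_contra hxP
  obtain ⟨y, i, hi, hyi⟩ := hP.exists_inv hxP
  have hyA : algebraMap K E (algebraMap (𝓞 K) K y) ∈ A :=
    Fermat.Agent.S54.H86.mem_of_isIntegral_int A
      (map_isIntegral_int (algebraMap K E) (RingOfIntegers.isIntegral_coe y))
  have h1 : algebraMap K E (algebraMap (𝓞 K) K (y * x + i)) ∈ A.nonunits := by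
    rw [map_add, map_add, map_mul, map_mul]
    exact A.nonunits.add_mem (Fermat.Agent.S54.H86.mul_mem_nonunits A hyA hx) (hA i hi)
  rw [hyi, map_one, map_one] at h1
  exact Fermat.Agent.S54.H86.one_not_mem_nonunits A h1

end Val

/-- a Frobenius lift at `A` acts as `a ↦ a ^ ℓ` on `A` modulo the nonunits. -/
theorem frob_sub_pow_mem_nonunits {E : Type*} [Field E] [Algebra ℚ E] (A : ValuationSubring E)
    {τ : E ≃ₐ[ℚ] E} {ℓ : ℕ} (hτ : A.IsFrobeniusAt τ ℓ) {a : E} (ha : a ∈ A) :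
    τ a - a ^ ℓ ∈ A.nonunits := by
  obtain ⟨hσ, hx⟩ := hτ
  have h1 : IsLocalRing.residue A
      ((⟨τ, hσ⟩ : A.decompositionSubgroup ℚ) • (⟨a, ha⟩ : A) - (⟨a, ha⟩ : A) ^ ℓ) = 0 := by
    rw [map_sub, IsLocalRing.ResidueField.residue_smul, hx, map_pow, sub_self]
  rw [IsLocalRing.residue_eq_zero_iff, ← ValuationSubring.coe_mem_nonunits_iff] at h1
  exact h1

/-- **(FD) Frobenius power.**  For a finite Galois extension `K / ℚ` inside `Qbar`, every
`g ∈ Gal(Qbar/ℚ)` agrees on `K` with a power of a Frobenius lift at a prime `ℓ` outside any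
given finite set. -/
theorem frobenius_power (K : IntermediateField ℚ Qbar) [FiniteDimensional ℚ K] [IsGalois ℚ K]
    (g : Qbar ≃ₐ[ℚ] Qbar) (S0 : Finset ℕ) :
    ∃ ℓ, ℓ.Prime ∧ ℓ ∉ S0 ∧ ∃ A : ValuationSubring Qbar, A.LiesOverPrime ℓ ∧
      ∃ τ : Qbar ≃ₐ[ℚ] Qbar, A.IsFrobeniusAt τ ℓ ∧ ∃ j : ℕ, ∀ x ∈ K, (τ ^ j) x = g x := by
  have : NumberField K :=
    { to_charZero := inferInstance, to_finiteDimensional := inferInstance }
  have := Fermat.Agent.S54.H86.isGalois_algebraicClosure_rat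
  obtain ⟨ℓ, hgood, hℓS, P, hP, hm, hstab⟩ :=
    exists_prime_stabilizer_eq_zpowers K (AlgEquiv.restrictNormalHom K g) S0
  have hlies := liesOver_span_of_mem hgood.1 P hm
  have hmaxℓ := span_natCast_isMaximal hgood.1
  have hPmax : P.IsMaximal := Ideal.IsMaximal.of_liesOver_isMaximal P (Ideal.span {(ℓ : ℤ)})
  obtain ⟨A, hA⟩ := exists_valuationSubring_of_ideal (E := Qbar) P hP.ne_top
  have hAℓ : (ℓ : Qbar) ∈ A.nonunits := by
    have := hA _ hm
    simpa using this
  obtain ⟨τ, hτ⟩ := Fermat.Agent.S54.H86.exists_isFrobeniusAt A hgood.1 hAℓ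
  refine ⟨ℓ, hgood.1, hℓS, A, hAℓ, τ, hτ, ?_⟩
  have ht : ∀ x : 𝓞 K, (AlgEquiv.restrictNormalHom K τ) • x - x ^ ℓ ∈ P := by
    intro x
    refine mem_of_mem_nonunits P hPmax A hA _ ?_
    have hxA : algebraMap K Qbar (algebraMap (𝓞 K) K x) ∈ A :=
      Fermat.Agent.S54.H86.mem_of_isIntegral_int A
        (map_isIntegral_int (algebraMap K Qbar) (RingOfIntegers.isIntegral_coe x))
    have h1 := frob_sub_pow_mem_nonunits A hτ hxA
    have h2 : algebraMap K Qbar (algebraMap (𝓞 K) K ((AlgEquiv.restrictNormalHom K τ) • x - x ^ ℓ))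
        = τ (algebraMap K Qbar (algebraMap (𝓞 K) K x)) -
          (algebraMap K Qbar (algebraMap (𝓞 K) K x)) ^ ℓ := by
      rw [map_sub, map_sub, map_pow, map_pow]
      congr 1
      exact AlgEquiv.restrictNormal_commutes τ K (algebraMap (𝓞 K) K x)
    rw [h2]
    exact h1
  have hz := zpowers_eq_stabilizer_of_frob hgood P hm (AlgEquiv.restrictNormalHom K τ) ht
  have hmem : AlgEquiv.restrictNormalHom K g ∈
      Subgroup.zpowers (AlgEquiv.restrictNormalHom K τ) := by
    rw [hz, hstab]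
    exact Subgroup.mem_zpowers _
  obtain ⟨j, hj⟩ := mem_powers_iff_mem_zpowers.mpr hmem
  refine ⟨j, fun x hx => ?_⟩
  have h1 : AlgEquiv.restrictNormalHom K (τ ^ j) = AlgEquiv.restrictNormalHom K g := by
    rw [map_pow]
    exact hj
  have h2 := AlgEquiv.restrictNormal_commutes (τ ^ j) K ⟨x, hx⟩
  have h3 := AlgEquiv.restrictNormal_commutes g K ⟨x, hx⟩
  have h4 : (τ ^ j).restrictNormal K = g.restrictNormal K := h1
  rw [h4, h3] at h2
  exact h2.symm

end Fermat.Agent.S29.H86
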