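/-
(K0) for S29 (helper46).

`φ : integralClosure ℤ ℂ →+* k` with `k` a field of characteristic `p` forces `k` to contain the
algebraically closed field `k₀ := Zbar ⧸ ker φ`.  This file provides

* `ker_isMaximal`, `isAlgClosed_quotient` : `ker φ` is maximal and `Zbar ⧸ ker φ` is algebraically
  closed;
* `exists_algClosed_residue` : the packaged existential form `(k₀, ι, φ₀)` with `ι ∘ φ₀ = φ`,
  `φ₀` surjective, `k₀` algebraically closed of characteristic `p`;
* base change of a `ResidualGaloisRep` along a field embedding keeps `IsAttachedTo` and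
  `IsUnramifiedAt`;
* `s29_of_algClosed` : the frozen S29 conclusion for `(k, φ)` follows from the same conclusion for
  every algebraically closed `k₀` with surjective `φ₀`;
* `exists_trivial_rep`, `s29_level_zero` : the trivial two-dimensional representation and the
  vacuous case `N = 0`.
-/
import Mathlib
import Fermat.Prelude.Def_GaloisRep_Residual

set_option autoImplicit false
set_option linter.style.haveILetI false

namespace Fermat.Agent.S29.H46

open Polynomial

/-- Every monic polynomial of positive degree over `Zbar` has a root in `Zbar`. -/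
theorem zbar_exists_root (P : (integralClosure ℤ ℂ)[X]) (hP : P.Monic) (hd : 0 < P.natDegree) :
    ∃ a : integralClosure ℤ ℂ, P.eval a = 0 := by
  have hdeg : (P.map (algebraMap (integralClosure ℤ ℂ) ℂ)).degree ≠ 0 := by
    rw [Polynomial.degree_map_eq_of_injective (FaithfulSMul.algebraMap_injective _ _)]
    intro h
    have h2 := Polynomial.natDegree_eq_of_degree_eq_some h
    rw [h2] at hd
    exact lt_irrefl _ hd
  obtain ⟨z, hz⟩ := IsAlgClosed.exists_root (P.map (algebraMap (integralClosure ℤ ℂ) ℂ)) hdeg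
  have hz' : Polynomial.eval₂ (algebraMap (integralClosure ℤ ℂ) ℂ) z P = 0 := by
    rwa [Polynomial.IsRoot.def, Polynomial.eval_map] at hz
  have hint : IsIntegral (integralClosure ℤ ℂ) z := ⟨P, hP, hz'⟩
  have hintZ : IsIntegral ℤ z := by
    have : Algebra.IsIntegral ℤ (integralClosure ℤ ℂ) := inferInstance
    exact isIntegral_trans z hint
  refine ⟨⟨z, hintZ⟩, ?_⟩
  apply (FaithfulSMul.algebraMap_injective (integralClosure ℤ ℂ) ℂ)
  rw [map_zero, ← Polynomial.eval₂_hom]
  exact hz'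

section residue

variable {k : Type} [Field k]

/-- The kernel of a ring hom from `Zbar` to a field of characteristic `p` is a maximal ideal. -/
theorem ker_isMaximal {p : ℕ} (hp : p.Prime) [CharP k p] (φ : integralClosure ℤ ℂ →+* k) :
    (RingHom.ker φ).IsMaximal := by
  have hprime : (RingHom.ker φ).IsPrime := RingHom.ker_isPrime φ
  have hcomap : (Ideal.comap (algebraMap ℤ (integralClosure ℤ ℂ)) (RingHom.ker φ)).IsMaximal := by
    have hpr : (Ideal.comap (algebraMap ℤ (integralClosure ℤ ℂ)) (RingHom.ker φ)).IsPrime :=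
      Ideal.comap_isPrime _ _
    refine hpr.isMaximal ?_
    intro hbot
    have hmem : (p : ℤ) ∈ Ideal.comap (algebraMap ℤ (integralClosure ℤ ℂ)) (RingHom.ker φ) := by
      rw [Ideal.mem_comap, RingHom.mem_ker]
      have : φ (algebraMap ℤ (integralClosure ℤ ℂ) (p : ℤ)) = ((p : ℕ) : k) := by
        simp
      rw [this]
      exact CharP.cast_eq_zero k p
    rw [hbot, Ideal.mem_bot] at hmem
    exact hp.ne_zero (by exact_mod_cast hmem)
  exact Ideal.isMaximal_of_isIntegral_of_isMaximal_comap (RingHom.ker φ) hcomap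

/-- `Zbar ⧸ 𝔪` is algebraically closed for every maximal ideal `𝔪`. -/
theorem isAlgClosed_quotient (I : Ideal (integralClosure ℤ ℂ)) [I.IsMaximal] :
    letI := Ideal.Quotient.field I
    IsAlgClosed ((integralClosure ℤ ℂ) ⧸ I) := by
  letI := Ideal.Quotient.field I
  refine IsAlgClosed.of_exists_root _ ?_
  intro Q hQ hirr
  have hQ' : Q ∈ Polynomial.lifts (Ideal.Quotient.mk I) := by
    rw [Polynomial.lifts_iff_coeff_lifts]
    intro n
    exact Ideal.Quotient.mk_surjective (Q.coeff n)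
  obtain ⟨P, hPQ, hPd, hPm⟩ := Polynomial.lifts_and_degree_eq_and_monic hQ' hQ
  have hnd : P.natDegree = Q.natDegree := Polynomial.natDegree_eq_of_degree_eq hPd
  have hpos : 0 < Q.natDegree := hirr.natDegree_pos
  obtain ⟨a, ha⟩ := zbar_exists_root P hPm (hnd ▸ hpos)
  refine ⟨Ideal.Quotient.mk I a, ?_⟩
  rw [← hPQ, Polynomial.eval_map, Polynomial.eval₂_hom, ha, map_zero]

/-- Packaged form: a ring hom `φ : Zbar →+* k` into a field of characteristic `p` factors as
`ι ∘ φ₀` through an algebraically closed field `k₀` of characteristic `p`, with `φ₀` surjective. -/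
theorem exists_algClosed_residue {p : ℕ} (hp : p.Prime) [CharP k p]
    (φ : integralClosure ℤ ℂ →+* k) :
    ∃ (k₀ : Type) (_ : Field k₀) (_ : IsAlgClosed k₀) (_ : CharP k₀ p) (ι : k₀ →+* k)
      (φ₀ : integralClosure ℤ ℂ →+* k₀), ι.comp φ₀ = φ ∧ Function.Surjective φ₀ := by
  haveI hmax : (RingHom.ker φ).IsMaximal := ker_isMaximal hp φ
  letI : Field ((integralClosure ℤ ℂ) ⧸ RingHom.ker φ) := Ideal.Quotient.field (RingHom.ker φ)
  have halg : IsAlgClosed ((integralClosure ℤ ℂ) ⧸ RingHom.ker φ) :=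
    isAlgClosed_quotient (RingHom.ker φ)
  let ι : ((integralClosure ℤ ℂ) ⧸ RingHom.ker φ) →+* k := RingHom.kerLift φ
  have hchar : CharP ((integralClosure ℤ ℂ) ⧸ RingHom.ker φ) p :=
    (RingHom.charP_iff ι ι.injective p).mpr inferInstance
  refine ⟨(integralClosure ℤ ℂ) ⧸ RingHom.ker φ, inferInstance, halg, hchar, ι,
    Ideal.Quotient.mk (RingHom.ker φ), ?_, Ideal.Quotient.mk_surjective⟩
  ext x
  rfl

end residue

section baseChange

variable {k₀ k : Type} [Field k₀] [Field k]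

/-- Base change along a field embedding keeps unramifiedness. -/
theorem isUnramifiedAt_baseChangeAlong (ι : k₀ →+* k) (ρ : ResidualGaloisRep k₀) {q : ℕ}
    (h : ρ.IsUnramifiedAt q) : (ρ.baseChangeAlong ι).IsUnramifiedAt q := by
  intro A hA σ hσ
  have h1 := h A hA σ hσ
  letI : Algebra k₀ k := ι.toAlgebra
  show (ρ.ρ σ).baseChange k = 1
  rw [h1, LinearMap.baseChange_one]

/-- The characteristic polynomial of the base change is the image of the characteristic
polynomial. -/
theorem charpoly_baseChangeAlong (ι : k₀ →+* k) (ρ : ResidualGaloisRep k₀)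
    (σ : AlgebraicClosure ℚ ≃ₐ[ℚ] AlgebraicClosure ℚ) :
    LinearMap.charpoly ((ρ.baseChangeAlong ι).ρ σ) = (LinearMap.charpoly (ρ.ρ σ)).map ι := by
  letI : Algebra k₀ k := ι.toAlgebra
  show LinearMap.charpoly ((ρ.ρ σ).baseChange k) = _
  rw [LinearMap.charpoly_baseChange]
  rfl

/-- Base change along a field embedding keeps `IsAttachedTo`. -/
theorem isAttachedTo_baseChangeAlong (ι : k₀ →+* k) (ρ : ResidualGaloisRep k₀) {N : ℕ}
    (g : CuspForm (CongruenceSubgroup.Gamma0 N) 2) (φ₀ : integralClosure ℤ ℂ →+* k₀)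
    (h : ρ.IsAttachedTo g φ₀) : (ρ.baseChangeAlong ι).IsAttachedTo g (ι.comp φ₀) := by
  intro ℓ hℓ hℓN hℓk A hA σ hσ
  have hℓk₀ : ((ℓ : ℕ) : k₀) ≠ 0 := by
    intro h0
    apply hℓk
    have : ((ℓ : ℕ) : k) = ι ((ℓ : ℕ) : k₀) := (map_natCast ι ℓ).symm
    rw [this, h0, map_zero]
  obtain ⟨a, ha, hchar⟩ := h ℓ hℓ hℓN hℓk₀ A hA σ hσ
  refine ⟨a, ha, ?_⟩
  rw [charpoly_baseChangeAlong, hchar]
  simp [Polynomial.map_sub, Polynomial.map_add, Polynomial.map_mul, Polynomial.map_pow]

end baseChange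

section top

variable {k : Type} [Field k]

/-- The trivial two-dimensional representation. -/
theorem exists_trivial_rep : ∃ ρ : ResidualGaloisRep k, ∀ σ, ρ.ρ σ = 1 := by
  refine ⟨{ V := Fin 2 → k
            finrank_eq := by simp
            ρ := 1
            factorsThroughFiniteLevel := ⟨⊥, inferInstance, fun σ _ => rfl⟩ }, fun σ => rfl⟩

/-- The frozen S29 conclusion in the vacuous case `N = 0`. -/
theorem s29_level_zero {g : CuspForm (CongruenceSubgroup.Gamma0 0) 2} {p : ℕ}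
    (φ : integralClosure ℤ ℂ →+* k) :
    ∃ ρ : ResidualGaloisRep k, ρ.IsAttachedTo g φ ∧
      ∀ ℓ : ℕ, ℓ.Prime → ¬ ℓ ∣ 0 * p → ρ.IsUnramifiedAt ℓ := by
  obtain ⟨ρ, -⟩ := exists_trivial_rep (k := k)
  refine ⟨ρ, ?_, ?_⟩
  · intro ℓ _ hℓN
    exact absurd (dvd_zero ℓ) hℓN
  · intro ℓ _ hℓ
    rw [zero_mul] at hℓ
    exact absurd (dvd_zero ℓ) hℓ

/-- Reduction of the frozen S29 conclusion to algebraically closed residue fields with surjective
`φ₀` (i.e. `k₀ = Zbar ⧸ 𝔪`). -/
theorem s29_of_algClosed {N : ℕ} {g : CuspForm (CongruenceSubgroup.Gamma0 N) 2} {p : ℕ}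
    (hp : p.Prime)
    (H : ∀ (k₀ : Type) [Field k₀] [IsAlgClosed k₀] [CharP k₀ p]
      (φ₀ : integralClosure ℤ ℂ →+* k₀), Function.Surjective φ₀ →
      ∃ ρ₀ : ResidualGaloisRep k₀, ρ₀.IsAttachedTo g φ₀ ∧
        ∀ ℓ : ℕ, ℓ.Prime → ¬ ℓ ∣ N * p → ρ₀.IsUnramifiedAt ℓ)
    [CharP k p] (φ : integralClosure ℤ ℂ →+* k) :
    ∃ ρ : ResidualGaloisRep k, ρ.IsAttachedTo g φ ∧
      ∀ ℓ : ℕ, ℓ.Prime → ¬ ℓ ∣ N * p → ρ.IsUnramifiedAt ℓ := by
  obtain ⟨k₀, hF, hAC, hCh, ι, φ₀, hφ, hsurj⟩ := exists_algClosed_residue hp φ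
  obtain ⟨ρ₀, hatt, hunr⟩ := H k₀ φ₀ hsurj
  refine ⟨ρ₀.baseChangeAlong ι, ?_, fun ℓ hℓ hℓN => isUnramifiedAt_baseChangeAlong ι ρ₀ (hunr ℓ hℓ hℓN)⟩
  rw [← hφ]
  exact isAttachedTo_baseChangeAlong ι ρ₀ g φ₀ hatt

end top

end Fermat.Agent.S29.H46
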