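/-
S29 (TOP), helper24: from the five interface statements
(WIT) witness module, (CYC) cyclotomic character, (FD) Frobenius powers,
(TOP-ALG) quadratic relations give a rank two representation, (K0) the residue field of `φ`
to the frozen statement S29.
-/
import Mathlib
import Fermat.Prelude.Def_GaloisRep_Residual

set_option autoImplicit false

open Polynomial

namespace Fermat.Agent.S29.H24

/-- The frozen statement S29, as a `Prop`. -/
def S29Stmt : Prop :=
  ∀ {N : ℕ} {g : CuspForm (CongruenceSubgroup.Gamma0 N) 2} (_ : g.IsNormalizedEigenform)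
    {p : ℕ} (_ : p.Prime) {k : Type} [Field k] [CharP k p]
    (φ : integralClosure ℤ ℂ →+* k),
    ∃ ρ : ResidualGaloisRep k, ρ.IsAttachedTo g φ ∧
      ∀ ℓ : ℕ, ℓ.Prime → ¬ ℓ ∣ N * p → ρ.IsUnramifiedAt ℓ

/-- (WIT) the witness module: a nonzero finite-dimensional Galois module over `k0` of finite
level, unramified outside `N p`, on which every Frobenius lift at `ℓ ∤ N p` satisfies the
Eichler-Shimura quadratic relation with the reduction of `a_ℓ`. -/
def WitStmt : Prop :=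
  ∀ (N : ℕ) [NeZero N] (g : CuspForm (CongruenceSubgroup.Gamma0 N) 2), g.IsNormalizedEigenform →
    ∀ (p : ℕ), p.Prime → ∀ (k0 : Type) [Field k0] [CharP k0 p] [IsAlgClosed k0]
      (φ0 : integralClosure ℤ ℂ →+* k0), Function.Surjective φ0 →
      ∃ (W : Type) (_ : AddCommGroup W) (_ : Module k0 W) (_ : FiniteDimensional k0 W)
        (_ : Nontrivial W)
        (r : (AlgebraicClosure ℚ ≃ₐ[ℚ] AlgebraicClosure ℚ) →* Module.End k0 W),
        GaloisFactorsThroughFiniteLevel r ∧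
        ∀ ℓ : ℕ, ℓ.Prime → ¬ ℓ ∣ N * p →
          ∀ A : ValuationSubring (AlgebraicClosure ℚ), A.LiesOverPrime ℓ →
            (∀ σ ∈ A.inertiaSubgroupIn ℚ, r σ = 1) ∧
            ∃ a : integralClosure ℤ ℂ, (a : ℂ) = ModularFormClass.qCoeff g ℓ ∧
              ∀ σ : AlgebraicClosure ℚ ≃ₐ[ℚ] AlgebraicClosure ℚ, A.IsFrobeniusAt σ ℓ →
                r σ * r σ + (ℓ : k0) • (1 : Module.End k0 W) = φ0 a • r σ

/-- (CYC) the mod `p` cyclotomic character with values in a field of characteristic `p`. -/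
def CycStmt : Prop :=
  ∀ (p : ℕ), p.Prime → ∀ (k0 : Type) [Field k0] [CharP k0 p],
    ∃ δ : (AlgebraicClosure ℚ ≃ₐ[ℚ] AlgebraicClosure ℚ) →* k0ˣ,
      GaloisFactorsThroughFiniteLevel δ ∧
      ∀ ℓ : ℕ, ℓ.Prime → ℓ ≠ p →
        ∀ A : ValuationSubring (AlgebraicClosure ℚ), A.LiesOverPrime ℓ →
          (∀ σ ∈ A.inertiaSubgroupIn ℚ, δ σ = 1) ∧
          ∀ σ : AlgebraicClosure ℚ ≃ₐ[ℚ] AlgebraicClosure ℚ, A.IsFrobeniusAt σ ℓ →
            ((δ σ : k0ˣ) : k0) = (ℓ : k0)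

/-- (FD) every automorphism agrees, on a given finite Galois level, with a power of a Frobenius
lift at a prime outside a given finite set. -/
def FDStmt : Prop :=
  ∀ (K : IntermediateField ℚ (AlgebraicClosure ℚ)) [FiniteDimensional ℚ K] [IsGalois ℚ K]
    (g : AlgebraicClosure ℚ ≃ₐ[ℚ] AlgebraicClosure ℚ) (S0 : Finset ℕ),
    ∃ ℓ : ℕ, ℓ.Prime ∧ ℓ ∉ S0 ∧ ∃ A : ValuationSubring (AlgebraicClosure ℚ),
      A.LiesOverPrime ℓ ∧ ∃ τ : AlgebraicClosure ℚ ≃ₐ[ℚ] AlgebraicClosure ℚ,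
        A.IsFrobeniusAt τ ℓ ∧ ∃ j : ℕ, ∀ x ∈ K, (τ ^ j) x = g x

/-- (TOP-ALG) quadratic relations with a multiplicative constant term give a representation of
rank two with the expected characteristic polynomials. -/
def TopAlgStmt : Prop :=
  ∀ (k : Type) [Field k] [IsAlgClosed k] (G : Type) [Group G] (W : Type) [AddCommGroup W]
    [Module k W] [FiniteDimensional k W] [Nontrivial W] (r : G →* Module.End k W)
    (δ : G →* kˣ) (t : G → k),
    (∀ g, r g * r g + (δ g : k) • (1 : Module.End k W) = t g • r g) →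
    ∃ ρ : G →* Matrix (Fin 2) (Fin 2) k,
      (∀ g, (ρ g).charpoly = X ^ 2 - C (t g) * X + C (δ g : k)) ∧
      ∀ g, r g = 1 → δ g = 1 → ρ g = 1

/-- (K0) the kernel of `φ` is maximal and the residue field is algebraically closed. -/
def K0Stmt : Prop :=
  ∀ (p : ℕ), p.Prime → ∀ (k : Type) [Field k] [CharP k p] (φ : integralClosure ℤ ℂ →+* k),
    ∃ (_ : (RingHom.ker φ).IsMaximal),
      @IsAlgClosed (integralClosure ℤ ℂ ⧸ RingHom.ker φ) (Ideal.Quotient.field (RingHom.ker φ))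

/-! ### The power trick -/

/-- If `s` satisfies `s² + d = a s` then `s ^ j` satisfies `(s ^ j)² + d ^ j = t s ^ j` for some
scalar `t`. -/
theorem pow_quad {R : Type*} [CommRing R] {E : Type*} [Ring E] [Algebra R E] (s : E) (a d : R)
    (h : s * s + d • (1 : E) = a • s) (j : ℕ) :
    ∃ t : R, s ^ j * s ^ j + d ^ j • (1 : E) = t • s ^ j := by
  set s' : E := a • (1 : E) - s with hs'
  have hc : Commute s s' := by
    refine Commute.sub_right ?_ (Commute.refl s)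
    exact (Commute.one_right s).smul_right a
  have hss' : s * s' = d • (1 : E) := by
    rw [hs', mul_sub, mul_smul_comm, mul_one, ← h]
    abel
  have hs's : s' * s = d • (1 : E) := by rw [← hc.eq, hss']
  have hadd : s + s' = a • (1 : E) := by rw [hs']; abel
  have key : ∀ j : ℕ, (∃ t : R, s ^ j + s' ^ j = t • (1 : E)) ∧
      (∃ t : R, s ^ (j + 1) + s' ^ (j + 1) = t • (1 : E)) := by
    intro j
    induction j with
    | zero =>
      refine ⟨⟨2, ?_⟩, ⟨a, ?_⟩⟩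
      · rw [pow_zero, pow_zero, two_smul]
      · rw [zero_add, pow_one, pow_one, hadd]
    | succ j ih =>
      obtain ⟨⟨t0, h0⟩, ⟨t1, h1⟩⟩ := ih
      refine ⟨⟨t1, h1⟩, ⟨a * t1 - d * t0, ?_⟩⟩
      have e1 : (s + s') * (s ^ (j + 1) + s' ^ (j + 1)) =
          s ^ (j + 1 + 1) + s' ^ (j + 1 + 1) + d • (s ^ j + s' ^ j) := by
        have a1 : s * s' ^ (j + 1) = d • s' ^ j := by
          rw [pow_succ', ← mul_assoc, hss', smul_mul_assoc, one_mul]
        have a2 : s' * s ^ (j + 1) = d • s ^ j := by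
          rw [pow_succ', ← mul_assoc, hs's, smul_mul_assoc, one_mul]
        rw [add_mul, mul_add, mul_add, a1, a2, ← pow_succ', ← pow_succ', smul_add]
        abel
      rw [hadd, h1, h0] at e1
      have e2 : s ^ (j + 1 + 1) + s' ^ (j + 1 + 1) =
          a • (1 : E) * t1 • (1 : E) - d • t0 • (1 : E) := by
        rw [e1]; abel
      rw [e2, smul_mul_smul_comm, mul_one, smul_smul, ← sub_smul]
  obtain ⟨t, ht⟩ := (key j).1
  refine ⟨t, ?_⟩
  have hp : s ^ j * s' ^ j = d ^ j • (1 : E) := by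
    rw [← hc.mul_pow, hss', _root_.smul_pow, one_pow]
  calc s ^ j * s ^ j + d ^ j • (1 : E) = s ^ j * (s ^ j + s' ^ j) := by rw [mul_add, hp]
    _ = t • s ^ j := by rw [ht, mul_smul_comm, mul_one]

/-! ### Small tools -/

/-- The level `N = 0` is vacuous. -/
theorem s29_zero {g : CuspForm (CongruenceSubgroup.Gamma0 0) 2} {p : ℕ} {k : Type} [Field k]
    (φ : integralClosure ℤ ℂ →+* k) :
    ∃ ρ : ResidualGaloisRep k, ρ.IsAttachedTo g φ ∧
      ∀ ℓ : ℕ, ℓ.Prime → ¬ ℓ ∣ 0 * p → ρ.IsUnramifiedAt ℓ := by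
  refine ⟨{ V := Fin 2 → k
            finrank_eq := by simp
            ρ := 1
            factorsThroughFiniteLevel := ⟨⊥, inferInstance, fun _ _ => rfl⟩ }, ?_, ?_⟩
  · intro ℓ _ hN
    exact absurd (dvd_zero ℓ) hN
  · intro ℓ _ hN
    exact absurd (by simp) hN

/-- A scalar multiple of an invertible endomorphism of a nontrivial module vanishes only for the
zero scalar. -/
theorem smul_unit_eq_zero {k W : Type*} [Field k] [AddCommGroup W] [Module k W] [Nontrivial W]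
    {u v : Module.End k W} (huv : u * v = 1) {c : k} (hc : c • u = 0) : c = 0 := by
  have h1 : c • (1 : Module.End k W) = 0 := by
    rw [← huv, ← smul_mul_assoc, hc, zero_mul]
  by_contra hne
  have := congrArg (fun x => c⁻¹ • x) h1
  simp [smul_smul, inv_mul_cancel₀ hne] at this

/-- The matrix representation as a representation on `Fin 2 → k`. -/
noncomputable def matRep {k : Type} [Field k] {G : Type} [Group G]
    (ρ : G →* Matrix (Fin 2) (Fin 2) k) : G →* Module.End k (Fin 2 → k) :=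
  (Matrix.toLinAlgEquiv' : Matrix (Fin 2) (Fin 2) k ≃ₐ[k] Module.End k (Fin 2 → k)).toAlgHom.toRingHom.toMonoidHom.comp ρ

theorem matRep_apply {k : Type} [Field k] {G : Type} [Group G]
    (ρ : G →* Matrix (Fin 2) (Fin 2) k) (g : G) : matRep ρ g = Matrix.toLin' (ρ g) := rfl

theorem charpoly_matRep {k : Type} [Field k] {G : Type} [Group G]
    (ρ : G →* Matrix (Fin 2) (Fin 2) k) (g : G) :
    LinearMap.charpoly (matRep ρ g) = (ρ g).charpoly := by
  rw [matRep_apply, Matrix.charpoly_toLin']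

theorem normal_algebraicClosure_rat : Normal ℚ (AlgebraicClosure ℚ) := by
  have h : (DivisionRing.toRatAlgebra : Algebra ℚ (AlgebraicClosure ℚ)) =
      AlgebraicClosure.instAlgebra ℚ := Subsingleton.elim _ _
  rw [h]
  infer_instance

/-! ### The representation over the residue field -/

/-- The representation over the algebraically closed residue field `k0`. -/
theorem exists_rep_k0 (hC : CycStmt) (hF : FDStmt) (hT : TopAlgStmt)
    (N : ℕ) [NeZero N] (g : CuspForm (CongruenceSubgroup.Gamma0 N) 2)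
    (p : ℕ) (hp : p.Prime) (k0 : Type) [Field k0] [CharP k0 p] [IsAlgClosed k0]
    (φ0 : integralClosure ℤ ℂ →+* k0)
    (W : Type) [AddCommGroup W] [Module k0 W] [FiniteDimensional k0 W] [Nontrivial W]
    (r : (AlgebraicClosure ℚ ≃ₐ[ℚ] AlgebraicClosure ℚ) →* Module.End k0 W)
    (hrfin : GaloisFactorsThroughFiniteLevel r)
    (hr : ∀ ℓ : ℕ, ℓ.Prime → ¬ ℓ ∣ N * p →
          ∀ A : ValuationSubring (AlgebraicClosure ℚ), A.LiesOverPrime ℓ →
            (∀ σ ∈ A.inertiaSubgroupIn ℚ, r σ = 1) ∧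
            ∃ a : integralClosure ℤ ℂ, (a : ℂ) = ModularFormClass.qCoeff g ℓ ∧
              ∀ σ : AlgebraicClosure ℚ ≃ₐ[ℚ] AlgebraicClosure ℚ, A.IsFrobeniusAt σ ℓ →
                r σ * r σ + (ℓ : k0) • (1 : Module.End k0 W) = φ0 a • r σ) :
    ∃ ρ : ResidualGaloisRep k0, ρ.IsAttachedTo g φ0 ∧
      ∀ ℓ : ℕ, ℓ.Prime → ¬ ℓ ∣ N * p → ρ.IsUnramifiedAt ℓ := by
  classical
  obtain ⟨δ, hδfin, hδ⟩ := hC p hp k0
  obtain ⟨L1, hL1fd, hL1⟩ := hrfin
  obtain ⟨L2, hL2fd, hL2⟩ := hδfin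
  have hNp : N * p ≠ 0 := mul_ne_zero (NeZero.ne N) hp.ne_zero
  -- the Galois level
  let K : IntermediateField ℚ (AlgebraicClosure ℚ) :=
    IntermediateField.normalClosure ℚ ↥(L1 ⊔ L2) (AlgebraicClosure ℚ)
  have hLK : L1 ⊔ L2 ≤ K := (L1 ⊔ L2).le_normalClosure
  have : FiniteDimensional ℚ K := normalClosure.is_finiteDimensional _ _ _
  have hnQ : Normal ℚ (AlgebraicClosure ℚ) := normal_algebraicClosure_rat
  have : Normal ℚ K := normalClosure.normal _ _ _
  have : IsGalois ℚ K := ⟨⟩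
  -- the relation for all `g`
  have hall : ∀ σ : AlgebraicClosure ℚ ≃ₐ[ℚ] AlgebraicClosure ℚ,
      ∃ t : k0, r σ * r σ + ((δ σ : k0ˣ) : k0) • (1 : Module.End k0 W) = t • r σ := by
    intro σ
    obtain ⟨ℓ, hℓ, hℓS, A, hA, τ, hτ, j, hj⟩ := hF K σ (N * p).primeFactors
    have hℓNp : ¬ ℓ ∣ N * p := fun h => hℓS (Nat.mem_primeFactors.mpr ⟨hℓ, h, hNp⟩)
    have hℓp : ℓ ≠ p := fun h => hℓNp (h ▸ dvd_mul_left p N)
    obtain ⟨-, a, -, hfrob⟩ := hr ℓ hℓ hℓNp A hA
    have h1 := hfrob τ hτ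
    have hfix : ∀ x ∈ L1 ⊔ L2, ((τ ^ j)⁻¹ * σ) x = x := by
      intro x hx
      rw [AlgEquiv.mul_apply, ← hj x (hLK hx)]
      exact (τ ^ j).symm_apply_apply x
    have hrσ : r σ = r τ ^ j := by
      have h2 : r ((τ ^ j)⁻¹ * σ) = 1 := hL1 _ fun x hx => hfix x (le_sup_left (a := L1) hx)
      calc r σ = r (τ ^ j * ((τ ^ j)⁻¹ * σ)) := by rw [mul_inv_cancel_left]
        _ = r τ ^ j := by rw [map_mul, h2, mul_one, map_pow]
    have hδσ : δ σ = δ τ ^ j := by
      have h2 : δ ((τ ^ j)⁻¹ * σ) = 1 := hL2 _ fun x hx => hfix x (le_sup_right (b := L2) hx)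
      calc δ σ = δ (τ ^ j * ((τ ^ j)⁻¹ * σ)) := by rw [mul_inv_cancel_left]
        _ = δ τ ^ j := by rw [map_mul, h2, mul_one, map_pow]
    have hδτ : ((δ τ : k0ˣ) : k0) = (ℓ : k0) := (hδ ℓ hℓ hℓp A hA).2 τ hτ
    obtain ⟨t, ht⟩ := pow_quad (r τ) (φ0 a) (ℓ : k0) h1 j
    refine ⟨t, ?_⟩
    rw [hrσ, hδσ, Units.val_pow_eq_pow_val, hδτ]
    exact ht
  choose t ht using hall
  obtain ⟨ρ, hρchar, hρone⟩ := hT k0 (AlgebraicClosure ℚ ≃ₐ[ℚ] AlgebraicClosure ℚ) W r δ t ht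
  refine ⟨{ V := Fin 2 → k0
            finrank_eq := by simp
            ρ := matRep ρ
            factorsThroughFiniteLevel := ⟨L1 ⊔ L2, inferInstance, fun σ hσ => ?_⟩ }, ?_, ?_⟩
  · have h1 : r σ = 1 := hL1 σ fun x hx => hσ x (le_sup_left (a := L1) hx)
    have h2 : δ σ = 1 := hL2 σ fun x hx => hσ x (le_sup_right (b := L2) hx)
    rw [matRep_apply, hρone σ h1 h2]
    exact map_one (Matrix.toLinAlgEquiv' : Matrix (Fin 2) (Fin 2) k0 ≃ₐ[k0] _)
  · intro ℓ hℓ hℓN hℓk A hA σ hσ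
    have hℓp : ℓ ≠ p := by
      rintro rfl
      exact hℓk (CharP.cast_eq_zero k0 ℓ)
    have hℓNp : ¬ ℓ ∣ N * p := fun h =>
      (hℓ.dvd_mul.mp h).elim hℓN fun h' => hℓp ((Nat.prime_dvd_prime_iff_eq hℓ hp).mp h')
    obtain ⟨-, a, ha, hfrob⟩ := hr ℓ hℓ hℓNp A hA
    have h1 := hfrob σ hσ
    have hδσ : ((δ σ : k0ˣ) : k0) = (ℓ : k0) := (hδ ℓ hℓ hℓp A hA).2 σ hσ
    have h2 := ht σ
    rw [hδσ, h1] at h2
    have h3 : (φ0 a - t σ) • r σ = 0 := by rw [sub_smul, h2, sub_self]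
    have hinv : r σ * r σ⁻¹ = 1 := by rw [← map_mul, mul_inv_cancel, map_one]
    have h4 : φ0 a = t σ := sub_eq_zero.mp (smul_unit_eq_zero hinv h3)
    refine ⟨a, ha, ?_⟩
    show LinearMap.charpoly (matRep ρ σ) = _
    rw [charpoly_matRep, hρchar σ, hδσ, h4]
  · intro ℓ hℓ hℓNp A hA σ hσ
    have hℓp : ℓ ≠ p := fun h => hℓNp (h ▸ dvd_mul_left p N)
    have h1 : r σ = 1 := (hr ℓ hℓ hℓNp A hA).1 σ hσ
    have h2 : δ σ = 1 := (hδ ℓ hℓ hℓp A hA).1 σ hσ
    show matRep ρ σ = 1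
    rw [matRep_apply, hρone σ h1 h2]
    exact map_one (Matrix.toLinAlgEquiv' : Matrix (Fin 2) (Fin 2) k0 ≃ₐ[k0] _)

/-! ### Base change and the assembly -/

/-- Base change of an attached representation along a field homomorphism. -/
theorem isAttachedTo_baseChangeAlong {k0 k : Type} [Field k0] [Field k] (f : k0 →+* k)
    (ρ0 : ResidualGaloisRep k0) {N : ℕ} (g : CuspForm (CongruenceSubgroup.Gamma0 N) 2)
    (φ0 : integralClosure ℤ ℂ →+* k0) (h : ρ0.IsAttachedTo g φ0) :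
    (ρ0.baseChangeAlong f).IsAttachedTo g (f.comp φ0) := by
  intro ℓ hℓ hℓN hℓk A hA σ hσ
  have hℓk0 : (ℓ : k0) ≠ 0 := by
    intro h0
    apply hℓk
    rw [← map_natCast f ℓ, h0, map_zero]
  obtain ⟨a, ha, hchar⟩ := h ℓ hℓ hℓN hℓk0 A hA σ hσ
  refine ⟨a, ha, ?_⟩
  let _ : Algebra k0 k := f.toAlgebra
  show LinearMap.charpoly (LinearMap.baseChange k (ρ0.ρ σ)) = _
  rw [LinearMap.charpoly_baseChange, hchar]
  simp only [Polynomial.map_add, Polynomial.map_sub, Polynomial.map_mul, Polynomial.map_pow,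
    Polynomial.map_X, Polynomial.map_C, RingHom.comp_apply]
  rw [RingHom.algebraMap_toAlgebra, map_natCast]

theorem isUnramifiedAt_baseChangeAlong {k0 k : Type} [Field k0] [Field k] (f : k0 →+* k)
    (ρ0 : ResidualGaloisRep k0) (q : ℕ) (h : ρ0.IsUnramifiedAt q) :
    (ρ0.baseChangeAlong f).IsUnramifiedAt q := by
  intro A hA σ hσ
  letI : Algebra k0 k := f.toAlgebra
  show LinearMap.baseChange k (ρ0.ρ σ) = 1
  rw [h A hA σ hσ, LinearMap.baseChange_one]

/-- **S29 from the five interface statements.** -/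
theorem s29_of (hW : WitStmt) (hC : CycStmt) (hF : FDStmt) (hT : TopAlgStmt) (hK : K0Stmt) :
    S29Stmt := by
  intro N g hg p hp k _ _ φ
  rcases Nat.eq_zero_or_pos N with hN | hN
  · subst hN
    exact s29_zero φ
  haveI : NeZero N := ⟨hN.ne'⟩
  obtain ⟨hmax, hac⟩ := hK p hp k φ
  letI : Field (integralClosure ℤ ℂ ⧸ RingHom.ker φ) := Ideal.Quotient.field (RingHom.ker φ)
  let f : (integralClosure ℤ ℂ ⧸ RingHom.ker φ) →+* k := RingHom.kerLift φ
  haveI : CharP (integralClosure ℤ ℂ ⧸ RingHom.ker φ) p := RingHom.charP f f.injective p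
  haveI : IsAlgClosed (integralClosure ℤ ℂ ⧸ RingHom.ker φ) := hac
  obtain ⟨W, _, _, _, _, r, hrfin, hr⟩ :=
    hW N g hg p hp (integralClosure ℤ ℂ ⧸ RingHom.ker φ) (Ideal.Quotient.mk (RingHom.ker φ))
      Ideal.Quotient.mk_surjective
  obtain ⟨ρ0, hatt, hunr⟩ := exists_rep_k0 hC hF hT N g p hp
    (integralClosure ℤ ℂ ⧸ RingHom.ker φ) (Ideal.Quotient.mk (RingHom.ker φ)) W r hrfin hr
  refine ⟨ρ0.baseChangeAlong f, ?_, fun ℓ hℓ hℓNp => isUnramifiedAt_baseChangeAlong f ρ0 ℓ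
    (hunr ℓ hℓ hℓNp)⟩
  have h1 := isAttachedTo_baseChangeAlong f ρ0 g _ hatt
  have h2 : f.comp (Ideal.Quotient.mk (RingHom.ker φ)) = φ := by
    ext x
    exact RingHom.kerLift_mk φ x
  rwa [h2] at h1

end Fermat.Agent.S29.H24
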