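/-
(K0) for S29 (helper46): the literal interface statement `H24.K0Stmt` of the top file,
from the landed `K0_helper46`.
-/
import Fermat.Agent.S29.Top_helper24
import Fermat.Agent.S29.K0_helper46

set_option autoImplicit false

namespace Fermat.Agent.S29.H46

/-- The interface statement (K0) of `Top_helper24`. -/
theorem k0Stmt : Fermat.Agent.S29.H24.K0Stmt := fun _ hp _ _ _ φ =>
  ⟨ker_isMaximal hp φ, @isAlgClosed_quotient (RingHom.ker φ) (ker_isMaximal hp φ)⟩

end Fermat.Agent.S29.H46
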