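import Mathlib
import Fermat.Prelude.Def_ModularCurve_ArithmeticGalois
import Fermat.Agent.S24.Defs_helper31
import Fermat.Agent.S24.PhiCore_helper20
import Fermat.Agent.S24.JTrans_helper89

/-!
# S29, node (C-MODEL): the modular function field over `ℂ` - base file

`modularFunctionFieldC N := laurentBaseChange ℂ (modularFunctionFieldFull N)` is the constant
extension to `ℂ` of the prelude field (the prelude construction is generic in the constant
field).  The files `C*_helper45.lean` of this directory are the landed S24 / S18 analytic-cover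
chain (`Spec_helper31`, `PhiData_helper69`, `CoverPt_helper26`, `Cover_helper98`,
`CoverCount_helper98`, `CoverRam_helper98`, `Finite_helper89`, `Ram0_helper10`, ...) re-stated
with the base field `ℂ` in place of `AlgebraicClosure ℚ` and the identity embedding in place of
`iota`; the proofs are those of the landed files, the landed files themselves are untouched.
Clean exports for consumers are in `CModel_helper45.lean`.

This file: the three corollaries of already-generic landed lemmas that the landed chain states
only for `AlgebraicClosure ℚ`.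
-/

set_option autoImplicit false

open ModularCurve IntermediateField

noncomputable section

namespace Fermat.Agent.S29.H45

/-- the function field over `ℂ` -/
abbrev modularFunctionFieldC (N : ℕ) : IntermediateField ℂ (LaurentSeries ℂ) :=
  ModularCurve.laurentBaseChange ℂ (ModularCurve.modularFunctionFieldFull N)

/-- the identity embedding (plays the role of `iota : AlgebraicClosure ℚ →+* ℂ`) -/
def iotaC : ℂ →+* ℂ := RingHom.id ℂ

theorem iotaC_injective : Function.Injective iotaC := fun _ _ h => h

theorem iotaC_apply (c : ℂ) : iotaC c = c := rfl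

end Fermat.Agent.S29.H45

namespace Fermat.Agent.S29.H45.H20
open Fermat.Agent.S24 Fermat.Agent.S24.H20

theorem modularFunctionFieldC_eq_adjoin (N : ℕ) [NeZero N] :
    modularFunctionFieldC N
      = IntermediateField.adjoin ℂ (Set.range (Jd N ℂ)) :=
  laurentBaseChange_full_eq_adjoin N ℂ

theorem exists_Phi_of_expansion (N : ℕ) [NeZero N] (iotaC : ℂ →+* ℂ)
    {R : Type*} [CommRing R] [Algebra ℂ R] {L : Type*} [Field L] [Algebra R L]
    (hRL : Function.Injective (algebraMap R L))
    (t' : ∀ d : ℕ, d ∣ N → R)
    (Ex : R →+* LaurentSeries ℂ) (hEx : Function.Injective Ex)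
    (hExc : ∀ c : ℂ, Ex (algebraMap ℂ R c) = algebraMap ℂ (LaurentSeries ℂ) c)
    (hExg : ∀ (d : ℕ) [NeZero d] (hd : d ∣ N), Ex (t' d hd) = qExpand ℂ N (jqNModC ℂ d)) :
    ∃ Φ : ↥(modularFunctionFieldC N) →+* L,
      (∀ c : ℂ,
        Φ (algebraMap _ _ c) = algebraMap R L (algebraMap ℂ R (iotaC c))) ∧
      (∀ (d : ℕ) [NeZero d] (hd : d ∣ N)
        (hmem : coeffEmb (ℂ) (qExpand ℚ d jq) ∈ modularFunctionFieldC N),
          Φ ⟨coeffEmb (ℂ) (qExpand ℚ d jq), hmem⟩ = algebraMap R L (t' d hd)) ∧
      (∀ σ : L →+* L,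
        (∀ c : ℂ, σ (algebraMap R L (algebraMap ℂ R c)) = algebraMap R L (algebraMap ℂ R c)) →
        (∀ (d : ℕ) (hd : d ∣ N), σ (algebraMap R L (t' d hd)) = algebraMap R L (t' d hd)) →
          ∀ f, σ (Φ f) = Φ f) := by
  obtain ⟨Φ, h1, h2, h3⟩ := exists_Phi_abstract N (K := ℂ) hRL
    ((algebraMap ℂ R).comp iotaC) (fun d => t' d.1 d.2) (phiFormal N iotaC)
    (phiFormal_injective N iotaC) Ex hEx
    (fun c => by rw [RingHom.comp_apply, hExc, phiFormal_algebraMap])
    (fun d => by
      haveI : NeZero d.1 := neZero_of_dvd d.2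
      rw [hExg d.1 d.2]
      exact (phiFormal_Jd N iotaC d.1 d.2).symm)
  refine ⟨Φ, fun c => h1 c, ?_, ?_⟩
  · intro d _ hd hmem
    exact h2 ⟨d, hd⟩
  · intro σ hσc hσg f
    exact h3 σ (fun c => hσc _) (fun d => hσg d.1 d.2) f


end Fermat.Agent.S29.H45.H20

namespace Fermat.Agent.S29.H45.H89
open Fermat.Agent.S24 Fermat.Agent.S24.H89

theorem transcendental_jBar (N : ℕ) [NeZero N]
    (h : coeffEmb ℂ jq ∈ modularFunctionFieldC N) :
    Transcendental ℂ
      (⟨coeffEmb ℂ jq, h⟩ : ↥(modularFunctionFieldC N)) :=
  transcendental_mk ℂ (modularFunctionFieldC N) h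

end Fermat.Agent.S29.H45.H89
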