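import Mathlib
import Fermat.Agent.S29.CBase_helper45
import Fermat.Prelude.Def_ModularCurve_ArithmeticGalois
import Fermat.Agent.S24.Defs_helper31

/-!
### Provenance (helper45, S29 node (C-MODEL))

This file is the landed `Fermat/Agent/S24/Spec_helper31.lean` re-stated over the base field `ℂ`
(`Kbar := ℂ`, `FN N := ↥(laurentBaseChange ℂ (modularFunctionFieldFull N))`, `iotaC := RingHom.id ℂ`)
in the namespace `Fermat.Agent.S29.H45.*`; statements and proofs are otherwise those of the landed file, which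
is untouched.  See `CBase_helper45.lean` / `CModel_helper45.lean`.
-/

/-!
# S24: interface structures of the analytic layer

* `FN N`, `Jd N d hd`, `jBar N`: the function field of the statement and its generators.
* `PhiData N`: what row B4 delivers (the embedding of `FN N` into `L N`).
* `conjHom`: the conjugate embeddings.
-/

set_option autoImplicit false

open Filter Topology UpperHalfPlane CongruenceSubgroup ModularForm ModularCurve
open scoped MatrixGroups ModularForm Manifold Real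

noncomputable section

namespace Fermat.Agent.S29.H45.H31
open Fermat.Agent.S24 Fermat.Agent.S24.H31

/-- the base field -/
abbrev Kbar : Type := ℂ

/-- the function field of the statement -/
abbrev FN (N : ℕ) : Type := ↥(modularFunctionFieldC N)

/-- the coset space `SL(2,ℤ) ⧸ Γ₀(N)` (left cosets, Mathlib left action) -/
abbrev XN (N : ℕ) : Type := SL(2, ℤ) ⧸ Gamma0 N

/-- `j(q^d)` as an element of the function field, for `d ∣ N`. -/
def Jd (N d : ℕ) [NeZero d] (hd : d ∣ N) : FN N :=
  ⟨coeffEmb Kbar (qExpand ℚ d jq), coeffEmb_mem_laurentBaseChange Kbar (jqd_mem_full N hd)⟩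

/-- `j(q)` as an element of the function field. -/
def jBar (N : ℕ) : FN N :=
  ⟨coeffEmb Kbar jq, coeffEmb_mem_laurentBaseChange Kbar (by
    have h := jqd_mem_full N (one_dvd N)
    rwa [qExpand_one_apply] at h)⟩

theorem Jd_one (N : ℕ) : Jd N 1 (one_dvd N) = jBar N := by
  apply Subtype.ext
  show coeffEmb Kbar (qExpand ℚ 1 jq) = coeffEmb Kbar jq
  rw [qExpand_one_apply]

/-- the generators `j(q^d)`, `d ∣ N`, of the function field -/
def JdSet (N : ℕ) : Set (FN N) := {x | ∃ (d : ℕ) (_ : NeZero d) (hd : d ∣ N), x = Jd N d hd}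

theorem Jd_mem_JdSet (N d : ℕ) [NeZero d] (hd : d ∣ N) : Jd N d hd ∈ JdSet N :=
  ⟨d, inferInstance, hd, rfl⟩

theorem jBar_mem_JdSet (N : ℕ) : jBar N ∈ JdSet N :=
  ⟨1, inferInstance, one_dvd N, (Jd_one N).symm⟩

/-- Output of row B4: the embedding of the function field into `L N`. -/
structure PhiData (N : ℕ) [NeZero N] where
  /-- the embedding -/
  Φ : FN N →+* L N
  map_const : ∀ c : Kbar, Φ (algebraMap Kbar (FN N) c) = algebraMap ℂ (L N) (iotaC c)
  map_Jd : ∀ (d : ℕ) [NeZero d] (hd : d ∣ N),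
    ∃ f : RN N, (f : ℍ → ℂ) = jdFun d ∧ Φ (Jd N d hd) = algebraMap (RN N) (L N) f
  inv : ∀ γ ∈ Gamma0 N, ∀ f : FN N, γ • Φ f = Φ f
  /-- linear disjointness from `ℂ` over `Kbar` (from the `q`-expansion principle) -/
  lin_disjoint : ∀ (m : ℕ) (u : Fin m → FN N), (∀ k, u k ∈ Algebra.adjoin Kbar (JdSet N)) →
    ∀ c : Fin m → ℂ, c ≠ 0 → ∑ k, algebraMap ℂ (L N) (c k) * Φ (u k) = 0 →
      ∃ a : Fin m → Kbar, a ≠ 0 ∧ ∑ k, a k • u k = 0

variable {N : ℕ} [NeZero N]

/-- the conjugate embedding `f ↦ g • Φ f` -/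
def conjHom (P : PhiData N) (g : SL(2, ℤ)) : FN N →+* L N :=
  (MulSemiringAction.toRingHom SL(2, ℤ) (L N) g).comp P.Φ

@[simp]
theorem conjHom_apply (P : PhiData N) (g : SL(2, ℤ)) (f : FN N) : conjHom P g f = g • P.Φ f :=
  rfl

/-- Conjugates only depend on the coset. -/
theorem smul_Phi_eq_of_mk_eq (P : PhiData N) {g h : SL(2, ℤ)}
    (hgh : (QuotientGroup.mk g : XN N) = QuotientGroup.mk h) (f : FN N) :
    g • P.Φ f = h • P.Φ f := by
  have hmem : g⁻¹ * h ∈ Gamma0 N := QuotientGroup.eq.mp hgh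
  have := P.inv _ hmem f
  calc g • P.Φ f = g • ((g⁻¹ * h) • P.Φ f) := by rw [this]
    _ = h • P.Φ f := by rw [← mul_smul, mul_inv_cancel_left]

theorem out_smul_Phi (P : PhiData N) (g : SL(2, ℤ)) (f : FN N) :
    ((QuotientGroup.mk g : XN N).out) • P.Φ f = g • P.Φ f :=
  smul_Phi_eq_of_mk_eq P (QuotientGroup.out_eq' _) f

end Fermat.Agent.S29.H45.H31
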