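import Mathlib
import Fermat.Agent.S29.CBase_helper45
import Fermat.Agent.S29.CSpec_helper45
import Fermat.Agent.S24.Fixed_helper26
import Fermat.Agent.S24.JTrans_helper89
import Fermat.Agent.S24.PhiCore_helper20

/-!
### Provenance (helper45, S29 node (C-MODEL))

This file is the landed `Fermat/Agent/S24/Finite_helper89.lean` re-stated over the base field `ℂ`
(`Kbar := ℂ`, `FN N := ↥(laurentBaseChange ℂ (modularFunctionFieldFull N))`, `iotaC := RingHom.id ℂ`)
in the namespace `Fermat.Agent.S29.H45.*`; statements and proofs are otherwise those of the landed file, which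
is untouched.  See `CBase_helper45.lean` / `CModel_helper45.lean`.
-/

/-!
# S24, row D1b-R6 (helper89): the function field is finite over `Kbar(j)`

`finite_FN (P : PhiData N) : FiniteDimensional Kbar⟮jBar N⟯ (FN N)`.

Route: for `y = j(q^d)` the image `P.Φ y` is (the class of) a `Γ₀(N)`-invariant element `f` of
`RN N`; the product of `X - ξ • f` over the cosets `ξ` of `Γ₀(N)` is a monic polynomial killing `f`
whose coefficients are `SL(2,ℤ)`-invariant, hence polynomials in `j` over `ℂ`.  This is a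
nontrivial `ℂ`-linear relation among the `Φ (j^k y^i)`; linear disjointness turns it into a
`Kbar`-linear relation, and `j` is transcendental over `Kbar`, so `y` is algebraic over `Kbar(j)`.
The field is generated by the finitely many `j(q^d)`, `d ∣ N`.
-/

set_option autoImplicit false

open Polynomial IntermediateField UpperHalfPlane CongruenceSubgroup ModularCurve
open scoped MatrixGroups

namespace Fermat.Agent.S29.H45.H89
open Fermat.Agent.S24 Fermat.Agent.S24.H89

open Fermat.Agent.S24.H31
open Fermat.Agent.S29.H45.H31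

section Abstract

/-- A nontrivial bivariate relation `∑ a (i,k) x^k y^i = 0` with `x` transcendental makes `y`
algebraic over `K(x)`. -/
theorem isAlgebraic_adjoin_simple_of_relation {K E : Type*} [Field K] [Field E] [Algebra K E]
    (x y : E) (hx : Transcendental K x) (n D : ℕ) (a : Fin n × Fin D → K) (ha : a ≠ 0)
    (h : ∑ t : Fin n × Fin D, a t • (x ^ (t.2 : ℕ) * y ^ (t.1 : ℕ)) = 0) :
    IsAlgebraic K⟮x⟯ y := by
  classical
  let Q : Fin n → K[X] := fun i => ∑ k : Fin D, C (a (i, k)) * X ^ (k : ℕ)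
  have hQ_coeff : ∀ (i : Fin n) (k : Fin D), (Q i).coeff k = a (i, k) := by
    intro i k
    simp only [Q, finsetSum_coeff, coeff_C_mul, coeff_X_pow]
    rw [Finset.sum_eq_single k]
    · simp
    · intro b _ hb
      have : (k : ℕ) ≠ (b : ℕ) := fun h => hb (Fin.ext h.symm)
      simp [this]
    · intro hk
      exact absurd (Finset.mem_univ k) hk
  have hQ_aeval : ∀ i : Fin n, aeval x (Q i) = ∑ k : Fin D, a (i, k) • x ^ (k : ℕ) := by
    intro i
    simp only [Q, map_sum, map_mul, aeval_C, map_pow, aeval_X, Algebra.smul_def]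
  let b : Fin n → K⟮x⟯ := fun i => aeval (AdjoinSimple.gen K x) (Q i)
  have hb : ∀ i : Fin n, ((b i : K⟮x⟯) : E) = aeval x (Q i) := by
    intro i
    have h1 := aeval_algebraMap_apply E (AdjoinSimple.gen K x) (Q i)
    rw [AdjoinSimple.algebraMap_gen] at h1
    exact h1.symm
  let B : K⟮x⟯[X] := ∑ i : Fin n, C (b i) * X ^ (i : ℕ)
  have hB_coeff : ∀ i : Fin n, B.coeff i = b i := by
    intro i
    simp only [B, finsetSum_coeff, coeff_C_mul, coeff_X_pow]
    rw [Finset.sum_eq_single i]
    · simp
    · intro c _ hc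
      have : (i : ℕ) ≠ (c : ℕ) := fun h => hc (Fin.ext h.symm)
      simp [this]
    · intro hk
      exact absurd (Finset.mem_univ i) hk
  refine ⟨B, ?_, ?_⟩
  · obtain ⟨⟨i0, k0⟩, h0⟩ : ∃ t, a t ≠ 0 := by
      by_contra hh
      exact ha (funext fun t => by_contra fun ht => hh ⟨t, ht⟩)
    intro hB
    have h1 : b i0 = 0 := by rw [← hB_coeff, hB, coeff_zero]
    have h2 : aeval x (Q i0) = 0 := by rw [← hb, h1]; rfl
    have h3 : Q i0 = 0 := (transcendental_iff.mp hx) _ h2
    apply h0
    rw [← hQ_coeff, h3, coeff_zero]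
  · have h1 : aeval y B = ∑ i : Fin n, aeval x (Q i) * y ^ (i : ℕ) := by
      simp only [B, map_sum, map_mul, aeval_C, map_pow, aeval_X]
      refine Finset.sum_congr rfl fun i _ => ?_
      rw [← hb]
      rfl
    rw [h1, ← h, Fintype.sum_prod_type]
    refine Finset.sum_congr rfl fun i _ => ?_
    rw [hQ_aeval, Finset.sum_mul]
    refine Finset.sum_congr rfl fun k _ => ?_
    rw [smul_mul_assoc]

/-- The product of `X - q • f` over the cosets `q` of a subgroup `H` fixing `f`: a monic polynomial
with root `f` whose coefficients are fixed by the whole group. -/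
theorem exists_monic_invariant_poly {G R : Type*} [Group G] [CommRing R]
    [MulSemiringAction G R] (H : Subgroup G) [Fintype (G ⧸ H)] (f : R)
    (hf : ∀ h ∈ H, h • f = f) :
    ∃ p : R[X], p.Monic ∧ p.eval f = 0 ∧ ∀ (g : G) (i : ℕ), g • p.coeff i = p.coeff i := by
  classical
  refine ⟨∏ q : G ⧸ H, (X - C ((Quotient.out q : G) • f)), ?_, ?_, ?_⟩
  · exact monic_prod_of_monic _ _ fun q _ => monic_X_sub_C _
  · rw [eval_prod]
    refine Finset.prod_eq_zero (Finset.mem_univ (QuotientGroup.mk (1 : G) : G ⧸ H)) ?_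
    rw [eval_sub, eval_X, eval_C, H26.out_smul_eq_of_fixed H f hf, one_smul, sub_self]
  · intro g i
    have hmap : (∏ q : G ⧸ H, (X - C ((Quotient.out q : G) • f))).map
        (MulSemiringAction.toRingHom G R g) = ∏ q : G ⧸ H, (X - C ((Quotient.out q : G) • f)) := by
      rw [Polynomial.map_prod]
      have h1 : ∀ q : G ⧸ H, (X - C ((Quotient.out q : G) • f)).map
          (MulSemiringAction.toRingHom G R g) = X - C ((Quotient.out (g • q) : G) • f) := by
        intro q
        rw [Polynomial.map_sub, map_X, map_C, MulSemiringAction.toRingHom_apply, ← mul_smul]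
        have h2 : g • q = (QuotientGroup.mk (g * Quotient.out q) : G ⧸ H) := by
          conv_lhs => rw [← Quotient.out_eq q]
          rfl
        rw [h2, H26.out_smul_eq_of_fixed H f hf]
      simp_rw [h1]
      exact Fintype.prod_equiv (MulAction.toPerm g) _ _ (fun q => rfl)
    have h3 := congrArg (fun r : R[X] => r.coeff i) hmap
    simp only [coeff_map, MulSemiringAction.toRingHom_apply] at h3
    exact h3

/-- A monic polynomial killing `f` whose coefficients are polynomials in `j` over `k` gives a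
nontrivial `k`-linear relation among the monomials `j^k f^i`. -/
theorem exists_relation_of_monic {k R : Type*} [CommRing k] [CommRing R] [Nontrivial R]
    [Algebra k R] (j f : R) (p : R[X]) (hp : p.Monic) (hpf : p.eval f = 0)
    (hc : ∀ i : ℕ, ∃ Pi : k[X], p.coeff i = aeval j Pi) :
    ∃ (n D : ℕ) (c : Fin n × Fin D → k), c ≠ 0 ∧
      ∑ t : Fin n × Fin D, algebraMap k R (c t) * (j ^ (t.2 : ℕ) * f ^ (t.1 : ℕ)) = 0 := by
  classical
  choose Pc hPc using hc
  have hD : ∀ i < p.natDegree + 1, (Pc i).natDegree <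
      (Finset.range (p.natDegree + 1)).sup (fun i => (Pc i).natDegree) + 1 := fun i hi =>
    Nat.lt_succ_of_le (Finset.le_sup (f := fun i => (Pc i).natDegree) (Finset.mem_range.mpr hi))
  refine ⟨p.natDegree + 1, (Finset.range (p.natDegree + 1)).sup (fun i => (Pc i).natDegree) + 1,
    fun t => (Pc t.1).coeff t.2, ?_, ?_⟩
  · intro h0
    have h2 : aeval j (Pc p.natDegree) = 0 := by
      rw [aeval_eq_sum_range' (hD _ (Nat.lt_succ_self _))]
      apply Finset.sum_eq_zero
      intro m hm
      have h1 := congrFun h0 (⟨p.natDegree, Nat.lt_succ_self _⟩, ⟨m, Finset.mem_range.mp hm⟩)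
      simp only [Pi.zero_apply] at h1
      rw [h1, zero_smul]
    have h3 : p.coeff p.natDegree = 1 := hp.coeff_natDegree
    rw [hPc, h2] at h3
    exact zero_ne_one h3
  · rw [Fintype.sum_prod_type]
    have h1 := hpf
    rw [eval_eq_sum_range, ← Fin.sum_univ_eq_sum_range (fun i => p.coeff i * f ^ i)] at h1
    rw [← h1]
    refine Finset.sum_congr rfl fun i _ => ?_
    rw [hPc, aeval_eq_sum_range' (hD i i.2), Finset.sum_mul,
      ← Fin.sum_univ_eq_sum_range (fun m => ((Pc i).coeff m • j ^ m) * f ^ (i : ℕ))]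
    refine Finset.sum_congr rfl fun m _ => ?_
    rw [Algebra.smul_def, mul_assoc]

end Abstract

section Main

variable {N : ℕ} [NeZero N]

/-- `P.lin_disjoint` for families indexed by an arbitrary finite type. -/
theorem lin_disjoint_fintype (P : PhiData N) {ι : Type*} [Fintype ι] (u : ι → FN N)
    (hu : ∀ i, u i ∈ Algebra.adjoin Kbar (JdSet N)) (c : ι → ℂ) (hc : c ≠ 0)
    (h : ∑ i, algebraMap ℂ (L N) (c i) * P.Φ (u i) = 0) :
    ∃ a : ι → Kbar, a ≠ 0 ∧ ∑ i, a i • u i = 0 := by
  classical
  have hc' : c ∘ (Fintype.equivFin ι).symm ≠ 0 := by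
    intro h0
    apply hc
    funext i
    have := congrFun h0 (Fintype.equivFin ι i)
    simpa using this
  have h' : ∑ k, algebraMap ℂ (L N) ((c ∘ (Fintype.equivFin ι).symm) k) *
      P.Φ ((u ∘ (Fintype.equivFin ι).symm) k) = 0 := by
    rw [← h]
    exact Fintype.sum_equiv (Fintype.equivFin ι).symm _ _ (fun k => rfl)
  obtain ⟨a, ha, hsum⟩ := P.lin_disjoint (Fintype.card ι) (u ∘ (Fintype.equivFin ι).symm)
    (fun k => hu _) (c ∘ (Fintype.equivFin ι).symm) hc' h'
  refine ⟨a ∘ Fintype.equivFin ι, ?_, ?_⟩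
  · intro h0
    apply ha
    funext k
    have := congrFun h0 ((Fintype.equivFin ι).symm k)
    simpa using this
  · rw [← hsum]
    exact Fintype.sum_equiv (Fintype.equivFin ι) _ _ (fun i => by simp)

/-- `j` is transcendental over `Kbar` in the function field. -/
theorem transcendental_jBar_FN (N : ℕ) [NeZero N] : Transcendental Kbar (jBar N) :=
  transcendental_jBar N _

/-- Each generator `j(q^d)` is algebraic over `Kbar(j)`. -/
theorem isAlgebraic_Jd (P : PhiData N) (d : ℕ) [NeZero d] (hd : d ∣ N) :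
    IsAlgebraic Kbar⟮jBar N⟯ (Jd N d hd) := by
  classical
  obtain ⟨f, -, hΦf⟩ := P.map_Jd d hd
  obtain ⟨jR, hjR, hΦj⟩ := P.map_Jd 1 (one_dvd N)
  rw [Jd_one] at hΦj
  have hj : ∀ z : ℍ, (jR : ℍ → ℂ) z = jFun z := by
    intro z
    rw [hjR]
    simp [jdFun]
  have hinj : Function.Injective (algebraMap (RN N) (L N)) := IsFractionRing.injective (RN N) (L N)
  have hfix : ∀ γ ∈ Gamma0 N, γ • f = f := by
    intro γ hγ
    apply hinj
    rw [← smul_algebraMap_L, ← hΦf]
    exact P.inv γ hγ _
  have : Fintype (SL(2, ℤ) ⧸ Gamma0 N) := Fintype.ofFinite _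
  obtain ⟨p, hpm, hpf, hpc⟩ := exists_monic_invariant_poly (Gamma0 N) f hfix
  obtain ⟨n, D, c, hc, hsum⟩ := exists_relation_of_monic (k := ℂ) jR f p hpm hpf
    (fun i => H26.invariant_RN_eq_aeval jR hj (p.coeff i) (fun g => hpc g i))
  have hsum' : ∑ t : Fin n × Fin D, algebraMap ℂ (L N) (c t) *
      P.Φ (jBar N ^ (t.2 : ℕ) * Jd N d hd ^ (t.1 : ℕ)) = 0 := by
    have h1 := congrArg (algebraMap (RN N) (L N)) hsum
    rw [map_sum, map_zero] at h1
    rw [← h1]
    refine Finset.sum_congr rfl fun t _ => ?_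
    rw [map_mul, map_mul, map_pow, map_pow, map_mul, map_pow, map_pow, hΦf, hΦj,
      ← IsScalarTower.algebraMap_apply]
  obtain ⟨a, ha, hrel⟩ := lin_disjoint_fintype P
    (fun t : Fin n × Fin D => jBar N ^ (t.2 : ℕ) * Jd N d hd ^ (t.1 : ℕ))
    (fun t => mul_mem (pow_mem (Algebra.subset_adjoin (jBar_mem_JdSet N)) _)
      (pow_mem (Algebra.subset_adjoin (Jd_mem_JdSet N d hd)) _)) c hc hsum'
  exact isAlgebraic_adjoin_simple_of_relation (jBar N) (Jd N d hd) (transcendental_jBar_FN N)
    n D a ha hrel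

/-- The generators are finite in number. -/
theorem JdSet_finite (N : ℕ) [NeZero N] : (JdSet N).Finite := by
  classical
  have h1 : JdSet N ⊆ (fun d : ℕ => if h : d ∣ N ∧ d ≠ 0 then
      (haveI : NeZero d := ⟨h.2⟩; Jd N d h.1) else jBar N) '' (↑(Nat.divisors N) : Set ℕ) := by
    rintro x ⟨d, hd0, hd, rfl⟩
    refine ⟨d, ?_, ?_⟩
    · simp only [Finset.mem_coe, Nat.mem_divisors]
      exact ⟨hd, NeZero.ne N⟩
    · have h2 : d ∣ N ∧ d ≠ 0 := ⟨hd, NeZero.ne d⟩
      simp only [dif_pos h2]
  exact ((Nat.divisors N).finite_toSet.image _).subset h1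

/-- The function field is generated over `Kbar` by the `j(q^d)`. -/
theorem adjoin_JdSet_eq_top (N : ℕ) [NeZero N] :
    IntermediateField.adjoin Kbar (JdSet N) = ⊤ := by
  apply IntermediateField.lift_injective (modularFunctionFieldC N)
  rw [IntermediateField.lift_adjoin, IntermediateField.lift_top]
  have h1 : (Subtype.val '' JdSet N : Set (LaurentSeries Kbar)) = Set.range (H20.Jd N Kbar) := by
    ext x
    constructor
    · rintro ⟨_, ⟨d, hd0, hd, rfl⟩, rfl⟩
      exact ⟨⟨d, hd⟩, rfl⟩
    · rintro ⟨⟨d, hd⟩, rfl⟩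
      have : NeZero d := H20.neZero_of_dvd hd
      exact ⟨Jd N d hd, Jd_mem_JdSet N d hd, rfl⟩
  rw [h1]
  exact (H20.modularFunctionFieldC_eq_adjoin N).symm

/-- **D1b-R6.** The function field is finite over `Kbar(j)`. -/
theorem finite_FN (P : PhiData N) : FiniteDimensional Kbar⟮jBar N⟯ (FN N) := by
  have : Finite (JdSet N) := (JdSet_finite N).to_subtype
  have halg : ∀ y ∈ JdSet N, IsIntegral Kbar⟮jBar N⟯ y := by
    rintro y ⟨d, hd0, hd, rfl⟩
    exact (isAlgebraic_Jd P d hd).isIntegral
  have h1 : FiniteDimensional Kbar⟮jBar N⟯ (IntermediateField.adjoin Kbar⟮jBar N⟯ (JdSet N)) :=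
    IntermediateField.finiteDimensional_adjoin halg
  have h2 : IntermediateField.adjoin Kbar⟮jBar N⟯ (JdSet N) = ⊤ := by
    apply IntermediateField.restrictScalars_injective Kbar
    rw [IntermediateField.restrictScalars_top, eq_top_iff, ← adjoin_JdSet_eq_top N,
      IntermediateField.restrictScalars_adjoin]
    exact IntermediateField.adjoin.mono _ _ _ Set.subset_union_right
  rw [h2] at h1
  exact (IntermediateField.topEquiv (F := Kbar⟮jBar N⟯) (E := FN N)).toLinearEquiv.finiteDimensional

end Main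

end Fermat.Agent.S29.H45.H89
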