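import Mathlib
import Fermat.Agent.S29.CBase_helper45
import Fermat.Agent.S29.CSpec_helper45
import Fermat.Agent.S24.LinDisj_helper31
import Fermat.Agent.S24.PhiCore_helper20
import Fermat.Agent.S24.Conj_helper23
import Fermat.Agent.S24.QLaurentRN_helper69

/-!
### Provenance (helper45, S29 node (C-MODEL))

This file is the landed `Fermat/Agent/S24/PhiData_helper69.lean` re-stated over the base field `ℂ`
(`Kbar := ℂ`, `FN N := ↥(laurentBaseChange ℂ (modularFunctionFieldFull N))`, `iotaC := RingHom.id ℂ`)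
in the namespace `Fermat.Agent.S29.H45.*`; statements and proofs are otherwise those of the landed file, which
is untouched.  See `CBase_helper45.lean` / `CModel_helper45.lean`.
-/

/-!
# S24, row B4: the embedding `Φ : FN N →+* L N` (`PhiData N`)

Assembly of `H31.PhiData N` from
* `H20.exists_Phi_of_expansion` (abstract lifting from generators),
* `H69.ExRN` (the injective `q_N`-expansion on `RN N`, with `ExRN_jd`),
* `H23.jd` (the functions `j (d z)` in `RN N`, `Γ₀(N)`-invariance),
* `H31.exists_relation_of_coeffMap` (coefficientwise linear disjointness).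
-/

set_option autoImplicit false

open Filter Topology UpperHalfPlane CongruenceSubgroup ModularForm ModularCurve
open scoped MatrixGroups ModularForm Manifold Real

noncomputable section

namespace Fermat.Agent.S29.H45.H69
open Fermat.Agent.S24 Fermat.Agent.S24.H69

open Fermat.Agent.S24.H31
open Fermat.Agent.S29.H45.H31

theorem algebraMap_laurentSeries_eq_C' {K : Type*} [Field K] (c : K) :
    algebraMap K (LaurentSeries K) c = HahnSeries.C c := by
  have h1 : algebraMap K (PowerSeries K) c = PowerSeries.C c := by simp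
  rw [HahnSeries.algebraMap_apply', h1, HahnSeries.ofPowerSeries_C]

/-- The data produced by `H20.exists_Phi_of_expansion` for `R = RN N`, `Ex = ExRN N`. -/
theorem exists_Phi_core (N : ℕ) [NeZero N] :
    ∃ Φ : FN N →+* L N,
      (∀ c : Kbar, Φ (algebraMap Kbar (FN N) c) = algebraMap ℂ (L N) (iotaC c)) ∧
      (∀ (d : ℕ) [NeZero d] (hd : d ∣ N),
        Φ (Jd N d hd) = algebraMap (RN N) (L N) (H23.jd N d hd)) ∧
      (∀ γ ∈ Gamma0 N, ∀ f : FN N, γ • Φ f = Φ f) := by
  obtain ⟨Φ, h1, h2, h3⟩ := H20.exists_Phi_of_expansion N iotaC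
    (IsFractionRing.injective (RN N) (L N)) (fun d hd => H23.jd N d hd)
    (ExRN N).toRingHom (ExRN_injective N) (fun c => ExRN_algebraMap N c)
    (fun d _ hd => ExRN_jd N d (H23.jd N d hd) (H23.coe_jd N d hd))
  refine ⟨Φ, ?_, ?_, ?_⟩
  · intro c
    rw [IsScalarTower.algebraMap_apply ℂ (RN N) (L N)]
    exact h1 c
  · intro d _ hd
    exact h2 d hd _
  · intro γ hγ f
    refine h3 (MulSemiringAction.toRingHom SL(2, ℤ) (L N) γ) ?_ ?_ f
    · intro c
      show γ • algebraMap (RN N) (L N) (algebraMap ℂ (RN N) c) = _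
      rw [← IsScalarTower.algebraMap_apply ℂ (RN N) (L N)]
      exact smul_algebraMap_complex_L γ c
    · intro d hd
      exact H23.smul_algebraMap_jd_of_mem_Gamma0 hd hγ

/-- Elements of the `Kbar`-algebra generated by the `j(q^d)` are mapped by `Φ` into `RN N`, and
their `q_N`-expansion is the coefficientwise image of the formal series. -/
theorem exists_RN_of_mem_adjoin (N : ℕ) [NeZero N] (Φ : FN N →+* L N)
    (hc : ∀ c : Kbar, Φ (algebraMap Kbar (FN N) c) = algebraMap ℂ (L N) (iotaC c))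
    (hJ : ∀ (d : ℕ) [NeZero d] (hd : d ∣ N),
      Φ (Jd N d hd) = algebraMap (RN N) (L N) (H23.jd N d hd))
    (u : FN N) (hu : u ∈ Algebra.adjoin Kbar (JdSet N)) :
    ∃ r : RN N, Φ u = algebraMap (RN N) (L N) r ∧
      ExRN N r = H20.phiFormal N iotaC (u : LaurentSeries Kbar) := by
  induction hu using Algebra.adjoin_induction with
  | mem x hx =>
    obtain ⟨d, hne, hd, rfl⟩ := hx
    refine ⟨H23.jd N d hd, hJ d hd, ?_⟩
    rw [ExRN_jd N d (H23.jd N d hd) (H23.coe_jd N d hd)]
    exact (H20.phiFormal_Jd N iotaC d hd).symm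
  | algebraMap c =>
    refine ⟨algebraMap ℂ (RN N) (iotaC c), ?_, ?_⟩
    · rw [hc, IsScalarTower.algebraMap_apply ℂ (RN N) (L N)]
    · rw [ExRN_algebraMap]
      exact (H20.phiFormal_algebraMap N iotaC c).symm
  | add x y _ _ ihx ihy =>
    obtain ⟨rx, hx1, hx2⟩ := ihx
    obtain ⟨ry, hy1, hy2⟩ := ihy
    refine ⟨rx + ry, ?_, ?_⟩
    · rw [RingHom.map_add, hx1, hy1, RingHom.map_add]
    · rw [map_add, hx2, hy2]
      exact (RingHom.map_add _ _ _).symm
  | mul x y _ _ ihx ihy =>
    obtain ⟨rx, hx1, hx2⟩ := ihx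
    obtain ⟨ry, hy1, hy2⟩ := ihy
    refine ⟨rx * ry, ?_, ?_⟩
    · rw [RingHom.map_mul, hx1, hy1, RingHom.map_mul]
    · rw [map_mul, hx2, hy2]
      exact (RingHom.map_mul _ _ _).symm

theorem lin_disjoint_of (N : ℕ) [NeZero N] (Φ : FN N →+* L N)
    (hc : ∀ c : Kbar, Φ (algebraMap Kbar (FN N) c) = algebraMap ℂ (L N) (iotaC c))
    (hJ : ∀ (d : ℕ) [NeZero d] (hd : d ∣ N),
      Φ (Jd N d hd) = algebraMap (RN N) (L N) (H23.jd N d hd))
    (m : ℕ) (u : Fin m → FN N) (hu : ∀ k, u k ∈ Algebra.adjoin Kbar (JdSet N))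
    (c : Fin m → ℂ) (hc0 : c ≠ 0)
    (hrel : ∑ k, algebraMap ℂ (L N) (c k) * Φ (u k) = 0) :
    ∃ a : Fin m → Kbar, a ≠ 0 ∧ ∑ k, a k • u k = 0 := by
  choose r hr1 hr2 using fun k => exists_RN_of_mem_adjoin N Φ hc hJ (u k) (hu k)
  -- the relation holds in `RN N`
  have h1 : ∑ k, algebraMap ℂ (RN N) (c k) * r k = 0 := by
    apply IsFractionRing.injective (RN N) (L N)
    rw [map_sum, map_zero, ← hrel]
    refine Finset.sum_congr rfl fun k _ => ?_
    rw [map_mul, hr1 k, ← IsScalarTower.algebraMap_apply ℂ (RN N) (L N)]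
  -- expand
  have h2 : ∑ k, algebraMap ℂ (LaurentSeries ℂ) (c k) *
      H20.phiFormal N iotaC ((u k : FN N) : LaurentSeries Kbar) = 0 := by
    have := congrArg (ExRN N) h1
    rw [map_sum, map_zero] at this
    rw [← this]
    refine Finset.sum_congr rfl fun k _ => ?_
    rw [map_mul, ExRN_algebraMap, hr2 k]
  -- undo `qExpand`
  have h3 : ∑ k, c k • coeffMap iotaC ((u k : FN N) : LaurentSeries Kbar) = 0 := by
    apply qExpand_injective (R := ℂ) (N := N)
    rw [map_sum, map_zero, ← h2]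
    refine Finset.sum_congr rfl fun k _ => ?_
    rw [← HahnSeries.C_mul_eq_smul, map_mul, qExpand_C, algebraMap_laurentSeries_eq_C]
    rfl
  obtain ⟨a, ha0, ha⟩ := H31.exists_relation_of_coeffMap iotaC
    (fun k => ((u k : FN N) : LaurentSeries Kbar)) c hc0 h3
  refine ⟨a, ha0, ?_⟩
  apply Subtype.ext
  rw [IntermediateField.coe_sum]
  have e : ∀ k, ((a k • u k : FN N) : LaurentSeries Kbar) = a k • ((u k : FN N) : LaurentSeries Kbar) :=
    fun k => by
      rw [IntermediateField.coe_smul, Algebra.smul_def, algebraMap_laurentSeries_eq_C',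
        HahnSeries.C_mul_eq_smul]
  simp only [e]
  exact ha

/-- **Row B4**: the embedding of the function field `FN N` into `L N`. -/
theorem nonempty_phiData (N : ℕ) [NeZero N] : Nonempty (PhiData N) := by
  obtain ⟨Φ, hc, hJ, hinv⟩ := exists_Phi_core N
  exact ⟨{
    Φ := Φ
    map_const := hc
    map_Jd := fun d _ hd => ⟨H23.jd N d hd, H23.coe_jd N d hd, hJ d hd⟩
    inv := hinv
    lin_disjoint := fun m u hu c hc0 hrel => lin_disjoint_of N Φ hc hJ m u hu c hc0 hrel }⟩

/-- A choice of `PhiData N`. -/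
def phiData (N : ℕ) [NeZero N] : PhiData N := (nonempty_phiData N).some

end Fermat.Agent.S29.H45.H69
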