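import Mathlib
import Fermat.Agent.S24.CountPlaces_helper98

/-!
# The place dictionary (generic form)

`F/K` a function field over an algebraically closed field of characteristic zero, `y ∈ F`
transcendental with `F` finite over `K(y)`.  In the situation of
`Fermat.Agent.S24.H98.count_places_action` (a finite set `X` of conjugates carrying valuations
`W ξ` on `F`, a group element `g` acting on `X`, ramification bounds `d ξ`), and in the equality
case `[F : K(y)] = |X|`, EVERY place `v` of `F` above `y = 0` is cut out by some `W ξ`, and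
`W ξ = d ξ • v.ord` exactly.

The landed `count_places_action` proves this internally but only exports the count.
-/

set_option autoImplicit false

open AlgebraicCurve IntermediateField
open Fermat.Agent.S24 Fermat.Agent.S24.H31

namespace Fermat.Agent.S29.H90

variable {K F : Type*} [Field K] [Field F] [Algebra K F]

/-- **The place dictionary.** In the equality case of `H98.count_places_action`, every place
above `y = 0` is the place of some `W ξ`, with `W ξ = d ξ • v.ord`. -/
theorem exists_zval_eq_mul_place [IsAlgClosed K] [CharZero K] (y : F) (hy : Transcendental K y)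
    [FiniteDimensional K⟮y⟯ F] {G X : Type*} [Group G] [MulAction G X] [Fintype X] (g : G)
    (W : X → ZVal F) (d : X → ℕ)
    (hK : ∀ ξ (c : K), c ≠ 0 → (W ξ).ord (algebraMap K F c) = 0)
    (hy0 : ∀ ξ, 0 < (W ξ).ord y)
    (hσ : ∀ ξ (f : F), (W (g • ξ)).ord f = (W ξ).ord f)
    (hd : ∀ ξ (f : F), f ≠ 0 → (d ξ : ℤ) ∣ (W ξ).ord f)
    (he : ∀ ξ, (W ξ).ord y ≤ d ξ * Nat.card (MulAction.orbit (Subgroup.zpowers g) ξ))
    (hnorm : ∀ f : F, f ≠ 0 → IsIntegral (Algebra.adjoin K {y}) f →
      ∃ (c : F) (p : Polynomial K), IsIntegral (Algebra.adjoin K {y}) c ∧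
        f * c = Polynomial.aeval y p ∧ (p.eval 0 = 0 → ∃ ξ, 0 < (W ξ).ord f))
    (hn : Module.finrank K⟮y⟯ F = Fintype.card X) :
    ∀ v : Place K F, 0 < v.ord y →
      ∃ ξ : X, (∀ f : F, f ≠ 0 → (W ξ).ord f = d ξ * v.ord f) ∧
        v.ord y = Nat.card (MulAction.orbit (Subgroup.zpowers g) ξ) := by
  classical
  have hy_ne : y ≠ 0 := fun h => hy (h ▸ isAlgebraic_zero)
  -- Step 1: the places cut out by the `W ξ`
  have hex : ∀ ξ, ∃ (v : Place K F) (m : ℤ), 0 < m ∧
      ∀ f : F, f ≠ 0 → (W ξ).ord f = m * v.ord f :=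
    fun ξ => H19.exists_place_of_zval (W ξ) (hK ξ) ⟨y, hy_ne, (hy0 ξ).ne'⟩
  choose vp m hm hW using hex
  -- Step 2: `d ξ ∣ m ξ`
  have hdm : ∀ ξ, (d ξ : ℤ) ∣ m ξ := by
    intro ξ
    obtain ⟨t, ht0, ht⟩ := H98.exists_ord_eq_one (vp ξ)
    have := hd ξ t ht0
    rwa [hW ξ t ht0, ht, mul_one] at this
  -- Step 3: positivity and the local bound
  have hpos : ∀ ξ, 0 < (vp ξ).ord y := by
    intro ξ
    have := hy0 ξ
    rw [hW ξ y hy_ne] at this
    exact (mul_pos_iff_of_pos_left (hm ξ)).mp this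
  have hle : ∀ ξ, (vp ξ).ord y ≤ Nat.card (MulAction.orbit (Subgroup.zpowers g) ξ) := by
    intro ξ
    have h1 := he ξ
    rw [hW ξ y hy_ne] at h1
    have h2 : (d ξ : ℤ) ≤ m ξ := Int.le_of_dvd (hm ξ) (hdm ξ)
    have h3 : m ξ * (vp ξ).ord y
        ≤ m ξ * (Nat.card (MulAction.orbit (Subgroup.zpowers g) ξ) : ℤ) :=
      h1.trans (mul_le_mul_of_nonneg_right h2 (Nat.cast_nonneg _))
    exact le_of_mul_le_mul_left h3 (hm ξ)
  -- Step 4: invariance
  have hinv : ∀ ξ, vp (g • ξ) = vp ξ := by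
    intro ξ
    apply H19.place_ext_of_ord
    intro f
    by_cases hf : f = 0
    · subst hf; simp
    · have h1 := hW (g • ξ) f hf
      have h2 := hW ξ f hf
      rw [hσ ξ f] at h1
      have h12 : m (g • ξ) * (vp (g • ξ)).ord f = m ξ * (vp ξ).ord f := by rw [← h1, ← h2]
      constructor
      · intro h
        have h3 : 0 ≤ m ξ * (vp ξ).ord f := by
          rw [← h12]; exact mul_nonneg (hm _).le h
        exact le_of_mul_le_mul_left (by simpa using h3) (hm ξ)
      · intro h
        have h3 : 0 ≤ m (g • ξ) * (vp (g • ξ)).ord f := by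
          rw [h12]; exact mul_nonneg (hm _).le h
        exact le_of_mul_le_mul_left (by simpa using h3) (hm (g • ξ))
  -- Step 5: the finite set of places above `y`
  obtain ⟨S, hS, hsum⟩ := H32.exists_finset_zeros hy
  let _ : Fintype {v : Place K F // 0 < v.ord y} := Fintype.subtype S hS
  let p : X → {v : Place K F // 0 < v.ord y} := fun ξ => ⟨vp ξ, hpos ξ⟩
  have hp : Function.Surjective p := by
    rintro ⟨v', hv'⟩
    by_contra hne
    let S' : Finset (Place K F) := Finset.univ.image vp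
    have hS' : ∀ v ∈ S', 0 < v.ord y := by
      intro v hv
      obtain ⟨ξ, -, rfl⟩ := Finset.mem_image.mp hv
      exact hpos ξ
    have hnot : v' ∉ S' := by
      intro hv
      obtain ⟨ξ, -, hξ⟩ := Finset.mem_image.mp hv
      exact hne ⟨ξ, Subtype.ext hξ⟩
    obtain ⟨f, hf0, hfint, hfv', hfS⟩ :=
      H32.exists_integral_separating y hy v' hv' S' hS' hnot
    obtain ⟨c, P, hcint, hfc, hP⟩ := hnorm f hf0 hfint
    have hP0 : P.eval 0 = 0 := by
      by_contra hP0
      obtain ⟨hne', hord⟩ := H98.aeval_ord_eq_zero v' hv' P hP0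
      have hc0 : c ≠ 0 := by
        rintro rfl
        rw [mul_zero] at hfc
        exact hne' hfc.symm
      have h1 := v'.ord_mul hf0 hc0
      rw [hfc, hord] at h1
      have hcn := H19.isIntegral_ord_nonneg v' hv'.le hcint
      omega
    obtain ⟨ξ, hξ⟩ := hP hP0
    rw [hW ξ f hf0, hfS (vp ξ) (Finset.mem_image_of_mem _ (Finset.mem_univ ξ)), mul_zero] at hξ
    exact lt_irrefl _ hξ
  -- ramification indices
  let e : {v : Place K F // 0 < v.ord y} → ℕ := fun v => (v.1.ord y).toNat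
  have he_cast : ∀ v : {v : Place K F // 0 < v.ord y}, (e v : ℤ) = v.1.ord y := fun v =>
    Int.toNat_of_nonneg v.2.le
  have hsumV : ∑ v, e v = Module.finrank K⟮y⟯ F := by
    have h1 : ((∑ v, e v : ℕ) : ℤ) = ∑ v ∈ S, v.ord y := by
      rw [Finset.sum_subtype S hS (fun v => v.ord y)]
      push_cast
      exact Finset.sum_congr rfl fun v _ => he_cast v
    exact_mod_cast h1.trans hsum
  have hinv' : ∀ ξ, p (g • ξ) = p ξ := fun ξ => Subtype.ext (hinv ξ)
  have hle' : ∀ ξ, e (p ξ) ≤ Nat.card (MulAction.orbit (Subgroup.zpowers g) ξ) := by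
    intro ξ
    have := hle ξ
    have h2 := he_cast (p ξ)
    have h3 : ((e (p ξ) : ℕ) : ℤ) ≤ (Nat.card (MulAction.orbit (Subgroup.zpowers g) ξ) : ℤ) := by
      rw [h2]; exact this
    exact_mod_cast h3
  obtain ⟨-, heq, -⟩ := H97.card_eq_card_orbits_of_sum_eq g p hp e (hsumV.trans hn) hinv' hle'
  -- the dictionary
  intro v hv
  obtain ⟨ξ, hξ⟩ := hp ⟨v, hv⟩
  have hvξ : vp ξ = v := congrArg Subtype.val hξ
  have heq' : (vp ξ).ord y = (Nat.card (MulAction.orbit (Subgroup.zpowers g) ξ) : ℤ) := by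
    have h1 := heq ξ
    have h2 := he_cast (p ξ)
    have h3 : ((e (p ξ) : ℕ) : ℤ) = (Nat.card (MulAction.orbit (Subgroup.zpowers g) ξ) : ℤ) := by
      rw [h1]
    rw [h2] at h3
    exact h3
  -- `m ξ = d ξ`
  have hmd : m ξ = d ξ := by
    have h1 := he ξ
    rw [hW ξ y hy_ne, heq'] at h1
    have hcpos : (0 : ℤ) < (Nat.card (MulAction.orbit (Subgroup.zpowers g) ξ) : ℤ) := by
      rw [← heq']; exact hpos ξ
    have h2 : m ξ ≤ d ξ := le_of_mul_le_mul_right h1 hcpos
    have h3 : (d ξ : ℤ) ≤ m ξ := Int.le_of_dvd (hm ξ) (hdm ξ)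
    exact le_antisymm h2 h3
  refine ⟨ξ, fun f hf => ?_, ?_⟩
  · rw [hW ξ f hf, hmd, hvξ]
  · rw [← hvξ]; exact heq'

end Fermat.Agent.S29.H90
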