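import Mathlib
import Fermat.Agent.S24.CoverAsm_helper31
import Fermat.Agent.S24.CoverRam_helper98
import Fermat.Agent.S29.PlaceDict_helper90

/-!
# Function fields realised inside `L N` (`IsCover`)

`F/K` (with `ι : K →+* ℂ`) is realised inside `L N = Frac (RN N)` by `Φ : F →+* L N` as a field
of `Γ₀(N)`-invariants containing `j` and `j_N`, finite over `K(j)` (`IsCover`).  This file has
the structure and its formal consequences (conjugates, invariance of `K(j)`, transcendence of
`j`, descent of `SL(2,ℤ)`-invariants, the lower bound for the degree).  The place dictionary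
built on it is in `CoverDict_helper90`.

Both `(K, F) = (ℚ̄, modularFunctionFieldBar N)` and the analogous field over `ℂ` are instances.
-/

set_option autoImplicit false

open AlgebraicCurve IntermediateField Polynomial
open Filter Topology UpperHalfPlane CongruenceSubgroup ModularForm ModularCurve ModularGroup
open scoped MatrixGroups ModularForm Manifold Real
open Fermat.Agent.S24 Fermat.Agent.S24.H31

noncomputable section

namespace Fermat.Agent.S29.H90

/-- `F/K` is realised inside `L N` by `Φ` as a field of `Γ₀(N)`-invariant functions containing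
`j` (as `j`) and `z ↦ j (N z)` (as `jN`), finite over `K(j)`. -/
structure IsCover {N : ℕ} [NeZero N] {K F : Type*} [Field K] [Field F] [Algebra K F]
    (ι : K →+* ℂ) (Φ : F →+* L N) (j jN : F) : Prop where
  map_const : ∀ c : K, Φ (algebraMap K F c) = algebraMap ℂ (L N) (ι c)
  inv : ∀ γ ∈ Gamma0 N, ∀ f : F, γ • Φ f = Φ f
  map_j : Φ j = algebraMap (RN N) (L N) (H23.jd N 1 (one_dvd N))
  map_jN : Φ jN = algebraMap (RN N) (L N) (H23.jd N N dvd_rfl)
  finite : FiniteDimensional K⟮j⟯ F

variable {N : ℕ} [NeZero N] {K F : Type*} [Field K] [Field F] [Algebra K F]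
  {ι : K →+* ℂ} {Φ : F →+* L N} {j jN : F}

/-- the conjugate embedding attached to a coset -/
def conjOf (Φ : F →+* L N) (ξ : H98.XN N) : F →+* L N :=
  (MulSemiringAction.toRingHom SL(2, ℤ) (L N) ξ.out).comp Φ

omit [NeZero N] in
theorem conjOf_apply (Φ : F →+* L N) (ξ : H98.XN N) (f : F) : conjOf Φ ξ f = ξ.out • Φ f := rfl

omit [NeZero N] in
theorem conjOf_ne_zero (Φ : F →+* L N) (ξ : H98.XN N) {f : F} (hf : f ≠ 0) :
    conjOf Φ ξ f ≠ 0 :=
  (map_ne_zero (conjOf Φ ξ)).mpr hf

namespace IsCover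

variable (h : IsCover ι Φ j jN)
include h

theorem smul_eq_conj (g : SL(2, ℤ)) (f : F) :
    g • Φ f = conjOf Φ (QuotientGroup.mk g : H98.XN N) f := by
  have hmem : g⁻¹ * (QuotientGroup.mk g : H98.XN N).out ∈ Gamma0 N :=
    QuotientGroup.eq.mp (QuotientGroup.out_eq' _).symm
  rw [conjOf_apply]
  have h2 : (QuotientGroup.mk g : H98.XN N).out
      = g * (g⁻¹ * (QuotientGroup.mk g : H98.XN N).out) := by group
  rw [h2, mul_smul, h.inv _ hmem]

theorem smul_conj (s : SL(2, ℤ)) (ξ : H98.XN N) (f : F) :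
    s • conjOf Φ ξ f = conjOf Φ (s • ξ) f := by
  rw [conjOf_apply, ← mul_smul, h.smul_eq_conj]
  congr 1
  conv_rhs => rw [← QuotientGroup.out_eq' ξ]
  rfl

theorem conj_one (f : F) : conjOf Φ (QuotientGroup.mk 1 : H98.XN N) f = Φ f := by
  rw [← h.smul_eq_conj, one_smul]

theorem smul_const (g : SL(2, ℤ)) (c : K) :
    g • Φ (algebraMap K F c) = Φ (algebraMap K F c) := by
  rw [h.map_const]
  exact smul_algebraMap_complex_L g _

theorem smul_j (g : SL(2, ℤ)) : g • Φ j = Φ j := by
  rw [h.map_j]
  exact H23.smul_algebraMap_jd_one N g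

theorem mem_Gamma0 (g : SL(2, ℤ)) (hg : g • Φ jN = Φ jN) : g ∈ Gamma0 N := by
  rw [h.map_jN] at hg
  exact (H23.smul_algebraMap_jd_self_eq_iff N g).mp hg

theorem smul_adjoin_j (g : SL(2, ℤ)) (c : F) (hc : c ∈ Algebra.adjoin K {j}) :
    g • Φ c = Φ c := by
  induction hc using Algebra.adjoin_induction with
  | mem x hx =>
    rw [Set.mem_singleton_iff] at hx
    subst hx
    exact h.smul_j g
  | algebraMap r => exact h.smul_const g r
  | add x y _ _ hx hy => rw [map_add, smul_add, hx, hy]
  | mul x y _ _ hx hy => rw [map_mul, smul_mul', hx, hy]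

theorem smul_field_j (g : SL(2, ℤ)) (c : F) (hc : c ∈ K⟮j⟯) : g • Φ c = Φ c := by
  induction hc using IntermediateField.adjoin_induction with
  | mem x hx =>
    rw [Set.mem_singleton_iff] at hx
    subst hx
    exact h.smul_j g
  | algebraMap r => exact h.smul_const g r
  | add x y _ _ hx hy => rw [map_add, smul_add, hx, hy]
  | mul x y _ _ hx hy => rw [map_mul, smul_mul', hx, hy]
  | inv x _ hx => rw [map_inv₀, smul_inv'', hx]

theorem smul_adjoin_jinv (g : SL(2, ℤ)) (c : F) (hc : c ∈ Algebra.adjoin K {j⁻¹}) :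
    g • Φ c = Φ c := by
  induction hc using Algebra.adjoin_induction with
  | mem x hx =>
    rw [Set.mem_singleton_iff] at hx
    subst hx
    rw [map_inv₀, smul_inv'', h.smul_j g]
  | algebraMap r => exact h.smul_const g r
  | add x y _ _ hx hy => rw [map_add, smul_add, hx, hy]
  | mul x y _ _ hx hy => rw [map_mul, smul_mul', hx, hy]

/-- `j` is transcendental over `K`. -/
theorem transcendental_j : Transcendental K j := by
  rw [transcendental_iff]
  intro P hP
  have h1 : aeval (Φ j) (P.map ι) = 0 := by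
    rw [← H89.Phi_aeval ι Φ h.map_const j P, hP, map_zero]
  rw [h.map_j] at h1
  have h2 := (transcendental_iff.mp
    (H26.transcendental_jL (H23.jd N 1 (one_dvd N)) (H23.jd_one_apply N))) _ h1
  exact (Polynomial.map_eq_zero ι).mp h2

set_option synthInstance.maxHeartbeats 200000 in
theorem invariant_j [IsAlgClosed K] (x : L N) (hx : ∀ g : SL(2, ℤ), g • x = x)
    (hint : IsIntegral ((Algebra.adjoin K {j}).toSubring.map Φ) x) :
    ∃ Q : Polynomial K, x = Φ (Polynomial.aeval j Q) :=
  H89.invariant_j_of (H23.jd N 1 (one_dvd N)) (H23.jd_one_apply N) ι Φ h.map_const j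
    h.map_j x hx hint

set_option synthInstance.maxHeartbeats 200000 in
theorem invariant_jinv [IsAlgClosed K] (x : L N) (hx : ∀ g : SL(2, ℤ), g • x = x)
    (hint : IsIntegral ((Algebra.adjoin K {j⁻¹}).toSubring.map Φ) x) :
    ∃ Q : Polynomial K, x = Φ (Polynomial.aeval j⁻¹ Q) :=
  H89.invariant_jinv_of (H23.jd N 1 (one_dvd N)) (H23.jd_one_apply N) ι Φ h.map_const j
    h.map_j x hx hint

/-- the conjugates of `j_N` are pairwise distinct, hence the degree is at least `|X|` -/
theorem card_le_finrank : Fintype.card (H98.XN N) ≤ Module.finrank K⟮j⟯ F := by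
  have := h.finite
  refine H10.card_le_finrank_of_injective (K := K) (G := SL(2, ℤ)) Φ j jN
    (fun g c hc => h.smul_field_j g c hc) (fun ξ : H98.XN N => ξ.out) ?_
  intro ξ ζ hξζ
  have h' : ξ.out • Φ jN = ζ.out • Φ jN := hξζ
  have h2 : (ζ.out⁻¹ * ξ.out) • Φ jN = Φ jN := by
    rw [mul_smul, h', ← mul_smul, inv_mul_cancel, one_smul]
  have h3 := h.mem_Gamma0 _ h2
  have h4 : (QuotientGroup.mk ζ.out : H98.XN N) = QuotientGroup.mk ξ.out :=
    QuotientGroup.eq.mpr h3
  rw [QuotientGroup.out_eq', QuotientGroup.out_eq'] at h4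
  exact h4.symm

end IsCover

end Fermat.Agent.S29.H90
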