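import Mathlib
import Fermat.Agent.S24.HurwitzFinal_helper14

/-!
# S29: principal divisors on a function field over an algebraically closed field (generic)

`K` algebraically closed of characteristic zero, `x ∈ F` transcendental over `K` and `F` finite
over `K(x)`.  Then (all from the landed generic S24 layer `H14.rhInputs`):

* `deg_eq_one`            : every place of `F/K` has degree one;
* `ord_algebraMap`        : constants have order zero at every place;
* `finite_ord_ne_zero`    : a function has finitely many zeros and poles;
* `exists_divisor`        : its divisor exists and has degree `0`;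
* `hasPrincipalDivisors`  : the prelude class `HasPrincipalDivisors K F`.

This is the base-field-free form of `S18/PrincDiv_helper98` (which is the case
`K = AlgebraicClosure ℚ`, `F = modularFunctionFieldBar N`, `x = j`); it applies verbatim to the
constant extension `ℂ(j, j_N)` and to the level-`N ℓ` fields.  ("No zeros and poles ⇒ constant"
is the landed generic `S18.H60.exists_algebraMap_eq_of_forall_ord_eq_zero`.)
-/

set_option autoImplicit false

open AlgebraicCurve IntermediateField

namespace Fermat.Agent.S29.H45

variable {K F : Type*} [Field K] [Field F] [Algebra K F] [IsAlgClosed K] [CharZero K]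

/-- every place has degree one -/
theorem deg_eq_one (x : F) (hx : Transcendental K x) [FiniteDimensional K⟮x⟯ F]
    (P : Place K F) : P.deg = 1 :=
  (Fermat.Agent.S24.H14.rhInputs x hx).deg_eq_one P

/-- constants have order zero at every place -/
theorem ord_algebraMap (x : F) (hx : Transcendental K x) [FiniteDimensional K⟮x⟯ F]
    (P : Place K F) (c : K) : P.ord (algebraMap K F c) = 0 :=
  (Fermat.Agent.S24.H14.rhInputs x hx).ord_algebraMap P c

/-- a function has finitely many zeros and poles -/
theorem finite_ord_ne_zero (x : F) (hx : Transcendental K x) [FiniteDimensional K⟮x⟯ F]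
    (f : F) : {P : Place K F | P.ord f ≠ 0}.Finite := by
  have h1 := Fermat.Agent.S24.H14.finite_pos (Fermat.Agent.S24.H14.rhInputs x hx) f
  have h2 := Fermat.Agent.S24.H14.finite_neg (Fermat.Agent.S24.H14.rhInputs x hx) f
  refine (h1.union h2).subset ?_
  intro P hP
  simp only [Set.mem_ofPred_eq] at hP
  simp only [Set.mem_union, Set.mem_ofPred_eq]
  omega

/-- the divisor of a function exists and has degree zero -/
theorem exists_divisor (x : F) (hx : Transcendental K x) [FiniteDimensional K⟮x⟯ F] (f : F) :
    ∃ E : Divisor K F, (∀ P, E P = P.ord f) ∧ Divisor.degree E = 0 := by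
  classical
  have hfin := finite_ord_ne_zero x hx f
  let E : Divisor K F :=
    Finsupp.onFinset hfin.toFinset (fun P => P.ord f) (fun P hP => by
      simpa using hP)
  have hE : ∀ P, E P = P.ord f := fun P => rfl
  refine ⟨E, hE, ?_⟩
  have hdeg : Divisor.degree E = ∑ P ∈ hfin.toFinset, P.ord f := by
    have h1 : Divisor.degree E = E.sum fun P n => n * (P.deg : ℤ) := by
      simp [Divisor.degree, Finsupp.liftAddHom_apply]
    rw [h1, Finsupp.sum_of_support_subset E (s := hfin.toFinset)
      (Finsupp.support_onFinset_subset) _ (fun P _ => by simp)]
    refine Finset.sum_congr rfl fun P _ => ?_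
    rw [hE, deg_eq_one x hx P]
    simp
  rw [hdeg]
  refine Fermat.Agent.S24.H14.sum_ord_eq_zero (Fermat.Agent.S24.H14.rhInputs x hx) f
    hfin.toFinset ?_ ?_
  · intro P hP
    simp only [Set.Finite.mem_toFinset, Set.mem_ofPred_eq]
    omega
  · intro P hP
    simp only [Set.Finite.mem_toFinset, Set.mem_ofPred_eq]
    omega

/-- the prelude class `HasPrincipalDivisors` for a function field finite over `K(x)` -/
theorem hasPrincipalDivisors (x : F) (hx : Transcendental K x) [FiniteDimensional K⟮x⟯ F] :
    HasPrincipalDivisors K F :=
  ⟨fun f _ => exists_divisor x hx f⟩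

/-- the sum of the orders of a nonzero function over any finite set of places containing its
zeros and poles vanishes -/
theorem sum_ord_eq_zero (x : F) (hx : Transcendental K x) [FiniteDimensional K⟮x⟯ F] (f : F)
    (S : Finset (Place K F)) (hS : ∀ P : Place K F, P.ord f ≠ 0 → P ∈ S) :
    ∑ P ∈ S, P.ord f = 0 :=
  Fermat.Agent.S24.H14.sum_ord_eq_zero (Fermat.Agent.S24.H14.rhInputs x hx) f S
    (fun P hP => hS P (by omega)) (fun P hP => hS P (by omega))

end Fermat.Agent.S29.H45
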