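import Mathlib
import Fermat.Agent.S29.CPhiData_helper45
import Fermat.Agent.S29.CPhiRows_helper45
import Fermat.Agent.S29.CFinite_helper45
import Fermat.Agent.S29.PrincDivGen_helper45
import Fermat.Agent.S29.Cover_helper90

/-!
# S29, node (C-MODEL): the function field of `X₀(N)` over `ℂ` - exports

`FC N := ↥(laurentBaseChange ℂ (modularFunctionFieldFull N))` is the prelude function field with
constants extended to `ℂ` (the field `ℂ(j, j_N) ⊆ ℂ((q))`; the prelude Galois machinery
`arithmeticGalois` / `SemilinearAut` acts on it and on its places and classes).  This file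
collects what the S29 tree consumes:

* `jC N`, `jdC N d hd`, `jNC N` : the functions `j`, `j(q^d)`, `j_N = j(q^N)` in `FC N`;
* `phiC N : FC N →+* L N` : the realisation inside the analytic field `L N` (constants go to
  constants, `j(q^d) ↦ (z ↦ j(dz))`, image fixed by `Γ₀(N)`);
* `transcendental_jC`, `finiteDimensional_FC` : `j` is transcendental and `FC N` is finite over
  `ℂ(j)`;
* `isCover_C : H90.IsCover (RingHom.id ℂ) (phiC N) (jC N) (jNC N)` : the `ℂ`-instance of
  helper90's cover interface (so `H90.IsCover.place_dict`, `place_dict_weak`, `finrank_eq`, ...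
  apply to `FC N`);
* `hasPrincipalDivisors_FC`, `deg_eq_one_FC`, `ord_algebraMap_FC`, `finite_ord_ne_zero_FC`,
  `exists_divisor_FC`, `rhInputs_FC` : the function-field facts over `ℂ`.
-/

set_option autoImplicit false

open AlgebraicCurve IntermediateField
open UpperHalfPlane CongruenceSubgroup ModularCurve
open scoped MatrixGroups
open Fermat.Agent.S24 Fermat.Agent.S24.H31

noncomputable section

namespace Fermat.Agent.S29.H45

/-- the function field of `X₀(N)` over `ℂ` -/
abbrev FC (N : ℕ) : Type := ↥(modularFunctionFieldC N)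

variable (N : ℕ)

/-- `j` as an element of `FC N` -/
def jC : FC N := H31.jBar N

/-- `j(q^d)` as an element of `FC N`, for `d ∣ N` -/
def jdC (d : ℕ) [NeZero d] (hd : d ∣ N) : FC N := H31.Jd N d hd

theorem coe_jC : ((jC N : FC N) : LaurentSeries ℂ) = coeffEmb ℂ jq := rfl

theorem coe_jdC (d : ℕ) [NeZero d] (hd : d ∣ N) :
    ((jdC N d hd : FC N) : LaurentSeries ℂ) = coeffEmb ℂ (qExpand ℚ d jq) := rfl

theorem jdC_one : jdC N 1 (one_dvd N) = jC N := H31.Jd_one N

variable [NeZero N]

/-- `j_N = j(q^N)` as an element of `FC N` -/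
def jNC : FC N := H31.Jd N N dvd_rfl

theorem jNC_eq : jNC N = jdC N N dvd_rfl := rfl

/-- the realisation of `FC N` inside the analytic field `L N` -/
def phiC : FC N →+* L N := (H69.phiData N).Φ

theorem phiC_injective : Function.Injective (phiC N) := (phiC N).injective

/-- constants go to constants -/
theorem phiC_algebraMap (c : ℂ) :
    phiC N (algebraMap ℂ (FC N) c) = algebraMap ℂ (L N) c :=
  (H69.phiData N).map_const c

/-- the image of `phiC` is fixed by `Γ₀(N)` -/
theorem smul_phiC (γ : SL(2, ℤ)) (hγ : γ ∈ Gamma0 N) (f : FC N) :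
    γ • phiC N f = phiC N f :=
  (H69.phiData N).inv γ hγ f

/-- `j(q^d)` goes to the function `z ↦ j(dz)` -/
theorem phiC_jdC (d : ℕ) [NeZero d] (hd : d ∣ N) :
    phiC N (jdC N d hd) = algebraMap (RN N) (L N) (H23.jd N d hd) :=
  H31.Phi_Jd (H69.phiData N) d hd

theorem phiC_jC : phiC N (jC N) = algebraMap (RN N) (L N) (H23.jd N 1 (one_dvd N)) :=
  H31.Phi_jBar (H69.phiData N)

theorem phiC_jNC : phiC N (jNC N) = algebraMap (RN N) (L N) (H23.jd N N dvd_rfl) :=
  H31.Phi_Jd (H69.phiData N) N dvd_rfl

/-- `j` is transcendental over `ℂ` -/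
theorem transcendental_jC : Transcendental ℂ (jC N) :=
  H89.transcendental_jBar_FN N

/-- `FC N` is finite over `ℂ(j)` -/
theorem finiteDimensional_FC : FiniteDimensional ℂ⟮jC N⟯ (FC N) :=
  H89.finite_FN (H69.phiData N)

/-- `FC N` is generated over `ℂ` by the `j(q^d)`, `d ∣ N` -/
theorem adjoin_jdC_eq_top :
    IntermediateField.adjoin ℂ {x : FC N | ∃ (d : ℕ) (_ : NeZero d) (hd : d ∣ N), x = jdC N d hd}
      = ⊤ :=
  H89.adjoin_JdSet_eq_top N

/-- **(C-MODEL)** the `ℂ`-instance of the cover interface `H90.IsCover`. -/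
theorem isCover_C : H90.IsCover (RingHom.id ℂ) (phiC N) (jC N) (jNC N) where
  map_const := phiC_algebraMap N
  inv := smul_phiC N
  map_j := phiC_jC N
  map_jN := phiC_jNC N
  finite := finiteDimensional_FC N

/-- the general function-field inputs of S24 for `FC N` over `ℂ(j)` -/
theorem rhInputs_FC : H14.RHInputs ℂ (FC N) (jC N) :=
  haveI := finiteDimensional_FC N
  H14.rhInputs (jC N) (transcendental_jC N)

/-- **principal divisors over `ℂ`**: the prelude class for `FC N` -/
theorem hasPrincipalDivisors_FC : HasPrincipalDivisors ℂ (FC N) :=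
  haveI := finiteDimensional_FC N
  hasPrincipalDivisors (jC N) (transcendental_jC N)

/-- every place of `FC N` has degree one -/
theorem deg_eq_one_FC (P : Place ℂ (FC N)) : P.deg = 1 :=
  haveI := finiteDimensional_FC N
  deg_eq_one (jC N) (transcendental_jC N) P

/-- constants have order zero at every place of `FC N` -/
theorem ord_algebraMap_FC (P : Place ℂ (FC N)) (c : ℂ) : P.ord (algebraMap ℂ (FC N) c) = 0 :=
  haveI := finiteDimensional_FC N
  ord_algebraMap (jC N) (transcendental_jC N) P c

/-- a function in `FC N` has finitely many zeros and poles -/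
theorem finite_ord_ne_zero_FC (f : FC N) : {P : Place ℂ (FC N) | P.ord f ≠ 0}.Finite :=
  haveI := finiteDimensional_FC N
  finite_ord_ne_zero (jC N) (transcendental_jC N) f

/-- the divisor of a function in `FC N` exists and has degree zero -/
theorem exists_divisor_FC (f : FC N) :
    ∃ E : Divisor ℂ (FC N), (∀ P, E P = P.ord f) ∧ Divisor.degree E = 0 :=
  haveI := finiteDimensional_FC N
  exists_divisor (jC N) (transcendental_jC N) f

end Fermat.Agent.S29.H45
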