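import Mathlib
import Fermat.Prelude.Def_AlgebraicCurve_BaseChangeGalois
import Fermat.Agent.S24.Basics_helper19
import Fermat.Agent.S24.FundId_helper32

/-!
# S29 (DE), leaf (CAN): the canonical section of a divisor class (generic form)

`F/K` a function field (in the `Prelude` vocabulary `Place K F`, `Divisor K F`,
`SemilinearAut K F`), `C` a divisor of positive degree, `v0` a place.

For a divisor `D` we call `(n, s)` *canonical* (`IsCan D C v0 n s`) when `n` is the least
integer with `L(D + n C) ≠ 0` and `s` is a nonzero element of `L(D + n C)` of maximal order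
at `v0`.  Then:

* `IsCan.unique`: `n` is unique and `s` is unique up to a nonzero constant (the last nonzero
  step of the order-at-`v0` flag of `L(D + n C)` is a line), as soon as the residue field of
  `v0` is `K`;
* `IsCan.mul_principal`: replacing `D` by `D + div u` replaces `s` by `u⁻¹ s`;
* `IsCan.smul`: a semilinear automorphism `g` fixing `C` and `v0` maps the canonical section
  of `D` to the canonical section of `g • D`;
* `exists_isCan`, `exists_inL`: existence, with no Riemann–Roch and no finite-dimensionality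
  of `L`-spaces: only `deg (div s) = 0` (`HasPrincipalDivisors`) and rationality of places.

Consumer form (`exists_semiinvariant`): for `b ≠ 0`, `m ≠ 0` there is `s ≠ 0` such that
`h := b * s ^ m` satisfies `g • h = c • h` for every semilinear automorphism `g` fixing `x`
and `v0` which fixes the Kummer class of `b` (`g • b = c * b * u ^ m`).  This is the step
"a torsion class with finite orbit has a semi-invariant Kummer generator" of the descent
`ℂ → ℚ̄`.
-/

set_option autoImplicit false

open AlgebraicCurve IntermediateField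

namespace Fermat.Agent.S29.H37

open Fermat.Agent.S24

variable {K F : Type*} [Field K] [Field F] [Algebra K F]

/-- `s ∈ L(D + n C)` (meaningful for `s ≠ 0`): `div s + D + n C ≥ 0`. -/
def InL (D C : Divisor K F) (n : ℤ) (s : F) : Prop :=
  ∀ v : Place K F, 0 ≤ v.ord s + D v + n * C v

/-- `(n, s)` is canonical for `D` with respect to `(C, v0)`: `n` is minimal with
`L(D + n C) ≠ 0`, and `s ≠ 0` in `L(D + n C)` has maximal order at `v0`. -/
structure IsCan (D C : Divisor K F) (v0 : Place K F) (n : ℤ) (s : F) : Prop where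
  ne_zero : s ≠ 0
  mem : InL D C n s
  min : ∀ n' : ℤ, n' < n → ∀ s' : F, s' ≠ 0 → ¬ InL D C n' s'
  max : ∀ s' : F, s' ≠ 0 → InL D C n s' → v0.ord s' ≤ v0.ord s

/-! ### Linear structure of `L(D + n C)` -/

theorem InL.sub_const_mul {D C : Divisor K F} {n : ℤ} {s s' : F} (hs : InL D C n s)
    (hs' : InL D C n s') (c : K) (hne : s' - algebraMap K F c * s ≠ 0) :
    InL D C n (s' - algebraMap K F c * s) := by
  intro v
  have h1 := H19.ord_sub_ge v hne
  have h3 := hs v
  have h4 := hs' v
  have h2 : v.ord s ≤ v.ord (algebraMap K F c * s) ∨ algebraMap K F c * s = 0 := by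
    by_cases hc : c = 0
    · right; simp [hc]
    by_cases hs0 : s = 0
    · right; simp [hs0]
    left
    rw [v.ord_mul ((map_ne_zero _).mpr hc) hs0, H19.ord_algebraMap, zero_add]
  rcases h2 with h2 | h2
  · have h5 : min (v.ord s') (v.ord s) ≤ v.ord (s' - algebraMap K F c * s) :=
      le_trans (min_le_min le_rfl h2) h1
    rcases min_cases (v.ord s') (v.ord s) with ⟨h, _⟩ | ⟨h, _⟩ <;> rw [h] at h5 <;> linarith
  · rw [h2, sub_zero]; exact h4

/-! ### Uniqueness -/

/-- The canonical pair is unique: `n` on the nose, `s` up to a nonzero constant. -/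
theorem IsCan.unique {D C : Divisor K F} {v0 : Place K F} {n n' : ℤ} {s s' : F}
    (hrat : ∀ u ∈ v0.toValuationSubring,
      ∃ c : K, u = algebraMap K F c ∨ 0 < v0.ord (u - algebraMap K F c))
    (h : IsCan D C v0 n s) (h' : IsCan D C v0 n' s') :
    n = n' ∧ ∃ c : K, c ≠ 0 ∧ s' = algebraMap K F c * s := by
  have hn : n = n' := by
    rcases lt_trichotomy n n' with hlt | heq | hgt
    · exact absurd h.mem (h'.min n hlt s h.ne_zero)
    · exact heq
    · exact absurd h'.mem (h.min n' hgt s' h'.ne_zero)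
  subst hn
  refine ⟨rfl, ?_⟩
  have hord : v0.ord s' = v0.ord s :=
    le_antisymm (h.max s' h'.ne_zero h'.mem) (h'.max s h.ne_zero h.mem)
  have hu : s' / s ∈ v0.toValuationSubring := by
    rw [H19.mem_iff', H19.ord_div v0 h'.ne_zero h.ne_zero, hord, sub_self]
  obtain ⟨c, hc⟩ := hrat _ hu
  rcases hc with hc | hc
  · refine ⟨c, ?_, ?_⟩
    · rintro rfl
      rw [map_zero, div_eq_zero_iff] at hc
      exact hc.elim h'.ne_zero h.ne_zero
    · rw [← hc, div_mul_cancel₀ _ h.ne_zero]
  · exfalso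
    have hne : s' / s - algebraMap K F c ≠ 0 := by
      intro h0
      rw [h0, Place.ord_zero] at hc
      exact lt_irrefl _ hc
    have heq : s' - algebraMap K F c * s = (s' / s - algebraMap K F c) * s := by
      rw [sub_mul, div_mul_cancel₀ _ h.ne_zero]
    have hne' : s' - algebraMap K F c * s ≠ 0 := by
      rw [heq]; exact mul_ne_zero hne h.ne_zero
    have hmem := h.mem.sub_const_mul h'.mem c hne'
    have hle := h.max _ hne' hmem
    rw [heq, v0.ord_mul hne h.ne_zero] at hle
    omega

/-! ### Change of `D` in its class -/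

theorem inL_inv_mul_iff {D D' C : Divisor K F} {u : F} (hu : u ≠ 0)
    (hD' : ∀ v : Place K F, D' v = D v + v.ord u) (k : ℤ) {t : F} (ht : t ≠ 0) :
    InL D' C k (u⁻¹ * t) ↔ InL D C k t := by
  have key : ∀ v : Place K F,
      v.ord (u⁻¹ * t) + D' v + k * C v = v.ord t + D v + k * C v := by
    intro v
    rw [v.ord_mul (inv_ne_zero hu) ht, v.ord_inv, hD' v]
    ring
  exact ⟨fun h v => by rw [← key v]; exact h v, fun h v => by rw [key v]; exact h v⟩

/-- Replacing `D` by `D + div u` replaces the canonical section `s` by `u⁻¹ s`. -/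
theorem IsCan.mul_principal {D D' C : Divisor K F} {v0 : Place K F} {n : ℤ} {s u : F}
    (hu : u ≠ 0) (hD' : ∀ v : Place K F, D' v = D v + v.ord u) (h : IsCan D C v0 n s) :
    IsCan D' C v0 n (u⁻¹ * s) := by
  have hback : ∀ (k : ℤ) (s' : F), s' ≠ 0 → InL D' C k s' → InL D C k (u * s') := by
    intro k s' hs' hmem
    refine (inL_inv_mul_iff (C := C) hu hD' k (mul_ne_zero hu hs')).mp ?_
    rwa [inv_mul_cancel_left₀ hu]
  refine ⟨mul_ne_zero (inv_ne_zero hu) h.ne_zero,
    (inL_inv_mul_iff hu hD' n h.ne_zero).mpr h.mem, ?_, ?_⟩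
  · intro n' hn' s' hs' hmem
    exact h.min n' hn' (u * s') (mul_ne_zero hu hs') (hback n' s' hs' hmem)
  · intro s' hs' hmem
    have h1 := h.max (u * s') (mul_ne_zero hu hs') (hback n s' hs' hmem)
    rw [v0.ord_mul hu hs'] at h1
    rw [v0.ord_mul (inv_ne_zero hu) h.ne_zero, v0.ord_inv]
    omega

/-! ### Semilinear automorphisms -/

theorem inL_smul_iff (g : SemilinearAut K F) {D C : Divisor K F} (hC : g • C = C) (k : ℤ)
    (t : F) : InL (g • D) C k (g • t) ↔ InL D C k t := by
  have key : ∀ v : Place K F,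
      (g • v).ord (g • t) + (g • D) (g • v) + k * C (g • v) = v.ord t + D v + k * C v := by
    intro v
    have hCv : C (g • v) = C v := by
      conv_lhs => rw [← hC]
      exact SemilinearAut.divisor_smul_apply_smul g C v
    rw [SemilinearAut.ord_smul, SemilinearAut.divisor_smul_apply_smul, hCv]
  constructor
  · intro h v
    rw [← key v]
    exact h (g • v)
  · intro h w
    have h1 := h (g⁻¹ • w)
    rw [← key (g⁻¹ • w), smul_inv_smul] at h1
    exact h1

/-- A semilinear automorphism fixing `C` and `v0` maps the canonical section of `D` to the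
canonical section of `g • D`. -/
theorem IsCan.smul (g : SemilinearAut K F) {D C : Divisor K F} {v0 : Place K F} {n : ℤ}
    {s : F} (hC : g • C = C) (hv0 : g • v0 = v0) (h : IsCan D C v0 n s) :
    IsCan (g • D) C v0 n (g • s) := by
  have hord : ∀ t : F, v0.ord (g • t) = v0.ord t := by
    intro t
    have h1 := SemilinearAut.ord_smul g v0 t
    rwa [hv0] at h1
  refine ⟨(smul_ne_zero_iff_ne g).mpr h.ne_zero, (inL_smul_iff g hC n s).mpr h.mem, ?_, ?_⟩
  · intro n' hn' s' hs' hmem
    have h1 : s' = g • (g⁻¹ • s') := (smul_inv_smul g s').symm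
    rw [h1] at hmem
    exact h.min n' hn' (g⁻¹ • s') ((smul_ne_zero_iff_ne g⁻¹).mpr hs')
      ((inL_smul_iff g hC n' _).mp hmem)
  · intro s' hs' hmem
    have h1 : s' = g • (g⁻¹ • s') := (smul_inv_smul g s').symm
    rw [h1] at hmem
    have h2 := h.max (g⁻¹ • s') ((smul_ne_zero_iff_ne g⁻¹).mpr hs')
      ((inL_smul_iff g hC n _).mp hmem)
    rw [hord, h1, hord]
    exact h2

/-! ### Degrees -/

theorem degree_eq_sum (E : Divisor K F) :
    Divisor.degree E = ∑ v ∈ E.support, E v * (v.deg : ℤ) := by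
  simp [Divisor.degree, Finsupp.sum]

theorem degree_nonneg {E : Divisor K F} (hE : ∀ v, 0 ≤ E v) : 0 ≤ Divisor.degree E := by
  rw [degree_eq_sum]
  exact Finset.sum_nonneg fun v _ => mul_nonneg (hE v) (Nat.cast_nonneg _)

theorem apply_mul_deg_le_degree {E : Divisor K F} (hE : ∀ v, 0 ≤ E v) (v0 : Place K F) :
    E v0 * (v0.deg : ℤ) ≤ Divisor.degree E := by
  rw [degree_eq_sum]
  by_cases h : v0 ∈ E.support
  · exact Finset.single_le_sum (f := fun v => E v * (v.deg : ℤ))
      (fun v _ => mul_nonneg (hE v) (Nat.cast_nonneg _)) h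
  · rw [Finsupp.notMem_support_iff.mp h, zero_mul]
    exact Finset.sum_nonneg fun v _ => mul_nonneg (hE v) (Nat.cast_nonneg _)

theorem InL.degree_bound [HasPrincipalDivisors K F] {D C : Divisor K F} {n : ℤ} {s : F}
    (hs : s ≠ 0) (h : InL D C n s) (v0 : Place K F) :
    0 ≤ Divisor.degree D + n * Divisor.degree C ∧
      (v0.ord s + D v0 + n * C v0) * (v0.deg : ℤ)
        ≤ Divisor.degree D + n * Divisor.degree C := by
  obtain ⟨Ds, hDs, hdeg⟩ := HasPrincipalDivisors.exists_divisor (K := K) s hs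
  set E : Divisor K F := Ds + D + n • C with hE
  have hEv : ∀ v, E v = v.ord s + D v + n * C v := by
    intro v
    simp [hE, hDs v]
  have hE0 : ∀ v, 0 ≤ E v := fun v => by rw [hEv]; exact h v
  have hdegE : Divisor.degree E = Divisor.degree D + n * Divisor.degree C := by
    rw [hE, map_add, map_add, hdeg, zero_add, map_zsmul, smul_eq_mul]
  refine ⟨hdegE ▸ degree_nonneg hE0, ?_⟩
  rw [← hdegE, ← hEv]
  exact apply_mul_deg_le_degree hE0 v0

/-! ### Existence -/

/-- Existence of the canonical pair, given one nonzero section of some `L(D + n C)`. -/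
theorem exists_isCan [HasPrincipalDivisors K F] {D C : Divisor K F} {v0 : Place K F}
    (hC : 0 < Divisor.degree C) (hv0 : v0.deg ≠ 0)
    (hex : ∃ (n : ℤ) (s : F), s ≠ 0 ∧ InL D C n s) :
    ∃ (n : ℤ) (s : F), IsCan D C v0 n s := by
  -- the least `n`
  obtain ⟨n, ⟨s1, hs1, hmem1⟩, hmin⟩ :=
    Int.exists_least_of_bdd (P := fun n => ∃ s : F, s ≠ 0 ∧ InL D C n s)
      ⟨-|Divisor.degree D|, fun z ⟨s, hs, hmem⟩ => by
        have h1 := (hmem.degree_bound hs v0).1
        by_contra hlt
        rw [not_le] at hlt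
        have hz : z < 0 := lt_of_lt_of_le hlt (neg_nonpos.mpr (abs_nonneg _))
        have h2 : z * Divisor.degree C ≤ z := by nlinarith
        have h3 := le_abs_self (Divisor.degree D)
        linarith⟩ hex
  -- the greatest order at `v0`
  obtain ⟨k, ⟨s, hs, hmem, hk⟩, hmax⟩ :=
    Int.exists_greatest_of_bdd (P := fun k => ∃ s : F, s ≠ 0 ∧ InL D C n s ∧ v0.ord s = k)
      ⟨Divisor.degree D + n * Divisor.degree C - D v0 - n * C v0, fun z ⟨s, hs, hmem, hz⟩ => by
        have h1 := (hmem.degree_bound hs v0).2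
        have h2 := hmem v0
        have h3 : (1 : ℤ) ≤ (v0.deg : ℤ) := by exact_mod_cast Nat.one_le_iff_ne_zero.mpr hv0
        rw [hz] at h1 h2
        nlinarith⟩ ⟨v0.ord s1, s1, hs1, hmem1, rfl⟩
  refine ⟨n, s, hs, hmem, ?_, ?_⟩
  · intro n' hn' s' hs' hmem'
    exact absurd (hmin n' ⟨s', hs', hmem'⟩) (not_le.mpr hn')
  · intro s' hs' hmem'
    rw [hk]
    exact hmax _ ⟨s', hs', hmem', rfl⟩

/-- A product of powers of `x - x(P)` vanishing to prescribed orders at finitely many places
where `x` is regular, and regular wherever `x` is. -/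
theorem exists_prod_section (x : F) (k : Place K F → ℕ)
    (hval : ∀ v : Place K F, 0 ≤ v.ord x → ∃ c : K, 0 < v.ord (x - algebraMap K F c))
    (T : Finset (Place K F)) (hT : ∀ v ∈ T, 0 ≤ v.ord x) :
    ∃ s : F, s ≠ 0 ∧ (∀ w : Place K F, 0 ≤ w.ord x → 0 ≤ w.ord s) ∧
      ∀ w ∈ T, (k w : ℤ) ≤ w.ord s := by
  classical
  induction T using Finset.induction_on with
  | empty =>
    exact ⟨1, one_ne_zero, fun w _ => by simp, fun w hw => absurd hw (Finset.notMem_empty w)⟩
  | insert v T hv ih =>
    obtain ⟨s, hs, hs1, hs2⟩ := ih (fun w hw => hT w (Finset.mem_insert_of_mem hw))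
    obtain ⟨c, hc⟩ := hval v (hT v (Finset.mem_insert_self v T))
    have hne : x - algebraMap K F c ≠ 0 := by
      intro h0
      rw [h0, Place.ord_zero] at hc
      exact lt_irrefl _ hc
    have hint : ∀ w : Place K F, 0 ≤ w.ord x → 0 ≤ w.ord (x - algebraMap K F c) := by
      intro w hw
      have h1 := H19.ord_sub_ge w hne
      rw [H19.ord_algebraMap] at h1
      exact le_trans (le_min hw le_rfl) h1
    have hpne : (x - algebraMap K F c) ^ k v ≠ 0 := pow_ne_zero _ hne
    refine ⟨(x - algebraMap K F c) ^ k v * s, mul_ne_zero hpne hs, ?_, ?_⟩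
    · intro w hw
      rw [w.ord_mul hpne hs, H19.ord_pow]
      exact add_nonneg (mul_nonneg (Nat.cast_nonneg _) (hint w hw)) (hs1 w hw)
    · intro w hw
      rw [w.ord_mul hpne hs, H19.ord_pow]
      rcases Finset.mem_insert.mp hw with hwv | hwT
      · subst hwv
        have h0 : (1 : ℤ) ≤ w.ord (x - algebraMap K F c) := hc
        have h1 : (k w : ℤ) * 1 ≤ (k w : ℤ) * w.ord (x - algebraMap K F c) :=
          mul_le_mul_of_nonneg_left h0 (Nat.cast_nonneg _)
        have h2 := hs1 w (hT w hw)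
        linarith
      · have h1 := hint w (hT w hw)
        have h2 := hs2 w hwT
        have h3 : 0 ≤ (k v : ℤ) * w.ord (x - algebraMap K F c) :=
          mul_nonneg (Nat.cast_nonneg _) h1
        linarith

/-- Some `L(D + n C)` is nonzero, when `C ≥ 0` is positive at the poles of a function `x`
and `x` takes a value in `K` at every place where it is regular. -/
theorem exists_inL [HasPrincipalDivisors K F] (x : F) (hx : x ≠ 0) (C D : Divisor K F)
    (hC0 : ∀ v : Place K F, 0 ≤ C v) (hCx : ∀ v : Place K F, v.ord x < 0 → 0 < C v)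
    (hval : ∀ v : Place K F, 0 ≤ v.ord x → ∃ c : K, 0 < v.ord (x - algebraMap K F c)) :
    ∃ (n : ℤ) (s : F), s ≠ 0 ∧ InL D C n s := by
  classical
  obtain ⟨Dx, hDx, -⟩ := HasPrincipalDivisors.exists_divisor (K := K) x hx
  obtain ⟨s, hs, hs1, hs2⟩ := exists_prod_section x (fun v => (-D v).toNat) hval
    (D.support.filter (fun v => 0 ≤ v.ord x)) (fun v hv => (Finset.mem_filter.mp hv).2)
  have hn0 : 0 ≤ ∑ w ∈ Dx.support, |w.ord s + D w| :=
    Finset.sum_nonneg fun w _ => abs_nonneg _
  refine ⟨∑ w ∈ Dx.support, |w.ord s + D w|, s, hs, fun v => ?_⟩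
  by_cases hv : 0 ≤ v.ord x
  · have h1 := hs1 v hv
    have h2 : 0 ≤ v.ord s + D v := by
      by_cases hDv : D v = 0
      · rw [hDv, add_zero]; exact h1
      · have hvT : v ∈ D.support.filter (fun v => 0 ≤ v.ord x) :=
          Finset.mem_filter.mpr ⟨Finsupp.mem_support_iff.mpr hDv, hv⟩
        have h3 := hs2 v hvT
        have h4 : -D v ≤ ((-D v).toNat : ℤ) := Int.self_le_toNat _
        linarith
    have h3 : 0 ≤ (∑ w ∈ Dx.support, |w.ord s + D w|) * C v := mul_nonneg hn0 (hC0 v)
    linarith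
  · rw [not_le] at hv
    have hvs : v ∈ Dx.support := by
      rw [Finsupp.mem_support_iff, hDx v]; exact hv.ne
    have h1 : |v.ord s + D v| ≤ ∑ w ∈ Dx.support, |w.ord s + D w| :=
      Finset.single_le_sum (f := fun w => |w.ord s + D w|) (fun w _ => abs_nonneg _) hvs
    have h2 : (1 : ℤ) ≤ C v := hCx v hv
    have h3 : (∑ w ∈ Dx.support, |w.ord s + D w|)
        ≤ (∑ w ∈ Dx.support, |w.ord s + D w|) * C v := by nlinarith
    have h4 := neg_abs_le (v.ord s + D v)
    linarith

/-! ### The consumer form -/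

/-- **(CAN), abstract hypotheses.** For `b ≠ 0` and `m ≠ 0` there is `s ≠ 0` such that
`b * s ^ m` is multiplied by a constant under every semilinear automorphism `g` fixing `x`
and `v0` and fixing the Kummer class of `b` (`g • b = c * b * u ^ m`).  (The divisor used is
`⌊div b / m⌋`; no divisibility hypothesis is needed.) -/
theorem exists_semiinvariant_of [HasPrincipalDivisors K F] (x : F)
    (hpole : ∃ v : Place K F, v.ord x < 0)
    (hdeg : ∀ v : Place K F, v.deg ≠ 0)
    (hrat : ∀ v : Place K F, ∀ u ∈ v.toValuationSubring,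
      ∃ c : K, u = algebraMap K F c ∨ 0 < v.ord (u - algebraMap K F c))
    (v0 : Place K F) {m : ℕ} (hm : m ≠ 0) (b : F) (hb : b ≠ 0) :
    ∃ s : F, s ≠ 0 ∧ ∀ g : SemilinearAut K F, g • x = x → g • v0 = v0 →
      (∃ (c : K) (u : F), c ≠ 0 ∧ u ≠ 0 ∧ g • b = algebraMap K F c * b * u ^ m) →
      ∃ c' : K, c' ≠ 0 ∧ g • (b * s ^ m) = algebraMap K F c' * (b * s ^ m) := by
  classical
  obtain ⟨v1, hv1⟩ := hpole
  have hx0 : x ≠ 0 := by
    rintro rfl
    simp at hv1
  obtain ⟨Dx, hDx, -⟩ := HasPrincipalDivisors.exists_divisor (K := K) x hx0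
  obtain ⟨Db, hDb, -⟩ := HasPrincipalDivisors.exists_divisor (K := K) b hb
  -- the pole divisor of `x`
  set C : Divisor K F := Dx.mapRange (fun n => max 0 (-n)) (by simp) with hCdef
  have hCv : ∀ v, C v = max 0 (-v.ord x) := fun v => by
    rw [hCdef, Finsupp.mapRange_apply, hDx v]
  have hC0 : ∀ v, 0 ≤ C v := fun v => by rw [hCv]; exact le_max_left _ _
  have hCx : ∀ v : Place K F, v.ord x < 0 → 0 < C v := fun v hv => by
    rw [hCv]; exact lt_max_of_lt_right (by omega)
  have hCdeg : 0 < Divisor.degree C := by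
    have h1 := apply_mul_deg_le_degree hC0 v1
    have h2 : (1 : ℤ) ≤ C v1 := hCx v1 hv1
    have h3 : (1 : ℤ) ≤ (v1.deg : ℤ) := by
      exact_mod_cast Nat.one_le_iff_ne_zero.mpr (hdeg v1)
    nlinarith
  -- `D = div b / m`
  set D : Divisor K F := Db.mapRange (fun n => n / (m : ℤ)) (by simp) with hDdef
  have hDv : ∀ v, D v = v.ord b / (m : ℤ) := fun v => by
    rw [hDdef, Finsupp.mapRange_apply, hDb v]
  have hval : ∀ v : Place K F, 0 ≤ v.ord x → ∃ c : K, 0 < v.ord (x - algebraMap K F c) := by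
    intro v hv
    obtain ⟨c, hc | hc⟩ := hrat v x ((H19.mem_iff' v x).mpr hv)
    · exfalso
      rw [hc, H19.ord_algebraMap] at hv1
      exact lt_irrefl _ hv1
    · exact ⟨c, hc⟩
  obtain ⟨n, s, hcan⟩ := exists_isCan (D := D) (v0 := v0) hCdeg (hdeg v0)
    (exists_inL x hx0 C D hC0 hCx hval)
  refine ⟨s, hcan.ne_zero, ?_⟩
  rintro g hgx hgv0 ⟨c, u, hc, hu, hgb⟩
  have hgC : g • C = C := by
    ext w
    rw [SemilinearAut.divisor_smul_apply, hCv, hCv]
    have h1 := SemilinearAut.ord_smul g (g⁻¹ • w) x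
    rw [smul_inv_smul, hgx] at h1
    rw [h1]
  have hgD : ∀ v : Place K F, (g • D) v = D v + v.ord u := by
    intro v
    rw [SemilinearAut.divisor_smul_apply, hDv, hDv]
    have h1 := SemilinearAut.ord_smul g (g⁻¹ • v) b
    rw [smul_inv_smul, hgb] at h1
    have hcb : algebraMap K F c * b ≠ 0 := mul_ne_zero ((map_ne_zero _).mpr hc) hb
    rw [v.ord_mul hcb (pow_ne_zero _ hu), v.ord_mul ((map_ne_zero _).mpr hc) hb,
      H19.ord_algebraMap, zero_add, H19.ord_pow] at h1
    have hm' : (m : ℤ) ≠ 0 := by exact_mod_cast hm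
    rw [← h1, Int.add_mul_ediv_left _ _ hm']
  have h1 : IsCan (g • D) C v0 n (g • s) := hcan.smul g hgC hgv0
  have h2 : IsCan (g • D) C v0 n (u⁻¹ * s) := hcan.mul_principal hu hgD
  obtain ⟨-, c', hc', hgs⟩ := IsCan.unique (hrat v0) h2 h1
  refine ⟨c * c' ^ m, mul_ne_zero hc (pow_ne_zero _ hc'), ?_⟩
  rw [smul_mul', smul_pow', hgb, hgs, map_mul, map_pow]
  have hum : u ^ m * u⁻¹ ^ m = 1 := by rw [← mul_pow, mul_inv_cancel₀ hu, one_pow]
  calc algebraMap K F c * b * u ^ m * (algebraMap K F c' * (u⁻¹ * s)) ^ m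
      = algebraMap K F c * algebraMap K F c' ^ m * (b * s ^ m) * (u ^ m * u⁻¹ ^ m) := by
        rw [mul_pow, mul_pow]; ring
    _ = algebraMap K F c * algebraMap K F c' ^ m * (b * s ^ m) := by rw [hum, mul_one]

/-- **(CAN).** `F` a function field over an algebraically closed field `K` of characteristic
zero, finite over `K(x)`.  For `b ≠ 0`, `m ≠ 0` there is `s ≠ 0` such that `b * s ^ m` is
multiplied by a constant under every semilinear automorphism `g` fixing `x` and `v0` and
fixing the Kummer class of `b`. -/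
theorem exists_semiinvariant [IsAlgClosed K] [CharZero K] [HasPrincipalDivisors K F] (x : F)
    (hx : Transcendental K x) [FiniteDimensional K⟮x⟯ F] (v0 : Place K F) {m : ℕ}
    (hm : m ≠ 0) (b : F) (hb : b ≠ 0) :
    ∃ s : F, s ≠ 0 ∧ ∀ g : SemilinearAut K F, g • x = x → g • v0 = v0 →
      (∃ (c : K) (u : F), c ≠ 0 ∧ u ≠ 0 ∧ g • b = algebraMap K F c * b * u ^ m) →
      ∃ c' : K, c' ≠ 0 ∧ g • (b * s ^ m) = algebraMap K F c' * (b * s ^ m) := by
  have hpole : ∃ v : Place K F, v.ord x < 0 := by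
    have hxi : Transcendental K x⁻¹ := fun h => hx (IsAlgebraic.inv_iff.mp h)
    have : FiniteDimensional K⟮x⁻¹⟯ F := by
      rw [H19.adjoin_inv]; infer_instance
    obtain ⟨S, hS, hsum⟩ := H32.exists_finset_zeros hxi
    have hpos : (0 : ℤ) < (Module.finrank K⟮x⁻¹⟯ F : ℤ) := by
      exact_mod_cast Module.finrank_pos
    rw [← hsum] at hpos
    obtain ⟨v, hvS, -⟩ := Finset.exists_ne_zero_of_sum_ne_zero hpos.ne'
    refine ⟨v, ?_⟩
    have h1 := (hS v).mp hvS
    rw [v.ord_inv] at h1
    omega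
  exact exists_semiinvariant_of x hpole
    (fun v => by rw [H19.deg_eq_one x hx inferInstance v]; exact one_ne_zero)
    (fun v u hu => H19.residue_eq x hx inferInstance v hu) v0 hm b hb

end Fermat.Agent.S29.H37
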