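import Mathlib
import Fermat.Prelude.Def_ModularCurve_LaurentCoeff

/-!
# Coefficient descent for function fields inside Laurent series (helper43)

S29, descent node (DE), leaf (CD-A).

`K ⊆ L` fields, `FK` a subfield of `K((q))` containing `K`.  The compositum `L · ι(FK)` inside
`L((q))` meets `ι(K((q)))` exactly in `ι(FK)` (`mem_of_coeffMap_mem_adjoin`), because a `K`-basis
of `L` stays linearly independent over `K((q))` coefficientwise.  For the Prelude's
`laurentBaseChange` this reads `F_L ∩ K((q)) = F_K` (`mem_laurentBaseChange_of_coeffMap`).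

Mathlib + Prelude `Def_ModularCurve_LaurentCoeff` only.
-/

set_option autoImplicit false

noncomputable section

namespace Fermat.Agent.S29.H43

open ModularCurve

variable {K L : Type*} [Field K] [Field L] [Algebra K L]

theorem coeff_C_mul (c : L) (y : LaurentSeries L) (n : ℤ) :
    (HahnSeries.C c * y).coeff n = c * y.coeff n := by
  rw [show (HahnSeries.C c : LaurentSeries L) = HahnSeries.single 0 c from rfl,
    HahnSeries.coeff_single_zero_mul]

theorem coeffMap_C (k : K) :
    coeffMap (algebraMap K L) (HahnSeries.C k) = HahnSeries.C (algebraMap K L k) := by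
  rw [show (HahnSeries.C k : LaurentSeries K) = HahnSeries.single 0 k from rfl, coeffMap_single]
  rfl

theorem algebraMap_eq_C (c : L) : algebraMap L (LaurentSeries L) c = HahnSeries.C c := by
  rw [algebraMap_laurentSeries_eq_single]
  rfl

theorem coeffMap_injective : Function.Injective (coeffMap (algebraMap K L)) := by
  intro x y h
  ext n
  have := congrArg (fun z => z.coeff n) h
  simpa using this

/-- `Σ_s e_s • ι(a_s)` for a `K`-basis `(e_s)` of `L`. -/
def phi {I : Type*} (b : Module.Basis I K L) (a : I →₀ LaurentSeries K) : LaurentSeries L :=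
  a.sum fun s x => HahnSeries.C (b s) * coeffMap (algebraMap K L) x

theorem phi_zero {I : Type*} (b : Module.Basis I K L) : phi b 0 = 0 := by
  simp [phi]

theorem phi_add {I : Type*} (b : Module.Basis I K L) (a a' : I →₀ LaurentSeries K) :
    phi b (a + a') = phi b a + phi b a' := by
  unfold phi
  exact Finsupp.sum_add_index' (fun s => by simp) (fun s x y => by rw [map_add, mul_add])

theorem phi_neg {I : Type*} (b : Module.Basis I K L) (a : I →₀ LaurentSeries K) :
    phi b (-a) = -phi b a := by
  have h := phi_add b a (-a)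
  rw [add_neg_cancel, phi_zero] at h
  exact (neg_eq_of_add_eq_zero_right h.symm).symm

theorem phi_single {I : Type*} (b : Module.Basis I K L) (s : I) (x : LaurentSeries K) :
    phi b (Finsupp.single s x) = HahnSeries.C (b s) * coeffMap (algebraMap K L) x := by
  unfold phi
  exact Finsupp.sum_single_index (by simp)

theorem coeff_phi {I : Type*} (b : Module.Basis I K L) (a : I →₀ LaurentSeries K) (n : ℤ) :
    (phi b a).coeff n =
      Finsupp.linearCombination K b (a.mapRange (fun x => x.coeff n) (by simp)) := by
  induction a using Finsupp.induction_linear with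
  | zero => simp [phi]
  | add a a' h h' =>
    rw [phi_add, HahnSeries.coeff_add, h, h', Finsupp.mapRange_add (by intros; simp), map_add]
  | single s x =>
    rw [phi_single, coeff_C_mul, coeffMap_coeff, Finsupp.mapRange_single,
      Finsupp.linearCombination_single, Algebra.smul_def, mul_comm]

theorem phi_injective {I : Type*} (b : Module.Basis I K L) : Function.Injective (phi b) := by
  intro a a' h
  ext s n
  have h1 := congrArg (fun y => y.coeff n) h
  simp only [coeff_phi] at h1
  have h2 := (linearIndependent_iff_injective_finsuppLinearCombination.mp b.linearIndependent) h1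
  have h3 := DFunLike.congr_fun h2 s
  simpa using h3

theorem coeffMap_mul_phi {I : Type*} (b : Module.Basis I K L) (x₀ : LaurentSeries K)
    (a : I →₀ LaurentSeries K) :
    coeffMap (algebraMap K L) x₀ * phi b a = phi b (a.mapRange (fun x => x₀ * x) (mul_zero _)) := by
  induction a using Finsupp.induction_linear with
  | zero => simp [phi]
  | add a a' h h' =>
    rw [phi_add, mul_add, h, h', Finsupp.mapRange_add (by intros; simp [mul_add]), phi_add]
  | single s x =>
    rw [phi_single, Finsupp.mapRange_single, phi_single, map_mul, mul_left_comm]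

/-- the additive group of all `Σ_s e_s • ι(a_s)` with `a_s ∈ FK` -/
def addS {I : Type*} (b : Module.Basis I K L) (FK : IntermediateField K (LaurentSeries K)) :
    AddSubgroup (LaurentSeries L) where
  carrier := {y | ∃ a : I →₀ LaurentSeries K, (∀ s, a s ∈ FK) ∧ phi b a = y}
  zero_mem' := ⟨0, fun s => by simp, phi_zero b⟩
  add_mem' := by
    rintro _ _ ⟨a, ha, rfl⟩ ⟨a', ha', rfl⟩
    exact ⟨a + a', fun s => by simpa using add_mem (ha s) (ha' s), phi_add b a a'⟩
  neg_mem' := by
    rintro _ ⟨a, ha, rfl⟩
    exact ⟨-a, fun s => by simpa using neg_mem (ha s), phi_neg b a⟩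

theorem C_mem (FK : IntermediateField K (LaurentSeries K)) (k : K) :
    (HahnSeries.C k : LaurentSeries K) ∈ FK := by
  rw [← algebraMap_eq_C]
  exact FK.algebraMap_mem k

theorem C_mul_mem_addS {I : Type*} (b : Module.Basis I K L)
    (FK : IntermediateField K (LaurentSeries K)) (c : L) {x : LaurentSeries K} (hx : x ∈ FK) :
    HahnSeries.C c * coeffMap (algebraMap K L) x ∈ addS b FK := by
  refine ⟨(b.repr c).mapRange (fun k => HahnSeries.C k * x) (by simp), fun s => ?_, ?_⟩
  · rw [Finsupp.mapRange_apply]
    exact FK.mul_mem (C_mem FK _) hx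
  · unfold phi
    rw [Finsupp.sum_mapRange_index (fun s => by simp)]
    have h1 : ((b.repr c).sum fun s k =>
          HahnSeries.C (b s) * coeffMap (algebraMap K L) (HahnSeries.C k * x)) =
        ((b.repr c).sum fun s k => HahnSeries.C (k • b s)) * coeffMap (algebraMap K L) x := by
      rw [Finsupp.sum_mul]
      refine Finsupp.sum_congr fun s _ => ?_
      rw [map_mul, coeffMap_C, ← mul_assoc, ← map_mul, Algebra.smul_def, mul_comm (b s)]
    rw [h1, ← map_finsuppSum]
    congr 2
    exact b.linearCombination_repr c

theorem mul_mem_addS {I : Type*} (b : Module.Basis I K L)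
    (FK : IntermediateField K (LaurentSeries K)) {y z : LaurentSeries L}
    (hy : y ∈ addS b FK) (hz : z ∈ addS b FK) : y * z ∈ addS b FK := by
  obtain ⟨a, ha, rfl⟩ := hy
  obtain ⟨a', ha', rfl⟩ := hz
  have key : ∀ s t, HahnSeries.C (b s) * coeffMap (algebraMap K L) (a s) *
      (HahnSeries.C (b t) * coeffMap (algebraMap K L) (a' t)) ∈ addS b FK := by
    intro s t
    rw [mul_mul_mul_comm, ← map_mul HahnSeries.C, ← map_mul (coeffMap (algebraMap K L))]
    exact C_mul_mem_addS b FK _ (FK.mul_mem (ha s) (ha' t))
  have h1 : phi b a * phi b a' = ∑ s ∈ a.support, ∑ t ∈ a'.support,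
      HahnSeries.C (b s) * coeffMap (algebraMap K L) (a s) *
        (HahnSeries.C (b t) * coeffMap (algebraMap K L) (a' t)) := by
    unfold phi
    rw [Finsupp.sum, Finsupp.sum, Finset.sum_mul_sum]
  rw [h1]
  exact AddSubgroup.sum_mem _ fun s _ => AddSubgroup.sum_mem _ fun t _ => key s t

/-- the ring `L ⊗_K FK` inside `L((q))` -/
def ringS {I : Type*} (b : Module.Basis I K L) (FK : IntermediateField K (LaurentSeries K)) :
    Subring (LaurentSeries L) where
  carrier := {y | y ∈ addS b FK}
  zero_mem' := (addS b FK).zero_mem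
  add_mem' := fun hx hy => (addS b FK).add_mem hx hy
  neg_mem' := fun hx => (addS b FK).neg_mem hx
  one_mem' := by
    have h := C_mul_mem_addS b FK (1 : L) FK.one_mem
    rwa [map_one, map_one, one_mul] at h
  mul_mem' := fun hx hy => mul_mem_addS b FK hx hy

theorem mem_ringS {I : Type*} (b : Module.Basis I K L)
    (FK : IntermediateField K (LaurentSeries K)) {y : LaurentSeries L} :
    y ∈ ringS b FK ↔ y ∈ addS b FK := Iff.rfl

/-- **Coefficient descent.**  An element of the compositum `L · ι(FK) ⊆ L((q))` all of whose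
coefficients lie in `K` comes from `FK`. -/
theorem mem_of_coeffMap_mem_adjoin (FK : IntermediateField K (LaurentSeries K))
    (x₀ : LaurentSeries K)
    (hx : coeffMap (algebraMap K L) x₀ ∈
      IntermediateField.adjoin L (⇑(coeffMap (algebraMap K L)) '' (FK : Set (LaurentSeries K)))) :
    x₀ ∈ FK := by
  classical
  let b := Module.Basis.ofVectorSpace K L
  have hx' : coeffMap (algebraMap K L) x₀ ∈ Subfield.closure
      (Set.range (algebraMap L (LaurentSeries L)) ∪
        (⇑(coeffMap (algebraMap K L)) '' (FK : Set (LaurentSeries K)))) := hx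
  rw [Subfield.mem_closure_iff] at hx'
  obtain ⟨y, hy, z, hz, hyz⟩ := hx'
  have hle : Subring.closure (Set.range (algebraMap L (LaurentSeries L)) ∪
        (⇑(coeffMap (algebraMap K L)) '' (FK : Set (LaurentSeries K)))) ≤ ringS b FK := by
    refine Subring.closure_le.mpr ?_
    rintro _ (⟨c, rfl⟩ | ⟨x, hx, rfl⟩)
    · have h := C_mul_mem_addS b FK c FK.one_mem
      rw [map_one, mul_one] at h
      rw [algebraMap_eq_C]
      exact (mem_ringS b FK).mpr h
    · have h := C_mul_mem_addS b FK (1 : L) hx
      rw [map_one, one_mul] at h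
      exact (mem_ringS b FK).mpr h
  obtain ⟨a, ha, rfl⟩ := (mem_ringS b FK).mp (hle hy)
  obtain ⟨a', ha', rfl⟩ := (mem_ringS b FK).mp (hle hz)
  by_cases hz0 : phi b a' = 0
  · rw [hz0, div_zero] at hyz
    have h0 : x₀ = 0 := coeffMap_injective (L := L) (by rw [← hyz, map_zero])
    rw [h0]
    exact FK.zero_mem
  · have h1 : phi b a = coeffMap (algebraMap K L) x₀ * phi b a' := by
      rw [← hyz, div_mul_cancel₀ _ hz0]
    rw [coeffMap_mul_phi] at h1
    have h2 := phi_injective b h1
    have h3 : ∃ s, a' s ≠ 0 := by
      by_contra hcon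
      push Not at hcon
      exact hz0 (by rw [show a' = 0 from Finsupp.ext hcon]; exact phi_zero b)
    obtain ⟨s, hs⟩ := h3
    have h4 : a s = x₀ * a' s := by rw [h2]; simp
    have h5 : x₀ = a s / a' s := by rw [h4, mul_div_cancel_right₀ _ hs]
    rw [h5]
    exact FK.div_mem (ha s) (ha' s)

/-- **Linear disjointness, coefficientwise.**  Elements of `L` which are linearly independent
over `K` stay linearly independent over `K((q))` inside `L((q))`. -/
theorem eq_zero_of_sum_C_mul_coeffMap_eq_zero (s : Finset L)
    (hs : LinearIndepOn K id (s : Set L)) (f : L → LaurentSeries K)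
    (h : ∑ c ∈ s, HahnSeries.C c * coeffMap (algebraMap K L) (f c) = 0) :
    ∀ c ∈ s, f c = 0 := by
  intro c hc
  ext n
  have h1 := congrArg (fun y => y.coeff n) h
  simp only [HahnSeries.coeff_sum, coeff_C_mul, coeffMap_coeff, HahnSeries.coeff_zero] at h1
  have h2 : ∑ i ∈ s, (f i).coeff n • id i = 0 := by
    rw [← h1]
    refine Finset.sum_congr rfl fun i _ => ?_
    rw [Algebra.smul_def, id, mul_comm]
  have h3 := linearIndepOn_finset_iff.mp hs (fun i => (f i).coeff n) h2 c hc
  simpa using h3

section BaseChange

variable [Algebra ℚ K] [Algebra ℚ L] (F₀ : IntermediateField ℚ (LaurentSeries ℚ))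

theorem coeffMap_coeffEmb_eq (x : LaurentSeries ℚ) :
    coeffMap (algebraMap K L) (coeffEmb K x) = coeffEmb L x := by
  rw [coeffEmb, coeffMap_coeffMap]
  exact coeffMap_congr (RingHom.ext fun c => (algebraMap K L).map_rat_algebraMap c) x

/-- `F_L` is generated over `L` by the image of `F_K`. -/
theorem laurentBaseChange_le_adjoin :
    laurentBaseChange L F₀ ≤ IntermediateField.adjoin L
      (⇑(coeffMap (algebraMap K L)) '' (laurentBaseChange K F₀ : Set (LaurentSeries K))) := by
  refine IntermediateField.adjoin.mono L _ _ ?_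
  rintro _ ⟨x, hx, rfl⟩
  exact ⟨coeffEmb K x, coeffEmb_mem_laurentBaseChange K hx, coeffMap_coeffEmb_eq x⟩

/-- base change of functions: `coeffMap ι` maps `F_K` into `F_L`. -/
theorem coeffMap_mem_of_mem {y : LaurentSeries K} (hy : y ∈ laurentBaseChange K F₀) :
    coeffMap (algebraMap K L) y ∈ laurentBaseChange L F₀ := by
  rw [mem_laurentBaseChange_iff] at hy
  induction hy using Subfield.closure_induction with
  | mem y hy =>
      rcases hy with ⟨a, rfl⟩ | ⟨z, hz, rfl⟩
      · rw [algebraMap_eq_C, coeffMap_C, ← algebraMap_eq_C]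
        exact (laurentBaseChange L F₀).algebraMap_mem _
      · rw [coeffMap_coeffEmb_eq]
        exact coeffEmb_mem_laurentBaseChange L hz
  | one => simp
  | add x y _ _ hx hy => simpa using add_mem hx hy
  | neg x _ hx => simpa using neg_mem hx
  | inv x _ hx => simpa using inv_mem hx
  | mul x y _ _ hx hy => simpa using mul_mem hx hy

theorem adjoin_eq_laurentBaseChange :
    IntermediateField.adjoin L
      (⇑(coeffMap (algebraMap K L)) '' (laurentBaseChange K F₀ : Set (LaurentSeries K))) =
      laurentBaseChange L F₀ :=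
  le_antisymm
    (IntermediateField.adjoin_le_iff.mpr (by
      rintro _ ⟨y, hy, rfl⟩
      exact coeffMap_mem_of_mem F₀ hy))
    (laurentBaseChange_le_adjoin F₀)

/-- **(CD-A)** `F_L ∩ K((q)) = F_K` for the Prelude's base change of a function field. -/
theorem mem_laurentBaseChange_of_coeffMap (x₀ : LaurentSeries K)
    (hx : coeffMap (algebraMap K L) x₀ ∈ laurentBaseChange L F₀) :
    x₀ ∈ laurentBaseChange K F₀ :=
  mem_of_coeffMap_mem_adjoin _ x₀ (laurentBaseChange_le_adjoin F₀ hx)

end BaseChange

end Fermat.Agent.S29.H43
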