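import Mathlib
import Fermat.Agent.S29.CoeffDesc_helper43

/-!
# The base-change homomorphism `F_K → F_L` of function fields inside Laurent series (helper43)

S29, descent node (DE).  For fields `K ⊆ L` and `F₀ ⊆ ℚ((q))`:

* `bc F₀ : ↥(laurentBaseChange K F₀) →+* ↥(laurentBaseChange L F₀)`, coefficientwise;
* `bc_injective`, `bc_algebraMap` (constants go to constants);
* `adjoin_range_bc` **(GEN)** : `F_L` is generated over `L` by the image of `F_K`;
* `eq_zero_of_sum_algebraMap_mul_bc` **(LD)** : `K`-linearly independent constants of `L` stay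
  linearly independent over `F_K` inside `F_L`;
* `exists_bc_eq` : an element of `F_L` whose coefficients all lie in `K` is in the image.
-/

set_option autoImplicit false

noncomputable section

namespace Fermat.Agent.S29.H43

open ModularCurve

variable {K L : Type*} [Field K] [Field L] [Algebra K L] [Algebra ℚ K] [Algebra ℚ L]
variable (F₀ : IntermediateField ℚ (LaurentSeries ℚ))

/-- base change of functions, coefficientwise -/
def bc : ↥(laurentBaseChange K F₀) →+* ↥(laurentBaseChange L F₀) where
  toFun y := ⟨coeffMap (algebraMap K L) (y : LaurentSeries K), coeffMap_mem_of_mem F₀ y.2⟩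
  map_one' := Subtype.ext (map_one (coeffMap (algebraMap K L)))
  map_mul' _ _ := Subtype.ext (map_mul (coeffMap (algebraMap K L)) _ _)
  map_zero' := Subtype.ext (map_zero (coeffMap (algebraMap K L)))
  map_add' _ _ := Subtype.ext (map_add (coeffMap (algebraMap K L)) _ _)

@[simp]
theorem coe_bc (y : ↥(laurentBaseChange K F₀)) :
    ((bc (L := L) F₀ y : ↥(laurentBaseChange L F₀)) : LaurentSeries L) =
      coeffMap (algebraMap K L) (y : LaurentSeries K) :=
  rfl

theorem bc_injective : Function.Injective (bc (K := K) (L := L) F₀) :=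
  (bc (K := K) (L := L) F₀).injective

theorem bc_algebraMap (k : K) :
    bc (L := L) F₀ (algebraMap K ↥(laurentBaseChange K F₀) k) =
      algebraMap L ↥(laurentBaseChange L F₀) (algebraMap K L k) := by
  apply Subtype.ext
  show coeffMap (algebraMap K L) (algebraMap K (LaurentSeries K) k) =
    algebraMap L (LaurentSeries L) (algebraMap K L k)
  rw [algebraMap_eq_C, coeffMap_C, ← algebraMap_eq_C]

/-- **(GEN)** `F_L = L(F_K)`. -/
theorem adjoin_range_bc :
    IntermediateField.adjoin L (Set.range (bc (K := K) (L := L) F₀)) = ⊤ := by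
  apply IntermediateField.map_injective (laurentBaseChange L F₀).val
  rw [IntermediateField.adjoin_map, ← AlgHom.fieldRange_eq_map, IntermediateField.fieldRange_val]
  have h1 : ⇑(laurentBaseChange L F₀).val '' Set.range (bc (K := K) (L := L) F₀) =
      ⇑(coeffMap (algebraMap K L)) '' (laurentBaseChange K F₀ : Set (LaurentSeries K)) := by
    ext z
    constructor
    · rintro ⟨_, ⟨y, rfl⟩, rfl⟩
      exact ⟨y, y.2, rfl⟩
    · rintro ⟨y, hy, rfl⟩
      exact ⟨bc F₀ ⟨y, hy⟩, ⟨⟨y, hy⟩, rfl⟩, rfl⟩
  rw [h1]
  exact adjoin_eq_laurentBaseChange F₀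

/-- **(LD)** linear disjointness of `L` and `F_K` over `K` inside `F_L`. -/
theorem eq_zero_of_sum_algebraMap_mul_bc (s : Finset L)
    (hs : LinearIndepOn K id (s : Set L)) (f : L → ↥(laurentBaseChange K F₀))
    (h : ∑ c ∈ s, algebraMap L ↥(laurentBaseChange L F₀) c * bc F₀ (f c) = 0) :
    ∀ c ∈ s, f c = 0 := by
  have h1 : ∑ c ∈ s, HahnSeries.C c *
      coeffMap (algebraMap K L) ((f c : ↥(laurentBaseChange K F₀)) : LaurentSeries K) = 0 := by
    have h2 := congrArg (fun z : ↥(laurentBaseChange L F₀) => (z : LaurentSeries L)) h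
    simp only [AddSubmonoidClass.coe_finsetSum, ZeroMemClass.coe_zero] at h2
    rw [← h2]
    refine Finset.sum_congr rfl fun c _ => ?_
    rw [← algebraMap_eq_C]
    rfl
  intro c hc
  exact Subtype.ext
    (eq_zero_of_sum_C_mul_coeffMap_eq_zero s hs (fun c => (f c : LaurentSeries K)) h1 c hc)

/-- an element of `F_L` all of whose coefficients lie in `K` comes from `F_K` -/
theorem exists_bc_eq (x : ↥(laurentBaseChange L F₀)) (x₀ : LaurentSeries K)
    (hx : coeffMap (algebraMap K L) x₀ = (x : LaurentSeries L)) :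
    ∃ y : ↥(laurentBaseChange K F₀), bc F₀ y = x ∧ (y : LaurentSeries K) = x₀ :=
  ⟨⟨x₀, mem_laurentBaseChange_of_coeffMap F₀ x₀ (by rw [hx]; exact x.2)⟩, Subtype.ext hx, rfl⟩

end Fermat.Agent.S29.H43
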