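import Mathlib

/-!
# S29, descent `ℂ → ℚ̄`, place level: generic valuation core (helper23)

Values of elements of a field `F` at a valuation ring `O` containing a constant field `Ω`
(`HasVal O y c`: `y - c` is a non-unit of `O`), and the behaviour of a `K`-rational model
`M ⊆ F` (`K ⊆ Ω` an ARBITRARY field extension, no algebraicity) under extension of constants.

* `lindep_val` : the Gauss-norm computation (for `K`-linearly independent constants `c` and
  elements `f c` of the model, not all zero, `∑ c * f c` is a power of the uniformiser times an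
  element with nonzero value).
* `stab_unif` : every nonzero combination is a unit times a power of the uniformiser of the
  model (ramification index one).
* `stab` : the value of a combination lies in any subfield containing `K` and the constants.
* `uniq` : two valuation rings containing `Ω` which agree on the model agree on all
  combinations (uniqueness of the extension of a rational place).

Mathlib only.
-/

set_option autoImplicit false

namespace Fermat.Agent.S29.H23

open Polynomial

/-! ### Values at a valuation ring -/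

section Val

variable {Ω F : Type*} [Field Ω] [Field F] [Algebra Ω F]

/-- `y` is regular at `O` with value `c` (a constant of `Ω`). -/
def HasVal (O : ValuationSubring F) (y : F) (c : Ω) : Prop :=
  O.valuation (y - algebraMap Ω F c) < 1

variable {O : ValuationSubring F}

theorem hasVal_iff {y : F} {c : Ω} :
    HasVal O y c ↔ y - algebraMap Ω F c ∈ O.nonunits :=
  (ValuationSubring.mem_nonunits_iff O).symm

/-- nonzero constants are units -/
theorem val_const (hΩ : ∀ c : Ω, algebraMap Ω F c ∈ O) {c : Ω} (hc : c ≠ 0) :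
    O.valuation (algebraMap Ω F c) = 1 := by
  have h1 : O.valuation (algebraMap Ω F c) ≤ 1 := (O.valuation_le_one_iff _).mpr (hΩ c)
  have h2 : O.valuation (algebraMap Ω F c⁻¹) ≤ 1 := (O.valuation_le_one_iff _).mpr (hΩ c⁻¹)
  rw [map_inv₀, map_inv₀] at h2
  have h0 : O.valuation (algebraMap Ω F c) ≠ 0 :=
    (Valuation.ne_zero_iff _).mpr ((_root_.map_ne_zero _).mpr hc)
  exact le_antisymm h1 ((inv_le_one₀ (zero_lt_iff.mpr h0)).mp h2)

theorem HasVal.mem (hΩ : ∀ c : Ω, algebraMap Ω F c ∈ O) {y : F} {c : Ω} (h : HasVal O y c) :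
    y ∈ O := by
  have h1 : y - algebraMap Ω F c ∈ O := (O.valuation_le_one_iff _).mp h.le
  have := O.add_mem _ _ h1 (hΩ c)
  simpa using this

theorem hasVal_const (c : Ω) : HasVal O (algebraMap Ω F c) c := by
  unfold HasVal
  rw [sub_self, map_zero]
  exact zero_lt_one

theorem hasVal_zero_iff {y : F} : HasVal O y (0 : Ω) ↔ O.valuation y < 1 := by
  unfold HasVal
  rw [map_zero, sub_zero]

theorem HasVal.add {y y' : F} {c c' : Ω} (h : HasVal O y c) (h' : HasVal O y' c') :
    HasVal O (y + y') (c + c') := by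
  unfold HasVal at *
  have e : y + y' - algebraMap Ω F (c + c') =
      (y - algebraMap Ω F c) + (y' - algebraMap Ω F c') := by
    rw [map_add]; ring
  rw [e]
  exact lt_of_le_of_lt (O.valuation.map_add _ _) (max_lt h h')

theorem HasVal.neg {y : F} {c : Ω} (h : HasVal O y c) : HasVal O (-y) (-c) := by
  unfold HasVal at *
  have e : -y - algebraMap Ω F (-c) = -(y - algebraMap Ω F c) := by
    rw [map_neg]; ring
  rw [e, Valuation.map_neg]
  exact h

theorem HasVal.sub {y y' : F} {c c' : Ω} (h : HasVal O y c) (h' : HasVal O y' c') :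
    HasVal O (y - y') (c - c') := by
  rw [sub_eq_add_neg, sub_eq_add_neg]
  exact h.add h'.neg

theorem HasVal.mul (hΩ : ∀ c : Ω, algebraMap Ω F c ∈ O) {y y' : F} {c c' : Ω}
    (h : HasVal O y c) (h' : HasVal O y' c') : HasVal O (y * y') (c * c') := by
  have hy' : O.valuation y' ≤ 1 := (O.valuation_le_one_iff _).mpr (h'.mem hΩ)
  have hc : O.valuation (algebraMap Ω F c) ≤ 1 := (O.valuation_le_one_iff _).mpr (hΩ c)
  unfold HasVal at *
  have e : y * y' - algebraMap Ω F (c * c') =
      (y - algebraMap Ω F c) * y' + algebraMap Ω F c * (y' - algebraMap Ω F c') := by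
    rw [map_mul]; ring
  rw [e]
  refine lt_of_le_of_lt (O.valuation.map_add _ _) (max_lt ?_ ?_)
  · rw [map_mul]
    exact mul_lt_one_of_nonneg_of_lt_one_left zero_le h hy'
  · rw [map_mul]
    exact mul_lt_one_of_nonneg_of_lt_one_right hc zero_le h'

theorem HasVal.unique (hΩ : ∀ c : Ω, algebraMap Ω F c ∈ O) {y : F} {c c' : Ω}
    (h : HasVal O y c) (h' : HasVal O y c') : c = c' := by
  by_contra hne
  have h1 : HasVal O (y - y) (c - c') := h.sub h'
  unfold HasVal at h1
  rw [sub_self, zero_sub, Valuation.map_neg, val_const hΩ (sub_ne_zero.mpr hne)] at h1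
  exact lt_irrefl _ h1

/-- an element with nonzero value is a unit -/
theorem HasVal.val_eq_one (hΩ : ∀ c : Ω, algebraMap Ω F c ∈ O) {y : F} {c : Ω}
    (h : HasVal O y c) (hc : c ≠ 0) : O.valuation y = 1 := by
  have e : y = algebraMap Ω F c + (y - algebraMap Ω F c) := by ring
  rw [e, Valuation.map_add_eq_of_lt_left, val_const hΩ hc]
  rw [val_const hΩ hc]
  exact h

theorem HasVal.ne_zero (hΩ : ∀ c : Ω, algebraMap Ω F c ∈ O) {y : F} {c : Ω}
    (h : HasVal O y c) (hc : c ≠ 0) : y ≠ 0 := by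
  rintro rfl
  have := h.val_eq_one hΩ hc
  rw [map_zero] at this
  exact zero_ne_one this

theorem HasVal.inv (hΩ : ∀ c : Ω, algebraMap Ω F c ∈ O) {y : F} {c : Ω}
    (h : HasVal O y c) (hc : c ≠ 0) : HasVal O y⁻¹ c⁻¹ := by
  have hy0 : y ≠ 0 := h.ne_zero hΩ hc
  have hc0 : algebraMap Ω F c ≠ 0 := (_root_.map_ne_zero _).mpr hc
  have hv : O.valuation y = 1 := h.val_eq_one hΩ hc
  unfold HasVal at *
  have e : y⁻¹ - algebraMap Ω F c⁻¹ = -(y - algebraMap Ω F c) * (y⁻¹ * (algebraMap Ω F c)⁻¹) := by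
    rw [map_inv₀]; field_simp; ring
  rw [e, map_mul, Valuation.map_neg, map_mul, map_inv₀, map_inv₀, hv, val_const hΩ hc]
  simpa using h

theorem HasVal.pow (hΩ : ∀ c : Ω, algebraMap Ω F c ∈ O) {y : F} {c : Ω}
    (h : HasVal O y c) (n : ℕ) : HasVal O (y ^ n) (c ^ n) := by
  induction n with
  | zero => simpa using hasVal_const (O := O) (1 : Ω)
  | succ n ih => rw [pow_succ, pow_succ]; exact ih.mul hΩ h

theorem hasVal_sum {ι : Type*} (s : Finset ι)
    (y : ι → F) (c : ι → Ω) (h : ∀ i ∈ s, HasVal O (y i) (c i)) :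
    HasVal O (∑ i ∈ s, y i) (∑ i ∈ s, c i) := by
  classical
  induction s using Finset.induction_on with
  | empty => simpa using hasVal_const (O := O) (0 : Ω)
  | insert a s ha ih =>
    rw [Finset.sum_insert ha, Finset.sum_insert ha]
    exact (h a (Finset.mem_insert_self a s)).add
      (ih fun i hi => h i (Finset.mem_insert_of_mem hi))

/-- a unit with a value has a nonzero value -/
theorem HasVal.ne_zero_of_val_eq_one {y : F} {c : Ω} (h : HasVal O y c)
    (hy : O.valuation y = 1) : c ≠ 0 := by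
  rintro rfl
  rw [hasVal_zero_iff, hy] at h
  exact lt_irrefl _ h

end Val

/-! ### Rational models and linear independence of constants -/

section Lin

variable {K Ω F : Type*} [Field K] [Field Ω] [Field F] [Algebra K Ω] [Algebra Ω F]

/-- `M` is a model of `F` which is `K`-rational at `O`, with a uniformiser `g ∈ M`:
the constants of `K` lie in `M`, every element of `M ∩ O` has its value in `K`, and every nonzero
element of `M` is a unit of `O` times a power of `g`. -/
structure IsRatModel (O : ValuationSubring F) (M : Subfield F) (g : F) : Prop where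
  const_mem : ∀ c : K, algebraMap Ω F (algebraMap K Ω c) ∈ M
  rat : ∀ y ∈ M, y ∈ O → ∃ c : K, HasVal O y (algebraMap K Ω c)
  g_mem : g ∈ M
  g_ne : g ≠ 0
  g_lt : O.valuation g < 1
  unif : ∀ f ∈ M, f ≠ 0 → ∃ n : ℤ, O.valuation (f * g ^ n) = 1

variable {O : ValuationSubring F}

theorem val_eq_zpow_of_unif {g y : F} {n : ℤ} (h : O.valuation (y * g ^ n) = 1) :
    O.valuation y = O.valuation g ^ (-n) := by
  rw [map_mul, map_zpow₀] at h
  rw [zpow_neg]
  exact eq_inv_of_mul_eq_one_left h

theorem val_le_one_iff_of_unif {g y : F} (hg0 : g ≠ 0) (hg : O.valuation g < 1) {n : ℤ}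
    (h : O.valuation (y * g ^ n) = 1) : O.valuation y ≤ 1 ↔ n ≤ 0 := by
  have hg0' : 0 < O.valuation g := zero_lt_iff.mpr ((Valuation.ne_zero_iff _).mpr hg0)
  rw [val_eq_zpow_of_unif h, zpow_le_one_iff_right_of_lt_one₀ hg0' hg]
  omega

theorem val_lt_one_iff_of_unif {g y : F} (hg0 : g ≠ 0) (hg : O.valuation g < 1) {n : ℤ}
    (h : O.valuation (y * g ^ n) = 1) : O.valuation y < 1 ↔ n < 0 := by
  have hg0' : 0 < O.valuation g := zero_lt_iff.mpr ((Valuation.ne_zero_iff _).mpr hg0)
  rw [val_eq_zpow_of_unif h, zpow_lt_one_iff_right_of_lt_one₀ hg0' hg]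
  omega

/-- **Key computation.** For `K`-linearly independent constants `c ∈ s` and elements `f c` of a
`K`-rational model, not all zero, the sum `∑ c * f c` is `g ^ (-n)` times an element whose value
`∑ c * a c` (`a c ∈ K`) is nonzero. -/
theorem lindep_val {M : Subfield F} {g : F}
    (hM : IsRatModel (K := K) (Ω := Ω) O M g) (s : Finset Ω) (hs : LinearIndepOn K id (s : Set Ω))
    (f : Ω → F) (hf : ∀ c ∈ s, f c ∈ M) (hne : ∃ c ∈ s, f c ≠ 0) :
    ∃ (n : ℤ) (a : Ω → K), (∀ c ∈ s, HasVal O (f c * g ^ n) (algebraMap K Ω (a c))) ∧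
      ∑ c ∈ s, c * algebraMap K Ω (a c) ≠ 0 := by
  classical
  have hex : ∀ c : Ω, ∃ n : ℤ, c ∈ s → f c ≠ 0 → O.valuation (f c * g ^ n) = 1 := by
    intro c
    by_cases h : c ∈ s ∧ f c ≠ 0
    · obtain ⟨n, hn⟩ := hM.unif (f c) (hf c h.1) h.2
      exact ⟨n, fun _ _ => hn⟩
    · exact ⟨0, fun h1 h2 => absurd ⟨h1, h2⟩ h⟩
  choose e he using hex
  have hs'ne : (s.filter (fun c => f c ≠ 0)).Nonempty := by
    obtain ⟨c, hc, hfc⟩ := hne
    exact ⟨c, Finset.mem_filter.mpr ⟨hc, hfc⟩⟩
  obtain ⟨c0, hc0, hmax⟩ := (s.filter (fun c => f c ≠ 0)).exists_max_image e hs'ne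
  have hc0s : c0 ∈ s := (Finset.mem_filter.mp hc0).1
  have hfc0 : f c0 ≠ 0 := (Finset.mem_filter.mp hc0).2
  have hg0' : 0 < O.valuation g := zero_lt_iff.mpr ((Valuation.ne_zero_iff _).mpr hM.g_ne)
  have hmem : ∀ c ∈ s, f c * g ^ (e c0) ∈ M := fun c hc =>
    M.mul_mem (hf c hc) (zpow_mem hM.g_mem _)
  have hO : ∀ c ∈ s, O.valuation (f c * g ^ (e c0)) ≤ 1 := by
    intro c hc
    by_cases hfc : f c = 0
    · rw [hfc, zero_mul, map_zero]
      exact zero_le_one
    · have h1 := he c hc hfc
      have h2 : e c ≤ e c0 := hmax c (Finset.mem_filter.mpr ⟨hc, hfc⟩)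
      have e1 : f c * g ^ (e c0) = (f c * g ^ e c) * g ^ (e c0 - e c) := by
        rw [mul_assoc, ← zpow_add₀ hM.g_ne]
        congr 2
        ring
      rw [e1, map_mul, h1, one_mul, map_zpow₀]
      exact zpow_le_one₀ hg0' hM.g_lt.le (by omega)
  have hval : ∀ c : Ω, ∃ a : K, c ∈ s → HasVal O (f c * g ^ (e c0)) (algebraMap K Ω a) := by
    intro c
    by_cases hc : c ∈ s
    · obtain ⟨a, ha⟩ := hM.rat _ (hmem c hc) ((O.valuation_le_one_iff _).mp (hO c hc))
      exact ⟨a, fun _ => ha⟩
    · exact ⟨0, fun h => absurd h hc⟩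
  choose a ha using hval
  refine ⟨e c0, a, ha, ?_⟩
  intro hsum
  have h0 : a c0 = 0 := by
    refine linearIndepOn_finset_iff.mp hs a ?_ c0 hc0s
    rw [← hsum]
    refine Finset.sum_congr rfl fun c _ => ?_
    rw [Algebra.smul_def, mul_comm]
    rfl
  have h1 := he c0 hc0s hfc0
  have h2 := ha c0 hc0s
  rw [h0, map_zero, hasVal_zero_iff, h1] at h2
  exact lt_irrefl _ h2

/-- every finite `Ω`-combination of elements of a model containing `K` can be rewritten with
`K`-linearly independent constants (a subset of the original ones) -/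
theorem exists_linIndep_repr {M : Subfield F}
    (hKM : ∀ c : K, algebraMap Ω F (algebraMap K Ω c) ∈ M) :
    ∀ (n : ℕ) (s : Finset Ω), s.card = n → ∀ f : Ω → F, (∀ c ∈ s, f c ∈ M) →
      ∃ (s' : Finset Ω) (f' : Ω → F), s' ⊆ s ∧ (∀ c ∈ s', f' c ∈ M) ∧
        LinearIndepOn K id (s' : Set Ω) ∧
        ∑ c ∈ s', algebraMap Ω F c * f' c = ∑ c ∈ s, algebraMap Ω F c * f c := by
  classical
  intro n
  induction n using Nat.strong_induction_on with
  | _ n ih =>
    intro s hsn f hf
    by_cases hli : LinearIndepOn K id (s : Set Ω)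
    · exact ⟨s, f, Finset.Subset.refl s, hf, hli, rfl⟩
    · obtain ⟨a, hsum, c0, hc0, hac0⟩ := not_linearIndepOn_finset_iff.mp hli
      have hcard : (s.erase c0).card < n := by
        rw [Finset.card_erase_of_mem hc0, hsn]
        have : 0 < s.card := Finset.card_pos.mpr ⟨c0, hc0⟩
        omega
      have hfM : ∀ c ∈ s.erase c0,
          f c - algebraMap Ω F (algebraMap K Ω (a c / a c0)) * f c0 ∈ M := fun c hc =>
        M.sub_mem (hf c (Finset.mem_of_mem_erase hc)) (M.mul_mem (hKM _) (hf c0 hc0))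
      obtain ⟨s', f'', hss, hf''M, hli', hsum'⟩ := ih _ hcard (s.erase c0) rfl
        (fun c => f c - algebraMap Ω F (algebraMap K Ω (a c / a c0)) * f c0) hfM
      refine ⟨s', f'', hss.trans (Finset.erase_subset _ _), hf''M, hli', ?_⟩
      rw [hsum']
      have hne : algebraMap K Ω (a c0) ≠ 0 := (_root_.map_ne_zero _).mpr hac0
      have h1 : algebraMap K Ω (a c0) * c0 +
          ∑ c ∈ s.erase c0, algebraMap K Ω (a c) * c = 0 := by
        have h1 : ∑ c ∈ s, a c • (id c : Ω) = 0 := hsum
        rw [← Finset.add_sum_erase s _ hc0] at h1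
        simpa only [id, Algebra.smul_def] using h1
      have key : ∑ c ∈ s.erase c0, algebraMap K Ω (a c / a c0) * c = -c0 := by
        have e1 : ∑ c ∈ s.erase c0, algebraMap K Ω (a c / a c0) * c =
            (∑ c ∈ s.erase c0, algebraMap K Ω (a c) * c) / algebraMap K Ω (a c0) := by
          rw [Finset.sum_div]
          refine Finset.sum_congr rfl fun c _ => ?_
          rw [map_div₀]
          ring
        rw [e1, eq_neg_of_add_eq_zero_right h1]
        field_simp
      calc ∑ c ∈ s.erase c0, algebraMap Ω F c *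
            (f c - algebraMap Ω F (algebraMap K Ω (a c / a c0)) * f c0)
          = ∑ c ∈ s.erase c0, algebraMap Ω F c * f c -
              algebraMap Ω F (∑ c ∈ s.erase c0, algebraMap K Ω (a c / a c0) * c) * f c0 := by
            rw [map_sum, Finset.sum_mul, ← Finset.sum_sub_distrib]
            refine Finset.sum_congr rfl fun c _ => ?_
            rw [map_mul]
            ring
        _ = algebraMap Ω F c0 * f c0 + ∑ c ∈ s.erase c0, algebraMap Ω F c * f c := by
            rw [key, map_neg]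
            ring
        _ = ∑ c ∈ s, algebraMap Ω F c * f c :=
            Finset.add_sum_erase s (fun c => algebraMap Ω F c * f c) hc0

/-- **Stability of rationality.** If `M` is `K`-rational at `O` and `y ∈ O` is a combination of
elements of `M` with constants in a subfield `k' ⊇ K` of `Ω`, then the value of `y` lies in
`k'`. -/
theorem stab (hΩ : ∀ c : Ω, algebraMap Ω F c ∈ O) {M : Subfield F} {g : F}
    (hM : IsRatModel (K := K) (Ω := Ω) O M g) (k' : Subfield Ω) (hKk : ∀ c : K, algebraMap K Ω c ∈ k')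
    (s : Finset Ω) (hsk : ∀ c ∈ s, c ∈ k') (f : Ω → F) (hf : ∀ c ∈ s, f c ∈ M)
    (hy : ∑ c ∈ s, algebraMap Ω F c * f c ∈ O) :
    ∃ c ∈ k', HasVal O (∑ c ∈ s, algebraMap Ω F c * f c) c := by
  classical
  obtain ⟨s', f', hss, hf'M, hli, hsum⟩ := exists_linIndep_repr hM.const_mem s.card s rfl f hf
  rw [← hsum] at hy ⊢
  by_cases hne : ∃ c ∈ s', f' c ≠ 0
  · obtain ⟨n, a, ha, hα⟩ := lindep_val hM s' hli f' hf'M hne
    have hα' : ∑ c ∈ s', c * algebraMap K Ω (a c) ∈ k' :=
      k'.sum_mem fun c hc => k'.mul_mem (hsk c (hss hc)) (hKk _)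
    have hval : HasVal O ((∑ c ∈ s', algebraMap Ω F c * f' c) * g ^ n)
        (∑ c ∈ s', c * algebraMap K Ω (a c)) := by
      rw [Finset.sum_mul]
      refine hasVal_sum s' _ _ fun c hc => ?_
      rw [mul_assoc]
      exact (hasVal_const c).mul hΩ (ha c hc)
    have hunit := hval.val_eq_one hΩ hα
    have hn : n ≤ 0 := (val_le_one_iff_of_unif hM.g_ne hM.g_lt hunit).mp
      ((O.valuation_le_one_iff _).mpr hy)
    rcases hn.lt_or_eq with hn | hn
    · exact ⟨0, k'.zero_mem, hasVal_zero_iff.mpr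
        ((val_lt_one_iff_of_unif hM.g_ne hM.g_lt hunit).mpr hn)⟩
    · rw [hn, zpow_zero, mul_one] at hval
      exact ⟨_, hα', hval⟩
  · push Not at hne
    have h0 : ∑ c ∈ s', algebraMap Ω F c * f' c = 0 :=
      Finset.sum_eq_zero fun c hc => by rw [hne c hc, mul_zero]
    rw [h0]
    exact ⟨0, k'.zero_mem, by simpa using hasVal_const (O := O) (0 : Ω)⟩

/-- the uniformiser of a rational model is a uniformiser for all combinations with constants -/
theorem stab_unif (hΩ : ∀ c : Ω, algebraMap Ω F c ∈ O) {M : Subfield F} {g : F}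
    (hM : IsRatModel (K := K) (Ω := Ω) O M g)
    (s : Finset Ω) (f : Ω → F) (hf : ∀ c ∈ s, f c ∈ M)
    (hy : ∑ c ∈ s, algebraMap Ω F c * f c ≠ 0) :
    ∃ n : ℤ, O.valuation ((∑ c ∈ s, algebraMap Ω F c * f c) * g ^ n) = 1 := by
  classical
  obtain ⟨s', f', hss, hf'M, hli, hsum⟩ := exists_linIndep_repr hM.const_mem s.card s rfl f hf
  rw [← hsum] at hy ⊢
  have hne : ∃ c ∈ s', f' c ≠ 0 := by
    by_contra hcon
    push Not at hcon
    exact hy (Finset.sum_eq_zero fun c hc => by rw [hcon c hc, mul_zero])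
  obtain ⟨n, a, ha, hα⟩ := lindep_val hM s' hli f' hf'M hne
  have hval : HasVal O ((∑ c ∈ s', algebraMap Ω F c * f' c) * g ^ n)
      (∑ c ∈ s', c * algebraMap K Ω (a c)) := by
    rw [Finset.sum_mul]
    refine hasVal_sum s' _ _ fun c hc => ?_
    rw [mul_assoc]
    exact (hasVal_const c).mul hΩ (ha c hc)
  exact ⟨n, hval.val_eq_one hΩ hα⟩

/-- **Uniqueness above a rational place.** Two valuation rings of `F` containing `Ω` which agree
on a model `M`, `K`-rational for the first one, agree on all combinations of elements of `M` with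
constants of `Ω`. -/
theorem uniq {O' : ValuationSubring F} (hΩ : ∀ c : Ω, algebraMap Ω F c ∈ O)
    (hΩ' : ∀ c : Ω, algebraMap Ω F c ∈ O') {M : Subfield F} {g : F}
    (hM : IsRatModel (K := K) (Ω := Ω) O M g) (hOO' : ∀ y ∈ M, y ∈ O ↔ y ∈ O')
    (s : Finset Ω) (f : Ω → F) (hf : ∀ c ∈ s, f c ∈ M) :
    ∑ c ∈ s, algebraMap Ω F c * f c ∈ O ↔ ∑ c ∈ s, algebraMap Ω F c * f c ∈ O' := by
  classical
  have hnon : ∀ z ∈ M, O.valuation z < 1 ↔ O'.valuation z < 1 := by
    intro z hz
    rw [← ValuationSubring.mem_nonunits_iff, ← ValuationSubring.mem_nonunits_iff,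
      ValuationSubring.mem_nonunits_iff_or, ValuationSubring.mem_nonunits_iff_or,
      hOO' z⁻¹ (M.inv_mem hz)]
  obtain ⟨s', f', hss, hf'M, hli, hsum⟩ := exists_linIndep_repr hM.const_mem s.card s rfl f hf
  rw [← hsum]
  by_cases hne : ∃ c ∈ s', f' c ≠ 0
  · obtain ⟨n, a, ha, hα⟩ := lindep_val hM s' hli f' hf'M hne
    have ha' : ∀ c ∈ s', HasVal O' (f' c * g ^ n) (algebraMap K Ω (a c)) := by
      intro c hc
      exact (hnon _ (M.sub_mem (M.mul_mem (hf'M c hc) (zpow_mem hM.g_mem _))
        (hM.const_mem _))).mp (ha c hc)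
    have hval : HasVal O ((∑ c ∈ s', algebraMap Ω F c * f' c) * g ^ n)
        (∑ c ∈ s', c * algebraMap K Ω (a c)) := by
      rw [Finset.sum_mul]
      refine hasVal_sum s' _ _ fun c hc => ?_
      rw [mul_assoc]
      exact (hasVal_const c).mul hΩ (ha c hc)
    have hval' : HasVal O' ((∑ c ∈ s', algebraMap Ω F c * f' c) * g ^ n)
        (∑ c ∈ s', c * algebraMap K Ω (a c)) := by
      rw [Finset.sum_mul]
      refine hasVal_sum s' _ _ fun c hc => ?_
      rw [mul_assoc]
      exact (hasVal_const c).mul hΩ' (ha' c hc)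
    have hg' : O'.valuation g < 1 := (hnon g hM.g_mem).mp hM.g_lt
    rw [← O.valuation_le_one_iff, ← O'.valuation_le_one_iff,
      val_le_one_iff_of_unif hM.g_ne hM.g_lt (hval.val_eq_one hΩ hα),
      val_le_one_iff_of_unif hM.g_ne hg' (hval'.val_eq_one hΩ' hα)]
  · push Not at hne
    have h0 : ∑ c ∈ s', algebraMap Ω F c * f' c = 0 :=
      Finset.sum_eq_zero fun c hc => by rw [hne c hc, mul_zero]
    rw [h0]
    exact ⟨fun _ => O'.zero_mem, fun _ => O.zero_mem⟩

end Lin

end Fermat.Agent.S29.H23
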