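import Mathlib
import Fermat.Prelude.Def_AlgebraicCurve_BaseChangeGalois
import Fermat.Agent.S18.PlaceRestrict_helper74
import Fermat.Agent.S29.ConstVal_helper23

/-!
# S29, descent `ℂ → ℚ̄`, place level: places under an arbitrary extension of constants (helper23)

Setting: fields `K ⊆ Ω` (ANY extension, e.g. `ℚ̄ ⊆ ℂ`), a field `F0` over `K`, a field `F` over `Ω`
and over `F0`, generated by `Ω` and `F0` (`hgen : adjoin Ω (range (algebraMap F0 F)) = ⊤`).
A place `v` of `F0 / K` is *rational* (`IsRatPlace v`) if its residue field is `K`.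

* `ord_eq_of_comap`, `ord_restrict` : a place `w` of `F / Ω` above a rational place `v` has
  ramification index one: `w.ord (algebraMap F0 F y) = v.ord y`.
* `place_ext_unique` : there is at most one place of `F / Ω` above a rational place of `F0 / K`.
* `exists_place_ext` : there is one, if `Ω` and `F0` are linearly disjoint over `K` in `F`
  (hypothesis `hld`, in functional form).
* `smul_place_eq` : a place above a rational place is fixed by every semilinear automorphism
  of `F / Ω` which fixes `F0` pointwise.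
* `ord_eq_zero_of_forall_mem` : a place of `F / Ω` which is trivial on `F0` has order zero
  on `F0`.
-/

set_option autoImplicit false

namespace Fermat.Agent.S29.H23

open AlgebraicCurve Fermat.Agent.S24 Fermat.Agent.S18

/-! ### generalities on valuation subrings -/

section ValSub

variable {F0 F : Type*} [Field F0] [Field F]

theorem mem_nonunits_comap_iff (φ : F0 →+* F) (w : ValuationSubring F) (z : F0) :
    z ∈ (w.comap φ).nonunits ↔ φ z ∈ w.nonunits := by
  rw [ValuationSubring.mem_nonunits_iff_or, ValuationSubring.mem_nonunits_iff_or,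
    ValuationSubring.mem_comap, map_inv₀, map_eq_zero]

/-- a valuation ring in which every nonzero element is a unit times a power of a fixed
non-unit `g` is a principal ideal ring -/
theorem isPrincipalIdealRing_of_unif (O : ValuationSubring F) {g : F} (hg0 : g ≠ 0)
    (hg : O.valuation g < 1)
    (hunif : ∀ x : F, x ≠ 0 → ∃ n : ℤ, O.valuation (x * g ^ n) = 1) :
    IsPrincipalIdealRing O := by
  classical
  refine ⟨fun I => ?_⟩
  by_cases hI : I = ⊥
  · rw [hI]
    exact bot_isPrincipal
  have hex : ∃ k : ℕ, ∃ a ∈ I, a ≠ 0 ∧ O.valuation ((a : F) * g ^ (-(k : ℤ))) = 1 := by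
    obtain ⟨a, haI, ha0⟩ := Submodule.exists_mem_ne_zero_of_ne_bot hI
    have ha0' : (a : F) ≠ 0 := by simpa using ha0
    obtain ⟨n, hn⟩ := hunif (a : F) ha0'
    have hle : n ≤ 0 := (val_le_one_iff_of_unif hg0 hg hn).mp ((O.valuation_le_one_iff _).mpr a.2)
    obtain ⟨k, hk⟩ := Int.eq_ofNat_of_zero_le (neg_nonneg.mpr hle)
    refine ⟨k, a, haI, ha0, ?_⟩
    rw [← hk, neg_neg]
    exact hn
  obtain ⟨a, haI, ha0, hak⟩ := Nat.find_spec hex
  have ha0' : (a : F) ≠ 0 := by simpa using ha0
  refine ⟨⟨a, le_antisymm ?_ ?_⟩⟩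
  · intro b hb
    rw [Ideal.submodule_span_eq, Ideal.mem_span_singleton']
    by_cases hb0 : b = 0
    · exact ⟨0, by simp [hb0]⟩
    have hb0' : (b : F) ≠ 0 := by simpa using hb0
    obtain ⟨n, hn⟩ := hunif (b : F) hb0'
    have hle : n ≤ 0 := (val_le_one_iff_of_unif hg0 hg hn).mp ((O.valuation_le_one_iff _).mpr b.2)
    obtain ⟨m, hm⟩ := Int.eq_ofNat_of_zero_le (neg_nonneg.mpr hle)
    have hn' : O.valuation ((b : F) * g ^ (-(m : ℤ))) = 1 := by
      rw [← hm, neg_neg]
      exact hn
    have hkm : Nat.find hex ≤ m := Nat.find_min' hex ⟨b, hb, hb0, hn'⟩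
    have hdiv : (b : F) / a ∈ O := by
      rw [← O.valuation_le_one_iff]
      have h1 : O.valuation (((b : F) / a) * g ^ (-((m : ℤ) - (Nat.find hex : ℤ)))) = 1 := by
        have e : ((b : F) / a) * g ^ (-((m : ℤ) - (Nat.find hex : ℤ))) =
            ((b : F) * g ^ (-(m : ℤ))) / ((a : F) * g ^ (-(Nat.find hex : ℤ))) := by
          rw [neg_sub, zpow_sub₀ hg0, zpow_neg, zpow_neg]
          field_simp
        rw [e, map_div₀, hn', hak, div_one]
      refine (val_le_one_iff_of_unif hg0 hg h1).mpr ?_
      have : (Nat.find hex : ℤ) ≤ (m : ℤ) := by exact_mod_cast hkm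
      omega
    exact ⟨⟨(b : F) / a, hdiv⟩, Subtype.ext (by simp [div_mul_cancel₀ _ ha0'])⟩
  · rw [Ideal.submodule_span_eq, Ideal.span_singleton_le_iff_mem]
    exact haI

end ValSub

/-! ### the model and its rational places -/

section Generic

variable {K Ω F0 F : Type*} [Field K] [Field Ω] [Field F0] [Field F]
  [Algebra K Ω] [Algebra Ω F] [Algebra K F0] [Algebra F0 F] [Algebra K F]
  [IsScalarTower K Ω F] [IsScalarTower K F0 F]

variable (F0 F) in
/-- the image of the model `F0` in `F` -/
def modelField : Subfield F := (algebraMap F0 F).fieldRange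

theorem algebraMap_mem_modelField (z : F0) : algebraMap F0 F z ∈ modelField F0 F := ⟨z, rfl⟩

/-- a place of `F0 / K` is rational if every element of its valuation ring has a value in `K` -/
def IsRatPlace (v : Place K F0) : Prop :=
  ∀ y ∈ v.toValuationSubring, ∃ c : K, y - algebraMap K F0 c ∈ v.toValuationSubring.nonunits

/-- rationality from surjectivity onto the residue field -/
theorem isRatPlace_of_surjective (v : Place K F0)
    (hv : Function.Surjective (algebraMap K v.ResidueField)) : IsRatPlace v := by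
  intro y hy
  obtain ⟨c, hc⟩ := hv (IsLocalRing.residue v.toValuationSubring ⟨y, hy⟩)
  refine ⟨c, ?_⟩
  have hmem : y - algebraMap K F0 c ∈ v.toValuationSubring := sub_mem hy (v.algebraMap_mem' c)
  rw [ValuationSubring.mem_nonunits_iff_exists_mem_maximalIdeal]
  refine ⟨hmem, ?_⟩
  rw [← IsLocalRing.residue_eq_zero_iff]
  have e : (⟨y - algebraMap K F0 c, hmem⟩ : v.toValuationSubring) =
      ⟨y, hy⟩ - algebraMap K v.toValuationSubring c := Subtype.ext rfl
  rw [e, map_sub, ← hc]
  exact sub_self _

/-- a valuation ring of `F` above a rational place of `F0` makes the image of `F0` a rational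
model, with uniformiser the image of a uniformiser of the place -/
theorem isRatModel_of_comap (w : ValuationSubring F) (v : Place K F0)
    (hcomap : w.comap (algebraMap F0 F) = v.toValuationSubring) (hrat : IsRatPlace v)
    (t : F0) (ht : v.ord t = 1) :
    IsRatModel (K := K) (Ω := Ω) w (modelField F0 F) (algebraMap F0 F t) := by
  have ht0 : t ≠ 0 := by
    rintro rfl
    simp at ht
  have htv : t ∈ v.toValuationSubring := H19.mem_of_ord_nonneg v (by rw [ht]; exact zero_le_one)
  have htinv : t⁻¹ ∉ v.toValuationSubring := by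
    intro h
    have := H19.ord_nonneg_of_mem v h
    rw [v.ord_inv, ht] at this
    omega
  exact
    { const_mem := fun c => ⟨algebraMap K F0 c, by
        rw [← IsScalarTower.algebraMap_apply, IsScalarTower.algebraMap_apply K Ω F]⟩
      rat := by
        rintro y ⟨z, rfl⟩ hy
        have hz : z ∈ v.toValuationSubring := by rw [← hcomap]; exact hy
        obtain ⟨c, hc⟩ := hrat z hz
        refine ⟨c, hasVal_iff.mpr ?_⟩
        rw [← hcomap, mem_nonunits_comap_iff] at hc
        rwa [map_sub, ← IsScalarTower.algebraMap_apply,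
          IsScalarTower.algebraMap_apply K Ω F] at hc
      g_mem := ⟨t, rfl⟩
      g_ne := (map_ne_zero _).mpr ht0
      g_lt := by
        refine H74.val_lt_one_of_mem_of_inv_not_mem w ?_ ?_
        · have : t ∈ w.comap (algebraMap F0 F) := by rw [hcomap]; exact htv
          exact this
        · rw [← map_inv₀]
          intro h
          apply htinv
          rw [← hcomap]
          exact h
      unif := by
        rintro f ⟨z, rfl⟩ hf0
        have hz0 : z ≠ 0 := by
          rintro rfl
          exact hf0 (map_zero _)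
        refine ⟨-v.ord z, ?_⟩
        have htn : t ^ (-v.ord z) ≠ 0 := zpow_ne_zero _ ht0
        have hu0 : z * t ^ (-v.ord z) ≠ 0 := mul_ne_zero hz0 htn
        have hord : v.ord (z * t ^ (-v.ord z)) = 0 := by
          rw [v.ord_mul hz0 htn, v.ord_zpow, ht]
          ring
        have h1 : z * t ^ (-v.ord z) ∈ v.toValuationSubring :=
          H19.mem_of_ord_nonneg v (by rw [hord])
        have h2 : (z * t ^ (-v.ord z))⁻¹ ∈ v.toValuationSubring :=
          H19.mem_of_ord_nonneg v (by rw [v.ord_inv, hord]; simp)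
        rw [← hcomap] at h1 h2
        have e : algebraMap F0 F z * algebraMap F0 F t ^ (-v.ord z) =
            algebraMap F0 F (z * t ^ (-v.ord z)) := by
          rw [map_mul, map_zpow₀]
        rw [e]
        refine H74.val_eq_one_of_mem_of_inv_mem w ((map_ne_zero _).mpr hu0) h1 ?_
        rw [← map_inv₀]
        exact h2 }

/-- `F` is generated by `Ω` and `F0`: every element is a quotient of two combinations of elements
of the model with constants -/
theorem exists_repr_of_adjoin_eq_top
    (hgen : IntermediateField.adjoin Ω (Set.range (algebraMap F0 F)) = ⊤) (x : F) :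
    ∃ (s t : Finset Ω) (f h : Ω → F), (∀ c ∈ s, f c ∈ modelField F0 F) ∧
      (∀ c ∈ t, h c ∈ modelField F0 F) ∧
      x = (∑ c ∈ s, algebraMap Ω F c * f c) / (∑ c ∈ t, algebraMap Ω F c * h c) := by
  classical
  -- the `Ω`-algebra generated by the model is the span of the constants over the model
  have key : ∀ y ∈ Algebra.adjoin Ω (Set.range (algebraMap F0 F)),
      ∃ (s : Finset Ω) (f : Ω → F), (∀ c ∈ s, f c ∈ modelField F0 F) ∧
        y = ∑ c ∈ s, algebraMap Ω F c * f c := by
    intro y hy
    have hy1 : y ∈ Algebra.adjoin ↥(modelField F0 F) (Set.range (algebraMap Ω F)) := by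
      induction hy using Algebra.adjoin_induction with
      | mem x hx =>
        obtain ⟨z, rfl⟩ := hx
        exact Subalgebra.algebraMap_mem _ (⟨_, algebraMap_mem_modelField z⟩ : ↥(modelField F0 F))
      | algebraMap c => exact Algebra.subset_adjoin ⟨c, rfl⟩
      | add x y _ _ ihx ihy => exact add_mem ihx ihy
      | mul x y _ _ ihx ihy => exact mul_mem ihx ihy
    have hy2 : y ∈ Subalgebra.toSubmodule
        (Algebra.adjoin ↥(modelField F0 F) (Set.range (algebraMap Ω F))) := hy1
    rw [Algebra.adjoin_eq_span] at hy2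
    have hcl : (Submonoid.closure (Set.range (algebraMap Ω F)) : Set F) =
        Set.range (algebraMap Ω F) := by
      have e : Set.range (algebraMap Ω F) = ((algebraMap Ω F).rangeS.toSubmonoid : Set F) := rfl
      rw [e, Submonoid.closure_eq]
    rw [hcl, ← Set.image_univ] at hy2
    obtain ⟨l, -, rfl⟩ := (Finsupp.mem_span_image_iff_linearCombination ↥(modelField F0 F)).mp hy2
    refine ⟨l.support, fun c => (l c : F), fun c _ => (l c).2, ?_⟩
    rw [Finsupp.linearCombination_apply, Finsupp.sum]
    refine Finset.sum_congr rfl fun c _ => ?_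
    rw [Subfield.smul_def, smul_eq_mul, mul_comm]
  have hx : x ∈ IntermediateField.adjoin Ω (Set.range (algebraMap F0 F)) := by
    rw [hgen]; exact IntermediateField.mem_top
  obtain ⟨a, ha, b, hb, rfl⟩ := IntermediateField.mem_adjoin_iff_div.mp hx
  obtain ⟨s, f, hf, rfl⟩ := key a ha
  obtain ⟨t, h, hh, rfl⟩ := key b hb
  exact ⟨s, t, f, h, hf, hh, rfl⟩

variable {O : ValuationSubring F}

omit [Algebra K F0] [Algebra K F] [IsScalarTower K Ω F] [IsScalarTower K F0 F] in
/-- above a rational model which generates `F`, every nonzero element is a unit times a power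
of the uniformiser of the model -/
theorem exists_zpow_of_isRatModel (hΩ : ∀ c : Ω, algebraMap Ω F c ∈ O) {g : F}
    (hM : IsRatModel (K := K) (Ω := Ω) O (modelField F0 F) g)
    (hgen : IntermediateField.adjoin Ω (Set.range (algebraMap F0 F)) = ⊤)
    (x : F) (hx : x ≠ 0) : ∃ n : ℤ, O.valuation (x * g ^ n) = 1 := by
  obtain ⟨s, t, f, h, hf, hh, rfl⟩ := exists_repr_of_adjoin_eq_top (Ω := Ω) (F0 := F0) hgen x
  have ha : ∑ c ∈ s, algebraMap Ω F c * f c ≠ 0 := by
    intro h0
    rw [h0, zero_div] at hx
    exact hx rfl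
  have hb : ∑ c ∈ t, algebraMap Ω F c * h c ≠ 0 := by
    intro h0
    rw [h0, div_zero] at hx
    exact hx rfl
  obtain ⟨n, hn⟩ := stab_unif hΩ hM s f hf ha
  obtain ⟨m, hm⟩ := stab_unif hΩ hM t h hh hb
  refine ⟨n - m, ?_⟩
  have e : (∑ c ∈ s, algebraMap Ω F c * f c) / (∑ c ∈ t, algebraMap Ω F c * h c) * g ^ (n - m) =
      ((∑ c ∈ s, algebraMap Ω F c * f c) * g ^ n) / ((∑ c ∈ t, algebraMap Ω F c * h c) * g ^ m) := by
    rw [zpow_sub₀ hM.g_ne]
    have := zpow_ne_zero m hM.g_ne
    field_simp
  rw [e, map_div₀, hn, hm, div_one]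


/-! ### ramification index one -/

/-- **(P1), comap form.** A place `w` of `F / Ω` above a rational place `v` of `F0 / K` is
unramified: `ord_w = ord_v` on `F0`. -/
theorem ord_eq_of_comap
    (hgen : IntermediateField.adjoin Ω (Set.range (algebraMap F0 F)) = ⊤)
    (w : Place Ω F) (v : Place K F0)
    (hcomap : w.toValuationSubring.comap (algebraMap F0 F) = v.toValuationSubring)
    (hrat : IsRatPlace v) (y : F0) :
    w.ord (algebraMap F0 F y) = v.ord y := by
  obtain ⟨t, ht⟩ := H19.exists_ord_eq_one v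
  have hM := isRatModel_of_comap (Ω := Ω) w.toValuationSubring v hcomap hrat t ht
  -- the image of `t` is a uniformiser of `w`
  have hgw : w.ord (algebraMap F0 F t) = 1 := by
    obtain ⟨π, hπ⟩ := H19.exists_ord_eq_one w
    have hπ0 : π ≠ 0 := by
      rintro rfl
      simp at hπ
    obtain ⟨n, hn⟩ := exists_zpow_of_isRatModel w.algebraMap_mem' hM hgen π hπ0
    have hgn : algebraMap F0 F t ^ n ≠ 0 := zpow_ne_zero n hM.g_ne
    have hx0 : π * algebraMap F0 F t ^ n ≠ 0 := mul_ne_zero hπ0 hgn
    have h1 : π * algebraMap F0 F t ^ n ∈ w.toValuationSubring :=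
      (w.toValuationSubring.valuation_le_one_iff _).mp hn.le
    have h2 : (π * algebraMap F0 F t ^ n)⁻¹ ∈ w.toValuationSubring := by
      rw [← w.toValuationSubring.valuation_le_one_iff, map_inv₀, hn, inv_one]
    have h3 := H74.ord_eq_zero_of_mem_of_inv_mem w h1 h2
    rw [w.ord_mul hπ0 hgn, w.ord_zpow, hπ] at h3
    have hge : 0 ≤ w.ord (algebraMap F0 F t) :=
      H19.ord_nonneg_of_mem w ((w.toValuationSubring.valuation_le_one_iff _).mp hM.g_lt.le)
    have hdvd : w.ord (algebraMap F0 F t) ∣ 1 := ⟨-n, by linarith⟩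
    exact Int.eq_one_of_dvd_one hge hdvd
  have hne : ∃ z : F0, algebraMap F0 F z ∉ w.toValuationSubring := by
    by_contra hcon
    push Not at hcon
    apply v.ne_top'
    rw [← hcomap]
    exact SetLike.ext fun x => ⟨fun _ => ValuationSubring.mem_top x, fun _ => hcon x⟩
  have hv : H74.restrictPlace (K0 := K) w hne = v := Place.ext hcomap
  rw [H74.ord_algebraMap_eq_of_exists (K0 := K) w hne ⟨t, hgw⟩ y, hv]

/-- **(P1).** A place of `F / Ω` whose restriction to `F0` is a rational place is unramified
over it. -/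
theorem ord_restrict
    (hgen : IntermediateField.adjoin Ω (Set.range (algebraMap F0 F)) = ⊤)
    (w : Place Ω F) (hne : ∃ y : F0, algebraMap F0 F y ∉ w.toValuationSubring)
    (hrat : IsRatPlace (H74.restrictPlace (K0 := K) w hne)) (y : F0) :
    w.ord (algebraMap F0 F y) = (H74.restrictPlace (K0 := K) w hne).ord y :=
  ord_eq_of_comap hgen w _ rfl hrat y

omit [Algebra K F0] [Algebra K F] [IsScalarTower K Ω F] [IsScalarTower K F0 F] in
/-- **(P5).** A place of `F / Ω` which is trivial on `F0` has order zero on `F0`. -/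
theorem ord_eq_zero_of_forall_mem (w : Place Ω F)
    (htriv : ∀ y : F0, algebraMap F0 F y ∈ w.toValuationSubring) (y : F0) :
    w.ord (algebraMap F0 F y) = 0 := by
  refine H74.ord_eq_zero_of_mem_of_inv_mem w (htriv y) ?_
  rw [← map_inv₀]
  exact htriv y⁻¹

/-! ### uniqueness -/

omit [Algebra K F0] [Algebra K F] [IsScalarTower K Ω F] [IsScalarTower K F0 F] in
/-- the exponent of a combination is the same for two valuation rings which agree on the model -/
theorem val_eq_one_iff_of_agree {O' : ValuationSubring F} (hΩ : ∀ c : Ω, algebraMap Ω F c ∈ O)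
    (hΩ' : ∀ c : Ω, algebraMap Ω F c ∈ O') {M : Subfield F} {g : F}
    (hM : IsRatModel (K := K) (Ω := Ω) O M g) (hM' : IsRatModel (K := K) (Ω := Ω) O' M g)
    (hOO' : ∀ y ∈ M, y ∈ O ↔ y ∈ O')
    (s : Finset Ω) (f : Ω → F) (hf : ∀ c ∈ s, f c ∈ M)
    (ha : ∑ c ∈ s, algebraMap Ω F c * f c ≠ 0) (n : ℤ)
    (hn : O.valuation ((∑ c ∈ s, algebraMap Ω F c * f c) * g ^ n) = 1) :
    O'.valuation ((∑ c ∈ s, algebraMap Ω F c * f c) * g ^ n) = 1 := by
  obtain ⟨n', hn'⟩ := stab_unif hΩ' hM' s f hf ha
  -- `a * g ^ n ∈ O` and `a * g ^ (n - 1) ∉ O`, hence the same for `O'`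
  have key : ∀ k : ℤ, ((∑ c ∈ s, algebraMap Ω F c * f c) * g ^ k ∈ O ↔
      (∑ c ∈ s, algebraMap Ω F c * f c) * g ^ k ∈ O') := by
    intro k
    have e : (∑ c ∈ s, algebraMap Ω F c * f c) * g ^ k =
        ∑ c ∈ s, algebraMap Ω F c * (f c * g ^ k) := by
      rw [Finset.sum_mul]
      exact Finset.sum_congr rfl fun c _ => mul_assoc _ _ _
    rw [e]
    exact uniq hΩ hΩ' hM hOO' s (fun c => f c * g ^ k)
      fun c hc => M.mul_mem (hf c hc) (zpow_mem hM.g_mem k)
  -- membership in terms of the exponents
  have hO : ∀ k : ℤ, ((∑ c ∈ s, algebraMap Ω F c * f c) * g ^ k ∈ O ↔ n ≤ k) := by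
    intro k
    have h1 : O.valuation (((∑ c ∈ s, algebraMap Ω F c * f c) * g ^ k) * g ^ (n - k)) = 1 := by
      rw [mul_assoc, ← zpow_add₀ hM.g_ne]
      simpa using hn
    rw [← O.valuation_le_one_iff, val_le_one_iff_of_unif hM.g_ne hM.g_lt h1]
    omega
  have hO' : ∀ k : ℤ, ((∑ c ∈ s, algebraMap Ω F c * f c) * g ^ k ∈ O' ↔ n' ≤ k) := by
    intro k
    have h1 : O'.valuation (((∑ c ∈ s, algebraMap Ω F c * f c) * g ^ k) * g ^ (n' - k)) = 1 := by
      rw [mul_assoc, ← zpow_add₀ hM'.g_ne]
      simpa using hn'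
    rw [← O'.valuation_le_one_iff, val_le_one_iff_of_unif hM'.g_ne hM'.g_lt h1]
    omega
  have h1 : n' ≤ n := (hO' n).mp ((key n).mp ((hO n).mpr le_rfl))
  have h2 : n ≤ n' := (hO n').mp ((key n').mpr ((hO' n').mpr le_rfl))
  have : n = n' := le_antisymm h2 h1
  rw [this]
  exact hn'

omit [Algebra K F0] [Algebra K F] [IsScalarTower K Ω F] [IsScalarTower K F0 F] in
/-- two valuation rings of `F` containing `Ω` which induce the same rational model structure on
the image of `F0` are equal (valuation ring form of uniqueness) -/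
theorem le_of_agree {O' : ValuationSubring F} (hΩ : ∀ c : Ω, algebraMap Ω F c ∈ O)
    (hΩ' : ∀ c : Ω, algebraMap Ω F c ∈ O') {g : F}
    (hM : IsRatModel (K := K) (Ω := Ω) O (modelField F0 F) g)
    (hM' : IsRatModel (K := K) (Ω := Ω) O' (modelField F0 F) g)
    (hOO' : ∀ y ∈ modelField F0 F, y ∈ O ↔ y ∈ O')
    (hgen : IntermediateField.adjoin Ω (Set.range (algebraMap F0 F)) = ⊤) :
    O ≤ O' := by
  intro x hx
  obtain ⟨s, t, f, h, hf, hh, rfl⟩ := exists_repr_of_adjoin_eq_top (Ω := Ω) (F0 := F0) hgen x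
  by_cases ha : ∑ c ∈ s, algebraMap Ω F c * f c = 0
  · rw [ha, zero_div]
    exact O'.zero_mem
  by_cases hb : ∑ c ∈ t, algebraMap Ω F c * h c = 0
  · rw [hb, div_zero]
    exact O'.zero_mem
  obtain ⟨n, hn⟩ := stab_unif hΩ hM s f hf ha
  obtain ⟨m, hm⟩ := stab_unif hΩ hM t h hh hb
  have hn' := val_eq_one_iff_of_agree hΩ hΩ' hM hM' hOO' s f hf ha n hn
  have hm' := val_eq_one_iff_of_agree hΩ hΩ' hM hM' hOO' t h hh hb m hm
  have e : (∑ c ∈ s, algebraMap Ω F c * f c) / (∑ c ∈ t, algebraMap Ω F c * h c) * g ^ (n - m) =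
      ((∑ c ∈ s, algebraMap Ω F c * f c) * g ^ n) / ((∑ c ∈ t, algebraMap Ω F c * h c) * g ^ m) := by
    rw [zpow_sub₀ hM.g_ne]
    have := zpow_ne_zero m hM.g_ne
    field_simp
  have h1 : O.valuation ((∑ c ∈ s, algebraMap Ω F c * f c) /
      (∑ c ∈ t, algebraMap Ω F c * h c) * g ^ (n - m)) = 1 := by
    rw [e, map_div₀, hn, hm, div_one]
  have h1' : O'.valuation ((∑ c ∈ s, algebraMap Ω F c * f c) /
      (∑ c ∈ t, algebraMap Ω F c * h c) * g ^ (n - m)) = 1 := by
    rw [e, map_div₀, hn', hm', div_one]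
  rw [← O.valuation_le_one_iff, val_le_one_iff_of_unif hM.g_ne hM.g_lt h1] at hx
  rw [← O'.valuation_le_one_iff, val_le_one_iff_of_unif hM'.g_ne hM'.g_lt h1']
  exact hx

/-- **(P2).** There is at most one place of `F / Ω` above a rational place of `F0 / K`. -/
theorem place_ext_unique
    (hgen : IntermediateField.adjoin Ω (Set.range (algebraMap F0 F)) = ⊤)
    (w w' : Place Ω F) (v : Place K F0)
    (hw : w.toValuationSubring.comap (algebraMap F0 F) = v.toValuationSubring)
    (hw' : w'.toValuationSubring.comap (algebraMap F0 F) = v.toValuationSubring)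
    (hrat : IsRatPlace v) : w = w' := by
  obtain ⟨t, ht⟩ := H19.exists_ord_eq_one v
  have hM := isRatModel_of_comap (Ω := Ω) w.toValuationSubring v hw hrat t ht
  have hM' := isRatModel_of_comap (Ω := Ω) w'.toValuationSubring v hw' hrat t ht
  have hOO' : ∀ y ∈ modelField F0 F, y ∈ w.toValuationSubring ↔ y ∈ w'.toValuationSubring := by
    rintro y ⟨z, rfl⟩
    have h1 : algebraMap F0 F z ∈ w.toValuationSubring ↔ z ∈ v.toValuationSubring := by
      rw [← hw]; rfl
    have h2 : algebraMap F0 F z ∈ w'.toValuationSubring ↔ z ∈ v.toValuationSubring := by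
      rw [← hw']; rfl
    exact h1.trans h2.symm
  apply Place.ext
  exact le_antisymm
    (le_of_agree w.algebraMap_mem' w'.algebraMap_mem' hM hM' hOO' hgen)
    (le_of_agree w'.algebraMap_mem' w.algebraMap_mem' hM' hM (fun y hy => (hOO' y hy).symm) hgen)

open scoped Pointwise in
/-- **(P4).** A place above a rational place is fixed by every semilinear automorphism of
`F / Ω` which fixes `F0` pointwise. -/
theorem smul_place_eq
    (hgen : IntermediateField.adjoin Ω (Set.range (algebraMap F0 F)) = ⊤)
    (σ : SemilinearAut Ω F) (hσ : ∀ y : F0, σ • algebraMap F0 F y = algebraMap F0 F y)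
    (w : Place Ω F) (v : Place K F0)
    (hw : w.toValuationSubring.comap (algebraMap F0 F) = v.toValuationSubring)
    (hrat : IsRatPlace v) : σ • w = w := by
  refine place_ext_unique hgen (σ • w) w v ?_ hw hrat
  rw [← hw]
  ext z
  have hz : σ⁻¹ • algebraMap F0 F z = algebraMap F0 F z := by
    rw [inv_smul_eq_iff, hσ]
  show algebraMap F0 F z ∈ σ • w.toValuationSubring ↔ algebraMap F0 F z ∈ w.toValuationSubring
  rw [ValuationSubring.mem_pointwise_smul_iff_inv_smul_mem, hz]

/-! ### existence -/

omit [Algebra Ω F] [Algebra F0 F] [Algebra K F] [IsScalarTower K Ω F] [IsScalarTower K F0 F] in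
/-- a `K`-linear functional on `Ω` which is `1` at `1` -/
theorem exists_functional_one : ∃ φ : Ω →ₗ[K] K, φ 1 = 1 := by
  obtain ⟨g, hg⟩ := (Algebra.linearMap K Ω).exists_leftInverse_of_injective
    (LinearMap.ker_eq_bot.mpr (algebraMap K Ω).injective)
  refine ⟨g, ?_⟩
  have := LinearMap.congr_fun hg 1
  simpa using this

omit [IsScalarTower K Ω F] [IsScalarTower K F0 F] [Algebra K F] in
/-- linear disjointness (functional form) implies that the `Ω`-span of the maximal ideal of a
place of `F0` does not contain `1` -/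
theorem one_notMem_span_nonunits
    (hld : ∀ (φ : Ω →ₗ[K] K) (T : Finset F0) (a : F0 → Ω),
      ∑ z ∈ T, algebraMap Ω F (a z) * algebraMap F0 F z = 0 → ∑ z ∈ T, φ (a z) • z = 0)
    (v : Place K F0) :
    (1 : F) ∉ Submodule.span Ω
      (algebraMap F0 F '' {z : F0 | z ∈ v.toValuationSubring.nonunits}) := by
  classical
  intro h1
  obtain ⟨l, hl, hsum⟩ := (Finsupp.mem_span_image_iff_linearCombination Ω).mp h1
  rw [Finsupp.linearCombination_apply, Finsupp.sum] at hsum
  have hsupp : ∀ z ∈ l.support, z ∈ v.toValuationSubring.nonunits := fun z hz => hl hz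
  have h1n : (1 : F0) ∉ l.support := fun h => by
    have := hsupp 1 h
    rw [ValuationSubring.mem_nonunits_iff, map_one] at this
    exact lt_irrefl _ this
  obtain ⟨φ, hφ⟩ := exists_functional_one (K := K) (Ω := Ω)
  have hrel : ∑ z ∈ insert 1 l.support,
      algebraMap Ω F ((fun z => if z = 1 then -1 else l z) z) * algebraMap F0 F z = 0 := by
    rw [Finset.sum_insert h1n]
    have h2 : ∑ z ∈ l.support, algebraMap Ω F ((fun z => if z = 1 then -1 else l z) z) *
        algebraMap F0 F z = ∑ z ∈ l.support, l z • algebraMap F0 F z :=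
      Finset.sum_congr rfl fun z hz => by
        have hz1 : z ≠ 1 := fun h => h1n (by rw [← h]; exact hz)
        simp only
        rw [if_neg hz1, Algebra.smul_def]
    rw [h2, hsum]
    simp
  have h0 := hld φ (insert 1 l.support) (fun z => if z = 1 then -1 else l z) hrel
  rw [Finset.sum_insert h1n] at h0
  have h2 : ∑ z ∈ l.support, φ ((fun z => if z = 1 then -1 else l z) z) • z =
      ∑ z ∈ l.support, φ (l z) • z :=
    Finset.sum_congr rfl fun z hz => by
      have hz1 : z ≠ 1 := fun h => h1n (by rw [← h]; exact hz)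
      simp only
      rw [if_neg hz1]
  rw [h2] at h0
  simp only [if_true, map_neg, hφ, neg_smul, one_smul] at h0
  have h3 : (1 : F0) = ∑ z ∈ l.support, φ (l z) • z := by linear_combination -h0
  have h4 : v.toValuationSubring.valuation (∑ z ∈ l.support, φ (l z) • z) < 1 := by
    refine Valuation.map_sum_lt _ one_ne_zero fun z hz => ?_
    rw [Algebra.smul_def, map_mul]
    have hz' := (ValuationSubring.mem_nonunits_iff _).mp (hsupp z hz)
    have hc : v.toValuationSubring.valuation (algebraMap K F0 (φ (l z))) ≤ 1 :=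
      (v.toValuationSubring.valuation_le_one_iff _).mpr (v.algebraMap_mem' _)
    exact mul_lt_one_of_nonneg_of_lt_one_right hc zero_le hz'
  rw [← h3, map_one] at h4
  exact lt_irrefl _ h4

/-- **(P3).** Above every rational place of `F0 / K` there is a place of `F / Ω`, unramified,
provided `Ω` and `F0` are linearly disjoint over `K` in `F` (functional form `hld`: a relation
`∑ a z * z = 0` with constants `a z ∈ Ω` stays a relation after applying any `K`-linear
functional to the constants). -/
theorem exists_place_ext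
    (hgen : IntermediateField.adjoin Ω (Set.range (algebraMap F0 F)) = ⊤)
    (hld : ∀ (φ : Ω →ₗ[K] K) (T : Finset F0) (a : F0 → Ω),
      ∑ z ∈ T, algebraMap Ω F (a z) * algebraMap F0 F z = 0 → ∑ z ∈ T, φ (a z) • z = 0)
    (v : Place K F0) (hrat : IsRatPlace v) :
    ∃ w : Place Ω F, w.toValuationSubring.comap (algebraMap F0 F) = v.toValuationSubring ∧
      ∀ y : F0, w.ord (algebraMap F0 F y) = v.ord y := by
  classical
  set m : Set F0 := {z : F0 | z ∈ v.toValuationSubring.nonunits} with hm
  set Sm : Submodule Ω F := Submodule.span Ω (algebraMap F0 F '' m) with hSm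
  set A : Subalgebra Ω F :=
    Algebra.adjoin Ω (algebraMap F0 F '' (v.toValuationSubring : Set F0)) with hA
  have hmv : ∀ z ∈ m, z ∈ v.toValuationSubring := fun z hz =>
    (v.toValuationSubring.valuation_le_one_iff _).mp
      ((ValuationSubring.mem_nonunits_iff _).mp hz).le
  -- `A * Sm ⊆ Sm`
  have hmul : ∀ a ∈ A, ∀ y ∈ Sm, a * y ∈ Sm := by
    intro a ha
    induction ha using Algebra.adjoin_induction with
    | mem x hx =>
      obtain ⟨o, ho, rfl⟩ := hx
      intro y hy
      induction hy using Submodule.span_induction with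
      | mem y hy =>
        obtain ⟨z, hz, rfl⟩ := hy
        rw [← map_mul]
        refine Submodule.subset_span ⟨o * z, ?_, rfl⟩
        show o * z ∈ v.toValuationSubring.nonunits
        rw [ValuationSubring.mem_nonunits_iff, map_mul]
        exact mul_lt_one_of_nonneg_of_lt_one_right
          ((v.toValuationSubring.valuation_le_one_iff _).mpr ho) zero_le
          ((ValuationSubring.mem_nonunits_iff _).mp hz)
      | zero => rw [mul_zero]; exact Sm.zero_mem
      | add y y' _ _ ihy ihy' => rw [mul_add]; exact Sm.add_mem ihy ihy'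
      | smul c y _ ihy => rw [mul_smul_comm]; exact Sm.smul_mem c ihy
    | algebraMap c =>
      intro y hy
      rw [← Algebra.smul_def]
      exact Sm.smul_mem c hy
    | add a b _ _ iha ihb =>
      intro y hy
      rw [add_mul]
      exact Sm.add_mem (iha y hy) (ihb y hy)
    | mul a b _ _ iha ihb =>
      intro y hy
      rw [mul_assoc]
      exact iha _ (ihb y hy)
  -- the ideal generated by the maximal ideal of `v`
  let I : Ideal A.toSubring :=
    Ideal.span {a : A.toSubring | ∃ z ∈ m, (a : F) = algebraMap F0 F z}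
  have hI_sub : ∀ a ∈ I, (a : F) ∈ Sm := by
    intro a ha
    induction ha using Submodule.span_induction with
    | mem a ha =>
      obtain ⟨z, hz, hza⟩ := ha
      rw [hza]
      exact Submodule.subset_span ⟨z, hz, rfl⟩
    | zero => exact Sm.zero_mem
    | add a b _ _ iha ihb => exact Sm.add_mem iha ihb
    | smul r a _ iha => exact hmul r r.2 _ iha
  have hI : I ≠ ⊤ := by
    intro htop
    have h1 : (1 : A.toSubring) ∈ I := by rw [htop]; trivial
    exact one_notMem_span_nonunits hld v (hI_sub 1 h1)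
  obtain ⟨B, hAB, hIB⟩ := Ideal.image_subset_nonunits_valuationSubring I hI
  have hΩB : ∀ c : Ω, algebraMap Ω F c ∈ B := fun c => hAB (A.algebraMap_mem c)
  have hOB : ∀ z ∈ v.toValuationSubring, algebraMap F0 F z ∈ B := fun z hz =>
    hAB (Algebra.subset_adjoin ⟨z, hz, rfl⟩)
  have hmB : ∀ z ∈ m, algebraMap F0 F z ∈ B.nonunits := by
    intro z hz
    have hzA : algebraMap F0 F z ∈ A.toSubring := Algebra.subset_adjoin ⟨z, hmv z hz, rfl⟩
    exact hIB ⟨⟨_, hzA⟩, Ideal.subset_span ⟨z, hz, rfl⟩, rfl⟩
  have hcomap : B.comap (algebraMap F0 F) = v.toValuationSubring := by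
    ext z
    rw [ValuationSubring.mem_comap]
    refine ⟨fun hz => ?_, fun hz => hOB z hz⟩
    by_contra hzv
    have hz0 : z ≠ 0 := fun h => hzv (h ▸ v.toValuationSubring.zero_mem)
    have hzi : z⁻¹ ∈ m := by
      show z⁻¹ ∈ v.toValuationSubring.nonunits
      rw [ValuationSubring.mem_nonunits_iff_or, inv_inv]
      exact Or.inr hzv
    have := hmB z⁻¹ hzi
    rw [ValuationSubring.mem_nonunits_iff_or, map_inv₀, inv_inv] at this
    rcases this with h | h
    · exact hz0 (by simpa using h)
    · exact h hz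
  obtain ⟨t, ht⟩ := H19.exists_ord_eq_one v
  have hM := isRatModel_of_comap (Ω := Ω) B v hcomap hrat t ht
  have hPID : IsPrincipalIdealRing B :=
    isPrincipalIdealRing_of_unif B hM.g_ne hM.g_lt (exists_zpow_of_isRatModel hΩB hM hgen)
  have hne : B ≠ ⊤ := by
    intro htop
    have h1 : (algebraMap F0 F t)⁻¹ ∈ B := by rw [htop]; trivial
    have h2 := (B.valuation_le_one_iff _).mpr h1
    rw [map_inv₀] at h2
    have h0 : B.valuation (algebraMap F0 F t) ≠ 0 := (Valuation.ne_zero_iff _).mpr hM.g_ne
    have h4 : 1 ≤ B.valuation (algebraMap F0 F t) := (inv_le_one₀ (zero_lt_iff.mpr h0)).mp h2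
    exact absurd hM.g_lt (not_lt.mpr h4)
  exact ⟨⟨B, hΩB, hne, hPID⟩, hcomap,
    fun y => ord_eq_of_comap hgen ⟨B, hΩB, hne, hPID⟩ v hcomap hrat y⟩

end Generic

end Fermat.Agent.S29.H23
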