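import Mathlib
import Fermat.Prelude.Def_ModularCurve_ArithmeticGalois
import Fermat.Agent.S29.Bc_helper43
import Fermat.Agent.S29.ConstPlace_helper23

/-!
# S29, descent, place level: base change of places of `laurentBaseChange` (helper23)

Instance of `ConstPlace_helper23` for `F_K := laurentBaseChange K F₀ ⊆ K((q))`,
`F_L := laurentBaseChange L F₀ ⊆ L((q))` (`K ⊆ L` ANY field extension, e.g. `ℚ̄ ⊆ ℂ`) and the
coefficientwise base change `H43.bc F₀ : F_K →+* F_L` of helper43.

* `exists_place_bc` : above every rational place `v` of `F_K / K` there is a place `w` of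
  `F_L / L`, and `w.ord (bc y) = v.ord y`.
* `place_bc_unique` : it is unique.
* `ord_bc_eq` : every place of `F_L / L` above a rational place `v` has `ord_w ∘ bc = ord_v`.
* `ord_bc_eq_zero` : a place of `F_L / L` which is trivial on `F_K` has order `0` on `bc F_K`.
* `arithmeticGalois_smul_place_eq` : a place above a rational place is fixed by the coefficientwise
  action of every automorphism of `L` fixing `K`.
-/

set_option autoImplicit false
set_option linter.style.haveILetI false
set_option linter.unusedSectionVars false

namespace Fermat.Agent.S29.H23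

open AlgebraicCurve ModularCurve

section Laurent

variable {K L : Type*} [Field K] [Field L] [Algebra K L] [Algebra ℚ K] [Algebra ℚ L]
variable (F₀ : IntermediateField ℚ (LaurentSeries ℚ))

/-- the algebra structure of `F_L` over `F_K` given by base change (not an instance) -/
@[reducible] noncomputable def algBc :
    Algebra ↥(laurentBaseChange K F₀) ↥(laurentBaseChange L F₀) :=
  (H43.bc (K := K) (L := L) F₀).toAlgebra

/-- the algebra structure of `F_L` over `K` through `L` (not an instance) -/
@[reducible] noncomputable def algConst : Algebra K ↥(laurentBaseChange L F₀) :=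
  ((algebraMap L ↥(laurentBaseChange L F₀)).comp (algebraMap K L)).toAlgebra

theorem tower_const :
    @IsScalarTower K L ↥(laurentBaseChange L F₀) _ _ (algConst (K := K) (L := L) F₀).toSMul :=
  letI := algConst (K := K) (L := L) F₀
  IsScalarTower.of_algebraMap_eq fun _ => rfl

theorem tower_bc :
    @IsScalarTower K ↥(laurentBaseChange K F₀) ↥(laurentBaseChange L F₀) _
      (algBc (K := K) (L := L) F₀).toSMul (algConst (K := K) (L := L) F₀).toSMul :=
  letI := algConst (K := K) (L := L) F₀
  letI := algBc (K := K) (L := L) F₀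
  IsScalarTower.of_algebraMap_eq fun k => (H43.bc_algebraMap (L := L) F₀ k).symm

/-- **(LD)**, functional form: a relation with constants of `L` between elements of `bc F_K`
stays a relation after applying a `K`-linear functional to the constants. -/
theorem ld_functional (φ : L →ₗ[K] K) (T : Finset ↥(laurentBaseChange K F₀))
    (a : ↥(laurentBaseChange K F₀) → L)
    (h : ∑ z ∈ T, algebraMap L ↥(laurentBaseChange L F₀) (a z) * H43.bc F₀ z = 0) :
    ∑ z ∈ T, φ (a z) • z = 0 := by
  have h1 : ∑ z ∈ T, HahnSeries.C (a z) *
      coeffMap (algebraMap K L) ((z : ↥(laurentBaseChange K F₀)) : LaurentSeries K) = 0 := by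
    have h2 := congrArg (fun z : ↥(laurentBaseChange L F₀) => (z : LaurentSeries L)) h
    simp only [AddSubmonoidClass.coe_finsetSum, ZeroMemClass.coe_zero] at h2
    rw [← h2]
    refine Finset.sum_congr rfl fun c _ => ?_
    rw [← H43.algebraMap_eq_C]
    rfl
  apply Subtype.ext
  have hcoe : ((∑ z ∈ T, φ (a z) • z : ↥(laurentBaseChange K F₀)) : LaurentSeries K) =
      ∑ z ∈ T, HahnSeries.C (φ (a z)) * (z : LaurentSeries K) := by
    simp only [AddSubmonoidClass.coe_finsetSum]
    refine Finset.sum_congr rfl fun z _ => ?_
    rw [Algebra.smul_def, ← H43.algebraMap_eq_C]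
    rfl
  rw [hcoe]
  ext n
  have h3 := congrArg (fun y : LaurentSeries L => y.coeff n) h1
  simp only [HahnSeries.coeff_sum, H43.coeff_C_mul, coeffMap_coeff, HahnSeries.coeff_zero] at h3
  have h4 := congrArg φ h3
  rw [map_sum, map_zero] at h4
  rw [HahnSeries.coeff_sum]
  simp only [H43.coeff_C_mul, ZeroMemClass.coe_zero, HahnSeries.coeff_zero]
  rw [← h4]
  refine Finset.sum_congr rfl fun z _ => ?_
  rw [mul_comm (a z), ← Algebra.smul_def, map_smul, smul_eq_mul, mul_comm]

/-- **(P3) / (CD-C).** Above every rational place of `F_K / K` there is a place of `F_L / L`,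
unramified. -/
theorem exists_place_bc (v : Place K ↥(laurentBaseChange K F₀)) (hv : IsRatPlace v) :
    ∃ w : Place L ↥(laurentBaseChange L F₀),
      w.toValuationSubring.comap (H43.bc F₀) = v.toValuationSubring ∧
        ∀ y : ↥(laurentBaseChange K F₀), w.ord (H43.bc F₀ y) = v.ord y := by
  letI := algConst (K := K) (L := L) F₀
  letI := algBc (K := K) (L := L) F₀
  haveI := tower_const (K := K) (L := L) F₀
  haveI := tower_bc (K := K) (L := L) F₀
  exact exists_place_ext (K := K) (Ω := L) (F0 := ↥(laurentBaseChange K F₀))
    (F := ↥(laurentBaseChange L F₀)) (H43.adjoin_range_bc F₀) (ld_functional F₀) v hv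

/-- **(CD-C)**, residue-field form. -/
theorem exists_place_bc_of_surjective (v : Place K ↥(laurentBaseChange K F₀))
    (hv : Function.Surjective (algebraMap K v.ResidueField)) :
    ∃ w : Place L ↥(laurentBaseChange L F₀),
      ∀ y : ↥(laurentBaseChange K F₀), w.ord (H43.bc F₀ y) = v.ord y := by
  obtain ⟨w, -, hw⟩ := exists_place_bc (L := L) F₀ v (isRatPlace_of_surjective v hv)
  exact ⟨w, hw⟩

/-- divisibility of orders descends: if `m` divides the order of `bc x₀` at every place of
`F_L / L`, it divides the order of `x₀` at every rational place of `F_K / K`. -/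
theorem dvd_ord_of_forall_dvd_bc (m : ℤ) (x₀ : ↥(laurentBaseChange K F₀))
    (h : ∀ w : Place L ↥(laurentBaseChange L F₀), m ∣ w.ord (H43.bc F₀ x₀))
    (v : Place K ↥(laurentBaseChange K F₀)) (hv : IsRatPlace v) : m ∣ v.ord x₀ := by
  obtain ⟨w, -, hw⟩ := exists_place_bc (L := L) F₀ v hv
  rw [← hw]
  exact h w

/-- **(P2).** Uniqueness of the place above a rational place. -/
theorem place_bc_unique (w w' : Place L ↥(laurentBaseChange L F₀))
    (v : Place K ↥(laurentBaseChange K F₀))
    (hw : w.toValuationSubring.comap (H43.bc F₀) = v.toValuationSubring)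
    (hw' : w'.toValuationSubring.comap (H43.bc F₀) = v.toValuationSubring)
    (hv : IsRatPlace v) : w = w' := by
  letI := algConst (K := K) (L := L) F₀
  letI := algBc (K := K) (L := L) F₀
  haveI := tower_const (K := K) (L := L) F₀
  haveI := tower_bc (K := K) (L := L) F₀
  exact place_ext_unique (K := K) (Ω := L) (F0 := ↥(laurentBaseChange K F₀))
    (F := ↥(laurentBaseChange L F₀)) (H43.adjoin_range_bc F₀) w w' v hw hw' hv

/-- **(P1).** Every place of `F_L / L` above a rational place `v` is unramified over it. -/
theorem ord_bc_eq (w : Place L ↥(laurentBaseChange L F₀))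
    (v : Place K ↥(laurentBaseChange K F₀))
    (hw : w.toValuationSubring.comap (H43.bc F₀) = v.toValuationSubring)
    (hv : IsRatPlace v) (y : ↥(laurentBaseChange K F₀)) :
    w.ord (H43.bc F₀ y) = v.ord y := by
  letI := algConst (K := K) (L := L) F₀
  letI := algBc (K := K) (L := L) F₀
  haveI := tower_const (K := K) (L := L) F₀
  haveI := tower_bc (K := K) (L := L) F₀
  exact ord_eq_of_comap (K := K) (Ω := L) (F0 := ↥(laurentBaseChange K F₀))
    (F := ↥(laurentBaseChange L F₀)) (H43.adjoin_range_bc F₀) w v hw hv y

/-- **(P5).** A place of `F_L / L` which is trivial on `F_K` has order `0` on `bc F_K`. -/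
theorem ord_bc_eq_zero (w : Place L ↥(laurentBaseChange L F₀))
    (htriv : ∀ y : ↥(laurentBaseChange K F₀), H43.bc F₀ y ∈ w.toValuationSubring)
    (y : ↥(laurentBaseChange K F₀)) : w.ord (H43.bc F₀ y) = 0 := by
  letI := algBc (K := K) (L := L) F₀
  exact ord_eq_zero_of_forall_mem (Ω := L) (F0 := ↥(laurentBaseChange K F₀))
    (F := ↥(laurentBaseChange L F₀)) w htriv y

/-- the restriction of a place of `F_L / L` which is not trivial on `F_K` -/
noncomputable def restrictBc (w : Place L ↥(laurentBaseChange L F₀))
    (hne : ∃ y : ↥(laurentBaseChange K F₀), H43.bc F₀ y ∉ w.toValuationSubring) :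
    Place K ↥(laurentBaseChange K F₀) :=
  letI := algConst (K := K) (L := L) F₀
  letI := algBc (K := K) (L := L) F₀
  haveI := tower_const (K := K) (L := L) F₀
  haveI := tower_bc (K := K) (L := L) F₀
  Fermat.Agent.S18.H74.restrictPlace (K0 := K) w hne

theorem restrictBc_toValuationSubring (w : Place L ↥(laurentBaseChange L F₀))
    (hne : ∃ y : ↥(laurentBaseChange K F₀), H43.bc F₀ y ∉ w.toValuationSubring) :
    (restrictBc F₀ w hne).toValuationSubring = w.toValuationSubring.comap (H43.bc F₀) := rfl

/-- **(P4).** A place above a rational place is fixed by the coefficientwise action of every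
automorphism of `L` which fixes `K`. -/
theorem arithmeticGalois_smul_place_eq (τ : L ≃ₐ[ℚ] L)
    (hτ : ∀ k : K, τ (algebraMap K L k) = algebraMap K L k)
    (w : Place L ↥(laurentBaseChange L F₀)) (v : Place K ↥(laurentBaseChange K F₀))
    (hw : w.toValuationSubring.comap (H43.bc F₀) = v.toValuationSubring)
    (hv : IsRatPlace v) : arithmeticGalois F₀ τ • w = w := by
  letI := algConst (K := K) (L := L) F₀
  letI := algBc (K := K) (L := L) F₀
  haveI := tower_const (K := K) (L := L) F₀
  haveI := tower_bc (K := K) (L := L) F₀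
  refine smul_place_eq (K := K) (Ω := L) (F0 := ↥(laurentBaseChange K F₀))
    (F := ↥(laurentBaseChange L F₀)) (H43.adjoin_range_bc F₀) (arithmeticGalois F₀ τ) ?_ w v hw hv
  intro y
  apply Subtype.ext
  show coeffMap (τ : L →+* L) (coeffMap (algebraMap K L) (y : LaurentSeries K)) =
    coeffMap (algebraMap K L) (y : LaurentSeries K)
  rw [coeffMap_coeffMap]
  exact coeffMap_congr (RingHom.ext fun k => hτ k) _

end Laurent

end Fermat.Agent.S29.H23
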