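import Mathlib
import Fermat.Agent.S37.RatPlace_helper14
import Fermat.Agent.S29.ConstPlaceLaurent_helper23

/-!
# S29, descent, place level: the modular function fields (helper23)

Every place of `F̄_N = modularFunctionFieldBar N` over `ℚ̄` is rational (landed S37), so the results
of `ConstPlaceLaurent_helper23` hold there unconditionally, for every field `L` over `ℚ̄`
(e.g. `L = ℂ`): with `F_L := laurentBaseChange L (modularFunctionFieldFull N)` and
`bc := H43.bc (modularFunctionFieldFull N) : F̄_N →+* F_L`,

* `exists_place_bc_bar` : above every place `v` of `F̄_N` there is a place `w` of `F_L / L` with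
  `w.ord (bc y) = v.ord y`;
* `place_bc_unique_bar`, `ord_bc_eq_bar` : it is unique, and every place above `v` is unramified;
* `dvd_ord_bar_of_forall_dvd_bc` : divisibility of all orders descends from `F_L` to `F̄_N`;
* `arithmeticGalois_smul_place_eq_bar` : places of `F_L` above places of `F̄_N` are fixed by the
  coefficientwise action of the automorphisms of `L` over `ℚ̄`.
-/

set_option autoImplicit false

namespace Fermat.Agent.S29.H23

open AlgebraicCurve ModularCurve

section Bar

variable (N : ℕ) [NeZero N]

/-- every place of `F̄_N` is rational -/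
theorem isRatPlace_bar (v : Place (AlgebraicClosure ℚ) ↥(modularFunctionFieldBar N)) :
    IsRatPlace v :=
  fun _ hy => Fermat.Agent.S37.H14.exists_value v hy

variable {L : Type*} [Field L] [Algebra (AlgebraicClosure ℚ) L] [Algebra ℚ L]

/-- **(CD-C)** for the modular function fields. -/
theorem exists_place_bc_bar (v : Place (AlgebraicClosure ℚ) ↥(modularFunctionFieldBar N)) :
    ∃ w : Place L ↥(laurentBaseChange L (modularFunctionFieldFull N)),
      w.toValuationSubring.comap (H43.bc (modularFunctionFieldFull N)) = v.toValuationSubring ∧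
        ∀ y : ↥(modularFunctionFieldBar N),
          w.ord (H43.bc (modularFunctionFieldFull N) y) = v.ord y :=
  exists_place_bc (modularFunctionFieldFull N) v (isRatPlace_bar N v)

theorem place_bc_unique_bar (w w' : Place L ↥(laurentBaseChange L (modularFunctionFieldFull N)))
    (v : Place (AlgebraicClosure ℚ) ↥(modularFunctionFieldBar N))
    (hw : w.toValuationSubring.comap (H43.bc (modularFunctionFieldFull N)) = v.toValuationSubring)
    (hw' : w'.toValuationSubring.comap (H43.bc (modularFunctionFieldFull N)) =
      v.toValuationSubring) : w = w' :=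
  place_bc_unique (modularFunctionFieldFull N) w w' v hw hw' (isRatPlace_bar N v)

theorem ord_bc_eq_bar (w : Place L ↥(laurentBaseChange L (modularFunctionFieldFull N)))
    (v : Place (AlgebraicClosure ℚ) ↥(modularFunctionFieldBar N))
    (hw : w.toValuationSubring.comap (H43.bc (modularFunctionFieldFull N)) = v.toValuationSubring)
    (y : ↥(modularFunctionFieldBar N)) :
    w.ord (H43.bc (modularFunctionFieldFull N) y) = v.ord y :=
  ord_bc_eq (modularFunctionFieldFull N) w v hw (isRatPlace_bar N v) y

/-- every place of `F_L / L` has, on `bc F̄_N`, either order zero or the order of its restriction,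
a place of `F̄_N` -/
theorem ord_bc_bar_cases (w : Place L ↥(laurentBaseChange L (modularFunctionFieldFull N))) :
    (∀ y : ↥(modularFunctionFieldBar N), w.ord (H43.bc (modularFunctionFieldFull N) y) = 0) ∨
      ∃ v : Place (AlgebraicClosure ℚ) ↥(modularFunctionFieldBar N),
        w.toValuationSubring.comap (H43.bc (modularFunctionFieldFull N)) = v.toValuationSubring ∧
          ∀ y : ↥(modularFunctionFieldBar N),
            w.ord (H43.bc (modularFunctionFieldFull N) y) = v.ord y := by
  by_cases htriv : ∀ y : ↥(modularFunctionFieldBar N),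
      H43.bc (modularFunctionFieldFull N) y ∈ w.toValuationSubring
  · exact Or.inl (ord_bc_eq_zero (modularFunctionFieldFull N) w htriv)
  · push Not at htriv
    refine Or.inr ⟨restrictBc (modularFunctionFieldFull N) w htriv, rfl, fun y => ?_⟩
    exact ord_bc_eq_bar N w _ rfl y

/-- divisibility of all orders descends from `F_L` to `F̄_N` -/
theorem dvd_ord_bar_of_forall_dvd_bc (m : ℤ) (x₀ : ↥(modularFunctionFieldBar N))
    (h : ∀ w : Place L ↥(laurentBaseChange L (modularFunctionFieldFull N)),
      m ∣ w.ord (H43.bc (modularFunctionFieldFull N) x₀))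
    (v : Place (AlgebraicClosure ℚ) ↥(modularFunctionFieldBar N)) : m ∣ v.ord x₀ :=
  dvd_ord_of_forall_dvd_bc (modularFunctionFieldFull N) m x₀ h v (isRatPlace_bar N v)

/-- and conversely -/
theorem dvd_ord_bc_of_forall_dvd_bar (m : ℤ) (x₀ : ↥(modularFunctionFieldBar N))
    (h : ∀ v : Place (AlgebraicClosure ℚ) ↥(modularFunctionFieldBar N), m ∣ v.ord x₀)
    (w : Place L ↥(laurentBaseChange L (modularFunctionFieldFull N))) :
    m ∣ w.ord (H43.bc (modularFunctionFieldFull N) x₀) := by
  rcases ord_bc_bar_cases N w with h0 | ⟨v, -, hv⟩
  · rw [h0]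
    exact dvd_zero m
  · rw [hv]
    exact h v

/-- places of `F_L` above places of `F̄_N` are fixed by the automorphisms of `L` over `ℚ̄` -/
theorem arithmeticGalois_smul_place_eq_bar (τ : L ≃ₐ[ℚ] L)
    (hτ : ∀ k : AlgebraicClosure ℚ,
      τ (algebraMap (AlgebraicClosure ℚ) L k) = algebraMap (AlgebraicClosure ℚ) L k)
    (w : Place L ↥(laurentBaseChange L (modularFunctionFieldFull N)))
    (v : Place (AlgebraicClosure ℚ) ↥(modularFunctionFieldBar N))
    (hw : w.toValuationSubring.comap (H43.bc (modularFunctionFieldFull N)) =
      v.toValuationSubring) :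
    arithmeticGalois (modularFunctionFieldFull N) τ • w = w :=
  arithmeticGalois_smul_place_eq (modularFunctionFieldFull N) τ hτ w v hw (isRatPlace_bar N v)

end Bar

end Fermat.Agent.S29.H23
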