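import Mathlib
import Fermat.Agent.S24.PhiData_helper69
import Fermat.Agent.S24.Finite_helper89
import Fermat.Agent.S24.InvK_helper89

/-!
# S29, node (C-MODEL): the modular function field over `ℂ`

* `FC N := laurentBaseChange ℂ (modularFunctionFieldFull N)`: the Prelude function field with
  constant field `ℂ`; `jdC N d hd`, `jC N`: its generators `j(q^d)`, `j`.
* `PhiC N`: an embedding `Φ : FC N →+* H31.L N` into the field of analytic modular functions
  (the `ℂ`-instance of the S24 structure `PhiData`), with existence `nonempty_phiC`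
  (`H20.exists_Phi_abstract` at `K = ℂ`).
* `transcendental_jC`, `isAlgebraic_jdC`, `adjoin_jdC_eq_top`, `finite_FC`: `FC N` is a function
  field, finite over `ℂ(j)`.

The instance of `H90.IsCover`, uniqueness of the embedding and the compatibility with the
function field over `ℚ̄` are in `CoverC_helper71`.
-/

set_option autoImplicit false

open Polynomial IntermediateField UpperHalfPlane CongruenceSubgroup ModularCurve AlgebraicCurve
open scoped MatrixGroups
open Fermat.Agent.S24 Fermat.Agent.S24.H31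

noncomputable section

namespace Fermat.Agent.S29.H71

/-- the modular function field of level `N` with constant field `ℂ` -/
abbrev FC (N : ℕ) : Type := ↥(laurentBaseChange ℂ (modularFunctionFieldFull N))

/-- `j(q^d)` as an element of `FC N`, for `d ∣ N` -/
def jdC (N : ℕ) [NeZero N] (d : ℕ) (hd : d ∣ N) : FC N :=
  ⟨H20.Jd N ℂ ⟨d, hd⟩, H20.Jd_mem N ℂ ⟨d, hd⟩⟩

/-- `j` as an element of `FC N` -/
def jC (N : ℕ) [NeZero N] : FC N := jdC N 1 (one_dvd N)

/-- The `ℂ`-instance of `H31.PhiData`: an embedding of `FC N` into the analytic field `L N`. -/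
structure PhiC (N : ℕ) [NeZero N] where
  /-- the embedding -/
  Φ : FC N →+* L N
  map_const : ∀ c : ℂ, Φ (algebraMap ℂ (FC N) c) = algebraMap ℂ (L N) c
  map_Jd : ∀ (d : ℕ) (hd : d ∣ N), Φ (jdC N d hd) = algebraMap (RN N) (L N) (H23.jd N d hd)
  inv : ∀ γ ∈ Gamma0 N, ∀ f : FC N, γ • Φ f = Φ f

variable {N : ℕ} [NeZero N]

theorem nonempty_phiC (N : ℕ) [NeZero N] : Nonempty (PhiC N) := by
  obtain ⟨Φ, h1, h2, h3⟩ := H20.exists_Phi_abstract N (K := ℂ)
    (IsFractionRing.injective (RN N) (L N)) (algebraMap ℂ (RN N)) (fun d => H23.jd N d.1 d.2)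
    (H20.phiFormal N (RingHom.id ℂ)) (H20.phiFormal_injective N (RingHom.id ℂ))
    (H69.ExRN N).toRingHom (H69.ExRN_injective N)
    (fun c => by
      rw [H20.phiFormal_algebraMap]
      exact H69.ExRN_algebraMap N c)
    (fun d => by
      haveI : NeZero d.1 := H20.neZero_of_dvd d.2
      have h := H20.phiFormal_Jd N (RingHom.id ℂ) d.1 d.2
      rw [h]
      exact H69.ExRN_jd N d.1 (H23.jd N d.1 d.2) (H23.coe_jd N d.1 d.2))
  refine ⟨⟨Φ, ?_, ?_, ?_⟩⟩
  · intro c
    rw [h1, ← IsScalarTower.algebraMap_apply ℂ (RN N) (L N)]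
  · intro d hd
    exact h2 ⟨d, hd⟩
  · intro γ hγ f
    refine h3 (MulSemiringAction.toRingHom SL(2, ℤ) (L N) γ) ?_ ?_ f
    · intro c
      show γ • algebraMap (RN N) (L N) (algebraMap ℂ (RN N) c) = _
      rw [← IsScalarTower.algebraMap_apply ℂ (RN N) (L N)]
      exact smul_algebraMap_complex_L γ c
    · intro d
      exact H23.smul_algebraMap_jd_of_mem_Gamma0 d.2 hγ

/-- the analytic `j` as an element of `RN N` -/
abbrev jR (N : ℕ) [NeZero N] : RN N := H23.jd N 1 (one_dvd N)

theorem jR_apply (N : ℕ) [NeZero N] (z : ℍ) : ((jR N : RN N) : ℍ → ℂ) z = jFun z :=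
  H23.jd_one_apply N z

theorem PhiC.map_jC (P : PhiC N) : P.Φ (jC N) = algebraMap (RN N) (L N) (jR N) :=
  P.map_Jd 1 (one_dvd N)

theorem PhiC.map_const' (P : PhiC N) (c : ℂ) :
    P.Φ (algebraMap ℂ (FC N) c) = algebraMap ℂ (L N) ((RingHom.id ℂ) c) := P.map_const c

/-- `j` is transcendental over `ℂ` in `FC N`. -/
theorem transcendental_jC (P : PhiC N) : Transcendental ℂ (jC N) := by
  intro halg
  obtain ⟨p, hp0, hp⟩ := halg
  have h1 := H89.Phi_aeval (RingHom.id ℂ) P.Φ P.map_const' (jC N) p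
  rw [hp, map_zero, Polynomial.map_id, P.map_jC] at h1
  exact H26.transcendental_jL (jR N) (jR_apply N) ⟨p, hp0, h1.symm⟩

/-- Each generator `j(q^d)` is algebraic over `ℂ(j)`. -/
theorem isAlgebraic_jdC (P : PhiC N) (d : ℕ) (hd : d ∣ N) :
    IsAlgebraic ℂ⟮jC N⟯ (jdC N d hd) := by
  classical
  have hinj : Function.Injective (algebraMap (RN N) (L N)) := IsFractionRing.injective (RN N) (L N)
  have hfix : ∀ γ ∈ Gamma0 N, γ • H23.jd N d hd = H23.jd N d hd := fun γ hγ =>
    H23.smul_jd_of_mem_Gamma0 hd hγ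
  have : Fintype (SL(2, ℤ) ⧸ Gamma0 N) := Fintype.ofFinite _
  obtain ⟨p, hpm, hpf, hpc⟩ := H89.exists_monic_invariant_poly (Gamma0 N) (H23.jd N d hd) hfix
  obtain ⟨n, D, c, hc, hsum⟩ := H89.exists_relation_of_monic (k := ℂ) (jR N) (H23.jd N d hd) p
    hpm hpf (fun i => H26.invariant_RN_eq_aeval (jR N) (jR_apply N) (p.coeff i)
      (fun g => hpc g i))
  have hrel : ∑ t : Fin n × Fin D, c t • (jC N ^ (t.2 : ℕ) * jdC N d hd ^ (t.1 : ℕ)) = 0 := by
    apply P.Φ.injective
    rw [map_sum, map_zero]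
    have h1 := congrArg (algebraMap (RN N) (L N)) hsum
    rw [map_sum, map_zero] at h1
    rw [← h1]
    refine Finset.sum_congr rfl fun t _ => ?_
    rw [Algebra.smul_def, map_mul, map_mul, map_pow, map_pow, P.map_const, P.map_jC, P.map_Jd,
      map_mul, map_mul, map_pow, map_pow, ← IsScalarTower.algebraMap_apply ℂ (RN N) (L N)]
  exact H89.isAlgebraic_adjoin_simple_of_relation (jC N) (jdC N d hd) (transcendental_jC P)
    n D c hc hrel

/-- The function field is generated over `ℂ` by the `j(q^d)`. -/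
theorem adjoin_jdC_eq_top (N : ℕ) [NeZero N] :
    IntermediateField.adjoin ℂ (Set.range fun d : {d : ℕ // d ∣ N} => jdC N d.1 d.2) = ⊤ := by
  apply IntermediateField.lift_injective (laurentBaseChange ℂ (modularFunctionFieldFull N))
  rw [IntermediateField.lift_adjoin, IntermediateField.lift_top]
  have h1 : (Subtype.val '' (Set.range fun d : {d : ℕ // d ∣ N} => jdC N d.1 d.2) :
      Set (LaurentSeries ℂ)) = Set.range (H20.Jd N ℂ) := by
    ext x
    constructor
    · rintro ⟨_, ⟨d, rfl⟩, rfl⟩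
      exact ⟨d, rfl⟩
    · rintro ⟨d, rfl⟩
      exact ⟨jdC N d.1 d.2, ⟨d, rfl⟩, rfl⟩
  rw [h1]
  exact (H20.laurentBaseChange_full_eq_adjoin N ℂ).symm

/-- The function field over `ℂ` is finite over `ℂ(j)`. -/
theorem finite_FC (P : PhiC N) : FiniteDimensional ℂ⟮jC N⟯ (FC N) := by
  set S : Set (FC N) := Set.range fun d : {d : ℕ // d ∣ N} => jdC N d.1 d.2 with hS
  have hfinS : S.Finite := by
    have : Finite {d : ℕ // d ∣ N} :=
      Set.Finite.to_subtype ((Nat.divisors N).finite_toSet.subset fun d hd => by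
        simp only [Finset.mem_coe, Nat.mem_divisors]
        exact ⟨hd, NeZero.ne N⟩)
    exact Set.finite_range _
  have : Finite S := hfinS.to_subtype
  have halg : ∀ y ∈ S, IsIntegral ℂ⟮jC N⟯ y := by
    rintro y ⟨d, rfl⟩
    exact (isAlgebraic_jdC P d.1 d.2).isIntegral
  have h1 : FiniteDimensional ℂ⟮jC N⟯ (IntermediateField.adjoin ℂ⟮jC N⟯ S) :=
    IntermediateField.finiteDimensional_adjoin halg
  have h2 : IntermediateField.adjoin ℂ⟮jC N⟯ S = ⊤ := by
    apply IntermediateField.restrictScalars_injective ℂ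
    rw [IntermediateField.restrictScalars_top, eq_top_iff, ← adjoin_jdC_eq_top N,
      IntermediateField.restrictScalars_adjoin]
    exact IntermediateField.adjoin.mono _ _ _ Set.subset_union_right
  rw [h2] at h1
  exact (IntermediateField.topEquiv (F := ℂ⟮jC N⟯) (E := FC N)).toLinearEquiv.finiteDimensional

end Fermat.Agent.S29.H71
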