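import Mathlib
import Fermat.Agent.S24.PhiRows_helper31
import Fermat.Agent.S29.Cover_helper90
import Fermat.Agent.S29.Bc_helper43
import Fermat.Agent.S29.ModelC_helper71

/-!
# S29, node (C-MODEL): the `ℂ`-instance of `IsCover` and compatibility with `ℚ̄`

For `FC N = laurentBaseChange ℂ (modularFunctionFieldFull N)` and ANY embedding `P : PhiC N`
(i.e. any ring homomorphism `Φ : FC N →+* L N` with the expected values on constants and on the
generators `j(q^d)`, invariant under `Γ₀(N)`):

* `PhiC.isCover`: `H90.IsCover (RingHom.id ℂ) P.Φ (jC N) (jdC N N dvd_rfl)`;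
* `PhiC.Φ_eq`: such an embedding is unique (so there is only one `ℂ`-model);
* `PhiC.map_bc`: compatibility with the `ℚ̄`-embedding of any `Q : PhiData N` along the
  coefficientwise base change `H43.bc` (for the algebra structure `iota.toAlgebra`):
  `P.Φ (bc f) = Q.Φ f`;
* `bc_jBar`, `bc_Jd`: the base change of the generators.
-/

set_option autoImplicit false

open Polynomial IntermediateField UpperHalfPlane CongruenceSubgroup ModularCurve AlgebraicCurve
open scoped MatrixGroups
open Fermat.Agent.S24 Fermat.Agent.S24.H31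

noncomputable section

namespace Fermat.Agent.S29.H71

variable {N : ℕ} [NeZero N]

/-- **(C-MODEL)** the function field over `ℂ` is a cover in the sense of `H90.IsCover`. -/
theorem PhiC.isCover (P : PhiC N) :
    H90.IsCover (RingHom.id ℂ) P.Φ (jC N) (jdC N N dvd_rfl) where
  map_const := P.map_const
  inv := P.inv
  map_j := P.map_jC
  map_jN := P.map_Jd N dvd_rfl
  finite := finite_FC P

/-- Two ring homomorphisms out of a field generated by `S` over `K` which agree on constants and
on `S` are equal. -/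
theorem ringHom_eq_of_adjoin_eq_top {K F L' : Type*} [Field K] [Field F] [Algebra K F]
    [Field L'] (S : Set F) (hS : IntermediateField.adjoin K S = ⊤) (φ ψ : F →+* L')
    (hc : ∀ c : K, φ (algebraMap K F c) = ψ (algebraMap K F c)) (hs : ∀ s ∈ S, φ s = ψ s) :
    φ = ψ := by
  ext f
  have hf : f ∈ IntermediateField.adjoin K S := hS ▸ IntermediateField.mem_top
  induction hf using IntermediateField.adjoin_induction with
  | mem x hx => exact hs x hx
  | algebraMap c => exact hc c
  | add x y _ _ hx hy => rw [map_add, map_add, hx, hy]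
  | mul x y _ _ hx hy => rw [map_mul, map_mul, hx, hy]
  | inv x _ hx => rw [map_inv₀, map_inv₀, hx]

/-- **Uniqueness of the `ℂ`-model**: the embedding is determined by its values on constants and
on the generators `j(q^d)`. -/
theorem PhiC.Φ_eq (P Q : PhiC N) : P.Φ = Q.Φ := by
  refine ringHom_eq_of_adjoin_eq_top (K := ℂ) _ (adjoin_jdC_eq_top N) P.Φ Q.Φ
    (fun c => by rw [P.map_const, Q.map_const]) ?_
  rintro _ ⟨d, rfl⟩
  rw [P.map_Jd, Q.map_Jd]

/-- the same, for a bare ring homomorphism with the expected values on constants and generators -/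
theorem PhiC.Φ_eq_of (P : PhiC N) (Φ : FC N →+* L N)
    (hc : ∀ c : ℂ, Φ (algebraMap ℂ (FC N) c) = algebraMap ℂ (L N) c)
    (hJ : ∀ (d : ℕ) (hd : d ∣ N), Φ (jdC N d hd) = algebraMap (RN N) (L N) (H23.jd N d hd)) :
    Φ = P.Φ := by
  refine ringHom_eq_of_adjoin_eq_top (K := ℂ) _ (adjoin_jdC_eq_top N) Φ P.Φ
    (fun c => by rw [P.map_const, hc]) ?_
  rintro _ ⟨d, rfl⟩
  rw [P.map_Jd, hJ]

/-- a bare ring homomorphism with the expected values on constants and generators is a cover -/
theorem isCover_of_values (Φ : FC N →+* L N)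
    (hc : ∀ c : ℂ, Φ (algebraMap ℂ (FC N) c) = algebraMap ℂ (L N) c)
    (hJ : ∀ (d : ℕ) (hd : d ∣ N), Φ (jdC N d hd) = algebraMap (RN N) (L N) (H23.jd N d hd)) :
    H90.IsCover (RingHom.id ℂ) Φ (jC N) (jdC N N dvd_rfl) := by
  obtain ⟨P⟩ := nonempty_phiC N
  rw [P.Φ_eq_of Φ hc hJ]
  exact P.isCover

/-! ### compatibility with the function field over `ℚ̄` -/

/-- coefficientwise base change `ℚ̄ → ℂ` along `iota` -/
def bcC (N : ℕ) : FN N →+* FC N :=
  letI : Algebra Kbar ℂ := iota.toAlgebra
  H43.bc (K := Kbar) (L := ℂ) (modularFunctionFieldFull N)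

theorem bcC_def (N : ℕ) :
    bcC N = (letI : Algebra Kbar ℂ := iota.toAlgebra
      H43.bc (K := Kbar) (L := ℂ) (modularFunctionFieldFull N)) := rfl

theorem coe_bcC (N : ℕ) (f : FN N) :
    ((bcC N f : FC N) : LaurentSeries ℂ) = coeffMap iota (f : LaurentSeries Kbar) := rfl

theorem bcC_algebraMap (N : ℕ) (c : Kbar) :
    bcC N (algebraMap Kbar (FN N) c) = algebraMap ℂ (FC N) (iota c) := by
  letI : Algebra Kbar ℂ := iota.toAlgebra
  exact H43.bc_algebraMap (K := Kbar) (L := ℂ) (modularFunctionFieldFull N) c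

theorem bcC_Jd (N : ℕ) [NeZero N] (d : ℕ) [NeZero d] (hd : d ∣ N) :
    bcC N (Jd N d hd) = jdC N d hd := by
  apply Subtype.ext
  show coeffMap iota (coeffEmb Kbar (qExpand ℚ d jq)) = H20.Jd N ℂ ⟨d, hd⟩
  rw [H20.Jd_eq, coeffEmb, coeffEmb, coeffMap_coeffMap]
  exact coeffMap_congr (RingHom.ext fun c => by simp) _

theorem bcC_jBar (N : ℕ) [NeZero N] : bcC N (jBar N) = jC N := by
  rw [← Jd_one, bcC_Jd]
  rfl

/-- **Compatibility.** The `ℂ`-embedding restricted along the base change is the `ℚ̄`-embedding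
of any `PhiData`. -/
theorem PhiC.map_bcC (P : PhiC N) (Q : PhiData N) (f : FN N) : P.Φ (bcC N f) = Q.Φ f := by
  have h := ringHom_eq_of_adjoin_eq_top (K := Kbar) (JdSet N) (H89.adjoin_JdSet_eq_top N)
    (P.Φ.comp (bcC N)) Q.Φ
    (fun c => by
      rw [RingHom.comp_apply, bcC_algebraMap, P.map_const, Q.map_const])
    (by
      rintro _ ⟨d, hd0, hd, rfl⟩
      rw [RingHom.comp_apply, bcC_Jd, P.map_Jd, Phi_Jd Q d hd])
  exact congrArg (fun φ : FN N →+* L N => φ f) h

/-- **Compatibility**, in terms of `H43.bc` with the algebra structure `iota.toAlgebra`. -/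
theorem PhiC.map_bc (P : PhiC N) (Q : PhiData N) (f : FN N) :
    letI : Algebra Kbar ℂ := iota.toAlgebra
    P.Φ (H43.bc (K := Kbar) (L := ℂ) (modularFunctionFieldFull N) f) = Q.Φ f :=
  P.map_bcC Q f

end Fermat.Agent.S29.H71
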