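import Mathlib
import Fermat.Agent.S29.CoverC_helper71
import Fermat.Agent.S29.ConstPlaceBar_helper23

/-!
# S29, descent, place level: `F̄_N → F_ℂ` in the vocabulary of the ℂ-model (helper23)

The results of `ConstPlaceBar_helper23` for `L = ℂ` with the algebra structure
`S24.H31.iota.toAlgebra`, stated with the closed terms `H71.FC N` and `H71.bcC N` of the landed
ℂ-model (no instance argument left):

* `exists_place_bcC` : above every place `v` of `F̄_N` there is a place `w` of `F_ℂ / ℂ` with
  `w.ord (bcC f) = v.ord f`;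
* `ord_bcC_cases` : every place of `F_ℂ` has, on `bcC F̄_N`, order zero or the order of a place
  of `F̄_N`;
* `dvd_ord_of_forall_dvd_bcC`, `dvd_ord_bcC_of_forall_dvd` : divisibility of all orders passes
  between `f` and `bcC f`.
-/

set_option autoImplicit false
set_option linter.style.haveILetI false

namespace Fermat.Agent.S29.H23

open AlgebraicCurve ModularCurve Fermat.Agent.S24 Fermat.Agent.S24.H31

section ModelC

variable (N : ℕ) [NeZero N]

/-- **(CD-C)** for the ℂ-model. -/
theorem exists_place_bcC (v : Place Kbar (FN N)) :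
    ∃ w : Place ℂ (H71.FC N),
      w.toValuationSubring.comap (H71.bcC N) = v.toValuationSubring ∧
        ∀ f : FN N, w.ord (H71.bcC N f) = v.ord f :=
  letI : Algebra Kbar ℂ := iota.toAlgebra
  exists_place_bc_bar (L := ℂ) N v

theorem ord_bcC_cases (w : Place ℂ (H71.FC N)) :
    (∀ f : FN N, w.ord (H71.bcC N f) = 0) ∨
      ∃ v : Place Kbar (FN N),
        w.toValuationSubring.comap (H71.bcC N) = v.toValuationSubring ∧
          ∀ f : FN N, w.ord (H71.bcC N f) = v.ord f :=
  letI : Algebra Kbar ℂ := iota.toAlgebra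
  ord_bc_bar_cases (L := ℂ) N w

/-- the literal need of (PSI-ASM), clause 2 -/
theorem dvd_ord_of_forall_dvd_bcC (m : ℤ) (f0 : FN N)
    (h : ∀ w : Place ℂ (H71.FC N), m ∣ w.ord (H71.bcC N f0)) (v : Place Kbar (FN N)) :
    m ∣ v.ord f0 :=
  letI : Algebra Kbar ℂ := iota.toAlgebra
  dvd_ord_bar_of_forall_dvd_bc (L := ℂ) N m f0 h v

theorem dvd_ord_bcC_of_forall_dvd (m : ℤ) (f0 : FN N)
    (h : ∀ v : Place Kbar (FN N), m ∣ v.ord f0) (w : Place ℂ (H71.FC N)) :
    m ∣ w.ord (H71.bcC N f0) :=
  letI : Algebra Kbar ℂ := iota.toAlgebra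
  dvd_ord_bc_of_forall_dvd_bar (L := ℂ) N m f0 h w

/-- uniqueness of the place of `F_ℂ` above a place of `F̄_N` -/
theorem place_bcC_unique (w w' : Place ℂ (H71.FC N)) (v : Place Kbar (FN N))
    (hw : w.toValuationSubring.comap (H71.bcC N) = v.toValuationSubring)
    (hw' : w'.toValuationSubring.comap (H71.bcC N) = v.toValuationSubring) : w = w' :=
  letI : Algebra Kbar ℂ := iota.toAlgebra
  place_bc_unique_bar (L := ℂ) N w w' v hw hw'

end ModelC

end Fermat.Agent.S29.H23
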