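import Mathlib

/-!
# Elements with a finite orbit under `Aut(K/k)` are algebraic (helper75)

`K` algebraically closed, `k` an infinite subfield.  If `c : K` is transcendental over `k`, then for
every `a : k` there is a `k`-automorphism of `K` sending `c` to `c + a`; hence the orbit of a
transcendental element under `K ≃ₐ[k] K` is infinite, and an element with a finite orbit is
algebraic over `k` (and lies in `k` when `k` is algebraically closed).

Mathlib only.
-/

set_option autoImplicit false

namespace Fermat.Agent.S29.H75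

open MvPolynomial

section Shift

variable {ι R : Type*} [CommRing R]

/-- The translation automorphism `X i ↦ X i + C (t i)` of a polynomial ring. -/
noncomputable def shiftEquiv (t : ι → R) : MvPolynomial ι R ≃ₐ[R] MvPolynomial ι R :=
  AlgEquiv.ofAlgHom (aeval fun i => X i + C (t i)) (aeval fun i => X i - C (t i))
    (by ext i; simp) (by ext i; simp)

@[simp] theorem shiftEquiv_X (t : ι → R) (i : ι) : shiftEquiv t (X i) = X i + C (t i) := by
  simp [shiftEquiv]

end Shift

variable {k K : Type*} [Field k] [Field K] [Algebra k K]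

/-- A transcendental element of an algebraically closed field can be translated by any constant
by an automorphism over the base field. -/
theorem exists_algEquiv_apply_eq_add [IsAlgClosed K] {c : K} (hc : Transcendental k c) (a : k) :
    ∃ σ : K ≃ₐ[k] K, σ c = c + algebraMap k K a := by
  classical
  have hs : AlgebraicIndepOn k id ({c} : Set K) := by
    have : Subsingleton ({c} : Set K) := inferInstance
    exact (algebraicIndependent_singleton_iff (R := k) (x := fun i : ({c} : Set K) => id (i : K))
      ⟨c, rfl⟩).mpr hc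
  obtain ⟨B, hcB, hB⟩ := exists_isTranscendenceBasis_superset hs
  have hcB' : c ∈ B := hcB rfl
  let _ := IsAlgClosed.isAlgClosure_of_transcendence_basis ((↑) : B → K) hB
  let t : B → k := fun b => if (b : K) = c then a else 0
  let e : Algebra.adjoin k (Set.range ((↑) : B → K)) ≃ₐ[k]
      Algebra.adjoin k (Set.range ((↑) : B → K)) :=
    (hB.1.aevalEquiv.symm.trans (shiftEquiv t)).trans hB.1.aevalEquiv
  let σ₀ : K ≃+* K := IsAlgClosure.equivOfEquiv K K e.toRingEquiv
  have hσ₀ : ∀ y : Algebra.adjoin k (Set.range ((↑) : B → K)),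
      σ₀ (algebraMap _ K y) = algebraMap _ K (e y) :=
    fun y => IsAlgClosure.equivOfEquiv_algebraMap K K e.toRingEquiv y
  have hk : ∀ x : k, σ₀ (algebraMap k K x) = algebraMap k K x := by
    intro x
    have h1 : algebraMap k K x = algebraMap (Algebra.adjoin k (Set.range ((↑) : B → K))) K
        (algebraMap k _ x) := rfl
    rw [h1, hσ₀, e.commutes]
  refine ⟨{ σ₀ with commutes' := hk }, ?_⟩
  show σ₀ c = c + algebraMap k K a
  have h2 : c = algebraMap (Algebra.adjoin k (Set.range ((↑) : B → K))) K
      (hB.1.aevalEquiv (X ⟨c, hcB'⟩)) := by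
    rw [hB.1.algebraMap_aevalEquiv, aeval_X]
  have h3 : e (hB.1.aevalEquiv (X ⟨c, hcB'⟩)) =
      hB.1.aevalEquiv (X ⟨c, hcB'⟩ + C a) := by
    simp [e, t]
  conv_lhs => rw [h2]
  rw [hσ₀, h3, hB.1.algebraMap_aevalEquiv, map_add, aeval_X, aeval_C]

/-- The orbit of a transcendental element under `Aut(K/k)` is infinite (`k` infinite). -/
theorem infinite_orbit_of_transcendental [IsAlgClosed K] [Infinite k] {c : K}
    (hc : Transcendental k c) : (Set.range fun σ : K ≃ₐ[k] K => σ c).Infinite := by
  have hinj : Function.Injective fun a : k => c + algebraMap k K a := fun a b h =>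
    (algebraMap k K).injective (add_left_cancel h)
  refine Set.Infinite.mono ?_ (Set.infinite_range_of_injective hinj)
  rintro _ ⟨a, rfl⟩
  obtain ⟨σ, hσ⟩ := exists_algEquiv_apply_eq_add hc a
  exact ⟨σ, hσ⟩

/-- **Finite orbit ⟹ algebraic.** -/
theorem isAlgebraic_of_finite_orbit [IsAlgClosed K] [Infinite k] {c : K}
    (h : (Set.range fun σ : K ≃ₐ[k] K => σ c).Finite) : IsAlgebraic k c := by
  by_contra hc
  exact infinite_orbit_of_transcendental (k := k) hc h

/-- The same for a subgroup of finite index: an element fixed by a finite-index subgroup of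
`Aut(K/k)` is algebraic over `k`. -/
theorem isAlgebraic_of_fixed_by_finiteIndex [IsAlgClosed K] [Infinite k]
    (H : Subgroup (K ≃ₐ[k] K)) [H.FiniteIndex] {c : K} (hH : ∀ σ ∈ H, σ c = c) :
    IsAlgebraic k c := by
  apply isAlgebraic_of_finite_orbit
  -- the orbit map factors through the finite quotient `G ⧸ H`
  have hfin : Finite ((K ≃ₐ[k] K) ⧸ H) := Subgroup.finite_quotient_of_finiteIndex
  let f : (K ≃ₐ[k] K) ⧸ H → K := Quotient.lift (s := QuotientGroup.leftRel H)
    (fun σ : K ≃ₐ[k] K => σ c) (by
      intro σ τ hστ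
      have h1 : σ⁻¹ * τ ∈ H := QuotientGroup.leftRel_apply.mp hστ
      have h2 := hH _ h1
      show σ c = τ c
      have h3 : (σ⁻¹ * τ) c = σ⁻¹ (τ c) := rfl
      rw [h3] at h2
      have h4 := congrArg σ h2
      rw [← AlgEquiv.mul_apply, mul_inv_cancel, AlgEquiv.one_apply] at h4
      exact h4.symm)
  refine (Set.finite_range f).subset ?_
  rintro _ ⟨σ, rfl⟩
  exact ⟨QuotientGroup.mk σ, rfl⟩

/-- If moreover `k` is algebraically closed, the element comes from `k`. -/
theorem mem_range_of_fixed_by_finiteIndex [IsAlgClosed K] [IsAlgClosed k]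
    (H : Subgroup (K ≃ₐ[k] K)) [H.FiniteIndex] {c : K} (hH : ∀ σ ∈ H, σ c = c) :
    c ∈ Set.range (algebraMap k K) := by
  have : Infinite k := IsAlgClosed.instInfinite
  have halg : IsAlgebraic k c := isAlgebraic_of_fixed_by_finiteIndex H hH
  have hdeg : (minpoly k c).degree = 1 :=
    IsAlgClosed.degree_eq_one_of_irreducible k (minpoly.irreducible halg.isIntegral)
  exact minpoly.mem_range_of_degree_eq_one k c hdeg

/-- Finite orbit under `Aut(K/k)` with `k` algebraically closed: the element comes from `k`. -/
theorem mem_range_of_finite_orbit [IsAlgClosed K] [IsAlgClosed k] {c : K}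
    (h : (Set.range fun σ : K ≃ₐ[k] K => σ c).Finite) : c ∈ Set.range (algebraMap k K) := by
  have : Infinite k := IsAlgClosed.instInfinite
  have halg : IsAlgebraic k c := isAlgebraic_of_finite_orbit h
  have hdeg : (minpoly k c).degree = 1 :=
    IsAlgClosed.degree_eq_one_of_irreducible k (minpoly.irreducible halg.isIntegral)
  exact minpoly.mem_range_of_degree_eq_one k c hdeg

/-- The `MulAction.orbit` form of `isAlgebraic_of_finite_orbit`. -/
theorem isAlgebraic_of_finite_mulAction_orbit [IsAlgClosed K] [Infinite k] {c : K}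
    (h : (MulAction.orbit (K ≃ₐ[k] K) c).Finite) : IsAlgebraic k c :=
  isAlgebraic_of_finite_orbit h

/-- A transcendental element is moved by some automorphism in every finite-index subgroup. -/
theorem exists_mem_ne_of_transcendental [IsAlgClosed K] [Infinite k]
    (H : Subgroup (K ≃ₐ[k] K)) [H.FiniteIndex] {c : K} (hc : Transcendental k c) :
    ∃ σ ∈ H, σ c ≠ c := by
  by_contra hcon
  exact hc (isAlgebraic_of_fixed_by_finiteIndex H fun σ hσ =>
    by_contra fun h => hcon ⟨σ, hσ, h⟩)

end Fermat.Agent.S29.H75
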