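import Mathlib
import Fermat.Agent.S29.CoeffDesc_helper43
import Fermat.Agent.S29.AutOrbit_helper75

/-!
# Functions with a stable divisor are constant × rational (helper43)

S29, descent node (DE), leaves (CD-B) and (CD-B').

`K ⊆ L` algebraically closed fields, `FK ⊆ K((q))` a subfield containing `K`, and
`FL := L · ι(FK) ⊆ L((q))`.

* `exists_C_mul_of_stab_adjoin` / `exists_C_mul_of_stab` **(CD-B)**: if `h ∈ FL` is nonzero and
  every `τ` in a finite-index subgroup of `Aut(L/K)` maps `h` (coefficientwise) to a constant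
  multiple of itself, then `h = c · ι(h₀)` with `c ∈ Lˣ` and `h₀ ∈ FK`.
* `pow_descent_adjoin` / `pow_descent` **(CD-B')**: if `ι(h₀) = r ^ m` with `h₀ ∈ K((q))`,
  `r ∈ FL`, `m ≠ 0`, then `h₀ = r₀ ^ m` with `r₀ ∈ FK`.
-/

set_option autoImplicit false

noncomputable section

namespace Fermat.Agent.S29.H43

open ModularCurve

variable {K L : Type*} [Field K] [Field L] [Algebra K L]

theorem coeffMap_C_end (φ : L →+* L) (c : L) :
    coeffMap φ (HahnSeries.C c : LaurentSeries L) = HahnSeries.C (φ c) := by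
  rw [show (HahnSeries.C c : LaurentSeries L) = HahnSeries.single 0 c from rfl, coeffMap_single]
  rfl

/-- a Laurent series over `L` with all coefficients in `K` is a base change -/
theorem exists_coeffMap_eq (h : LaurentSeries L)
    (hc : ∀ n : ℤ, h.coeff n ∈ Set.range (algebraMap K L)) :
    ∃ x₀ : LaurentSeries K, coeffMap (algebraMap K L) x₀ = h := by
  classical
  let g : ZeroHom L K :=
    { toFun := fun c => if hc : c ∈ Set.range (algebraMap K L) then hc.choose else 0
      map_zero' := by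
        have h0 : (0 : L) ∈ Set.range (algebraMap K L) := ⟨0, map_zero _⟩
        rw [dif_pos h0]
        exact (algebraMap K L).injective (by rw [h0.choose_spec, map_zero]) }
  refine ⟨h.map g, ?_⟩
  ext n
  rw [coeffMap_coeff, HahnSeries.map_coeff]
  show algebraMap K L (if hc : h.coeff n ∈ Set.range (algebraMap K L) then hc.choose else 0) = _
  rw [dif_pos (hc n)]
  exact (hc n).choose_spec

/-- **(CD-B)**, generic form. -/
theorem exists_C_mul_of_stab_adjoin [IsAlgClosed K] [IsAlgClosed L]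
    (FK : IntermediateField K (LaurentSeries K))
    (H : Subgroup (L ≃ₐ[K] L)) [H.FiniteIndex] (h : LaurentSeries L)
    (hh : h ∈ IntermediateField.adjoin L
      (⇑(coeffMap (algebraMap K L)) '' (FK : Set (LaurentSeries K))))
    (h0 : h ≠ 0)
    (hH : ∀ τ ∈ H, ∃ c : L, coeffMap (τ : L →+* L) h = HahnSeries.C c * h) :
    ∃ c : L, c ≠ 0 ∧ ∃ h₀ ∈ FK, h = HahnSeries.C c * coeffMap (algebraMap K L) h₀ := by
  set n := h.order with hn
  set a := h.coeff n with ha
  have ha0 : a ≠ 0 := fun h3 => h0 (HahnSeries.coeff_order_eq_zero.mp h3)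
  set h' : LaurentSeries L := HahnSeries.C a⁻¹ * h with hh'
  have hfix : ∀ τ ∈ H, coeffMap (τ : L →+* L) h' = h' := by
    intro τ hτ
    obtain ⟨c, hc⟩ := hH τ hτ
    have h1 : τ a = c * a := by
      have := congrArg (fun y => y.coeff n) hc
      simpa [coeff_C_mul] using this
    have h2 : c = τ a * a⁻¹ := by
      rw [h1, mul_assoc, mul_inv_cancel₀ ha0, mul_one]
    rw [hh', map_mul, coeffMap_C_end, hc, ← mul_assoc, ← map_mul]
    congr 2
    show τ a⁻¹ * c = a⁻¹
    rw [h2, map_inv₀, ← mul_assoc, inv_mul_cancel₀ (by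
      intro h3
      exact ha0 (τ.injective (by rw [h3, map_zero]))), one_mul]
  have hcoeff : ∀ m : ℤ, h'.coeff m ∈ Set.range (algebraMap K L) := by
    intro m
    refine H75.mem_range_of_fixed_by_finiteIndex H fun τ hτ => ?_
    have := congrArg (fun y => y.coeff m) (hfix τ hτ)
    simpa using this
  obtain ⟨x₀, hx₀⟩ := exists_coeffMap_eq h' hcoeff
  have hmem : h' ∈ IntermediateField.adjoin L
      (⇑(coeffMap (algebraMap K L)) '' (FK : Set (LaurentSeries K))) := by
    rw [hh', ← algebraMap_eq_C]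
    exact mul_mem (IntermediateField.algebraMap_mem _ _) hh
  refine ⟨a, ha0, x₀, mem_of_coeffMap_mem_adjoin FK x₀ (by rw [hx₀]; exact hmem), ?_⟩
  rw [hx₀, hh', ← mul_assoc, ← map_mul, mul_inv_cancel₀ ha0, map_one, one_mul]

/-- an `m`-th root of unity in `L((q))` is a constant (`L` algebraically closed) -/
theorem exists_C_eq_of_pow_eq_one [IsAlgClosed L] {u : LaurentSeries L} {m : ℕ} (hm : m ≠ 0)
    (hu : u ^ m = 1) : ∃ ζ : L, u = HahnSeries.C ζ := by
  have hint : IsIntegral L u :=
    IsIntegral.of_pow (Nat.pos_of_ne_zero hm) (by rw [hu]; exact isIntegral_one)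
  have hdeg : (minpoly L u).degree = 1 :=
    IsAlgClosed.degree_eq_one_of_irreducible L (minpoly.irreducible hint)
  obtain ⟨ζ, hζ⟩ := minpoly.mem_range_of_degree_eq_one L u hdeg
  exact ⟨ζ, by rw [← hζ, algebraMap_eq_C]⟩

/-- **(CD-B')**, generic form: Kummer classes inject under base change. -/
theorem pow_descent_adjoin [IsAlgClosed K] [IsAlgClosed L]
    (FK : IntermediateField K (LaurentSeries K)) {m : ℕ} (hm : m ≠ 0)
    {h₀ : LaurentSeries K} {r : LaurentSeries L}
    (hr : r ∈ IntermediateField.adjoin L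
      (⇑(coeffMap (algebraMap K L)) '' (FK : Set (LaurentSeries K))))
    (h : coeffMap (algebraMap K L) h₀ = r ^ m) :
    ∃ r₀ ∈ FK, h₀ = r₀ ^ m := by
  by_cases hr0 : r = 0
  · refine ⟨0, FK.zero_mem, ?_⟩
    rw [hr0, zero_pow hm] at h
    rw [zero_pow hm]
    exact coeffMap_injective (L := L) (by rw [h, map_zero])
  · have hstab : ∀ τ ∈ (⊤ : Subgroup (L ≃ₐ[K] L)), ∃ c : L,
        coeffMap (τ : L →+* L) r = HahnSeries.C c * r := by
      intro τ _
      have h1 : (coeffMap (τ : L →+* L) r) ^ m = r ^ m := by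
        rw [← map_pow, ← h, coeffMap_coeffMap]
        exact coeffMap_congr (RingHom.ext fun c => τ.commutes c) h₀
      have h2 : (coeffMap (τ : L →+* L) r / r) ^ m = 1 := by
        rw [div_pow, h1, div_self (pow_ne_zero m hr0)]
      obtain ⟨ζ, hζ⟩ := exists_C_eq_of_pow_eq_one hm h2
      exact ⟨ζ, by rw [← hζ, div_mul_cancel₀ _ hr0]⟩
    obtain ⟨c, hc0, r₁, hr₁, hrr⟩ := exists_C_mul_of_stab_adjoin FK ⊤ r hr hr0 hstab
    have hr₁0 : r₁ ≠ 0 := by
      rintro rfl
      exact hr0 (by rw [hrr, map_zero, mul_zero])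
    -- `y := h₀ / r₁ ^ m` is the constant `c ^ m`
    set y : LaurentSeries K := h₀ / r₁ ^ m with hy
    have hy1 : coeffMap (algebraMap K L) y = HahnSeries.C (c ^ m) := by
      rw [hy, map_div₀, h, hrr, mul_pow, map_pow, map_pow,
        mul_div_cancel_right₀ _ (pow_ne_zero m (by
          intro h3
          exact hr₁0 (coeffMap_injective (L := L) (by rw [h3, map_zero]))))]
    have hy2 : y = HahnSeries.C (y.coeff 0) := by
      ext n
      have h4 := congrArg (fun z => z.coeff n) hy1
      simp only [coeffMap_coeff] at h4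
      rw [show (HahnSeries.C (y.coeff 0) : LaurentSeries K) = HahnSeries.single 0 (y.coeff 0)
        from rfl]
      rw [show (HahnSeries.C (c ^ m) : LaurentSeries L) = HahnSeries.single 0 (c ^ m)
        from rfl] at h4
      rcases eq_or_ne n 0 with rfl | hn
      · rw [HahnSeries.coeff_single_same]
      · rw [HahnSeries.coeff_single_of_ne hn] at h4 ⊢
        exact (algebraMap K L).injective (by rw [h4, map_zero])
    obtain ⟨k₁, hk₁⟩ := IsAlgClosed.exists_pow_nat_eq (y.coeff 0) (Nat.pos_of_ne_zero hm)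
    refine ⟨HahnSeries.C k₁ * r₁, FK.mul_mem (C_mem FK k₁) hr₁, ?_⟩
    rw [mul_pow, ← map_pow, hk₁, ← hy2, hy, div_mul_cancel₀ _ (pow_ne_zero m hr₁0)]

section BaseChange

variable [Algebra ℚ K] [Algebra ℚ L] (F₀ : IntermediateField ℚ (LaurentSeries ℚ))

/-- **(CD-B)** a nonzero function of `F_L` which every `τ` in a finite-index subgroup of
`Aut(L/K)` maps to a constant multiple of itself is a constant times a function of `F_K`. -/
theorem exists_C_mul_of_stab [IsAlgClosed K] [IsAlgClosed L]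
    (H : Subgroup (L ≃ₐ[K] L)) [H.FiniteIndex] (h : LaurentSeries L)
    (hh : h ∈ laurentBaseChange L F₀) (h0 : h ≠ 0)
    (hH : ∀ τ ∈ H, ∃ c : L, coeffMap (τ : L →+* L) h = HahnSeries.C c * h) :
    ∃ c : L, c ≠ 0 ∧ ∃ h₀ ∈ laurentBaseChange K F₀,
      h = HahnSeries.C c * coeffMap (algebraMap K L) h₀ :=
  exists_C_mul_of_stab_adjoin _ H h (laurentBaseChange_le_adjoin F₀ hh) h0 hH

/-- **(CD-B')** if the base change of `h₀ ∈ K((q))` is an `m`-th power in `F_L`, then `h₀` is
an `m`-th power in `F_K`. -/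
theorem pow_descent [IsAlgClosed K] [IsAlgClosed L] {m : ℕ} (hm : m ≠ 0)
    {h₀ : LaurentSeries K} {r : LaurentSeries L}
    (hr : r ∈ laurentBaseChange L F₀) (h : coeffMap (algebraMap K L) h₀ = r ^ m) :
    ∃ r₀ ∈ laurentBaseChange K F₀, h₀ = r₀ ^ m :=
  pow_descent_adjoin _ hm (laurentBaseChange_le_adjoin F₀ hr) h

end BaseChange

end Fermat.Agent.S29.H43
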