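import Mathlib
import Fermat.Prelude.Def_ModularCurve_ArithmeticGalois
import Fermat.Agent.S29.Bc_helper43
import Fermat.Agent.S29.CoeffStab_helper43

/-!
# Descent glue: semi-invariant Kummer generators are rational (helper43)

S29, descent node (DE): the group-theoretic glue between the canonical section (CAN), the
finiteness of Kummer classes (KC4) and the coefficient descent (CD-B), in the vocabulary of the
Prelude (`SemilinearAut`, `arithmeticGalois`) on the subtypes `↥(laurentBaseChange _ F₀)`.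

`K ⊆ L` algebraically closed, `FK := laurentBaseChange K F₀`, `FL := laurentBaseChange L F₀`,
`gal F₀ τ : SemilinearAut L FL` the coefficientwise action of `τ : L ≃ₐ[K] L`.

* `gal_smul_bc` : `gal F₀ τ • bc F₀ y = bc F₀ y` (rational functions are fixed);
* `exists_algebraMap_mul_bc_of_stab` : (CD-B) on subtypes;
* `bc_pow_descent`, `bc_pow_descent'` : (CD-B') on subtypes (with / without a constant);
* `kumStabAux`, `kumStabAux_finiteIndex` : the stabiliser of a Kummer class (modulo constants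
  and `m`-th powers) is a subgroup, of finite index when the conjugates take finitely many
  values modulo `m`-th powers (abstract: any group acting on a field);
* `desc_glue` / `desc_glue'` : if the Kummer classes of the conjugates `gal τ • f` take finitely
  many values and `f * s ^ m` is semi-invariant under every `τ` stabilising the class of `f`,
  then `f = c · bc f0 · u ^ m` with `f0 ∈ FK`.
-/

set_option autoImplicit false

noncomputable section

namespace Fermat.Agent.S29.H43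

open ModularCurve AlgebraicCurve

section

variable {K L : Type*} [Field K] [Field L] [Algebra K L] [Algebra ℚ K] [Algebra ℚ L]
  [IsScalarTower ℚ K L]
variable (F₀ : IntermediateField ℚ (LaurentSeries ℚ))

/-- the coefficientwise action of `Aut(L/K)` on `F_L` -/
def gal : (L ≃ₐ[K] L) →* SemilinearAut L ↥(laurentBaseChange L F₀) :=
  (arithmeticGalois F₀).comp (AlgEquiv.restrictScalarsHom ℚ)

theorem gal_apply (τ : L ≃ₐ[K] L) :
    gal F₀ τ = arithmeticGalois F₀ (τ.restrictScalars ℚ) := rfl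

@[simp]
theorem coe_gal_smul (τ : L ≃ₐ[K] L) (x : ↥(laurentBaseChange L F₀)) :
    ((gal F₀ τ • x : ↥(laurentBaseChange L F₀)) : LaurentSeries L) =
      coeffMap (τ : L →+* L) (x : LaurentSeries L) :=
  rfl

theorem gal_smul_algebraMap (τ : L ≃ₐ[K] L) (c : L) :
    gal F₀ τ • algebraMap L ↥(laurentBaseChange L F₀) c =
      algebraMap L ↥(laurentBaseChange L F₀) (τ c) := by
  apply Subtype.ext
  rw [coe_gal_smul]
  show coeffMap (τ : L →+* L) (algebraMap L (LaurentSeries L) c) =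
    algebraMap L (LaurentSeries L) (τ c)
  rw [algebraMap_eq_C, algebraMap_eq_C, coeffMap_C_end]
  rfl

/-- functions coming from `F_K` are fixed by `Aut(L/K)` -/
theorem gal_smul_bc (τ : L ≃ₐ[K] L) (y : ↥(laurentBaseChange K F₀)) :
    gal F₀ τ • bc F₀ y = bc (L := L) F₀ y := by
  apply Subtype.ext
  rw [coe_gal_smul, coe_bc, coeffMap_coeffMap]
  exact coeffMap_congr (RingHom.ext fun c => τ.commutes c) _

theorem coe_algebraMap_mul (c : L) (h : ↥(laurentBaseChange L F₀)) :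
    ((algebraMap L ↥(laurentBaseChange L F₀) c * h : ↥(laurentBaseChange L F₀)) :
      LaurentSeries L) = HahnSeries.C c * (h : LaurentSeries L) := by
  rw [← algebraMap_eq_C]
  rfl

variable [IsAlgClosed K] [IsAlgClosed L]

/-- **(CD-B)** on subtypes, in the `SemilinearAut` vocabulary. -/
theorem exists_algebraMap_mul_bc_of_stab (H : Subgroup (L ≃ₐ[K] L)) [H.FiniteIndex]
    (h : ↥(laurentBaseChange L F₀)) (h0 : h ≠ 0)
    (hH : ∀ τ ∈ H, ∃ c : L, gal F₀ τ • h = algebraMap L ↥(laurentBaseChange L F₀) c * h) :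
    ∃ c : L, c ≠ 0 ∧ ∃ h₀ : ↥(laurentBaseChange K F₀),
      h = algebraMap L ↥(laurentBaseChange L F₀) c * bc F₀ h₀ := by
  obtain ⟨c, hc, h₀, hh₀, hEq⟩ := exists_C_mul_of_stab (K := K) F₀ H (h : LaurentSeries L) h.2
    (fun h1 => h0 (Subtype.ext h1)) (fun τ hτ => by
      obtain ⟨c, hc⟩ := hH τ hτ
      refine ⟨c, ?_⟩
      have h2 := congrArg (fun z : ↥(laurentBaseChange L F₀) => (z : LaurentSeries L)) hc
      simp only [coe_gal_smul, coe_algebraMap_mul] at h2
      exact h2)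
  refine ⟨c, hc, ⟨h₀, hh₀⟩, Subtype.ext ?_⟩
  rw [coe_algebraMap_mul, coe_bc]
  exact hEq

omit [IsScalarTower ℚ K L] in
/-- **(CD-B')** on subtypes. -/
theorem bc_pow_descent {m : ℕ} (hm : m ≠ 0) (h₀ : ↥(laurentBaseChange K F₀))
    (r : ↥(laurentBaseChange L F₀)) (h : bc F₀ h₀ = r ^ m) :
    ∃ r₀ : ↥(laurentBaseChange K F₀), h₀ = r₀ ^ m := by
  obtain ⟨r₀, hr₀, hEq⟩ := pow_descent (K := K) (L := L) F₀ hm (h₀ := (h₀ : LaurentSeries K))
    (r := (r : LaurentSeries L)) r.2 (by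
      have h2 := congrArg (fun z : ↥(laurentBaseChange L F₀) => (z : LaurentSeries L)) h
      simpa using h2)
  exact ⟨⟨r₀, hr₀⟩, Subtype.ext (by simpa using hEq)⟩

omit [IsScalarTower ℚ K L] in
/-- **(CD-B')** on subtypes, up to a constant of `L`. -/
theorem bc_pow_descent' {m : ℕ} (hm : m ≠ 0) (h₀ : ↥(laurentBaseChange K F₀)) (c : L)
    (r : ↥(laurentBaseChange L F₀))
    (h : bc F₀ h₀ = algebraMap L ↥(laurentBaseChange L F₀) c * r ^ m) :
    ∃ r₀ : ↥(laurentBaseChange K F₀), h₀ = r₀ ^ m := by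
  obtain ⟨c₁, hc₁⟩ := IsAlgClosed.exists_pow_nat_eq c (Nat.pos_of_ne_zero hm)
  refine bc_pow_descent F₀ hm h₀ (algebraMap L ↥(laurentBaseChange L F₀) c₁ * r) ?_
  rw [h, mul_pow, ← map_pow, hc₁]

end

section Abstract

/-! ### The stabiliser of a Kummer class, abstractly -/

variable {G L₀ F : Type*} [Group G] [Field L₀] [Field F]
  (ρ : G →* RingAut F) (θ : G →* RingAut L₀) (a : L₀ →+* F)

/-- the stabiliser of the class of `f` modulo constants and `m`-th powers -/
def kumStabAux (ha : ∀ (g : G) (c : L₀), ρ g (a c) = a (θ g c)) (m : ℕ) (f : F) :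
    Subgroup G where
  carrier := {g | ∃ (c : L₀) (u : F), c ≠ 0 ∧ u ≠ 0 ∧ ρ g f = a c * f * u ^ m}
  one_mem' := ⟨1, 1, one_ne_zero, one_ne_zero, by
    rw [map_one, RingAut.one_apply, map_one, one_mul, one_pow, mul_one]⟩
  mul_mem' := by
    rintro g₁ g₂ ⟨c₁, u₁, hc₁, hu₁, h₁⟩ ⟨c₂, u₂, hc₂, hu₂, h₂⟩
    refine ⟨θ g₁ c₂ * c₁, u₁ * ρ g₁ u₂, mul_ne_zero ((map_ne_zero _).mpr hc₂) hc₁,
      mul_ne_zero hu₁ ((map_ne_zero _).mpr hu₂), ?_⟩
    rw [map_mul ρ, RingAut.mul_apply, h₂, map_mul, map_mul, map_pow, h₁, ha, map_mul a, mul_pow]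
    ring
  inv_mem' := by
    rintro g ⟨c, u, hc, hu, h⟩
    have h1 : f = ρ g⁻¹ (a c * f * u ^ m) := by
      rw [← h, ← RingAut.mul_apply, ← map_mul ρ, inv_mul_cancel, map_one, RingAut.one_apply]
    rw [map_mul, map_mul, map_pow, ha] at h1
    have hc' : θ g⁻¹ c ≠ 0 := (map_ne_zero _).mpr hc
    have hu' : ρ g⁻¹ u ≠ 0 := (map_ne_zero _).mpr hu
    have hac : a (θ g⁻¹ c) ≠ 0 := (map_ne_zero a).mpr hc'
    refine ⟨(θ g⁻¹ c)⁻¹, (ρ g⁻¹ u)⁻¹, inv_ne_zero hc', inv_ne_zero hu', ?_⟩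
    rw [map_inv₀, inv_pow]
    field_simp
    rw [mul_comm (ρ g⁻¹ f)]
    exact h1.symm

theorem kumStabAux_finiteIndex (ha : ∀ (g : G) (c : L₀), ρ g (a c) = a (θ g c)) (m : ℕ) (f : F)
    (S : Finset F)
    (hS : ∀ g : G, ∃ s ∈ S, ∃ w : F, w ≠ 0 ∧ ρ g f = s * w ^ m) :
    (kumStabAux ρ θ a ha m f).FiniteIndex := by
  classical
  choose φ hφS w hw hφ using hS
  let ψ : G ⧸ kumStabAux ρ θ a ha m f → S := fun q => ⟨φ q.out, hφS q.out⟩
  have hψ : Function.Injective ψ := by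
    intro q q' hqq
    have h1 : φ q.out = φ q'.out := congrArg Subtype.val hqq
    rw [← QuotientGroup.out_eq' q, ← QuotientGroup.out_eq' q', QuotientGroup.eq]
    set τ := q.out
    set τ' := q'.out
    have hτ := hφ τ
    have hτ' := hφ τ'
    have h2 : ρ τ' f = ρ τ f * (w τ' / w τ) ^ m := by
      rw [hτ, hτ', ← h1, div_pow]
      field_simp [hw τ]
    refine ⟨1, ρ τ⁻¹ (w τ' / w τ), one_ne_zero,
      (map_ne_zero _).mpr (div_ne_zero (hw τ') (hw τ)), ?_⟩
    rw [map_mul ρ, RingAut.mul_apply, h2, map_mul, map_pow, ← RingAut.mul_apply,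
      ← map_mul ρ, inv_mul_cancel, map_one ρ, RingAut.one_apply, map_one a, one_mul]
  have : Finite (G ⧸ kumStabAux ρ θ a ha m f) := Finite.of_injective ψ hψ
  exact Subgroup.finiteIndex_of_finite_quotient

end Abstract

section

variable {K L : Type*} [Field K] [Field L] [Algebra K L] [Algebra ℚ K] [Algebra ℚ L]
  [IsScalarTower ℚ K L]
variable (F₀ : IntermediateField ℚ (LaurentSeries ℚ))

/-- the action of `Aut(L/K)` on `F_L` by ring automorphisms -/
def galRing : (L ≃ₐ[K] L) →* RingAut ↥(laurentBaseChange L F₀) :=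
  (MulSemiringAction.toRingAut (SemilinearAut L ↥(laurentBaseChange L F₀))
    ↥(laurentBaseChange L F₀)).comp (gal F₀)

theorem galRing_apply (τ : L ≃ₐ[K] L) (x : ↥(laurentBaseChange L F₀)) :
    galRing F₀ τ x = gal F₀ τ • x := rfl

theorem galRing_algebraMap (τ : L ≃ₐ[K] L) (c : L) :
    galRing F₀ τ (algebraMap L ↥(laurentBaseChange L F₀) c) =
      algebraMap L ↥(laurentBaseChange L F₀)
        (MulSemiringAction.toRingAut (L ≃ₐ[K] L) L τ c) :=
  gal_smul_algebraMap F₀ τ c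

variable [IsAlgClosed K] [IsAlgClosed L]

/-- **Descent glue.**  Finitely many Kummer classes among the conjugates of `f` + a section `s`
making `f * s ^ m` semi-invariant under the stabiliser of the class of `f`  ⟹  `f` is, up to a
constant and an `m`-th power, the base change of a function of `F_K`. -/
theorem desc_glue' (m : ℕ) (f : ↥(laurentBaseChange L F₀)) (hf : f ≠ 0)
    (S : Finset ↥(laurentBaseChange L F₀))
    (hS : ∀ τ : L ≃ₐ[K] L, ∃ s ∈ S, ∃ w : ↥(laurentBaseChange L F₀), w ≠ 0 ∧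
      gal F₀ τ • f = s * w ^ m)
    (s : ↥(laurentBaseChange L F₀)) (hs : s ≠ 0)
    (hsemi : ∀ τ : L ≃ₐ[K] L,
      (∃ (c : L) (u : ↥(laurentBaseChange L F₀)), c ≠ 0 ∧ u ≠ 0 ∧
        gal F₀ τ • f = algebraMap L ↥(laurentBaseChange L F₀) c * f * u ^ m) →
      ∃ c' : L, gal F₀ τ • (f * s ^ m) =
        algebraMap L ↥(laurentBaseChange L F₀) c' * (f * s ^ m)) :
    ∃ (f0 : ↥(laurentBaseChange K F₀)) (c : L) (u : ↥(laurentBaseChange L F₀)),
      f0 ≠ 0 ∧ c ≠ 0 ∧ u ≠ 0 ∧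
        f = algebraMap L ↥(laurentBaseChange L F₀) c * bc F₀ f0 * u ^ m := by
  have hfin := kumStabAux_finiteIndex (galRing (K := K) F₀)
    (MulSemiringAction.toRingAut (L ≃ₐ[K] L) L) (algebraMap L ↥(laurentBaseChange L F₀))
    (galRing_algebraMap F₀) m f S hS
  have hne : f * s ^ m ≠ 0 := mul_ne_zero hf (pow_ne_zero m hs)
  obtain ⟨c, hc, f0, hf0⟩ := exists_algebraMap_mul_bc_of_stab (K := K) F₀
    (kumStabAux (galRing (K := K) F₀) (MulSemiringAction.toRingAut (L ≃ₐ[K] L) L)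
      (algebraMap L ↥(laurentBaseChange L F₀)) (galRing_algebraMap F₀) m f)
    (f * s ^ m) hne (fun τ hτ => hsemi τ hτ)
  refine ⟨f0, c, s⁻¹, ?_, hc, inv_ne_zero hs, ?_⟩
  · rintro rfl
    rw [map_zero, mul_zero] at hf0
    exact hne hf0
  · rw [← hf0, inv_pow, mul_assoc, mul_inv_cancel₀ (pow_ne_zero m hs), mul_one]

/-- **Descent glue**, with the semi-invariance hypothesis in the literal shape delivered by the
canonical section (CAN). -/
theorem desc_glue (m : ℕ) (f : ↥(laurentBaseChange L F₀)) (hf : f ≠ 0)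
    (S : Finset ↥(laurentBaseChange L F₀))
    (hS : ∀ τ : L ≃ₐ[K] L, ∃ s ∈ S, ∃ w : ↥(laurentBaseChange L F₀), w ≠ 0 ∧
      gal F₀ τ • f = s * w ^ m)
    (s : ↥(laurentBaseChange L F₀)) (hs : s ≠ 0)
    (hsemi : ∀ τ : L ≃ₐ[K] L,
      (∃ (c : L) (u : ↥(laurentBaseChange L F₀)), c ≠ 0 ∧ u ≠ 0 ∧
        gal F₀ τ • f = algebraMap L ↥(laurentBaseChange L F₀) c * f * u ^ m) →
      ∃ c' : L, c' ≠ 0 ∧ gal F₀ τ • (f * s ^ m) =
        algebraMap L ↥(laurentBaseChange L F₀) c' * (f * s ^ m)) :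
    ∃ (f0 : ↥(laurentBaseChange K F₀)) (c : L) (u : ↥(laurentBaseChange L F₀)),
      f0 ≠ 0 ∧ c ≠ 0 ∧ u ≠ 0 ∧
        f = algebraMap L ↥(laurentBaseChange L F₀) c * bc F₀ f0 * u ^ m :=
  desc_glue' F₀ m f hf S hS s hs fun τ h => by
    obtain ⟨c', -, hc'⟩ := hsemi τ h
    exact ⟨c', hc'⟩

end

end Fermat.Agent.S29.H43
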