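import Mathlib
import Fermat.Agent.S29.Cover_helper90

/-!
# The analytic place dictionary of a function field realised inside `L N`

For `h : IsCover ι Φ j jN` (a function field `F/K`, `K` algebraically closed of characteristic
zero, realised inside `L N` as a field of `Γ₀(N)`-invariants containing `j` and `j_N` and finite
over `K(j)`), EVERY place `v` of `F/K` is cut out by an analytic valuation of a conjugate
`conjOf Φ ξ f = ξ.out • Φ f`, with the exact ramification index: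

* over `j = a`, `a ≠ 0, 1728`: the order at any point `z₀` with `J z₀ = ι a`, index `1`;
* over `j = 1728`: the order at `i`, index `2` if `S • ξ = ξ` and `1` otherwise;
* over `j = 0`: the order at `ρ`, index `3` if `(S * T) • ξ = ξ` and `1` otherwise;
* over `j = ∞`: the order at the cusp `i∞` in the parameter `q_N`, index `N / w`, where `w` is
  the size of the `T`-orbit of `ξ` (the width of the cusp), and `T ^ w • ξ = ξ`.

Main statements: `IsCover.finrank_eq`, `IsCover.dict_generic`, `IsCover.dict_I`,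
`IsCover.dict_rho`, `IsCover.dict_cusp`, `IsCover.place_dict`, `IsCover.place_dict_weak`.
-/

set_option autoImplicit false

open AlgebraicCurve IntermediateField Polynomial
open Filter Topology UpperHalfPlane CongruenceSubgroup ModularForm ModularCurve ModularGroup
open scoped MatrixGroups ModularForm Manifold Real
open Fermat.Agent.S24 Fermat.Agent.S24.H31

noncomputable section

namespace Fermat.Agent.S29.H90

variable {N : ℕ} [NeZero N] {K F : Type*} [Field K] [Field F] [Algebra K F]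
  {ι : K →+* ℂ} {Φ : F →+* L N} {j jN : F}

omit [NeZero N] in
/-- elements of `Φ(K[y])` have nonnegative order at a valuation positive at `y` -/
theorem ord_aeval_nonneg_of_zval (Φ : F →+* L N) (y : F) (hy : y ≠ 0) (z : ZVal (L N))
    (hzc : ∀ c : K, c ≠ 0 → z.ord (Φ (algebraMap K F c)) = 0)
    (hzy : 0 < z.ord (Φ y)) (q : Polynomial K) (hq : Polynomial.aeval y q ≠ 0) :
    0 ≤ z.ord (Φ (Polynomial.aeval y q)) := by
  obtain ⟨v, m, hm, hW⟩ := H19.exists_place_of_zval (K := K) (z.comap Φ) hzc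
    ⟨y, hy, hzy.ne'⟩
  have hvy : 0 < v.ord y := by
    have := hW y hy
    rw [ZVal.comap_ord] at this
    rw [this] at hzy
    exact (mul_pos_iff_of_pos_left hm).mp hzy
  have hint : IsIntegral (Algebra.adjoin K {y}) (Polynomial.aeval y q) := by
    have hmem : Polynomial.aeval y q ∈ Algebra.adjoin K {y} := by
      rw [Algebra.adjoin_singleton_eq_range_aeval]
      exact ⟨_, rfl⟩
    exact isIntegral_algebraMap (R := Algebra.adjoin K {y}) (x := ⟨_, hmem⟩)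
  have h1 := H19.isIntegral_ord_nonneg v hvy.le hint
  have h2 := hW _ hq
  rw [ZVal.comap_ord] at h2
  rw [h2]
  exact mul_nonneg hm.le h1

namespace IsCover

variable (h : IsCover ι Φ j jN)
include h

set_option synthInstance.maxHeartbeats 200000 in
/-- **The dictionary for one valuation of the cover.** -/
theorem dict_of_zval [IsAlgClosed K] [CharZero K] (y : F) (hy : Transcendental K y)
    [FiniteDimensional K⟮y⟯ F]
    (hyfix : ∀ (g : SL(2, ℤ)) (c : F), c ∈ Algebra.adjoin K {y} → g • Φ c = Φ c)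
    (hinv : ∀ x : L N, (∀ g : SL(2, ℤ), g • x = x) →
      IsIntegral ((Algebra.adjoin K {y}).toSubring.map Φ) x →
      ∃ P : Polynomial K, x = Φ (Polynomial.aeval y P))
    (z : ZVal (L N)) (hzc : ∀ c : K, c ≠ 0 → z.ord (Φ (algebraMap K F c)) = 0)
    (hzy : 0 < z.ord (Φ y))
    (s : SL(2, ℤ)) (hzs : ∀ x : L N, z.ord (s • x) = z.ord x)
    (d : H98.XN N → ℕ) (hd0 : ∀ ξ, 0 < d ξ)
    (hd : ∀ (ξ : H98.XN N) (f : F), f ≠ 0 → (d ξ : ℤ) ∣ z.ord (conjOf Φ ξ f))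
    (he : ∀ ξ : H98.XN N,
      z.ord (Φ y) ≤ d ξ * Nat.card (MulAction.orbit (Subgroup.zpowers s) ξ)) :
    Module.finrank K⟮y⟯ F ≤ Fintype.card (H98.XN N) ∧
      (Module.finrank K⟮y⟯ F = Fintype.card (H98.XN N) →
        ∀ v : Place K F, 0 < v.ord y →
          ∃ ξ : H98.XN N, (∀ f : F, f ≠ 0 → z.ord (conjOf Φ ξ f) = d ξ * v.ord f) ∧
            v.ord y = Nat.card (MulAction.orbit (Subgroup.zpowers s) ξ)) := by
  classical
  have hy_ne : y ≠ 0 := fun h0 => hy (h0 ▸ isAlgebraic_zero)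
  have hyself : ∀ g : SL(2, ℤ), g • Φ y = Φ y := fun g =>
    hyfix g y (Algebra.self_mem_adjoin_singleton _ _)
  have hconj_y : ∀ ξ : H98.XN N, conjOf Φ ξ y = Φ y := fun ξ => by
    rw [conjOf_apply, hyself]
  have hconj_c : ∀ (ξ : H98.XN N) (c : K),
      conjOf Φ ξ (algebraMap K F c) = Φ (algebraMap K F c) := fun ξ c => by
    rw [conjOf_apply, h.smul_const]
  let W : H98.XN N → ZVal F := fun ξ => z.comap (conjOf Φ ξ)
  have hK : ∀ ξ (c : K), c ≠ 0 → (W ξ).ord (algebraMap K F c) = 0 := by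
    intro ξ c hc
    show z.ord (conjOf Φ ξ _) = 0
    rw [hconj_c]; exact hzc c hc
  have hy0 : ∀ ξ, 0 < (W ξ).ord y := by
    intro ξ
    show 0 < z.ord (conjOf Φ ξ y)
    rw [hconj_y]; exact hzy
  have hσ : ∀ ξ (f : F), (W (s • ξ)).ord f = (W ξ).ord f := by
    intro ξ f
    show z.ord (conjOf Φ (s • ξ) f) = z.ord (conjOf Φ ξ f)
    rw [← h.smul_conj, hzs]
  have hd' : ∀ ξ (f : F), f ≠ 0 → (d ξ : ℤ) ∣ (W ξ).ord f := fun ξ f hf => hd ξ f hf
  have he' : ∀ ξ, (W ξ).ord y ≤ d ξ * Nat.card (MulAction.orbit (Subgroup.zpowers s) ξ) := by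
    intro ξ
    show z.ord (conjOf Φ ξ y) ≤ _
    rw [hconj_y]; exact he ξ
  have hnorm : ∀ f : F, f ≠ 0 → IsIntegral (Algebra.adjoin K {y}) f →
      ∃ (c : F) (p : Polynomial K), IsIntegral (Algebra.adjoin K {y}) c ∧
        f * c = Polynomial.aeval y p ∧ (p.eval 0 = 0 → ∃ ξ, 0 < (W ξ).ord f) := by
    intro f hf hfint
    obtain ⟨c, p, hcint, hfc, hprod⟩ := H45.exists_norm_relation (K := K) (G := SL(2, ℤ))
      Φ y (fun ξ : H98.XN N => ξ.out) (QuotientGroup.mk 1) (fun f => h.conj_one f)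
      (fun g => ⟨MulAction.toPerm g, fun ξ f => h.smul_conj g ξ f⟩) hyfix hinv f hfint
    refine ⟨c, p, hcint, hfc, fun hp0 => ?_⟩
    have hprod_ne : ∏ ξ : H98.XN N, conjOf Φ ξ f ≠ 0 :=
      Finset.prod_ne_zero_iff.mpr fun ξ _ => conjOf_ne_zero Φ ξ hf
    have hprod' : Φ (Polynomial.aeval y p) = ∏ ξ : H98.XN N, conjOf Φ ξ f ∨
        Φ (Polynomial.aeval y p) = - ∏ ξ : H98.XN N, conjOf Φ ξ f := hprod
    have hΦp_ne : Φ (Polynomial.aeval y p) ≠ 0 := by
      rcases hprod' with h' | h'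
      · rw [h']; exact hprod_ne
      · rw [h']; exact neg_ne_zero.mpr hprod_ne
    have hord : z.ord (Φ (Polynomial.aeval y p)) = ∑ ξ : H98.XN N, z.ord (conjOf Φ ξ f) := by
      rcases hprod' with h' | h'
      · rw [h', z.ord_prod _ _ fun ξ _ => conjOf_ne_zero Φ ξ hf]
      · rw [h', z.ord_neg hprod_ne, z.ord_prod _ _ fun ξ _ => conjOf_ne_zero Φ ξ hf]
    obtain ⟨q, rfl⟩ : Polynomial.X ∣ p :=
      Polynomial.X_dvd_iff.mpr (by rwa [Polynomial.coeff_zero_eq_eval_zero])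
    have hq_ne : Polynomial.aeval y q ≠ 0 := by
      intro h0
      apply hΦp_ne
      rw [map_mul, h0, mul_zero, map_zero]
    have hΦy_ne : Φ y ≠ 0 := (map_ne_zero Φ).mpr hy_ne
    have hΦq_ne : Φ (Polynomial.aeval y q) ≠ 0 := (map_ne_zero Φ).mpr hq_ne
    have hqnn := ord_aeval_nonneg_of_zval Φ y hy_ne z hzc hzy q hq_ne
    have hpos : 0 < z.ord (Φ (Polynomial.aeval y (Polynomial.X * q))) := by
      rw [map_mul, Polynomial.aeval_X, map_mul, z.ord_mul hΦy_ne hΦq_ne]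
      omega
    by_contra hall
    have hall' : ∀ ξ : H98.XN N, z.ord (conjOf Φ ξ f) ≤ 0 := fun ξ =>
      not_lt.mp fun h' => hall ⟨ξ, h'⟩
    have hsum : ∑ ξ : H98.XN N, z.ord (conjOf Φ ξ f) ≤ 0 :=
      Finset.sum_nonpos fun ξ _ => hall' ξ
    omega
  refine ⟨(H98.count_places_action y hy s W d hd0 hK hy0 hσ hd' he' hnorm).1, fun hn v hv => ?_⟩
  exact exists_zval_eq_mul_place y hy s W d hK hy0 hσ hd' he' hnorm hn v hv


/-! ### The analytic valuations on the image of `Φ` -/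

omit h in
/-- the analytic `j` as an element of `RN N` is the function `J` -/
theorem jd_one_eq_J (N : ℕ) [NeZero N] (z : ℍ) :
    ((H23.jd N 1 (one_dvd N) : RN N) : ℍ → ℂ) z = H38.J z :=
  H23.jd_one_apply N z

theorem pt_const (V : ValSpec N) (z : ℍ) (c : K) (hc : c ≠ 0) :
    (V.pt z).ord (Φ (algebraMap K F c)) = 0 := by
  rw [h.map_const]
  exact H26.pt_ord_algebraMap_complex V z ((map_ne_zero ι).mpr hc)

theorem cusp_const (V : ValSpec N) (c : K) (hc : c ≠ 0) :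
    V.cusp.ord (Φ (algebraMap K F c)) = 0 := by
  rw [h.map_const]
  exact H26.cusp_ord_algebraMap_complex V ((map_ne_zero ι).mpr hc)

theorem map_j_sub (a : K) :
    Φ (j - algebraMap K F a) =
      algebraMap (RN N) (L N) (H23.jd N 1 (one_dvd N) - algebraMap ℂ (RN N) (ι a)) := by
  rw [RingHom.map_sub, h.map_const, h.map_j, IsScalarTower.algebraMap_apply ℂ (RN N) (L N),
    RingHom.map_sub]

/-- **generic point**: `j - a` has order one at every point `z₀` with `J z₀ = ι a`,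
`a ≠ 0, 1728`. -/
theorem pt_j_sub (V : ValSpec N) (a : K) (ha0 : a ≠ 0) (ha1 : a ≠ 1728) (z₀ : ℍ)
    (hz₀ : H38.J z₀ = ι a) : (V.pt z₀).ord (Φ (j - algebraMap K F a)) = 1 := by
  rw [h.map_j_sub]
  have h0 : ι a ≠ 0 := (map_ne_zero ι).mpr ha0
  have h1 : ι a ≠ 1728 := by
    intro h'
    apply ha1
    apply ι.injective
    rw [h', map_ofNat]
  have h2 := H26.pt_ord_eq V z₀ (H23.jd N 1 (one_dvd N) - algebraMap ℂ (RN N) (ι a))
    (H26.jR_sub_ne_zero _ (jd_one_eq_J N) _) 1 (by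
      rw [H26.coe_jR_sub _ (jd_one_eq_J N), Nat.cast_one]
      exact H38.analyticOrderAt_J_sub_const z₀ (ι a) hz₀ h0 h1)
  exact_mod_cast h2

/-- **the point `i`**: `j - 1728` has order two. -/
theorem ptI_j (V : ValSpec N) :
    (V.pt UpperHalfPlane.I).ord (Φ (j - algebraMap K F 1728)) = 2 := by
  rw [h.map_j_sub, map_ofNat]
  have h2 := H26.pt_ord_eq V UpperHalfPlane.I (H23.jd N 1 (one_dvd N) - algebraMap ℂ (RN N) 1728)
    (H26.jR_sub_ne_zero _ (jd_one_eq_J N) _) 2 (by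
      rw [H26.coe_jR_sub _ (jd_one_eq_J N)]
      exact H38.analyticOrderAt_J_sub_1728_I)
  exact_mod_cast h2

omit h in
theorem jd_one_ne_zero (N : ℕ) [NeZero N] : (H23.jd N 1 (one_dvd N) : RN N) ≠ 0 := by
  have := H26.jR_sub_ne_zero (H23.jd N 1 (one_dvd N)) (jd_one_eq_J N) 0
  rwa [RingHom.map_zero, sub_zero] at this

/-- **the point `ρ`**: `j` has order three. -/
theorem ptRho_j (V : ValSpec N) : (V.pt rho).ord (Φ (j - algebraMap K F 0)) = 3 := by
  rw [RingHom.map_zero, sub_zero, h.map_j]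
  have hfun : ((H23.jd N 1 (one_dvd N) : RN N) : ℍ → ℂ) ∘ ofComplex = H38.J ∘ ofComplex := by
    funext w
    exact jd_one_eq_J N _
  have h2 := H26.pt_ord_eq V rho (H23.jd N 1 (one_dvd N)) (jd_one_ne_zero N) 3 (by
    rw [hfun]
    exact H38.analyticOrderAt_J_rho _)
  exact_mod_cast h2

/-- **the cusp**: `1/j` has order `N` in the local parameter `q_N`. -/
theorem cusp_jinv (V : ValSpec N) : V.cusp.ord (Φ j⁻¹) = N := by
  have hf0 := jd_one_ne_zero N
  have hne : algebraMap (RN N) (L N) (H23.jd N 1 (one_dvd N)) ≠ 0 := by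
    intro h'
    apply hf0
    apply IsFractionRing.injective (RN N) (L N)
    rw [h', RingHom.map_zero]
  have hord : V.cusp.ord (algebraMap (RN N) (L N) (H23.jd N 1 (one_dvd N))) = -(N : ℤ) := by
    rw [V.cusp_iff _ hf0 (-(N : ℤ))]
    refine ⟨1, one_ne_zero, H38.tendsto_J_mul_cexp.congr fun z => ?_⟩
    rw [jd_one_eq_J]
    congr 2
    have hN : (N : ℂ) ≠ 0 := Nat.cast_ne_zero.mpr (NeZero.ne N)
    push_cast
    field_simp
  rw [map_inv₀, h.map_j, V.cusp.ord_inv hne, hord, neg_neg]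

/-! ### The degree and the four kinds of fibres -/

/-- the dictionary for `y = j - a` -/
theorem dict_sub [IsAlgClosed K] [CharZero K] (a : K)
    (z : ZVal (L N)) (hzc : ∀ c : K, c ≠ 0 → z.ord (Φ (algebraMap K F c)) = 0)
    (hzy : 0 < z.ord (Φ (j - algebraMap K F a)))
    (s : SL(2, ℤ)) (hzs : ∀ x : L N, z.ord (s • x) = z.ord x)
    (d : H98.XN N → ℕ) (hd0 : ∀ ξ, 0 < d ξ)
    (hd : ∀ (ξ : H98.XN N) (f : F), f ≠ 0 → (d ξ : ℤ) ∣ z.ord (conjOf Φ ξ f))
    (he : ∀ ξ : H98.XN N, z.ord (Φ (j - algebraMap K F a))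
      ≤ d ξ * Nat.card (MulAction.orbit (Subgroup.zpowers s) ξ)) :
    Module.finrank K⟮j⟯ F ≤ Fintype.card (H98.XN N) ∧
      (Module.finrank K⟮j⟯ F = Fintype.card (H98.XN N) →
        ∀ v : Place K F, 0 < v.ord (j - algebraMap K F a) →
          ∃ ξ : H98.XN N, (∀ f : F, f ≠ 0 → z.ord (conjOf Φ ξ f) = d ξ * v.ord f) ∧
            v.ord (j - algebraMap K F a)
              = Nat.card (MulAction.orbit (Subgroup.zpowers s) ξ)) := by
  have hx := h.transcendental_j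
  have hcongr := H98.finrank_congr_intermediateField (H98.adjoin_sub_algebraMap j a)
  have : FiniteDimensional K⟮j - algebraMap K F a⟯ F := hcongr.1.mpr h.finite
  have hadj := H98.algebraAdjoin_sub_algebraMap j a
  have key := h.dict_of_zval (j - algebraMap K F a)
    (H98.transcendental_sub_algebraMap hx a)
    (fun g c hc => h.smul_adjoin_j g c (hadj ▸ hc))
    (fun x hxfix hxint => by
      rw [hadj] at hxint
      obtain ⟨P, hP⟩ := h.invariant_j x hxfix hxint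
      refine ⟨P.comp (Polynomial.X + Polynomial.C a), ?_⟩
      rw [hP, Polynomial.aeval_comp]
      congr 2
      simp)
    z hzc hzy s hzs d hd0 hd he
  rw [hcongr.2] at key
  exact key

/-- the dictionary for `y = 1 / j` -/
theorem dict_inv [IsAlgClosed K] [CharZero K]
    (z : ZVal (L N)) (hzc : ∀ c : K, c ≠ 0 → z.ord (Φ (algebraMap K F c)) = 0)
    (hzy : 0 < z.ord (Φ j⁻¹))
    (s : SL(2, ℤ)) (hzs : ∀ x : L N, z.ord (s • x) = z.ord x)
    (d : H98.XN N → ℕ) (hd0 : ∀ ξ, 0 < d ξ)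
    (hd : ∀ (ξ : H98.XN N) (f : F), f ≠ 0 → (d ξ : ℤ) ∣ z.ord (conjOf Φ ξ f))
    (he : ∀ ξ : H98.XN N, z.ord (Φ j⁻¹)
      ≤ d ξ * Nat.card (MulAction.orbit (Subgroup.zpowers s) ξ)) :
    Module.finrank K⟮j⟯ F ≤ Fintype.card (H98.XN N) ∧
      (Module.finrank K⟮j⟯ F = Fintype.card (H98.XN N) →
        ∀ v : Place K F, v.ord j < 0 →
          ∃ ξ : H98.XN N, (∀ f : F, f ≠ 0 → z.ord (conjOf Φ ξ f) = d ξ * v.ord f) ∧
            -v.ord j = Nat.card (MulAction.orbit (Subgroup.zpowers s) ξ)) := by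
  have hx := h.transcendental_j
  have hcongr := H98.finrank_congr_intermediateField (H98.adjoin_inv (K := K) j)
  have : FiniteDimensional K⟮j⁻¹⟯ F := hcongr.1.mpr h.finite
  have key := h.dict_of_zval j⁻¹ (H98.transcendental_inv hx)
    (fun g c hc => h.smul_adjoin_jinv g c hc) h.invariant_jinv
    z hzc hzy s hzs d hd0 hd he
  rw [hcongr.2] at key
  refine ⟨key.1, fun hn v hv => ?_⟩
  have hv' : 0 < v.ord j⁻¹ := by rw [Place.ord_inv]; omega
  obtain ⟨ξ, h1, h2⟩ := key.2 hn v hv'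
  refine ⟨ξ, h1, ?_⟩
  rw [← h2, Place.ord_inv]

/-- the degree of `K(j) ⊆ F` is the index of `Γ₀(N)` -/
theorem finrank_eq [IsAlgClosed K] [CharZero K] (V : ValSpec N) :
    Module.finrank K⟮j⟯ F = Fintype.card (H98.XN N) := by
  apply le_antisymm _ h.card_le_finrank
  have h1 : (1 : K) ≠ 0 := one_ne_zero
  have h2 : (1 : K) ≠ 1728 := by norm_num
  obtain ⟨z₀, hz₀⟩ := H38.J_surjective (ι 1)
  have hz1 := h.pt_j_sub V 1 h1 h2 z₀ hz₀
  refine (h.dict_sub 1 (V.pt z₀) (h.pt_const V z₀) (by rw [hz1]; exact one_pos) 1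
    (fun x => by rw [one_smul]) (fun _ => 1) (fun _ => one_pos) (fun ξ f _ => by simp)
    (fun ξ => ?_)).1
  rw [hz1]
  have hpos := (H98.card_orbit_XN_dvd (1 : SL(2, ℤ)) 1 one_pos
    (fun ξ : H98.XN N => by simp) ξ).1
  have : (1 : ℤ) ≤ Nat.card (MulAction.orbit (Subgroup.zpowers (1 : SL(2, ℤ))) ξ) := by
    exact_mod_cast hpos
  simpa using this

/-- **Places over `j = a`, `a ≠ 0, 1728`**: cut out by the order at ANY point `z₀` with
`J z₀ = ι a`, unramified. -/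
theorem dict_generic [IsAlgClosed K] [CharZero K] (V : ValSpec N) (a : K) (ha0 : a ≠ 0)
    (ha1 : a ≠ 1728) (z₀ : ℍ) (hz₀ : H38.J z₀ = ι a) (v : Place K F)
    (hv : 0 < v.ord (j - algebraMap K F a)) :
    ∃ ξ : H98.XN N, ∀ f : F, f ≠ 0 → (V.pt z₀).ord (conjOf Φ ξ f) = v.ord f := by
  have hz1 := h.pt_j_sub V a ha0 ha1 z₀ hz₀
  have hcard : ∀ ξ : H98.XN N,
      Nat.card (MulAction.orbit (Subgroup.zpowers (1 : SL(2, ℤ))) ξ) = 1 := fun ξ =>
    Nat.dvd_one.mp (H98.card_orbit_XN_dvd (1 : SL(2, ℤ)) 1 one_pos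
      (fun ξ : H98.XN N => by simp) ξ).2.1
  obtain ⟨ξ, hξ, -⟩ := (h.dict_sub a (V.pt z₀) (h.pt_const V z₀) (by rw [hz1]; exact one_pos) 1
    (fun x => by rw [one_smul]) (fun _ => 1) (fun _ => one_pos) (fun ξ f _ => by simp)
    (fun ξ => by rw [hz1, hcard]; simp)).2 (h.finrank_eq V) v hv
  refine ⟨ξ, fun f hf => ?_⟩
  rw [hξ f hf]
  simp

/-- **Places over `j = 1728`**: cut out by the order at `i`, with ramification index `2` when
`S` fixes the coset and `1` otherwise. -/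
theorem dict_I [IsAlgClosed K] [CharZero K] (V : ValSpec N) (v : Place K F)
    (hv : 0 < v.ord (j - algebraMap K F 1728)) :
    ∃ (ξ : H98.XN N) (e : ℕ), (e = 1 ∧ S • ξ ≠ ξ ∨ e = 2 ∧ S • ξ = ξ) ∧
      ∀ f : F, f ≠ 0 → (V.pt UpperHalfPlane.I).ord (conjOf Φ ξ f) = e * v.ord f := by
  classical
  have horb := fun ξ : H98.XN N =>
    H98.card_orbit_XN_of_prime S 2 Nat.prime_two (H35.S_sq_smul N) ξ
  have hzj := h.ptI_j V
  have hd : ∀ (ξ : H98.XN N) (f : F), f ≠ 0 →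
      ((if S • ξ = ξ then 2 else 1 : ℕ) : ℤ) ∣ (V.pt UpperHalfPlane.I).ord (conjOf Φ ξ f) := by
    intro ξ f hf
    by_cases h' : S • ξ = ξ
    · rw [if_pos h']
      refine H15.ptI_dvd V _ (conjOf_ne_zero Φ ξ hf) ?_
      rw [h.smul_conj, h']
    · rw [if_neg h']; simp
  have he : ∀ ξ : H98.XN N, (V.pt UpperHalfPlane.I).ord (Φ (j - algebraMap K F 1728))
      ≤ ((if S • ξ = ξ then 2 else 1 : ℕ) : ℤ)
        * Nat.card (MulAction.orbit (Subgroup.zpowers S) ξ) := by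
    intro ξ
    rw [hzj]
    by_cases h' : S • ξ = ξ
    · rw [if_pos h', (horb ξ).1 h']; norm_num
    · rw [if_neg h', (horb ξ).2 h']; norm_num
  obtain ⟨ξ, hξ, -⟩ := (h.dict_sub 1728 (V.pt UpperHalfPlane.I) (h.pt_const V _)
    (by rw [hzj]; norm_num) S (H26.zI_smul_of V)
    (fun ξ => if S • ξ = ξ then 2 else 1) (fun ξ => by split_ifs <;> norm_num) hd he).2
    (h.finrank_eq V) v hv
  refine ⟨ξ, if S • ξ = ξ then 2 else 1, ?_, hξ⟩
  by_cases h' : S • ξ = ξ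
  · right; exact ⟨if_pos h', h'⟩
  · left; exact ⟨if_neg h', h'⟩

/-- **Places over `j = 0`**: cut out by the order at `ρ`, with ramification index `3` when
`S * T` fixes the coset and `1` otherwise. -/
theorem dict_rho [IsAlgClosed K] [CharZero K] (V : ValSpec N) (v : Place K F)
    (hv : 0 < v.ord (j - algebraMap K F 0)) :
    ∃ (ξ : H98.XN N) (e : ℕ), (e = 1 ∧ (S * T) • ξ ≠ ξ ∨ e = 3 ∧ (S * T) • ξ = ξ) ∧
      ∀ f : F, f ≠ 0 → (V.pt rho).ord (conjOf Φ ξ f) = e * v.ord f := by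
  classical
  have horb := fun ξ : H98.XN N =>
    H98.card_orbit_XN_of_prime (S * T) 3 Nat.prime_three (H35.ST_cube_smul N) ξ
  have hzj := h.ptRho_j V
  have hd : ∀ (ξ : H98.XN N) (f : F), f ≠ 0 →
      ((if (S * T) • ξ = ξ then 3 else 1 : ℕ) : ℤ) ∣ (V.pt rho).ord (conjOf Φ ξ f) := by
    intro ξ f hf
    by_cases h' : (S * T) • ξ = ξ
    · rw [if_pos h']
      refine H15.ptRho_dvd V _ (conjOf_ne_zero Φ ξ hf) ?_
      rw [h.smul_conj, h']
    · rw [if_neg h']; simp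
  have he : ∀ ξ : H98.XN N, (V.pt rho).ord (Φ (j - algebraMap K F 0))
      ≤ ((if (S * T) • ξ = ξ then 3 else 1 : ℕ) : ℤ)
        * Nat.card (MulAction.orbit (Subgroup.zpowers (S * T)) ξ) := by
    intro ξ
    rw [hzj]
    by_cases h' : (S * T) • ξ = ξ
    · rw [if_pos h', (horb ξ).1 h']; norm_num
    · rw [if_neg h', (horb ξ).2 h']; norm_num
  obtain ⟨ξ, hξ, -⟩ := (h.dict_sub 0 (V.pt rho) (h.pt_const V _)
    (by rw [hzj]; norm_num) (S * T) (H26.zRho_smul_of V)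
    (fun ξ => if (S * T) • ξ = ξ then 3 else 1) (fun ξ => by split_ifs <;> norm_num) hd he).2
    (h.finrank_eq V) v hv
  refine ⟨ξ, if (S * T) • ξ = ξ then 3 else 1, ?_, hξ⟩
  by_cases h' : (S * T) • ξ = ξ
  · right; exact ⟨if_pos h', h'⟩
  · left; exact ⟨if_neg h', h'⟩

/-- **Places over `j = ∞`**: cut out by the order at the cusp `i∞` (in the parameter `q_N`) of
a conjugate, with ramification index `N / w`, `w` the width (`T`-orbit size of the coset). -/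
theorem dict_cusp [IsAlgClosed K] [CharZero K] (V : ValSpec N) (v : Place K F)
    (hv : v.ord j < 0) :
    ∃ (ξ : H98.XN N) (w : ℕ), 0 < w ∧ w ∣ N ∧ T ^ w • ξ = ξ ∧ -v.ord j = w ∧
      ∀ f : F, f ≠ 0 → V.cusp.ord (conjOf Φ ξ f) = ((N / w : ℕ) : ℤ) * v.ord f := by
  have hN : 0 < N := Nat.pos_of_ne_zero (NeZero.ne N)
  have horb := fun ξ : H98.XN N => H98.card_orbit_XN_dvd T N hN (H35.T_pow_smul N) ξ
  have hzj := h.cusp_jinv V
  have hd : ∀ (ξ : H98.XN N) (f : F), f ≠ 0 →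
      ((N / Nat.card (MulAction.orbit (Subgroup.zpowers T) ξ) : ℕ) : ℤ)
        ∣ V.cusp.ord (conjOf Φ ξ f) := by
    intro ξ f hf
    refine H31.cusp_dvd V _ _ (conjOf_ne_zero Φ ξ hf) (horb ξ).1 (horb ξ).2.1 ?_
    rw [h.smul_conj, (horb ξ).2.2]
  have he : ∀ ξ : H98.XN N, V.cusp.ord (Φ j⁻¹)
      ≤ ((N / Nat.card (MulAction.orbit (Subgroup.zpowers T) ξ) : ℕ) : ℤ)
        * Nat.card (MulAction.orbit (Subgroup.zpowers T) ξ) := by
    intro ξ
    rw [hzj]
    have := Nat.div_mul_cancel (horb ξ).2.1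
    exact_mod_cast this.ge
  obtain ⟨ξ, hξ, hξ2⟩ := (h.dict_inv V.cusp (h.cusp_const V)
    (by rw [hzj]; exact_mod_cast hN) T (H26.zInf_smul_of V)
    (fun ξ => N / Nat.card (MulAction.orbit (Subgroup.zpowers T) ξ))
    (fun ξ => Nat.div_pos (Nat.le_of_dvd hN (horb ξ).2.1) (horb ξ).1) hd he).2
    (h.finrank_eq V) v hv
  exact ⟨ξ, _, (horb ξ).1, (horb ξ).2.1, (horb ξ).2.2, hξ2, hξ⟩

/-! ### The dictionary -/

/-- **The analytic place dictionary.** Every place of `F/K` is cut out by the order at a point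
of the upper half plane, or at the cusp `i∞`, of a conjugate `ξ.out • Φ f`, with the exact
ramification index. -/
theorem place_dict [IsAlgClosed K] [CharZero K] (V : ValSpec N) (v : Place K F) :
    ∃ ξ : H98.XN N,
      (∃ z₀ : ℍ, ∀ f : F, f ≠ 0 → (V.pt z₀).ord (conjOf Φ ξ f) = v.ord f) ∨
      (∃ e : ℕ, (e = 1 ∧ S • ξ ≠ ξ ∨ e = 2 ∧ S • ξ = ξ) ∧
        ∀ f : F, f ≠ 0 → (V.pt UpperHalfPlane.I).ord (conjOf Φ ξ f) = e * v.ord f) ∨
      (∃ e : ℕ, (e = 1 ∧ (S * T) • ξ ≠ ξ ∨ e = 3 ∧ (S * T) • ξ = ξ) ∧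
        ∀ f : F, f ≠ 0 → (V.pt rho).ord (conjOf Φ ξ f) = e * v.ord f) ∨
      (∃ w : ℕ, 0 < w ∧ w ∣ N ∧ T ^ w • ξ = ξ ∧
        ∀ f : F, f ≠ 0 → V.cusp.ord (conjOf Φ ξ f) = ((N / w : ℕ) : ℤ) * v.ord f) := by
  by_cases hneg : v.ord j < 0
  · obtain ⟨ξ, w, hw0, hwN, hwξ, -, hξ⟩ := h.dict_cusp V v hneg
    exact ⟨ξ, Or.inr (Or.inr (Or.inr ⟨w, hw0, hwN, hwξ, hξ⟩))⟩
  · have hmem : j ∈ v.toValuationSubring := H19.mem_of_ord_nonneg v (not_lt.mp hneg)
    obtain ⟨c, hc⟩ := H19.residue_eq j h.transcendental_j h.finite v hmem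
    rcases hc with hc | hc
    · exact absurd (hc ▸ isAlgebraic_algebraMap c) h.transcendental_j
    · by_cases h0 : c = 0
      · subst h0
        obtain ⟨ξ, e, he, hξ⟩ := h.dict_rho V v hc
        exact ⟨ξ, Or.inr (Or.inr (Or.inl ⟨e, he, hξ⟩))⟩
      · by_cases h1 : c = 1728
        · subst h1
          obtain ⟨ξ, e, he, hξ⟩ := h.dict_I V v hc
          exact ⟨ξ, Or.inr (Or.inl ⟨e, he, hξ⟩)⟩
        · obtain ⟨z₀, hz₀⟩ := H38.J_surjective (ι c)
          obtain ⟨ξ, hξ⟩ := h.dict_generic V c h0 h1 z₀ hz₀ v hc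
          exact ⟨ξ, Or.inl ⟨z₀, hξ⟩⟩

/-- **The dictionary, weak form**: every place of `F/K` is `1/k` times an analytic valuation
(at a point or at the cusp) of some conjugate `g • Φ f`, with `k ∣ 6 * N`. -/
theorem place_dict_weak [IsAlgClosed K] [CharZero K] (V : ValSpec N) (v : Place K F) :
    ∃ (z : ZVal (L N)) (g : SL(2, ℤ)) (k : ℕ), (z = V.cusp ∨ ∃ z₀ : ℍ, z = V.pt z₀) ∧
      0 < k ∧ k ∣ 6 * N ∧ ∀ f : F, f ≠ 0 → z.ord (g • Φ f) = k * v.ord f := by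
  obtain ⟨ξ, hξ | ⟨e, he, hξ⟩ | ⟨e, he, hξ⟩ | ⟨w, hw0, hwN, -, hξ⟩⟩ := h.place_dict V v
  · obtain ⟨z₀, hz₀⟩ := hξ
    refine ⟨V.pt z₀, ξ.out, 1, Or.inr ⟨z₀, rfl⟩, one_pos, one_dvd _, fun f hf => ?_⟩
    have := hz₀ f hf
    rw [conjOf_apply] at this
    rw [this]; simp
  · refine ⟨V.pt UpperHalfPlane.I, ξ.out, e, Or.inr ⟨_, rfl⟩, ?_, ?_, fun f hf => hξ f hf⟩
    · rcases he with ⟨rfl, -⟩ | ⟨rfl, -⟩ <;> norm_num
    · rcases he with ⟨rfl, -⟩ | ⟨rfl, -⟩
      · exact one_dvd _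
      · exact Dvd.dvd.mul_right (by norm_num) N
  · refine ⟨V.pt rho, ξ.out, e, Or.inr ⟨_, rfl⟩, ?_, ?_, fun f hf => hξ f hf⟩
    · rcases he with ⟨rfl, -⟩ | ⟨rfl, -⟩ <;> norm_num
    · rcases he with ⟨rfl, -⟩ | ⟨rfl, -⟩
      · exact one_dvd _
      · exact Dvd.dvd.mul_right (by norm_num) N
  · have hN : 0 < N := Nat.pos_of_ne_zero (NeZero.ne N)
    refine ⟨V.cusp, ξ.out, N / w, Or.inl rfl, Nat.div_pos (Nat.le_of_dvd hN hwN) hw0,
      Dvd.dvd.mul_left (Nat.div_dvd_of_dvd hwN) 6, fun f hf => hξ f hf⟩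

end IsCover

end Fermat.Agent.S29.H90
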