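import Mathlib
import Fermat.Agent.S29.CoverDict_helper90

/-!
# Divisibility of orders: places of `F/K` versus analytic orders (both directions)

For `h : IsCover ι Φ j jN` and `x : F`, `x ≠ 0`:

* **easy direction** (`IsCover.dvd_zval_of_dvd_place`, `dvd_pt_of_dvd_place`,
  `dvd_cusp_of_dvd_place`): if `m ∣ v.ord x` at every place `v` of `F/K`, then `m` divides the
  order of every conjugate `g • Φ x` at every point of the upper half plane and at the cusp
  (no hypothesis on `K`);
* **converse with the factor `6 N`** (`IsCover.dvd_place_of_dvd_ord`): if `m * (6 * N)` divides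
  the order of every conjugate `g • Φ x` at every point and at the cusp, then `m ∣ v.ord x` at
  every place (`K` algebraically closed of characteristic zero).
-/

set_option autoImplicit false

open AlgebraicCurve IntermediateField Polynomial
open Filter Topology UpperHalfPlane CongruenceSubgroup ModularForm ModularCurve ModularGroup
open scoped MatrixGroups ModularForm Manifold Real
open Fermat.Agent.S24 Fermat.Agent.S24.H31

noncomputable section

namespace Fermat.Agent.S29.H90

variable {N : ℕ} [NeZero N] {K F : Type*} [Field K] [Field F] [Algebra K F]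
  {ι : K →+* ℂ} {Φ : F →+* L N} {j jN : F}

namespace IsCover

variable (h : IsCover ι Φ j jN)
include h

/-- **Easy direction, general valuation.** If `m` divides the order of `x` at every place of
`F/K`, it divides the order of every conjugate `g • Φ x` for every `ℤ`-valuation of `L N` that
is trivial on the constants. -/
theorem dvd_zval_of_dvd_place (w : ZVal (L N))
    (hw : ∀ c : ℂ, c ≠ 0 → w.ord (algebraMap ℂ (L N) c) = 0) (g : SL(2, ℤ)) {x : F}
    (hx : x ≠ 0) {m : ℤ} (hdiv : ∀ v : Place K F, m ∣ v.ord x) : m ∣ w.ord (g • Φ x) := by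
  let W : ZVal F := w.comap ((MulSemiringAction.toRingHom SL(2, ℤ) (L N) g).comp Φ)
  have hWord : ∀ f : F, W.ord f = w.ord (g • Φ f) := fun f => rfl
  have hK : ∀ c : K, c ≠ 0 → W.ord (algebraMap K F c) = 0 := by
    intro c hc
    rw [hWord, h.smul_const, h.map_const]
    exact hw _ ((map_ne_zero ι).mpr hc)
  by_cases hnt : ∃ f : F, f ≠ 0 ∧ W.ord f ≠ 0
  · obtain ⟨v, k, -, hv⟩ := H19.exists_place_of_zval (K := K) W hK hnt
    rw [← hWord, hv x hx]
    exact Dvd.dvd.mul_left (hdiv v) k
  · have h0 : W.ord x = 0 := by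
      by_contra hne
      exact hnt ⟨x, hx, hne⟩
    rw [← hWord, h0]
    exact dvd_zero m

/-- **Easy direction at a point.** -/
theorem dvd_pt_of_dvd_place (V : ValSpec N) (z : ℍ) (g : SL(2, ℤ)) {x : F} (hx : x ≠ 0) {m : ℤ}
    (hdiv : ∀ v : Place K F, m ∣ v.ord x) : m ∣ (V.pt z).ord (g • Φ x) :=
  h.dvd_zval_of_dvd_place (V.pt z) (fun _ hc => H26.pt_ord_algebraMap_complex V z hc) g hx hdiv

/-- **Easy direction at the cusp.** -/
theorem dvd_cusp_of_dvd_place (V : ValSpec N) (g : SL(2, ℤ)) {x : F} (hx : x ≠ 0) {m : ℤ}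
    (hdiv : ∀ v : Place K F, m ∣ v.ord x) : m ∣ V.cusp.ord (g • Φ x) :=
  h.dvd_zval_of_dvd_place V.cusp (fun _ hc => H26.cusp_ord_algebraMap_complex V hc) g hx hdiv

/-- **Converse with the factor `6 N`.** If `m * (6 * N)` divides the order of every conjugate
`g • Φ x` at every point of the upper half plane and at the cusp, then `m` divides the order of
`x` at every place of `F/K`. -/
theorem dvd_place_of_dvd_ord [IsAlgClosed K] [CharZero K] (V : ValSpec N) {x : F} (hx : x ≠ 0)
    {m : ℤ}
    (hpt : ∀ (g : SL(2, ℤ)) (z : ℍ), m * ((6 * N : ℕ) : ℤ) ∣ (V.pt z).ord (g • Φ x))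
    (hcusp : ∀ g : SL(2, ℤ), m * ((6 * N : ℕ) : ℤ) ∣ V.cusp.ord (g • Φ x))
    (v : Place K F) : m ∣ v.ord x := by
  obtain ⟨z, g, k, hz, hk0, hkN, hzv⟩ := h.place_dict_weak V v
  have h1 : m * ((6 * N : ℕ) : ℤ) ∣ z.ord (g • Φ x) := by
    rcases hz with rfl | ⟨z₀, rfl⟩
    · exact hcusp g
    · exact hpt g z₀
  rw [hzv x hx] at h1
  obtain ⟨k', hk'⟩ := hkN
  have hk0' : (k : ℤ) ≠ 0 := by exact_mod_cast hk0.ne'
  have h2 : (k : ℤ) * (m * (k' : ℤ)) ∣ (k : ℤ) * v.ord x := by
    have e : m * ((6 * N : ℕ) : ℤ) = (k : ℤ) * (m * (k' : ℤ)) := by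
      rw [hk']; push_cast; ring
    rwa [e] at h1
  exact dvd_of_mul_right_dvd ((mul_dvd_mul_iff_left hk0').mp h2)

end IsCover

end Fermat.Agent.S29.H90
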