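import Mathlib
import Fermat.Agent.S24.Defs_helper31
import Fermat.Agent.S24.Fixed_helper26
import Fermat.Agent.S24.Conj_helper23

/-!
# S29 leaf (K2) (helper32): `Γ₀(N)`-invariants of `L N` are `ℂ(j, j_N)`

`L N` is the fraction field of the ring `RN N` of weakly holomorphic `Γ(N)`-modular functions
(landed S24 vocabulary).  We show that every element of `L N` fixed by `Γ₀(N)` lies in the
subfield generated by `ℂ`, `j` and `j_N = j(N·)`:

* `gamma0_fixed_mem_adjoin` / `gamma0_fixed_mem_closure`;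
* `mem_range_of_gamma0_fixed`: hence in the range of any field embedding `Φ : F →+* L N`
  whose range contains the constants, `j` and `j_N`.

Proof: the image `G` of `SL(2,ℤ)` in `RingAut (L N)` is finite (`Γ(N)` acts trivially), so by
Artin `L N` is Galois over `L^G` with group `G`; `L^G = ℂ(j)` (`H26.fixed_mem`); an element of
`Gal(L / L^G)` fixing `j_N` comes from `Γ₀(N)` (`H23.smul_algebraMap_jd_self_eq_iff`); conclude
by the Galois correspondence.
-/

set_option autoImplicit false

open UpperHalfPlane CongruenceSubgroup Polynomial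
open scoped MatrixGroups

namespace Fermat.Agent.S29.H32

open Fermat.Agent.S24.H31 Fermat.Agent.S24.H26 Fermat.Agent.S24.H23

noncomputable section

/-- `j` as an element of `L N`. -/
abbrev jL (N : ℕ) [NeZero N] : L N := algebraMap (RN N) (L N) (jd N 1 (one_dvd N))

/-- `j_N = j(N·)` as an element of `L N`. -/
abbrev jNL (N : ℕ) [NeZero N] : L N := algebraMap (RN N) (L N) (jd N N dvd_rfl)

/-- `Γ(N)` acts trivially on `L N`. -/
theorem gamma_smul_L {N : ℕ} (γ : SL(2, ℤ)) (hγ : γ ∈ Gamma N) (x : L N) : γ • x = x := by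
  obtain ⟨a, b, -, rfl⟩ := IsFractionRing.div_surjective (A := RN N) x
  have h := map_div₀ (MulSemiringAction.toRingHom SL(2, ℤ) (L N) γ)
    (algebraMap (RN N) (L N) a) (algebraMap (RN N) (L N) b)
  simp only [MulSemiringAction.toRingHom_apply] at h
  rw [h, smul_algebraMap_L, smul_algebraMap_L, gamma_smul_RN γ hγ, gamma_smul_RN γ hγ]

/-- The action of `SL(2,ℤ)` on `L N` as a homomorphism to `RingAut (L N)`. -/
abbrev actHom (N : ℕ) : SL(2, ℤ) →* RingAut (L N) := MulSemiringAction.toRingAut SL(2, ℤ) (L N)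

theorem gamma_le_ker (N : ℕ) : Gamma N ≤ (actHom N).ker := by
  intro γ hγ
  rw [MonoidHom.mem_ker]
  ext x
  exact gamma_smul_L γ hγ x

instance finite_range_actHom (N : ℕ) [NeZero N] : Finite (actHom N).range := by
  have : (actHom N).ker.FiniteIndex := Subgroup.finiteIndex_of_le (gamma_le_ker N)
  exact Finite.of_equiv _ (QuotientGroup.quotientKerEquivRange (actHom N)).toEquiv

/-- The fixed field of `SL(2,ℤ)` in `L N` is contained in `ℂ(j)`. -/
theorem fixed_mem_adjoin (N : ℕ) [NeZero N] (y : L N) (hy : ∀ g : SL(2, ℤ), g • y = y) :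
    y ∈ IntermediateField.adjoin ℂ ({jL N} : Set (L N)) := by
  obtain ⟨P, Q, hQ, hPQ⟩ := fixed_mem (jd N 1 (one_dvd N)) (jd_one_apply N) y hy
  have hQ0 : aeval (jL N) Q ≠ 0 := fun h =>
    hQ ((transcendental_iff.mp (transcendental_jL _ (jd_one_apply N))) Q h)
  have hmem : ∀ R : ℂ[X], aeval (jL N) R ∈ IntermediateField.adjoin ℂ ({jL N} : Set (L N)) :=
    fun R => IntermediateField.algebra_adjoin_le_adjoin ℂ _
      (Polynomial.aeval_mem_adjoin_singleton ℂ (jL N))
  rw [eq_div_of_mul_eq hQ0 hPQ]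
  exact div_mem (hmem P) (hmem Q)

/-- **(K2)**: every `Γ₀(N)`-fixed element of `L N` lies in `ℂ(j, j_N)`. -/
theorem gamma0_fixed_mem_adjoin (N : ℕ) [NeZero N] (x : L N)
    (hx : ∀ γ ∈ Gamma0 N, γ • x = x) :
    x ∈ IntermediateField.adjoin ℂ ({jL N, jNL N} : Set (L N)) := by
  set G := (actHom N).range with hG
  set M₀ := IntermediateField.adjoin ℂ ({jL N, jNL N} : Set (L N)) with hM₀
  set M : IntermediateField (FixedPoints.subfield G (L N)) (L N) :=
    IntermediateField.adjoin (FixedPoints.subfield G (L N)) ({jNL N} : Set (L N)) with hM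
  have hxM : x ∈ M := by
    rw [← IsGalois.fixedField_fixingSubgroup M, IntermediateField.mem_fixedField_iff]
    intro σ hσ
    have h1 : σ (jNL N) = jNL N :=
      hσ ⟨jNL N, IntermediateField.mem_adjoin_simple_self _ (jNL N)⟩
    obtain ⟨g, hg⟩ := (FixedPoints.toAlgAut_bijective G (L N)).2 σ
    obtain ⟨γ, hγ⟩ := g.2
    have h2 : ∀ y : L N, σ y = γ • y := by
      intro y
      rw [← hg]
      show (g : RingAut (L N)) y = γ • y
      rw [← hγ]
      rfl
    have hγ0 : γ ∈ Gamma0 N :=
      (smul_algebraMap_jd_self_eq_iff N γ).mp (by rw [← h2]; exact h1)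
    rw [h2]
    exact hx γ hγ0
  have hle : M.toSubfield ≤ M₀.toSubfield := by
    rw [hM, IntermediateField.adjoin_toSubfield, Subfield.closure_le]
    rintro y (⟨c, rfl⟩ | hy)
    · have hc : ∀ g : SL(2, ℤ), g • (c : L N) = c := fun g => c.2 ⟨actHom N g, g, rfl⟩
      exact IntermediateField.adjoin.mono ℂ _ _ (by simp) (fixed_mem_adjoin N c hc)
    · rw [Set.mem_singleton_iff] at hy
      rw [hy]
      exact IntermediateField.subset_adjoin ℂ _ (by simp)
  exact hle hxM

/-- **(K2)**, `Subfield.closure` form. -/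
theorem gamma0_fixed_mem_closure (N : ℕ) [NeZero N] (x : L N)
    (hx : ∀ γ ∈ Gamma0 N, γ • x = x) :
    x ∈ Subfield.closure (Set.range (algebraMap ℂ (L N)) ∪ ({jL N, jNL N} : Set (L N))) := by
  have h := gamma0_fixed_mem_adjoin N x hx
  rw [← IntermediateField.mem_toSubfield, IntermediateField.adjoin_toSubfield] at h
  exact h

/-- **(K2)**, consumer form: a field embedding into `L N` whose range contains the constants,
`j` and `j_N` is onto the `Γ₀(N)`-invariants. -/
theorem mem_range_of_gamma0_fixed (N : ℕ) [NeZero N] {F : Type*} [Field F] (Φ : F →+* L N)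
    (hc : ∀ c : ℂ, algebraMap ℂ (L N) c ∈ Φ.range) (hj : jL N ∈ Φ.range)
    (hjN : jNL N ∈ Φ.range) (x : L N) (hx : ∀ γ ∈ Gamma0 N, γ • x = x) : x ∈ Φ.range := by
  have h := gamma0_fixed_mem_closure N x hx
  have hle : Subfield.closure (Set.range (algebraMap ℂ (L N)) ∪ ({jL N, jNL N} : Set (L N)))
      ≤ Φ.fieldRange := by
    rw [Subfield.closure_le]
    rintro y (⟨c, rfl⟩ | hy)
    · exact hc c
    · rcases hy with rfl | hy
      · exact hj
      · rw [Set.mem_singleton_iff] at hy
        rw [hy]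
        exact hjN
  exact hle h

/-- Uniqueness of the preimage (a ring hom out of a field is injective). -/
theorem existsUnique_of_gamma0_fixed (N : ℕ) [NeZero N] {F : Type*} [Field F] (Φ : F →+* L N)
    (hc : ∀ c : ℂ, algebraMap ℂ (L N) c ∈ Φ.range) (hj : jL N ∈ Φ.range)
    (hjN : jNL N ∈ Φ.range) (x : L N) (hx : ∀ γ ∈ Gamma0 N, γ • x = x) : ∃! f : F, Φ f = x := by
  obtain ⟨f, hf⟩ := mem_range_of_gamma0_fixed N Φ hc hj hjN x hx
  exact ⟨f, hf, fun f' hf' => Φ.injective (hf'.trans hf.symm)⟩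

end

end Fermat.Agent.S29.H32
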