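import Mathlib
import Fermat.Agent.S29.Gamma0Fixed_helper32
import Fermat.Agent.S29.Cover_helper90

/-!
# S29 (K2) for an `IsCover` (helper32)

For a cover `h : H90.IsCover ι Φ j jN` whose constant embedding `ι : K →+* ℂ` is surjective
(the `ℂ`-model: `ι = RingHom.id ℂ`), the range of `Φ` is exactly the field of `Γ₀(N)`-fixed
elements of `L N`.
-/

set_option autoImplicit false

open UpperHalfPlane CongruenceSubgroup
open scoped MatrixGroups

namespace Fermat.Agent.S29.H32

open Fermat.Agent.S24.H31 Fermat.Agent.S29.H90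

variable {N : ℕ} [NeZero N] {K F : Type*} [Field K] [Field F] [Algebra K F]
  {ι : K →+* ℂ} {Φ : F →+* L N} {j jN : F}

/-- **(K2)** for a cover with surjective constant embedding: every `Γ₀(N)`-fixed element of
`L N` is in the range of `Φ`. -/
theorem isCover_exists_eq_of_fixed (h : IsCover ι Φ j jN) (hι : Function.Surjective ι)
    (x : L N) (hx : ∀ γ ∈ Gamma0 N, γ • x = x) : ∃ f : F, Φ f = x := by
  refine mem_range_of_gamma0_fixed N Φ (fun c => ?_) ⟨j, h.map_j⟩ ⟨jN, h.map_jN⟩ x hx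
  obtain ⟨a, rfl⟩ := hι c
  exact ⟨algebraMap K F a, h.map_const a⟩

/-- The preimage is unique. -/
theorem isCover_existsUnique_eq_of_fixed (h : IsCover ι Φ j jN) (hι : Function.Surjective ι)
    (x : L N) (hx : ∀ γ ∈ Gamma0 N, γ • x = x) : ∃! f : F, Φ f = x := by
  obtain ⟨f, hf⟩ := isCover_exists_eq_of_fixed h hι x hx
  exact ⟨f, hf, fun f' hf' => Φ.injective (hf'.trans hf.symm)⟩

/-- The range of `Φ` is exactly the set of `Γ₀(N)`-fixed elements. -/
theorem isCover_mem_range_iff_fixed (h : IsCover ι Φ j jN) (hι : Function.Surjective ι)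
    (x : L N) : (∃ f : F, Φ f = x) ↔ ∀ γ ∈ Gamma0 N, γ • x = x := by
  constructor
  · rintro ⟨f, rfl⟩ γ hγ
    exact h.inv γ hγ f
  · exact isCover_exists_eq_of_fixed h hι x

/-- For `K = ℂ`, `ι = id`. -/
theorem isCover_exists_eq_of_fixed_id {F : Type*} [Field F] [Algebra ℂ F] {Φ : F →+* L N}
    {j jN : F} (h : IsCover (RingHom.id ℂ) Φ j jN)
    (x : L N) (hx : ∀ γ ∈ Gamma0 N, γ • x = x) : ∃ f : F, Φ f = x :=
  isCover_exists_eq_of_fixed h Function.surjective_id x hx

end Fermat.Agent.S29.H32
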