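/-
helper29, S29/S42 tree, leaf (ROOT): analytic `p`-th roots on the upper half plane.

* `exists_root_ball_of_ne_zero` : nowhere vanishing analytic functions on a disc have `p`-th roots
  (primitive of the logarithmic derivative);
* `exists_root_of_unity_of_pow_eq` (ROOT-UNIQ) : two analytic functions on a preconnected set
  with equal `p`-th powers differ by a `p`-th root of unity;
* `exists_root_ball` : local roots near a closed disc (zeros split off by Mathlib's
  factorized rational functions);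
* `exists_root_of_exhaustion` : gluing along an increasing exhaustion;
* `exists_analytic_pow_eq_of_order`, `exists_analytic_pow_eq`, `exists_analytic_pow_eq_of_dvd`,
  `exists_mdiff_pow_eq`, `exists_mdiff_pow_eq_mul` : (ROOT) on the upper half plane, for
  functions on the complex numbers or on the upper half plane type;
* `exists_root_of_unity_of_pow_eq_uhp`, `exists_character_of_pow_eq` (CHAR) : the multiplier of
  a root of an invariant function is a character with values in the `p`-th roots of unity.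

Mathlib only.
-/
import Mathlib

set_option autoImplicit false

open Complex Metric Set Filter Topology
open UpperHalfPlane hiding I
open scoped MatrixGroups Manifold

namespace Fermat.Agent.S29.H29

/-- (ROOT-A) A nowhere vanishing analytic function on an open disc has an analytic `p`-th root. -/
theorem exists_root_ball_of_ne_zero {g : ℂ → ℂ} {c : ℂ} {r : ℝ} {p : ℕ} (hp : p ≠ 0)
    (hg : AnalyticOnNhd ℂ g (ball c r)) (hg0 : ∀ z ∈ ball c r, g z ≠ 0) :
    ∃ h : ℂ → ℂ, AnalyticOnNhd ℂ h (ball c r) ∧ ∀ z ∈ ball c r, h z ^ p = g z := by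
  rcases le_or_gt r 0 with hr | hr
  · refine ⟨fun _ => 0, ?_, ?_⟩
    · intro z hz; rw [ball_eq_empty.mpr hr] at hz; exact absurd hz (notMem_empty z)
    · intro z hz; rw [ball_eq_empty.mpr hr] at hz; exact absurd hz (notMem_empty z)
  have hgd : DifferentiableOn ℂ g (ball c r) := hg.differentiableOn
  have hdg : DifferentiableOn ℂ (deriv g) (ball c r) := hgd.deriv isOpen_ball
  have hq : DifferentiableOn ℂ (fun z => deriv g z / g z) (ball c r) := hdg.div hgd hg0
  obtain ⟨L, hL⟩ := hq.isExactOn_ball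
  -- φ = g * exp (-L) has zero derivative
  have hφ : ∀ z ∈ ball c r, HasDerivAt (fun z => g z * Complex.exp (-L z)) 0 z := by
    intro z hz
    have h1 : HasDerivAt g (deriv g z) z :=
      (hgd.differentiableAt (isOpen_ball.mem_nhds hz)).hasDerivAt
    have h2 : HasDerivAt (fun z => Complex.exp (-L z))
        (Complex.exp (-L z) * (-(deriv g z / g z))) z := (hL z hz).neg.cexp
    have h3 := h1.mul h2
    have hgz0 := hg0 z hz
    have e : g z * (Complex.exp (-L z) * -(deriv g z / g z)) = -(deriv g z * Complex.exp (-L z)) := by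
      field_simp
    rw [e, add_neg_cancel] at h3
    exact h3
  have hconst : ∀ z ∈ ball c r, g z * Complex.exp (-L z) = g c * Complex.exp (-L c) := by
    intro z hz
    refine isOpen_ball.is_const_of_deriv_eq_zero (convex_ball c r).isPreconnected
      (fun w hw => (hφ w hw).differentiableAt.differentiableWithinAt)
      (fun w hw => (hφ w hw).deriv) hz (mem_ball_self hr)
  set a : ℂ := g c * Complex.exp (-L c) with ha
  have ha0 : a ≠ 0 := mul_ne_zero (hg0 c (mem_ball_self hr)) (Complex.exp_ne_zero _)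
  have hgz : ∀ z ∈ ball c r, g z = Complex.exp (L z + Complex.log a) := by
    intro z hz
    rw [Complex.exp_add, Complex.exp_log ha0, ← hconst z hz, mul_comm (Complex.exp (L z)),
      mul_assoc, ← Complex.exp_add]
    simp
  have hLd : DifferentiableOn ℂ L (ball c r) :=
    fun z hz => (hL z hz).differentiableAt.differentiableWithinAt
  refine ⟨fun z => Complex.exp ((L z + Complex.log a) / p), ?_, ?_⟩
  · apply DifferentiableOn.analyticOnNhd _ isOpen_ball
    exact ((hLd.add_const _).div_const _).cexp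
  · intro z hz
    rw [← Complex.exp_nat_mul, mul_div_cancel₀ _ (by exact_mod_cast hp : (p : ℂ) ≠ 0), hgz z hz]

/-- A finite product of analytic functions vanishing identically on a nonempty preconnected
set has a factor vanishing identically. -/
theorem exists_eq_zero_of_prod_eq_zero {ι : Type*} (s : Finset ι) (F : ι → ℂ → ℂ) {U : Set ℂ}
    (hU : IsPreconnected U) (hne : U.Nonempty)
    (hF : ∀ i ∈ s, AnalyticOnNhd ℂ (F i) U) (h : ∀ z ∈ U, ∏ i ∈ s, F i z = 0) :
    ∃ i ∈ s, ∀ z ∈ U, F i z = 0 := by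
  classical
  induction s using Finset.induction_on with
  | empty =>
    obtain ⟨z, hz⟩ := hne
    simpa using h z hz
  | insert a s ha ih =>
    have h1 : AnalyticOnNhd ℂ (F a) U := hF a (Finset.mem_insert_self a s)
    have h2 : AnalyticOnNhd ℂ (fun z => ∏ i ∈ s, F i z) U :=
      Finset.analyticOnNhd_fun_prod s (fun i hi => hF i (Finset.mem_insert_of_mem hi))
    have h3 : ∀ z ∈ U, F a z * (fun z => ∏ i ∈ s, F i z) z = 0 := by
      intro z hz
      have := h z hz
      rwa [Finset.prod_insert ha] at this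
    rcases h1.eq_zero_or_eq_zero_of_mul_eq_zero h2 h3 hU with h4 | h4
    · exact ⟨a, Finset.mem_insert_self a s, h4⟩
    · obtain ⟨i, hi, hi'⟩ := ih (fun i hi => hF i (Finset.mem_insert_of_mem hi)) h4
      exact ⟨i, Finset.mem_insert_of_mem hi, hi'⟩

/-- (ROOT-UNIQ) Two analytic functions on a preconnected set with the same `p`-th power differ
by a `p`-th root of unity. -/
theorem exists_root_of_unity_of_pow_eq {g h : ℂ → ℂ} {U : Set ℂ} {p : ℕ} (hp : p ≠ 0)
    (hU : IsPreconnected U) (hg : AnalyticOnNhd ℂ g U) (hh : AnalyticOnNhd ℂ h U)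
    (hgh : ∀ z ∈ U, g z ^ p = h z ^ p) :
    ∃ ζ : ℂ, ζ ^ p = 1 ∧ ∀ z ∈ U, g z = ζ * h z := by
  rcases U.eq_empty_or_nonempty with hU0 | hne
  · exact ⟨1, one_pow p, fun z hz => by rw [hU0] at hz; exact absurd hz (notMem_empty z)⟩
  have hprim := Complex.isPrimitiveRoot_exp p hp
  have hpos : 0 < p := Nat.pos_of_ne_zero hp
  have key : ∀ z ∈ U, ∏ ζ ∈ Polynomial.nthRootsFinset p (1 : ℂ), (g z - ζ * h z) = 0 := by
    intro z hz
    rw [← hprim.pow_sub_pow_eq_prod_sub_mul (g z) (h z) hpos, hgh z hz, sub_self]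
  obtain ⟨ζ, hζ, hζ'⟩ := exists_eq_zero_of_prod_eq_zero (Polynomial.nthRootsFinset p (1 : ℂ))
    (fun ζ z => g z - ζ * h z) hU hne
    (fun ζ _ => hg.sub (analyticOnNhd_const.mul hh)) key
  refine ⟨ζ, (Polynomial.mem_nthRootsFinset hpos 1).mp hζ, fun z hz => ?_⟩
  exact sub_eq_zero.mp (hζ' z hz)

/-- (ROOT-B) An analytic function near a closed disc all of whose orders of vanishing are
multiples of `p` has an analytic `p`-th root on the open disc. -/
theorem exists_root_ball {f : ℂ → ℂ} {c : ℂ} {r : ℝ} {p : ℕ} (hp : p ≠ 0)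
    (hf : AnalyticOnNhd ℂ f (closedBall c r))
    (hdiv : ∀ u ∈ closedBall c r, ∃ m : ℕ, analyticOrderAt f u = ((p * m : ℕ) : ℕ∞)) :
    ∃ h : ℂ → ℂ, AnalyticOnNhd ℂ h (ball c r) ∧ ∀ z ∈ ball c r, h z ^ p = f z := by
  classical
  set K : Set ℂ := closedBall c r with hK
  have hmer : MeromorphicOn f K := hf.meromorphicOn
  have hord : ∀ u ∈ K, ∃ m : ℕ, meromorphicOrderAt f u = (((p * m : ℕ) : ℤ) : WithTop ℤ) := by
    intro u hu
    obtain ⟨m, hm⟩ := hdiv u hu
    refine ⟨m, ?_⟩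
    rw [(hf u hu).meromorphicOrderAt_eq, hm]
    rfl
  have h2 : ∀ u : K, meromorphicOrderAt f u ≠ ⊤ := by
    rintro ⟨u, hu⟩
    obtain ⟨m, hm⟩ := hord u hu
    rw [hm]
    exact WithTop.coe_ne_top
  have h3 : (MeromorphicOn.divisor f K).support.Finite :=
    (MeromorphicOn.divisor f K).finiteSupport (isCompact_closedBall c r)
  obtain ⟨g0, hg0, hg0ne, heq⟩ := hmer.extract_zeros_poles h2 h3
  have hD : ∀ u : ℂ, ∃ m : ℕ, MeromorphicOn.divisor f K u = ((p * m : ℕ) : ℤ) := by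
    intro u
    by_cases hu : u ∈ K
    · obtain ⟨m, hm⟩ := hord u hu
      refine ⟨m, ?_⟩
      rw [MeromorphicOn.divisor_apply hmer hu, hm]
      rfl
    · refine ⟨0, ?_⟩
      rw [Function.locallyFinsuppWithin.apply_eq_zero_of_notMem _ hu]
      simp
  choose m hm using hD
  have hsupp : (fun u : ℂ => (m u : ℤ)).support ⊆ (MeromorphicOn.divisor f K).support := by
    intro u hu
    simp only [Function.mem_support, ne_eq, Nat.cast_eq_zero] at hu ⊢
    rw [hm u]
    intro h0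
    apply hu
    have : p * m u = 0 := by exact_mod_cast h0
    rcases Nat.mul_eq_zero.mp this with h | h
    · exact absurd h hp
    · exact h
  have hfin : (fun u : ℂ => (m u : ℤ)).support.Finite := h3.subset hsupp
  set Q : ℂ → ℂ := ∏ᶠ u, (· - u) ^ (m u : ℤ) with hQ
  have hQfin : (fun u : ℂ => ((· - u) ^ (m u : ℤ) : ℂ → ℂ)).HasFiniteMulSupport := by
    unfold Function.HasFiniteMulSupport
    rw [Function.FactorizedRational.mulSupport]
    exact hfin
  have hQpow : Q ^ p = ∏ᶠ u, (· - u) ^ (MeromorphicOn.divisor f K u) := by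
    rw [hQ, finprod_pow hQfin]
    congr 1
    funext u
    rw [hm u, ← zpow_natCast, ← zpow_mul]
    congr 1
    push_cast
    ring
  have hQan : ∀ x, AnalyticAt ℂ Q x := fun x =>
    Function.FactorizedRational.analyticAt (by positivity)
  obtain ⟨h0, hh0, hh0p⟩ := exists_root_ball_of_ne_zero hp
    (hg0.mono ball_subset_closedBall) (fun z hz => hg0ne ⟨z, ball_subset_closedBall hz⟩)
  refine ⟨fun z => Q z * h0 z, fun z hz => (hQan z).mul (hh0 z hz), ?_⟩
  intro z hz
  have hA : AnalyticOnNhd ℂ (fun z => (Q z * h0 z) ^ p) (ball c r) :=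
    fun w hw => ((hQan w).mul (hh0 w hw)).pow p
  have hfb : AnalyticOnNhd ℂ f (ball c r) := hf.mono ball_subset_closedBall
  refine hA.eqOn_of_preconnected_of_frequently_eq hfb (convex_ball c r).isPreconnected hz ?_ hz
  apply Eventually.frequently
  have h5 := (mem_codiscreteWithin_iff_forall_mem_nhdsNE.mp heq) z (ball_subset_closedBall hz)
  have h6 : ball c r ∈ 𝓝[≠] z := mem_nhdsWithin_of_mem_nhds (isOpen_ball.mem_nhds hz)
  filter_upwards [h5, h6] with w hw hwb
  rcases hw with hw | hw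
  · have hw' : f w = ((∏ᶠ u, (· - u) ^ (MeromorphicOn.divisor f K u)) • g0) w := hw
    rw [hw', ← hQpow, mul_pow, hh0p w hwb]
    rfl
  · exact absurd (ball_subset_closedBall hwb) hw

/-- (ROOT-D) Gluing of `p`-th roots along an increasing exhaustion by preconnected open sets. -/
theorem exists_root_of_exhaustion {f : ℂ → ℂ} {p : ℕ} (hp : p ≠ 0) (V : ℕ → Set ℂ)
    (hVo : ∀ n, IsOpen (V n)) (hVc : ∀ n, IsPreconnected (V n)) (hVm : ∀ n, V n ⊆ V (n + 1))
    (hloc : ∀ n, ∃ g : ℂ → ℂ, AnalyticOnNhd ℂ g (V n) ∧ ∀ z ∈ V n, g z ^ p = f z) :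
    ∃ g : ℂ → ℂ, AnalyticOnNhd ℂ g (⋃ n, V n) ∧ ∀ z ∈ ⋃ n, V n, g z ^ p = f z := by
  classical
  choose g hg hgp using hloc
  have hζ : ∀ n, ∃ ζ : ℂ, ζ ^ p = 1 ∧ ∀ z ∈ V n, g (n + 1) z = ζ * g n z := fun n =>
    exists_root_of_unity_of_pow_eq hp (hVc n) ((hg (n + 1)).mono (hVm n)) (hg n)
      (fun z hz => by rw [hgp (n + 1) z (hVm n hz), hgp n z hz])
  choose ζ hζ1 hζ2 using hζ
  have hζ0 : ∀ n, ζ n ≠ 0 := fun n h => by
    have := hζ1 n
    rw [h, zero_pow hp] at this
    exact zero_ne_one this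
  set c : ℕ → ℂ := fun n => ∏ i ∈ Finset.range n, ζ i with hc_def
  have hc : ∀ n, c n ^ p = 1 := by
    intro n
    simp only [hc_def, ← Finset.prod_pow, hζ1, Finset.prod_const_one]
  have hc0 : ∀ n, c n ≠ 0 := fun n h => by
    have := hc n
    rw [h, zero_pow hp] at this
    exact zero_ne_one this
  have hcs : ∀ n, c (n + 1) = c n * ζ n := fun n => Finset.prod_range_succ _ _
  set G : ℕ → ℂ → ℂ := fun n z => (c n)⁻¹ * g n z with hG_def
  have hG1 : ∀ n, ∀ z ∈ V n, G (n + 1) z = G n z := by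
    intro n z hz
    simp only [hG_def]
    rw [hcs n, hζ2 n z hz]
    have h1 := hc0 n
    have h2 := hζ0 n
    field_simp
  have hVmono : ∀ m n, m ≤ n → V m ⊆ V n := fun m n hmn =>
    (monotone_nat_of_le_succ (f := V) hVm) hmn
  have hG2 : ∀ m n, m ≤ n → ∀ z ∈ V m, G n z = G m z := by
    intro m n hmn
    induction n, hmn using Nat.le_induction with
    | base => intro z _; rfl
    | succ n hmn ih =>
      intro z hz
      rw [hG1 n z (hVmono m n hmn hz), ih z hz]
  have hGp : ∀ n, ∀ z ∈ V n, G n z ^ p = f z := by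
    intro n z hz
    simp only [hG_def, mul_pow, inv_pow, hc n, inv_one, one_mul, hgp n z hz]
  have hGan : ∀ n, AnalyticOnNhd ℂ (G n) (V n) := fun n => analyticOnNhd_const.mul (hg n)
  set N : ℂ → ℕ := fun z => if h : ∃ n, z ∈ V n then Nat.find h else 0 with hN_def
  have key : ∀ n, ∀ z ∈ V n, G (N z) z = G n z := by
    intro n z hz
    have h : ∃ n, z ∈ V n := ⟨n, hz⟩
    simp only [hN_def, dif_pos h]
    exact (hG2 _ _ (Nat.find_min' h hz) z (Nat.find_spec h)).symm
  refine ⟨fun z => G (N z) z, ?_, ?_⟩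
  · intro z hz
    obtain ⟨n, hn⟩ := mem_iUnion.mp hz
    exact ((hGan n) z hn).congr
      (eventually_of_mem ((hVo n).mem_nhds hn) (fun w hw => (key n w hw).symm))
  · intro z hz
    obtain ⟨n, hn⟩ := mem_iUnion.mp hz
    simp only
    rw [key n z hn]
    exact hGp n z hn

/-- centres of the exhausting discs of the upper half plane -/
noncomputable def discCen (n : ℕ) : ℂ := ((n : ℝ) + 1 : ℝ) * I

/-- radii of the exhausting discs of the upper half plane -/
noncomputable def discRad (n : ℕ) : ℝ := ((n : ℝ) + 1) - 1 / ((n : ℝ) + 2)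

theorem discRad_pos (n : ℕ) : 0 < discRad n := by
  unfold discRad
  have h1 : (0 : ℝ) ≤ n := Nat.cast_nonneg n
  have h2 : 1 / ((n : ℝ) + 2) < 1 := by
    rw [div_lt_one (by linarith)]
    linarith
  linarith

theorem closedBall_disc_subset (n : ℕ) :
    closedBall (discCen n) (discRad n) ⊆ {z : ℂ | 0 < z.im} := by
  intro z hz
  rw [mem_closedBall, dist_eq_norm] at hz
  have h1 : |(z - discCen n).im| ≤ ‖z - discCen n‖ := Complex.abs_im_le_norm _
  have h2 : (z - discCen n).im = z.im - ((n : ℝ) + 1) := by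
    simp [discCen]
  rw [h2] at h1
  have h3 := (abs_le.mp (h1.trans hz)).1
  have h4 : (0 : ℝ) < 1 / ((n : ℝ) + 2) := by positivity
  simp only [Set.mem_ofPred_eq]
  unfold discRad at h3
  linarith

theorem ball_disc_mono (n : ℕ) :
    ball (discCen n) (discRad n) ⊆ ball (discCen (n + 1)) (discRad (n + 1)) := by
  apply ball_subset_ball'
  have h1 : dist (discCen n) (discCen (n + 1)) = 1 := by
    rw [dist_eq_norm]
    have : discCen n - discCen (n + 1) = -I := by
      simp only [discCen]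
      push_cast
      ring
    rw [this, norm_neg, Complex.norm_I]
  rw [h1]
  unfold discRad
  have h0 : (0 : ℝ) ≤ n := Nat.cast_nonneg n
  have h2 : 1 / (((n + 1 : ℕ) : ℝ) + 2) ≤ 1 / ((n : ℝ) + 2) := by
    apply one_div_le_one_div_of_le (by linarith)
    push_cast
    linarith
  push_cast at h2 ⊢
  linarith

theorem iUnion_ball_disc : ⋃ n, ball (discCen n) (discRad n) = {z : ℂ | 0 < z.im} := by
  apply Subset.antisymm
  · intro z hz
    obtain ⟨n, hn⟩ := mem_iUnion.mp hz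
    exact closedBall_disc_subset n (ball_subset_closedBall hn)
  · intro z hz
    simp only [Set.mem_ofPred_eq] at hz
    obtain ⟨n, hn⟩ := exists_nat_gt ((z.re ^ 2 + z.im ^ 2 + 2) / (2 * z.im))
    refine mem_iUnion.mpr ⟨n, ?_⟩
    rw [mem_ball, dist_eq_norm]
    have h0 : (0 : ℝ) ≤ n := Nat.cast_nonneg n
    have hrad := discRad_pos n
    have hsq : ‖z - discCen n‖ ^ 2 < discRad n ^ 2 := by
      rw [Complex.sq_norm, Complex.normSq_apply]
      have hre : (z - discCen n).re = z.re := by simp [discCen]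
      have him : (z - discCen n).im = z.im - ((n : ℝ) + 1) := by simp [discCen]
      rw [hre, him]
      have h3 : z.re ^ 2 + z.im ^ 2 + 2 < 2 * z.im * ((n : ℝ) + 1) := by
        have := (div_lt_iff₀ (by linarith : (0 : ℝ) < 2 * z.im)).mp hn
        nlinarith
      unfold discRad
      have h4 : (0 : ℝ) < 1 / ((n : ℝ) + 2) := by positivity
      have h5 : ((n : ℝ) + 1) * (1 / ((n : ℝ) + 2)) < 1 := by
        rw [mul_one_div, div_lt_one (by linarith)]
        linarith
      nlinarith [sq_nonneg (1 / ((n : ℝ) + 2))]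
    exact lt_of_pow_lt_pow_left₀ 2 hrad.le hsq

/-- (ROOT), order form. An analytic function on the upper half plane all of whose orders of
vanishing are (finite) multiples of `p` has an analytic `p`-th root there. -/
theorem exists_analytic_pow_eq_of_order {f : ℂ → ℂ} {p : ℕ} (hp : p ≠ 0)
    (hf : AnalyticOnNhd ℂ f {z : ℂ | 0 < z.im})
    (hdiv : ∀ z : ℂ, 0 < z.im → ∃ m : ℕ, analyticOrderAt f z = ((p * m : ℕ) : ℕ∞)) :
    ∃ g : ℂ → ℂ, AnalyticOnNhd ℂ g {z : ℂ | 0 < z.im} ∧ ∀ z : ℂ, 0 < z.im → g z ^ p = f z := by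
  have hloc : ∀ n, ∃ g : ℂ → ℂ, AnalyticOnNhd ℂ g (ball (discCen n) (discRad n)) ∧
      ∀ z ∈ ball (discCen n) (discRad n), g z ^ p = f z := fun n =>
    exists_root_ball hp (hf.mono (closedBall_disc_subset n))
      (fun u hu => hdiv u (closedBall_disc_subset n hu))
  obtain ⟨g, hg, hgp⟩ := exists_root_of_exhaustion hp _ (fun _ => isOpen_ball)
    (fun _ => (convex_ball _ _).isPreconnected) ball_disc_mono hloc
  rw [iUnion_ball_disc] at hg hgp
  exact ⟨g, hg, fun z hz => hgp z hz⟩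

/-- (ROOT), in the literal form announced on the board. -/
theorem exists_analytic_pow_eq {f : ℂ → ℂ} {p : ℕ} (hp : p ≠ 0)
    (hf : AnalyticOnNhd ℂ f {z | 0 < z.im}) (_hne : ∃ z, 0 < z.im ∧ f z ≠ 0)
    (hdiv : ∀ z, 0 < z.im → ∃ m : ℕ, analyticOrderAt f z = (p * m : ℕ)) :
    ∃ g : ℂ → ℂ, AnalyticOnNhd ℂ g {z | 0 < z.im} ∧ ∀ z, 0 < z.im → g z ^ p = f z :=
  exists_analytic_pow_eq_of_order hp hf hdiv

/-- (ROOT), divisibility form: `f ≢ 0` and `p ∣ ord_z f` for all `z`. -/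
theorem exists_analytic_pow_eq_of_dvd {f : ℂ → ℂ} {p : ℕ} (hp : p ≠ 0)
    (hf : AnalyticOnNhd ℂ f {z : ℂ | 0 < z.im}) (hne : ∃ z : ℂ, 0 < z.im ∧ f z ≠ 0)
    (hdiv : ∀ z : ℂ, 0 < z.im → p ∣ (analyticOrderAt f z).toNat) :
    ∃ g : ℂ → ℂ, AnalyticOnNhd ℂ g {z : ℂ | 0 < z.im} ∧ ∀ z : ℂ, 0 < z.im → g z ^ p = f z := by
  obtain ⟨x, hx, hfx⟩ := hne
  have hx' : analyticOrderAt f x ≠ ⊤ := by
    have h0 : analyticOrderAt f x = 0 := by
      rw [analyticOrderAt_eq_zero]
      exact Or.inr hfx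
    rw [h0]
    exact ENat.zero_ne_top
  refine exists_analytic_pow_eq_of_order hp hf (fun z hz => ?_)
  have hz' : analyticOrderAt f z ≠ ⊤ :=
    hf.analyticOrderAt_ne_top_of_isPreconnected (convex_halfSpace_im_gt 0).isPreconnected hx hz hx'
  obtain ⟨m, hm⟩ := hdiv z hz
  refine ⟨m, ?_⟩
  rw [← hm, ENat.natCast_toNat hz']

/-- (ROOT-UNIQ) on `ℍ`. -/
theorem exists_root_of_unity_of_pow_eq_uhp {g h : ℍ → ℂ} {p : ℕ} (hp : p ≠ 0)
    (hg : MDiff g) (hh : MDiff h) (hgh : ∀ z : ℍ, g z ^ p = h z ^ p) :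
    ∃ ζ : ℂ, ζ ^ p = 1 ∧ ∀ z : ℍ, g z = ζ * h z := by
  have hg' : AnalyticOnNhd ℂ (g ∘ ofComplex) {z : ℂ | 0 < z.im} :=
    (UpperHalfPlane.mdifferentiable_iff.mp hg).analyticOnNhd isOpen_upperHalfPlaneSet
  have hh' : AnalyticOnNhd ℂ (h ∘ ofComplex) {z : ℂ | 0 < z.im} :=
    (UpperHalfPlane.mdifferentiable_iff.mp hh).analyticOnNhd isOpen_upperHalfPlaneSet
  obtain ⟨ζ, hζ, hζ'⟩ := exists_root_of_unity_of_pow_eq hp
    (convex_halfSpace_im_gt 0).isPreconnected hg' hh' (fun z _ => hgh (ofComplex z))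
  refine ⟨ζ, hζ, fun z => ?_⟩
  have := hζ' (z : ℂ) z.im_pos
  simpa [ofComplex_apply] using this

/-- (ROOT) on `ℍ`: a holomorphic `f ≢ 0` on `ℍ` with `p ∣ ord_z f` everywhere has a holomorphic
`p`-th root. The order is the one of the landed S24 layer:
`analyticOrderAt (f ∘ ofComplex) z`, so the hypothesis is `(p : ℤ) ∣ H90.ordAtFn z f`. -/
theorem exists_mdiff_pow_eq {f : ℍ → ℂ} {p : ℕ} (hp : p ≠ 0) (hf : MDiff f) (hf0 : f ≠ 0)
    (hdiv : ∀ z : ℍ, p ∣ (analyticOrderAt (f ∘ ofComplex) (z : ℂ)).toNat) :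
    ∃ g : ℍ → ℂ, MDiff g ∧ ∀ z : ℍ, g z ^ p = f z := by
  have hf' : AnalyticOnNhd ℂ (f ∘ ofComplex) {z : ℂ | 0 < z.im} :=
    (UpperHalfPlane.mdifferentiable_iff.mp hf).analyticOnNhd isOpen_upperHalfPlaneSet
  obtain ⟨x, hx⟩ : ∃ x : ℍ, f x ≠ 0 := by
    by_contra h
    exact hf0 (funext fun x => not_not.mp fun hx => h ⟨x, hx⟩)
  obtain ⟨G, hG, hGp⟩ := exists_analytic_pow_eq_of_dvd hp hf'
    ⟨(x : ℂ), x.im_pos, by simpa [ofComplex_apply] using hx⟩
    (fun z hz => hdiv ⟨z, hz⟩)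
  refine ⟨fun z : ℍ => G (z : ℂ), ?_, fun z => ?_⟩
  · rw [UpperHalfPlane.mdifferentiable_iff]
    refine hG.differentiableOn.congr (fun z hz => ?_)
    simp [Function.comp_apply, ofComplex_apply_of_im_pos hz]
  · have := hGp (z : ℂ) z.im_pos
    simpa [ofComplex_apply] using this

/-- Moebius maps of `SL(2, ℤ)` are holomorphic on `ℍ`. -/
theorem mdiff_smul_SL (γ : SL(2, ℤ)) : MDiff (fun τ : ℍ => γ • τ) := by
  have h := UpperHalfPlane.mdifferentiable_smul (g := (γ : GL (Fin 2) ℝ)) (by simp)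
  exact h

/-- (CHAR) The multiplier system of a holomorphic `g ≢ 0` on `ℍ` whose `p`-th power is invariant
under a subgroup `Γ` of `SL(2, ℤ)` is a character of `Γ` with values in the `p`-th roots of
unity. -/
theorem exists_character_of_pow_eq {g : ℍ → ℂ} {p : ℕ} (hp : p ≠ 0) (hg : MDiff g) (hg0 : g ≠ 0)
    (Γ : Subgroup SL(2, ℤ)) (hinv : ∀ γ ∈ Γ, ∀ z : ℍ, g (γ • z) ^ p = g z ^ p) :
    ∃ χ : Γ →* ℂˣ, (∀ γ, χ γ ^ p = 1) ∧
      ∀ (γ : Γ) (z : ℍ), g ((γ : SL(2, ℤ)) • z) = (χ γ : ℂ) * g z := by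
  obtain ⟨x, hx⟩ : ∃ x : ℍ, g x ≠ 0 := by
    by_contra h
    exact hg0 (funext fun x => not_not.mp fun hx => h ⟨x, hx⟩)
  have hex : ∀ γ : Γ, ∃ ζ : ℂ, ζ ^ p = 1 ∧ ∀ z : ℍ, g ((γ : SL(2, ℤ)) • z) = ζ * g z := fun γ =>
    exists_root_of_unity_of_pow_eq_uhp (g := fun z => g ((γ : SL(2, ℤ)) • z)) hp
      (hg.comp (mdiff_smul_SL (γ : SL(2, ℤ)))) hg (hinv γ γ.2)
  choose ζ hζ1 hζ2 using hex
  have hζ0 : ∀ γ, ζ γ ≠ 0 := fun γ h => by
    have := hζ1 γ
    rw [h, zero_pow hp] at this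
    exact zero_ne_one this
  have hone : ζ 1 = 1 := by
    have := hζ2 1 x
    simp only [OneMemClass.coe_one, one_smul] at this
    exact (mul_right_cancel₀ hx (by rw [one_mul]; exact this)).symm
  have hmul : ∀ a b : Γ, ζ (a * b) = ζ a * ζ b := by
    intro a b
    have h1 := hζ2 (a * b) x
    have h2 := hζ2 a ((b : SL(2, ℤ)) • x)
    have h3 := hζ2 b x
    rw [Subgroup.coe_mul, mul_smul, h2, h3, ← mul_assoc] at h1
    exact (mul_right_cancel₀ hx h1).symm
  refine ⟨{ toFun := fun γ => Units.mk0 (ζ γ) (hζ0 γ)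
            map_one' := Units.ext (by simpa using hone)
            map_mul' := fun a b => Units.ext (by simpa using hmul a b) }, ?_, ?_⟩
  · intro γ
    apply Units.ext
    simpa using hζ1 γ
  · intro γ z
    simpa using hζ2 γ z

/-- (ROOT), ratio form: if `A, B ≢ 0` are holomorphic on `ℍ` and `p ∣ ord_z A - ord_z B` for all
`z`, then `A * B ^ (p - 1)` has a holomorphic `p`-th root `r`; hence `r / B` is a meromorphic
`p`-th root of `A / B`. -/
theorem exists_mdiff_pow_eq_mul {A B : ℍ → ℂ} {p : ℕ} (hp : p ≠ 0) (hA : MDiff A) (hB : MDiff B)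
    (hA0 : A ≠ 0) (hB0 : B ≠ 0)
    (hdiv : ∀ z : ℍ, (p : ℤ) ∣ ((analyticOrderAt (A ∘ ofComplex) (z : ℂ)).toNat : ℤ)
      - ((analyticOrderAt (B ∘ ofComplex) (z : ℂ)).toNat : ℤ)) :
    ∃ r : ℍ → ℂ, MDiff r ∧ ∀ z : ℍ, r z ^ p = A z * B z ^ (p - 1) := by
  have hA' : AnalyticOnNhd ℂ (A ∘ ofComplex) {z : ℂ | 0 < z.im} :=
    (UpperHalfPlane.mdifferentiable_iff.mp hA).analyticOnNhd isOpen_upperHalfPlaneSet
  have hB' : AnalyticOnNhd ℂ (B ∘ ofComplex) {z : ℂ | 0 < z.im} :=
    (UpperHalfPlane.mdifferentiable_iff.mp hB).analyticOnNhd isOpen_upperHalfPlaneSet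
  have hfin : ∀ {f : ℍ → ℂ}, MDiff f → f ≠ 0 → ∀ z : ℍ,
      analyticOrderAt (f ∘ ofComplex) (z : ℂ) ≠ ⊤ := by
    intro f hf hf0 z
    have hf' : AnalyticOnNhd ℂ (f ∘ ofComplex) {z : ℂ | 0 < z.im} :=
      (UpperHalfPlane.mdifferentiable_iff.mp hf).analyticOnNhd isOpen_upperHalfPlaneSet
    obtain ⟨x, hx⟩ : ∃ x : ℍ, f x ≠ 0 := by
      by_contra h
      exact hf0 (funext fun x => not_not.mp fun hx => h ⟨x, hx⟩)
    have hx' : analyticOrderAt (f ∘ ofComplex) (x : ℂ) ≠ ⊤ := by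
      have h0 : analyticOrderAt (f ∘ ofComplex) (x : ℂ) = 0 := by
        rw [analyticOrderAt_eq_zero]
        right
        simpa [ofComplex_apply] using hx
      rw [h0]
      exact ENat.zero_ne_top
    exact hf'.analyticOrderAt_ne_top_of_isPreconnected
      (convex_halfSpace_im_gt 0).isPreconnected x.im_pos z.im_pos hx'
  have hC : MDiff (fun z : ℍ => A z * B z ^ (p - 1)) := hA.mul (hB.pow (p - 1))
  have hC0 : (fun z : ℍ => A z * B z ^ (p - 1)) ≠ 0 := by
    intro h
    -- orders are finite, so the product cannot vanish identically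
    obtain ⟨x, hx⟩ : ∃ x : ℍ, A x ≠ 0 := by
      by_contra h'
      exact hA0 (funext fun x => not_not.mp fun hx => h' ⟨x, hx⟩)
    have h1 : analyticOrderAt ((fun z : ℍ => A z * B z ^ (p - 1)) ∘ ofComplex) (x : ℂ) = ⊤ := by
      rw [h]
      rw [analyticOrderAt_eq_top]
      exact Eventually.of_forall (fun _ => rfl)
    have h2 : ((fun z : ℍ => A z * B z ^ (p - 1)) ∘ ofComplex)
        = (A ∘ ofComplex) * (B ∘ ofComplex) ^ (p - 1) := rfl
    rw [h2, analyticOrderAt_mul (hA' _ x.im_pos) ((hB' _ x.im_pos).pow _),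
      analyticOrderAt_pow (hB' _ x.im_pos)] at h1
    have h3 := hfin hA hA0 x
    have h4 := hfin hB hB0 x
    rw [← ENat.natCast_toNat h3, ← ENat.natCast_toNat h4] at h1
    exact ENat.natCast_ne_top _ (by exact_mod_cast h1)
  refine exists_mdiff_pow_eq hp hC hC0 (fun z => ?_)
  have h2 : ((fun z : ℍ => A z * B z ^ (p - 1)) ∘ ofComplex)
      = (A ∘ ofComplex) * (B ∘ ofComplex) ^ (p - 1) := rfl
  rw [h2, analyticOrderAt_mul (hA' _ z.im_pos) ((hB' _ z.im_pos).pow _),
    analyticOrderAt_pow (hB' _ z.im_pos)]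
  have h3 := hfin hA hA0 z
  have h4 := hfin hB hB0 z
  obtain ⟨a, ha⟩ := ENat.ne_top_iff_exists.mp h3
  obtain ⟨b, hb⟩ := ENat.ne_top_iff_exists.mp h4
  have hd := hdiv z
  rw [← ha, ← hb] at hd ⊢
  simp only [ENat.toNat_natCast] at hd
  have h5 : ((a : ℕ∞) + (p - 1 : ℕ) • (b : ℕ∞)).toNat = a + (p - 1) * b := by
    rw [nsmul_eq_mul]
    exact_mod_cast ENat.toNat_natCast (a + (p - 1) * b)
  rw [h5]
  have hp1 : 1 ≤ p := Nat.one_le_iff_ne_zero.mpr hp
  have h6 : ((a + (p - 1) * b : ℕ) : ℤ) = ((a : ℤ) - b) + p * b := by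
    push_cast [Nat.cast_sub hp1]
    ring
  exact Int.natCast_dvd_natCast.mp (by rw [h6]; exact dvd_add hd (dvd_mul_right _ _))

end Fermat.Agent.S29.H29
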