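/-
helper29, S29/S42 tree: complements to (ROOT) for the Kummer map
`{h ∈ F_C : m ∣ ord_z h} → Hom(Γ, μ_m)`.

A meromorphic function on `ℍ` is handled as a pair `(A, B)` of holomorphic functions
(`h = A / B`), a root of `h` as a holomorphic `r` with `r ^ p = A * B ^ (p - 1)` (`u = r / B`).

* `mul_ne_zero_uhp`, `comp_smul_ne_zero` : holomorphic functions on `ℍ` form a domain;
* `exists_character_of_ratio` (CHAR/) : if `A / B` is `Γ`-invariant, the root `u = r / B`
  has a multiplier character `χ : Γ →* ℂˣ` with `χ ^ p = 1`, in cross-multiplied form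
  `r (γ z) * B z = χ γ * (r z * B (γ z))`;
* `meroAtInfty_of_pow` (ROOT-GROWTH) : a root of a function of moderate growth at `i∞` has
  moderate growth;
* `isWH_of_pow` (ROOT-WH) : if `A, B` lie in `RN N`-type (`H31.IsWH N`) and the cross relation
  holds with trivial multiplier on `Γ(N)`, then `r` is again `IsWH N`.
-/
import Mathlib
import Fermat.Agent.S29.Root_helper29
import Fermat.Agent.S24.Defs_helper31

set_option autoImplicit false

open Complex Metric Set Filter Topology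
open UpperHalfPlane hiding I
open scoped MatrixGroups Manifold Real
open Fermat.Agent.S24.H31

namespace Fermat.Agent.S29.H29

/-- Holomorphic functions on `ℍ` have no zero divisors. -/
theorem mul_ne_zero_uhp {f g : ℍ → ℂ} (hf : MDiff f) (hg : MDiff g) (hf0 : f ≠ 0) (hg0 : g ≠ 0) :
    (fun z : ℍ => f z * g z) ≠ 0 := by
  intro h
  have hf' : AnalyticOnNhd ℂ (f ∘ ofComplex) {z : ℂ | 0 < z.im} :=
    (UpperHalfPlane.mdifferentiable_iff.mp hf).analyticOnNhd isOpen_upperHalfPlaneSet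
  have hg' : AnalyticOnNhd ℂ (g ∘ ofComplex) {z : ℂ | 0 < z.im} :=
    (UpperHalfPlane.mdifferentiable_iff.mp hg).analyticOnNhd isOpen_upperHalfPlaneSet
  have h0 : ∀ z ∈ {z : ℂ | 0 < z.im}, (f ∘ ofComplex) z * (g ∘ ofComplex) z = 0 :=
    fun z _ => congrFun h (ofComplex z)
  rcases hf'.eq_zero_or_eq_zero_of_mul_eq_zero hg' h0
    (convex_halfSpace_im_gt 0).isPreconnected with h1 | h1
  · apply hf0
    funext z
    have := h1 (z : ℂ) z.im_pos
    simpa [ofComplex_apply] using this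
  · apply hg0
    funext z
    have := h1 (z : ℂ) z.im_pos
    simpa [ofComplex_apply] using this

/-- Precomposition with a Moebius map preserves `≠ 0`. -/
theorem comp_smul_ne_zero {f : ℍ → ℂ} (hf0 : f ≠ 0) (γ : SL(2, ℤ)) :
    (fun z : ℍ => f (γ • z)) ≠ 0 := by
  intro h
  apply hf0
  funext w
  have := congrFun h (γ⁻¹ • w)
  simpa [smul_smul] using this

/-- (CHAR/) The multiplier character of a root of a `Γ`-invariant meromorphic function
`A / B` on `ℍ`: for `r ^ p = A * B ^ (p - 1)` (so `(r / B) ^ p = A / B`), there is a character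
`χ : Γ →* ℂˣ` with `χ ^ p = 1` and `(r / B) ∘ γ = χ γ • (r / B)`, cross-multiplied. -/
theorem exists_character_of_ratio {A B r : ℍ → ℂ} {p : ℕ} (hp : p ≠ 0)
    (hB : MDiff B) (hr : MDiff r) (hB0 : B ≠ 0) (hr0 : r ≠ 0)
    (hpow : ∀ z : ℍ, r z ^ p = A z * B z ^ (p - 1))
    (Γ : Subgroup SL(2, ℤ))
    (hinv : ∀ γ ∈ Γ, ∀ z : ℍ, A (γ • z) * B z = A z * B (γ • z)) :
    ∃ χ : Γ →* ℂˣ, (∀ γ, χ γ ^ p = 1) ∧
      ∀ (γ : Γ) (z : ℍ), r ((γ : SL(2, ℤ)) • z) * B z
        = (χ γ : ℂ) * (r z * B ((γ : SL(2, ℤ)) • z)) := by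
  have hp1 : p - 1 + 1 = p := Nat.sub_add_cancel (Nat.one_le_iff_ne_zero.mpr hp)
  have hex : ∀ γ : Γ, ∃ ζ : ℂ, ζ ^ p = 1 ∧ ∀ z : ℍ,
      r ((γ : SL(2, ℤ)) • z) * B z = ζ * (r z * B ((γ : SL(2, ℤ)) • z)) := by
    intro γ
    refine exists_root_of_unity_of_pow_eq_uhp
      (g := fun z => r ((γ : SL(2, ℤ)) • z) * B z)
      (h := fun z => r z * B ((γ : SL(2, ℤ)) • z)) hp
      ((hr.comp (mdiff_smul_SL (γ : SL(2, ℤ)))).mul hB)
      (hr.mul (hB.comp (mdiff_smul_SL (γ : SL(2, ℤ))))) (fun z => ?_)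
    have h1 := hinv γ γ.2 z
    simp only [mul_pow, hpow]
    calc A ((γ : SL(2, ℤ)) • z) * B ((γ : SL(2, ℤ)) • z) ^ (p - 1) * B z ^ p
        = (A ((γ : SL(2, ℤ)) • z) * B z) * B ((γ : SL(2, ℤ)) • z) ^ (p - 1) * B z ^ (p - 1) := by
          conv_lhs => rw [← hp1, pow_succ]
          rw [hp1]; ring
      _ = (A z * B ((γ : SL(2, ℤ)) • z)) * B ((γ : SL(2, ℤ)) • z) ^ (p - 1) * B z ^ (p - 1) := by
          rw [h1]
      _ = A z * B z ^ (p - 1) * B ((γ : SL(2, ℤ)) • z) ^ p := by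
          conv_rhs => rw [← hp1, pow_succ]
          rw [hp1]; ring
  choose ζ hζ1 hζ2 using hex
  have hζ0 : ∀ γ, ζ γ ≠ 0 := fun γ h => by
    have := hζ1 γ
    rw [h, zero_pow hp] at this
    exact zero_ne_one this
  -- nonvanishing of the relevant products
  have hrB : ∀ a : SL(2, ℤ), (fun z : ℍ => r z * B (a • z)) ≠ 0 := fun a =>
    mul_ne_zero_uhp hr (hB.comp (mdiff_smul_SL a)) hr0 (comp_smul_ne_zero hB0 a)
  have hone : ζ 1 = 1 := by
    obtain ⟨x, hx⟩ : ∃ x : ℍ, r x * B ((1 : SL(2, ℤ)) • x) ≠ 0 := by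
      by_contra h
      exact hrB 1 (funext fun x => not_not.mp fun hx => h ⟨x, hx⟩)
    have := hζ2 1 x
    simp only [OneMemClass.coe_one, one_smul] at this hx
    exact (mul_right_cancel₀ hx (by rw [one_mul]; exact this)).symm
  have hmul : ∀ a b : Γ, ζ (a * b) = ζ a * ζ b := by
    intro a b
    have h3 : (fun z : ℍ => (r z * B ((b : SL(2, ℤ)) • z))
        * B (((a : SL(2, ℤ)) * (b : SL(2, ℤ))) • z)) ≠ 0 :=
      mul_ne_zero_uhp (hr.mul (hB.comp (mdiff_smul_SL _))) (hB.comp (mdiff_smul_SL _))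
        (hrB _) (comp_smul_ne_zero hB0 _)
    obtain ⟨x, hx⟩ : ∃ x : ℍ, (r x * B ((b : SL(2, ℤ)) • x))
        * B (((a : SL(2, ℤ)) * (b : SL(2, ℤ))) • x) ≠ 0 := by
      by_contra h
      exact h3 (funext fun x => not_not.mp fun hx => h ⟨x, hx⟩)
    have e1 := hζ2 (a * b) x
    have e2 := hζ2 a ((b : SL(2, ℤ)) • x)
    have e3 := hζ2 b x
    rw [Subgroup.coe_mul] at e1
    rw [← mul_smul] at e2
    -- r(ab x) B(x) B(b x) computed in two ways
    have key : ζ (a * b) * ((r x * B ((b : SL(2, ℤ)) • x))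
        * B (((a : SL(2, ℤ)) * (b : SL(2, ℤ))) • x))
        = ζ a * ζ b * ((r x * B ((b : SL(2, ℤ)) • x))
        * B (((a : SL(2, ℤ)) * (b : SL(2, ℤ))) • x)) := by
      calc ζ (a * b) * ((r x * B ((b : SL(2, ℤ)) • x))
              * B (((a : SL(2, ℤ)) * (b : SL(2, ℤ))) • x))
          = (ζ (a * b) * (r x * B (((a : SL(2, ℤ)) * (b : SL(2, ℤ))) • x)))
              * B ((b : SL(2, ℤ)) • x) := by ring
        _ = (r (((a : SL(2, ℤ)) * (b : SL(2, ℤ))) • x) * B x) * B ((b : SL(2, ℤ)) • x) := by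
            rw [e1]
        _ = (r (((a : SL(2, ℤ)) * (b : SL(2, ℤ))) • x) * B ((b : SL(2, ℤ)) • x)) * B x := by ring
        _ = ζ a * (r ((b : SL(2, ℤ)) • x) * B x)
              * B (((a : SL(2, ℤ)) * (b : SL(2, ℤ))) • x) := by rw [e2]; ring
        _ = ζ a * ζ b * ((r x * B ((b : SL(2, ℤ)) • x))
              * B (((a : SL(2, ℤ)) * (b : SL(2, ℤ))) • x)) := by rw [e3]; ring
    exact mul_right_cancel₀ hx key
  refine ⟨{ toFun := fun γ => Units.mk0 (ζ γ) (hζ0 γ)
            map_one' := Units.ext (by simpa using hone)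
            map_mul' := fun a b => Units.ext (by simpa using hmul a b) }, ?_, ?_⟩
  · intro γ
    apply Units.ext
    simpa using hζ1 γ
  · intro γ z
    simpa using hζ2 γ z

/-- (ROOT-GROWTH) A `p`-th root of a function of moderate growth at `i∞` has moderate
growth at `i∞`. -/
theorem meroAtInfty_of_pow {r F : ℍ → ℂ} {p : ℕ} (hp : p ≠ 0)
    (hpow : ∀ z : ℍ, r z ^ p = F z) (hF : MeroAtInfty F) : MeroAtInfty r := by
  obtain ⟨m, hm⟩ := hF
  refine ⟨m, ?_⟩
  rw [isBoundedAtImInfty_iff] at hm ⊢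
  obtain ⟨M, A, hMA⟩ := hm
  refine ⟨max M 1, A, fun z hz => ?_⟩
  have h1 := hMA z hz
  have he : ‖Complex.exp (2 * π * Complex.I * m * z)‖ ≤ 1 :=
    norm_exp_two_pi_I_nat_mul_le_one m z
  set x : ℝ := ‖r z * Complex.exp (2 * π * Complex.I * m * z)‖ with hx
  have hx0 : 0 ≤ x := norm_nonneg _
  have hp1 : p - 1 + 1 = p := Nat.sub_add_cancel (Nat.one_le_iff_ne_zero.mpr hp)
  have hxp : x ^ p ≤ M := by
    have e : x ^ p = ‖F z * Complex.exp (2 * π * Complex.I * m * z)‖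
        * ‖Complex.exp (2 * π * Complex.I * m * z)‖ ^ (p - 1) := by
      rw [hx, norm_mul, mul_pow, ← norm_pow, hpow z, norm_mul]
      conv_lhs => rw [← hp1, pow_succ]
      ring
    rw [e]
    calc ‖F z * Complex.exp (2 * π * Complex.I * m * z)‖
          * ‖Complex.exp (2 * π * Complex.I * m * z)‖ ^ (p - 1)
        ≤ ‖F z * Complex.exp (2 * π * Complex.I * m * z)‖ * 1 :=
          mul_le_mul_of_nonneg_left (pow_le_one₀ (norm_nonneg _) he) (norm_nonneg _)
      _ ≤ M := by rw [mul_one]; exact h1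
  rcases le_or_gt x 1 with h | h
  · exact h.trans (le_max_right _ _)
  · have : x ≤ x ^ p := le_self_pow₀ h.le hp
    exact (this.trans hxp).trans (le_max_left _ _)

/-- (ROOT-WH) If `A, B` are holomorphic `Γ(N)`-invariant of moderate growth at all cusps
(`H31.IsWH N`), `B ≢ 0`, `r ^ p = A * B ^ (p - 1)` with `r` holomorphic, and the multiplier of
`r / B` is trivial on `Γ(N)` (cross-multiplied), then `r` is again `IsWH N`. -/
theorem isWH_of_pow {N : ℕ} {A B r : ℍ → ℂ} {p : ℕ} (hp : p ≠ 0)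
    (hA : IsWH N A) (hB : IsWH N B) (hB0 : B ≠ 0) (hr : MDiff r)
    (hpow : ∀ z : ℍ, r z ^ p = A z * B z ^ (p - 1))
    (htriv : ∀ γ ∈ CongruenceSubgroup.Gamma N, ∀ z : ℍ, r (γ • z) * B z = r z * B (γ • z)) :
    IsWH N r := by
  refine ⟨hr, fun γ hγ z => ?_, fun g => ?_⟩
  · -- (r ∘ γ - r) * B = 0 and B ≢ 0
    by_contra hne
    have h1 : (fun w : ℍ => r (γ • w) - r w) ≠ 0 := fun h => hne (sub_eq_zero.mp (congrFun h z))
    have h2 := mul_ne_zero_uhp ((hr.comp (mdiff_smul_SL γ)).sub hr) hB.mdiff h1 hB0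
    apply h2
    funext w
    have := htriv γ hγ w
    rw [hB.inv γ hγ w] at this
    show (r (γ • w) - r w) * B w = 0
    rw [sub_mul, this, sub_self]
  · have hAB : MeroAtInfty (fun z : ℍ => A (g • z) * B (g • z) ^ (p - 1)) := by
      have hBp : ∀ n : ℕ, MeroAtInfty (fun z : ℍ => B (g • z) ^ n) := by
        intro n
        induction n with
        | zero => simpa using MeroAtInfty.const 1
        | succ n ih =>
          have := ih.mul (hB.mero g)
          simpa [pow_succ] using this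
      exact (hA.mero g).mul (hBp (p - 1))
    exact meroAtInfty_of_pow (r := fun z : ℍ => r (g • z)) hp (fun z => hpow (g • z)) hAB

end Fermat.Agent.S29.H29
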