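/-
helper29, S29/S42 tree, node (KUM): the Kummer character on `L N`.

For `x ∈ L N` nonzero, `Γ₀(N)`-invariant, with all analytic orders on `ℍ` divisible by `m`,
an `m`-th root of `x` on `ℍ` has a multiplier character `Γ₀(N) →* ℂˣ` killed by `m`.
This gives a group homomorphism `kumChar` whose kernel consists of `m`-th powers of
`Γ₀(N)`-invariant elements of `L N`; since `Γ₀(N)` is finitely generated the target is finite,
hence the group of such `x` modulo `m`-th powers of invariant elements is finite.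
-/
import Mathlib
import Fermat.Agent.S29.Root_helper29
import Fermat.Agent.S29.RootChar_helper29
import Fermat.Agent.S24.Spec_helper31

set_option autoImplicit false

open Complex Set Filter Topology
open UpperHalfPlane hiding I
open CongruenceSubgroup
open scoped MatrixGroups Manifold Real
open Fermat.Agent.S24 Fermat.Agent.S24.H31

namespace Fermat.Agent.S29.H29

variable {N : ℕ}

/-- Kummer data for `x ∈ L N`: `x = a / b`, a holomorphic `r` with `r ^ m = a * b ^ (m - 1)`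
(so `r / b` is an `m`-th root of `x` on `ℍ`) and its multiplier `χ` on `Γ₀(N)`. -/
def IsKumData (x : L N) (m : ℕ) (a b : RN N) (r : ℍ → ℂ) (χ : Gamma0 N →* ℂˣ) : Prop :=
  b ≠ 0 ∧ x = algebraMap (RN N) (L N) a / algebraMap (RN N) (L N) b ∧ MDiff r ∧
    (∀ z : ℍ, r z ^ m = (a : ℍ → ℂ) z * (b : ℍ → ℂ) z ^ (m - 1)) ∧
    ∀ (γ : Gamma0 N) (z : ℍ), r ((γ : SL(2, ℤ)) • z) * (b : ℍ → ℂ) z
      = (χ γ : ℂ) * (r z * (b : ℍ → ℂ) ((γ : SL(2, ℤ)) • z))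

theorem coe_ne_zero_RN {a : RN N} (ha : a ≠ 0) : (a : ℍ → ℂ) ≠ 0 :=
  fun h => ha (Subtype.ext h)

theorem algebraMap_RN_ne_zero {a : RN N} (ha : a ≠ 0) : algebraMap (RN N) (L N) a ≠ 0 :=
  fun h => ha ((IsFractionRing.injective (RN N) (L N)) (h.trans (map_zero _).symm))

/-- the numerator of a nonzero fraction is nonzero -/
theorem IsKumData.a_ne_zero {x : L N} {m : ℕ} {a b : RN N} {r : ℍ → ℂ} {χ : Gamma0 N →* ℂˣ}
    (h : IsKumData x m a b r χ) (hx : x ≠ 0) : a ≠ 0 := by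
  intro ha
  apply hx
  rw [h.2.1, ha, map_zero, zero_div]

/-- the root is nonzero -/
theorem IsKumData.r_ne_zero {x : L N} {m : ℕ} {a b : RN N} {r : ℍ → ℂ} {χ : Gamma0 N →* ℂˣ}
    (h : IsKumData x m a b r χ) (hm : m ≠ 0) (hx : x ≠ 0) : r ≠ 0 := by
  intro hr
  have ha := h.a_ne_zero hx
  have hb := h.1
  have h0 : a * b ^ (m - 1) = 0 := by
    apply Subtype.ext
    funext z
    have := h.2.2.2.1 z
    rw [hr, Pi.zero_apply, zero_pow hm] at this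
    simpa using this.symm
  rcases mul_eq_zero.mp h0 with h1 | h1
  · exact ha h1
  · exact hb (pow_eq_zero_iff (Nat.sub_ne_zero_of_lt (Nat.lt_of_le_of_ne
      (Nat.one_le_iff_ne_zero.mpr hm) (fun h => by
        subst h
        simp at h1))) |>.mp h1)

/-- (L4) trivial data for `1`. -/
theorem isKumData_one (m : ℕ) : IsKumData (1 : L N) m 1 1 (fun _ => 1) 1 := by
  refine ⟨one_ne_zero, by simp, mdifferentiable_const, fun z => by simp, fun γ z => by simp⟩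

/-- (L3) data multiply. -/
theorem IsKumData.mul {x y : L N} {m : ℕ} {a b a' b' : RN N} {r r' : ℍ → ℂ}
    {χ χ' : Gamma0 N →* ℂˣ} (h : IsKumData x m a b r χ) (h' : IsKumData y m a' b' r' χ') :
    IsKumData (x * y) m (a * a') (b * b') (fun z => r z * r' z) (χ * χ') := by
  obtain ⟨hb, hx, hr, hpow, hχ⟩ := h
  obtain ⟨hb', hy, hr', hpow', hχ'⟩ := h'
  refine ⟨mul_ne_zero hb hb', ?_, hr.mul hr', fun z => ?_, fun γ z => ?_⟩
  · rw [hx, hy, map_mul, map_mul, div_mul_div_comm]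
  · show (r z * r' z) ^ m = ((a : ℍ → ℂ) z * (a' : ℍ → ℂ) z)
      * ((b : ℍ → ℂ) z * (b' : ℍ → ℂ) z) ^ (m - 1)
    rw [mul_pow, hpow z, hpow' z, mul_pow]
    ring
  · show r ((γ : SL(2, ℤ)) • z) * r' ((γ : SL(2, ℤ)) • z) * ((b : ℍ → ℂ) z * (b' : ℍ → ℂ) z)
      = ((χ * χ') γ : ℂ) * (r z * r' z * ((b : ℍ → ℂ) ((γ : SL(2, ℤ)) • z)
        * (b' : ℍ → ℂ) ((γ : SL(2, ℤ)) • z)))
    have e1 := hχ γ z
    have e2 := hχ' γ z
    rw [MonoidHom.mul_apply, Units.val_mul]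
    calc r ((γ : SL(2, ℤ)) • z) * r' ((γ : SL(2, ℤ)) • z) * ((b : ℍ → ℂ) z * (b' : ℍ → ℂ) z)
        = (r ((γ : SL(2, ℤ)) • z) * (b : ℍ → ℂ) z)
          * (r' ((γ : SL(2, ℤ)) • z) * (b' : ℍ → ℂ) z) := by ring
      _ = _ := by rw [e1, e2]; ring

/-- cross-multiplication in `RN N` from an equality of fractions -/
theorem cross_of_div_eq {a b a' b' : RN N} (hb : b ≠ 0) (hb' : b' ≠ 0)
    (h : algebraMap (RN N) (L N) a / algebraMap (RN N) (L N) b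
      = algebraMap (RN N) (L N) a' / algebraMap (RN N) (L N) b') (z : ℍ) :
    (a : ℍ → ℂ) z * (b' : ℍ → ℂ) z = (a' : ℍ → ℂ) z * (b : ℍ → ℂ) z := by
  rw [div_eq_div_iff (algebraMap_RN_ne_zero hb) (algebraMap_RN_ne_zero hb'), ← map_mul,
    ← map_mul] at h
  have h2 : a * b' = a' * b := IsFractionRing.injective (RN N) (L N) h
  exact congrFun (congrArg Subtype.val h2) z

/-- (L2) the multiplier only depends on `x`. -/
theorem IsKumData.unique {x : L N} {m : ℕ} (hm : m ≠ 0) (hx : x ≠ 0) {a b a' b' : RN N}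
    {r r' : ℍ → ℂ} {χ χ' : Gamma0 N →* ℂˣ} (h : IsKumData x m a b r χ)
    (h' : IsKumData x m a' b' r' χ') : χ = χ' := by
  have hr'0 := h'.r_ne_zero hm hx
  obtain ⟨hb, hxa, hr, hpow, hχ⟩ := h
  obtain ⟨hb', hxa', hr', hpow', hχ'⟩ := h'
  have hp1 : m - 1 + 1 = m := Nat.sub_add_cancel (Nat.one_le_iff_ne_zero.mpr hm)
  have hcross := cross_of_div_eq hb hb' (hxa.symm.trans hxa')
  have hbm : MDiff (b : ℍ → ℂ) := b.2.mdiff
  have hbm' : MDiff (b' : ℍ → ℂ) := b'.2.mdiff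
  have hb0 := coe_ne_zero_RN hb
  have hb0' := coe_ne_zero_RN hb'
  -- the two roots differ by a root of unity
  obtain ⟨ζ, hζ1, hζ2⟩ := exists_root_of_unity_of_pow_eq_uhp
    (g := fun z => r z * (b' : ℍ → ℂ) z) (h := fun z => r' z * (b : ℍ → ℂ) z) hm
    (hr.mul hbm') (hr'.mul hbm) (fun z => by
      simp only [mul_pow, hpow, hpow']
      have hc := hcross z
      calc (a : ℍ → ℂ) z * (b : ℍ → ℂ) z ^ (m - 1) * (b' : ℍ → ℂ) z ^ m
          = ((a : ℍ → ℂ) z * (b' : ℍ → ℂ) z) * (b : ℍ → ℂ) z ^ (m - 1)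
              * (b' : ℍ → ℂ) z ^ (m - 1) := by
            conv_lhs => rw [← hp1, pow_succ]
            rw [hp1]; ring
        _ = ((a' : ℍ → ℂ) z * (b : ℍ → ℂ) z) * (b : ℍ → ℂ) z ^ (m - 1)
              * (b' : ℍ → ℂ) z ^ (m - 1) := by rw [hc]
        _ = (a' : ℍ → ℂ) z * (b' : ℍ → ℂ) z ^ (m - 1) * (b : ℍ → ℂ) z ^ m := by
            conv_rhs => rw [← hp1, pow_succ]
            rw [hp1]; ring)
  have hζ0 : ζ ≠ 0 := fun h0 => by
    rw [h0, zero_pow hm] at hζ1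
    exact zero_ne_one hζ1
  apply MonoidHom.ext
  intro γ
  apply Units.ext
  -- Q = (b ∘ γ) * b * r' * (b' ∘ γ) is not identically zero
  have hQ : (fun z : ℍ => ((b : ℍ → ℂ) ((γ : SL(2, ℤ)) • z) * (b : ℍ → ℂ) z)
      * (r' z * (b' : ℍ → ℂ) ((γ : SL(2, ℤ)) • z))) ≠ 0 :=
    mul_ne_zero_uhp ((hbm.comp (mdiff_smul_SL _)).mul hbm) (hr'.mul (hbm'.comp (mdiff_smul_SL _)))
      (mul_ne_zero_uhp (hbm.comp (mdiff_smul_SL _)) hbm (comp_smul_ne_zero hb0 _) hb0)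
      (mul_ne_zero_uhp hr' (hbm'.comp (mdiff_smul_SL _)) hr'0 (comp_smul_ne_zero hb0' _))
  obtain ⟨z, hz⟩ : ∃ z : ℍ, ((b : ℍ → ℂ) ((γ : SL(2, ℤ)) • z) * (b : ℍ → ℂ) z)
      * (r' z * (b' : ℍ → ℂ) ((γ : SL(2, ℤ)) • z)) ≠ 0 := by
    by_contra hcon
    exact hQ (funext fun z => not_not.mp fun hz => hcon ⟨z, hz⟩)
  have e1 := hχ γ z
  have e2 := hχ' γ z
  have e3 := hζ2 ((γ : SL(2, ℤ)) • z)
  have e4 := hζ2 z
  have key : (χ γ : ℂ) * (ζ * (((b : ℍ → ℂ) ((γ : SL(2, ℤ)) • z) * (b : ℍ → ℂ) z)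
      * (r' z * (b' : ℍ → ℂ) ((γ : SL(2, ℤ)) • z))))
      = (χ' γ : ℂ) * (ζ * (((b : ℍ → ℂ) ((γ : SL(2, ℤ)) • z) * (b : ℍ → ℂ) z)
      * (r' z * (b' : ℍ → ℂ) ((γ : SL(2, ℤ)) • z)))) := by
    calc (χ γ : ℂ) * (ζ * (((b : ℍ → ℂ) ((γ : SL(2, ℤ)) • z) * (b : ℍ → ℂ) z)
          * (r' z * (b' : ℍ → ℂ) ((γ : SL(2, ℤ)) • z))))
        = ((χ γ : ℂ) * (r z * (b : ℍ → ℂ) ((γ : SL(2, ℤ)) • z)))
            * (b' : ℍ → ℂ) ((γ : SL(2, ℤ)) • z) * (b' : ℍ → ℂ) z := by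
          have : ζ * (r' z * (b : ℍ → ℂ) z) = r z * (b' : ℍ → ℂ) z := e4.symm
          calc (χ γ : ℂ) * (ζ * (((b : ℍ → ℂ) ((γ : SL(2, ℤ)) • z) * (b : ℍ → ℂ) z)
                * (r' z * (b' : ℍ → ℂ) ((γ : SL(2, ℤ)) • z))))
              = (χ γ : ℂ) * ((ζ * (r' z * (b : ℍ → ℂ) z))
                * (b : ℍ → ℂ) ((γ : SL(2, ℤ)) • z) * (b' : ℍ → ℂ) ((γ : SL(2, ℤ)) • z)) := by
                ring
            _ = _ := by rw [this]; ring
      _ = (r ((γ : SL(2, ℤ)) • z) * (b : ℍ → ℂ) z)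
            * (b' : ℍ → ℂ) ((γ : SL(2, ℤ)) • z) * (b' : ℍ → ℂ) z := by rw [e1]
      _ = (r ((γ : SL(2, ℤ)) • z) * (b' : ℍ → ℂ) ((γ : SL(2, ℤ)) • z))
            * (b : ℍ → ℂ) z * (b' : ℍ → ℂ) z := by ring
      _ = (ζ * (r' ((γ : SL(2, ℤ)) • z) * (b : ℍ → ℂ) ((γ : SL(2, ℤ)) • z)))
            * (b : ℍ → ℂ) z * (b' : ℍ → ℂ) z := by rw [e3]
      _ = ζ * ((b : ℍ → ℂ) ((γ : SL(2, ℤ)) • z) * (b : ℍ → ℂ) z)
            * (r' ((γ : SL(2, ℤ)) • z) * (b' : ℍ → ℂ) z) := by ring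
      _ = ζ * ((b : ℍ → ℂ) ((γ : SL(2, ℤ)) • z) * (b : ℍ → ℂ) z)
            * ((χ' γ : ℂ) * (r' z * (b' : ℍ → ℂ) ((γ : SL(2, ℤ)) • z))) := by rw [e2]
      _ = _ := by ring
  exact mul_right_cancel₀ (mul_ne_zero hζ0 hz) key

theorem Gamma_le_Gamma0' : CongruenceSubgroup.Gamma N ≤ Gamma0 N := fun _ hγ =>
  Gamma0_mem.mpr (Gamma_mem.mp hγ).2.2.1

theorem smul_RN_ne_zero {b : RN N} (hb : b ≠ 0) (γ : SL(2, ℤ)) : γ • b ≠ 0 := fun h =>
  hb (by simpa using congrArg (fun f => γ⁻¹ • f) h)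

/-- `Γ₀(N)`-invariance of a fraction in cross-multiplied pointwise form. -/
theorem cross_of_smul_eq {a b : RN N} (hb : b ≠ 0) {γ : SL(2, ℤ)}
    (h : γ⁻¹ • (algebraMap (RN N) (L N) a / algebraMap (RN N) (L N) b)
      = algebraMap (RN N) (L N) a / algebraMap (RN N) (L N) b) (z : ℍ) :
    (a : ℍ → ℂ) (γ • z) * (b : ℍ → ℂ) z = (a : ℍ → ℂ) z * (b : ℍ → ℂ) (γ • z) := by
  rw [smul_div₀', smul_algebraMap_L, smul_algebraMap_L] at h
  have h2 := cross_of_div_eq (smul_RN_ne_zero hb γ⁻¹) hb h z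
  simpa [smul_RN_apply] using h2

/-- (L1) existence of Kummer data. -/
theorem exists_isKumData [NeZero N] (V : ValSpec N) {m : ℕ} (hm : m ≠ 0) {x : L N} (hx : x ≠ 0)
    (hinv : ∀ γ ∈ Gamma0 N, γ • x = x) (hdiv : ∀ z : ℍ, (m : ℤ) ∣ (V.pt z).ord x) :
    ∃ χ : Gamma0 N →* ℂˣ, (∃ (a b : RN N) (r : ℍ → ℂ), IsKumData x m a b r χ) ∧
      ∀ γ, χ γ ^ m = 1 := by
  obtain ⟨a, b, hb, hab⟩ := IsFractionRing.div_surjective (RN N) x
  have hb0 : b ≠ 0 := nonZeroDivisors.ne_zero hb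
  have ha0 : a ≠ 0 := by
    rintro rfl
    apply hx
    rw [← hab, map_zero, zero_div]
  have hord : ∀ (f : RN N), f ≠ 0 → ∀ z : ℍ,
      ((analyticOrderAt ((f : ℍ → ℂ) ∘ ofComplex) (z : ℂ)).toNat : ℤ)
        = (V.pt z).ord (algebraMap (RN N) (L N) f) := by
    intro f hf z
    obtain ⟨h1, h2⟩ := V.pt_algebraMap z f hf
    rw [h2, ENat.toNat_natCast, Int.toNat_of_nonneg h1]
  obtain ⟨r, hr, hpow⟩ := exists_mdiff_pow_eq_mul hm a.2.mdiff b.2.mdiff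
    (coe_ne_zero_RN ha0) (coe_ne_zero_RN hb0) (fun z => by
      rw [hord a ha0 z, hord b hb0 z,
        ← ZVal.ord_div _ (algebraMap_RN_ne_zero ha0) (algebraMap_RN_ne_zero hb0), hab]
      exact hdiv z)
  have hcross : ∀ γ ∈ Gamma0 N, ∀ z : ℍ,
      (a : ℍ → ℂ) (γ • z) * (b : ℍ → ℂ) z = (a : ℍ → ℂ) z * (b : ℍ → ℂ) (γ • z) := by
    intro γ hγ z
    have h1 := hinv γ⁻¹ (inv_mem hγ)
    rw [← hab] at h1
    exact cross_of_smul_eq hb0 h1 z
  have hr0 : r ≠ 0 := by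
    intro hr0
    have h0 : a * b ^ (m - 1) = 0 := by
      apply Subtype.ext
      funext z
      have := hpow z
      rw [hr0, Pi.zero_apply, zero_pow hm] at this
      simpa using this.symm
    rcases mul_eq_zero.mp h0 with h1 | h1
    · exact ha0 h1
    · exact hb0 (eq_zero_of_pow_eq_zero h1)
  obtain ⟨χ, hχ1, hχ2⟩ := exists_character_of_ratio hm b.2.mdiff hr (coe_ne_zero_RN hb0) hr0
    hpow (Gamma0 N) hcross
  exact ⟨χ, ⟨a, b, r, hb0, hab.symm, hr, hpow, hχ2⟩, hχ1⟩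

/-- (L5) trivial multiplier: the root lies in `L N` and is `Γ₀(N)`-invariant. -/
theorem IsKumData.exists_root_of_trivial {x : L N} {m : ℕ} (hm : m ≠ 0) {a b : RN N}
    {r : ℍ → ℂ} (h : IsKumData x m a b r 1) :
    ∃ u : L N, (∀ γ ∈ Gamma0 N, γ • u = u) ∧ u ^ m = x := by
  obtain ⟨hb, hxa, hr, hpow, hχ⟩ := h
  have hp1 : m - 1 + 1 = m := Nat.sub_add_cancel (Nat.one_le_iff_ne_zero.mpr hm)
  have htriv : ∀ γ ∈ Gamma0 N, ∀ z : ℍ,
      r (γ • z) * (b : ℍ → ℂ) z = r z * (b : ℍ → ℂ) (γ • z) := by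
    intro γ hγ z
    have := hχ ⟨γ, hγ⟩ z
    simpa using this
  have hWH : IsWH N r := isWH_of_pow hm a.2 b.2 (coe_ne_zero_RN hb) hr hpow
    (fun γ hγ z => htriv γ (Gamma_le_Gamma0' hγ) z)
  set R : RN N := ⟨r, hWH⟩ with hR
  have hRpow : R ^ m = a * b ^ (m - 1) := Subtype.ext (funext fun z => hpow z)
  refine ⟨algebraMap (RN N) (L N) R / algebraMap (RN N) (L N) b, fun γ hγ => ?_, ?_⟩
  · rw [smul_div₀', smul_algebraMap_L, smul_algebraMap_L,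
      div_eq_div_iff (algebraMap_RN_ne_zero (smul_RN_ne_zero hb γ)) (algebraMap_RN_ne_zero hb),
      ← map_mul, ← map_mul]
    congr 1
    apply Subtype.ext
    funext z
    show r (γ⁻¹ • z) * (b : ℍ → ℂ) z = r z * (b : ℍ → ℂ) (γ⁻¹ • z)
    exact htriv γ⁻¹ (inv_mem hγ) z
  · rw [div_pow, ← map_pow, ← map_pow, hRpow, hxa,
      div_eq_div_iff (algebraMap_RN_ne_zero (pow_ne_zero m hb)) (algebraMap_RN_ne_zero hb),
      ← map_mul, ← map_mul]
    congr 1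
    conv_rhs => rw [← hp1, pow_succ]
    ring

/-- The Kummer group of `L N` for the modulus `m`: nonzero `Γ₀(N)`-invariant elements all of
whose analytic orders on `ℍ` are divisible by `m` (nothing is asked at the cusps). -/
def kumGroup [NeZero N] (V : ValSpec N) (m : ℕ) : Subgroup (L N)ˣ where
  carrier := {x | (∀ γ ∈ Gamma0 N, γ • (x : L N) = x) ∧
    ∀ z : ℍ, (m : ℤ) ∣ (V.pt z).ord (x : L N)}
  mul_mem' := by
    rintro x y ⟨hx1, hx2⟩ ⟨hy1, hy2⟩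
    refine ⟨fun γ hγ => by rw [Units.val_mul, smul_mul', hx1 γ hγ, hy1 γ hγ], fun z => ?_⟩
    rw [Units.val_mul, (V.pt z).ord_mul x.ne_zero y.ne_zero]
    exact dvd_add (hx2 z) (hy2 z)
  one_mem' := ⟨fun γ _ => by simp, fun z => by simp [ZVal.ord_one]⟩
  inv_mem' := by
    rintro x ⟨hx1, hx2⟩
    refine ⟨fun γ hγ => by rw [Units.val_inv_eq_inv_val, smul_inv₀', hx1 γ hγ], fun z => ?_⟩
    rw [Units.val_inv_eq_inv_val, (V.pt z).ord_inv x.ne_zero]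
    exact (dvd_neg).mpr (hx2 z)

theorem mem_kumGroup [NeZero N] {V : ValSpec N} {m : ℕ} {x : (L N)ˣ} :
    x ∈ kumGroup V m ↔ (∀ γ ∈ Gamma0 N, γ • (x : L N) = x) ∧
      ∀ z : ℍ, (m : ℤ) ∣ (V.pt z).ord (x : L N) := Iff.rfl

/-- the underlying function of `kumChar` -/
noncomputable def kumCharFun [NeZero N] (V : ValSpec N) {m : ℕ} (hm : m ≠ 0)
    (x : kumGroup V m) : Gamma0 N →* ℂˣ :=
  (exists_isKumData V hm (x : (L N)ˣ).ne_zero x.2.1 x.2.2).choose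

theorem kumCharFun_spec [NeZero N] (V : ValSpec N) {m : ℕ} (hm : m ≠ 0) (x : kumGroup V m) :
    (∃ (a b : RN N) (r : ℍ → ℂ), IsKumData (((x : (L N)ˣ) : L N)) m a b r (kumCharFun V hm x)) ∧
      ∀ γ, kumCharFun V hm x γ ^ m = 1 :=
  (exists_isKumData V hm (x : (L N)ˣ).ne_zero x.2.1 x.2.2).choose_spec

/-- (KUM) **The Kummer character**: the multiplier of an `m`-th root on `ℍ`. -/
noncomputable def kumChar [NeZero N] (V : ValSpec N) {m : ℕ} (hm : m ≠ 0) :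
    kumGroup V m →* (Gamma0 N →* ℂˣ) where
  toFun := kumCharFun V hm
  map_one' := by
    obtain ⟨a, b, r, h⟩ := (kumCharFun_spec V hm 1).1
    exact h.unique hm (by simp) (by simpa using isKumData_one (N := N) m)
  map_mul' := fun x y => by
    obtain ⟨a, b, r, h⟩ := (kumCharFun_spec V hm (x * y)).1
    obtain ⟨a1, b1, r1, h1⟩ := (kumCharFun_spec V hm x).1
    obtain ⟨a2, b2, r2, h2⟩ := (kumCharFun_spec V hm y).1
    exact h.unique hm (Units.ne_zero _) (by simpa using h1.mul h2)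

theorem kumChar_pow [NeZero N] (V : ValSpec N) {m : ℕ} (hm : m ≠ 0) (x : kumGroup V m)
    (γ : Gamma0 N) : kumChar V hm x γ ^ m = 1 :=
  (kumCharFun_spec V hm x).2 γ

/-- UNIQUENESS: the Kummer character is the multiplier of ANY root datum of `x`. -/
theorem kumChar_eq_of_isKumData [NeZero N] (V : ValSpec N) {m : ℕ} (hm : m ≠ 0)
    (x : kumGroup V m) {a b : RN N} {r : ℍ → ℂ} {χ : Gamma0 N →* ℂˣ}
    (h : IsKumData (((x : (L N)ˣ) : L N)) m a b r χ) : kumChar V hm x = χ := by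
  obtain ⟨a', b', r', h'⟩ := (kumCharFun_spec V hm x).1
  exact h'.unique hm (Units.ne_zero _) h

/-- UNIQUENESS, unfolded (the form announced on the board). -/
theorem kumChar_eq_of_data [NeZero N] (V : ValSpec N) {m : ℕ} (hm : m ≠ 0)
    {x : kumGroup V m} {a b : RN N} {r : ℍ → ℂ} (hb : b ≠ 0)
    (hx : (((x : (L N)ˣ) : L N)) = algebraMap (RN N) (L N) a / algebraMap (RN N) (L N) b)
    (hr : MDiff r) (hpow : ∀ z : ℍ, r z ^ m = (a : ℍ → ℂ) z * (b : ℍ → ℂ) z ^ (m - 1))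
    {χ : Gamma0 N →* ℂˣ}
    (hχ : ∀ (γ : Gamma0 N) (z : ℍ), r ((γ : SL(2, ℤ)) • z) * (b : ℍ → ℂ) z
      = (χ γ : ℂ) * (r z * (b : ℍ → ℂ) ((γ : SL(2, ℤ)) • z))) :
    kumChar V hm x = χ :=
  kumChar_eq_of_isKumData V hm x ⟨hb, hx, hr, hpow, hχ⟩

/-- INJECTIVITY modulo `m`-th powers of invariant elements. -/
theorem exists_root_of_kumChar_eq_one [NeZero N] (V : ValSpec N) {m : ℕ} (hm : m ≠ 0)
    (x : kumGroup V m) (h1 : kumChar V hm x = 1) :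
    ∃ u : (L N)ˣ, (∀ γ ∈ Gamma0 N, γ • (u : L N) = u) ∧ u ^ m = (x : (L N)ˣ) := by
  obtain ⟨a, b, r, h⟩ := (kumCharFun_spec V hm x).1
  have h' : IsKumData (((x : (L N)ˣ) : L N)) m a b r 1 := by
    have e : kumCharFun V hm x = 1 := h1
    rwa [e] at h
  obtain ⟨u, hu1, hu2⟩ := h'.exists_root_of_trivial hm
  have hu0 : u ≠ 0 := by
    rintro rfl
    rw [zero_pow hm] at hu2
    exact (Units.ne_zero _) hu2.symm
  refine ⟨Units.mk0 u hu0, hu1, ?_⟩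
  apply Units.ext
  simpa using hu2

/-- `Γ₀(N)` is finitely generated, so it has finitely many characters killed by `m`. -/
theorem finite_torsion_characters [NeZero N] {m : ℕ} (hm : m ≠ 0) :
    {χ : Gamma0 N →* ℂˣ | ∀ γ, χ γ ^ m = 1}.Finite := by
  have : NeZero m := ⟨hm⟩
  have hSL : Group.FG SL(2, ℤ) := by
    rw [Group.fg_iff]
    exact ⟨{ModularGroup.S, ModularGroup.T}, SpecialLinearGroup.SL2Z_generators, by simp⟩
  have hG0 : Group.FG (Gamma0 N) := Subgroup.fg_of_index_ne_zero (Gamma0 N)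
  obtain ⟨S, hS, hSfin⟩ := Group.fg_iff.mp hG0
  have : Finite S := hSfin.to_subtype
  let Φ : {χ : Gamma0 N →* ℂˣ // ∀ γ, χ γ ^ m = 1} → (S → rootsOfUnity m ℂ) :=
    fun χ s => ⟨χ.1 s, (_root_.mem_rootsOfUnity m _).mpr (χ.2 s)⟩
  have hΦ : Function.Injective Φ := by
    intro χ χ' h
    apply Subtype.ext
    apply MonoidHom.eq_of_eqOn_dense hS
    intro s hs
    have := congrFun h ⟨s, hs⟩
    exact congrArg Subtype.val this
  exact Set.finite_coe_iff.mp (Finite.of_injective Φ hΦ)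

/-- (KUM-FIN) **Finiteness of the Kummer group modulo `m`-th powers of invariant elements.** -/
theorem exists_finset_kummer_reps [NeZero N] (V : ValSpec N) {m : ℕ} (hm : m ≠ 0) :
    ∃ S : Finset (L N)ˣ, ∀ x ∈ kumGroup V m, ∃ s ∈ S, ∃ u : (L N)ˣ,
      (∀ γ ∈ Gamma0 N, γ • (u : L N) = u) ∧ x = s * u ^ m := by
  classical
  have hfin : (Set.range (kumChar V hm)).Finite :=
    (finite_torsion_characters (N := N) hm).subset (by
      rintro χ ⟨x, rfl⟩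
      exact kumChar_pow V hm x)
  have hex : ∀ χ : Gamma0 N →* ℂˣ, χ ∈ Set.range (kumChar V hm) →
      ∃ x : kumGroup V m, kumChar V hm x = χ := fun χ h => h
  choose! rep hrep using hex
  refine ⟨hfin.toFinset.image (fun χ => ((rep χ : kumGroup V m) : (L N)ˣ)), fun x hx => ?_⟩
  set χ := kumChar V hm ⟨x, hx⟩ with hχdef
  have hχ : χ ∈ Set.range (kumChar V hm) := ⟨_, rfl⟩
  refine ⟨rep χ, Finset.mem_image.mpr ⟨χ, hfin.mem_toFinset.mpr hχ, rfl⟩, ?_⟩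
  have h1 : kumChar V hm (⟨x, hx⟩ * (rep χ)⁻¹) = 1 := by
    rw [map_mul, map_inv, hrep χ hχ]
    exact mul_inv_cancel χ
  obtain ⟨u, hu1, hu2⟩ := exists_root_of_kumChar_eq_one V hm _ h1
  refine ⟨u, hu1, ?_⟩
  rw [hu2]
  simp

/-- the sub-kernel statement in elementwise form: equal Kummer characters differ by an
`m`-th power of an invariant element. -/
theorem exists_root_of_kumChar_eq [NeZero N] (V : ValSpec N) {m : ℕ} (hm : m ≠ 0)
    (x y : kumGroup V m) (h : kumChar V hm x = kumChar V hm y) :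
    ∃ u : (L N)ˣ, (∀ γ ∈ Gamma0 N, γ • (u : L N) = u) ∧ (x : (L N)ˣ) = y * u ^ m := by
  have h1 : kumChar V hm (x * y⁻¹) = 1 := by
    rw [map_mul, map_inv, h]
    exact mul_inv_cancel _
  obtain ⟨u, hu1, hu2⟩ := exists_root_of_kumChar_eq_one V hm _ h1
  refine ⟨u, hu1, ?_⟩
  rw [hu2]
  simp

/-! ### Complements requested by the consumers -/

/-- SPEC of `kumChar` (helper58): root data realising the Kummer character. -/
theorem exists_data_of_mem [NeZero N] (V : ValSpec N) {m : ℕ} (hm : m ≠ 0) (x : kumGroup V m) :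
    ∃ (a b : RN N) (r : ℍ → ℂ), b ≠ 0 ∧
      (((x : (L N)ˣ) : L N)) = algebraMap (RN N) (L N) a / algebraMap (RN N) (L N) b ∧ MDiff r ∧
      (∀ z : ℍ, r z ^ m = (a : ℍ → ℂ) z * (b : ℍ → ℂ) z ^ (m - 1)) ∧
      ∀ (γ : Gamma0 N) (z : ℍ), r ((γ : SL(2, ℤ)) • z) * (b : ℍ → ℂ) z
        = (kumChar V hm x γ : ℂ) * (r z * (b : ℍ → ℂ) ((γ : SL(2, ℤ)) • z)) := by
  obtain ⟨a, b, r, h⟩ := (kumCharFun_spec V hm x).1
  exact ⟨a, b, r, h⟩

/-- the analytic order of an element of `RN N` as an integer -/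
theorem ord_algebraMap_eq [NeZero N] (V : ValSpec N) {f : RN N} (hf : f ≠ 0) (z : ℍ) :
    (V.pt z).ord (algebraMap (RN N) (L N) f)
      = ((analyticOrderAt ((f : ℍ → ℂ) ∘ ofComplex) (z : ℂ)).toNat : ℤ) := by
  obtain ⟨h1, h2⟩ := V.pt_algebraMap z f hf
  rw [h2, ENat.toNat_natCast, Int.toNat_of_nonneg h1]

/-- MEMBERSHIP CRITERION (helper58): an invariant `x = a / b` which has a holomorphic root
datum `r ^ m = a * b ^ (m - 1)` lies in the Kummer group. -/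
theorem mem_kumGroup_of_root [NeZero N] (V : ValSpec N) {m : ℕ} (hm : m ≠ 0) (x : (L N)ˣ)
    (hinv : ∀ γ ∈ Gamma0 N, γ • (x : L N) = x) {a b : RN N} (hb : b ≠ 0)
    (hx : (x : L N) = algebraMap (RN N) (L N) a / algebraMap (RN N) (L N) b)
    {r : ℍ → ℂ} (hr : MDiff r)
    (hpow : ∀ z : ℍ, r z ^ m = (a : ℍ → ℂ) z * (b : ℍ → ℂ) z ^ (m - 1)) :
    x ∈ kumGroup V m := by
  refine ⟨hinv, fun z => ?_⟩
  have ha : a ≠ 0 := by
    rintro rfl
    apply x.ne_zero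
    rw [hx, map_zero, zero_div]
  have hp1 : m - 1 + 1 = m := Nat.sub_add_cancel (Nat.one_le_iff_ne_zero.mpr hm)
  rw [hx, ZVal.ord_div _ (algebraMap_RN_ne_zero ha) (algebraMap_RN_ne_zero hb),
    ord_algebraMap_eq V ha z, ord_algebraMap_eq V hb z]
  -- orders of `r ^ m = a * b ^ (m - 1)` at `z`
  have hra : AnalyticAt ℂ (r ∘ ofComplex) (z : ℂ) :=
    ((UpperHalfPlane.mdifferentiable_iff.mp hr).analyticOnNhd isOpen_upperHalfPlaneSet) _ z.im_pos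
  have haa : AnalyticAt ℂ ((a : ℍ → ℂ) ∘ ofComplex) (z : ℂ) :=
    ((UpperHalfPlane.mdifferentiable_iff.mp a.2.mdiff).analyticOnNhd isOpen_upperHalfPlaneSet)
      _ z.im_pos
  have hba : AnalyticAt ℂ ((b : ℍ → ℂ) ∘ ofComplex) (z : ℂ) :=
    ((UpperHalfPlane.mdifferentiable_iff.mp b.2.mdiff).analyticOnNhd isOpen_upperHalfPlaneSet)
      _ z.im_pos
  have hfun : (r ∘ ofComplex) ^ m
      = ((a : ℍ → ℂ) ∘ ofComplex) * ((b : ℍ → ℂ) ∘ ofComplex) ^ (m - 1) := by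
    funext w
    exact hpow (ofComplex w)
  have hordeq := congrArg (fun f => analyticOrderAt f (z : ℂ)) hfun
  simp only [analyticOrderAt_pow hra, analyticOrderAt_mul haa (hba.pow _),
    analyticOrderAt_pow hba] at hordeq
  obtain ⟨h1a, h2a⟩ := V.pt_algebraMap z a ha
  obtain ⟨h1b, h2b⟩ := V.pt_algebraMap z b hb
  rw [h2a, h2b] at hordeq ⊢
  have hrtop : analyticOrderAt (r ∘ ofComplex) (z : ℂ) ≠ ⊤ := by
    intro htop
    rw [htop] at hordeq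
    have h3 : m • (⊤ : ℕ∞) = ⊤ := by
      rw [nsmul_eq_mul]
      exact ENat.mul_top (by exact_mod_cast hm)
    rw [h3] at hordeq
    have h4 : (((V.pt z).ord (algebraMap (RN N) (L N) a)).toNat : ℕ∞)
        + (m - 1) • (((V.pt z).ord (algebraMap (RN N) (L N) b)).toNat : ℕ∞)
        = ((((V.pt z).ord (algebraMap (RN N) (L N) a)).toNat
          + (m - 1) * ((V.pt z).ord (algebraMap (RN N) (L N) b)).toNat : ℕ) : ℕ∞) := by
      rw [nsmul_eq_mul]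
      push_cast
      rfl
    rw [h4] at hordeq
    exact ENat.natCast_ne_top _ hordeq.symm
  obtain ⟨k, hk⟩ := ENat.ne_top_iff_exists.mp hrtop
  rw [← hk] at hordeq
  have h5 : m * k = ((V.pt z).ord (algebraMap (RN N) (L N) a)).toNat
      + (m - 1) * ((V.pt z).ord (algebraMap (RN N) (L N) b)).toNat := by
    have : ((m * k : ℕ) : ℕ∞) = ((((V.pt z).ord (algebraMap (RN N) (L N) a)).toNat
        + (m - 1) * ((V.pt z).ord (algebraMap (RN N) (L N) b)).toNat : ℕ) : ℕ∞) := by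
      rw [nsmul_eq_mul, nsmul_eq_mul] at hordeq
      push_cast
      exact hordeq
    exact_mod_cast this
  simp only [ENat.toNat_natCast]
  set A : ℕ := ((V.pt z).ord (algebraMap (RN N) (L N) a)).toNat
  set B : ℕ := ((V.pt z).ord (algebraMap (RN N) (L N) b)).toNat
  have hm1 : 1 ≤ m := Nat.one_le_iff_ne_zero.mpr hm
  refine ⟨(k : ℤ) - B, ?_⟩
  have h6 : ((m * k : ℕ) : ℤ) = ((A + (m - 1) * B : ℕ) : ℤ) := by exact_mod_cast h5
  push_cast [Nat.cast_sub hm1] at h6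
  linarith

/-- nonzero constants lie in the Kummer group (helper35) -/
theorem const_mem_kumGroup [NeZero N] (V : ValSpec N) {m : ℕ} (hm : m ≠ 0) {c : ℂ} (hc : c ≠ 0) :
    Units.mk0 (algebraMap ℂ (L N) c) ((map_ne_zero _).mpr hc) ∈ kumGroup V m := by
  obtain ⟨d, hd⟩ := IsAlgClosed.exists_pow_nat_eq c (Nat.pos_of_ne_zero hm)
  refine mem_kumGroup_of_root V hm _ (fun γ _ => smul_algebraMap_complex_L γ c)
    (a := algebraMap ℂ (RN N) c) (b := 1) one_ne_zero ?_ (r := fun _ => d)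
    mdifferentiable_const (fun z => ?_)
  · simp [IsScalarTower.algebraMap_apply ℂ (RN N) (L N)]
  · show d ^ m = c * 1 ^ (m - 1)
    rw [hd, one_pow, mul_one]

/-- ... with trivial Kummer character (helper35) -/
theorem kumChar_const [NeZero N] (V : ValSpec N) {m : ℕ} (hm : m ≠ 0) {c : ℂ} (hc : c ≠ 0) :
    kumChar V hm ⟨_, const_mem_kumGroup V hm hc⟩ = 1 := by
  obtain ⟨d, hd⟩ := IsAlgClosed.exists_pow_nat_eq c (Nat.pos_of_ne_zero hm)
  refine kumChar_eq_of_data V hm (a := algebraMap ℂ (RN N) c) (b := 1) (r := fun _ => d)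
    one_ne_zero ?_ mdifferentiable_const (fun z => ?_) (fun γ z => ?_)
  · simp [IsScalarTower.algebraMap_apply ℂ (RN N) (L N)]
  · show d ^ m = c * 1 ^ (m - 1)
    rw [hd, one_pow, mul_one]
  · show d * 1 = ((1 : Gamma0 N →* ℂˣ) γ : ℂ) * (d * 1)
    simp

/-- `m`-th powers of invariant elements lie in the Kummer group (helper35) -/
theorem pow_mem_kumGroup [NeZero N] (V : ValSpec N) (m : ℕ) (u : (L N)ˣ)
    (hu : ∀ γ ∈ Gamma0 N, γ • (u : L N) = u) : u ^ m ∈ kumGroup V m := by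
  refine ⟨fun γ hγ => ?_, fun z => ?_⟩
  · rw [Units.val_pow_eq_pow_val, smul_pow', hu γ hγ]
  · rw [Units.val_pow_eq_pow_val, ZVal.ord_pow _ u.ne_zero]
    exact dvd_mul_right _ _

/-- ... with trivial Kummer character: the converse of `exists_root_of_kumChar_eq_one`
(helper35) -/
theorem kumChar_pow_mem [NeZero N] (V : ValSpec N) {m : ℕ} (hm : m ≠ 0) (u : (L N)ˣ)
    (hu : ∀ γ ∈ Gamma0 N, γ • (u : L N) = u) :
    kumChar V hm ⟨u ^ m, pow_mem_kumGroup V m u hu⟩ = 1 := by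
  obtain ⟨a, b, hb, hab⟩ := IsFractionRing.div_surjective (RN N) (u : L N)
  have hb0 : b ≠ 0 := nonZeroDivisors.ne_zero hb
  have hp1 : m - 1 + 1 = m := Nat.sub_add_cancel (Nat.one_le_iff_ne_zero.mpr hm)
  have hcross : ∀ γ ∈ Gamma0 N, ∀ z : ℍ,
      (a : ℍ → ℂ) (γ • z) * (b : ℍ → ℂ) z = (a : ℍ → ℂ) z * (b : ℍ → ℂ) (γ • z) := by
    intro γ hγ z
    have h1 := hu γ⁻¹ (inv_mem hγ)
    rw [← hab] at h1
    exact cross_of_smul_eq hb0 h1 z
  refine kumChar_eq_of_data V hm (a := a ^ m) (b := b ^ m)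
    (r := fun z => (a : ℍ → ℂ) z * (b : ℍ → ℂ) z ^ (m - 1)) (pow_ne_zero m hb0) ?_
    (a.2.mdiff.mul (b.2.mdiff.pow _)) (fun z => ?_) (fun γ z => ?_)
  · show ((u ^ m : (L N)ˣ) : L N) = _
    rw [Units.val_pow_eq_pow_val, ← hab, div_pow, map_pow, map_pow]
  · show ((a : ℍ → ℂ) z * (b : ℍ → ℂ) z ^ (m - 1)) ^ m
      = (a : ℍ → ℂ) z ^ m * ((b : ℍ → ℂ) z ^ m) ^ (m - 1)
    rw [mul_pow, ← pow_mul, ← pow_mul, mul_comm (m - 1) m]
  · show (a : ℍ → ℂ) ((γ : SL(2, ℤ)) • z) * (b : ℍ → ℂ) ((γ : SL(2, ℤ)) • z) ^ (m - 1)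
        * (b : ℍ → ℂ) z ^ m
      = ((1 : Gamma0 N →* ℂˣ) γ : ℂ) * ((a : ℍ → ℂ) z * (b : ℍ → ℂ) z ^ (m - 1)
        * (b : ℍ → ℂ) ((γ : SL(2, ℤ)) • z) ^ m)
    have hc := hcross γ γ.2 z
    rw [MonoidHom.one_apply, Units.val_one, one_mul]
    calc (a : ℍ → ℂ) ((γ : SL(2, ℤ)) • z) * (b : ℍ → ℂ) ((γ : SL(2, ℤ)) • z) ^ (m - 1)
          * (b : ℍ → ℂ) z ^ m
        = ((a : ℍ → ℂ) ((γ : SL(2, ℤ)) • z) * (b : ℍ → ℂ) z)
          * (b : ℍ → ℂ) ((γ : SL(2, ℤ)) • z) ^ (m - 1) * (b : ℍ → ℂ) z ^ (m - 1) := by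
          conv_lhs => rw [← hp1, pow_succ]
          rw [hp1]; ring
      _ = ((a : ℍ → ℂ) z * (b : ℍ → ℂ) ((γ : SL(2, ℤ)) • z))
          * (b : ℍ → ℂ) ((γ : SL(2, ℤ)) • z) ^ (m - 1) * (b : ℍ → ℂ) z ^ (m - 1) := by rw [hc]
      _ = _ := by
          conv_rhs => rw [← hp1, pow_succ]
          rw [hp1]; ring

end Fermat.Agent.S29.H29
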