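import Mathlib

/-!
# Weighted Eisenstein series and Eisenstein series with a character of `Γ₀(N)` (helper35)

Mathlib-only; general weight `k ≥ 3`, general unitary character.
-/

set_option autoImplicit false

open UpperHalfPlane EisensteinSeries Matrix CongruenceSubgroup ModularGroup Filter Topology
open scoped MatrixGroups Manifold

namespace Fermat.Agent.S29.H35

noncomputable section

theorem vecMul_mul_inv (γ : SL(2, ℤ)) (v : Fin 2 → ℤ) :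
    (v ᵥ* (γ : Matrix (Fin 2) (Fin 2) ℤ)) ᵥ* ((γ⁻¹ : SL(2, ℤ)) : Matrix (Fin 2) (Fin 2) ℤ) = v := by
  have h : (γ : Matrix (Fin 2) (Fin 2) ℤ) * ((γ⁻¹ : SL(2, ℤ)) : Matrix (Fin 2) (Fin 2) ℤ) = 1 := by
    simp [mul_adjugate]
  rw [vecMul_vecMul, h, vecMul_one]

theorem vecMul_inv_mul (γ : SL(2, ℤ)) (v : Fin 2 → ℤ) :
    (v ᵥ* ((γ⁻¹ : SL(2, ℤ)) : Matrix (Fin 2) (Fin 2) ℤ)) ᵥ* (γ : Matrix (Fin 2) (Fin 2) ℤ) = v := by
  have h : ((γ⁻¹ : SL(2, ℤ)) : Matrix (Fin 2) (Fin 2) ℤ) * (γ : Matrix (Fin 2) (Fin 2) ℤ) = 1 := by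
    simp [adjugate_mul]
  rw [vecMul_vecMul, h, vecMul_one]

/-- right multiplication by `γ` as a permutation of the lattice -/
def vecMulEquiv (γ : SL(2, ℤ)) : (Fin 2 → ℤ) ≃ (Fin 2 → ℤ) where
  toFun v := v ᵥ* (γ : Matrix (Fin 2) (Fin 2) ℤ)
  invFun v := v ᵥ* ((γ⁻¹ : SL(2, ℤ)) : Matrix (Fin 2) (Fin 2) ℤ)
  left_inv v := vecMul_mul_inv γ v
  right_inv v := vecMul_inv_mul γ v

/-- weighted Eisenstein sum over the whole lattice -/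
def wEis (w : (Fin 2 → ℤ) → ℂ) (k : ℤ) (z : ℍ) : ℂ := ∑' v : Fin 2 → ℤ, w v * eisSummand k v z

theorem summable_wEis {w : (Fin 2 → ℤ) → ℂ} (hw : ∀ v, ‖w v‖ ≤ 1) {k : ℤ} (hk : 3 ≤ k) (z : ℍ) :
    Summable fun v : Fin 2 → ℤ => w v * eisSummand k v z := by
  refine Summable.of_norm_bounded (summable_norm_eisSummand hk z) (fun v => ?_)
  rw [norm_mul]
  exact mul_le_of_le_one_left (norm_nonneg _) (hw v)

theorem norm_wEis_le {w : (Fin 2 → ℤ) → ℂ} (hw : ∀ v, ‖w v‖ ≤ 1) {k : ℤ} (hk : 3 ≤ k) (z : ℍ) :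
    ‖wEis w k z‖ ≤ ∑' v : Fin 2 → ℤ, ‖eisSummand k v z‖ := by
  have h1 : Summable fun v : Fin 2 → ℤ => ‖w v * eisSummand k v z‖ :=
    (summable_norm_eisSummand hk z).of_nonneg_of_le (fun _ => norm_nonneg _) (fun v => by
      rw [norm_mul]; exact mul_le_of_le_one_left (norm_nonneg _) (hw v))
  refine (norm_tsum_le_tsum_norm h1).trans ?_
  refine h1.tsum_le_tsum (fun v => ?_) (summable_norm_eisSummand hk z)
  rw [norm_mul]; exact mul_le_of_le_one_left (norm_nonneg _) (hw v)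

/-- transformation law: reindex the lattice by `v ↦ v ᵥ* γ` -/
theorem wEis_smul (w : (Fin 2 → ℤ) → ℂ) (k : ℤ) (γ : SL(2, ℤ)) (z : ℍ) :
    wEis w k (γ • z) = denom γ z ^ k *
      wEis (fun v => w (v ᵥ* ((γ⁻¹ : SL(2, ℤ)) : Matrix (Fin 2) (Fin 2) ℤ))) k z := by
  unfold wEis
  rw [← tsum_mul_left]
  have hre := (vecMulEquiv γ).tsum_eq (fun v : Fin 2 → ℤ => denom γ z ^ k *
    (w (v ᵥ* ((γ⁻¹ : SL(2, ℤ)) : Matrix (Fin 2) (Fin 2) ℤ)) * eisSummand k v z))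
  rw [← hre]
  refine tsum_congr (fun v => ?_)
  have h := eisSummand_SL2_apply k v γ z
  simp only [vecMulEquiv, Equiv.coe_fn_mk]
  rw [vecMul_mul_inv, h]
  ring

/-- locally uniform convergence of the weighted Eisenstein sum -/
theorem wEis_tendstoLocallyUniformly {w : (Fin 2 → ℤ) → ℂ} (hw : ∀ v, ‖w v‖ ≤ 1) {k : ℤ}
    (hk : 3 ≤ k) :
    TendstoLocallyUniformly (fun (s : Finset (Fin 2 → ℤ)) ↦ (∑ x ∈ s, w x * eisSummand k x ·))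
      (wEis w k ·) Filter.atTop := by
  have hk' : (2 : ℝ) < k := by norm_cast
  have p_sum : Summable fun x : (Fin 2 → ℤ) ↦ ‖x‖ ^ (-k) :=
    mod_cast (summable_one_div_norm_rpow hk')
  simp only [tendstoLocallyUniformly_iff_forall_isCompact, wEis]
  intro K hK
  obtain ⟨A, B, hB, HABK⟩ := subset_verticalStrip_of_isCompact hK
  refine (tendstoUniformlyOn_tsum (hu := p_sum.mul_left <| r ⟨⟨A, B⟩, hB⟩ ^ (-k : ℝ))
    (fun p z hz ↦ ?_)).mono HABK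
  have h1 : ‖eisSummand k p z‖ ≤ r ⟨⟨A, B⟩, hB⟩ ^ (-k : ℝ) * ‖p‖ ^ (-k) := by
    simpa only [eisSummand, one_div, ← _root_.zpow_neg, norm_zpow, ← Real.rpow_intCast,
      Int.cast_neg] using summand_bound_of_mem_verticalStrip (by positivity) p hB hz
  rw [norm_mul]
  exact (mul_le_of_le_one_left (norm_nonneg _) (hw p)).trans h1

theorem wEis_tendstoLocallyUniformlyOn {w : (Fin 2 → ℤ) → ℂ} (hw : ∀ v, ‖w v‖ ≤ 1) {k : ℤ}
    (hk : 3 ≤ k) :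
    TendstoLocallyUniformlyOn (fun (s : Finset (Fin 2 → ℤ)) ↦
      ↑ₕ(fun (z : ℍ) ↦ ∑ x ∈ s, w x * eisSummand k x z)) (↑ₕ(wEis w k))
          Filter.atTop {z : ℂ | 0 < z.im} := by
  rw [← upperHalfPlaneSet, ← range_coe, ← Set.image_univ]
  apply TendstoLocallyUniformlyOn.comp (s := ⊤) _ _ _ (OpenPartialHomeomorph.continuousOn_symm _)
  · simp only [Set.top_eq_univ, tendstoLocallyUniformlyOn_univ]
    exact wEis_tendstoLocallyUniformly hw hk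
  · simp only [IsOpenEmbedding.toOpenPartialHomeomorph_target, Set.top_eq_univ,
      Set.mapsTo_range_iff, Set.mem_univ, forall_const]

/-- the weighted Eisenstein series is holomorphic on `ℍ` -/
theorem wEis_mdifferentiable {w : (Fin 2 → ℤ) → ℂ} (hw : ∀ v, ‖w v‖ ≤ 1) {k : ℤ} (hk : 3 ≤ k) :
    MDiff (wEis w k) := by
  intro τ
  suffices DifferentiableAt ℂ (↑ₕ(wEis w k)) τ.1 by
    convert!
      MDifferentiableAt.comp τ (DifferentiableAt.mdifferentiableAt this) τ.mdifferentiable_coe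
    exact funext fun z ↦ (comp_ofComplex (wEis w k) z).symm
  refine DifferentiableOn.differentiableAt ?_ (isOpen_upperHalfPlaneSet.mem_nhds τ.2)
  refine (wEis_tendstoLocallyUniformlyOn hw hk).differentiableOn
    (Eventually.of_forall fun s ↦ ?_) isOpen_upperHalfPlaneSet
  have : (↑ₕ(fun (z : ℍ) ↦ ∑ x ∈ s, w x * eisSummand k x z)) =
      fun z : ℂ => ∑ x ∈ s, w x * (↑ₕ(eisSummand k x)) z := by
    funext z
    simp only [Function.comp_apply]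
  rw [this]
  exact DifferentiableOn.fun_sum fun x _ ↦
    (eisSummand_extension_differentiableOn k x).const_mul (w x)

/-! ### the weight attached to a character of `Γ₀(N)` -/

section char

variable {N : ℕ} (χ : Gamma0 N →* ℂˣ)

open Classical in
/-- the weight on the lattice: `χ(γ)⁻¹` on the bottom row of `γ ∈ Γ₀(N)`, `0` elsewhere -/
def cw (v : Fin 2 → ℤ) : ℂ :=
  if h : ∃ γ : Gamma0 N, ((γ : SL(2, ℤ)) : Matrix (Fin 2) (Fin 2) ℤ) 1 = v then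
    (((χ h.choose)⁻¹ : ℂˣ) : ℂ) else 0

theorem cw_bot (hχT : ∀ γ γ' : Gamma0 N, ((γ : SL(2, ℤ)) : Matrix (Fin 2) (Fin 2) ℤ) 1 =
    ((γ' : SL(2, ℤ)) : Matrix (Fin 2) (Fin 2) ℤ) 1 → χ γ = χ γ') (γ : Gamma0 N) :
    cw χ (((γ : SL(2, ℤ)) : Matrix (Fin 2) (Fin 2) ℤ) 1) = (((χ γ)⁻¹ : ℂˣ) : ℂ) := by
  have h : ∃ γ' : Gamma0 N, ((γ' : SL(2, ℤ)) : Matrix (Fin 2) (Fin 2) ℤ) 1 =
      ((γ : SL(2, ℤ)) : Matrix (Fin 2) (Fin 2) ℤ) 1 := ⟨γ, rfl⟩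
  rw [cw, dif_pos h, hχT _ _ h.choose_spec]

theorem norm_cw_le (hχ1 : ∀ γ : Gamma0 N, ‖((χ γ : ℂˣ) : ℂ)‖ = 1) (v : Fin 2 → ℤ) :
    ‖cw χ v‖ ≤ 1 := by
  unfold cw
  split_ifs with h
  · rw [Units.val_inv_eq_inv_val, norm_inv, hχ1, inv_one]
  · simp

/-- bottom row of a product -/
theorem bot_mul (γ δ : SL(2, ℤ)) :
    ((γ * δ : SL(2, ℤ)) : Matrix (Fin 2) (Fin 2) ℤ) 1 =
      ((γ : Matrix (Fin 2) (Fin 2) ℤ) 1) ᵥ* (δ : Matrix (Fin 2) (Fin 2) ℤ) := by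
  funext j
  simp [Matrix.mul_apply, Matrix.vecMul, dotProduct]

theorem cw_vecMul_inv (hχT : ∀ γ γ' : Gamma0 N, ((γ : SL(2, ℤ)) : Matrix (Fin 2) (Fin 2) ℤ) 1 =
    ((γ' : SL(2, ℤ)) : Matrix (Fin 2) (Fin 2) ℤ) 1 → χ γ = χ γ') (δ : Gamma0 N) (v : Fin 2 → ℤ) :
    cw χ (v ᵥ* (((δ : SL(2, ℤ))⁻¹ : SL(2, ℤ)) : Matrix (Fin 2) (Fin 2) ℤ)) =
      ((χ δ : ℂˣ) : ℂ) * cw χ v := by
  by_cases h : ∃ γ : Gamma0 N, ((γ : SL(2, ℤ)) : Matrix (Fin 2) (Fin 2) ℤ) 1 = v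
  · obtain ⟨γ, rfl⟩ := h
    have h1 : ((γ : SL(2, ℤ)) : Matrix (Fin 2) (Fin 2) ℤ) 1 ᵥ*
        (((δ : SL(2, ℤ))⁻¹ : SL(2, ℤ)) : Matrix (Fin 2) (Fin 2) ℤ) =
        (((γ * δ⁻¹ : Gamma0 N) : SL(2, ℤ)) : Matrix (Fin 2) (Fin 2) ℤ) 1 := by
      rw [Subgroup.coe_mul, Subgroup.coe_inv, bot_mul]
    rw [h1, cw_bot χ hχT, cw_bot χ hχT, map_mul, map_inv, _root_.mul_inv_rev, inv_inv]
    push_cast
    ring
  · have h' : ¬ ∃ γ : Gamma0 N, ((γ : SL(2, ℤ)) : Matrix (Fin 2) (Fin 2) ℤ) 1 =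
        v ᵥ* (((δ : SL(2, ℤ))⁻¹ : SL(2, ℤ)) : Matrix (Fin 2) (Fin 2) ℤ) := by
      rintro ⟨γ, hγ⟩
      refine h ⟨γ * δ, ?_⟩
      rw [Subgroup.coe_mul, bot_mul, hγ, vecMul_inv_mul]
    rw [cw, dif_neg h', cw, dif_neg h, mul_zero]

/-- the Eisenstein series with character `χ` (weight `k`) -/
def eisChar (k : ℤ) : ℍ → ℂ := wEis (cw χ) k

/-- automorphy: `E_χ(δ z) = χ(δ) (cz+d)^k E_χ(z)` for `δ ∈ Γ₀(N)` -/
theorem eisChar_smul (hχT : ∀ γ γ' : Gamma0 N, ((γ : SL(2, ℤ)) : Matrix (Fin 2) (Fin 2) ℤ) 1 =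
    ((γ' : SL(2, ℤ)) : Matrix (Fin 2) (Fin 2) ℤ) 1 → χ γ = χ γ') (k : ℤ) (δ : Gamma0 N) (z : ℍ) :
    eisChar χ k ((δ : SL(2, ℤ)) • z) =
      ((χ δ : ℂˣ) : ℂ) * denom (δ : SL(2, ℤ)) z ^ k * eisChar χ k z := by
  unfold eisChar
  rw [wEis_smul]
  have : (fun v => cw χ (v ᵥ* (((δ : SL(2, ℤ))⁻¹ : SL(2, ℤ)) : Matrix (Fin 2) (Fin 2) ℤ))) =
      fun v => ((χ δ : ℂˣ) : ℂ) * cw χ v := funext fun v => cw_vecMul_inv χ hχT δ v
  rw [this]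
  unfold wEis
  simp_rw [mul_assoc]
  rw [tsum_mul_left]
  ring

theorem eisChar_mdifferentiable (hχ1 : ∀ γ : Gamma0 N, ‖((χ γ : ℂˣ) : ℂ)‖ = 1) {k : ℤ}
    (hk : 3 ≤ k) : MDiff (eisChar χ k) :=
  wEis_mdifferentiable (norm_cw_le χ hχ1) hk

/-- the points `i (n+1)` of the imaginary axis -/
def iPt (n : ℕ) : ℍ := ⟨(n + 1 : ℝ) * Complex.I, by simp; positivity⟩

theorem norm_eisSummand_iPt_le {k : ℤ} (hk : 0 ≤ k) (v : Fin 2 → ℤ) (n : ℕ) :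
    ‖eisSummand k v (iPt n)‖ ≤ ‖eisSummand k v (iPt 0)‖ := by
  by_cases hv : v = 0
  · subst hv; simp [eisSummand]
  have hne : ∀ m : ℕ, ((v 0 : ℂ) * ((iPt m : ℍ) : ℂ) + v 1) ≠ 0 := fun m =>
    linear_ne_zero (iPt m) ((Function.comp_ne_zero_iff _ Int.cast_injective Int.cast_zero).mpr hv)
  simp only [eisSummand, norm_zpow]
  obtain ⟨j, rfl⟩ := Int.eq_ofNat_of_zero_le hk
  rw [_root_.zpow_neg, _root_.zpow_neg, zpow_natCast, zpow_natCast]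
  have h0 : 0 < ‖(v 0 : ℂ) * ((iPt 0 : ℍ) : ℂ) + v 1‖ := norm_pos_iff.mpr (hne 0)
  have hle : ‖(v 0 : ℂ) * ((iPt 0 : ℍ) : ℂ) + v 1‖ ≤ ‖(v 0 : ℂ) * ((iPt n : ℍ) : ℂ) + v 1‖ := by
    have e : ∀ m : ℕ, (v 0 : ℂ) * ((iPt m : ℍ) : ℂ) + v 1 =
        ⟨(v 1 : ℝ), (v 0 : ℝ) * (m + 1)⟩ := by
      intro m
      apply Complex.ext <;> simp [iPt]
    rw [e 0, e n]
    simp only [Complex.norm_def, Complex.normSq_mk]
    apply Real.sqrt_le_sqrt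
    have : ((v 0 : ℝ) * ((0 : ℕ) + 1)) * ((v 0 : ℝ) * ((0 : ℕ) + 1)) ≤
        ((v 0 : ℝ) * (n + 1)) * ((v 0 : ℝ) * (n + 1)) := by
      have hn : (1 : ℝ) ≤ (n : ℝ) + 1 := by linarith [Nat.cast_nonneg (α := ℝ) n]
      have h2 : (0 : ℝ) ≤ (v 0 : ℝ) * (v 0 : ℝ) := mul_self_nonneg _
      push_cast
      nlinarith [mul_le_mul hn hn zero_le_one (by linarith : (0 : ℝ) ≤ (n : ℝ) + 1)]
    linarith
  exact inv_anti₀ (pow_pos h0 j) (pow_le_pow_left₀ h0.le hle j)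

theorem tendsto_eisSummand_iPt {k : ℤ} (hk : 1 ≤ k) (v : Fin 2 → ℤ) (hv : v 0 ≠ 0) :
    Tendsto (fun n : ℕ => eisSummand k v (iPt n)) atTop (𝓝 0) := by
  rw [tendsto_zero_iff_norm_tendsto_zero]
  have hb : ∀ n : ℕ, ‖eisSummand k v (iPt n)‖ ≤ ((n : ℝ) + 1)⁻¹ := by
    intro n
    have e : (v 0 : ℂ) * ((iPt n : ℍ) : ℂ) + v 1 = ⟨(v 1 : ℝ), (v 0 : ℝ) * (n + 1)⟩ := by
      apply Complex.ext <;> simp [iPt]
    have hn : (0 : ℝ) < (n : ℝ) + 1 := by positivity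
    have h1 : (n : ℝ) + 1 ≤ ‖(v 0 : ℂ) * ((iPt n : ℍ) : ℂ) + v 1‖ := by
      rw [e]
      have hc : (1 : ℝ) ≤ |(v 0 : ℝ)| := by
        have : (1 : ℤ) ≤ |v 0| := Int.one_le_abs hv
        exact_mod_cast this
      calc (n : ℝ) + 1 ≤ |(v 0 : ℝ)| * ((n : ℝ) + 1) := le_mul_of_one_le_left hn.le hc
        _ = |(v 0 : ℝ) * ((n : ℝ) + 1)| := by rw [abs_mul, abs_of_pos hn]
        _ ≤ _ := Complex.abs_im_le_norm ⟨(v 1 : ℝ), (v 0 : ℝ) * (n + 1)⟩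
    simp only [eisSummand, norm_zpow]
    obtain ⟨j, rfl⟩ := Int.eq_ofNat_of_zero_le (by linarith : (0 : ℤ) ≤ k)
    have hj : 1 ≤ j := by exact_mod_cast hk
    rw [_root_.zpow_neg, zpow_natCast]
    have h2 : (n : ℝ) + 1 ≤ ‖(v 0 : ℂ) * ((iPt n : ℍ) : ℂ) + v 1‖ ^ j := by
      have h3 : (1 : ℝ) ≤ ‖(v 0 : ℂ) * ((iPt n : ℍ) : ℂ) + v 1‖ := by linarith [Nat.cast_nonneg (α := ℝ) n]
      calc (n : ℝ) + 1 ≤ ‖(v 0 : ℂ) * ((iPt n : ℍ) : ℂ) + v 1‖ ^ 1 := by rw [pow_one]; exact h1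
        _ ≤ _ := pow_le_pow_right₀ h3 hj
    exact inv_anti₀ hn h2
  refine squeeze_zero (fun _ => norm_nonneg _) hb ?_
  exact tendsto_inv_atTop_zero.comp (tendsto_atTop_add_const_right _ 1 tendsto_natCast_atTop_atTop)

/-- `E_χ(i(n+1)) → ∑ (terms with c = 0)` -/
theorem tendsto_eisChar_iPt (hχ1 : ∀ γ : Gamma0 N, ‖((χ γ : ℂˣ) : ℂ)‖ = 1) {k : ℤ} (hk : 3 ≤ k) :
    Tendsto (fun n : ℕ => eisChar χ k (iPt n)) atTop
      (𝓝 (∑' v : Fin 2 → ℤ, if v 0 = 0 then cw χ v * eisSummand k v (iPt 0) else 0)) := by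
  unfold eisChar wEis
  refine tendsto_tsum_of_dominated_convergence (bound := fun v => ‖eisSummand k v (iPt 0)‖)
    (summable_norm_eisSummand hk _) (fun v => ?_) (Eventually.of_forall fun n v => ?_)
  · by_cases hv : v 0 = 0
    · rw [if_pos hv]
      have : ∀ n : ℕ, eisSummand k v (iPt n) = eisSummand k v (iPt 0) := by
        intro n; simp [eisSummand, hv]
      simp_rw [this]
      exact tendsto_const_nhds
    · rw [if_neg hv]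
      simpa using (tendsto_eisSummand_iPt (by linarith) v hv).const_mul (cw χ v)
  · rw [norm_mul]
    exact (mul_le_of_le_one_left (norm_nonneg _) (norm_cw_le χ hχ1 v)).trans
      (norm_eisSummand_iPt_le (by linarith) v n)

/-- `-1 ∈ Γ₀(N)` -/
def negOne (N : ℕ) : Gamma0 N := ⟨-1, by simp [Gamma0_mem]⟩

theorem bot_one : ((1 : SL(2, ℤ)) : Matrix (Fin 2) (Fin 2) ℤ) 1 = ![0, 1] := by
  funext j; fin_cases j <;> simp

theorem bot_negOne : (((negOne N : Gamma0 N) : SL(2, ℤ)) : Matrix (Fin 2) (Fin 2) ℤ) 1 = ![0, -1] := by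
  funext j; fin_cases j <;> simp [negOne]

/-- a bottom row `(0, d)` of an element of `SL(2, ℤ)` has `d = ± 1` -/
theorem bot_zero_cases (γ : SL(2, ℤ)) (h : (γ : Matrix (Fin 2) (Fin 2) ℤ) 1 0 = 0) :
    (γ : Matrix (Fin 2) (Fin 2) ℤ) 1 = ![0, 1] ∨ (γ : Matrix (Fin 2) (Fin 2) ℤ) 1 = ![0, -1] := by
  have hdet := γ.det_coe
  rw [Matrix.det_fin_two, h, mul_zero, sub_zero] at hdet
  rcases Int.isUnit_iff.mp (IsUnit.of_mul_eq_one _ (by rw [mul_comm]; exact hdet)) with h1 | h1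
  · left; funext j; fin_cases j <;> simp [h, h1]
  · right; funext j; fin_cases j <;> simp [h, h1]

theorem tsum_cusp_eq_two (hχT : ∀ γ γ' : Gamma0 N, ((γ : SL(2, ℤ)) : Matrix (Fin 2) (Fin 2) ℤ) 1 =
    ((γ' : SL(2, ℤ)) : Matrix (Fin 2) (Fin 2) ℤ) 1 → χ γ = χ γ') (hneg : χ (negOne N) = 1)
    {k : ℤ} (hk2 : Even k) :
    (∑' v : Fin 2 → ℤ, if v 0 = 0 then cw χ v * eisSummand k v (iPt 0) else 0) = 2 := by
  have hne : (![0, 1] : Fin 2 → ℤ) ≠ ![0, -1] := by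
    intro h; have := congrFun h 1; simp at this
  rw [tsum_eq_sum (s := {![0, 1], ![0, -1]})]
  · rw [Finset.sum_pair hne]
    have h1 : cw χ ![0, 1] = 1 := by
      have := cw_bot χ hχT (1 : Gamma0 N)
      rw [Subgroup.coe_one, bot_one, map_one] at this
      simpa using this
    have h2 : cw χ ![0, -1] = 1 := by
      have := cw_bot χ hχT (negOne N)
      rw [bot_negOne, hneg] at this
      simpa using this
    have e1 : eisSummand k ![0, 1] (iPt 0) = 1 := by simp [eisSummand]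
    have e2 : eisSummand k ![0, -1] (iPt 0) = 1 := by
      simp only [eisSummand, Matrix.cons_val_zero, Int.cast_zero, zero_mul, Matrix.cons_val_one,
        Int.cast_neg, Int.cast_one, zero_add]
      rw [_root_.zpow_neg, hk2.neg_one_zpow, inv_one]
    simp [h1, h2, e1, e2]
    norm_num
  · intro v hv
    by_cases hv0 : v 0 = 0
    · rw [if_pos hv0]
      have hcw : cw χ v = 0 := by
        unfold cw
        rw [dif_neg]
        rintro ⟨γ, hγ⟩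
        have h0 : ((γ : SL(2, ℤ)) : Matrix (Fin 2) (Fin 2) ℤ) 1 0 = 0 := by rw [hγ]; exact hv0
        rcases bot_zero_cases (γ : SL(2, ℤ)) h0 with h | h
        · exact hv (by rw [← hγ, h]; simp)
        · exact hv (by rw [← hγ, h]; simp)
      rw [hcw, zero_mul]
    · rw [if_neg hv0]

/-- `E_χ` is not identically zero (weight `k ≥ 4` even, `χ(-1) = 1`, `χ` unitary and trivial on
the upper unipotents). -/
theorem eisChar_ne_zero (hχ1 : ∀ γ : Gamma0 N, ‖((χ γ : ℂˣ) : ℂ)‖ = 1)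
    (hχT : ∀ γ γ' : Gamma0 N, ((γ : SL(2, ℤ)) : Matrix (Fin 2) (Fin 2) ℤ) 1 =
      ((γ' : SL(2, ℤ)) : Matrix (Fin 2) (Fin 2) ℤ) 1 → χ γ = χ γ') (hneg : χ (negOne N) = 1)
    {k : ℤ} (hk : 3 ≤ k) (hk2 : Even k) : ∃ z : ℍ, eisChar χ k z ≠ 0 := by
  by_contra hall
  push Not at hall
  have h := tendsto_eisChar_iPt χ hχ1 hk
  rw [tsum_cusp_eq_two χ hχT hneg hk2] at h
  have h0 : Tendsto (fun n : ℕ => eisChar χ k (iPt n)) atTop (𝓝 0) := by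
    simp_rw [hall]; exact tendsto_const_nhds
  exact two_ne_zero (tendsto_nhds_unique h h0)

end char

end

end Fermat.Agent.S29.H35
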