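import Mathlib
import Fermat.Agent.S29.EisChar_helper35

/-!
# The weight-zero function `h_χ = E_χ / Δ` with multiplier `χ` (helper35)

Mathlib-only; general weight `k ≥ 3`, general unitary character.
-/

set_option autoImplicit false

open UpperHalfPlane EisensteinSeries Matrix CongruenceSubgroup ModularGroup Filter Topology
open scoped MatrixGroups Manifold Real

namespace Fermat.Agent.S29.H35

noncomputable section

/-- the full norm sum transforms with `‖denom‖ ^ k` -/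
theorem normSum_smul (k : ℤ) (γ : SL(2, ℤ)) (z : ℍ) :
    ∑' v : Fin 2 → ℤ, ‖eisSummand k v (γ • z)‖ =
      ‖denom γ z‖ ^ k * ∑' v : Fin 2 → ℤ, ‖eisSummand k v z‖ := by
  rw [← tsum_mul_left]
  rw [← (vecMulEquiv γ).tsum_eq (fun v => ‖denom γ z‖ ^ k * ‖eisSummand k v z‖)]
  refine tsum_congr fun v => ?_
  rw [eisSummand_SL2_apply, norm_mul, norm_zpow]
  rfl

theorem denom_T_zpow (n : ℤ) (z : ℍ) :
    denom ((ModularGroup.T ^ n : SL(2, ℤ)) : GL (Fin 2) ℝ) z = 1 := by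
  have h := ModularGroup.coe_T_zpow n
  have h10 : ((ModularGroup.T ^ n : SL(2, ℤ)) : Matrix (Fin 2) (Fin 2) ℤ) 1 0 = 0 := by
    rw [h]; rfl
  have h11 : ((ModularGroup.T ^ n : SL(2, ℤ)) : Matrix (Fin 2) (Fin 2) ℤ) 1 1 = 1 := by
    rw [h]; rfl
  rw [ModularGroup.denom_apply, h10, h11]
  simp

/-- the full norm sum is bounded on `{2 ≤ im z}` -/
theorem exists_normSum_bound {k : ℤ} (hk : 3 ≤ k) :
    ∃ C : ℝ, ∀ z : ℍ, 2 ≤ z.im → ∑' v : Fin 2 → ℤ, ‖eisSummand k v z‖ ≤ C := by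
  refine ⟨∑' x : Fin 2 → ℤ, r ⟨⟨1, 2⟩, Nat.ofNat_pos⟩ ^ (-k) * ‖x‖ ^ (-k), fun z hz => ?_⟩
  obtain ⟨n, hn⟩ := ModularGroup_T_zpow_mem_verticalStrip z (N := 1) one_pos
  have hT : ∑' v : Fin 2 → ℤ, ‖eisSummand k v (ModularGroup.T ^ ((1 : ℕ) * n) • z)‖ =
      ∑' v : Fin 2 → ℤ, ‖eisSummand k v z‖ := by
    rw [normSum_smul, denom_T_zpow, norm_one, _root_.one_zpow, one_mul]
  rw [← hT]
  have hk' : (2 : ℝ) < k := by norm_cast
  apply (summable_norm_eisSummand hk _).tsum_le_tsum _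
  · exact_mod_cast (summable_one_div_norm_rpow hk').mul_left <| r ⟨⟨1, 2⟩, Nat.ofNat_pos⟩ ^ (-k)
  · intro x
    simp_rw [eisSummand, norm_zpow]
    exact_mod_cast
      summand_bound_of_mem_verticalStrip (lt_trans two_pos hk').le x two_pos
      (verticalStrip_anti_right 1 hz (by simpa using hn))

section char

variable {N : ℕ} (χ : Gamma0 N →* ℂˣ)

/-- every `SL(2,ℤ)`-translate of `E_χ` (weight `k` slash) is bounded at `i∞` -/
theorem eisChar_bounded (hχ1 : ∀ γ : Gamma0 N, ‖((χ γ : ℂˣ) : ℂ)‖ = 1) {k : ℤ} (hk : 3 ≤ k)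
    (g : SL(2, ℤ)) :
    IsBoundedAtImInfty (fun z : ℍ => (denom g z ^ k)⁻¹ * eisChar χ k (g • z)) := by
  obtain ⟨C, hC⟩ := exists_normSum_bound hk
  rw [UpperHalfPlane.isBoundedAtImInfty_iff]
  refine ⟨C, 2, fun z hz => ?_⟩
  have hd : denom g z ^ k ≠ 0 := zpow_ne_zero _ (denom_ne_zero g z)
  have e : (denom g z ^ k)⁻¹ * eisChar χ k (g • z) =
      wEis (fun v => cw χ (v ᵥ* ((g⁻¹ : SL(2, ℤ)) : Matrix (Fin 2) (Fin 2) ℤ))) k z := by
    unfold eisChar
    rw [wEis_smul, ← mul_assoc, inv_mul_cancel₀ hd, one_mul]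
  rw [e]
  exact (norm_wEis_le (fun v => norm_cw_le χ hχ1 _) hk z).trans (hC z hz)

/-- equal bottom rows give equal values of a character killing the parabolic elements -/
theorem char_eq_of_bot_eq
    (hpar : ∀ γ : Gamma0 N, ((γ : SL(2, ℤ)) : Matrix (Fin 2) (Fin 2) ℤ).trace ^ 2 = 4 → χ γ = 1)
    (γ γ' : Gamma0 N) (h : ((γ : SL(2, ℤ)) : Matrix (Fin 2) (Fin 2) ℤ) 1 =
      ((γ' : SL(2, ℤ)) : Matrix (Fin 2) (Fin 2) ℤ) 1) : χ γ = χ γ' := by
  have hb : (((γ * γ'⁻¹ : Gamma0 N) : SL(2, ℤ)) : Matrix (Fin 2) (Fin 2) ℤ) 1 = ![0, 1] := by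
    rw [Subgroup.coe_mul, Subgroup.coe_inv, bot_mul, h, ← bot_mul, mul_inv_cancel, bot_one]
  have h10 : (((γ * γ'⁻¹ : Gamma0 N) : SL(2, ℤ)) : Matrix (Fin 2) (Fin 2) ℤ) 1 0 = 0 := by
    rw [hb]; rfl
  have h11 : (((γ * γ'⁻¹ : Gamma0 N) : SL(2, ℤ)) : Matrix (Fin 2) (Fin 2) ℤ) 1 1 = 1 := by
    rw [hb]; rfl
  have hdet := ((γ * γ'⁻¹ : Gamma0 N) : SL(2, ℤ)).det_coe
  rw [Matrix.det_fin_two, h10, h11, mul_zero, sub_zero, mul_one] at hdet
  have htr : (((γ * γ'⁻¹ : Gamma0 N) : SL(2, ℤ)) : Matrix (Fin 2) (Fin 2) ℤ).trace ^ 2 = 4 := by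
    rw [Matrix.trace_fin_two, hdet, h11]; norm_num
  have h1 := hpar _ htr
  rw [map_mul, map_inv, mul_inv_eq_one] at h1
  exact h1

theorem char_negOne
    (hpar : ∀ γ : Gamma0 N, ((γ : SL(2, ℤ)) : Matrix (Fin 2) (Fin 2) ℤ).trace ^ 2 = 4 → χ γ = 1) :
    χ (negOne N) = 1 := by
  apply hpar
  simp [negOne]

theorem discriminant_smul (γ : SL(2, ℤ)) (z : ℍ) :
    ModularForm.discriminant (γ • z) = denom γ z ^ (12 : ℤ) * ModularForm.discriminant z := by
  have h := SlashInvariantForm.slash_action_eqn'' CuspForm.discriminant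
    (show (γ : GL (Fin 2) ℝ) ∈ (𝒮ℒ : Subgroup (GL (Fin 2) ℝ)) from ⟨γ, rfl⟩) z
  simpa using h

/-- `q / Δ` is bounded at `i∞` -/
theorem isBounded_exp_div_discriminant :
    IsBoundedAtImInfty (fun z : ℍ => Complex.exp (2 * π * Complex.I * z) /
      ModularForm.discriminant z) := by
  obtain ⟨c, hc⟩ := ModularForm.exp_isBigO_discriminant.bound
  refine Asymptotics.IsBigO.of_bound c ?_
  filter_upwards [hc] with z hz
  have hΔ : ModularForm.discriminant z ≠ 0 := ModularForm.discriminant_ne_zero z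
  have hq : ‖Complex.exp (2 * π * Complex.I * z)‖ = Real.exp (-2 * π * z.im) := by
    rw [Complex.norm_exp]
    congr 1
    simp [Complex.mul_re, Complex.mul_im]
  rw [norm_div, hq, div_le_iff₀ (norm_pos_iff.mpr hΔ)]
  simpa [Real.norm_of_nonneg (Real.exp_pos _).le] using hz

/-- the weight-zero function `E_χ / Δ` (Eisenstein series of weight `12`) -/
def twistFn : ℍ → ℂ := fun z => eisChar χ 12 z / ModularForm.discriminant z

theorem twistFn_mdiff (hχ1 : ∀ γ : Gamma0 N, ‖((χ γ : ℂˣ) : ℂ)‖ = 1) : MDiff (twistFn χ) := by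
  have h1 : MDiff (eisChar χ 12) := eisChar_mdifferentiable χ hχ1 (by norm_num)
  have h2 : MDiff (ModularForm.discriminant : ℍ → ℂ) := CuspFormClass.holo CuspForm.discriminant
  rw [UpperHalfPlane.mdifferentiable_iff] at h1 h2 ⊢
  have : (twistFn χ ∘ ofComplex) =
      fun z => (eisChar χ 12 ∘ ofComplex) z / (ModularForm.discriminant ∘ ofComplex) z := rfl
  rw [this]
  exact h1.div h2 (fun z _ => ModularForm.discriminant_ne_zero _)

theorem twistFn_smul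
    (hpar : ∀ γ : Gamma0 N, ((γ : SL(2, ℤ)) : Matrix (Fin 2) (Fin 2) ℤ).trace ^ 2 = 4 → χ γ = 1)
    (γ : Gamma0 N) (z : ℍ) :
    twistFn χ ((γ : SL(2, ℤ)) • z) = ((χ γ : ℂˣ) : ℂ) * twistFn χ z := by
  unfold twistFn
  rw [eisChar_smul χ (char_eq_of_bot_eq χ hpar), discriminant_smul]
  have hd : denom (γ : SL(2, ℤ)) z ^ (12 : ℤ) ≠ 0 := zpow_ne_zero _ (denom_ne_zero _ z)
  have hΔ : ModularForm.discriminant z ≠ 0 := ModularForm.discriminant_ne_zero z
  field_simp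

theorem twistFn_ne_zero (hχ1 : ∀ γ : Gamma0 N, ‖((χ γ : ℂˣ) : ℂ)‖ = 1)
    (hpar : ∀ γ : Gamma0 N, ((γ : SL(2, ℤ)) : Matrix (Fin 2) (Fin 2) ℤ).trace ^ 2 = 4 → χ γ = 1) :
    ∃ z : ℍ, twistFn χ z ≠ 0 := by
  obtain ⟨z, hz⟩ := eisChar_ne_zero χ hχ1 (char_eq_of_bot_eq χ hpar) (char_negOne χ hpar)
    (k := 12) (by norm_num) (by decide)
  exact ⟨z, div_ne_zero hz (ModularForm.discriminant_ne_zero z)⟩

/-- moderate growth at every cusp (literally `H31.MeroAtInfty (fun z => twistFn χ (g • z))`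
with `m = 1`) -/
theorem twistFn_mero (hχ1 : ∀ γ : Gamma0 N, ‖((χ γ : ℂˣ) : ℂ)‖ = 1) (g : SL(2, ℤ)) :
    IsBoundedAtImInfty (fun z : ℍ => twistFn χ (g • z) *
      Complex.exp (2 * π * Complex.I * ((1 : ℕ) : ℂ) * z)) := by
  have h1 := eisChar_bounded χ hχ1 (k := 12) (by norm_num) g
  have h2 := isBounded_exp_div_discriminant
  refine Asymptotics.IsBigO.congr_left (h1.mul h2) fun z => ?_
  simp only [Pi.mul_apply, twistFn]
  rw [discriminant_smul]
  have hd : denom g z ^ (12 : ℤ) ≠ 0 := zpow_ne_zero _ (denom_ne_zero _ z)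
  have hΔ : ModularForm.discriminant z ≠ 0 := ModularForm.discriminant_ne_zero z
  rw [Nat.cast_one, mul_one]
  field_simp

/-- **(EIS), packaged.** For a unitary character `χ` of `Γ₀(N)` killing the elements of
trace `± 2` there is a holomorphic `h ≢ 0` on `ℍ` with `h (γ z) = χ γ * h z` and of moderate
growth at every cusp (the last clause is literally `H31.MeroAtInfty (fun z => h (g • z))`
of the landed S24 layer, with exponent `1`). -/
theorem exists_twistFn (hχ1 : ∀ γ : Gamma0 N, ‖((χ γ : ℂˣ) : ℂ)‖ = 1)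
    (hpar : ∀ γ : Gamma0 N, ((γ : SL(2, ℤ)) : Matrix (Fin 2) (Fin 2) ℤ).trace ^ 2 = 4 → χ γ = 1) :
    ∃ h : ℍ → ℂ, MDiff h ∧ (∃ z : ℍ, h z ≠ 0) ∧
      (∀ (γ : Gamma0 N) (z : ℍ), h ((γ : SL(2, ℤ)) • z) = ((χ γ : ℂˣ) : ℂ) * h z) ∧
      ∀ g : SL(2, ℤ), ∃ m : ℕ, IsBoundedAtImInfty (fun z : ℍ => h (g • z) *
        Complex.exp (2 * π * Complex.I * (m : ℂ) * z)) :=
  ⟨twistFn χ, twistFn_mdiff χ hχ1, twistFn_ne_zero χ hχ1 hpar, twistFn_smul χ hpar,
    fun g => ⟨1, twistFn_mero χ hχ1 g⟩⟩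

end char

/-! ### the character `γ ↦ exp (2πi c(γ) / n)` of an additive character `c` -/

section expChar

variable {N : ℕ}

/-- `γ ↦ exp (2πi c(γ) / n)` -/
def expChar (c : Additive (Gamma0 N) →+ ℤ) (n : ℕ) : Gamma0 N →* ℂˣ where
  toFun γ := ⟨Complex.exp (2 * π * Complex.I * (c (Additive.ofMul γ) : ℂ) / n),
    Complex.exp (-(2 * π * Complex.I * (c (Additive.ofMul γ) : ℂ) / n)),
    by rw [← Complex.exp_add, add_neg_cancel, Complex.exp_zero],
    by rw [← Complex.exp_add, neg_add_cancel, Complex.exp_zero]⟩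
  map_one' := by
    apply Units.ext
    simp
  map_mul' γ δ := by
    apply Units.ext
    simp only [ofMul_mul, map_add, Int.cast_add, Units.val_mul]
    rw [← Complex.exp_add]
    congr 1
    ring

theorem expChar_apply (c : Additive (Gamma0 N) →+ ℤ) (n : ℕ) (γ : Gamma0 N) :
    ((expChar c n γ : ℂˣ) : ℂ) =
      Complex.exp (2 * π * Complex.I * (c (Additive.ofMul γ) : ℂ) / n) := rfl

theorem norm_expChar (c : Additive (Gamma0 N) →+ ℤ) (n : ℕ) (γ : Gamma0 N) :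
    ‖((expChar c n γ : ℂˣ) : ℂ)‖ = 1 := by
  rw [expChar_apply, Complex.norm_exp]
  have : (2 * π * Complex.I * (c (Additive.ofMul γ) : ℂ) / n).re = 0 := by
    have h : (2 * π * Complex.I * (c (Additive.ofMul γ) : ℂ) / n) =
        ((2 * π * (c (Additive.ofMul γ) : ℝ) / n : ℝ) : ℂ) * Complex.I := by
      push_cast; ring
    rw [h, Complex.re_ofReal_mul, Complex.I_re, mul_zero]
  rw [this, Real.exp_zero]

theorem expChar_eq_one_of_eq_zero (c : Additive (Gamma0 N) →+ ℤ) (n : ℕ) (γ : Gamma0 N)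
    (h : c (Additive.ofMul γ) = 0) : expChar c n γ = 1 := by
  apply Units.ext
  rw [expChar_apply, h]
  simp

/-- `expChar c n ^ n = 1` -/
theorem expChar_pow_self (c : Additive (Gamma0 N) →+ ℤ) {n : ℕ} (hn : n ≠ 0) (γ : Gamma0 N) :
    expChar c n γ ^ n = 1 := by
  apply Units.ext
  rw [Units.val_pow_eq_pow_val, expChar_apply, ← Complex.exp_nat_mul]
  have hn' : (n : ℂ) ≠ 0 := Nat.cast_ne_zero.mpr hn
  have : (n : ℂ) * (2 * π * Complex.I * (c (Additive.ofMul γ) : ℂ) / n) =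
      (c (Additive.ofMul γ) : ℂ) * (2 * π * Complex.I) := by
    field_simp
  rw [this, Units.val_one]
  exact Complex.exp_int_mul_two_pi_mul_I _

/-- `expChar c (n * k) ^ k = expChar c n` -/
theorem expChar_mul_pow (c : Additive (Gamma0 N) →+ ℤ) (n : ℕ) {k : ℕ} (hk : k ≠ 0)
    (γ : Gamma0 N) : expChar c (n * k) γ ^ k = expChar c n γ := by
  apply Units.ext
  rw [Units.val_pow_eq_pow_val, expChar_apply, expChar_apply, ← Complex.exp_nat_mul]
  congr 1
  have hk' : (k : ℂ) ≠ 0 := Nat.cast_ne_zero.mpr hk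
  by_cases hn : (n : ℂ) = 0
  · simp [hn]
  · push_cast
    field_simp

theorem expChar_add (c c' : Additive (Gamma0 N) →+ ℤ) (n : ℕ) :
    expChar (c + c') n = expChar c n * expChar c' n := by
  ext γ
  simp only [MonoidHom.mul_apply, Units.val_mul, expChar_apply, AddMonoidHom.add_apply,
    Int.cast_add]
  rw [← Complex.exp_add]
  congr 1
  ring

/-- `expChar c n γ = 1 ↔ n ∣ c γ` -/
theorem expChar_eq_one_iff (c : Additive (Gamma0 N) →+ ℤ) {n : ℕ} (hn : n ≠ 0) (γ : Gamma0 N) :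
    expChar c n γ = 1 ↔ (n : ℤ) ∣ c (Additive.ofMul γ) := by
  have hn' : (n : ℂ) ≠ 0 := Nat.cast_ne_zero.mpr hn
  rw [← Units.val_inj, expChar_apply, Units.val_one, Complex.exp_eq_one_iff]
  constructor
  · rintro ⟨j, hj⟩
    refine ⟨j, ?_⟩
    have h2 : (2 * π * Complex.I : ℂ) ≠ 0 := Complex.two_pi_I_ne_zero
    have h3 : (c (Additive.ofMul γ) : ℂ) = (n : ℂ) * (j : ℂ) := by
      field_simp at hj
      exact hj
    exact_mod_cast h3
  · rintro ⟨j, hj⟩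
    refine ⟨j, ?_⟩
    rw [hj]
    push_cast
    field_simp

/-- the function attached to an additive character killing the elements of trace `± 2`
(e.g. a parabolic character in the sense of the Prelude's `IsParabolicHom`) -/
theorem exists_twistFn_expChar (c : Additive (Gamma0 N) →+ ℤ)
    (hc : ∀ γ : Gamma0 N, ((γ : SL(2, ℤ)) : Matrix (Fin 2) (Fin 2) ℤ).trace ^ 2 = 4 →
      c (Additive.ofMul γ) = 0) (n : ℕ) :
    ∃ h : ℍ → ℂ, MDiff h ∧ (∃ z : ℍ, h z ≠ 0) ∧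
      (∀ (γ : Gamma0 N) (z : ℍ), h ((γ : SL(2, ℤ)) • z) = ((expChar c n γ : ℂˣ) : ℂ) * h z) ∧
      ∀ g : SL(2, ℤ), ∃ m : ℕ, IsBoundedAtImInfty (fun z : ℍ => h (g • z) *
        Complex.exp (2 * π * Complex.I * (m : ℂ) * z)) :=
  exists_twistFn (expChar c n) (norm_expChar c n)
    (fun γ hγ => expChar_eq_one_of_eq_zero c n γ (hc γ hγ))

end expChar

end

end Fermat.Agent.S29.H35
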