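import Mathlib
import Fermat.Agent.S29.TwistFn_helper35
import Fermat.Agent.S24.Spec_helper31
import Fermat.Agent.S24.ValFn_helper90
import Fermat.Agent.S24.Val_helper90

/-!
# (KF): the Kummer function of an additive character of `Γ₀(N)` (helper35)

For an additive character `c : Γ₀(N) → ℤ` killing the elements of trace `± 2` (a parabolic
character in the sense of the Prelude's `IsParabolicHom`) and `m, M ≠ 0`, with
`h := twistFn (expChar c (m * M))`:

* `f := h ^ (m * M)` is an element of `RN N`, nonzero and `Γ₀(N)`-invariant;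
* `r := h ^ M` is a holomorphic `m`-th root of `f` on `ℍ` with multiplier `expChar c m`;
* every `SL(2,ℤ)`-translate of `f` has order divisible by `m * M` at every point of `ℍ` and at
  the cusp `i∞` (in the parameter `q_N`).
-/

set_option autoImplicit false

open UpperHalfPlane Matrix CongruenceSubgroup ModularGroup Filter Topology
open scoped MatrixGroups Manifold Real
open Fermat.Agent.S24 Fermat.Agent.S24.H31

namespace Fermat.Agent.S29.H35

noncomputable section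

theorem meroAtInfty_pow {f : ℍ → ℂ} (hf : MeroAtInfty f) (n : ℕ) :
    MeroAtInfty (fun z => f z ^ n) := by
  induction n with
  | zero => simpa using MeroAtInfty.const 1
  | succ n ih =>
    have := ih.mul hf
    simpa [pow_succ] using this

theorem hasCuspLead_pow {N : ℕ} {f : ℍ → ℂ} {k : ℤ} {c : ℂ} (hf : H90.HasCuspLead N f k c)
    (n : ℕ) : H90.HasCuspLead N (fun z => f z ^ n) (n * k) (c ^ n) := by
  induction n with
  | zero => simpa using H90.HasCuspLead.const N (one_ne_zero (α := ℂ))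
  | succ n ih =>
    have h := ih.mul hf
    have e1 : ((fun z => f z ^ n) * f) = fun z => f z ^ (n + 1) := by
      funext z; simp [pow_succ]
    have e2 : (n : ℤ) * k + k = ((n + 1 : ℕ) : ℤ) * k := by push_cast; ring
    rw [e1, e2, ← pow_succ] at h
    exact h

/-- `T ^ N`-invariant functions are `N`-periodic -/
theorem periodic_of_T_pow_inv {N : ℕ} {f : ℍ → ℂ}
    (hinv : ∀ z : ℍ, f ((ModularGroup.T ^ (N : ℤ) : SL(2, ℤ)) • z) = f z) :
    Function.Periodic (f ∘ ofComplex) (N : ℝ) := by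
  intro w
  simp only [Function.comp_apply]
  by_cases hw : 0 < w.im
  · have hw' : 0 < (w + (N : ℝ)).im := by simpa using hw
    rw [ofComplex_apply_of_im_pos hw', ofComplex_apply_of_im_pos hw]
    have h1 := hinv ⟨w, hw⟩
    rw [← h1]
    congr 1
    rw [modular_T_zpow_smul]
    apply UpperHalfPlane.ext
    rw [UpperHalfPlane.coe_vadd]
    push_cast
    ring
  · have hw' : (w + (N : ℝ)).im ≤ 0 := by simpa using not_lt.mp hw
    rw [ofComplex_apply_eq_of_im_nonpos hw' (not_lt.mp hw)]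

theorem Gamma_le_Gamma0' (N : ℕ) : Gamma N ≤ Gamma0 N := by
  intro γ hγ
  rw [Gamma_mem] at hγ
  rw [Gamma0_mem]
  exact hγ.2.2.1

/-- the conjugate `g⁻¹ T^N g` as an element of `Γ₀(N)` -/
def conjT (N : ℕ) (g : SL(2, ℤ)) : Gamma0 N :=
  ⟨g⁻¹ * ModularGroup.T ^ (N : ℤ) * g, Gamma_le_Gamma0' N (by
    have hT : ModularGroup.T ^ (N : ℤ) ∈ Gamma N := by
      have := CongruenceSubgroup.ModularGroup_T_pow_mem_Gamma (N : ℤ) (N : ℤ) dvd_rfl
      simpa using this
    have := (Gamma_normal N).conj_mem _ hT g⁻¹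
    simpa using this)⟩

theorem trace_conjT (N : ℕ) (g : SL(2, ℤ)) :
    (((conjT N g : Gamma0 N) : SL(2, ℤ)) : Matrix (Fin 2) (Fin 2) ℤ).trace ^ 2 = 4 := by
  have h1 : (((conjT N g : Gamma0 N) : SL(2, ℤ)) : Matrix (Fin 2) (Fin 2) ℤ) =
      ((g⁻¹ : SL(2, ℤ)) : Matrix (Fin 2) (Fin 2) ℤ) *
        ((ModularGroup.T ^ (N : ℤ) : SL(2, ℤ)) : Matrix (Fin 2) (Fin 2) ℤ) *
        (g : Matrix (Fin 2) (Fin 2) ℤ) := by
    simp [conjT]
  have h2 : (g : Matrix (Fin 2) (Fin 2) ℤ) * ((g⁻¹ : SL(2, ℤ)) : Matrix (Fin 2) (Fin 2) ℤ) = 1 := by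
    simp [mul_adjugate]
  rw [h1, Matrix.trace_mul_cycle, h2, one_mul, ModularGroup.coe_T_zpow, Matrix.trace_fin_two]
  simp

section main

variable {N : ℕ} [NeZero N]

/-- **(KF)** the Kummer function of a parabolic additive character. -/
theorem exists_kumFn (V : ValSpec N) (c : Additive (Gamma0 N) →+ ℤ)
    (hc : ∀ γ : Gamma0 N, ((γ : SL(2, ℤ)) : Matrix (Fin 2) (Fin 2) ℤ).trace ^ 2 = 4 →
      c (Additive.ofMul γ) = 0) {m M : ℕ} (hm : m ≠ 0) (hM : M ≠ 0) :
    ∃ (f : RN N) (r : ℍ → ℂ), f ≠ 0 ∧ (∀ γ ∈ Gamma0 N, γ • f = f) ∧ MDiff r ∧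
      (∀ z : ℍ, r z ^ m = (f : ℍ → ℂ) z) ∧
      (∀ (γ : Gamma0 N) (z : ℍ),
        r ((γ : SL(2, ℤ)) • z) = ((expChar c m γ : ℂˣ) : ℂ) * r z) ∧
      (∀ (g : SL(2, ℤ)) (z : ℍ),
        ((m * M : ℕ) : ℤ) ∣ (V.pt z).ord (g • algebraMap (RN N) (L N) f)) ∧
      ∀ g : SL(2, ℤ), ((m * M : ℕ) : ℤ) ∣ V.cusp.ord (g • algebraMap (RN N) (L N) f) := by
  set n : ℕ := m * M with hn
  have hn0 : n ≠ 0 := Nat.mul_ne_zero hm hM
  set χ : Gamma0 N →* ℂˣ := expChar c n with hχ
  have hχ1 : ∀ γ : Gamma0 N, ‖((χ γ : ℂˣ) : ℂ)‖ = 1 := norm_expChar c n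
  have hpar : ∀ γ : Gamma0 N, ((γ : SL(2, ℤ)) : Matrix (Fin 2) (Fin 2) ℤ).trace ^ 2 = 4 →
      χ γ = 1 := fun γ hγ => expChar_eq_one_of_eq_zero c n γ (hc γ hγ)
  set h : ℍ → ℂ := twistFn χ with hh
  have hmd : MDiff h := twistFn_mdiff χ hχ1
  have hsm : ∀ (γ : Gamma0 N) (z : ℍ), h ((γ : SL(2, ℤ)) • z) = ((χ γ : ℂˣ) : ℂ) * h z :=
    twistFn_smul χ hpar
  obtain ⟨z₁, hz₁⟩ := twistFn_ne_zero χ hχ1 hpar
  have hmero : ∀ g : SL(2, ℤ), MeroAtInfty (fun z : ℍ => h (g • z)) :=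
    fun g => ⟨1, twistFn_mero χ hχ1 g⟩
  have hχn : ∀ γ : Gamma0 N, ((χ γ : ℂˣ) : ℂ) ^ n = 1 := by
    intro γ
    have := expChar_pow_self c hn0 γ
    rw [← Units.val_pow_eq_pow_val, this, Units.val_one]
  -- the `n`-th power is `Γ₀(N)`-invariant
  have hinv0 : ∀ (γ : Gamma0 N) (z : ℍ), h ((γ : SL(2, ℤ)) • z) ^ n = h z ^ n := by
    intro γ z
    rw [hsm, mul_pow, hχn, one_mul]
  have hWH : IsWH N (fun z => h z ^ n) :=
    ⟨hmd.pow n, fun γ hγ z => hinv0 ⟨γ, Gamma_le_Gamma0' N hγ⟩ z,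
      fun g => meroAtInfty_pow (hmero g) n⟩
  set f : RN N := ⟨fun z => h z ^ n, hWH⟩ with hf
  have hfapp : ∀ z : ℍ, (f : ℍ → ℂ) z = h z ^ n := fun z => rfl
  have hf0 : f ≠ 0 := by
    intro h0
    have := congrArg (fun F : RN N => (F : ℍ → ℂ) z₁) h0
    simp only [hfapp] at this
    exact pow_ne_zero n hz₁ this
  have hfinv : ∀ γ ∈ Gamma0 N, γ • f = f := by
    intro γ hγ
    apply Subtype.ext
    funext z
    rw [smul_RN_apply, hfapp, hfapp]
    have := hinv0 ⟨γ⁻¹, (Gamma0 N).inv_mem hγ⟩ z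
    exact this
  -- translates
  have hgf0 : ∀ g : SL(2, ℤ), g • f ≠ 0 := fun g => H90.smul_RN_ne_zero g hf0
  have hHmd : ∀ g : SL(2, ℤ), MDiff (fun w : ℍ => h (g⁻¹ • w)) := fun g => mdiff_comp_smul hmd g⁻¹
  have hH0 : ∀ g : SL(2, ℤ), (fun w : ℍ => h (g⁻¹ • w)) ≠ 0 := by
    intro g h0
    have := congrFun h0 (g • z₁)
    simp only [inv_smul_smul, Pi.zero_apply] at this
    exact hz₁ this
  refine ⟨f, fun z => h z ^ M, hf0, hfinv, hmd.pow M, fun z => ?_, fun γ z => ?_,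
    fun g z => ?_, fun g => ?_⟩
  · rw [hfapp, ← pow_mul, mul_comm M m]
  · show h ((γ : SL(2, ℤ)) • z) ^ M = _ * h z ^ M
    rw [hsm, mul_pow]
    congr 1
    have := expChar_mul_pow c m hM γ
    rw [← this, Units.val_pow_eq_pow_val]
  · -- order at a point
    rw [smul_algebraMap_L]
    obtain ⟨h0, hord⟩ := V.pt_algebraMap z (g • f) (hgf0 g)
    set H : ℍ → ℂ := fun w : ℍ => h (g⁻¹ • w) with hH
    have hfun : (((g • f : RN N) : ℍ → ℂ) ∘ ofComplex) = (H ∘ ofComplex) ^ n := by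
      funext w
      simp only [Function.comp_apply, Pi.pow_apply, smul_RN_apply, hfapp, hH]
    have han : AnalyticAt ℂ (H ∘ ofComplex) (z : ℂ) :=
      H90.analyticAt_comp_ofComplex (hHmd g) z.im_pos
    rw [hfun, analyticOrderAt_pow han] at hord
    by_cases hA : analyticOrderAt (H ∘ ofComplex) (z : ℂ) = ⊤
    · rw [hA] at hord
      exfalso
      have : (n • (⊤ : ℕ∞)) = ⊤ := by
        rw [nsmul_eq_mul]
        exact ENat.mul_top (by exact_mod_cast hn0)
      rw [this] at hord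
      exact ENat.top_ne_natCast _ hord
    · obtain ⟨a, ha⟩ := ENat.ne_top_iff_exists.mp hA
      rw [← ha] at hord
      have h2 : ((n * a : ℕ) : ℕ∞) =
          ((((V.pt z).ord (algebraMap (RN N) (L N) (g • f))).toNat : ℕ) : ℕ∞) := by
        rw [← hord, nsmul_eq_mul]
        push_cast
        rfl
      have h3 : n * a = ((V.pt z).ord (algebraMap (RN N) (L N) (g • f))).toNat := by
        exact_mod_cast h2
      refine ⟨(a : ℤ), ?_⟩
      rw [← Int.toNat_of_nonneg h0, ← h3]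
      push_cast
      ring
  · -- order at the cusp
    rw [smul_algebraMap_L]
    set H : ℍ → ℂ := fun w : ℍ => h (g⁻¹ • w) with hH
    have hper : Function.Periodic (H ∘ ofComplex) (N : ℝ) := by
      apply periodic_of_T_pow_inv
      intro z
      have e : g⁻¹ • (ModularGroup.T ^ (N : ℤ) : SL(2, ℤ)) • z =
          ((conjT N g : Gamma0 N) : SL(2, ℤ)) • g⁻¹ • z := by
        simp only [conjT, ← mul_smul]
        congr 1
        simp [mul_assoc]
      simp only [hH]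
      rw [e, hsm, hpar _ (trace_conjT N g), Units.val_one, one_mul]
    have hmeroH : ∃ k : ℕ, IsBoundedAtImInfty
        (fun z : ℍ => H z * Complex.exp (2 * π * Complex.I * k * z)) := hmero g⁻¹
    obtain ⟨k, c₀, hk⟩ := H90.exists_hasCuspLead (hHmd g) hper hmeroH (hH0 g)
    have hk' := hasCuspLead_pow hk n
    have hiff := (V.cusp_iff (g • f) (hgf0 g) ((n : ℤ) * k)).mpr ⟨c₀ ^ n, hk'.1, by
      refine hk'.2.congr fun z => ?_
      simp only [smul_RN_apply, hfapp]⟩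
    rw [hiff]
    exact Dvd.intro _ rfl

end main

end

end Fermat.Agent.S29.H35
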