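import Mathlib
import Fermat.Agent.S29.KumChar_helper29
import Fermat.Agent.S29.KumFn_helper35
import Fermat.Agent.S29.Gamma0FixedCover_helper32
import Fermat.Agent.S29.CoverOrd_helper90

/-!
# (KC): the Kummer glue over `ℂ` (helper52)

For a cover `h : H90.IsCover (RingHom.id ℂ) Φ j jN` of a field `F` over `ℂ` inside `L N`,
a valuation package `V : H31.ValSpec N` and a modulus `m ≠ 0` (`kumGroup`, `kumChar` are
the landed `H29.kumGroup`, `H29.kumChar` of `KumChar_helper29`):

* `(KC1) mk0_mem_kumGroup` : if `m ∣ v.ord x` at every place of `F/ℂ`, then `Φ x` lies in the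
  Kummer group `kumGroup V m`;
* `(KC2) exists_kummer_of_char` : every parabolic additive character `c` of `Γ₀(N)` is the
  Kummer character `expChar c m` of some `x : F` all of whose orders are divisible by `m`;
* `(KC3) exists_root_of_kumChar_eq_one_cover` : if the Kummer character of `Φ x` is trivial, `x`
  is an `m`-th power in `F`;
* `(KC4) exists_finset_kummer_reps_cover` : finitely many representatives of the elements of `F`
  with all orders divisible by `m`, modulo `m`-th powers.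
-/

set_option autoImplicit false
set_option linter.unusedSectionVars false

open AlgebraicCurve
open UpperHalfPlane hiding I
open CongruenceSubgroup
open scoped MatrixGroups Manifold
open Fermat.Agent.S24 Fermat.Agent.S24.H31 Fermat.Agent.S29.H90 Fermat.Agent.S29.H29

namespace Fermat.Agent.S29.H52

noncomputable section

variable {N : ℕ} [NeZero N] {F : Type*} [Field F] [Algebra ℂ F] {Φ : F →+* L N} {j jN : F}

/-- **(KC1)** If `m` divides the order of `x` at every place of `F/ℂ`, then `Φ x` lies in the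
Kummer group. -/
theorem mk0_mem_kumGroup (h : IsCover (RingHom.id ℂ) Φ j jN) (V : ValSpec N) {m : ℕ}
    (x : F) (hx : x ≠ 0) (hdiv : ∀ v : Place ℂ F, (m : ℤ) ∣ v.ord x) :
    Units.mk0 (Φ x) ((map_ne_zero Φ).mpr hx) ∈ kumGroup V m := by
  refine ⟨fun γ hγ => h.inv γ hγ x, fun z => ?_⟩
  have := h.dvd_pt_of_dvd_place V z 1 hx hdiv
  simpa using this

/-- **(KC3)** If the Kummer character of `Φ x` is trivial, then `x` is an `m`-th power in `F`. -/
theorem exists_root_of_kumChar_eq_one_cover (h : IsCover (RingHom.id ℂ) Φ j jN) (V : ValSpec N)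
    {m : ℕ} (hm : m ≠ 0) (x : F) (hx : x ≠ 0)
    (hmem : Units.mk0 (Φ x) ((map_ne_zero Φ).mpr hx) ∈ kumGroup V m)
    (h1 : kumChar V hm ⟨Units.mk0 (Φ x) ((map_ne_zero Φ).mpr hx), hmem⟩ = 1) :
    ∃ w : F, w ^ m = x := by
  obtain ⟨u, hu1, hu2⟩ := exists_root_of_kumChar_eq_one V hm _ h1
  obtain ⟨w, hw⟩ := H32.isCover_exists_eq_of_fixed_id h (u : L N) hu1
  refine ⟨w, Φ.injective ?_⟩
  rw [map_pow, hw]
  have := congrArg (fun y : (L N)ˣ => (y : L N)) hu2
  simpa using this

/-- **(KC3)**, in the form "`x` as in (KC1)". -/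
theorem exists_root_of_kumChar_eq_one_cover' (h : IsCover (RingHom.id ℂ) Φ j jN) (V : ValSpec N)
    {m : ℕ} (hm : m ≠ 0) (x : F) (hx : x ≠ 0) (hdiv : ∀ v : Place ℂ F, (m : ℤ) ∣ v.ord x)
    (h1 : kumChar V hm ⟨Units.mk0 (Φ x) ((map_ne_zero Φ).mpr hx),
      mk0_mem_kumGroup h V x hx hdiv⟩ = 1) :
    ∃ w : F, w ^ m = x :=
  exists_root_of_kumChar_eq_one_cover h V hm x hx _ h1

/-- **(KC4)** Finitely many representatives, modulo `m`-th powers, of the elements of `F` all
of whose orders are divisible by `m`. -/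
theorem exists_finset_kummer_reps_cover (h : IsCover (RingHom.id ℂ) Φ j jN) (V : ValSpec N)
    {m : ℕ} (hm : m ≠ 0) :
    ∃ S : Finset F, ∀ x : F, x ≠ 0 → (∀ v : Place ℂ F, (m : ℤ) ∣ v.ord x) →
      ∃ s ∈ S, ∃ w : F, w ≠ 0 ∧ x = s * w ^ m := by
  classical
  obtain ⟨S0, hS0⟩ := exists_finset_kummer_reps V hm
  refine ⟨S0.image fun s : (L N)ˣ => if hs : ∃ f : F, Φ f = (s : L N) then hs.choose else 0,
    fun x hx hdiv => ?_⟩
  obtain ⟨s, hsS, u, hu1, hu2⟩ := hS0 _ (mk0_mem_kumGroup h V x hx hdiv)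
  -- `s = Φ x / u ^ m` is `Γ₀(N)`-fixed, hence in the range of `Φ`
  have hval : Φ x = (s : L N) * (u : L N) ^ m := by
    have := congrArg (fun y : (L N)ˣ => (y : L N)) hu2
    simpa using this
  have hs_eq : (s : L N) = Φ x / (u : L N) ^ m := by
    rw [hval, mul_div_assoc, div_self (pow_ne_zero _ u.ne_zero), mul_one]
  have hs_fix : ∀ γ ∈ Gamma0 N, γ • (s : L N) = s := by
    intro γ hγ
    rw [hs_eq, smul_div₀', smul_pow', h.inv γ hγ x, hu1 γ hγ]
  have hs : ∃ f : F, Φ f = (s : L N) := H32.isCover_exists_eq_of_fixed_id h (s : L N) hs_fix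
  obtain ⟨w, hw⟩ := H32.isCover_exists_eq_of_fixed_id h (u : L N) hu1
  have hw0 : w ≠ 0 := by
    rintro rfl
    rw [map_zero] at hw
    exact u.ne_zero hw.symm
  refine ⟨hs.choose, Finset.mem_image.mpr ⟨s, hsS, by rw [dif_pos hs]⟩, w, hw0, Φ.injective ?_⟩
  rw [map_mul, map_pow, hs.choose_spec, hw, hval]

/-- **(KC2)** Every parabolic additive character `c` of `Γ₀(N)` is realised: there is `x : F`,
all of whose orders are divisible by `m`, whose Kummer character is `expChar c m`. -/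
theorem exists_kummer_of_char (h : IsCover (RingHom.id ℂ) Φ j jN) (V : ValSpec N)
    {m : ℕ} (hm : m ≠ 0) (c : Additive (Gamma0 N) →+ ℤ)
    (hc : ∀ γ : Gamma0 N, ((γ : SL(2, ℤ)) : Matrix (Fin 2) (Fin 2) ℤ).trace ^ 2 = 4 →
      c (Additive.ofMul γ) = 0) :
    ∃ (x : F) (hx : x ≠ 0) (hdiv : ∀ v : Place ℂ F, (m : ℤ) ∣ v.ord x),
      kumChar V hm ⟨Units.mk0 (Φ x) ((map_ne_zero Φ).mpr hx),
        mk0_mem_kumGroup h V x hx hdiv⟩ = H35.expChar c m := by
  have hM : 6 * N ≠ 0 := Nat.mul_ne_zero (by norm_num) (NeZero.ne N)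
  obtain ⟨f, r, hf0, hfinv, hr, hpow, hmult, hpt, hcusp⟩ := H35.exists_kumFn V c hc hm hM
  -- descend `f` to `F`
  have hfix : ∀ γ ∈ Gamma0 N, γ • algebraMap (RN N) (L N) f = algebraMap (RN N) (L N) f := by
    intro γ hγ
    rw [smul_algebraMap_L, hfinv γ hγ]
  obtain ⟨x, hxf⟩ := H32.isCover_exists_eq_of_fixed_id h _ hfix
  have hx : x ≠ 0 := by
    rintro rfl
    rw [map_zero] at hxf
    exact algebraMap_RN_ne_zero hf0 hxf.symm
  have hdiv : ∀ v : Place ℂ F, (m : ℤ) ∣ v.ord x := by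
    intro v
    refine h.dvd_place_of_dvd_ord V hx (fun g z => ?_) (fun g => ?_) v
    · have := hpt g z
      rw [hxf]
      rwa [Nat.cast_mul] at this
    · have := hcusp g
      rw [hxf]
      rwa [Nat.cast_mul] at this
  refine ⟨x, hx, hdiv, ?_⟩
  refine kumChar_eq_of_data V hm (a := f) (b := 1) (r := r) one_ne_zero ?_ hr (fun z => ?_)
    (fun γ z => ?_)
  · show Φ x = _
    rw [hxf, map_one, div_one]
  · rw [hpow z]
    simp
  · rw [hmult γ z]
    simp

end

end Fermat.Agent.S29.H52
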