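import Mathlib
import Fermat.Agent.S18.PlaceInst_helper60
import Fermat.Agent.S24.ValSpec_helper90
import Fermat.Agent.S29.DescGlue_helper43
import Fermat.Agent.S29.CanSection_helper37
import Fermat.Agent.S29.CoverC_helper71
import Fermat.Agent.S29.CModel_helper45
import Fermat.Agent.S29.ConstPlaceBar_helper23
import Fermat.Agent.S29.ConstPlaceC_helper23
import Fermat.Agent.S29.KumC_helper52

/-!
# (DESC) for the modular function field, closed form (S29, (DE) column), helper60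

`FC N = ℂ(j, j_N)` (`H71.FC N`), `FN N = ℚ̄(j, j_N)`, `bcC N : FN N →+* FC N` the base change
along `iota : ℚ̄ → ℂ`.

* `desc_C` : every `f ∈ FC Nˣ` all of whose orders are divisible by `m` is
  `c · bcC f₀ · u ^ m` with `f₀ ∈ FN N`, `c ∈ ℂˣ`, `u ∈ FC Nˣ`.
* `desc_C_dvd` : the same with `m ∣ v.ord f₀` at every place `v` of `FN N`.

Assembly of landed nodes only: (KC4) `H52.exists_finset_kummer_reps_cover`, (CAN)
`H37.exists_semiinvariant`, (CD-B) through `H43.desc_glue`, the `ℂ`-model `H45`/`H71`, and, as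
the flag place, the unique extension of a place of `FN N` (`H23`, fixed by `Aut(ℂ/ℚ̄)`).
-/

set_option autoImplicit false

open Fermat.Agent.S24 Fermat.Agent.S24.H31 ModularCurve AlgebraicCurve
open Fermat.Agent.S29

noncomputable section

namespace Fermat.Agent.S29.H60

/-- a semilinear automorphism preserves `m ∣ div` (generic). -/
theorem dvd_ord_semilinear_smul {K F : Type*} [Field K] [Field F] [Algebra K F]
    (g : SemilinearAut K F) {m : ℤ} {x : F} (hdiv : ∀ w : Place K F, m ∣ w.ord x)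
    (w : Place K F) : m ∣ w.ord (g • x) := by
  have h := SemilinearAut.ord_smul g (g⁻¹ • w) x
  rw [smul_inv_smul] at h
  rw [h]
  exact hdiv _

theorem semilinear_smul_ne_zero {K F : Type*} [Field K] [Field F] [Algebra K F]
    (g : SemilinearAut K F) {x : F} (hx : x ≠ 0) : g • x ≠ 0 := by
  intro h
  apply hx
  have := congrArg (fun y => g⁻¹ • y) h
  simpa using this

variable (N : ℕ) [NeZero N]

/-- a place of `FC N` fixed by the coefficientwise action of `Aut(ℂ/ℚ̄)`. -/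
theorem exists_fixed_place :
    letI : Algebra Kbar ℂ := iota.toAlgebra
    ∃ v0 : Place ℂ (H71.FC N), ∀ τ : ℂ ≃ₐ[Kbar] ℂ,
      H43.gal (modularFunctionFieldFull N) τ • v0 = v0 := by
  letI : Algebra Kbar ℂ := iota.toAlgebra
  have hj : (jBar N : FN N) ∉ Set.range (algebraMap (AlgebraicClosure ℚ)
      ↥(modularFunctionFieldBar N)) := by
    rintro ⟨c, hc⟩
    apply S24.H89.transcendental_jBar_FN N
    rw [← hc]
    exact isAlgebraic_algebraMap c
  obtain ⟨v, -⟩ := S18.H60.bar_exists_place_ord_pos N (jBar N : FN N) hj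
  obtain ⟨w, hw, -⟩ := H23.exists_place_bc_bar (L := ℂ) N v
  exact ⟨w, fun τ => H23.arithmeticGalois_smul_place_eq_bar N (τ.restrictScalars ℚ)
    (fun k => τ.commutes k) w v hw⟩

/-- **(DESC)**, closed form over the `ℂ`-model. -/
theorem desc_C {m : ℕ} (hm : m ≠ 0) (f : H71.FC N) (hf : f ≠ 0)
    (hdiv : ∀ v : Place ℂ (H71.FC N), (m : ℤ) ∣ v.ord f) :
    ∃ (f0 : FN N) (c : ℂ) (u : H71.FC N), f0 ≠ 0 ∧ c ≠ 0 ∧ u ≠ 0 ∧
      f = algebraMap ℂ (H71.FC N) c * H71.bcC N f0 * u ^ m := by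
  letI : Algebra Kbar ℂ := iota.toAlgebra
  have hpd : HasPrincipalDivisors ℂ (H71.FC N) := H45.hasPrincipalDivisors_FC N
  have hfd : FiniteDimensional (IntermediateField.adjoin ℂ {H45.jC N}) (H71.FC N) :=
    H45.finiteDimensional_FC N
  obtain ⟨v0, hv0⟩ := exists_fixed_place N
  obtain ⟨S, hS⟩ := H52.exists_finset_kummer_reps_cover (H45.isCover_C N) (S24.H90.valSpec N) hm
  have hxfix : ∀ τ : ℂ ≃ₐ[Kbar] ℂ,
      H43.gal (modularFunctionFieldFull N) τ • (H45.jC N : H71.FC N) = H45.jC N := by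
    intro τ
    apply Subtype.ext
    rw [H43.coe_gal_smul]
    exact coeffMap_coeffEmb (τ.restrictScalars ℚ) jq
  obtain ⟨s, hs, hcan⟩ := H37.exists_semiinvariant (K := ℂ) (F := H71.FC N) (H45.jC N)
    (H45.transcendental_jC N) v0 hm f hf
  exact H43.desc_glue (K := Kbar) (L := ℂ) (modularFunctionFieldFull N) m f hf S
    (fun τ => hS _ (semilinear_smul_ne_zero _ hf) (dvd_ord_semilinear_smul _ hdiv)) s hs
    (fun τ hτ => hcan _ (hxfix τ) (hv0 τ) hτ)

/-- **(DESC) with divisibility over `ℚ̄`**: the descended function `f₀` has all its orders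
(at the places of `FN N`) divisible by `m`. -/
theorem desc_C_dvd {m : ℕ} (hm : m ≠ 0) (f : H71.FC N) (hf : f ≠ 0)
    (hdiv : ∀ v : Place ℂ (H71.FC N), (m : ℤ) ∣ v.ord f) :
    ∃ (f0 : FN N) (c : ℂ) (u : H71.FC N), f0 ≠ 0 ∧ c ≠ 0 ∧ u ≠ 0 ∧
      f = algebraMap ℂ (H71.FC N) c * H71.bcC N f0 * u ^ m ∧
      ∀ v : Place Kbar (FN N), (m : ℤ) ∣ v.ord f0 := by
  obtain ⟨f0, c, u, hf0, hc, hu, hEq⟩ := desc_C N hm f hf hdiv
  refine ⟨f0, c, u, hf0, hc, hu, hEq, ?_⟩
  refine H23.dvd_ord_of_forall_dvd_bcC N (m : ℤ) f0 fun w => ?_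
  have hcF : algebraMap ℂ (H71.FC N) c ≠ 0 := (map_ne_zero _).mpr hc
  have hb : H71.bcC N f0 ≠ 0 := (map_ne_zero _).mpr hf0
  have h1 := hdiv w
  rw [hEq, w.ord_mul (mul_ne_zero hcF hb) (pow_ne_zero m hu), w.ord_mul hcF hb,
    S24.H19.ord_algebraMap, zero_add, ← zpow_natCast, w.ord_zpow] at h1
  exact (Int.dvd_add_left (Dvd.intro _ rfl)).mp h1

end Fermat.Agent.S29.H60
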