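import Mathlib
import Fermat.Agent.S22.HeckeDecomp_helper56

/-!
# S29, node (EIG), definitions (helper6): the Hecke transfer relation on characters of `Γ₀(N)`

* `IsDecomp N ℓ γ σ g'` : a coset decomposition `repT ℓ x * γ = g' x * repT ℓ (σ x)` of
  `γ ∈ Γ₀(N)` along the `ℓ + 1` standard representatives of `T_ℓ` (landed `S22.H56.repT`:
  `none ↦ [[ℓ,0],[0,1]]`, `some j ↦ [[1,j],[0,ℓ]]`), with `σ` a permutation of the index set and
  `g' x ∈ Γ₀(N)`.  Such a decomposition exists for `ℓ` prime, `ℓ ∤ N` (`exists_isDecomp`).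
* `IsHeckeTr N ℓ χ χ'` : `χ'` is the transfer (transpose Hecke operator `T_ℓ^tr`) of the additive
  character `χ` of `Γ₀(N)`: `χ' γ = ∑ x, χ (g' x)` for every decomposition of `γ`.
  It is additive, natural in the coefficient group, and determines `χ'` (`IsHeckeTr.unique`).
-/

set_option autoImplicit false

namespace Fermat.Agent.S29.H06

open CongruenceSubgroup
open Fermat.Agent.S22
open scoped MatrixGroups

/-- Hecke coset decomposition of `γ ∈ Γ₀(N)` at `ℓ` with respect to the standard representatives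
`repT ℓ x` (`none ↦ [[ℓ,0],[0,1]]`, `some j ↦ [[1,j],[0,ℓ]]`). -/
def IsDecomp (N ℓ : ℕ) (γ : Gamma0 N) (σ : Equiv.Perm (Option (Fin ℓ)))
    (g' : Option (Fin ℓ) → Gamma0 N) : Prop :=
  ∀ x, H56.repT ℓ x * (((γ : SL(2, ℤ)) : GL (Fin 2) ℝ)) =
    (((g' x : SL(2, ℤ)) : GL (Fin 2) ℝ)) * H56.repT ℓ (σ x)

theorem exists_isDecomp {N ℓ : ℕ} (hℓ : ℓ.Prime) (hℓN : ¬ ℓ ∣ N) (γ : Gamma0 N) :
    ∃ σ g', IsDecomp N ℓ γ σ g' := by
  obtain ⟨σ, g', hg', h⟩ := H56.repT_decomp hℓ hℓN (γ : SL(2, ℤ)) γ.2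
  exact ⟨σ, fun x => ⟨g' x, hg' x⟩, h⟩

/-- `χ'` is the Hecke transfer (the transpose operator `T_ℓ^tr`) of `χ`. -/
def IsHeckeTr (N ℓ : ℕ) {A : Type*} [AddCommGroup A] (χ χ' : Additive (Gamma0 N) →+ A) : Prop :=
  ∀ (γ : Gamma0 N) (σ : Equiv.Perm (Option (Fin ℓ))) (g' : Option (Fin ℓ) → Gamma0 N),
    IsDecomp N ℓ γ σ g' → χ' (Additive.ofMul γ) = ∑ x, χ (Additive.ofMul (g' x))

section Formal

variable {N ℓ : ℕ} {A B : Type*} [AddCommGroup A] [AddCommGroup B]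

theorem IsHeckeTr.unique (hℓ : ℓ.Prime) (hℓN : ¬ ℓ ∣ N) {χ χ' χ'' : Additive (Gamma0 N) →+ A}
    (h' : IsHeckeTr N ℓ χ χ') (h'' : IsHeckeTr N ℓ χ χ'') : χ' = χ'' := by
  refine AddMonoidHom.ext fun γ => ?_
  obtain ⟨σ, g', hd⟩ := exists_isDecomp hℓ hℓN (Additive.toMul γ)
  have e1 := h' _ σ g' hd
  have e2 := h'' _ σ g' hd
  exact e1.trans e2.symm

theorem IsHeckeTr.zero : IsHeckeTr N ℓ (0 : Additive (Gamma0 N) →+ A) 0 := by
  intro γ σ g' _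
  simp

theorem IsHeckeTr.add {χ₁ χ₁' χ₂ χ₂' : Additive (Gamma0 N) →+ A}
    (h₁ : IsHeckeTr N ℓ χ₁ χ₁') (h₂ : IsHeckeTr N ℓ χ₂ χ₂') :
    IsHeckeTr N ℓ (χ₁ + χ₂) (χ₁' + χ₂') := by
  intro γ σ g' hd
  simp only [AddMonoidHom.add_apply, Finset.sum_add_distrib, h₁ γ σ g' hd, h₂ γ σ g' hd]

theorem IsHeckeTr.neg {χ χ' : Additive (Gamma0 N) →+ A} (h : IsHeckeTr N ℓ χ χ') :
    IsHeckeTr N ℓ (-χ) (-χ') := by
  intro γ σ g' hd
  simp only [AddMonoidHom.neg_apply, Finset.sum_neg_distrib, h γ σ g' hd]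

theorem IsHeckeTr.zsmul {χ χ' : Additive (Gamma0 N) →+ A} (h : IsHeckeTr N ℓ χ χ') (n : ℤ) :
    IsHeckeTr N ℓ (n • χ) (n • χ') := by
  intro γ σ g' hd
  simp only [AddMonoidHom.smul_apply, ← Finset.smul_sum, h γ σ g' hd]

theorem IsHeckeTr.sum {ι : Type*} (s : Finset ι) {χ χ' : ι → Additive (Gamma0 N) →+ A}
    (h : ∀ i ∈ s, IsHeckeTr N ℓ (χ i) (χ' i)) :
    IsHeckeTr N ℓ (∑ i ∈ s, χ i) (∑ i ∈ s, χ' i) := by
  classical
  induction s using Finset.induction_on with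
  | empty => simpa using IsHeckeTr.zero
  | insert a s ha ih =>
    rw [Finset.sum_insert ha, Finset.sum_insert ha]
    exact (h a (Finset.mem_insert_self a s)).add
      (ih fun i hi => h i (Finset.mem_insert_of_mem hi))

/-- The transfer relation is natural in the coefficient group. -/
theorem IsHeckeTr.comp {χ χ' : Additive (Gamma0 N) →+ A} (h : IsHeckeTr N ℓ χ χ') (f : A →+ B) :
    IsHeckeTr N ℓ (f.comp χ) (f.comp χ') := by
  intro γ σ g' hd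
  simp only [AddMonoidHom.comp_apply, h γ σ g' hd, map_sum]

end Formal

end Fermat.Agent.S29.H06
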