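import Mathlib
import Fermat.Prelude.Def_ModularCurve_HeckeModule
import Fermat.Prelude.Def_ModularCurve_PeriodHomPair
import Fermat.Prelude.Def_GaloisRep_Residual
import Fermat.Agent.S29.TransferDef_helper6

/-!
# S29: the two central interface statements (helper27, S29 lead)

The top of S29 is helper24's `Top_helper24` (`H24.WitStmt`, `H24.CycStmt`, `H24.FDStmt`,
`H24.TopAlgStmt`, `H24.K0Stmt` ⟹ the frozen statement).  This file fixes the two statements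
from which the witness module `H24.WitStmt` is built (together with the landed Galois side
`GalClass_helper26`, `GalHecke_helper13`, `FiniteLevel_helper32`):

* `Lam N` : `Hom_par(Γ₀(N), ℤ)` (the Prelude's `parabolicHoms ℤ (Gamma0 N) ℤ`);
* Hecke transfer on additive characters of `Γ₀(N)`: helper6's landed relation
  `H06.IsHeckeTr N ℓ χ χ'` (`χ' γ = ∑ x, χ (g' x)` whenever
  `repT ℓ x * γ = g' x * repT ℓ (σ x)` for all `x`; `repT ℓ none = [[ℓ,0],[0,1]]`,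
  `repT ℓ (some j) = [[1,j],[0,ℓ]]`; existence of decompositions: `H06.exists_isDecomp`);
* `PsiStmt N m`  **(PSI)** : the Kummer class map `Ψ_m : Hom_par(Γ₀(N), ℤ) → J₀(N)`: additive,
  killed by `m`, kernel `m · Hom_par`, and `T_ℓ (Ψ χ) = Ψ χ'` whenever `χ'` is the Hecke
  transfer of `χ`, for primes `ℓ ∤ N` (`T_ℓ` = the frozen `heckeOperatorBar N ℓ`);
* `EigStmt N g κ ψ` **(EIG)** : the eigensystem of `g` modulo `ψ` occurs in
  `Hom_par(Γ₀(N), ℤ) ⊗ κ`: characters `χ i ∈ Hom_par`, coefficients `θ i ∈ κ` with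
  `∑ θ i • χ i ≠ 0` (as a `κ`-valued character) and
  `∑ θ i • T_ℓ (χ i) = ψ(a_ℓ) • ∑ θ i • χ i` for all primes `ℓ ∤ N`.

Mathematical content of (PSI): for `χ ∈ Hom_par`, `u` a meromorphic function on the upper half
plane with `u ∘ γ = e(χ(γ)/m) u` (`γ ∈ Γ₀(N)`, moderate growth at the cusps), `h = u ^ m` is a
function on `X₀(N)` with `div h = m D`, and `Ψ χ = [D]`.  The Hecke operator
`T_ℓ = α_* β^*` maps `[D]` to `[D']` with `m D' = div (Norm_α (β h))`, and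
`Norm_α (β h) = U ^ m` for `U = ∏ x, u ∘ repT ℓ x`, which has the multiplier `e(χ'(γ)/m)` for
the Hecke transfer `χ'` of `χ`.
-/

set_option autoImplicit false

open ModularCurve ModularCurve.Period CongruenceSubgroup
open scoped MatrixGroups

namespace Fermat.Agent.S29.H27

noncomputable section

local notation "Zbar" => integralClosure ℤ ℂ

/-- `Hom_par(Γ₀(N), ℤ)`. -/
abbrev Lam (N : ℕ) : Submodule ℤ (Additive (Gamma0 N) →+ ℤ) :=
  parabolicHoms ℤ (Gamma0 N) ℤ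

/-- **(PSI)** the Kummer class map modulo `m`.  Captains: helper35 (AN), helper60 (DE). -/
def PsiStmt (N m : ℕ) [NeZero N] : Prop :=
  ∃ Ψ : Lam N →+ JZero N,
    (∀ χ : Lam N, m • Ψ χ = 0) ∧
    (∀ χ : Lam N, Ψ χ = 0 → ∃ χ' : Lam N, χ = m • χ') ∧
    ∀ ℓ : Nat.Primes, ¬ (ℓ : ℕ) ∣ N → ∀ χ χ' : Lam N,
      H06.IsHeckeTr N ℓ (χ : Additive (Gamma0 N) →+ ℤ) (χ' : Additive (Gamma0 N) →+ ℤ) →
        heckeOperatorBar N ℓ (Ψ χ) = Ψ χ'

/-- **(EIG)** the eigensystem of `g` modulo `ψ` occurs in `Hom_par(Γ₀(N), ℤ) ⊗ κ`.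
Owner: helper6. -/
def EigStmt (N : ℕ) (g : CuspForm (Gamma0 N) 2) (κ : Type) [Field κ] (ψ : Zbar →+* κ) : Prop :=
  ∃ (d : ℕ) (χ : Fin d → Lam N) (θ : Fin d → κ),
    (∃ γ : Gamma0 N,
      ∑ i, θ i * (((χ i : Additive (Gamma0 N) →+ ℤ) (Additive.ofMul γ) : ℤ) : κ) ≠ 0) ∧
    ∀ ℓ : ℕ, ℓ.Prime → ¬ ℓ ∣ N → ∃ (a : Zbar) (χ' : Fin d → Lam N),
      (a : ℂ) = ModularFormClass.qCoeff g ℓ ∧
      (∀ i, H06.IsHeckeTr N ℓ (χ i : Additive (Gamma0 N) →+ ℤ)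
        (χ' i : Additive (Gamma0 N) →+ ℤ)) ∧
      ∀ γ : Gamma0 N,
        ∑ i, θ i * (((χ' i : Additive (Gamma0 N) →+ ℤ) (Additive.ofMul γ) : ℤ) : κ) =
          ψ a * ∑ i, θ i * (((χ i : Additive (Gamma0 N) →+ ℤ) (Additive.ofMul γ) : ℤ) : κ)

/-! ### The top reduction (used by `K0Red_helper46`) -/

/-- The conclusion of the frozen S29 at `(κ, ψ)`. -/
def RepStmt (N : ℕ) (g : CuspForm (Gamma0 N) 2) (p : ℕ) (κ : Type) [Field κ]
    (ψ : Zbar →+* κ) : Prop :=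
  ∃ ρ : ResidualGaloisRep κ, ρ.IsAttachedTo g ψ ∧
    ∀ ℓ : ℕ, ℓ.Prime → ¬ ℓ ∣ N * p → ρ.IsUnramifiedAt ℓ

/-- **(K0)** reduction to algebraically closed coefficient fields (`κ = Zbar / ker φ`).
Proved: `H46.k0Red` (`K0Red_helper46`). -/
def K0Red : Prop :=
  ∀ {N : ℕ} {g : CuspForm (Gamma0 N) 2} {p : ℕ} (_ : p.Prime) {k : Type} [Field k] [CharP k p]
    (φ : Zbar →+* k),
    (∀ (κ : Type) [Field κ] [IsAlgClosed κ] [CharP κ p] (ψ : Zbar →+* κ), RepStmt N g p κ ψ) →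
      RepStmt N g p k φ

/-- **The frozen statement S29** from (K0) and `RepStmt` over algebraically closed fields. -/
theorem result_of (hK0 : K0Red)
    (hRep : ∀ {N : ℕ} {g : CuspForm (Gamma0 N) 2} (_ : g.IsNormalizedEigenform) {p : ℕ}
      (_ : p.Prime) (κ : Type) [Field κ] [IsAlgClosed κ] [CharP κ p] (ψ : Zbar →+* κ),
      RepStmt N g p κ ψ)
    {N : ℕ} {g : CuspForm (CongruenceSubgroup.Gamma0 N) 2} (hg : g.IsNormalizedEigenform)
    {p : ℕ} (hp : p.Prime) {k : Type} [Field k] [CharP k p]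
    (φ : integralClosure ℤ ℂ →+* k) :
    ∃ ρ : ResidualGaloisRep k, ρ.IsAttachedTo g φ ∧
      ∀ ℓ : ℕ, ℓ.Prime → ¬ ℓ ∣ N * p → ρ.IsUnramifiedAt ℓ :=
  hK0 hp φ fun κ _ _ _ ψ => hRep hg hp κ ψ

end

end Fermat.Agent.S29.H27
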