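import Mathlib
import Fermat.Agent.S29.Stmts_helper27
import Fermat.Agent.S18.PrincDiv_helper98
import Fermat.Agent.S18.ConstK_helper2

/-!
# S29, (PSI) assembly (helper92): the Kummer class map from "Kummer generators"

Generic part (`K`, `F` any function field with the Prelude's `Place`/`Divisor`/`Pic0`):

* `IsKumCls m y x` : `x = [D]` for a degree-zero divisor `D` with `m • D = div y`
  (the Kummer class of `y` modulo `m`);
* uniqueness, existence (when `m ∣ ord_v y` everywhere), multiplicativity, inverse,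
  `m`-th powers have class `0`, `m • x = 0`, and conversely class `0` ⟹ `y` is an `m`-th power
  (when units are constants and constants have `m`-th roots).

Modular part (`Fbar_N = modularFunctionFieldBar N` over `Qb`):

* `KumStmt N m` : the interface.  A relation `Real χ y` ("`y ∈ Fbar_N^×` is a Kummer generator
  whose Kummer character is `e(χ/m)`", to be defined by the (AN)/(DE) owners) with seven clauses:
  divisibility of the orders, existence of a generator for every `χ ∈ Hom_par(Γ₀(N), ℤ)`,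
  multiplicativity, inverses, trivial character ⟹ `m`-th power, `m`-th power ⟹ `χ ∈ m • Hom_par`,
  and the Hecke clause (a generator for the transfer `χ'` whose Kummer class is `T_ℓ` of the
  class of `y`).
* `psiStmt_of_kumStmt : m ≠ 0 → KumStmt N m → H27.PsiStmt N m`.
-/

set_option autoImplicit false
set_option linter.unusedSectionVars false

namespace Fermat.Agent.S29.H92

open AlgebraicCurve ModularCurve CongruenceSubgroup

section generic

variable {K F : Type*} [Field K] [Field F] [Algebra K F]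

/-- `x` is the Kummer class of `y` modulo `m`: `x = [D]` with `D` of degree zero and
`m • D = div y`. -/
def IsKumCls (m : ℕ) (y : F) (x : Pic0 K F) : Prop :=
  ∃ D : Divisor.degZero (K := K) (F := F), x = Pic0.mk D ∧
    ∀ v : Place K F, (m : ℤ) * (D : Divisor K F) v = v.ord y

/-- introduction rule: a divisor `D` with `m • D = div y` and `deg D = 0`. -/
theorem isKumCls_mk {m : ℕ} {y : F} (D : Divisor K F) (hdeg : Divisor.degree D = 0)
    (hD : ∀ v : Place K F, (m : ℤ) * D v = v.ord y) :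
    IsKumCls m y (Pic0.mk ⟨D, hdeg⟩) :=
  ⟨⟨D, hdeg⟩, rfl, hD⟩

/-- the Kummer class is unique. -/
theorem IsKumCls.unique {m : ℕ} (hm : m ≠ 0) {y : F} {x x' : Pic0 K F}
    (h : IsKumCls m y x) (h' : IsKumCls m y x') : x = x' := by
  obtain ⟨D, rfl, hD⟩ := h
  obtain ⟨D', rfl, hD'⟩ := h'
  congr 1
  apply Subtype.ext
  ext v
  exact mul_left_cancel₀ (Int.natCast_ne_zero.mpr hm) ((hD v).trans (hD' v).symm)

/-- a divisor `D` with `m • D = div y` has degree zero (for `m ≠ 0`). -/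
theorem degree_eq_zero_of_mul [HasPrincipalDivisors K F] {m : ℕ} (hm : m ≠ 0) {y : F}
    (hy : y ≠ 0) (D : Divisor K F) (hD : ∀ v : Place K F, (m : ℤ) * D v = v.ord y) :
    Divisor.degree D = 0 := by
  obtain ⟨E, hE, hdeg⟩ := HasPrincipalDivisors.exists_divisor (K := K) y hy
  have hmD : (m : ℤ) • D = E := by
    ext v
    rw [Finsupp.smul_apply, smul_eq_mul, hD, hE]
  have h1 : (m : ℤ) • Divisor.degree D = 0 := by rw [← map_zsmul, hmD, hdeg]
  rcases smul_eq_zero.mp h1 with h | h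
  · exact absurd h (Int.natCast_ne_zero.mpr hm)
  · exact h

/-- the Kummer class exists when all orders of `y` are divisible by `m`. -/
theorem exists_isKumCls [HasPrincipalDivisors K F] {m : ℕ} (hm : m ≠ 0) {y : F} (hy : y ≠ 0)
    (hdvd : ∀ v : Place K F, (m : ℤ) ∣ v.ord y) : ∃ x : Pic0 K F, IsKumCls m y x := by
  obtain ⟨E, hE, -⟩ := HasPrincipalDivisors.exists_divisor (K := K) y hy
  have hD : ∀ v : Place K F,
      (m : ℤ) * (E.mapRange (fun n : ℤ => n / (m : ℤ)) (by simp) : Divisor K F) v = v.ord y := by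
    intro v
    rw [Finsupp.mapRange_apply, hE v]
    exact Int.mul_ediv_cancel' (hdvd v)
  exact ⟨_, isKumCls_mk _ (degree_eq_zero_of_mul hm hy _ hD) hD⟩

/-- the Kummer class is multiplicative. -/
theorem IsKumCls.mul {m : ℕ} {y z : F} {x x' : Pic0 K F} (hy : y ≠ 0) (hz : z ≠ 0)
    (h : IsKumCls m y x) (h' : IsKumCls m z x') : IsKumCls m (y * z) (x + x') := by
  obtain ⟨D, rfl, hD⟩ := h
  obtain ⟨D', rfl, hD'⟩ := h'
  refine ⟨D + D', rfl, fun v => ?_⟩
  rw [v.ord_mul hy hz, ← hD v, ← hD' v, AddSubgroup.coe_add, Finsupp.add_apply, mul_add]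

/-- the Kummer class of the inverse. -/
theorem IsKumCls.inv {m : ℕ} {y : F} {x : Pic0 K F} (h : IsKumCls m y x) :
    IsKumCls m y⁻¹ (-x) := by
  obtain ⟨D, rfl, hD⟩ := h
  refine ⟨-D, rfl, fun v => ?_⟩
  rw [v.ord_inv, ← hD v, AddSubgroup.coe_neg, Finsupp.neg_apply, mul_neg]

/-- an `m`-th power has Kummer class `0`. -/
theorem isKumCls_pow [HasPrincipalDivisors K F] (m : ℕ) {s : F} (hs : s ≠ 0) :
    IsKumCls m (s ^ m) (0 : Pic0 K F) := by
  obtain ⟨E, hE, hdeg⟩ := HasPrincipalDivisors.exists_divisor (K := K) s hs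
  refine ⟨⟨E, hdeg⟩, ?_, fun v => ?_⟩
  · symm
    refine (QuotientAddGroup.eq_zero_iff _).mpr ?_
    rw [AddSubgroup.mem_addSubgroupOf]
    exact ⟨s, hs, hE⟩
  · rw [show s ^ m = s ^ (m : ℤ) from (zpow_natCast s m).symm, v.ord_zpow, hE v]

/-- a Kummer class is killed by `m`. -/
theorem IsKumCls.nsmul_eq_zero {m : ℕ} {y : F} {x : Pic0 K F} (hy : y ≠ 0)
    (h : IsKumCls m y x) : m • x = 0 := by
  obtain ⟨D, rfl, hD⟩ := h
  show Pic0.mk (m • D) = 0
  refine (QuotientAddGroup.eq_zero_iff _).mpr ?_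
  rw [AddSubgroup.mem_addSubgroupOf]
  refine ⟨y, hy, fun v => ?_⟩
  rw [AddSubgroup.coe_nsmul, Finsupp.smul_apply, nsmul_eq_mul, hD v]

/-- if the Kummer class of `y` vanishes then `y` is an `m`-th power, provided that functions
without zeros and poles are constants and constants have `m`-th roots. -/
theorem IsKumCls.exists_pow_of_zero {m : ℕ}
    (hconst : ∀ u : F, u ≠ 0 → (∀ v : Place K F, v.ord u = 0) → ∃ c : K, u = algebraMap K F c)
    (hroot : ∀ c : K, ∃ d : K, d ^ m = c) {y : F} (hy : y ≠ 0)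
    (h : IsKumCls m y (0 : Pic0 K F)) : ∃ s : F, y = s ^ m := by
  obtain ⟨D, h0, hD⟩ := h
  have hprin : (D : Divisor K F) ∈ Divisor.principal (K := K) (F := F) := by
    have h1 := (QuotientAddGroup.eq_zero_iff D).mp h0.symm
    rwa [AddSubgroup.mem_addSubgroupOf] at h1
  obtain ⟨s, hs, hsD⟩ := hprin
  have hsm : s ^ m ≠ 0 := pow_ne_zero m hs
  obtain ⟨c, hc⟩ := hconst (y * (s ^ m)⁻¹) (mul_ne_zero hy (inv_ne_zero hsm)) (fun v => by
    rw [v.ord_mul hy (inv_ne_zero hsm), v.ord_inv,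
      show s ^ m = s ^ (m : ℤ) from (zpow_natCast s m).symm, v.ord_zpow, ← hD v, hsD v]
    ring)
  obtain ⟨d, hd⟩ := hroot c
  refine ⟨algebraMap K F d * s, ?_⟩
  rw [mul_pow, ← map_pow, hd, ← hc, mul_assoc, inv_mul_cancel₀ hsm, mul_one]

end generic

section modular

local notation "Qb" => AlgebraicClosure ℚ

variable (N : ℕ) [NeZero N]

/-- a function of `Fbar_N` without zeros and poles is constant. -/
theorem const_of_ord_eq_zero (u : modularFunctionFieldBar N) (_hu : u ≠ 0)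
    (h : ∀ v : Place Qb (modularFunctionFieldBar N), v.ord u = 0) :
    ∃ c : Qb, u = algebraMap Qb (modularFunctionFieldBar N) c := by
  obtain ⟨Q0⟩ := Fermat.Agent.S18.H2.nonempty_place_bar N
  refine Fermat.Agent.S18.H2.const_of_ord_nonneg_aux Q0 (Fermat.Agent.S18.H2.deg_bar N Q0)
    (fun w hw hnn => ?_) u (fun Q => (h Q).ge)
  obtain ⟨E, hE, hdeg⟩ := Fermat.Agent.S18.H98.exists_divisor N w
  have h1 := Fermat.Agent.S18.H2.le_degree_of_nonneg E (fun v => by rw [hE]; exact hnn v) Q0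
    (Fermat.Agent.S18.H2.deg_bar N Q0)
  rwa [hdeg, hE] at h1

/-- **(KUM)** the interface of the (PSI) assembly: Kummer generators over `Qb` for every
parabolic character, with their calculus.  `Real χ y` should be read as: "`y ∈ Fbar_N^×`, all
orders of `y` are divisible by `m`, and the Kummer character of (the analytic function of) `y`
is `γ ↦ e(χ(γ)/m)`". -/
def KumStmt (N m : ℕ) [NeZero N] : Prop :=
  ∃ Real : H27.Lam N → modularFunctionFieldBar N → Prop,
    (∀ χ y, Real χ y → y ≠ 0 ∧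
      ∀ v : Place Qb (modularFunctionFieldBar N), (m : ℤ) ∣ v.ord y) ∧
    (∀ χ, ∃ y, Real χ y) ∧
    (∀ χ χ' y y', Real χ y → Real χ' y' → Real (χ + χ') (y * y')) ∧
    (∀ χ y, Real χ y → Real (-χ) y⁻¹) ∧
    (∀ y, Real 0 y → ∃ s : modularFunctionFieldBar N, y = s ^ m) ∧
    (∀ χ s, Real χ (s ^ m) → ∃ χ' : H27.Lam N, χ = m • χ') ∧
    (∀ ℓ : Nat.Primes, ¬ (ℓ : ℕ) ∣ N → ∀ (χ χ' : H27.Lam N) (y : modularFunctionFieldBar N),
      Real χ y →
      H06.IsHeckeTr N ℓ (χ : Additive (Gamma0 N) →+ ℤ) (χ' : Additive (Gamma0 N) →+ ℤ) →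
      ∀ x : JZero N, IsKumCls m y x →
        ∃ y', Real χ' y' ∧ IsKumCls m y' (heckeOperatorBar N ℓ x))

/-- **(PSI) from (KUM)**: the Kummer class map `Ψ χ := [div(y_χ)/m]`. -/
theorem psiStmt_of_kumStmt {m : ℕ} (hm : m ≠ 0) (h : KumStmt N m) : H27.PsiStmt N m := by
  classical
  have : HasPrincipalDivisors Qb (modularFunctionFieldBar N) :=
    Fermat.Agent.S18.H98.hasPrincipalDivisors_FN N
  obtain ⟨Real, hne, hex, hmul, hinv, hzero, hpow, hhecke⟩ := h
  choose yy hyy using hex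
  have hcls : ∀ χ, ∃ x : JZero N, IsKumCls m (yy χ) x := fun χ =>
    exists_isKumCls hm (hne _ _ (hyy χ)).1 (hne _ _ (hyy χ)).2
  choose Ψ hΨ using hcls
  -- two generators with the same character have the same class
  have hwd : ∀ (χ : H27.Lam N) (y z : modularFunctionFieldBar N) (x x' : JZero N),
      Real χ y → Real χ z → IsKumCls m y x → IsKumCls m z x' → x = x' := by
    intro χ y z x x' hy hz hx hx'
    have hy0 := (hne _ _ hy).1
    have hz0 := (hne _ _ hz).1
    have h0 : Real 0 (y * z⁻¹) := by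
      have h1 := hmul _ _ _ _ hy (hinv _ _ hz)
      rwa [add_neg_cancel] at h1
    obtain ⟨s, hs⟩ := hzero _ h0
    have hs0 : s ≠ 0 := by
      rintro rfl
      rw [zero_pow hm] at hs
      exact mul_ne_zero hy0 (inv_ne_zero hz0) hs
    have h1 : IsKumCls m (y * z⁻¹) (x + -x') := hx.mul hy0 (inv_ne_zero hz0) hx'.inv
    have h2 : IsKumCls m (y * z⁻¹) (0 : JZero N) := hs ▸ isKumCls_pow m hs0
    have h3 := h1.unique hm h2
    rw [← sub_eq_add_neg] at h3
    exact sub_eq_zero.mp h3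
  refine ⟨AddMonoidHom.mk' Ψ ?_, ?_, ?_, ?_⟩
  · intro χ χ'
    exact hwd (χ + χ') _ _ _ _ (hyy _) (hmul _ _ _ _ (hyy χ) (hyy χ')) (hΨ _)
      ((hΨ χ).mul (hne _ _ (hyy χ)).1 (hne _ _ (hyy χ')).1 (hΨ χ'))
  · intro χ
    exact (hΨ χ).nsmul_eq_zero (hne _ _ (hyy χ)).1
  · intro χ hχ
    have hχ' : Ψ χ = 0 := hχ
    have h0 : IsKumCls m (yy χ) (0 : JZero N) := hχ' ▸ hΨ χ
    obtain ⟨s, hs⟩ := h0.exists_pow_of_zero (const_of_ord_eq_zero N)
      (fun c => IsAlgClosed.exists_pow_nat_eq c (Nat.pos_of_ne_zero hm)) (hne _ _ (hyy χ)).1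
    exact hpow χ s (hs ▸ hyy χ)
  · intro ℓ hℓ χ χ' hT
    obtain ⟨y', hy', hc'⟩ := hhecke ℓ hℓ χ χ' (yy χ) (hyy χ) hT (Ψ χ) (hΨ χ)
    exact hwd χ' _ _ _ _ hy' (hyy χ') hc' (hΨ χ')

end modular

end Fermat.Agent.S29.H92
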