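/-
S29, leaf (W) (helper16): the Atkin-Lehner swap on `Fbar_{Nℓ}` and the Kummer generator of `T_ℓ`.

For a prime `ℓ ∤ N` let `α = heckeAlphaBar`, `β = heckeBetaBar : Fbar_N → Fbar_{Nℓ}`
(`α y = y`, `β y = y(q^ℓ)`).  The frozen Hecke correspondence is
`heckeDivBar = Divisor.correspondence β α = (pushforward along α) ∘ (pullback along β)`, so for
`m • D = div f` the divisor `m • heckeDivBar D` is the divisor of `Norm_α (β f)`, the norm ALONG `α`.
The landed S37 node (CONJ) computes the norm along `β` of `α y`.  This file bridges the two.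

Main exports (namespace `Fermat.Agent.S29.H16`; `Kbar = AlgebraicClosure ℚ`,
`FN N = ↥(modularFunctionFieldBar N)`, `Ebar = LaurentSeries Kbar`):
* `bar_induction`, `bar_mul_induction`: induction principles for `Fbar_M` (generators `j(q^d)`)
  and for `Fbar_{Nℓ}` (generated by `α(Fbar_N) ∪ β(Fbar_N)`);
* `exists_swap_ringHom`, `exists_atkinLehner` (W1/W2): an involutive `Kbar`-algebra automorphism `w` of
  `Fbar_{Nℓ}` with `w ∘ α = β`, `w ∘ β = α`;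
* `finrank_along_alpha`, `finrankAlong_alpha`, `finrankAlong_beta` (W3): both degrees are `ℓ + 1`;
* `norm_alpha_beta` (W4): `Norm_α (β y) = Norm_β (α y)`;
* `qExpand_norm_beta` (W5): `(Norm_α (β y))(q^ℓ) = y(q^(ℓ²)) · ∏_{b<ℓ} y(ζ^b q)`;
* `correspondence_apply_eq_ord`: `D = div f → correspondence φ ψ D = div (Norm_ψ (φ f))`;
* `heckeDivBar_kummer`, `heckeOperatorBar_kummer` (W6): if `m • D = div f` then
  `m • heckeDivBar D = div f'` (and the same for the transposed correspondence) with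
  `f'(q^ℓ) = f(q^(ℓ²)) · ∏_{b<ℓ} f(ζ^b q)`; class form for `heckeOperatorBar N ℓ` on `JZero N`;
* the same through the landed `S37.H58.heckeNorm N ℓ y = Norm_β (α y)`:
  `norm_alpha_beta_eq_heckeNorm`, `heckeNorm_ne_zero`, `qExpand_heckeNorm`,
  `heckeDivBar_heckeNorm`, `heckeDivBarTranspose_heckeNorm`, `heckeOperatorBar_heckeNorm`.
-/
import Mathlib
import Fermat.Agent.S37.Conj_helper16
import Fermat.Agent.S37.ConjZeta_helper16
import Fermat.Agent.S37.HeckeInputs_helper37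
import Fermat.Agent.S37.ESNorm_helper58

set_option autoImplicit false
set_option linter.unusedSectionVars false
set_option linter.style.haveILetI false

open IntermediateField ModularCurve Polynomial AlgebraicCurve

namespace Fermat.Agent.S29.H16

open Fermat.Agent.S18.H16 (Kbar Ebar jE)
open Fermat.Agent.S28.H20 (twist)
open Fermat.Agent.S37.H16 (FN Jd Jd_mem_bar gβ exists_sigma exists_primitiveRoot_units)

noncomputable section

/-- Induction principle for `Fbar_M` from its generators `j(q^d)`, `d ∣ M`. -/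
theorem bar_induction (M : ℕ) [NeZero M] {P : FN M → Prop}
    (hgen : ∀ (d : ℕ) [NeZero d] (hd : d ∣ M), P ⟨Jd d, Jd_mem_bar hd⟩)
    (hc : ∀ c : Kbar, P (algebraMap Kbar (FN M) c))
    (hadd : ∀ x y, P x → P y → P (x + y))
    (hmul : ∀ x y, P x → P y → P (x * y))
    (hinv : ∀ x, P x → P x⁻¹) (z : FN M) : P z := by
  have hmemF : ∀ x, x ∈ IntermediateField.adjoin Kbar (divisorExpansionsC Kbar M) →
      x ∈ modularFunctionFieldBar M := by
    intro x hx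
    rw [S18.H61.modularFunctionFieldBar_eq_fullC]
    exact hx
  have key : ∀ x (_ : x ∈ IntermediateField.adjoin Kbar (divisorExpansionsC Kbar M))
      (hx' : x ∈ modularFunctionFieldBar M), P ⟨x, hx'⟩ := by
    intro x hx
    induction hx using IntermediateField.adjoin_induction with
    | mem y hy =>
      intro hx'
      obtain ⟨d, hd, hdM, rfl⟩ := hy
      exact hgen d hdM
    | algebraMap c =>
      intro hx'
      exact hc c
    | add x y hx hy ihx ihy =>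
      intro hx'
      have hx1 := hmemF x hx
      have hy1 := hmemF y hy
      have : (⟨x + y, hx'⟩ : FN M) = ⟨x, hx1⟩ + ⟨y, hy1⟩ := rfl
      rw [this]
      exact hadd _ _ (ihx hx1) (ihy hy1)
    | inv x hx ih =>
      intro hx'
      have hx1 := hmemF x hx
      have : (⟨x⁻¹, hx'⟩ : FN M) = (⟨x, hx1⟩ : FN M)⁻¹ := rfl
      rw [this]
      exact hinv _ (ih hx1)
    | mul x y hx hy ihx ihy =>
      intro hx'
      have hx1 := hmemF x hx
      have hy1 := hmemF y hy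
      have : (⟨x * y, hx'⟩ : FN M) = ⟨x, hx1⟩ * ⟨y, hy1⟩ := rfl
      rw [this]
      exact hmul _ _ (ihx hx1) (ihy hy1)
  have hle : modularFunctionFieldBar M
      ≤ IntermediateField.adjoin Kbar (divisorExpansionsC Kbar M) :=
    le_of_eq (S18.H61.modularFunctionFieldBar_eq_fullC M)
  exact key z.1 (hle z.2) z.2

variable (N ℓ : ℕ) [NeZero N] [NeZero ℓ]

theorem exists_sigma' (hℓ : ℓ.Prime) (hℓN : ¬ ℓ ∣ N) :
    ∃ σ : FN (N * ℓ) →+* Ebar,
      (∀ a : FN N, σ (heckeBetaBar Kbar N ℓ a) = qExpand Kbar ℓ (a : Ebar)) ∧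
      (∀ y : FN N, σ (heckeAlphaBar Kbar N ℓ y) = qExpand Kbar (ℓ * ℓ) (y : Ebar)) := by
  obtain ⟨ζ, hζ⟩ := exists_primitiveRoot_units ℓ
  obtain ⟨σ, hσβ, hσα⟩ := exists_sigma N ℓ hℓ hℓN hζ
  exact ⟨σ, fun a => hσβ a, hσα⟩

/-- `z ↦ z(q^ℓ)` on `Fbar_{Nℓ}`, with values in `Qbar((q))`. -/
def uE : FN (N * ℓ) →+* Ebar :=
  (qExpand Kbar ℓ : Ebar →+* Ebar).comp (algebraMap (FN (N * ℓ)) Ebar)

theorem uE_apply (z : FN (N * ℓ)) : uE N ℓ z = qExpand Kbar ℓ (z : Ebar) := rfl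

theorem uE_injective : Function.Injective (uE N ℓ) := (uE N ℓ).injective

theorem uE_alpha (y : FN N) : uE N ℓ (heckeAlphaBar Kbar N ℓ y) = qExpand Kbar ℓ (y : Ebar) := by
  rw [uE_apply, coe_heckeAlphaBar]

theorem uE_beta (y : FN N) :
    uE N ℓ (heckeBetaBar Kbar N ℓ y) = qExpand Kbar (ℓ * ℓ) (y : Ebar) := by
  rw [uE_apply, coe_heckeBetaBar]
  exact qExpand_qExpand ℓ ℓ (y : Ebar)

theorem gen_beta {e : ℕ} [NeZero e] (he : e ∣ N) (hd : ℓ * e ∣ N * ℓ) :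
    (⟨Jd (ℓ * e), Jd_mem_bar hd⟩ : FN (N * ℓ))
      = heckeBetaBar Kbar N ℓ ⟨Jd e, Jd_mem_bar he⟩ := by
  apply Subtype.ext
  rw [coe_heckeBetaBar]
  exact (qExpand_qExpand e ℓ (jqModC Kbar)).symm

theorem gen_alpha {d : ℕ} [NeZero d] (hdN : d ∣ N) (hd : d ∣ N * ℓ) :
    (⟨Jd d, Jd_mem_bar hd⟩ : FN (N * ℓ))
      = heckeAlphaBar Kbar N ℓ ⟨Jd d, Jd_mem_bar hdN⟩ := by
  apply Subtype.ext
  rw [coe_heckeAlphaBar]

theorem const_beta (c : Kbar) :
    algebraMap Kbar (FN (N * ℓ)) c = heckeBetaBar Kbar N ℓ (algebraMap Kbar (FN N) c) :=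
  ((heckeBetaBar Kbar N ℓ).commutes c).symm

theorem const_alpha (c : Kbar) :
    algebraMap Kbar (FN (N * ℓ)) c = heckeAlphaBar Kbar N ℓ (algebraMap Kbar (FN N) c) :=
  ((heckeAlphaBar Kbar N ℓ).commutes c).symm

/-- Induction principle for `Fbar_{Nℓ}` (`ℓ` prime): it is generated by `α(Fbar_N) ∪ β(Fbar_N)`. -/
theorem bar_mul_induction (hℓ : ℓ.Prime) {P : FN (N * ℓ) → Prop}
    (hα : ∀ y : FN N, P (heckeAlphaBar Kbar N ℓ y))
    (hβ : ∀ y : FN N, P (heckeBetaBar Kbar N ℓ y))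
    (hadd : ∀ x y, P x → P y → P (x + y))
    (hmul : ∀ x y, P x → P y → P (x * y))
    (hinv : ∀ x, P x → P x⁻¹) (z : FN (N * ℓ)) : P z := by
  induction z using bar_induction with
  | hgen d hd =>
    by_cases hdl : ℓ ∣ d
    · obtain ⟨e, rfl⟩ := hdl
      have he : e ∣ N := by
        rw [mul_comm N ℓ] at hd
        exact Nat.dvd_of_mul_dvd_mul_left (Nat.pos_of_ne_zero (NeZero.ne ℓ)) hd
      have : NeZero e := ⟨fun h => by subst h; exact NeZero.ne (ℓ * 0) (mul_zero ℓ)⟩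
      rw [gen_beta N ℓ he hd]
      exact hβ _
    · have hcop : Nat.Coprime d ℓ :=
        ((Nat.Prime.coprime_iff_not_dvd hℓ).mpr hdl).symm
      have hdN : d ∣ N := hcop.dvd_of_dvd_mul_right hd
      rw [gen_alpha N ℓ hdN hd]
      exact hα _
  | hc c =>
    rw [const_alpha N ℓ c]
    exact hα _
  | hadd x y hx hy => exact hadd x y hx hy
  | hmul x y hx hy => exact hmul x y hx hy
  | hinv x hx => exact hinv x hx

/-- A ring hom `σ` on `Fbar_{Nℓ}` with `σ ∘ β = (q ↦ q^ℓ)` and `σ ∘ α = (q ↦ q^(ℓ²))` takes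
values in `Fbar_{Nℓ}(q^ℓ)`. -/
theorem range_sigma (hℓ : ℓ.Prime) (σ : FN (N * ℓ) →+* Ebar)
    (hσβ : ∀ a : FN N, σ (heckeBetaBar Kbar N ℓ a) = qExpand Kbar ℓ (a : Ebar))
    (hσα : ∀ y : FN N, σ (heckeAlphaBar Kbar N ℓ y) = qExpand Kbar (ℓ * ℓ) (y : Ebar))
    (z : FN (N * ℓ)) : ∃ z' : FN (N * ℓ), σ z = uE N ℓ z' := by
  induction z using bar_mul_induction N ℓ hℓ with
  | hα y => exact ⟨heckeBetaBar Kbar N ℓ y, by rw [hσα, uE_beta]⟩
  | hβ y => exact ⟨heckeAlphaBar Kbar N ℓ y, by rw [hσβ, uE_alpha]⟩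
  | hadd x y hx hy =>
    obtain ⟨x', hx'⟩ := hx
    obtain ⟨y', hy'⟩ := hy
    exact ⟨x' + y', by rw [map_add, map_add, hx', hy']⟩
  | hmul x y hx hy =>
    obtain ⟨x', hx'⟩ := hx
    obtain ⟨y', hy'⟩ := hy
    exact ⟨x' * y', by rw [map_mul, map_mul, hx', hy']⟩
  | hinv x hx =>
    obtain ⟨x', hx'⟩ := hx
    exact ⟨x'⁻¹, by rw [map_inv₀, map_inv₀, hx']⟩

/-- **Atkin–Lehner swap, ring-hom form.** For a prime `ℓ ∤ N` there is a ring endomorphism `w`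
of `Fbar_{Nℓ}` exchanging the two degeneracy maps: `w ∘ α = β` and `w ∘ β = α`. -/
theorem exists_swap_ringHom (hℓ : ℓ.Prime) (hℓN : ¬ ℓ ∣ N) :
    ∃ w : FN (N * ℓ) →+* FN (N * ℓ),
      (∀ y : FN N, w (heckeAlphaBar Kbar N ℓ y) = heckeBetaBar Kbar N ℓ y) ∧
      (∀ y : FN N, w (heckeBetaBar Kbar N ℓ y) = heckeAlphaBar Kbar N ℓ y) := by
  obtain ⟨σ, hσβ, hσα⟩ := exists_sigma' N ℓ hℓ hℓN
  choose w hw using range_sigma N ℓ hℓ σ hσβ hσα
  have hw' : ∀ z, uE N ℓ (w z) = σ z := fun z => (hw z).symm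
  let W : FN (N * ℓ) →+* FN (N * ℓ) :=
    { toFun := w
      map_one' := uE_injective N ℓ (by rw [hw', map_one, map_one])
      map_mul' := fun a b => uE_injective N ℓ (by rw [hw', map_mul, map_mul, hw', hw'])
      map_zero' := uE_injective N ℓ (by rw [hw', map_zero, map_zero])
      map_add' := fun a b => uE_injective N ℓ (by rw [hw', map_add, map_add, hw', hw']) }
  have hW : ∀ z, uE N ℓ (W z) = σ z := hw'
  refine ⟨W, fun y => ?_, fun y => ?_⟩
  · apply uE_injective N ℓ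
    rw [hW, hσα, uE_beta]
  · apply uE_injective N ℓ
    rw [hW, hσβ, uE_alpha]

/-- **(W2) Atkin–Lehner swap**: an involutive `Qbar`-algebra automorphism `w` of `Fbar_{Nℓ}` with
`w ∘ α = β` and `w ∘ β = α` (`ℓ ∤ N` prime). -/
theorem exists_atkinLehner (hℓ : ℓ.Prime) (hℓN : ¬ ℓ ∣ N) :
    ∃ w : FN (N * ℓ) ≃ₐ[Kbar] FN (N * ℓ),
      (∀ y : FN N, w (heckeAlphaBar Kbar N ℓ y) = heckeBetaBar Kbar N ℓ y) ∧
      (∀ y : FN N, w (heckeBetaBar Kbar N ℓ y) = heckeAlphaBar Kbar N ℓ y) ∧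
      ∀ z, w (w z) = z := by
  obtain ⟨w, hwα, hwβ⟩ := exists_swap_ringHom N ℓ hℓ hℓN
  have hinv : ∀ z, w (w z) = z := by
    intro z
    induction z using bar_mul_induction N ℓ hℓ with
    | hα y => rw [hwα, hwβ]
    | hβ y => rw [hwβ, hwα]
    | hadd x y hx hy => rw [map_add, map_add, hx, hy]
    | hmul x y hx hy => rw [map_mul, map_mul, hx, hy]
    | hinv x hx => rw [map_inv₀, map_inv₀, hx]
  let e : FN (N * ℓ) ≃+* FN (N * ℓ) :=
    RingEquiv.ofRingHom w w (RingHom.ext hinv) (RingHom.ext hinv)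
  have he : ∀ z, e z = w z := fun _ => rfl
  have hc : ∀ c : Kbar, e (algebraMap Kbar (FN (N * ℓ)) c) = algebraMap Kbar (FN (N * ℓ)) c := by
    intro c
    rw [he, const_alpha N ℓ c, hwα]
    exact (const_beta N ℓ c).symm.trans (const_alpha N ℓ c)
  refine ⟨AlgEquiv.ofRingEquiv (f := e) hc, hwα, hwβ, hinv⟩

/-! ### Abstract transport of degree and norm along a swap -/

section AbstractSwap

variable {F E : Type*} [Field F] [Field E]

theorem finrank_toAlgebra_of_swap (a b : F →+* E) (w : E ≃+* E) (h : ∀ y, w (a y) = b y) :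
    (letI := a.toAlgebra; Module.finrank F E) = (letI := b.toAlgebra; Module.finrank F E) :=
  @Algebra.finrank_eq_of_equiv_equiv F E _ _ a.toAlgebra F E _ _ b.toAlgebra (RingEquiv.refl F) w
    (by ext y; exact (h y).symm)

theorem norm_toAlgebra_of_swap (a b : F →+* E) (w : E ≃+* E) (h : ∀ y, w (a y) = b y) (x : E) :
    (letI := a.toAlgebra; Algebra.norm F x) = (letI := b.toAlgebra; Algebra.norm F (w x)) :=
  @Algebra.norm_eq_of_equiv_equiv F E F E _ _ _ _ a.toAlgebra b.toAlgebra (RingEquiv.refl F) w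
    (by ext y; exact (h y).symm) x

end AbstractSwap

/-- **(W3)** the degree of `Fbar_{Nℓ}` over `Fbar_N` along `α = heckeAlphaBar` is `ℓ + 1`. -/
theorem finrank_along_alpha (hℓ : ℓ.Prime) (hℓN : ¬ ℓ ∣ N) :
    (letI := AlgebraicCurve.algebraAlong (heckeAlphaBar Kbar N ℓ)
     Module.finrank (FN N) (FN (N * ℓ))) = ℓ + 1 := by
  obtain ⟨w, hwα, -, -⟩ := exists_atkinLehner N ℓ hℓ hℓN
  rw [← S37.H16.finrank_along_beta N ℓ hℓ hℓN]
  exact finrank_toAlgebra_of_swap (heckeAlphaBar Kbar N ℓ).toRingHom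
    (heckeBetaBar Kbar N ℓ).toRingHom w.toRingEquiv hwα

theorem finrankAlong_alpha (hℓ : ℓ.Prime) (hℓN : ¬ ℓ ∣ N) :
    AlgebraicCurve.finrankAlong Kbar (heckeAlphaBar Kbar N ℓ) = ℓ + 1 :=
  finrank_along_alpha N ℓ hℓ hℓN

theorem finrankAlong_beta (hℓ : ℓ.Prime) (hℓN : ¬ ℓ ∣ N) :
    AlgebraicCurve.finrankAlong Kbar (heckeBetaBar Kbar N ℓ) = ℓ + 1 :=
  S37.H16.finrank_along_beta N ℓ hℓ hℓN

/-- **(W4)** `Norm_α(β y) = Norm_β(α y)`: the norm along `α` of `β y` equals the norm along `β`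
of `α y`. -/
theorem norm_alpha_beta (hℓ : ℓ.Prime) (hℓN : ¬ ℓ ∣ N) (y : FN N) :
    (letI := AlgebraicCurve.algebraAlong (heckeAlphaBar Kbar N ℓ)
     Algebra.norm (FN N) (heckeBetaBar Kbar N ℓ y))
      = (letI := AlgebraicCurve.algebraAlong (heckeBetaBar Kbar N ℓ)
         Algebra.norm (FN N) (heckeAlphaBar Kbar N ℓ y)) := by
  obtain ⟨w, hwα, hwβ, -⟩ := exists_atkinLehner N ℓ hℓ hℓN
  have h := norm_toAlgebra_of_swap (heckeAlphaBar Kbar N ℓ).toRingHom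
    (heckeBetaBar Kbar N ℓ).toRingHom w.toRingEquiv hwα (heckeBetaBar Kbar N ℓ y)
  rw [h]
  congr 1
  exact hwβ y

/-- **(W5)** the norm along `α` of `β y` is `y(q^(ℓ²)) ∏_b y(ζ^b q)`, read after `q ↦ q^ℓ`;
analytically `Norm_α(β y)(τ) = y(ℓτ) ∏_{b<ℓ} y((τ+b)/ℓ)`. -/
theorem qExpand_norm_beta (hℓ : ℓ.Prime) (hℓN : ¬ ℓ ∣ N) (ζ : Kbarˣ)
    (hζ : IsPrimitiveRoot ζ ℓ) (y : FN N) :
    qExpand Kbar ℓ
        ((letI := AlgebraicCurve.algebraAlong (heckeAlphaBar Kbar N ℓ)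
          Algebra.norm (FN N) (heckeBetaBar Kbar N ℓ y) : FN N) : Ebar)
      = qExpand Kbar (ℓ * ℓ) (y : Ebar) * ∏ b ∈ Finset.range ℓ, twist (ζ ^ b) (y : Ebar) := by
  rw [norm_alpha_beta N ℓ hℓ hℓN y]
  exact S37.H16.qExpand_norm_alpha N ℓ hℓ hℓN ζ hζ y

/-! ### (W6) the Kummer generator of a correspondence -/

section Kummer

/-- If `D = div f` (as functions on places) then `correspondence φ ψ D = div (Norm_ψ (φ f))`. -/
theorem correspondence_apply_eq_ord {K F F' : Type*} [Field K] [Field F] [Field F']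
    [Algebra K F] [Algebra K F'] [HasPrincipalDivisors K F'] (φ ψ : F →ₐ[K] F')
    (hφ : φ.toRingHom.IsIntegral) (hψ : ψ.toRingHom.IsIntegral) (hfin : FiniteAlong K ψ)
    (hN : NormFormulaAlong K ψ hfin) (D : Divisor K F) (f : F) (hf : f ≠ 0)
    (hD : ∀ v : Place K F, D v = v.ord f) (v : Place K F) :
    Divisor.correspondence φ ψ hφ hψ D v
      = v.ord (letI := algebraAlong ψ; Algebra.norm F (φ f)) := by
  have h1 : ∀ w : Place K F', Divisor.pullbackAlong φ hφ D w = w.ord (φ f) := by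
    intro w
    letI := algebraAlong φ
    haveI := isScalarTower_along φ
    haveI := isIntegral_along φ hφ
    exact Divisor.pullback_apply_eq_ord hD w
  have hne : φ f ≠ 0 := (map_ne_zero_iff φ φ.injective).mpr hf
  rw [Divisor.correspondence_apply]
  letI := algebraAlong ψ
  haveI := isScalarTower_along ψ
  haveI := isIntegral_along ψ hψ
  haveI : Module.Finite F F' := hfin
  exact hN (φ f) hne _ h1 v

/-- the norm along a finite `ψ` of a nonzero element is nonzero -/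
theorem norm_along_ne_zero {K F F' : Type*} [Field K] [Field F] [Field F']
    [Algebra K F] [Algebra K F'] (ψ : F →ₐ[K] F') (hfin : FiniteAlong K ψ) {x : F'}
    (hx : x ≠ 0) : (letI := algebraAlong ψ; Algebra.norm F x) ≠ 0 := by
  letI := algebraAlong ψ
  haveI : Module.Finite F F' := hfin
  exact Algebra.norm_ne_zero_iff.mpr hx

variable (N ℓ : ℕ) [NeZero N] [NeZero ℓ]

/-- **(W6) Kummer generator of `T_ℓ` on divisors**: if `m • D = div f` on `Fbar_N` then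
`m • heckeDivBar D = div f'` for an `f' ∈ Fbar_N` with
`f'(q^ℓ) = f(q^(ℓ²)) · ∏_{b<ℓ} f(ζ^b q)`; the same `f'` works for the transposed
correspondence. -/
theorem heckeDivBar_kummer (hℓ : ℓ.Prime) (hℓN : ¬ ℓ ∣ N) (ζ : Kbarˣ) (hζ : IsPrimitiveRoot ζ ℓ)
    (hα : HeckeAlphaBarIntegral Kbar N ℓ) (hβ : HeckeBetaBarIntegral Kbar N ℓ)
    [HasPrincipalDivisors Kbar (FN (N * ℓ))]
    (D : Divisor Kbar (FN N)) (m : ℤ) (f : FN N) (hf : f ≠ 0)
    (hD : ∀ v : Place Kbar (FN N), (m • D) v = v.ord f) :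
    ∃ f' : FN N, f' ≠ 0 ∧
      (∀ v : Place Kbar (FN N), (m • heckeDivBar hα hβ D) v = v.ord f') ∧
      (∀ v : Place Kbar (FN N), (m • heckeDivBarTranspose hα hβ D) v = v.ord f') ∧
      qExpand Kbar ℓ (f' : Ebar)
        = qExpand Kbar (ℓ * ℓ) (f : Ebar) * ∏ b ∈ Finset.range ℓ, twist (ζ ^ b) (f : Ebar) := by
  have hfα := S37.H37.finiteAlong_FN N (N * ℓ) (heckeAlphaBar Kbar N ℓ)
  have hfβ := S37.H37.finiteAlong_FN N (N * ℓ) (heckeBetaBar Kbar N ℓ)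
  have hdeg := Fermat.Agent.S18.H98.deg_eq_one N
  have hdeg' := Fermat.Agent.S18.H98.deg_eq_one (N * ℓ)
  have hNα := S37.H37.normFormulaAlong (heckeAlphaBar Kbar N ℓ) hfα hdeg hdeg'
  have hNβ := S37.H37.normFormulaAlong (heckeBetaBar Kbar N ℓ) hfβ hdeg hdeg'
  refine ⟨(letI := AlgebraicCurve.algebraAlong (heckeAlphaBar Kbar N ℓ)
     Algebra.norm (FN N) (heckeBetaBar Kbar N ℓ f)), ?_, ?_, ?_, ?_⟩
  · exact norm_along_ne_zero (heckeAlphaBar Kbar N ℓ) hfα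
      ((map_ne_zero_iff _ (heckeBetaBar Kbar N ℓ).injective).mpr hf)
  · intro v
    have h := correspondence_apply_eq_ord (heckeBetaBar Kbar N ℓ) (heckeAlphaBar Kbar N ℓ)
      hβ hα hfα hNα (m • D) f hf hD v
    rw [← h, heckeDivBar, map_zsmul]
  · intro v
    have h := correspondence_apply_eq_ord (heckeAlphaBar Kbar N ℓ) (heckeBetaBar Kbar N ℓ)
      hα hβ hfβ hNβ (m • D) f hf hD v
    rw [norm_alpha_beta N ℓ hℓ hℓN f, ← h, heckeDivBarTranspose, map_zsmul]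
  · exact qExpand_norm_beta N ℓ hℓ hℓN ζ hζ f

/-- **(W6), class form**: `T_ℓ` of the class of `D` with `m • D = div f` is the class of a
degree-zero divisor `D'` with `m • D' = div f'`, where
`f'(q^ℓ) = f(q^(ℓ²)) · ∏_{b<ℓ} f(ζ^b q)`. -/
theorem heckeOperatorBar_kummer (hℓ : ℓ.Prime) (hℓN : ¬ ℓ ∣ N) (ζ : Kbarˣ)
    (hζ : IsPrimitiveRoot ζ ℓ)
    (D : Divisor.degZero (K := Kbar) (F := FN N)) (m : ℤ) (f : FN N) (hf : f ≠ 0)
    (hD : ∀ v : Place Kbar (FN N), (m • (D : Divisor Kbar (FN N))) v = v.ord f) :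
    ∃ (D' : Divisor.degZero (K := Kbar) (F := FN N)) (f' : FN N), f' ≠ 0 ∧
      heckeOperatorBar N ⟨ℓ, hℓ⟩ (Pic0.mk D : JZero N) = Pic0.mk D' ∧
      (∀ v : Place Kbar (FN N), (m • (D' : Divisor Kbar (FN N))) v = v.ord f') ∧
      qExpand Kbar ℓ (f' : Ebar)
        = qExpand Kbar (ℓ * ℓ) (f : Ebar) * ∏ b ∈ Finset.range ℓ, twist (ζ ^ b) (f : Ebar) := by
  haveI : HasPrincipalDivisors Kbar (FN (N * ℓ)) :=
    Fermat.Agent.S18.H98.hasPrincipalDivisors_FN (N * ℓ)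
  have hα := S37.H37.heckeAlphaBarIntegral N ℓ
  have hβ := S37.H37.heckeBetaBarIntegral N ℓ
  obtain ⟨f', hf', h1, -, h3⟩ := heckeDivBar_kummer N ℓ hℓ hℓN ζ hζ hα hβ D m f hf hD
  refine ⟨⟨heckeDivBar hα hβ D, S37.H37.heckeDivBar_mem_degZero N ℓ hα hβ D.2⟩, f', hf', ?_,
    h1, h3⟩
  have hfα := S37.H37.finiteAlong_FN N (N * ℓ) (heckeAlphaBar Kbar N ℓ)
  have hfβ := S37.H37.finiteAlong_FN N (N * ℓ) (heckeBetaBar Kbar N ℓ)
  have hdeg := Fermat.Agent.S18.H98.deg_eq_one N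
  have hdeg' := Fermat.Agent.S18.H98.deg_eq_one (N * ℓ)
  have hFI := S37.H37.fundamentalIdentityAlong (heckeBetaBar Kbar N ℓ) hfβ hβ hdeg hdeg'
  have hN := S37.H37.normFormulaAlong (heckeAlphaBar Kbar N ℓ) hfα hdeg hdeg'
  have h := heckeOperatorAlong_eq hα hβ hFI hfα hN
  show heckeOperatorAlong Kbar N ℓ (Pic0.mk D) = _
  rw [h]
  rfl

/-! ### The same statements through the landed `S37.H58.heckeNorm N ℓ y = Norm_β (α y)` -/

/-- `Norm_α (β y)` is the landed `heckeNorm N ℓ y` (`= Norm_β (α y)`). -/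
theorem norm_alpha_beta_eq_heckeNorm (hℓ : ℓ.Prime) (hℓN : ¬ ℓ ∣ N) (y : FN N) :
    (letI := AlgebraicCurve.algebraAlong (heckeAlphaBar Kbar N ℓ)
     Algebra.norm (FN N) (heckeBetaBar Kbar N ℓ y)) = S37.H58.heckeNorm N ℓ y :=
  norm_alpha_beta N ℓ hℓ hℓN y

/-- `heckeNorm N ℓ y ≠ 0` for `y ≠ 0`. -/
theorem heckeNorm_ne_zero {y : FN N} (hy : y ≠ 0) : S37.H58.heckeNorm N ℓ y ≠ 0 :=
  norm_along_ne_zero (heckeBetaBar Kbar N ℓ)
    (S37.H37.finiteAlong_FN N (N * ℓ) (heckeBetaBar Kbar N ℓ))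
    ((map_ne_zero_iff _ (heckeAlphaBar Kbar N ℓ).injective).mpr hy)

/-- `(heckeNorm N ℓ y)(q^ℓ) = y(q^(ℓ²)) · ∏_{b<ℓ} y(ζ^b q)` (the landed (CONJ)). -/
theorem qExpand_heckeNorm (hℓ : ℓ.Prime) (hℓN : ¬ ℓ ∣ N) (ζ : Kbarˣ)
    (hζ : IsPrimitiveRoot ζ ℓ) (y : FN N) :
    qExpand Kbar ℓ ((S37.H58.heckeNorm N ℓ y : FN N) : Ebar)
      = qExpand Kbar (ℓ * ℓ) (y : Ebar) * ∏ b ∈ Finset.range ℓ, twist (ζ ^ b) (y : Ebar) :=
  S37.H16.qExpand_norm_alpha N ℓ hℓ hℓN ζ hζ y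

/-- **(HK-div)**: if `m • D = div f` then `m • heckeDivBar D = div (heckeNorm N ℓ f)`
(`heckeDivBar = pushforward along α ∘ pullback along β`, `ℓ ∤ N` prime). -/
theorem heckeDivBar_heckeNorm (hℓ : ℓ.Prime) (hℓN : ¬ ℓ ∣ N)
    (hα : HeckeAlphaBarIntegral Kbar N ℓ) (hβ : HeckeBetaBarIntegral Kbar N ℓ)
    [HasPrincipalDivisors Kbar (FN (N * ℓ))]
    (D : Divisor Kbar (FN N)) (m : ℤ) (f : FN N) (hf : f ≠ 0)
    (hD : ∀ v : Place Kbar (FN N), (m • D) v = v.ord f) (v : Place Kbar (FN N)) :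
    (m • heckeDivBar hα hβ D) v = v.ord (S37.H58.heckeNorm N ℓ f) := by
  have hfα := S37.H37.finiteAlong_FN N (N * ℓ) (heckeAlphaBar Kbar N ℓ)
  have hNα := S37.H37.normFormulaAlong (heckeAlphaBar Kbar N ℓ) hfα
    (Fermat.Agent.S18.H98.deg_eq_one N) (Fermat.Agent.S18.H98.deg_eq_one (N * ℓ))
  have h := correspondence_apply_eq_ord (heckeBetaBar Kbar N ℓ) (heckeAlphaBar Kbar N ℓ)
    hβ hα hfα hNα (m • D) f hf hD v
  rw [← norm_alpha_beta_eq_heckeNorm N ℓ hℓ hℓN f, ← h, heckeDivBar, map_zsmul]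

/-- **(HK-div), transposed correspondence** (no primality needed). -/
theorem heckeDivBarTranspose_heckeNorm
    (hα : HeckeAlphaBarIntegral Kbar N ℓ) (hβ : HeckeBetaBarIntegral Kbar N ℓ)
    [HasPrincipalDivisors Kbar (FN (N * ℓ))]
    (D : Divisor Kbar (FN N)) (m : ℤ) (f : FN N) (hf : f ≠ 0)
    (hD : ∀ v : Place Kbar (FN N), (m • D) v = v.ord f) (v : Place Kbar (FN N)) :
    (m • heckeDivBarTranspose hα hβ D) v = v.ord (S37.H58.heckeNorm N ℓ f) := by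
  have hfβ := S37.H37.finiteAlong_FN N (N * ℓ) (heckeBetaBar Kbar N ℓ)
  have hNβ := S37.H37.normFormulaAlong (heckeBetaBar Kbar N ℓ) hfβ
    (Fermat.Agent.S18.H98.deg_eq_one N) (Fermat.Agent.S18.H98.deg_eq_one (N * ℓ))
  have h := correspondence_apply_eq_ord (heckeAlphaBar Kbar N ℓ) (heckeBetaBar Kbar N ℓ)
    hα hβ hfβ hNβ (m • D) f hf hD v
  rw [S37.H58.heckeNorm_def, ← h, heckeDivBarTranspose, map_zsmul]

/-- **(HK-div), class form**: for `D` of degree zero with `m • D = div f`, the class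
`T_ℓ [D] = heckeOperatorBar N ℓ [D]` is the class of the degree-zero divisor `heckeDivBar D`, and
`m • heckeDivBar D = div (heckeNorm N ℓ f)`. -/
theorem heckeOperatorBar_heckeNorm (hℓ : ℓ.Prime) (hℓN : ¬ ℓ ∣ N)
    (D : Divisor.degZero (K := Kbar) (F := FN N)) (m : ℤ) (f : FN N) (hf : f ≠ 0)
    (hD : ∀ v : Place Kbar (FN N), (m • (D : Divisor Kbar (FN N))) v = v.ord f) :
    ∃ D' : Divisor.degZero (K := Kbar) (F := FN N),
      heckeOperatorBar N ⟨ℓ, hℓ⟩ (Pic0.mk D : JZero N) = Pic0.mk D' ∧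
      ∀ v : Place Kbar (FN N),
        (m • (D' : Divisor Kbar (FN N))) v = v.ord (S37.H58.heckeNorm N ℓ f) := by
  haveI : HasPrincipalDivisors Kbar (FN (N * ℓ)) :=
    Fermat.Agent.S18.H98.hasPrincipalDivisors_FN (N * ℓ)
  have hα := S37.H37.heckeAlphaBarIntegral N ℓ
  have hβ := S37.H37.heckeBetaBarIntegral N ℓ
  refine ⟨⟨heckeDivBar hα hβ D, S37.H37.heckeDivBar_mem_degZero N ℓ hα hβ D.2⟩, ?_,
    heckeDivBar_heckeNorm N ℓ hℓ hℓN hα hβ D m f hf hD⟩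
  have hfα := S37.H37.finiteAlong_FN N (N * ℓ) (heckeAlphaBar Kbar N ℓ)
  have hfβ := S37.H37.finiteAlong_FN N (N * ℓ) (heckeBetaBar Kbar N ℓ)
  have hdeg := Fermat.Agent.S18.H98.deg_eq_one N
  have hdeg' := Fermat.Agent.S18.H98.deg_eq_one (N * ℓ)
  have hFI := S37.H37.fundamentalIdentityAlong (heckeBetaBar Kbar N ℓ) hfβ hβ hdeg hdeg'
  have hN := S37.H37.normFormulaAlong (heckeAlphaBar Kbar N ℓ) hfα hdeg hdeg'
  have h := heckeOperatorAlong_eq hα hβ hFI hfα hN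
  show heckeOperatorAlong Kbar N ℓ (Pic0.mk D) = _
  rw [h]
  rfl

end Kummer

end

end Fermat.Agent.S29.H16
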