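import Mathlib
import Fermat.Agent.S29.KumAsm_helper92
import Fermat.Agent.S29.Swap_helper16

/-!
# S29, (PSI): the Hecke clause of `H92.KumStmt` in function form (helper8)

Bridge between helper92's landed Kummer class calculus (`H92.IsKumCls`, `H92.KumStmt`,
`H92.psiStmt_of_kumStmt`) and helper16's landed (HK-div) (`H16.heckeOperatorBar_heckeNorm`):

* `isKumCls_heckeNorm` : `IsKumCls m y x → IsKumCls m (heckeNorm N ℓ y) (T_ℓ x)`;
* `dvd_ord_heckeNorm` : `m ∣ ord_v y` everywhere ⟹ `m ∣ ord_v (heckeNorm N ℓ y)` everywhere;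
* `kumStmt_of_real` / `psiStmt_of_real` : `H92.KumStmt N m` / `H27.PsiStmt N m` from a relation
  `Real` whose Hecke clause is the function-level statement
  `Real χ y → IsHeckeTr χ χ' → Real χ' (heckeNorm N ℓ y)`.

Here `heckeNorm = S37.H58.heckeNorm` (`= Norm_β (α y) = Norm_α (β y)`, see `H16.norm_alpha_beta`).
-/

set_option autoImplicit false

namespace Fermat.Agent.S29.H08

open AlgebraicCurve ModularCurve CongruenceSubgroup

local notation "Qb" => AlgebraicClosure ℚ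

variable (N : ℕ) [NeZero N]

/-- **`T_ℓ` on Kummer classes** (`ℓ ∤ N` prime): if `x` is the Kummer class of `y` modulo `m`,
then `T_ℓ x` is the Kummer class of `heckeNorm N ℓ y`. -/
theorem isKumCls_heckeNorm (ℓ : ℕ) [NeZero ℓ] (hℓ : ℓ.Prime) (hℓN : ¬ ℓ ∣ N) {m : ℕ}
    {y : modularFunctionFieldBar N} (hy : y ≠ 0) {x : JZero N} (h : H92.IsKumCls m y x) :
    H92.IsKumCls m (S37.H58.heckeNorm N ℓ y) (heckeOperatorBar N ⟨ℓ, hℓ⟩ x) := by
  obtain ⟨D, rfl, hD⟩ := h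
  obtain ⟨D', hD', hord⟩ := H16.heckeOperatorBar_heckeNorm N ℓ hℓ hℓN D (m : ℤ) y hy
    (fun v => by rw [Finsupp.smul_apply, smul_eq_mul]; exact hD v)
  refine ⟨D', hD', fun v => ?_⟩
  rw [← hord v, Finsupp.smul_apply, smul_eq_mul]

/-- the same with `ℓ : Nat.Primes` (the index type of `H27.PsiStmt` / `H92.KumStmt`). -/
theorem isKumCls_heckeNorm' (ℓ : Nat.Primes) (hℓN : ¬ (ℓ : ℕ) ∣ N) {m : ℕ}
    {y : modularFunctionFieldBar N} (hy : y ≠ 0) {x : JZero N} (h : H92.IsKumCls m y x) :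
    H92.IsKumCls m (@S37.H58.heckeNorm N ℓ _ ⟨ℓ.2.ne_zero⟩ y) (heckeOperatorBar N ℓ x) :=
  haveI : NeZero (ℓ : ℕ) := ⟨ℓ.2.ne_zero⟩
  isKumCls_heckeNorm N ℓ ℓ.2 hℓN hy h

/-- if all orders of `y` are divisible by `m`, so are all orders of `heckeNorm N ℓ y`. -/
theorem dvd_ord_heckeNorm (ℓ : ℕ) [NeZero ℓ] (hℓ : ℓ.Prime) (hℓN : ¬ ℓ ∣ N) {m : ℕ} (hm : m ≠ 0)
    {y : modularFunctionFieldBar N} (hy : y ≠ 0)
    (hdvd : ∀ v : Place Qb (modularFunctionFieldBar N), (m : ℤ) ∣ v.ord y)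
    (v : Place Qb (modularFunctionFieldBar N)) : (m : ℤ) ∣ v.ord (S37.H58.heckeNorm N ℓ y) := by
  haveI : HasPrincipalDivisors Qb (modularFunctionFieldBar N) :=
    Fermat.Agent.S18.H98.hasPrincipalDivisors_FN N
  obtain ⟨x, hx⟩ := H92.exists_isKumCls (K := Qb) hm hy hdvd
  obtain ⟨D, -, hD⟩ := isKumCls_heckeNorm N ℓ hℓ hℓN hy hx
  exact ⟨_, (hD v).symm⟩

/-- **(KUM) from a relation with the function-level Hecke clause**: the seven clauses of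
`H92.KumStmt`, the last one in the form
`Real χ y → IsHeckeTr χ χ' → Real χ' (heckeNorm N ℓ y)`. -/
theorem kumStmt_of_real (m : ℕ)
    (Real : H27.Lam N → modularFunctionFieldBar N → Prop)
    (hne : ∀ χ y, Real χ y → y ≠ 0 ∧
      ∀ v : Place Qb (modularFunctionFieldBar N), (m : ℤ) ∣ v.ord y)
    (hex : ∀ χ, ∃ y, Real χ y)
    (hmul : ∀ χ χ' y y', Real χ y → Real χ' y' → Real (χ + χ') (y * y'))
    (hinv : ∀ χ y, Real χ y → Real (-χ) y⁻¹)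
    (hzero : ∀ y, Real 0 y → ∃ s : modularFunctionFieldBar N, y = s ^ m)
    (hpow : ∀ χ s, Real χ (s ^ m) → ∃ χ' : H27.Lam N, χ = m • χ')
    (hhecke : ∀ (ℓ : ℕ) [NeZero ℓ], ℓ.Prime → ¬ ℓ ∣ N →
      ∀ (χ χ' : H27.Lam N) (y : modularFunctionFieldBar N), Real χ y →
        H06.IsHeckeTr N ℓ (χ : Additive (Gamma0 N) →+ ℤ) (χ' : Additive (Gamma0 N) →+ ℤ) →
        Real χ' (S37.H58.heckeNorm N ℓ y)) :
    H92.KumStmt N m := by
  refine ⟨Real, hne, hex, hmul, hinv, hzero, hpow, ?_⟩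
  intro ℓ hℓN χ χ' y hy hT x hx
  haveI : NeZero (ℓ : ℕ) := ⟨ℓ.2.ne_zero⟩
  exact ⟨S37.H58.heckeNorm N ℓ y, hhecke ℓ ℓ.2 hℓN χ χ' y hy hT,
    isKumCls_heckeNorm N ℓ ℓ.2 hℓN (hne χ y hy).1 hx⟩

/-- **(PSI) from a relation with the function-level Hecke clause.** -/
theorem psiStmt_of_real {m : ℕ} (hm : m ≠ 0)
    (Real : H27.Lam N → modularFunctionFieldBar N → Prop)
    (hne : ∀ χ y, Real χ y → y ≠ 0 ∧
      ∀ v : Place Qb (modularFunctionFieldBar N), (m : ℤ) ∣ v.ord y)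
    (hex : ∀ χ, ∃ y, Real χ y)
    (hmul : ∀ χ χ' y y', Real χ y → Real χ' y' → Real (χ + χ') (y * y'))
    (hinv : ∀ χ y, Real χ y → Real (-χ) y⁻¹)
    (hzero : ∀ y, Real 0 y → ∃ s : modularFunctionFieldBar N, y = s ^ m)
    (hpow : ∀ χ s, Real χ (s ^ m) → ∃ χ' : H27.Lam N, χ = m • χ')
    (hhecke : ∀ (ℓ : ℕ) [NeZero ℓ], ℓ.Prime → ¬ ℓ ∣ N →
      ∀ (χ χ' : H27.Lam N) (y : modularFunctionFieldBar N), Real χ y →
        H06.IsHeckeTr N ℓ (χ : Additive (Gamma0 N) →+ ℤ) (χ' : Additive (Gamma0 N) →+ ℤ) →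
        Real χ' (S37.H58.heckeNorm N ℓ y)) :
    H27.PsiStmt N m :=
  H92.psiStmt_of_kumStmt N hm (kumStmt_of_real N m Real hne hex hmul hinv hzero hpow hhecke)

end Fermat.Agent.S29.H08
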