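import Mathlib
import Fermat.Agent.S24.PhiRows_helper31
import Fermat.Agent.S24.Finite_helper89
import Fermat.Agent.S24.PhiData_helper69
import Fermat.Agent.S29.Cover_helper90

/-!
# S29, node (D1): the `ℚ̄`-instance of `IsCover`

The function field of the statement, `modularFunctionFieldBar N` over `ℚ̄`, realised inside the
analytic field `L N` by the embedding `P.Φ` of any `P : PhiData N` (landed S24), is an instance
of helper90's `IsCover` (with `ι = iota : ℚ̄ →+* ℂ`, `j = jBar N`, `j_N = Jd N N`).
-/

set_option autoImplicit false

open Fermat.Agent.S24 Fermat.Agent.S24.H31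

noncomputable section

namespace Fermat.Agent.S29.H31

/-- **(D1), `ℚ̄`-instance.** The function field `modularFunctionFieldBar N` over `ℚ̄` with the
embedding of a `PhiData` is a cover in the sense of `H90.IsCover`. -/
theorem isCover_Kbar (N : ℕ) [NeZero N] (P : PhiData N) :
    H90.IsCover iota P.Φ (jBar N) (Jd N N dvd_rfl) where
  map_const := P.map_const
  inv := P.inv
  map_j := Phi_jBar P
  map_jN := Phi_Jd P N dvd_rfl
  finite := H89.finite_FN P

/-- the same for the landed `H69.phiData N`. -/
theorem isCover_phiData (N : ℕ) [NeZero N] :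
    H90.IsCover iota (H69.phiData N).Φ (jBar N) (Jd N N dvd_rfl) :=
  isCover_Kbar N (H69.phiData N)

end Fermat.Agent.S29.H31
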