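import Mathlib
import Fermat.Agent.S29.KumChar_helper29
import Fermat.Agent.S29.CoverQbar_helper31
import Fermat.Agent.S29.CoverOrd_helper90
import Fermat.Agent.S29.Gamma0Fixed_helper32
import Fermat.Agent.S29.CoeffStab_helper43
import Fermat.Agent.S29.CoverC_helper71

/-!
# S29, node (KQ): the Kummer character of a function over `ℚ̄`

For `P : PhiData N` (the landed embedding of `FN N = modularFunctionFieldBar N` into `L N`):

* `kq1`: a function all of whose orders at the places of `FN N / ℚ̄` are divisible by `m` lies in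
  the Kummer group `H29.kumGroup V m` (via `P.Φ`);
* `root_descent`: if `P.Φ x` is the `m`-th power of a `Γ₀(N)`-invariant element of `L N`, then
  `x` is an `m`-th power in `FN N`;
* `kq2`: trivial Kummer character ⟹ `m`-th power (over `ℚ̄`), also in the shape
  `x = c * w ^ m`.

Proof of `root_descent`: the root lies in the function field over `ℂ` by (K2)
(`H32.mem_range_of_gamma0_fixed` for the `ℂ`-model `PhiC`), the `ℂ`-embedding restricts to `P.Φ`
along the base change (`PhiC.map_bcC`), and Kummer classes inject under base change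
(`H43.pow_descent`).
-/

set_option autoImplicit false

open Polynomial IntermediateField UpperHalfPlane CongruenceSubgroup ModularCurve AlgebraicCurve
open scoped MatrixGroups
open Fermat.Agent.S24 Fermat.Agent.S24.H31

noncomputable section

namespace Fermat.Agent.S29.H71

variable {N : ℕ} [NeZero N]

/-- **(KQ1)** membership in the Kummer group. -/
theorem kq1 (P : PhiData N) (V : ValSpec N) {m : ℕ} (x : FN N) (hx : x ≠ 0)
    (hdiv : ∀ v : Place Kbar (FN N), (m : ℤ) ∣ v.ord x) :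
    Units.mk0 (P.Φ x) ((map_ne_zero P.Φ).mpr hx) ∈ H29.kumGroup V m := by
  refine ⟨fun γ hγ => P.inv γ hγ x, fun z => ?_⟩
  have h := (Fermat.Agent.S29.H31.isCover_Kbar N P).dvd_pt_of_dvd_place V z 1 hx hdiv
  rwa [one_smul] at h

/-- **(KQ2), core.** If `P.Φ x` is the `m`-th power of a `Γ₀(N)`-invariant element of `L N`,
then `x` is an `m`-th power in the function field over `ℚ̄`. -/
theorem root_descent (P : PhiData N) {m : ℕ} (hm : m ≠ 0) (x : FN N) (u : L N)
    (hu : ∀ γ ∈ Gamma0 N, γ • u = u) (hpow : u ^ m = P.Φ x) : ∃ w : FN N, x = w ^ m := by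
  obtain ⟨PC⟩ := nonempty_phiC N
  obtain ⟨w', hw'⟩ := H32.mem_range_of_gamma0_fixed N PC.Φ (fun c => ⟨_, PC.map_const c⟩)
    ⟨jC N, PC.map_jC⟩ ⟨jdC N N dvd_rfl, PC.map_Jd N dvd_rfl⟩ u hu
  have h1 : bcC N x = w' ^ m := by
    apply PC.Φ.injective
    rw [PC.map_bcC P, map_pow, hw', hpow]
  letI : Algebra Kbar ℂ := iota.toAlgebra
  have h2 : coeffMap (algebraMap Kbar ℂ) (x : LaurentSeries Kbar)
      = (w' : LaurentSeries ℂ) ^ m := by
    have h3 := congrArg (fun y : FC N => (y : LaurentSeries ℂ)) h1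
    have h4 : ((bcC N x : FC N) : LaurentSeries ℂ)
        = coeffMap (algebraMap Kbar ℂ) (x : LaurentSeries Kbar) := rfl
    rw [← h4]
    simpa using h3
  obtain ⟨r₀, hr₀, hx0⟩ := H43.pow_descent (K := Kbar) (L := ℂ) (modularFunctionFieldFull N)
    hm w'.2 h2
  refine ⟨⟨r₀, hr₀⟩, Subtype.ext ?_⟩
  rw [hx0]
  rfl

/-- **(KQ2), core**, with a constant (the shape of the consumers). -/
theorem root_descent' (P : PhiData N) {m : ℕ} (hm : m ≠ 0) (x : FN N) (u : L N)
    (hu : ∀ γ ∈ Gamma0 N, γ • u = u) (hpow : u ^ m = P.Φ x) :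
    ∃ (c : Kbar) (w : FN N), x = algebraMap Kbar (FN N) c * w ^ m := by
  obtain ⟨w, hw⟩ := root_descent P hm x u hu hpow
  exact ⟨1, w, by rw [map_one, one_mul, hw]⟩

/-- **(KQ2)** a function over `ℚ̄` with trivial Kummer character is an `m`-th power. -/
theorem kq2_pow (P : PhiData N) (V : ValSpec N) {m : ℕ} (hm : m ≠ 0) (x : FN N) (hx : x ≠ 0)
    (hmem : Units.mk0 (P.Φ x) ((map_ne_zero P.Φ).mpr hx) ∈ H29.kumGroup V m)
    (h1 : H29.kumChar V hm ⟨_, hmem⟩ = 1) : ∃ w : FN N, x = w ^ m := by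
  obtain ⟨u, hu1, hu2⟩ := H29.exists_root_of_kumChar_eq_one V hm ⟨_, hmem⟩ h1
  refine root_descent P hm x (u : L N) hu1 ?_
  have h3 := congrArg (fun y : (L N)ˣ => (y : L N)) hu2
  simpa using h3

/-- **(KQ2)** in the shape `x = c * w ^ m`. -/
theorem kq2 (P : PhiData N) (V : ValSpec N) {m : ℕ} (hm : m ≠ 0) (x : FN N) (hx : x ≠ 0)
    (hmem : Units.mk0 (P.Φ x) ((map_ne_zero P.Φ).mpr hx) ∈ H29.kumGroup V m)
    (h1 : H29.kumChar V hm ⟨_, hmem⟩ = 1) :
    ∃ (c : Kbar) (w : FN N), x = algebraMap Kbar (FN N) c * w ^ m := by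
  obtain ⟨w, hw⟩ := kq2_pow P V hm x hx hmem h1
  exact ⟨1, w, by rw [map_one, one_mul, hw]⟩

end Fermat.Agent.S29.H71
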