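import Mathlib
import Fermat.Agent.S24.PhiData_helper69

/-!
# S29 (HK), part A: meromorphic functions on the upper half plane as a field with `GL(2,ℝ)⁺`-action
-/

set_option autoImplicit false

open Filter Topology UpperHalfPlane CongruenceSubgroup ModularForm ModularCurve
open scoped MatrixGroups ModularForm Manifold Real

noncomputable section

namespace Fermat.Agent.S29.H58

open Fermat.Agent.S24.H31

/-- The `ℂ`-algebra of holomorphic functions on the upper half plane. -/
def HolH : Subalgebra ℂ (ℍ → ℂ) where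
  carrier := {f | MDiff f}
  mul_mem' hf hg := hf.mul hg
  add_mem' hf hg := hf.add hg
  algebraMap_mem' c := mdifferentiable_const

theorem mem_HolH {f : ℍ → ℂ} : f ∈ HolH ↔ MDiff f := Iff.rfl

instance instNoZeroDivisorsHolH : NoZeroDivisors HolH where
  eq_zero_or_eq_zero_of_mul_eq_zero {a b} h := by
    have h' : (a : ℍ → ℂ) * (b : ℍ → ℂ) = 0 := congrArg Subtype.val h
    rcases (UpperHalfPlane.mul_eq_zero_iff a.2 b.2).mp h' with h0 | h0
    · exact Or.inl (Subtype.ext h0)
    · exact Or.inr (Subtype.ext h0)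

instance instNontrivialHolH : Nontrivial HolH :=
  ⟨⟨0, 1, fun h => by
    have h' := congrArg (fun f : HolH => (f : ℍ → ℂ) UpperHalfPlane.I) h
    simp at h'⟩⟩

instance instIsDomainHolH : IsDomain HolH := NoZeroDivisors.to_isDomain _

theorem mdiff_comp_glpos {f : ℍ → ℂ} (hf : MDiff f) (g : GL(2, ℝ)⁺) :
    MDiff (fun z : ℍ => f (g • z)) := by
  have h : MDiff (fun τ : ℍ => (g : GL (Fin 2) ℝ) • τ) :=
    UpperHalfPlane.mdifferentiable_smul ((Matrix.mem_glpos _).mp g.2)
  exact hf.comp h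

/-- The action of `GL(2,ℝ)⁺` on holomorphic functions: `(g • f) z = f (g⁻¹ • z)`. -/
instance instMulSemiringActionHolH : MulSemiringAction GL(2, ℝ)⁺ HolH where
  smul g f := ⟨fun z => (f : ℍ → ℂ) (g⁻¹ • z), mdiff_comp_glpos f.2 g⁻¹⟩
  one_smul f := Subtype.ext (funext fun z => by
    show (f : ℍ → ℂ) ((1 : GL(2, ℝ)⁺)⁻¹ • z) = _
    rw [inv_one, one_smul])
  mul_smul g h f := Subtype.ext (funext fun z => by
    show (f : ℍ → ℂ) ((g * h)⁻¹ • z) = (f : ℍ → ℂ) (h⁻¹ • g⁻¹ • z)
    rw [mul_inv_rev, mul_smul])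
  smul_zero g := Subtype.ext (funext fun z => rfl)
  smul_add g f₁ f₂ := Subtype.ext (funext fun z => rfl)
  smul_one g := Subtype.ext (funext fun z => rfl)
  smul_mul g f₁ f₂ := Subtype.ext (funext fun z => rfl)

@[simp]
theorem smul_HolH_apply (g : GL(2, ℝ)⁺) (f : HolH) (z : ℍ) :
    ((g • f : HolH) : ℍ → ℂ) z = (f : ℍ → ℂ) (g⁻¹ • z) := rfl

/-- The field of meromorphic functions on the upper half plane. -/
abbrev MerH : Type := FractionRing HolH

instance instMulSemiringActionMerH : MulSemiringAction GL(2, ℝ)⁺ MerH :=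
  IsFractionRing.mulSemiringAction GL(2, ℝ)⁺ HolH MerH

instance instSMulDistribClassMerH : SMulDistribClass GL(2, ℝ)⁺ HolH MerH :=
  IsFractionRing.smulDistribClass GL(2, ℝ)⁺ HolH MerH

theorem smul_algebraMap_MerH (g : GL(2, ℝ)⁺) (f : HolH) :
    g • algebraMap HolH MerH f = algebraMap HolH MerH (g • f) := by
  rw [Algebra.algebraMap_eq_smul_one, Algebra.algebraMap_eq_smul_one, smul_distrib_smul, smul_one]

/-- `SL(2,ℤ) → GL(2,ℝ)⁺`. -/
def slToG : SL(2, ℤ) →* GL(2, ℝ)⁺ :=
  Matrix.SpecialLinearGroup.toGLPos.comp (Matrix.SpecialLinearGroup.map (Int.castRingHom ℝ))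

theorem slToG_smul (γ : SL(2, ℤ)) (z : ℍ) : slToG γ • z = γ • z := by
  rfl

/-- `RN K ⊆ HolH`. -/
def rnToHol (K : ℕ) : RN K →ₐ[ℂ] HolH :=
  Subalgebra.inclusion (fun _ hf => (hf : IsWH K _).mdiff)

@[simp]
theorem rnToHol_apply (K : ℕ) (f : RN K) (z : ℍ) :
    ((rnToHol K f : HolH) : ℍ → ℂ) z = (f : ℍ → ℂ) z := rfl

theorem rnToHol_injective (K : ℕ) : Function.Injective (rnToHol K) :=
  Subalgebra.inclusion_injective _

theorem rnToHol_smul (K : ℕ) (γ : SL(2, ℤ)) (f : RN K) :
    rnToHol K (γ • f) = slToG γ • rnToHol K f := by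
  apply Subtype.ext
  funext z
  show (f : ℍ → ℂ) (γ⁻¹ • z) = (f : ℍ → ℂ) ((slToG γ)⁻¹ • z)
  rw [← map_inv, slToG_smul]

theorem rnToMer_injective (K : ℕ) :
    Function.Injective ((algebraMap HolH MerH).comp (rnToHol K).toRingHom) :=
  (IsFractionRing.injective HolH MerH).comp (rnToHol_injective K)

/-- `L K → MerH`. -/
def lToMer (K : ℕ) : L K →+* MerH :=
  IsFractionRing.lift (rnToMer_injective K)

@[simp]
theorem lToMer_algebraMap (K : ℕ) (f : RN K) :
    lToMer K (algebraMap (RN K) (L K) f) = algebraMap HolH MerH (rnToHol K f) :=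
  IsFractionRing.lift_algebraMap (rnToMer_injective K) f

theorem lToMer_injective (K : ℕ) : Function.Injective (lToMer K) :=
  (lToMer K).injective

theorem lToMer_smul (K : ℕ) (γ : SL(2, ℤ)) (x : L K) :
    lToMer K (γ • x) = slToG γ • lToMer K x := by
  have h : (lToMer K).comp (MulSemiringAction.toRingHom SL(2, ℤ) (L K) γ)
      = (MulSemiringAction.toRingHom GL(2, ℝ)⁺ MerH (slToG γ)).comp (lToMer K) := by
    apply IsLocalization.ringHom_ext (nonZeroDivisors (RN K))
    ext f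
    show lToMer K (γ • algebraMap (RN K) (L K) f) = slToG γ • lToMer K (algebraMap (RN K) (L K) f)
    rw [smul_algebraMap_L, lToMer_algebraMap, lToMer_algebraMap, smul_algebraMap_MerH,
      rnToHol_smul]
  exact DFunLike.congr_fun h x

end Fermat.Agent.S29.H58
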