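import Mathlib
import Fermat.Agent.S29.MerH_helper58
import Fermat.Agent.S37.Conj_helper16
import Fermat.Agent.S24.Conj_helper23
import Fermat.Agent.S22.HeckeDecomp_helper56
import Fermat.Agent.S24.Cosets_helper35
import Fermat.Agent.S37.HeckeInputs_helper37
import Fermat.Prelude.Def_ModularCurve_HeckeOperator
import Fermat.Agent.S29.TransferDef_helper6

/-!
# S29 (HK): the Hecke correspondence on functions (helper58)

`mer K : FN K →+* MerH` is the meromorphic function on the upper half plane attached to an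
element of the function field `FN K = modularFunctionFieldBar K` (through any `PhiData`).

* `mer_alpha`, `mer_beta` : `α` is the identity on functions, `β` is `f ↦ f (ℓ z)`;
* `heckeNormA N ℓ y = Norm_α (β y)` and **(HK-M)** `mer_heckeNormA` :
  `mer N (Norm_α (β y)) = ∏ x, (repG ℓ x)⁻¹ • mer N y` (product over the `ℓ + 1` standard
  representatives `H56.repT ℓ x` of `T_ℓ`);
* **(HK-fun)** `heckeNormA_fun` : the same in cross-multiplied pointwise form;
* **(HK-root)** `cosetProd`, `cosetProd_root`, `cosetProd_multiplier` : coset products of roots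
  and their multipliers along `H06.IsDecomp`;
* **(HK-div)** `heckeDivBar_smul_apply` : `m • D = div f₀ ⟹ m • T_ℓ D = div (Norm_α (β f₀))`.
-/

set_option autoImplicit false

open Filter Topology UpperHalfPlane CongruenceSubgroup ModularForm ModularCurve
open scoped MatrixGroups ModularForm Manifold Real

noncomputable section

namespace Fermat.Agent.S29.H58

open Fermat.Agent.S24.H31 Fermat.Agent.S24 Fermat.Agent.S22
open P2MW.S_ModularForm_heckeT_slash_eq_self_of_mem_Gamma0.ModularForm.HeckeSlashInvariance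
open Matrix.SpecialLinearGroup AlgebraicCurve IntermediateField

/-- two ring homomorphisms out of the function field which agree on constants and on the
generators `j(q^d)`, `d ∣ K`, are equal -/
theorem ringHom_ext_FN {K : ℕ} [NeZero K] {W : Type*} [DivisionRing W] (σ τ : FN K →+* W)
    (hc : ∀ c : Kbar, σ (algebraMap Kbar (FN K) c) = τ (algebraMap Kbar (FN K) c))
    (hJ : ∀ (d : ℕ) [NeZero d] (hd : d ∣ K), σ (Jd K d hd) = τ (Jd K d hd)) : σ = τ := by
  have hmemF : ∀ x, x ∈ IntermediateField.adjoin Kbar (Set.range (H20.Jd K Kbar)) →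
      x ∈ modularFunctionFieldBar K := by
    intro x hx
    rw [H20.modularFunctionFieldBar_eq_adjoin]
    exact hx
  have key : ∀ x (_ : x ∈ IntermediateField.adjoin Kbar (Set.range (H20.Jd K Kbar)))
      (hx' : x ∈ modularFunctionFieldBar K), σ ⟨x, hx'⟩ = τ ⟨x, hx'⟩ := by
    intro x hx
    induction hx using IntermediateField.adjoin_induction with
    | mem y hy =>
      intro hx'
      obtain ⟨⟨d, hd⟩, rfl⟩ := hy
      haveI : NeZero d := ⟨fun h => NeZero.ne K (by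
        rw [h] at hd
        exact zero_dvd_iff.mp hd)⟩
      exact hJ d hd
    | algebraMap c =>
      intro hx'
      exact hc c
    | add x y hx hy ihx ihy =>
      intro hx'
      have hx1 := hmemF x hx
      have hy1 := hmemF y hy
      have : (⟨x + y, hx'⟩ : FN K) = ⟨x, hx1⟩ + ⟨y, hy1⟩ := rfl
      rw [this, map_add, map_add, ihx hx1, ihy hy1]
    | inv x hx ih =>
      intro hx'
      have hx1 := hmemF x hx
      have : (⟨x⁻¹, hx'⟩ : FN K) = (⟨x, hx1⟩ : FN K)⁻¹ := rfl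
      rw [this, map_inv₀, map_inv₀, ih hx1]
    | mul x y hx hy ihx ihy =>
      intro hx'
      have hx1 := hmemF x hx
      have hy1 := hmemF y hy
      have : (⟨x * y, hx'⟩ : FN K) = ⟨x, hx1⟩ * ⟨y, hy1⟩ := rfl
      rw [this, map_mul, map_mul, ihx hx1, ihy hy1]
  ext ⟨x, hx⟩
  have hx2 : x ∈ IntermediateField.adjoin Kbar (Set.range (H20.Jd K Kbar)) := by
    rw [← H20.modularFunctionFieldBar_eq_adjoin]
    exact hx
  exact key x hx2 hx

/-- the meromorphic function on `ℍ` attached to an element of the function field -/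
def mer (K : ℕ) [NeZero K] : FN K →+* MerH := (lToMer K).comp (H69.phiData K).Φ

theorem mer_apply (K : ℕ) [NeZero K] (y : FN K) : mer K y = lToMer K ((H69.phiData K).Φ y) := rfl

theorem mer_injective (K : ℕ) [NeZero K] : Function.Injective (mer K) := (mer K).injective

theorem lToMer_algebraMap_complex (K : ℕ) (c : ℂ) :
    lToMer K (algebraMap ℂ (L K) c) = algebraMap ℂ MerH c := by
  rw [IsScalarTower.algebraMap_apply ℂ (RN K) (L K), lToMer_algebraMap,
    IsScalarTower.algebraMap_apply ℂ HolH MerH]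
  congr 1

theorem mer_const (K : ℕ) [NeZero K] (c : Kbar) :
    mer K (algebraMap Kbar (FN K) c) = algebraMap ℂ MerH (iota c) := by
  rw [mer_apply, (H69.phiData K).map_const, lToMer_algebraMap_complex]

/-- `z ↦ j(d z)` as a holomorphic function -/
def jdHol (d : ℕ) : HolH := ⟨jdFun d, H23.mdiff_jdF d⟩

@[simp]
theorem jdHol_apply (d : ℕ) (z : ℍ) : ((jdHol d : HolH) : ℍ → ℂ) z = jdFun d z := rfl

theorem mer_Jd (K : ℕ) [NeZero K] (d : ℕ) [NeZero d] (hd : d ∣ K) :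
    mer K (Jd K d hd) = algebraMap HolH MerH (jdHol d) := by
  obtain ⟨f, hf, hΦ⟩ := (H69.phiData K).map_Jd d hd
  rw [mer_apply, hΦ, lToMer_algebraMap]
  congr 1
  apply Subtype.ext
  funext z
  show (f : ℍ → ℂ) z = jdFun d z
  rw [hf]

theorem smul_algebraMap_complex_MerH (g : GL(2, ℝ)⁺) (c : ℂ) :
    g • algebraMap ℂ MerH c = algebraMap ℂ MerH c := by
  rw [IsScalarTower.algebraMap_apply ℂ HolH MerH, smul_algebraMap_MerH]
  congr 1

/-- `Γ₀(K)`-invariance of the function of an element of `FN K` -/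
theorem smul_mer_of_mem_Gamma0 (K : ℕ) [NeZero K] {γ : SL(2, ℤ)} (hγ : γ ∈ Gamma0 K) (y : FN K) :
    slToG γ • mer K y = mer K y := by
  rw [mer_apply, ← lToMer_smul, (H69.phiData K).inv γ hγ]

/-! ### Representatives, generator identities for `α` and `β` -/
section



/-- the standard representatives of `T_ℓ` as elements of `GL(2,ℝ)⁺` -/
def repG (ℓ : ℕ) (x : Option (Fin ℓ)) : GL(2, ℝ)⁺ :=
  ⟨H56.repT ℓ x, by
    rw [Matrix.mem_glpos]
    cases x with
    | none => exact ModularForm.det_heckeDiagMatrix_pos ℓ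
    | some j => exact ModularForm.det_heckeMatrix_pos ℓ j⟩

@[simp]
theorem coe_repG (ℓ : ℕ) (x : Option (Fin ℓ)) : ((repG ℓ x : GL(2, ℝ)⁺) : GL (Fin 2) ℝ) = H56.repT ℓ x :=
  rfl

theorem repG_smul (ℓ : ℕ) (x : Option (Fin ℓ)) (z : ℍ) : repG ℓ x • z = H56.repT ℓ x • z := rfl

theorem coe_repG_none_smul {ℓ : ℕ} (hℓ : ℓ ≠ 0) (z : ℍ) :
    ((repG ℓ none • z : ℍ) : ℂ) = (ℓ : ℂ) * (z : ℂ) :=
  ModularForm.coe_heckeDiagMatrix_smul hℓ z

theorem coe_repG_some_smul {ℓ : ℕ} (hℓ : ℓ ≠ 0) (j : Fin ℓ) (z : ℍ) :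
    ((repG ℓ (some j) • z : ℍ) : ℂ) = ((z : ℂ) + (j : ℕ)) / ℓ :=
  ModularForm.coe_heckeMatrix_smul hℓ j z

theorem coeffEmb_qExpand (n : ℕ) [NeZero n] (x : LaurentSeries ℚ) :
    coeffEmb Kbar (qExpand ℚ n x) = qExpand Kbar n (coeffEmb Kbar x) := by
  ext k
  by_cases hk : (n : ℤ) ∣ k
  · obtain ⟨m, rfl⟩ := hk
    rw [coeffEmb_coeff, qExpand_coeff_mul, qExpand_coeff_mul, coeffEmb_coeff]
  · rw [coeffEmb_coeff, qExpand_coeff_of_not_dvd n _ hk, qExpand_coeff_of_not_dvd n _ hk,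
      map_zero]

variable (N ℓ : ℕ) [NeZero N] [NeZero ℓ]

theorem alpha_Jd (d : ℕ) [NeZero d] (hd : d ∣ N) :
    heckeAlphaBar Kbar N ℓ (Jd N d hd) = Jd (N * ℓ) d (hd.mul_right ℓ) :=
  Subtype.ext (by rw [coe_heckeAlphaBar]; rfl)

theorem beta_Jd (d : ℕ) [NeZero d] (hd : d ∣ N) :
    heckeBetaBar Kbar N ℓ (Jd N d hd) =
      Jd (N * ℓ) (ℓ * d) (by rw [mul_comm N ℓ]; exact mul_dvd_mul_left ℓ hd) :=
  Subtype.ext (by
    show qExpand Kbar ℓ (coeffEmb Kbar (qExpand ℚ d jq)) = coeffEmb Kbar (qExpand ℚ (ℓ * d) jq)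
    rw [← coeffEmb_qExpand, qExpand_qExpand])

/-- (i) `α` is the identity on functions -/
theorem mer_alpha (y : FN N) : mer (N * ℓ) (heckeAlphaBar Kbar N ℓ y) = mer N y := by
  have h : (mer (N * ℓ)).comp (heckeAlphaBar Kbar N ℓ).toRingHom = mer N := by
    apply ringHom_ext_FN
    · intro c
      show mer (N * ℓ) (heckeAlphaBar Kbar N ℓ (algebraMap Kbar (FN N) c)) = _
      rw [AlgHom.commutes, mer_const, mer_const]
    · intro d _ hd
      show mer (N * ℓ) (heckeAlphaBar Kbar N ℓ (Jd N d hd)) = _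
      rw [alpha_Jd, mer_Jd, mer_Jd]
  exact DFunLike.congr_fun h y

/-- (ii) `β` is `f ↦ f (ℓ z)` on functions -/
theorem mer_beta (y : FN N) :
    mer (N * ℓ) (heckeBetaBar Kbar N ℓ y) = (repG ℓ none)⁻¹ • mer N y := by
  have h : (mer (N * ℓ)).comp (heckeBetaBar Kbar N ℓ).toRingHom =
      (MulSemiringAction.toRingHom GL(2, ℝ)⁺ MerH (repG ℓ none)⁻¹).comp (mer N) := by
    apply ringHom_ext_FN
    · intro c
      show mer (N * ℓ) (heckeBetaBar Kbar N ℓ (algebraMap Kbar (FN N) c)) =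
        (repG ℓ none)⁻¹ • mer N (algebraMap Kbar (FN N) c)
      rw [AlgHom.commutes, mer_const, mer_const, smul_algebraMap_complex_MerH]
    · intro d _ hd
      show mer (N * ℓ) (heckeBetaBar Kbar N ℓ (Jd N d hd)) = (repG ℓ none)⁻¹ • mer N (Jd N d hd)
      rw [beta_Jd, mer_Jd, mer_Jd, smul_algebraMap_MerH]
      congr 1
      apply Subtype.ext
      funext z
      show jdFun (ℓ * d) z = jdFun d ((repG ℓ none)⁻¹⁻¹ • z)
      rw [inv_inv]
      unfold jdFun
      rw [coe_repG_none_smul (NeZero.ne ℓ)]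
      push_cast
      congr 2
      ring
  exact DFunLike.congr_fun h y

end


/-! ### The `ℓ + 1` embeddings of `FN (N ℓ)` over `FN N` -/
section



theorem coe_slToG (γ : SL(2, ℤ)) : ((slToG γ : GL(2, ℝ)⁺) : GL (Fin 2) ℝ) = mapGL ℝ γ := by
  rfl

/-- the matrix `[[s, s u + t], [N, N u + ℓ]]` -/
def mfamSome (N ℓ : ℕ) (s t : ℤ) (h : s * ℓ - t * N = 1) (u : ℕ) : SL(2, ℤ) :=
  ⟨!![s, s * u + t; (N : ℤ), N * u + ℓ], by
    rw [Matrix.det_fin_two_of]
    linear_combination h⟩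

/-- the coset representatives of `Γ₀(Nℓ)` in `Γ₀(N)` (inverses) -/
def mfam (N ℓ : ℕ) (s t : ℤ) (h : s * ℓ - t * N = 1) (x : Option (Fin ℓ)) : SL(2, ℤ) :=
  x.elim 1 fun u => mfamSome N ℓ s t h u

theorem mfam_one_zero (N ℓ : ℕ) (s t : ℤ) (h : s * ℓ - t * N = 1) (x : Option (Fin ℓ)) :
    mfam N ℓ s t h x 1 0 = x.elim 0 fun _ => (N : ℤ) := by
  cases x with
  | none => rfl
  | some u => rfl

theorem mfam_one_one (N ℓ : ℕ) (s t : ℤ) (h : s * ℓ - t * N = 1) (x : Option (Fin ℓ)) :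
    mfam N ℓ s t h x 1 1 = x.elim 1 fun u => (N : ℤ) * (u : ℕ) + ℓ := by
  cases x with
  | none => rfl
  | some u => rfl

theorem mfam_mem (N ℓ : ℕ) (s t : ℤ) (h : s * ℓ - t * N = 1) (x : Option (Fin ℓ)) :
    mfam N ℓ s t h x ∈ Gamma0 N := by
  rw [Gamma0_mem, mfam_one_zero]
  cases x with
  | none => simp
  | some u => simp

theorem mfam_decomp (N ℓ : ℕ) (hℓ : ℓ ≠ 0) (s t : ℤ) (h : s * ℓ - t * N = 1) (x : Option (Fin ℓ)) :
    ∃ g' : SL(2, ℤ), g' ∈ Gamma0 N ∧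
      repG ℓ none * slToG (mfam N ℓ s t h x) = slToG g' * repG ℓ x := by
  cases x with
  | none =>
    refine ⟨1, one_mem _, ?_⟩
    show repG ℓ none * slToG 1 = slToG 1 * repG ℓ none
    rw [map_one, mul_one, one_mul]
  | some u =>
    obtain ⟨g', hg', hmul⟩ := heckeDiagMatrix_mul_of_eq hℓ (mfamSome N ℓ s t h u) (u : ℕ) 1
      (by show (N : ℤ) * (u : ℕ) + ℓ = (N : ℤ) * ((u : ℕ) : ℤ) + ℓ * 1; ring)
    refine ⟨g', ?_, ?_⟩
    · rw [Gamma0_mem, hg']
      show (((N : ℤ) : ℤ) : ZMod N) = 0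
      simp
    · apply Subtype.ext
      exact hmul

theorem smul_inv_of_mem_Gamma0 (K : ℕ) [NeZero K] {γ : SL(2, ℤ)} (hγ : γ ∈ Gamma0 K) (y : FN K) :
    (slToG γ)⁻¹ • mer K y = mer K y := by
  rw [← map_inv]
  exact smul_mer_of_mem_Gamma0 K (inv_mem hγ) y

variable (N ℓ : ℕ) [NeZero N] [NeZero ℓ]

/-- the `ℓ + 1` embeddings of `FN (N ℓ)` into `MerH` over `FN N` (along `α`) -/
def sfam (s t : ℤ) (h : s * ℓ - t * N = 1) (x : Option (Fin ℓ)) : FN (N * ℓ) →+* MerH :=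
  (MulSemiringAction.toRingHom GL(2, ℝ)⁺ MerH (slToG (mfam N ℓ s t h x))⁻¹).comp (mer (N * ℓ))

theorem sfam_apply (s t : ℤ) (h : s * ℓ - t * N = 1) (x : Option (Fin ℓ)) (f : FN (N * ℓ)) :
    sfam N ℓ s t h x f = (slToG (mfam N ℓ s t h x))⁻¹ • mer (N * ℓ) f := rfl

theorem sfam_alpha (s t : ℤ) (h : s * ℓ - t * N = 1) (x : Option (Fin ℓ)) (a : FN N) :
    sfam N ℓ s t h x (heckeAlphaBar Kbar N ℓ a) = mer N a := by
  rw [sfam_apply, mer_alpha, smul_inv_of_mem_Gamma0 N (mfam_mem N ℓ s t h x)]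

theorem sfam_beta (s t : ℤ) (h : s * ℓ - t * N = 1) (x : Option (Fin ℓ)) (y : FN N) :
    sfam N ℓ s t h x (heckeBetaBar Kbar N ℓ y) = (repG ℓ x)⁻¹ • mer N y := by
  obtain ⟨g', hg', hmul⟩ := mfam_decomp N ℓ (NeZero.ne ℓ) s t h x
  rw [sfam_apply, mer_beta, ← mul_smul, ← mul_inv_rev, hmul, mul_inv_rev, mul_smul,
    smul_inv_of_mem_Gamma0 N hg']

end


/-! ### Injectivity of the family and the degree of `α` -/
section



theorem SL_mul_inv_one_zero (A B : SL(2, ℤ)) :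
    (A * B⁻¹) 1 0 = A 1 0 * B 1 1 - A 1 1 * B 1 0 := by
  rw [Matrix.SpecialLinearGroup.coe_mul, Matrix.SpecialLinearGroup.coe_inv,
    Matrix.adjugate_fin_two, Matrix.mul_apply, Fin.sum_univ_two]
  simp
  ring

variable (N ℓ : ℕ) [NeZero N] [NeZero ℓ]

theorem mer_JdK (K : ℕ) [NeZero K] :
    (H69.phiData K).Φ (Jd K K dvd_rfl) = algebraMap (RN K) (L K) (H23.jd K K dvd_rfl) := by
  obtain ⟨f, hf, hΦ⟩ := (H69.phiData K).map_Jd K dvd_rfl
  rw [hΦ]
  congr 1
  exact Subtype.ext hf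

theorem sfam_injective (hℓ : ℓ.Prime) (hℓN : ¬ ℓ ∣ N) (s t : ℤ) (h : s * ℓ - t * N = 1) :
    Function.Injective (sfam N ℓ s t h) := by
  intro x x' hxx'
  have h1 := DFunLike.congr_fun hxx' (Jd (N * ℓ) (N * ℓ) dvd_rfl)
  rw [sfam_apply, sfam_apply, mer_apply, mer_JdK, ← map_inv, ← map_inv, ← lToMer_smul,
    ← lToMer_smul] at h1
  have h2 := lToMer_injective (N * ℓ) h1
  rw [H23.smul_algebraMap_jd_self_eq_smul_iff, QuotientGroup.eq, inv_inv, Gamma0_mem,
    SL_mul_inv_one_zero, mfam_one_zero, mfam_one_one, mfam_one_zero, mfam_one_one,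
    ZMod.intCast_zmod_eq_zero_iff_dvd] at h2
  have hN0 : (N : ℤ) ≠ 0 := by exact_mod_cast NeZero.ne N
  have hℓ1 : ¬ ((ℓ : ℤ) ∣ 1) := by
    intro hd
    have := Int.natCast_dvd_natCast.mp (by simpa using hd : ((ℓ : ℕ) : ℤ) ∣ ((1 : ℕ) : ℤ))
    exact hℓ.one_lt.ne' (Nat.dvd_one.mp this)
  cases x with
  | none =>
    cases x' with
    | none => rfl
    | some v =>
      exfalso
      simp only [Option.elim_none, Option.elim_some] at h2
      push_cast at h2
      have h3 : (N : ℤ) * ℓ ∣ (N : ℤ) * (-1) := by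
        convert h2 using 1; ring
      have h4 := (mul_dvd_mul_iff_left hN0).mp h3
      exact hℓ1 ((dvd_neg).mp h4)
  | some u =>
    cases x' with
    | none =>
      exfalso
      simp only [Option.elim_none, Option.elim_some] at h2
      push_cast at h2
      have h3 : (N : ℤ) * ℓ ∣ (N : ℤ) * 1 := by
        convert h2 using 1; ring
      exact hℓ1 ((mul_dvd_mul_iff_left hN0).mp h3)
    | some v =>
      simp only [Option.elim_none, Option.elim_some] at h2
      push_cast at h2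
      have h3 : (N : ℤ) * ℓ ∣ (N : ℤ) * ((N : ℤ) * (((v : ℕ) : ℤ) - ((u : ℕ) : ℤ))) := by
        convert h2 using 1; ring
      have h4 := (mul_dvd_mul_iff_left hN0).mp h3
      have hcop : IsCoprime (ℓ : ℤ) (N : ℤ) :=
        Nat.isCoprime_iff_coprime.mpr ((Nat.Prime.coprime_iff_not_dvd hℓ).mpr hℓN)
      have h5 : (ℓ : ℤ) ∣ ((v : ℕ) : ℤ) - ((u : ℕ) : ℤ) := hcop.dvd_of_dvd_mul_left h4
      have hu := u.isLt
      have hv := v.isLt
      have h6 : ((v : ℕ) : ℤ) - ((u : ℕ) : ℤ) = 0 := by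
        apply Int.eq_zero_of_abs_lt_dvd h5
        rw [abs_lt]
        constructor <;> omega
      congr 1
      apply Fin.ext
      omega

/-- degree of `α`: `[F_{Nℓ} : F_N] = ℓ + 1` -/
theorem finrank_along_alpha (hℓ : ℓ.Prime) (hℓN : ¬ ℓ ∣ N) :
    letI := algebraAlong (heckeAlphaBar Kbar N ℓ)
    Module.finrank (FN N) (FN (N * ℓ)) = ℓ + 1 := by
  letI := algebraAlong (heckeAlphaBar Kbar N ℓ)
  have hle : modularFunctionFieldBar N ≤ modularFunctionFieldBar (N * ℓ) :=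
    S18.H16.bar_mono (dvd_mul_right N ℓ)
  have hrel : relfinrank (modularFunctionFieldBar N) (modularFunctionFieldBar (N * ℓ)) = ℓ + 1 := by
    have h1 := S18.H16.relfinrank_bar_mul_psi (N := N) (N' := N * ℓ) (dvd_mul_right N ℓ)
    rw [mul_comm N ℓ, H35.dedekindPsi_prime_mul_of_not_dvd hℓ (NeZero.ne N) hℓN] at h1
    exact Nat.eq_of_mul_eq_mul_right (S18.H16.dedekindPsi_pos' N) (by rw [mul_comm N ℓ]; exact h1)
  rw [← hrel, relfinrank_eq_finrank_of_le hle]
  let i : ↥(modularFunctionFieldBar N) ≃+* ↥(modularFunctionFieldBar N) := RingEquiv.refl _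
  let j : ↥(modularFunctionFieldBar (N * ℓ)) ≃+* ↥(extendScalars hle) :=
    { toFun := fun z => ⟨z.1, (mem_extendScalars hle).mpr z.2⟩
      invFun := fun z => ⟨z.1, (mem_extendScalars hle).mp z.2⟩
      left_inv := fun _ => rfl
      right_inv := fun _ => rfl
      map_mul' := fun _ _ => rfl
      map_add' := fun _ _ => rfl }
  refine Algebra.finrank_eq_of_equiv_equiv i j ?_
  ext a
  rfl

end


/-! ### (HK-M) and (HK-fun) -/
section



variable (N ℓ : ℕ) [NeZero N] [NeZero ℓ]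

/-- `Norm_α (β y)`: the norm along `α` of the pullback along `β`. -/
def heckeNormA (y : FN N) : FN N :=
  letI := algebraAlong (heckeAlphaBar Kbar N ℓ)
  Algebra.norm (FN N) (heckeBetaBar Kbar N ℓ y)

/-- **(HK-M)** the function of `Norm_α (β y)` is the product of the translates of the function
of `y` by the `ℓ + 1` standard representatives of `T_ℓ`. -/
theorem mer_heckeNormA (hℓ : ℓ.Prime) (hℓN : ¬ ℓ ∣ N) (y : FN N) :
    mer N (heckeNormA N ℓ y) = ∏ x : Option (Fin ℓ), (repG ℓ x)⁻¹ • mer N y := by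
  letI := algebraAlong (heckeAlphaBar Kbar N ℓ)
  obtain ⟨s, t, h⟩ : ∃ s t : ℤ, s * ℓ - t * N = 1 := by
    have hcop : IsCoprime (ℓ : ℤ) (N : ℤ) :=
      Nat.isCoprime_iff_coprime.mpr ((Nat.Prime.coprime_iff_not_dvd hℓ).mpr hℓN)
    obtain ⟨a, b, hab⟩ := hcop
    exact ⟨a, -b, by linear_combination hab⟩
  haveI : FiniteDimensional (FN N) (FN (N * ℓ)) :=
    Module.finite_of_finrank_pos (by rw [finrank_along_alpha N ℓ hℓ hℓN]; omega)
  have key := S37.H16.norm_eq_prod_of_ringHoms (mer N) (sfam N ℓ s t h)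
    (fun x a => sfam_alpha N ℓ s t h x a) (sfam_injective N ℓ hℓ hℓN s t h)
    (by rw [finrank_along_alpha N ℓ hℓ hℓN]; simp) (heckeBetaBar Kbar N ℓ y)
  show mer N (Algebra.norm (FN N) (heckeBetaBar Kbar N ℓ y)) = _
  rw [key]
  exact Finset.prod_congr rfl fun x _ => sfam_beta N ℓ s t h x y

/-- every `PhiData` gives the same function -/
theorem lToMer_comp_phi (P : PhiData N) : (lToMer N).comp P.Φ = mer N := by
  apply ringHom_ext_FN
  · intro c
    show lToMer N (P.Φ (algebraMap Kbar (FN N) c)) = mer N _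
    rw [P.map_const, lToMer_algebraMap_complex, mer_const]
  · intro d _ hd
    show lToMer N (P.Φ (Jd N d hd)) = mer N _
    obtain ⟨f, hf, hΦ⟩ := P.map_Jd d hd
    rw [hΦ, lToMer_algebraMap, mer_Jd]
    congr 1
    apply Subtype.ext
    funext z
    show (f : ℍ → ℂ) z = jdFun d z
    rw [hf]

theorem mer_of_frac (P : PhiData N) (y : FN N) (a b : RN N)
    (hy : P.Φ y = algebraMap (RN N) (L N) a / algebraMap (RN N) (L N) b) :
    mer N y = algebraMap HolH MerH (rnToHol N a) / algebraMap HolH MerH (rnToHol N b) := by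
  rw [← lToMer_comp_phi N P, RingHom.comp_apply, hy, map_div₀, lToMer_algebraMap,
    lToMer_algebraMap]

omit [NeZero N] [NeZero ℓ] in
theorem smul_frac (g : GL(2, ℝ)⁺) (p q : HolH) :
    g • (algebraMap HolH MerH p / algebraMap HolH MerH q) =
      algebraMap HolH MerH (g • p) / algebraMap HolH MerH (g • q) := by
  rw [← smul_algebraMap_MerH, ← smul_algebraMap_MerH]
  exact map_div₀ (MulSemiringAction.toRingHom GL(2, ℝ)⁺ MerH g) _ _

omit [NeZero N] [NeZero ℓ] in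
theorem HolH_prod_apply {ι : Type*} (s : Finset ι) (f : ι → HolH) (z : ℍ) :
    ((∏ i ∈ s, f i : HolH) : ℍ → ℂ) z = ∏ i ∈ s, (f i : ℍ → ℂ) z := by
  classical
  induction s using Finset.induction_on with
  | empty => simp
  | insert i s hi ih =>
    rw [Finset.prod_insert hi, Finset.prod_insert hi, ← ih]
    rfl

/-- **(HK-fun)** function form of (HK-M). -/
theorem heckeNormA_fun (hℓ : ℓ.Prime) (hℓN : ¬ ℓ ∣ N) (P : PhiData N) (y : FN N)
    {a b a1 b1 : RN N} (hb : b ≠ 0) (hb1 : b1 ≠ 0)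
    (hy : P.Φ y = algebraMap (RN N) (L N) a / algebraMap (RN N) (L N) b)
    (hy1 : P.Φ (heckeNormA N ℓ y) = algebraMap (RN N) (L N) a1 / algebraMap (RN N) (L N) b1)
    (z : ℍ) :
    (a1 : ℍ → ℂ) z * ∏ x : Option (Fin ℓ), (b : ℍ → ℂ) (H56.repT ℓ x • z) =
      (b1 : ℍ → ℂ) z * ∏ x : Option (Fin ℓ), (a : ℍ → ℂ) (H56.repT ℓ x • z) := by
  have h1 := mer_heckeNormA N ℓ hℓ hℓN y
  rw [mer_of_frac N P _ a1 b1 hy1, mer_of_frac N P y a b hy] at h1
  simp_rw [smul_frac] at h1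
  rw [Finset.prod_div_distrib, ← map_prod, ← map_prod] at h1
  have hinj := IsFractionRing.injective HolH MerH
  have hb1' : algebraMap HolH MerH (rnToHol N b1) ≠ 0 := by
    rw [Ne, map_eq_zero_iff _ hinj, map_eq_zero_iff _ (rnToHol_injective N)]
    exact hb1
  have hB' : algebraMap HolH MerH (∏ x : Option (Fin ℓ), (repG ℓ x)⁻¹ • rnToHol N b) ≠ 0 := by
    rw [Ne, map_eq_zero_iff _ hinj, Finset.prod_eq_zero_iff]
    rintro ⟨x, -, hx⟩
    rw [smul_eq_zero_iff_eq, map_eq_zero_iff _ (rnToHol_injective N)] at hx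
    exact hb hx
  rw [div_eq_div_iff hb1' hB', ← map_mul, ← map_mul] at h1
  have h2 := hinj h1
  have h3 := congrArg (fun f : HolH => (f : ℍ → ℂ) z) h2
  have e1 : ∀ (f g : HolH), ((f * g : HolH) : ℍ → ℂ) z = (f : ℍ → ℂ) z * (g : ℍ → ℂ) z :=
    fun _ _ => rfl
  simp only [e1, HolH_prod_apply, smul_HolH_apply, inv_inv, rnToHol_apply, repG_smul] at h3
  rw [h3, mul_comm]

end


/-! ### (HK-root): coset products -/
section



/-- the product of the translates of a function by the standard representatives of `T_ℓ` -/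
def cosetProd (ℓ : ℕ) (f : ℍ → ℂ) (z : ℍ) : ℂ := ∏ x : Option (Fin ℓ), f (H56.repT ℓ x • z)

theorem cosetProd_apply (ℓ : ℕ) (f : ℍ → ℂ) (z : ℍ) :
    cosetProd ℓ f z = ∏ x : Option (Fin ℓ), f (H56.repT ℓ x • z) := rfl

theorem mdiff_cosetProd (ℓ : ℕ) {f : ℍ → ℂ} (hf : MDiff f) : MDiff (cosetProd ℓ f) := by
  have h : cosetProd ℓ f =
      ((∏ x : Option (Fin ℓ), (repG ℓ x)⁻¹ • (⟨f, hf⟩ : HolH) : HolH) : ℍ → ℂ) := by
    funext z
    rw [HolH_prod_apply]
    simp only [smul_HolH_apply, inv_inv, repG_smul]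
    rfl
  rw [h]
  exact (∏ x : Option (Fin ℓ), (repG ℓ x)⁻¹ • (⟨f, hf⟩ : HolH) : HolH).2

theorem cosetProd_ne_zero (ℓ : ℕ) {f : ℍ → ℂ} (hf : MDiff f) (hf0 : f ≠ 0) :
    cosetProd ℓ f ≠ 0 := by
  have h : cosetProd ℓ f =
      ((∏ x : Option (Fin ℓ), (repG ℓ x)⁻¹ • (⟨f, hf⟩ : HolH) : HolH) : ℍ → ℂ) := by
    funext z
    rw [HolH_prod_apply]
    simp only [smul_HolH_apply, inv_inv, repG_smul]
    rfl
  rw [h]
  intro h0
  have h1 : (∏ x : Option (Fin ℓ), (repG ℓ x)⁻¹ • (⟨f, hf⟩ : HolH) : HolH) = 0 := Subtype.ext h0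
  rw [Finset.prod_eq_zero_iff] at h1
  obtain ⟨x, -, hx⟩ := h1
  rw [smul_eq_zero_iff_eq] at hx
  exact hf0 (congrArg Subtype.val hx)

theorem cosetProd_mul (ℓ : ℕ) (f g : ℍ → ℂ) (z : ℍ) :
    cosetProd ℓ (fun w => f w * g w) z = cosetProd ℓ f z * cosetProd ℓ g z := by
  simp only [cosetProd_apply, Finset.prod_mul_distrib]

theorem cosetProd_pow (ℓ : ℕ) (f : ℍ → ℂ) (n : ℕ) (z : ℍ) :
    cosetProd ℓ (fun w => f w ^ n) z = cosetProd ℓ f z ^ n := by
  simp only [cosetProd_apply, Finset.prod_pow]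

/-- **(HK-root)**, powers: the coset product of an `m`-th root is an `m`-th root of the coset
product. -/
theorem cosetProd_root {ℓ m : ℕ} {a b r : ℍ → ℂ}
    (hpow : ∀ z, r z ^ m = a z * b z ^ (m - 1)) (z : ℍ) :
    cosetProd ℓ r z ^ m = cosetProd ℓ a z * cosetProd ℓ b z ^ (m - 1) := by
  rw [← cosetProd_pow, ← cosetProd_pow, ← cosetProd_mul]
  simp only [cosetProd_apply]
  exact Finset.prod_congr rfl fun x _ => hpow _

/-- **(HK-root)**, multiplier: the coset product of a function with multiplier `c` on `Γ₀(N)`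
has the transferred multiplier `∏ x, c (g' x)`. -/
theorem cosetProd_multiplier {N ℓ : ℕ} {b r : ℍ → ℂ} {c : Gamma0 N → ℂ}
    (hmul : ∀ (γ : Gamma0 N) (z : ℍ), r ((γ : SL(2, ℤ)) • z) * b z = c γ * (r z * b ((γ : SL(2, ℤ)) • z)))
    (γ : Gamma0 N) (σ : Equiv.Perm (Option (Fin ℓ))) (g' : Option (Fin ℓ) → Gamma0 N)
    (hd : H06.IsDecomp N ℓ γ σ g') (z : ℍ) :
    cosetProd ℓ r ((γ : SL(2, ℤ)) • z) * cosetProd ℓ b z =
      (∏ x, c (g' x)) * (cosetProd ℓ r z * cosetProd ℓ b ((γ : SL(2, ℤ)) • z)) := by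
  have hpt : ∀ x : Option (Fin ℓ), H56.repT ℓ x • ((γ : SL(2, ℤ)) • z) =
      ((g' x : Gamma0 N) : SL(2, ℤ)) • (H56.repT ℓ (σ x) • z) := by
    intro x
    have e := congrArg (fun M : GL (Fin 2) ℝ => M • z) (hd x)
    simp only [mul_smul] at e
    exact e
  simp only [cosetProd_apply]
  rw [← Equiv.prod_comp σ (fun y => b (H56.repT ℓ y • z)),
    ← Equiv.prod_comp σ (fun y => r (H56.repT ℓ y • z)), ← Finset.prod_mul_distrib,
    ← Finset.prod_mul_distrib, ← Finset.prod_mul_distrib]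
  refine Finset.prod_congr rfl fun x _ => ?_
  rw [hpt x]
  exact hmul (g' x) _

end


/-! ### (HK-div) -/
section



variable (N ℓ : ℕ) [NeZero N] [NeZero ℓ]

theorem heckeNormA_ne_zero {y : FN N} (hy : y ≠ 0) : heckeNormA N ℓ y ≠ 0 := by
  letI := algebraAlong (heckeAlphaBar Kbar N ℓ)
  haveI : Module.Finite (FN N) (FN (N * ℓ)) :=
    S37.H37.finiteAlong_FN N (N * ℓ) (heckeAlphaBar Kbar N ℓ)
  show Algebra.norm (FN N) (heckeBetaBar Kbar N ℓ y) ≠ 0
  rw [Algebra.norm_ne_zero_iff]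
  exact (map_ne_zero_iff _ (heckeBetaBar Kbar N ℓ).injective).mpr hy

/-- **(HK-div)** if `m • D = div f₀` then `m • T_ℓ D = div (Norm_α (β f₀))`. -/
theorem heckeDivBar_smul_apply
    (hα : HeckeAlphaBarIntegral Kbar N ℓ) (hβ : HeckeBetaBarIntegral Kbar N ℓ)
    [HasPrincipalDivisors Kbar (modularFunctionFieldBar (N * ℓ))] {m : ℕ}
    (D : Divisor Kbar (modularFunctionFieldBar N)) (f₀ : FN N) (hf₀ : f₀ ≠ 0)
    (hD : ∀ v : Place Kbar (modularFunctionFieldBar N), (m • D) v = v.ord f₀)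
    (v : Place Kbar (modularFunctionFieldBar N)) :
    (m • heckeDivBar hα hβ D) v = v.ord (heckeNormA N ℓ f₀) := by
  rw [← map_nsmul]
  have hfα := S37.H37.finiteAlong_FN N (N * ℓ) (heckeAlphaBar Kbar N ℓ)
  have hN := S37.H37.normFormulaAlong (heckeAlphaBar Kbar N ℓ) hfα (S18.H98.deg_eq_one N)
    (S18.H98.deg_eq_one (N * ℓ))
  have h1 : ∀ w : Place Kbar (modularFunctionFieldBar (N * ℓ)),
      (Divisor.pullbackAlong (heckeBetaBar Kbar N ℓ) hβ (m • D)) w =
        w.ord (heckeBetaBar Kbar N ℓ f₀) := by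
    intro w
    letI := algebraAlong (heckeBetaBar Kbar N ℓ)
    haveI := isScalarTower_along (heckeBetaBar Kbar N ℓ)
    haveI := isIntegral_along (heckeBetaBar Kbar N ℓ) hβ
    exact Divisor.pullback_apply_eq_ord hD w
  have hβ0 : heckeBetaBar Kbar N ℓ f₀ ≠ 0 :=
    (map_ne_zero_iff _ (heckeBetaBar Kbar N ℓ).injective).mpr hf₀
  exact hN (heckeBetaBar Kbar N ℓ f₀) hβ0 _ h1 v

end

end Fermat.Agent.S29.H58
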