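import Mathlib

/-!
# Eisenstein series with a unitary character of `Γ₀(N)` (node (EIS) of the S29 tree)

`eisChar N k χ z = (1/2) ∑_v (χ γ_v)⁻¹ (v 0 * z + v 1)^(-k)`, the sum over the bottom rows `v`
of `Γ₀(N)`, `γ_v` any element with bottom row `v`.
-/

set_option autoImplicit false

open CongruenceSubgroup UpperHalfPlane ModularForm EisensteinSeries Filter Topology Matrix
open scoped MatrixGroups ModularForm Manifold

noncomputable section

namespace Fermat.Agent.S29.H39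

variable {N : ℕ}

/-- The set of bottom rows of `Γ₀(N)`. -/
def botSet (N : ℕ) : Set (Fin 2 → ℤ) := {v | IsCoprime (v 0) (v 1) ∧ (N : ℤ) ∣ v 0}

/-- The bottom row of an element of `Γ₀(N)`. -/
def botRow (γ : Gamma0 N) : botSet N :=
  ⟨((γ : SL(2, ℤ)) : Matrix (Fin 2) (Fin 2) ℤ) 1, ModularGroup.bottom_row_coprime _, by
    have h := Gamma0_mem.mp γ.2
    exact (ZMod.intCast_zmod_eq_zero_iff_dvd _ _).mp h⟩

@[simp] theorem botRow_val (γ : Gamma0 N) :
    (botRow γ).1 = ((γ : SL(2, ℤ)) : Matrix (Fin 2) (Fin 2) ℤ) 1 := rfl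

theorem exists_lift (v : botSet N) : ∃ γ : Gamma0 N, botRow γ = v := by
  obtain ⟨g, -, hg⟩ := ModularGroup.bottom_row_surj (R := ℤ) (show v.1 ∈ {cd | IsCoprime (cd 0) (cd 1)} from v.2.1)
  have hg0 : ((g : SL(2, ℤ)) : Matrix (Fin 2) (Fin 2) ℤ) 1 = v.1 := hg
  refine ⟨⟨g, ?_⟩, Subtype.ext hg0⟩
  rw [Gamma0_mem]
  have : ((g : SL(2, ℤ)) : Matrix (Fin 2) (Fin 2) ℤ) 1 0 = v.1 0 := congrFun hg0 0
  rw [this]
  exact (ZMod.intCast_zmod_eq_zero_iff_dvd _ _).mpr v.2.2

/-- A chosen element of `Γ₀(N)` with a given bottom row. -/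
def lift (v : botSet N) : Gamma0 N := Classical.choose (exists_lift v)

@[simp] theorem botRow_lift (v : botSet N) : botRow (lift v) = v := Classical.choose_spec (exists_lift v)

theorem lift_row (v : botSet N) : ((lift v : SL(2, ℤ)) : Matrix (Fin 2) (Fin 2) ℤ) 1 = v.1 :=
  congrArg Subtype.val (botRow_lift v)

theorem botRow_mul (γ δ : Gamma0 N) :
    (botRow (γ * δ)).1 = (botRow γ).1 ᵥ* ((δ : SL(2, ℤ)) : Matrix (Fin 2) (Fin 2) ℤ) := by
  simp only [botRow_val]
  show ((((γ : SL(2, ℤ)) * (δ : SL(2, ℤ)) : SL(2, ℤ)) : Matrix (Fin 2) (Fin 2) ℤ)) 1 = _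
  rw [Matrix.SpecialLinearGroup.coe_mul]
  rfl

/-- The hypotheses on the character. -/
structure IsEisChar (χ : Gamma0 N →* ℂˣ) : Prop where
  norm_eq : ∀ γ, ‖(χ γ : ℂ)‖ = 1
  tri : ∀ γ : Gamma0 N, ((γ : SL(2, ℤ)) : Matrix (Fin 2) (Fin 2) ℤ) 1 0 = 0 → χ γ = 1

theorem IsEisChar.eq_of_botRow_eq {χ : Gamma0 N →* ℂˣ} (hχ : IsEisChar χ) {γ γ' : Gamma0 N}
    (h : botRow γ = botRow γ') : χ γ = χ γ' := by
  have h1 : (botRow (γ' * γ⁻¹)).1 = (botRow (γ * γ⁻¹)).1 := by
    rw [botRow_mul, botRow_mul, h]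
  have h2 : ((((γ' * γ⁻¹ : Gamma0 N) : SL(2, ℤ)) : Matrix (Fin 2) (Fin 2) ℤ)) 1 0 = 0 := by
    have := congrFun h1 0
    simp only [botRow_val, mul_inv_cancel] at this
    rw [this]
    simp
  have h3 := hχ.tri _ h2
  rw [map_mul, map_inv, mul_inv_eq_one] at h3
  exact h3.symm

/-- The coefficient attached to a bottom row. -/
def coeff (χ : Gamma0 N →* ℂˣ) (v : botSet N) : ℂ := ((χ (lift v))⁻¹ : ℂˣ)

theorem coeff_botRow {χ : Gamma0 N →* ℂˣ} (hχ : IsEisChar χ) (γ : Gamma0 N) :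
    coeff χ (botRow γ) = ((χ γ)⁻¹ : ℂˣ) := by
  unfold coeff
  rw [hχ.eq_of_botRow_eq (botRow_lift (botRow γ))]

theorem norm_coeff {χ : Gamma0 N →* ℂˣ} (hχ : IsEisChar χ) (v : botSet N) : ‖coeff χ v‖ = 1 := by
  unfold coeff
  rw [Units.val_inv_eq_inv_val, norm_inv, hχ.norm_eq, inv_one]

/-- Right multiplication by an element of `Γ₀(N)` on bottom rows. -/
def botAct (A : Gamma0 N) : botSet N ≃ botSet N where
  toFun v := botRow (lift v * A)
  invFun v := botRow (lift v * A⁻¹)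
  left_inv v := by
    apply Subtype.ext
    rw [botRow_mul, botRow_lift, botRow_mul, botRow_lift, Matrix.vecMul_vecMul]
    have : ((A : SL(2, ℤ)) : Matrix (Fin 2) (Fin 2) ℤ) * (((A⁻¹ : Gamma0 N) : SL(2, ℤ)) : Matrix (Fin 2) (Fin 2) ℤ) = 1 := by
      rw [← Matrix.SpecialLinearGroup.coe_mul, ← Subgroup.coe_mul, mul_inv_cancel]; rfl
    rw [this, Matrix.vecMul_one]
  right_inv v := by
    apply Subtype.ext
    rw [botRow_mul, botRow_lift, botRow_mul, botRow_lift, Matrix.vecMul_vecMul]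
    have : (((A⁻¹ : Gamma0 N) : SL(2, ℤ)) : Matrix (Fin 2) (Fin 2) ℤ) * ((A : SL(2, ℤ)) : Matrix (Fin 2) (Fin 2) ℤ) = 1 := by
      rw [← Matrix.SpecialLinearGroup.coe_mul, ← Subgroup.coe_mul, inv_mul_cancel]; rfl
    rw [this, Matrix.vecMul_one]

theorem botAct_val (A : Gamma0 N) (v : botSet N) :
    (botAct A v).1 = v.1 ᵥ* ((A : SL(2, ℤ)) : Matrix (Fin 2) (Fin 2) ℤ) := by
  show (botRow (lift v * A)).1 = _
  rw [botRow_mul, botRow_lift]

theorem coeff_botAct {χ : Gamma0 N →* ℂˣ} (hχ : IsEisChar χ) (A : Gamma0 N) (v : botSet N) :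
    coeff χ v = (χ A : ℂ) * coeff χ (botAct A v) := by
  show coeff χ v = (χ A : ℂ) * coeff χ (botRow (lift v * A))
  rw [coeff_botRow hχ, map_mul]
  unfold coeff
  rw [mul_inv, Units.val_mul, ← mul_assoc, mul_comm (χ A : ℂ), mul_assoc, ← Units.val_mul,
    mul_inv_cancel, Units.val_one, mul_one]

/-- The Eisenstein series of weight `k` with character `χ` on `Γ₀(N)`. -/
def eisChar (N : ℕ) (k : ℤ) (χ : Gamma0 N →* ℂˣ) (z : ℍ) : ℂ :=
  (1 / 2 : ℂ) * ∑' v : botSet N, coeff χ v * eisSummand k v.1 z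

variable {k : ℤ} {χ : Gamma0 N →* ℂˣ}

/-- Automorphy of `eisChar`. -/
theorem eisChar_smul (hχ : IsEisChar χ) (γ : Gamma0 N) (z : ℍ) :
    eisChar N k χ ((γ : SL(2, ℤ)) • z) =
      (χ γ : ℂ) * denom (γ : SL(2, ℤ)) z ^ k * eisChar N k χ z := by
  unfold eisChar
  have h1 : ∀ v : botSet N, coeff χ v * eisSummand k v.1 ((γ : SL(2, ℤ)) • z) =
      ((χ γ : ℂ) * denom (γ : SL(2, ℤ)) z ^ k) *
        (coeff χ (botAct γ v) * eisSummand k (botAct γ v).1 z) := by
    intro v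
    rw [eisSummand_SL2_apply, botAct_val, coeff_botAct hχ γ v]
    ring
  simp_rw [h1]
  rw [tsum_mul_left, (botAct γ).tsum_eq (fun v => coeff χ v * eisSummand k v.1 z)]
  ring

theorem norm_coeff_mul_eisSummand (hχ : IsEisChar χ) (v : botSet N) (z : ℍ) :
    ‖coeff χ v * eisSummand k v.1 z‖ = ‖eisSummand k v.1 z‖ := by
  rw [norm_mul, norm_coeff hχ, one_mul]

/-- The defining sum converges locally uniformly. -/
theorem tendstoLocallyUniformly_eisChar (hk : 3 ≤ k) (hχ : IsEisChar χ) :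
    TendstoLocallyUniformly
      (fun (s : Finset (botSet N)) ↦ (∑ x ∈ s, coeff χ x * eisSummand k x.1 ·))
      (fun z => ∑' x : botSet N, coeff χ x * eisSummand k x.1 z) Filter.atTop := by
  have hk' : (2 : ℝ) < k := by norm_cast
  have p_sum : Summable fun x : botSet N ↦ ‖x.val‖ ^ (-k) :=
    mod_cast (summable_one_div_norm_rpow hk').subtype (· ∈ botSet N)
  simp only [tendstoLocallyUniformly_iff_forall_isCompact]
  intro K hK
  obtain ⟨A, B, hB, HABK⟩ := subset_verticalStrip_of_isCompact hK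
  refine (tendstoUniformlyOn_tsum (hu := p_sum.mul_left <| r ⟨⟨A, B⟩, hB⟩ ^ (-k : ℝ))
    (fun p z hz ↦ ?_)).mono HABK
  rw [norm_coeff_mul_eisSummand hχ]
  simpa only [eisSummand, one_div, ← _root_.zpow_neg, norm_zpow, ← Real.rpow_intCast,
    Int.cast_neg] using summand_bound_of_mem_verticalStrip (by positivity) p.1 hB hz

theorem summable_coeff_mul_eisSummand (hk : 3 ≤ k) (hχ : IsEisChar χ) (z : ℍ) :
    Summable fun v : botSet N => coeff χ v * eisSummand k v.1 z := by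
  apply Summable.of_norm
  simp_rw [norm_coeff_mul_eisSummand hχ]
  exact (summable_norm_eisSummand hk z).subtype _

theorem eisChar_mdiff (hk : 3 ≤ k) (hχ : IsEisChar χ) : MDiff (eisChar N k χ) := by
  have h0 : MDiff (fun z : ℍ => ∑' x : botSet N, coeff χ x * eisSummand k x.1 z) := by
    intro τ
    set F : ℍ → ℂ := fun z : ℍ => ∑' x : botSet N, coeff χ x * eisSummand k x.1 z with hF
    suffices DifferentiableAt ℂ (F ∘ ofComplex) τ.1 by
      convert!
        MDifferentiableAt.comp τ (DifferentiableAt.mdifferentiableAt this) τ.mdifferentiable_coe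
      exact funext fun z ↦ (comp_ofComplex F z).symm
    refine DifferentiableOn.differentiableAt ?_ (isOpen_upperHalfPlaneSet.mem_nhds τ.2)
    have hloc : TendstoLocallyUniformlyOn
        (fun (s : Finset (botSet N)) ↦
          (fun (z : ℍ) ↦ ∑ x ∈ s, coeff χ x * eisSummand k x.1 z) ∘ ofComplex)
        (F ∘ ofComplex) Filter.atTop {z : ℂ | 0 < z.im} := by
      rw [← upperHalfPlaneSet, ← range_coe, ← Set.image_univ]
      apply TendstoLocallyUniformlyOn.comp (s := ⊤) _ _ _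
        (OpenPartialHomeomorph.continuousOn_symm _)
      · simp only [Set.top_eq_univ, tendstoLocallyUniformlyOn_univ]
        exact tendstoLocallyUniformly_eisChar hk hχ
      · simp only [IsOpenEmbedding.toOpenPartialHomeomorph_target, Set.top_eq_univ,
          Set.mapsTo_range_iff, Set.mem_univ, forall_const]
    refine hloc.differentiableOn (Eventually.of_forall fun s ↦ ?_) isOpen_upperHalfPlaneSet
    have : ((fun (z : ℍ) ↦ ∑ x ∈ s, coeff χ x * eisSummand k x.1 z) ∘ ofComplex) =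
        fun w : ℂ => ∑ x ∈ s, coeff χ x * ((eisSummand k x.1) ∘ ofComplex) w := rfl
    rw [this]
    exact DifferentiableOn.fun_sum fun x _ ↦
      (eisSummand_extension_differentiableOn k x.1).const_mul _
  have h1 : eisChar N k χ = fun z => (1 / 2 : ℂ) * ∑' x : botSet N, coeff χ x * eisSummand k x.1 z :=
    rfl
  rw [h1]
  exact mdifferentiable_const.mul h0

/-- The slash of `eisChar` by any element of `SL(2, ℤ)` as a sum. -/
theorem eisChar_slash_apply (δ : SL(2, ℤ)) (z : ℍ) :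
    (eisChar N k χ ∣[k] δ) z =
      (1 / 2 : ℂ) * ∑' v : botSet N, coeff χ v * eisSummand k (v.1 ᵥ* δ) z := by
  rw [SL_slash_apply]
  unfold eisChar
  have hd : denom δ z ≠ 0 := denom_ne_zero δ z
  have h1 : ∀ v : botSet N, coeff χ v * eisSummand k v.1 (δ • z) =
      denom δ z ^ k * (coeff χ v * eisSummand k (v.1 ᵥ* δ) z) := by
    intro v
    rw [eisSummand_SL2_apply]
    ring
  simp_rw [h1]
  rw [tsum_mul_left, _root_.zpow_neg]
  field_simp

/-- The level-one majorant. -/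
def majorant (k : ℤ) (z : ℍ) : ℝ := ∑' x : Fin 2 → ℤ, ‖eisSummand k x z‖

/-- Right multiplication by an element of `SL(2, ℤ)` on row vectors. -/
def vecEquiv (A : SL(2, ℤ)) : (Fin 2 → ℤ) ≃ (Fin 2 → ℤ) where
  toFun v := v ᵥ* (A : Matrix (Fin 2) (Fin 2) ℤ)
  invFun v := v ᵥ* ((A⁻¹ : SL(2, ℤ)) : Matrix (Fin 2) (Fin 2) ℤ)
  left_inv v := by
    simp only [Matrix.vecMul_vecMul]
    rw [← Matrix.SpecialLinearGroup.coe_mul, mul_inv_cancel, Matrix.SpecialLinearGroup.coe_one,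
      Matrix.vecMul_one]
  right_inv v := by
    simp only [Matrix.vecMul_vecMul]
    rw [← Matrix.SpecialLinearGroup.coe_mul, inv_mul_cancel, Matrix.SpecialLinearGroup.coe_one,
      Matrix.vecMul_one]

theorem denom_T_zpow (n : ℤ) (z : ℍ) :
    denom ((ModularGroup.T ^ n : SL(2, ℤ)) : GL (Fin 2) ℝ) z = 1 := by
  rw [ModularGroup.denom_apply, ModularGroup.coe_T_zpow]
  simp

theorem majorant_T_zpow (k : ℤ) (n : ℤ) (z : ℍ) :
    majorant k (ModularGroup.T ^ n • z) = majorant k z := by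
  unfold majorant
  have h1 : ∀ x : Fin 2 → ℤ, ‖eisSummand k x (ModularGroup.T ^ n • z)‖ =
      ‖eisSummand k (vecEquiv (ModularGroup.T ^ n) x) z‖ := by
    intro x
    rw [eisSummand_SL2_apply, denom_T_zpow, _root_.one_zpow, one_mul]
    rfl
  simp_rw [h1]
  exact (vecEquiv (ModularGroup.T ^ n)).tsum_eq (fun x => ‖eisSummand k x z‖)

theorem majorant_le_of_mem (hk : 3 ≤ k) {z : ℍ} (hz : z ∈ verticalStrip 1 2) :
    majorant k z ≤ ∑' (x : Fin 2 → ℤ), r ⟨⟨1, 2⟩, Nat.ofNat_pos⟩ ^ (-k) * ‖x‖ ^ (-k) := by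
  have hk' : (2 : ℝ) < k := by norm_cast
  unfold majorant
  apply (summable_norm_eisSummand hk _).tsum_le_tsum _
  · exact_mod_cast (summable_one_div_norm_rpow hk').mul_left <| r ⟨⟨1, 2⟩, Nat.ofNat_pos⟩ ^ (-k)
  · intro x
    simp_rw [eisSummand, norm_zpow]
    exact_mod_cast
      summand_bound_of_mem_verticalStrip (lt_trans two_pos hk').le x two_pos hz

theorem majorant_le (hk : 3 ≤ k) {z : ℍ} (hz : 2 ≤ z.im) :
    majorant k z ≤ ∑' (x : Fin 2 → ℤ), r ⟨⟨1, 2⟩, Nat.ofNat_pos⟩ ^ (-k) * ‖x‖ ^ (-k) := by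
  obtain ⟨n, hn⟩ := ModularGroup_T_zpow_mem_verticalStrip z (N := 1) one_pos
  rw [← majorant_T_zpow k ((1 : ℕ) * n) z]
  apply majorant_le_of_mem hk
  have := verticalStrip_anti_right (1 : ℕ) hz hn
  simpa using this

theorem norm_eisChar_slash_le (hk : 3 ≤ k) (hχ : IsEisChar χ) (δ : SL(2, ℤ)) (z : ℍ) :
    ‖(eisChar N k χ ∣[k] δ) z‖ ≤ 1 / 2 * majorant k z := by
  rw [eisChar_slash_apply, norm_mul]
  have h2 : ‖(1 / 2 : ℂ)‖ = 1 / 2 := by simp
  rw [h2]
  refine mul_le_mul_of_nonneg_left ?_ (by norm_num)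
  have hinj : Function.Injective (fun v : botSet N => vecEquiv δ v.1) :=
    (vecEquiv δ).injective.comp Subtype.val_injective
  have hs : Summable fun v : botSet N => ‖coeff χ v * eisSummand k (v.1 ᵥ* δ) z‖ := by
    simp_rw [norm_mul, norm_coeff hχ, one_mul]
    exact (summable_norm_eisSummand hk z).comp_injective hinj
  refine (norm_tsum_le_tsum_norm hs).trans ?_
  simp_rw [norm_mul, norm_coeff hχ, one_mul]
  exact tsum_comp_le_tsum_of_inj (summable_norm_eisSummand hk z) (fun _ => norm_nonneg _) hinj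

/-- `eisChar` is bounded at every cusp. -/
theorem isBoundedAtImInfty_eisChar_slash (hk : 3 ≤ k) (hχ : IsEisChar χ) (δ : SL(2, ℤ)) :
    IsBoundedAtImInfty (eisChar N k χ ∣[k] δ) := by
  rw [UpperHalfPlane.isBoundedAtImInfty_iff]
  refine ⟨1 / 2 * ∑' (x : Fin 2 → ℤ), r ⟨⟨1, 2⟩, Nat.ofNat_pos⟩ ^ (-k) * ‖x‖ ^ (-k), 2, ?_⟩
  intro z hz
  exact (norm_eisChar_slash_le hk hχ δ z).trans
    (mul_le_mul_of_nonneg_left (majorant_le hk hz) (by norm_num))

theorem T_zpow_mem_Gamma0 (N : ℕ) (n : ℤ) : (ModularGroup.T ^ n : SL(2, ℤ)) ∈ Gamma0 N := by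
  rw [Gamma0_mem, ModularGroup.coe_T_zpow]
  simp

theorem eisChar_T_zpow (hχ : IsEisChar χ) (n : ℤ) (z : ℍ) :
    eisChar N k χ ((ModularGroup.T ^ n : SL(2, ℤ)) • z) = eisChar N k χ z := by
  have h := eisChar_smul (k := k) hχ ⟨ModularGroup.T ^ n, T_zpow_mem_Gamma0 N n⟩ z
  have h1 : χ ⟨ModularGroup.T ^ n, T_zpow_mem_Gamma0 N n⟩ = 1 := by
    apply hχ.tri
    show ((ModularGroup.T ^ n : SL(2, ℤ)) : Matrix (Fin 2) (Fin 2) ℤ) 1 0 = 0
    rw [ModularGroup.coe_T_zpow]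
    simp
  rw [h1] at h
  have h2 : denom ((ModularGroup.T ^ n : SL(2, ℤ)) : GL (Fin 2) ℝ) z = 1 := denom_T_zpow n z
  rw [h, h2]
  simp

/-- The two bottom rows with vanishing first entry. -/
def vPlus (N : ℕ) : botSet N := ⟨![0, 1], by simp [botSet, isCoprime_zero_left]⟩

/-- The two bottom rows with vanishing first entry. -/
def vMinus (N : ℕ) : botSet N := ⟨![0, -1], by simp [botSet, isCoprime_zero_left]⟩

theorem vPlus_ne_vMinus (N : ℕ) : vPlus N ≠ vMinus N := by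
  intro h
  have := congrFun (congrArg Subtype.val h) 1
  simp [vPlus, vMinus] at this

theorem eq_vPlus_or_vMinus (v : botSet N) (h : v.1 0 = 0) : v = vPlus N ∨ v = vMinus N := by
  have hc := v.2.1
  rw [h, isCoprime_zero_left, Int.isUnit_iff] at hc
  rcases hc with h1 | h1
  · left
    apply Subtype.ext
    funext i
    fin_cases i
    · simpa [vPlus] using h
    · simpa [vPlus] using h1
  · right
    apply Subtype.ext
    funext i
    fin_cases i
    · simpa [vMinus] using h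
    · simpa [vMinus] using h1

theorem coeff_eq_one_of_zero (hχ : IsEisChar χ) (v : botSet N) (h : v.1 0 = 0) : coeff χ v = 1 := by
  unfold coeff
  have h1 : χ (lift v) = 1 := by
    apply hχ.tri
    have := congrFun (lift_row v) 0
    rw [this, h]
  rw [h1]
  simp

theorem tendsto_eisSummand_zero {n : ℕ} (hn : 0 < n) (v : Fin 2 → ℤ) (hv : v 0 ≠ 0) :
    Tendsto (fun z : ℍ => eisSummand (n : ℤ) v z) atImInfty (𝓝 0) := by
  have h1 : Tendsto (fun z : ℍ => (z.im ^ n)⁻¹) atImInfty (𝓝 0) := by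
    have h2 : Tendsto (fun z : ℍ => z.im) atImInfty atTop := tendsto_comap
    have h3 : Tendsto (fun x : ℝ => (x ^ n)⁻¹) atTop (𝓝 0) :=
      tendsto_inv_atTop_zero.comp (tendsto_pow_atTop hn.ne')
    exact h3.comp h2
  refine squeeze_zero_norm (fun z => ?_) h1
  unfold eisSummand
  rw [_root_.zpow_neg, zpow_natCast, norm_inv, norm_pow]
  have him : z.im ≤ ‖(v 0 : ℂ) * (z : ℂ) + (v 1 : ℂ)‖ := by
    have h4 : |((v 0 : ℂ) * (z : ℂ) + (v 1 : ℂ)).im| ≤ ‖(v 0 : ℂ) * (z : ℂ) + (v 1 : ℂ)‖ :=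
      Complex.abs_im_le_norm _
    have h5 : ((v 0 : ℂ) * (z : ℂ) + (v 1 : ℂ)).im = (v 0 : ℝ) * z.im := by
      simp
    rw [h5, abs_mul] at h4
    have h6 : (1 : ℝ) ≤ |(v 0 : ℝ)| := by
      have : (1 : ℤ) ≤ |v 0| := Int.one_le_abs hv
      exact_mod_cast this
    have h7 : |z.im| = z.im := abs_of_pos z.im_pos
    rw [h7] at h4
    nlinarith [z.im_pos]
  have hpos : 0 < z.im ^ n := pow_pos z.im_pos n
  exact inv_anti₀ hpos (pow_le_pow_left₀ z.im_pos.le him n)

theorem tendsto_eisChar_strip (hk : 3 ≤ k) (hk2 : Even k) (hχ : IsEisChar χ) :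
    Tendsto (eisChar N k χ) (atImInfty ⊓ 𝓟 (verticalStrip 1 2)) (𝓝 1) := by
  have hk' : (2 : ℝ) < k := by norm_cast
  obtain ⟨n, rfl⟩ := Int.eq_ofNat_of_zero_le (by omega : 0 ≤ k)
  have hn : 0 < n := by omega
  set g : botSet N → ℂ := fun v => if v.1 0 = 0 then 1 else 0 with hg
  have hsum : Summable fun v : botSet N =>
      r ⟨⟨1, 2⟩, Nat.ofNat_pos⟩ ^ (-(n : ℤ)) * ‖v.1‖ ^ (-(n : ℤ)) := by
    have := (summable_one_div_norm_rpow hk').mul_left <| r ⟨⟨1, 2⟩, Nat.ofNat_pos⟩ ^ (-(n : ℤ))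
    exact_mod_cast this.subtype (· ∈ botSet N)
  have hab : ∀ v : botSet N, Tendsto (fun z : ℍ => coeff χ v * eisSummand (n : ℤ) v.1 z)
      (atImInfty ⊓ 𝓟 (verticalStrip 1 2)) (𝓝 (g v)) := by
    intro v
    by_cases hv : v.1 0 = 0
    · have h1 : (fun z : ℍ => coeff χ v * eisSummand (n : ℤ) v.1 z) = fun _ => g v := by
        funext z
        rw [hg]
        simp only [hv, if_true]
        rw [coeff_eq_one_of_zero hχ v hv, one_mul]
        unfold eisSummand
        rw [hv]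
        rcases eq_vPlus_or_vMinus v hv with h | h
        · rw [h]; simp [vPlus]
        · rw [h]
          simp only [vMinus, Int.cast_zero, zero_mul, zero_add]
          have : ((![0, -1] : Fin 2 → ℤ) 1 : ℂ) = -1 := by simp
          rw [this, _root_.zpow_neg, hk2.neg_one_zpow, inv_one]
      rw [h1]
      exact tendsto_const_nhds
    · have h1 : g v = coeff χ v * 0 := by rw [hg]; simp [hv]
      rw [h1]
      exact ((tendsto_eisSummand_zero hn v.1 hv).mono_left inf_le_left).const_mul _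
  have hbound : ∀ᶠ z in (atImInfty ⊓ 𝓟 (verticalStrip 1 2)), ∀ v : botSet N,
      ‖coeff χ v * eisSummand (n : ℤ) v.1 z‖ ≤
        r ⟨⟨1, 2⟩, Nat.ofNat_pos⟩ ^ (-(n : ℤ)) * ‖v.1‖ ^ (-(n : ℤ)) := by
    have hmem : verticalStrip 1 2 ∈ (atImInfty ⊓ 𝓟 (verticalStrip 1 2)) :=
      mem_inf_of_right (mem_principal_self _)
    filter_upwards [hmem] with z hz v
    rw [norm_coeff_mul_eisSummand hχ]
    simp_rw [eisSummand, norm_zpow]
    exact_mod_cast
      summand_bound_of_mem_verticalStrip (lt_trans two_pos hk').le v.1 two_pos hz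
  have hlim := tendsto_tsum_of_dominated_convergence hsum hab hbound
  have hg2 : ∑' v : botSet N, g v = 2 := by
    rw [tsum_eq_sum (s := {vPlus N, vMinus N})]
    · rw [Finset.sum_pair (vPlus_ne_vMinus N)]
      simp [hg, vPlus, vMinus]
      norm_num
    · intro v hv
      simp only [Finset.mem_insert, Finset.mem_singleton, not_or] at hv
      rw [hg]
      simp only
      rw [if_neg]
      intro h0
      rcases eq_vPlus_or_vMinus v h0 with h | h
      · exact hv.1 h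
      · exact hv.2 h
  rw [hg2] at hlim
  have h3 := hlim.const_mul (1 / 2 : ℂ)
  have h4 : (1 / 2 : ℂ) * 2 = 1 := by norm_num
  rw [h4] at h3
  exact h3

/-- `eisChar` tends to `1` at `i∞`. -/
theorem tendsto_eisChar (hk : 3 ≤ k) (hk2 : Even k) (hχ : IsEisChar χ) :
    Tendsto (eisChar N k χ) atImInfty (𝓝 1) := by
  have h := tendsto_eisChar_strip (N := N) hk hk2 hχ
  rw [tendsto_def] at h ⊢
  intro U hU
  have h1 := h U hU
  rw [mem_inf_principal, atImInfty_mem] at h1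
  obtain ⟨A, hA⟩ := h1
  rw [atImInfty_mem]
  refine ⟨max A 2, fun z hz => ?_⟩
  obtain ⟨m, hm⟩ := ModularGroup_T_zpow_mem_verticalStrip z (N := 1) one_pos
  have hz2 : (2 : ℝ) ≤ z.im := (le_max_right A 2).trans hz
  have hm2 : (ModularGroup.T ^ ((1 : ℕ) * m) : SL(2, ℤ)) • z ∈ verticalStrip 1 2 := by
    have := verticalStrip_anti_right (1 : ℕ) hz2 hm
    simpa using this
  have him : ((ModularGroup.T ^ ((1 : ℕ) * m) : SL(2, ℤ)) • z).im = z.im := by
    rw [modular_T_zpow_smul]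
    simp
  have h5 := hA ((ModularGroup.T ^ ((1 : ℕ) * m) : SL(2, ℤ)) • z)
    (by rw [him]; exact (le_max_left A 2).trans hz) hm2
  simp only [Set.mem_preimage] at h5 ⊢
  rw [eisChar_T_zpow hχ] at h5
  exact h5

theorem eisChar_ne_zero (hk : 3 ≤ k) (hk2 : Even k) (hχ : IsEisChar χ) : eisChar N k χ ≠ 0 := by
  intro h
  have h1 := tendsto_eisChar (N := N) hk hk2 hχ
  rw [h] at h1
  have h2 : Tendsto (0 : ℍ → ℂ) atImInfty (𝓝 0) := tendsto_const_nhds
  exact one_ne_zero (tendsto_nhds_unique h1 h2)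

/-- Slash form of the automorphy. -/
theorem eisChar_slash (hχ : IsEisChar χ) (γ : Gamma0 N) :
    eisChar N k χ ∣[k] (γ : SL(2, ℤ)) = (χ γ : ℂ) • eisChar N k χ := by
  funext z
  rw [SL_slash_apply, eisChar_smul hχ]
  have hd : denom (γ : SL(2, ℤ)) z ≠ 0 := denom_ne_zero _ z
  rw [Pi.smul_apply, smul_eq_mul, _root_.zpow_neg]
  field_simp

theorem pow_slash_apply (f : ℍ → ℂ) (k : ℤ) (m : ℕ) (δ : SL(2, ℤ)) (z : ℍ) :
    ((f ^ m) ∣[k * m] δ) z = ((f ∣[k] δ) z) ^ m := by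
  rw [SL_slash_apply, SL_slash_apply, Pi.pow_apply, mul_pow, ← zpow_natCast (denom δ z ^ (-k)) m,
    ← _root_.zpow_mul]
  congr 2
  ring

/-- The `m`-th power of `eisChar` as a modular form of weight `k * m` on `Γ₀(N)`, when `χ ^ m = 1`. -/
def eisCharPow [NeZero N] (hk : 3 ≤ k) (hχ : IsEisChar χ) (m : ℕ) (hm : ∀ γ, χ γ ^ m = 1) :
    ModularForm (Gamma0 N) (k * m) where
  toFun := eisChar N k χ ^ m
  slash_action_eq' A hA := by
    obtain ⟨A, hA, rfl⟩ := hA
    funext z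
    have h1 := pow_slash_apply (eisChar N k χ) k m A z
    have h2 := congrFun (eisChar_slash (k := k) hχ ⟨A, hA⟩) z
    have h3 : ((eisChar N k χ ^ m) ∣[k * m] A) z = (eisChar N k χ ^ m) z := by
      rw [h1, h2, Pi.smul_apply, smul_eq_mul, mul_pow, ← Units.val_pow_eq_pow_val, hm]
      simp
    exact h3
  holo' := (eisChar_mdiff hk hχ).pow m
  bdd_at_cusps' {c} hc := by
    rw [Subgroup.IsArithmetic.isCusp_iff_isCusp_SL2Z] at hc
    rw [OnePoint.isBoundedAt_iff_forall_SL2Z hc]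
    intro δ _
    have h1 : ((eisChar N k χ ^ m) ∣[k * m] δ) = (eisChar N k χ ∣[k] δ) ^ m := by
      funext z
      rw [pow_slash_apply, Pi.pow_apply]
    rw [h1]
    have h2 := isBoundedAtImInfty_eisChar_slash hk hχ δ
    unfold IsBoundedAtImInfty BoundedAtFilter at h2 ⊢
    have h3 := h2.pow m
    refine h3.congr (fun x => rfl) (fun x => ?_)
    simp

@[simp] theorem coe_eisCharPow [NeZero N] (hk : 3 ≤ k) (hχ : IsEisChar χ) (m : ℕ) (hm : ∀ γ, χ γ ^ m = 1) :
    ⇑(eisCharPow hk hχ m hm) = eisChar N k χ ^ m := rfl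

theorem isEisChar_one : IsEisChar (1 : Gamma0 N →* ℂˣ) :=
  ⟨fun _ => by simp, fun _ _ => rfl⟩

/-- The character `γ ↦ exp (2πi c(γ) / m)` attached to an additive character `c`. -/
def expChar (c : Additive (Gamma0 N) →+ ℤ) (m : ℕ) : Gamma0 N →* ℂˣ where
  toFun γ := Units.mk0
    (Complex.exp (2 * Real.pi * Complex.I * (c (Additive.ofMul γ) : ℂ) / m)) (Complex.exp_ne_zero _)
  map_one' := by
    apply Units.ext
    simp
  map_mul' γ δ := by
    apply Units.ext
    simp only [Units.val_mk0, Units.val_mul]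
    rw [← Complex.exp_add]
    congr 1
    rw [ofMul_mul, map_add]
    push_cast
    ring

theorem coe_expChar (c : Additive (Gamma0 N) →+ ℤ) (m : ℕ) (γ : Gamma0 N) :
    (expChar c m γ : ℂ) =
      Complex.exp (2 * Real.pi * Complex.I * (c (Additive.ofMul γ) : ℂ) / m) := rfl

theorem norm_expChar (c : Additive (Gamma0 N) →+ ℤ) (m : ℕ) (γ : Gamma0 N) :
    ‖(expChar c m γ : ℂ)‖ = 1 := by
  rw [coe_expChar, Complex.norm_exp]
  have : (2 * Real.pi * Complex.I * (c (Additive.ofMul γ) : ℂ) / m).re = 0 := by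
    have h : (2 * Real.pi * Complex.I * (c (Additive.ofMul γ) : ℂ) / m) =
        (((2 * Real.pi * (c (Additive.ofMul γ) : ℝ) / m : ℝ) : ℂ)) * Complex.I := by
      push_cast
      ring
    rw [h, Complex.re_ofReal_mul, Complex.I_re, mul_zero]
  rw [this, Real.exp_zero]

theorem expChar_pow (c : Additive (Gamma0 N) →+ ℤ) {m : ℕ} (hm : m ≠ 0) (γ : Gamma0 N) :
    expChar c m γ ^ m = 1 := by
  apply Units.ext
  rw [Units.val_pow_eq_pow_val, coe_expChar, ← Complex.exp_nat_mul, Units.val_one]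
  have hm' : (m : ℂ) ≠ 0 := by exact_mod_cast hm
  have h : (m : ℂ) * (2 * Real.pi * Complex.I * (c (Additive.ofMul γ) : ℂ) / m) =
      (c (Additive.ofMul γ) : ℂ) * (2 * Real.pi * Complex.I) := by
    field_simp
  rw [h]
  exact Complex.exp_int_mul_two_pi_mul_I _

theorem expChar_add (c c' : Additive (Gamma0 N) →+ ℤ) (m : ℕ) (γ : Gamma0 N) :
    expChar (c + c') m γ = expChar c m γ * expChar c' m γ := by
  apply Units.ext
  rw [Units.val_mul, coe_expChar, coe_expChar, coe_expChar, ← Complex.exp_add]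
  congr 1
  rw [AddMonoidHom.add_apply]
  push_cast
  ring

theorem expChar_eq_one_iff (c : Additive (Gamma0 N) →+ ℤ) {m : ℕ} (hm : m ≠ 0) (γ : Gamma0 N) :
    expChar c m γ = 1 ↔ (m : ℤ) ∣ c (Additive.ofMul γ) := by
  have hm' : (m : ℂ) ≠ 0 := by exact_mod_cast hm
  have hpi : (2 * Real.pi * Complex.I : ℂ) ≠ 0 := Complex.two_pi_I_ne_zero
  rw [← Units.val_inj, coe_expChar, Units.val_one, Complex.exp_eq_one_iff]
  constructor
  · rintro ⟨n, hn⟩
    refine ⟨n, ?_⟩
    have h1 : (c (Additive.ofMul γ) : ℂ) = (m : ℂ) * n := by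
      rw [div_eq_iff hm'] at hn
      exact mul_left_cancel₀ hpi (hn.trans (by ring))
    exact_mod_cast h1
  · rintro ⟨n, hn⟩
    refine ⟨n, ?_⟩
    rw [hn]
    push_cast
    field_simp

/-- An additive character killing the elements of trace `±2` gives an admissible character. -/
theorem isEisChar_expChar (c : Additive (Gamma0 N) →+ ℤ) (m : ℕ)
    (hc : ∀ γ : Gamma0 N, ((γ : SL(2, ℤ)) : Matrix (Fin 2) (Fin 2) ℤ).trace ^ 2 = 4 →
      c (Additive.ofMul γ) = 0) : IsEisChar (expChar c m) := by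
  refine ⟨norm_expChar c m, fun γ hγ => ?_⟩
  have hdet := (γ : SL(2, ℤ)).2
  rw [Matrix.det_fin_two, hγ, mul_zero, sub_zero] at hdet
  have htr : ((γ : SL(2, ℤ)) : Matrix (Fin 2) (Fin 2) ℤ).trace ^ 2 = 4 := by
    rw [Matrix.trace_fin_two]
    rcases Int.eq_one_or_neg_one_of_mul_eq_one' hdet with ⟨h1, h2⟩ | ⟨h1, h2⟩
    · rw [h1, h2]; norm_num
    · rw [h1, h2]; norm_num
  apply Units.ext
  rw [coe_expChar, hc γ htr]
  simp

end Fermat.Agent.S29.H39
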