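import Mathlib
import Fermat.Agent.S22.HeckeDecomp_helper56
import Fermat.Agent.S29.TransferDef_helper6
import Fermat.Agent.S29.EisChar_helper39
import Fermat.Agent.S29.TwistFn_helper35

/-!
# S29, node (HK), the group bookkeeping (helper6): coset products and multipliers

Multiplicative companions of the landed transfer relation `H06.IsDecomp` / `H06.IsHeckeTr`
(`TransferDef_helper6`), for the Hecke computation on Kummer characters:

* `IsDecomp.smul_smul` : `repT ℓ x • γ • z = g' x • repT ℓ (σ x) • z` on the upper half plane.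
* `IsDecomp.prod_comp_smul` : if `u (δ • z) = κ δ * u z` for `δ ∈ Γ₀(N)`, then the coset product
  `U z = ∏ x, u (repT ℓ x • z)` satisfies `U (γ • z) = (∏ x, κ (g' x)) * U z`.
* `IsDecomp.prod_ratio` : the same for a ratio `r / b` written without division:
  `r (δ • z) * b z = κ δ * (r z * b (δ • z))` gives
  `R (γ • z) * B z = (∏ x, κ (g' x)) * (R z * B (γ • z))` for the coset products `R`, `B`.
* `IsHeckeTr.prod_expChar39` / `IsHeckeTr.prod_expChar35` : if `χ'` is the Hecke transfer of `χ`,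
  then `∏ x, expChar χ m (g' x) = expChar χ' m γ` (both landed copies of `expChar`).
* `mdiff_prod_repT` : the coset product of a holomorphic function is holomorphic.
-/

set_option autoImplicit false

namespace Fermat.Agent.S29.H06

open UpperHalfPlane CongruenceSubgroup
open Fermat.Agent.S22
open scoped MatrixGroups Manifold

variable {N ℓ : ℕ}

/-- The decomposition identity on points of the upper half plane. -/
theorem IsDecomp.smul_smul {γ : Gamma0 N} {σ : Equiv.Perm (Option (Fin ℓ))}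
    {g' : Option (Fin ℓ) → Gamma0 N} (h : IsDecomp N ℓ γ σ g') (x : Option (Fin ℓ)) (z : ℍ) :
    H56.repT ℓ x • ((γ : SL(2, ℤ)) • z) = ((g' x : Gamma0 N) : SL(2, ℤ)) • (H56.repT ℓ (σ x) • z) := by
  have e := congrArg (fun M : GL (Fin 2) ℝ => M • z) (h x)
  simp only [mul_smul] at e
  exact e

/-- **Multiplier of a coset product.** -/
theorem IsDecomp.prod_comp_smul {γ : Gamma0 N} {σ : Equiv.Perm (Option (Fin ℓ))}
    {g' : Option (Fin ℓ) → Gamma0 N} (h : IsDecomp N ℓ γ σ g') {M : Type*} [CommMonoid M]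
    (u : ℍ → M) (κ : Gamma0 N → M)
    (hu : ∀ (δ : Gamma0 N) (z : ℍ), u ((δ : SL(2, ℤ)) • z) = κ δ * u z) (z : ℍ) :
    ∏ x, u (H56.repT ℓ x • ((γ : SL(2, ℤ)) • z)) =
      (∏ x, κ (g' x)) * ∏ x, u (H56.repT ℓ x • z) := by
  rw [← Equiv.prod_comp σ (fun y => u (H56.repT ℓ y • z)), ← Finset.prod_mul_distrib]
  refine Finset.prod_congr rfl fun x _ => ?_
  rw [h.smul_smul x z, hu]

/-- **Multiplier of a coset product of ratios** (`r / b`, written without division). -/
theorem IsDecomp.prod_ratio {γ : Gamma0 N} {σ : Equiv.Perm (Option (Fin ℓ))}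
    {g' : Option (Fin ℓ) → Gamma0 N} (h : IsDecomp N ℓ γ σ g') {M : Type*} [CommMonoid M]
    (r b : ℍ → M) (κ : Gamma0 N → M)
    (hu : ∀ (δ : Gamma0 N) (z : ℍ),
      r ((δ : SL(2, ℤ)) • z) * b z = κ δ * (r z * b ((δ : SL(2, ℤ)) • z))) (z : ℍ) :
    (∏ x, r (H56.repT ℓ x • ((γ : SL(2, ℤ)) • z))) * ∏ x, b (H56.repT ℓ x • z) =
      (∏ x, κ (g' x)) * ((∏ x, r (H56.repT ℓ x • z)) *
        ∏ x, b (H56.repT ℓ x • ((γ : SL(2, ℤ)) • z))) := by
  rw [← Equiv.prod_comp σ (fun y => b (H56.repT ℓ y • z)),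
    ← Equiv.prod_comp σ (fun y => r (H56.repT ℓ y • z)),
    ← Finset.prod_mul_distrib, ← Finset.prod_mul_distrib, ← Finset.prod_mul_distrib]
  refine Finset.prod_congr rfl fun x _ => ?_
  rw [h.smul_smul x z, hu]

/-- The coset product of the powers is the power of the coset product. -/
theorem prod_repT_pow {M : Type*} [CommMonoid M] (r : ℍ → M) (m : ℕ) (z : ℍ) :
    ∏ x : Option (Fin ℓ), r (H56.repT ℓ x • z) ^ m = (∏ x : Option (Fin ℓ), r (H56.repT ℓ x • z)) ^ m :=
  Finset.prod_pow _ _ _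

/-- If `r ^ m = a * b ^ (m - 1)` pointwise, the same holds for the coset products. -/
theorem prod_repT_root {M : Type*} [CommMonoid M] {r a b : ℍ → M} {m : ℕ}
    (hpow : ∀ z, r z ^ m = a z * b z ^ (m - 1)) (z : ℍ) :
    (∏ x : Option (Fin ℓ), r (H56.repT ℓ x • z)) ^ m =
      (∏ x : Option (Fin ℓ), a (H56.repT ℓ x • z)) *
        (∏ x : Option (Fin ℓ), b (H56.repT ℓ x • z)) ^ (m - 1) := by
  rw [← Finset.prod_pow, ← Finset.prod_pow, ← Finset.prod_mul_distrib]
  exact Finset.prod_congr rfl fun x _ => hpow _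

/-- The coset product of a holomorphic function is holomorphic. -/
theorem mdiff_prod_repT {r : ℍ → ℂ} (hr : MDiff r) (ℓ : ℕ) :
    MDiff (fun z : ℍ => ∏ x : Option (Fin ℓ), r (H56.repT ℓ x • z)) := by
  have h1 : ∀ x : Option (Fin ℓ), MDiff (fun z : ℍ => r (H56.repT ℓ x • z)) := by
    intro x
    have h : MDiff (fun τ : ℍ => H56.repT ℓ x • τ) :=
      UpperHalfPlane.mdifferentiable_smul (H56.repT_det_pos x)
    exact hr.comp h
  have h2 : ∀ s : Finset (Option (Fin ℓ)),
      MDiff (fun z : ℍ => ∏ x ∈ s, r (H56.repT ℓ x • z)) := by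
    intro s
    classical
    induction s using Finset.induction_on with
    | empty => simpa using (mdifferentiable_const : MDiff (fun _ : ℍ => (1 : ℂ)))
    | insert a s ha ih =>
      simp only [Finset.prod_insert ha]
      exact (h1 a).mul ih
  exact h2 Finset.univ

/-- Hecke transfer and `expChar` (helper39's copy): the product of the characters of the
components is the character of the transfer. -/
theorem IsHeckeTr.prod_expChar39 {χ χ' : Additive (Gamma0 N) →+ ℤ} (hT : IsHeckeTr N ℓ χ χ')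
    {γ : Gamma0 N} {σ : Equiv.Perm (Option (Fin ℓ))} {g' : Option (Fin ℓ) → Gamma0 N}
    (h : IsDecomp N ℓ γ σ g') (m : ℕ) :
    ∏ x, H39.expChar χ m (g' x) = H39.expChar χ' m γ := by
  apply Units.ext
  rw [Units.coe_prod, H39.coe_expChar, hT γ σ g' h]
  simp only [H39.coe_expChar]
  rw [← Complex.exp_sum]
  congr 1
  push_cast
  rw [Finset.mul_sum, Finset.sum_div]

/-- Hecke transfer and `expChar` (helper35's copy). -/
theorem IsHeckeTr.prod_expChar35 {χ χ' : Additive (Gamma0 N) →+ ℤ} (hT : IsHeckeTr N ℓ χ χ')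
    {γ : Gamma0 N} {σ : Equiv.Perm (Option (Fin ℓ))} {g' : Option (Fin ℓ) → Gamma0 N}
    (h : IsDecomp N ℓ γ σ g') (m : ℕ) :
    ∏ x, H35.expChar χ m (g' x) = H35.expChar χ' m γ := by
  apply Units.ext
  rw [Units.coe_prod, H35.expChar_apply, hT γ σ g' h]
  simp only [H35.expChar_apply]
  rw [← Complex.exp_sum]
  congr 1
  push_cast
  rw [Finset.mul_sum, Finset.sum_div]

end Fermat.Agent.S29.H06
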