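import Mathlib
import Fermat.Agent.S29.HKNorm_helper58
import Fermat.Agent.S29.KumChar_helper29
import Fermat.Agent.S29.CoverOrd_helper90
import Fermat.Agent.S29.CoverQbar_helper31
import Fermat.Agent.S29.TransferMul_helper6
import Fermat.Agent.S29.KumHecke_helper8

/-!
# S29 (HK) = (R-hecke): the Kummer character of `Norm_α (β y)` (helper58)

For `y ≠ 0` in the function field `FN N` whose function `P.Φ y` lies in the Kummer group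
`H29.kumGroup V m`, and `ℓ ∤ N` prime:

* `kumChar_heckeNormA` : for every Hecke coset decomposition `H06.IsDecomp N ℓ γ σ g'`,
  `kumChar [P.Φ (Norm_α (β y))] γ = ∏ x, kumChar [P.Φ y] (g' x)`;
* `r_hecke39`, `r_hecke35` : the divisor-shaped form consumed by the assembly of (PSI);
* `real_heckeNorm39`, `real_heckeNorm35` : the function-shaped form for the landed
  `S37.H58.heckeNorm N ℓ y` (`= Norm_α (β y)` by `Swap_helper16`).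
-/

set_option autoImplicit false

open Filter Topology UpperHalfPlane CongruenceSubgroup ModularForm ModularCurve
open scoped MatrixGroups ModularForm Manifold Real

noncomputable section

namespace Fermat.Agent.S29.H58

open Fermat.Agent.S24.H31 Fermat.Agent.S24 Fermat.Agent.S22
open AlgebraicCurve

variable {N : ℕ} [NeZero N] {ℓ : ℕ} [NeZero ℓ]

/-- an element of the function field all of whose orders are divisible by `m` gives an element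
of the Kummer group -/
theorem mem_kumGroup_of_dvd_place (V : ValSpec N) (P : PhiData N) {m : ℕ} {y : FN N}
    (hy : y ≠ 0) (hdvd : ∀ v : Place Kbar (FN N), (m : ℤ) ∣ v.ord y) :
    Units.mk0 (P.Φ y) ((map_ne_zero P.Φ).mpr hy) ∈ H29.kumGroup V m := by
  refine ⟨fun γ hγ => P.inv γ hγ y, fun z => ?_⟩
  have h := (Fermat.Agent.S29.H31.isCover_Kbar N P).dvd_pt_of_dvd_place V z 1 hy hdvd
  rwa [one_smul] at h

/-- **(HK), core.** The Kummer character of `Norm_α (β y)` is the Hecke transfer of the Kummer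
character of `y`. -/
theorem kumChar_heckeNormA (V : ValSpec N) (P : PhiData N) {m : ℕ} (hm : m ≠ 0)
    (hℓ : ℓ.Prime) (hℓN : ¬ ℓ ∣ N) {y : FN N} (hy : y ≠ 0)
    (hx0 : Units.mk0 (P.Φ y) ((map_ne_zero P.Φ).mpr hy) ∈ H29.kumGroup V m)
    (hx1 : Units.mk0 (P.Φ (heckeNormA N ℓ y))
      ((map_ne_zero P.Φ).mpr (heckeNormA_ne_zero N ℓ hy)) ∈ H29.kumGroup V m)
    {γ : Gamma0 N} {σ : Equiv.Perm (Option (Fin ℓ))} {g' : Option (Fin ℓ) → Gamma0 N}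
    (hd : H06.IsDecomp N ℓ γ σ g') :
    H29.kumChar V hm ⟨_, hx1⟩ γ = ∏ x, H29.kumChar V hm ⟨_, hx0⟩ (g' x) := by
  obtain ⟨a, b, r, hb, hx, hr, hpow, hmul⟩ := H29.exists_data_of_mem V hm ⟨_, hx0⟩
  obtain ⟨a1, b1, r1, hb1, hx1', hr1, hpow1, hmul1⟩ := H29.exists_data_of_mem V hm ⟨_, hx1⟩
  have hfun := heckeNormA_fun N ℓ hℓ hℓN P y hb hb1 hx hx1'
  have hRpow := fun z => cosetProd_root (ℓ := ℓ) hpow z
  have hRmul := cosetProd_multiplier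
    (c := fun δ => ((H29.kumChar V hm ⟨_, hx0⟩ δ : ℂˣ) : ℂ)) hmul γ σ g' hd
  have hBmd : MDiff (cosetProd ℓ (b : ℍ → ℂ)) := mdiff_cosetProd ℓ b.2.mdiff
  have hRmd : MDiff (cosetProd ℓ r) := mdiff_cosetProd ℓ hr
  -- the two roots agree up to a root of unity
  have hpw : ∀ z : ℍ, (r1 z * cosetProd ℓ (b : ℍ → ℂ) z) ^ m
      = (cosetProd ℓ r z * (b1 : ℍ → ℂ) z) ^ m := by
    intro z
    rw [mul_pow, mul_pow, hpow1 z, hRpow z]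
    have h := hfun z
    simp only [← cosetProd_apply] at h
    obtain ⟨k, rfl⟩ : ∃ k, m = k + 1 := Nat.exists_eq_succ_of_ne_zero hm
    simp only [Nat.add_sub_cancel]
    rw [pow_succ (cosetProd ℓ (b : ℍ → ℂ) z), pow_succ ((b1 : ℍ → ℂ) z)]
    linear_combination ((b1 : ℍ → ℂ) z ^ k * cosetProd ℓ (b : ℍ → ℂ) z ^ k) * h
  obtain ⟨ζ, -, hζeq⟩ := H29.exists_root_of_unity_of_pow_eq_uhp hm
    (g := fun z => r1 z * cosetProd ℓ (b : ℍ → ℂ) z)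
    (h := fun z => cosetProd ℓ r z * (b1 : ℍ → ℂ) z) (hr1.mul hBmd) (hRmd.mul b1.2.mdiff) hpw
  -- comparison of the multipliers
  set κ1 : ℂ := ((H29.kumChar V hm ⟨_, hx1⟩ γ : ℂˣ) : ℂ) with hκ1
  set c : ℂ := ∏ x, ((H29.kumChar V hm ⟨_, hx0⟩ (g' x) : ℂˣ) : ℂ) with hc
  have hkey : ∀ z : ℍ, (κ1 - c) * (r1 z * (b1 : ℍ → ℂ) ((γ : SL(2, ℤ)) • z)
      * cosetProd ℓ (b : ℍ → ℂ) z * cosetProd ℓ (b : ℍ → ℂ) ((γ : SL(2, ℤ)) • z)) = 0 := by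
    intro z
    have E1 := hmul1 γ z
    have E2 := hζeq ((γ : SL(2, ℤ)) • z)
    have E3 := hRmul z
    have E4 := hζeq z
    linear_combination
      (-(cosetProd ℓ (b : ℍ → ℂ) z * cosetProd ℓ (b : ℍ → ℂ) ((γ : SL(2, ℤ)) • z))) * E1
      + ((b1 : ℍ → ℂ) z * cosetProd ℓ (b : ℍ → ℂ) z) * E2
      + (ζ * (b1 : ℍ → ℂ) ((γ : SL(2, ℤ)) • z) * (b1 : ℍ → ℂ) z) * E3
      - (c * (b1 : ℍ → ℂ) ((γ : SL(2, ℤ)) • z)
          * cosetProd ℓ (b : ℍ → ℂ) ((γ : SL(2, ℤ)) • z)) * E4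
  -- the auxiliary product is not identically zero
  have hx1ne : ((⟨_, hx1⟩ : H29.kumGroup V m) : (L N)ˣ).val ≠ 0 := Units.ne_zero _
  have hr1ne : r1 ≠ 0 :=
    H29.IsKumData.r_ne_zero (χ := H29.kumChar V hm ⟨_, hx1⟩)
      ⟨hb1, hx1', hr1, hpow1, hmul1⟩ hm hx1ne
  have hb1ne : (b1 : ℍ → ℂ) ≠ 0 := H29.coe_ne_zero_RN hb1
  have hbne : (b : ℍ → ℂ) ≠ 0 := H29.coe_ne_zero_RN hb
  have hBne : cosetProd ℓ (b : ℍ → ℂ) ≠ 0 := cosetProd_ne_zero ℓ b.2.mdiff hbne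
  have hγmd : MDiff (fun τ : ℍ => (γ : SL(2, ℤ)) • τ) := H29.mdiff_smul_SL (γ : SL(2, ℤ))
  have hb1γ : MDiff (fun z : ℍ => (b1 : ℍ → ℂ) ((γ : SL(2, ℤ)) • z)) := b1.2.mdiff.comp hγmd
  have hBγ : MDiff (fun z : ℍ => cosetProd ℓ (b : ℍ → ℂ) ((γ : SL(2, ℤ)) • z)) :=
    hBmd.comp hγmd
  have h1 := H29.mul_ne_zero_uhp hr1 hb1γ hr1ne (H29.comp_smul_ne_zero hb1ne (γ : SL(2, ℤ)))
  have h2 := H29.mul_ne_zero_uhp (hr1.mul hb1γ) hBmd h1 hBne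
  have h3 := H29.mul_ne_zero_uhp ((hr1.mul hb1γ).mul hBmd) hBγ h2
    (H29.comp_smul_ne_zero hBne (γ : SL(2, ℤ)))
  obtain ⟨z, hz⟩ := Function.ne_iff.mp h3
  have h4 := hkey z
  have h5 : κ1 - c = 0 := by
    rcases mul_eq_zero.mp h4 with h | h
    · exact h
    · exact absurd h hz
  apply Units.ext
  rw [Units.coe_prod]
  exact sub_eq_zero.mp h5

/-- `Norm_α (β y)` is the landed `S37.H58.heckeNorm N ℓ y` (helper16's Atkin–Lehner swap). -/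
theorem heckeNormA_eq_heckeNorm (hℓ : ℓ.Prime) (hℓN : ¬ ℓ ∣ N) (y : FN N) :
    heckeNormA N ℓ y = S37.H58.heckeNorm N ℓ y :=
  Fermat.Agent.S29.H16.norm_alpha_beta_eq_heckeNorm N ℓ hℓ hℓN y

theorem dvd_ord_heckeNormA (hℓ : ℓ.Prime) (hℓN : ¬ ℓ ∣ N) {m : ℕ} (hm : m ≠ 0) {y : FN N}
    (hy : y ≠ 0) (hdvd : ∀ v : Place Kbar (FN N), (m : ℤ) ∣ v.ord y) (v : Place Kbar (FN N)) :
    (m : ℤ) ∣ v.ord (heckeNormA N ℓ y) := by
  rw [heckeNormA_eq_heckeNorm hℓ hℓN]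
  exact Fermat.Agent.S29.H08.dvd_ord_heckeNorm N ℓ hℓ hℓN hm hy hdvd v

/-- **(HK), function-shaped, general character.**  If all orders of `y` are divisible by `m`,
then `P.Φ y` and `P.Φ (Norm_α (β y))` lie in the Kummer group and the Kummer character of the
second is the Hecke transfer of the Kummer character of the first. -/
theorem kumChar_heckeNormA_of_dvd (V : ValSpec N) (P : PhiData N) {m : ℕ} (hm : m ≠ 0)
    (hℓ : ℓ.Prime) (hℓN : ¬ ℓ ∣ N) {y : FN N} (hy : y ≠ 0)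
    (hdvd : ∀ v : Place Kbar (FN N), (m : ℤ) ∣ v.ord y) :
    ∃ (hx0 : Units.mk0 (P.Φ y) ((map_ne_zero P.Φ).mpr hy) ∈ H29.kumGroup V m)
      (hx1 : Units.mk0 (P.Φ (heckeNormA N ℓ y))
        ((map_ne_zero P.Φ).mpr (heckeNormA_ne_zero N ℓ hy)) ∈ H29.kumGroup V m),
      ∀ (γ : Gamma0 N) (σ : Equiv.Perm (Option (Fin ℓ))) (g' : Option (Fin ℓ) → Gamma0 N),
        H06.IsDecomp N ℓ γ σ g' →
          H29.kumChar V hm ⟨_, hx1⟩ γ = ∏ x, H29.kumChar V hm ⟨_, hx0⟩ (g' x) := by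
  have hx0 := mem_kumGroup_of_dvd_place V P hy hdvd
  have hx1 := mem_kumGroup_of_dvd_place V P (heckeNormA_ne_zero N ℓ hy)
    (dvd_ord_heckeNormA hℓ hℓN hm hy hdvd)
  exact ⟨hx0, hx1, fun γ σ g' hd => kumChar_heckeNormA V P hm hℓ hℓN hy hx0 hx1 hd⟩

/-- **(HK), function-shaped, `H35.expChar`.** -/
theorem real_heckeNormA35 (V : ValSpec N) (P : PhiData N) {m : ℕ} (hm : m ≠ 0)
    (hℓ : ℓ.Prime) (hℓN : ¬ ℓ ∣ N) {χ χ' : Additive (Gamma0 N) →+ ℤ}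
    (hT : H06.IsHeckeTr N ℓ χ χ') {y : FN N} (hy : y ≠ 0)
    (hdvd : ∀ v : Place Kbar (FN N), (m : ℤ) ∣ v.ord y)
    (hx : Units.mk0 (P.Φ y) ((map_ne_zero P.Φ).mpr hy) ∈ H29.kumGroup V m)
    (hκ : H29.kumChar V hm ⟨_, hx⟩ = H35.expChar χ m) :
    ∃ (hy1 : heckeNormA N ℓ y ≠ 0)
      (_ : ∀ v : Place Kbar (FN N), (m : ℤ) ∣ v.ord (heckeNormA N ℓ y))
      (hx1 : Units.mk0 (P.Φ (heckeNormA N ℓ y)) ((map_ne_zero P.Φ).mpr hy1) ∈ H29.kumGroup V m),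
      H29.kumChar V hm ⟨_, hx1⟩ = H35.expChar χ' m := by
  have hy1 := heckeNormA_ne_zero N ℓ hy
  have hdvd1 := dvd_ord_heckeNormA hℓ hℓN hm hy hdvd
  have hx1 := mem_kumGroup_of_dvd_place V P hy1 hdvd1
  refine ⟨hy1, hdvd1, hx1, ?_⟩
  refine MonoidHom.ext fun γ => ?_
  obtain ⟨σ, g', hd⟩ := H06.exists_isDecomp hℓ hℓN γ
  rw [kumChar_heckeNormA V P hm hℓ hℓN hy hx hx1 hd, hκ]
  exact hT.prod_expChar35 hd m

/-- **(HK), function-shaped, `H39.expChar`.** -/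
theorem real_heckeNormA39 (V : ValSpec N) (P : PhiData N) {m : ℕ} (hm : m ≠ 0)
    (hℓ : ℓ.Prime) (hℓN : ¬ ℓ ∣ N) {χ χ' : Additive (Gamma0 N) →+ ℤ}
    (hT : H06.IsHeckeTr N ℓ χ χ') {y : FN N} (hy : y ≠ 0)
    (hdvd : ∀ v : Place Kbar (FN N), (m : ℤ) ∣ v.ord y)
    (hx : Units.mk0 (P.Φ y) ((map_ne_zero P.Φ).mpr hy) ∈ H29.kumGroup V m)
    (hκ : H29.kumChar V hm ⟨_, hx⟩ = H39.expChar χ m) :
    ∃ (hy1 : heckeNormA N ℓ y ≠ 0)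
      (_ : ∀ v : Place Kbar (FN N), (m : ℤ) ∣ v.ord (heckeNormA N ℓ y))
      (hx1 : Units.mk0 (P.Φ (heckeNormA N ℓ y)) ((map_ne_zero P.Φ).mpr hy1) ∈ H29.kumGroup V m),
      H29.kumChar V hm ⟨_, hx1⟩ = H39.expChar χ' m := by
  have hy1 := heckeNormA_ne_zero N ℓ hy
  have hdvd1 := dvd_ord_heckeNormA hℓ hℓN hm hy hdvd
  have hx1 := mem_kumGroup_of_dvd_place V P hy1 hdvd1
  refine ⟨hy1, hdvd1, hx1, ?_⟩
  refine MonoidHom.ext fun γ => ?_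
  obtain ⟨σ, g', hd⟩ := H06.exists_isDecomp hℓ hℓN γ
  rw [kumChar_heckeNormA V P hm hℓ hℓN hy hx hx1 hd, hκ]
  exact hT.prod_expChar39 hd m

/-- **(HK), function-shaped, for the landed `S37.H58.heckeNorm`, `H35.expChar`**
(clause 7 of `H08.kumStmt_of_real`). -/
theorem real_heckeNorm35 (V : ValSpec N) (P : PhiData N) {m : ℕ} (hm : m ≠ 0)
    (hℓ : ℓ.Prime) (hℓN : ¬ ℓ ∣ N) {χ χ' : Additive (Gamma0 N) →+ ℤ}
    (hT : H06.IsHeckeTr N ℓ χ χ') {y : FN N} (hy : y ≠ 0)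
    (hdvd : ∀ v : Place Kbar (FN N), (m : ℤ) ∣ v.ord y)
    (hx : Units.mk0 (P.Φ y) ((map_ne_zero P.Φ).mpr hy) ∈ H29.kumGroup V m)
    (hκ : H29.kumChar V hm ⟨_, hx⟩ = H35.expChar χ m) :
    ∃ (hy1 : S37.H58.heckeNorm N ℓ y ≠ 0)
      (_ : ∀ v : Place Kbar (FN N), (m : ℤ) ∣ v.ord (S37.H58.heckeNorm N ℓ y))
      (hx1 : Units.mk0 (P.Φ (S37.H58.heckeNorm N ℓ y)) ((map_ne_zero P.Φ).mpr hy1)
        ∈ H29.kumGroup V m),
      H29.kumChar V hm ⟨_, hx1⟩ = H35.expChar χ' m := by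
  have h := real_heckeNormA35 V P hm hℓ hℓN hT hy hdvd hx hκ
  rw [heckeNormA_eq_heckeNorm hℓ hℓN] at h
  exact h

/-- **(HK), function-shaped, for the landed `S37.H58.heckeNorm`, `H39.expChar`.** -/
theorem real_heckeNorm39 (V : ValSpec N) (P : PhiData N) {m : ℕ} (hm : m ≠ 0)
    (hℓ : ℓ.Prime) (hℓN : ¬ ℓ ∣ N) {χ χ' : Additive (Gamma0 N) →+ ℤ}
    (hT : H06.IsHeckeTr N ℓ χ χ') {y : FN N} (hy : y ≠ 0)
    (hdvd : ∀ v : Place Kbar (FN N), (m : ℤ) ∣ v.ord y)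
    (hx : Units.mk0 (P.Φ y) ((map_ne_zero P.Φ).mpr hy) ∈ H29.kumGroup V m)
    (hκ : H29.kumChar V hm ⟨_, hx⟩ = H39.expChar χ m) :
    ∃ (hy1 : S37.H58.heckeNorm N ℓ y ≠ 0)
      (_ : ∀ v : Place Kbar (FN N), (m : ℤ) ∣ v.ord (S37.H58.heckeNorm N ℓ y))
      (hx1 : Units.mk0 (P.Φ (S37.H58.heckeNorm N ℓ y)) ((map_ne_zero P.Φ).mpr hy1)
        ∈ H29.kumGroup V m),
      H29.kumChar V hm ⟨_, hx1⟩ = H39.expChar χ' m := by
  have h := real_heckeNormA39 V P hm hℓ hℓN hT hy hdvd hx hκ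
  rw [heckeNormA_eq_heckeNorm hℓ hℓN] at h
  exact h

/-- `m ∣` the orders of `f₀` when `m • D = div f₀`. -/
theorem dvd_ord_of_smul_eq {m : ℕ} {D : Divisor Kbar (modularFunctionFieldBar N)} {f₀ : FN N}
    (hD : ∀ v : Place Kbar (modularFunctionFieldBar N), (m • D) v = v.ord f₀)
    (v : Place Kbar (FN N)) : (m : ℤ) ∣ v.ord f₀ := by
  rw [← hD v, Finsupp.smul_apply, nsmul_eq_mul]
  exact dvd_mul_right _ _

/-- **(R-hecke)**, divisor-shaped, `H39.expChar`: if `m • D = div f₀` and the Kummer character of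
`f₀` is `e(χ/m)`, then `m • T_ℓ D = div f₁` for an `f₁` whose Kummer character is `e(χ'/m)`,
`χ'` the Hecke transfer of `χ`. -/
theorem r_hecke39 (V : ValSpec N) (P : PhiData N) {m : ℕ} (hm : m ≠ 0)
    (hℓ : ℓ.Prime) (hℓN : ¬ ℓ ∣ N)
    (hα : HeckeAlphaBarIntegral Kbar N ℓ) (hβ : HeckeBetaBarIntegral Kbar N ℓ)
    [HasPrincipalDivisors Kbar (modularFunctionFieldBar (N * ℓ))]
    (χ χ' : Additive (Gamma0 N) →+ ℤ) (hT : H06.IsHeckeTr N ℓ χ χ')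
    (D : Divisor Kbar (modularFunctionFieldBar N)) (f₀ : FN N) (hf₀ : f₀ ≠ 0)
    (hD : ∀ v : Place Kbar (modularFunctionFieldBar N), (m • D) v = v.ord f₀)
    (hx : Units.mk0 (P.Φ f₀) ((map_ne_zero P.Φ).mpr hf₀) ∈ H29.kumGroup V m)
    (hκ : H29.kumChar V hm ⟨_, hx⟩ = H39.expChar χ m) :
    ∃ (f₁ : FN N) (hf₁ : f₁ ≠ 0),
      (∀ v : Place Kbar (modularFunctionFieldBar N), (m • heckeDivBar hα hβ D) v = v.ord f₁) ∧
      ∃ hx1 : Units.mk0 (P.Φ f₁) ((map_ne_zero P.Φ).mpr hf₁) ∈ H29.kumGroup V m,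
        H29.kumChar V hm ⟨_, hx1⟩ = H39.expChar χ' m := by
  obtain ⟨hy1, -, hx1, h1⟩ :=
    real_heckeNormA39 V P hm hℓ hℓN hT hf₀ (dvd_ord_of_smul_eq hD) hx hκ
  exact ⟨heckeNormA N ℓ f₀, hy1, heckeDivBar_smul_apply N ℓ hα hβ D f₀ hf₀ hD, hx1, h1⟩

/-- **(R-hecke)**, divisor-shaped, `H35.expChar`. -/
theorem r_hecke35 (V : ValSpec N) (P : PhiData N) {m : ℕ} (hm : m ≠ 0)
    (hℓ : ℓ.Prime) (hℓN : ¬ ℓ ∣ N)
    (hα : HeckeAlphaBarIntegral Kbar N ℓ) (hβ : HeckeBetaBarIntegral Kbar N ℓ)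
    [HasPrincipalDivisors Kbar (modularFunctionFieldBar (N * ℓ))]
    (χ χ' : Additive (Gamma0 N) →+ ℤ) (hT : H06.IsHeckeTr N ℓ χ χ')
    (D : Divisor Kbar (modularFunctionFieldBar N)) (f₀ : FN N) (hf₀ : f₀ ≠ 0)
    (hD : ∀ v : Place Kbar (modularFunctionFieldBar N), (m • D) v = v.ord f₀)
    (hx : Units.mk0 (P.Φ f₀) ((map_ne_zero P.Φ).mpr hf₀) ∈ H29.kumGroup V m)
    (hκ : H29.kumChar V hm ⟨_, hx⟩ = H35.expChar χ m) :
    ∃ (f₁ : FN N) (hf₁ : f₁ ≠ 0),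
      (∀ v : Place Kbar (modularFunctionFieldBar N), (m • heckeDivBar hα hβ D) v = v.ord f₁) ∧
      ∃ hx1 : Units.mk0 (P.Φ f₁) ((map_ne_zero P.Φ).mpr hf₁) ∈ H29.kumGroup V m,
        H29.kumChar V hm ⟨_, hx1⟩ = H35.expChar χ' m := by
  obtain ⟨hy1, -, hx1, h1⟩ :=
    real_heckeNormA35 V P hm hℓ hℓN hT hf₀ (dvd_ord_of_smul_eq hD) hx hκ
  exact ⟨heckeNormA N ℓ f₀, hy1, heckeDivBar_smul_apply N ℓ hα hβ D f₀ hf₀ hD, hx1, h1⟩

end Fermat.Agent.S29.H58
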