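import Mathlib
import Fermat.Prelude.Def_GaloisRep_Residual
import Fermat.Agent.S37.Rat_helper94

/-!
# S29, finite-level leaf (helper94): every class of `J₀(N)` has an open stabiliser

`Qb = AlgebraicClosure ℚ`, `JZero N = Pic0 Qb (modularFunctionFieldBar N)` with the arithmetic
Galois action of `Gal(Qb/ℚ)`.

* `exists_finset_fix_class`            : a class is fixed by the pointwise stabiliser of a finite
  set of constants;
* `exists_finiteDimensional_fix_class` : ... by `Gal(Qb/L)` for a number field `L`;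
* `exists_finiteDimensional_fix_finset`, `exists_finiteDimensional_fix_of_finite` : finitely many
  classes at once;
* `finite_orbit`                       : Galois orbits of classes are finite;
* `FixedAtFiniteLevel`                 : the pointwise predicate for an arbitrary action, with its
  closure properties, and `factorsThroughFiniteLevel_of_pointwise`: a finite-dimensional
  representation all of whose vectors are fixed at finite level satisfies the frozen
  `GaloisFactorsThroughFiniteLevel`.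
-/

set_option autoImplicit false

noncomputable section

namespace Fermat.Agent.S29.H94

open ModularCurve AlgebraicCurve IntermediateField

local notation "Qb" => AlgebraicClosure ℚ

/-! ### classes of `J₀(N)` -/

/-- every divisor of `Fbar_N` is fixed by the pointwise stabiliser of a finite set of constants -/
theorem exists_finset_fix_divisor (N : ℕ) [NeZero N]
    (D : Divisor Qb ↥(modularFunctionFieldBar N)) :
    ∃ C : Finset Qb, ∀ σ : Qb ≃ₐ[ℚ] Qb, (∀ c ∈ C, σ c = c) →
      Fermat.Agent.S37.H94.gal N σ • D = D := by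
  classical
  induction D using Finsupp.induction with
  | zero => exact ⟨∅, fun σ _ => smul_zero _⟩
  | single_add v n D _ _ ih =>
    obtain ⟨C1, h1⟩ := Fermat.Agent.S37.H94.exists_finset_fix N v
    obtain ⟨C2, h2⟩ := ih
    refine ⟨C1 ∪ C2, fun σ h => ?_⟩
    rw [smul_add, SemilinearAut.smul_single,
      h1 σ (fun c hc => h c (Finset.mem_union_left _ hc)),
      h2 σ (fun c hc => h c (Finset.mem_union_right _ hc))]

/-- every class of `J₀(N)` is fixed by the pointwise stabiliser of a finite set of constants -/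
theorem exists_finset_fix_class (N : ℕ) [NeZero N] (x : JZero N) :
    ∃ C : Finset Qb, ∀ σ : Qb ≃ₐ[ℚ] Qb, (∀ c ∈ C, σ c = c) → σ • x = x := by
  obtain ⟨D, rfl⟩ := Pic0.mk_surjective x
  obtain ⟨C, hC⟩ := exists_finset_fix_divisor N (D : Divisor Qb ↥(modularFunctionFieldBar N))
  refine ⟨C, fun σ h => ?_⟩
  rw [galois_smul_pic0_def, SemilinearAut.pic0_smul_mk]
  exact congrArg Pic0.mk (Subtype.ext (hC σ h))

/-- finite-level form: every class of `J₀(N)` is fixed by `Gal(Qb/L)` for a number field `L` -/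
theorem exists_finiteDimensional_fix_class (N : ℕ) [NeZero N] (x : JZero N) :
    ∃ L : IntermediateField ℚ Qb, FiniteDimensional ℚ L ∧
      ∀ σ : Qb ≃ₐ[ℚ] Qb, (∀ c ∈ L, σ c = c) → σ • x = x := by
  obtain ⟨C, hC⟩ := exists_finset_fix_class N x
  refine ⟨IntermediateField.adjoin ℚ (C : Set Qb), ?_, fun σ h => hC σ (fun c hc =>
    h c (IntermediateField.subset_adjoin ℚ _ hc))⟩
  exact IntermediateField.finiteDimensional_adjoin (fun c _ =>
    (AlgebraicClosure.isAlgebraic ℚ).isAlgebraic c |>.isIntegral)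

/-- finitely many classes at once -/
theorem exists_finiteDimensional_fix_finset (N : ℕ) [NeZero N] (s : Finset (JZero N)) :
    ∃ L : IntermediateField ℚ Qb, FiniteDimensional ℚ L ∧
      ∀ σ : Qb ≃ₐ[ℚ] Qb, (∀ c ∈ L, σ c = c) → ∀ x ∈ s, σ • x = x := by
  classical
  choose C hC using exists_finset_fix_class N
  refine ⟨IntermediateField.adjoin ℚ ((s.biUnion C : Finset Qb) : Set Qb), ?_, fun σ h x hx =>
    hC x σ (fun c hc => h c (IntermediateField.subset_adjoin ℚ _
      (Finset.mem_coe.mpr (Finset.mem_biUnion.mpr ⟨x, hx, hc⟩))))⟩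
  exact IntermediateField.finiteDimensional_adjoin (fun c _ =>
    (AlgebraicClosure.isAlgebraic ℚ).isAlgebraic c |>.isIntegral)

/-- a finite set of classes at once -/
theorem exists_finiteDimensional_fix_of_finite (N : ℕ) [NeZero N] (S : Set (JZero N))
    (hS : S.Finite) :
    ∃ L : IntermediateField ℚ Qb, FiniteDimensional ℚ L ∧
      ∀ σ : Qb ≃ₐ[ℚ] Qb, (∀ c ∈ L, σ c = c) → ∀ x ∈ S, σ • x = x := by
  obtain ⟨L, hL, h⟩ := exists_finiteDimensional_fix_finset N hS.toFinset
  exact ⟨L, hL, fun σ hσ x hx => h σ hσ x (hS.mem_toFinset.mpr hx)⟩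

/-- the Galois orbit of a class is finite -/
theorem finite_orbit (N : ℕ) [NeZero N] (x : JZero N) :
    (Set.range fun σ : Qb ≃ₐ[ℚ] Qb => σ • x).Finite := by
  classical
  obtain ⟨L, hL, hfix⟩ := exists_finiteDimensional_fix_class N x
  let r : (Qb ≃ₐ[ℚ] Qb) → (L →ₐ[ℚ] Qb) := fun σ => (σ : Qb →ₐ[ℚ] Qb).comp L.val
  let f : (L →ₐ[ℚ] Qb) → JZero N := fun e =>
    if h : ∃ σ : Qb ≃ₐ[ℚ] Qb, r σ = e then h.choose • x else 0
  refine (Set.finite_range f).subset ?_
  rintro _ ⟨σ, rfl⟩
  refine ⟨r σ, ?_⟩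
  have h : ∃ τ : Qb ≃ₐ[ℚ] Qb, r τ = r σ := ⟨σ, rfl⟩
  show f (r σ) = σ • x
  simp only [f, dif_pos h]
  have hτ : r h.choose = r σ := h.choose_spec
  have hfix' : (σ⁻¹ * h.choose) • x = x := by
    refine hfix _ (fun c hc => ?_)
    have h1 : h.choose c = σ c := by
      exact DFunLike.congr_fun hτ ⟨c, hc⟩
    show σ⁻¹ (h.choose c) = c
    rw [h1]
    exact σ.symm_apply_apply c
  calc h.choose • x = σ • ((σ⁻¹ * h.choose) • x) := by rw [← mul_smul, mul_inv_cancel_left]
    _ = σ • x := by rw [hfix']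

/-! ### the pointwise finite-level predicate for an arbitrary action -/

/-- `x` is fixed, under the action `act` of `Gal(Qb/ℚ)`, by `Gal(Qb/L)` for some number field
`L ⊆ Qb` -/
def FixedAtFiniteLevel {X : Type*} (act : (Qb ≃ₐ[ℚ] Qb) → X → X) (x : X) : Prop :=
  ∃ L : IntermediateField ℚ Qb, FiniteDimensional ℚ L ∧
    ∀ σ : Qb ≃ₐ[ℚ] Qb, (∀ c ∈ L, σ c = c) → act σ x = x

/-- every class of `J₀(N)` is fixed at finite level -/
theorem fixedAtFiniteLevel_class (N : ℕ) [NeZero N] (x : JZero N) :
    FixedAtFiniteLevel (fun (σ : Qb ≃ₐ[ℚ] Qb) (y : JZero N) => σ • y) x :=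
  exists_finiteDimensional_fix_class N x

namespace FixedAtFiniteLevel

variable {X Y : Type*}

/-- a point fixed by the whole group -/
theorem of_forall {act : (Qb ≃ₐ[ℚ] Qb) → X → X} {x : X} (h : ∀ σ, act σ x = x) :
    FixedAtFiniteLevel act x :=
  ⟨⊥, inferInstance, fun σ _ => h σ⟩

/-- transport along an equivariant map -/
theorem map {act : (Qb ≃ₐ[ℚ] Qb) → X → X} {act' : (Qb ≃ₐ[ℚ] Qb) → Y → Y} (f : X → Y)
    (hf : ∀ σ x, act' σ (f x) = f (act σ x)) {x : X} (hx : FixedAtFiniteLevel act x) :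
    FixedAtFiniteLevel act' (f x) := by
  obtain ⟨L, hL, h⟩ := hx
  exact ⟨L, hL, fun σ hσ => by rw [hf, h σ hσ]⟩

/-- two points at once, combined by an equivariant binary operation -/
theorem map₂ {Z : Type*} {act : (Qb ≃ₐ[ℚ] Qb) → X → X} {act' : (Qb ≃ₐ[ℚ] Qb) → Y → Y}
    {act'' : (Qb ≃ₐ[ℚ] Qb) → Z → Z} (f : X → Y → Z)
    (hf : ∀ σ x y, act'' σ (f x y) = f (act σ x) (act' σ y)) {x : X} {y : Y}
    (hx : FixedAtFiniteLevel act x) (hy : FixedAtFiniteLevel act' y) :
    FixedAtFiniteLevel act'' (f x y) := by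
  obtain ⟨L, hL, h⟩ := hx
  obtain ⟨L', hL', h'⟩ := hy
  have := hL
  have := hL'
  refine ⟨L ⊔ L', inferInstance, fun σ hσ => ?_⟩
  rw [hf, h σ (fun c hc => hσ c ((le_sup_left : L ≤ L ⊔ L') hc)),
    h' σ (fun c hc => hσ c ((le_sup_right : L' ≤ L ⊔ L') hc))]

/-- sums, for an additive action -/
theorem add [Add X] {act : (Qb ≃ₐ[ℚ] Qb) → X → X}
    (hadd : ∀ σ x y, act σ (x + y) = act σ x + act σ y) {x y : X}
    (hx : FixedAtFiniteLevel act x) (hy : FixedAtFiniteLevel act y) :
    FixedAtFiniteLevel act (x + y) :=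
  map₂ (fun a b => a + b) hadd hx hy

/-- zero, for an action fixing it -/
theorem zero [Zero X] {act : (Qb ≃ₐ[ℚ] Qb) → X → X} (hzero : ∀ σ, act σ 0 = 0) :
    FixedAtFiniteLevel act (0 : X) :=
  of_forall hzero

/-- finite sums, for an additive action -/
theorem sum [AddCommMonoid X] {act : (Qb ≃ₐ[ℚ] Qb) → X → X} (hzero : ∀ σ, act σ 0 = 0)
    (hadd : ∀ σ x y, act σ (x + y) = act σ x + act σ y) {ι : Type*} (s : Finset ι)
    (f : ι → X) (hf : ∀ i ∈ s, FixedAtFiniteLevel act (f i)) :
    FixedAtFiniteLevel act (∑ i ∈ s, f i) := by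
  classical
  induction s using Finset.induction_on with
  | empty => simpa using zero hzero
  | insert a s ha ih =>
    rw [Finset.sum_insert ha]
    exact add hadd (hf a (Finset.mem_insert_self a s))
      (ih (fun i hi => hf i (Finset.mem_insert_of_mem hi)))

/-- scalar multiples, for an action commuting with the scalar -/
theorem smul {R : Type*} [SMul R X] {act : (Qb ≃ₐ[ℚ] Qb) → X → X} (c : R)
    (hsmul : ∀ σ x, act σ (c • x) = c • act σ x) {x : X} (hx : FixedAtFiniteLevel act x) :
    FixedAtFiniteLevel act (c • x) :=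
  map (act := act) (fun a => c • a) hsmul hx

/-- a finite family is fixed by one common `Gal(Qb/L)` -/
theorem exists_common {act : (Qb ≃ₐ[ℚ] Qb) → X → X} {ι : Type*} [Finite ι] (f : ι → X)
    (hf : ∀ i, FixedAtFiniteLevel act (f i)) :
    ∃ L : IntermediateField ℚ Qb, FiniteDimensional ℚ L ∧
      ∀ σ : Qb ≃ₐ[ℚ] Qb, (∀ c ∈ L, σ c = c) → ∀ i, act σ (f i) = f i := by
  choose L hL h using hf
  have := hL
  refine ⟨⨆ i, L i, IntermediateField.finiteDimensional_iSup_of_finite, fun σ hσ i => ?_⟩
  exact h i σ (fun c hc => hσ c ((le_iSup L i) hc))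

end FixedAtFiniteLevel

/-- a finite-dimensional representation of `Gal(Qb/ℚ)` all of whose vectors are fixed at finite
level factors through finite level, in the frozen sense -/
theorem factorsThroughFiniteLevel_of_pointwise {k W : Type} [Field k] [AddCommGroup W]
    [Module k W] [FiniteDimensional k W] (r : (Qb ≃ₐ[ℚ] Qb) →* Module.End k W)
    (h : ∀ w : W, FixedAtFiniteLevel (fun σ v => r σ v) w) :
    GaloisFactorsThroughFiniteLevel r := by
  classical
  let b := Module.finBasis k W
  obtain ⟨L, hL, hfix⟩ := FixedAtFiniteLevel.exists_common (act := fun σ v => r σ v)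
    (fun i => b i) (fun i => h (b i))
  refine ⟨L, hL, fun σ hσ => ?_⟩
  refine b.ext (fun i => ?_)
  rw [Module.End.one_apply]
  exact hfix σ hσ i

/-- the same, with the hypothesis only on a spanning set -/
theorem factorsThroughFiniteLevel_of_span {k W : Type} [Field k] [AddCommGroup W]
    [Module k W] [FiniteDimensional k W] (r : (Qb ≃ₐ[ℚ] Qb) →* Module.End k W)
    (S : Set W) (hS : Submodule.span k S = ⊤)
    (h : ∀ w ∈ S, FixedAtFiniteLevel (fun σ v => r σ v) w) :
    GaloisFactorsThroughFiniteLevel r := by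
  refine factorsThroughFiniteLevel_of_pointwise r (fun w => ?_)
  have hw : w ∈ Submodule.span k S := hS ▸ Submodule.mem_top
  induction hw using Submodule.span_induction with
  | mem x hx => exact h x hx
  | zero => exact FixedAtFiniteLevel.zero (fun σ => map_zero _)
  | add x y _ _ hx hy => exact FixedAtFiniteLevel.add (fun σ a b => map_add _ a b) hx hy
  | smul c x _ hx => exact FixedAtFiniteLevel.smul c (fun σ a => map_smul _ c a) hx

end Fermat.Agent.S29.H94
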