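import Mathlib
import Fermat.Prelude.Def_ModularCurve_HeckeModule
import Fermat.Agent.S37.Stmts_helper27
import Fermat.Agent.S37.ConstTop_helper27
import Fermat.Agent.S37.GalStmt_helper72
import Fermat.Agent.S37.ES_helper82
import Fermat.Agent.S37.TransferLevel_helper87
import Fermat.Agent.S37.ConstCoreInst_helper8
import Fermat.Agent.S18.TopFin_helper19

/-!
# S29, node (GS1)/(GS2): Frobenius and inertia on torsion classes of `J₀(N)` (helper26)

The class-level consequences of the landed S37 nodes (GAL), (ES), (CONST) on the torsion of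
`JZero N`, WITHOUT the Hecke-module structure (no commutation of Hecke operators, no
`SMulCommClass` hypothesis):

* `inertia_fix` : for `ℓ ∤ N`, the inertia group at a place over `ℓ` fixes every class killed by
  an integer prime to `ℓ`;
* `frob_quad` : for `ℓ ∤ N` and a Frobenius element `σ` at a place over `ℓ`,
  `σ² x - T_ℓ (σ x) + ℓ x = 0` for every class `x` killed by an integer prime to `ℓ`.
-/

set_option autoImplicit false

open ModularCurve AlgebraicCurve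

namespace Fermat.Agent.S29.H26

open Fermat.Agent.S37 Fermat.Agent

noncomputable section

local notation "Qb" => AlgebraicClosure ℚ

variable (N : ℕ) [NeZero N]

omit [NeZero N] in
/-- the Galois action commutes with multiplication by an integer. -/
theorem galois_smul_nsmul (σ : Qb ≃ₐ[ℚ] Qb) (m : ℕ) (x : JZero N) :
    m • (σ • x) = σ • (m • x) :=
  ((DistribSMul.toAddMonoidHom (JZero N) σ).map_nsmul m x).symm

omit [NeZero N] in
theorem galois_smul_zero' (σ : Qb ≃ₐ[ℚ] Qb) : σ • (0 : JZero N) = 0 :=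
  (DistribSMul.toAddMonoidHom (JZero N) σ).map_zero

omit [NeZero N] in
/-- the Galois action preserves the classes killed by `m`. -/
theorem galois_smul_torsion (σ : Qb ≃ₐ[ℚ] Qb) (m : ℕ) {x : JZero N} (hx : m • x = 0) :
    m • (σ • x) = 0 := by
  rw [galois_smul_nsmul, hx, galois_smul_zero']

/-- (INJ) of S37 at every prime `ℓ ∤ N` (the landed nodes, assembled as in `S37.lean`). -/
theorem injStmt {ℓ : ℕ} (hℓ : ℓ.Prime) (hℓN : ¬ ℓ ∣ N) (A : ValuationSubring Qb)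
    (hA : A.LiesOverPrime ℓ) : H27.InjStmt N A ℓ :=
  H27.injStmt_of_constStmt N A Fermat.Agent.S18.H19.modelKumStmt hℓ hℓN hA
    (H27.constStmt_of_levels N ℓ A
      (fun h2 h3 => ⟨H87.transferStmt_j N A, H08.constCore_j N ℓ hℓ hℓN h2 h3 A hA⟩)
      (fun h => by
        subst h
        exact ⟨H87.transferStmt_two N A hA, H08.constCore_two N hℓN A hA⟩)
      (fun h => by
        subst h
        exact ⟨H87.transferStmt_three N A hA, H08.constCore_three N hℓN A hA⟩))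

/-- no torsion prime to `ℓ` in the reduction kernel `K1 (DivT N A)`. -/
theorem eq_zero_of_mem_K1 {ℓ : ℕ} (hℓ : ℓ.Prime) (hℓN : ¬ ℓ ∣ N) (A : ValuationSubring Qb)
    (hA : A.LiesOverPrime ℓ) (m : ℕ) (hm : ¬ ℓ ∣ m) {x : JZero N}
    (hx : x ∈ H72.K1 (H27.DivT N A)) (hmx : m • x = 0) : x = 0 := by
  refine H72.eq_zero_of_mem_K1 m ?_ hx hmx
  intro D hD hmD
  obtain ⟨f, hf, hfD⟩ := hmD
  exact injStmt N hℓ hℓN A hA m hm D hD f hf hfD

/-- **(GS2)** inertia at a place over `ℓ ∤ N` fixes the torsion prime to `ℓ` of `J₀(N)`. -/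
theorem inertia_fix {ℓ : ℕ} (hℓ : ℓ.Prime) (hℓN : ¬ ℓ ∣ N) (A : ValuationSubring Qb)
    (hA : A.LiesOverPrime ℓ) (τ : Qb ≃ₐ[ℚ] Qb) (hτ : τ ∈ A.inertiaSubgroupIn ℚ)
    (m : ℕ) (hm : ¬ ℓ ∣ m) (x : JZero N) (hx : m • x = 0) : τ • x = x := by
  have h1 : arithmeticGalois (modularFunctionFieldFull N) τ • x - x ∈ H72.K1 (H27.DivT N A) :=
    H72.smul_sub_mem_K1 (arithmeticGalois (modularFunctionFieldFull N) τ)
      (fun P => H27.single_sub_single_mem_divT N A (H72.galStmt N ℓ hℓ hℓN A hA τ hτ P)) x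
  have h2 : m • (arithmeticGalois (modularFunctionFieldFull N) τ • x - x) = 0 := by
    have e : arithmeticGalois (modularFunctionFieldFull N) τ • x = τ • x := rfl
    rw [e, nsmul_sub, galois_smul_torsion N τ m hx, hx, sub_zero]
  have h3 := eq_zero_of_mem_K1 N hℓ hℓN A hA m hm h1 h2
  exact sub_eq_zero.mp h3

/-- **(GS1)** the Eichler-Shimura relation on the torsion prime to `ℓ` of `J₀(N)`: for a
Frobenius element `σ` at a place over `ℓ ∤ N`, `σ² x - T_ℓ (σ x) + ℓ x = 0`. -/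
theorem frob_quad {ℓ : ℕ} (hℓ : ℓ.Prime) (hℓN : ¬ ℓ ∣ N) (A : ValuationSubring Qb)
    (hA : A.LiesOverPrime ℓ) (σ : Qb ≃ₐ[ℚ] Qb) (hσ : A.IsFrobeniusAt σ ℓ)
    (m : ℕ) (hm : ¬ ℓ ∣ m) (x : JZero N) (hx : m • x = 0) :
    σ • σ • x - heckeOperatorBar N ⟨ℓ, hℓ⟩ (σ • x) + ℓ • x = 0 := by
  have _i : NeZero ℓ := ⟨hℓ.ne_zero⟩
  obtain ⟨hα, hβ, hP, hfin, hFI, hN⟩ := H37.heckeInputsAlong N ℓ
  have h1 : arithmeticGalois (modularFunctionFieldFull N) σ •
        arithmeticGalois (modularFunctionFieldFull N) σ • x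
      - (heckeOperatorBar N (⟨ℓ, hℓ⟩ : Nat.Primes)).toAddMonoidHom
          (arithmeticGalois (modularFunctionFieldFull N) σ • x) + ℓ • x
      ∈ H72.K1 (H27.DivT N A) :=
    H72.quad_mem_K1 (arithmeticGalois (modularFunctionFieldFull N) σ)
      (heckeDivBar hα hβ) (heckeOperatorBar N (⟨ℓ, hℓ⟩ : Nat.Primes)).toAddMonoidHom
      (fun D => H72.heckeOperatorBar_mk N ℓ hℓ hα hβ hFI hfin hN D) ℓ
      (fun P => H82.esStmt N ℓ hℓ hℓN A hA σ hσ ⟨hα, hβ, hP, hfin, hFI, hN⟩ hα hβ P) x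
  have e : arithmeticGalois (modularFunctionFieldFull N) σ •
        arithmeticGalois (modularFunctionFieldFull N) σ • x
      - (heckeOperatorBar N (⟨ℓ, hℓ⟩ : Nat.Primes)).toAddMonoidHom
          (arithmeticGalois (modularFunctionFieldFull N) σ • x) + ℓ • x
      = σ • σ • x - heckeOperatorBar N ⟨ℓ, hℓ⟩ (σ • x) + ℓ • x := rfl
  rw [e] at h1
  refine eq_zero_of_mem_K1 N hℓ hℓN A hA m hm h1 ?_
  have h2 : m • (σ • x) = 0 := galois_smul_torsion N σ m hx
  have h3 : m • (σ • σ • x) = 0 := galois_smul_torsion N σ m h2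
  rw [nsmul_add, nsmul_sub, ← map_nsmul (heckeOperatorBar N ⟨ℓ, hℓ⟩), h2, h3, map_zero,
    smul_comm m ℓ x, hx, smul_zero, sub_zero, add_zero]

omit [NeZero N] in
/-- membership in the `m`-torsion of the Prelude, with a natural-number multiple. -/
theorem nsmul_eq_zero_of_mem_torsion {m : ℕ} {x : JZero N}
    (hx : x ∈ Pic0.torsion Qb (modularFunctionFieldBar N) m) : m • x = 0 := by
  have h := Pic0.mem_torsion.mp hx
  rwa [natCast_zsmul] at h

/-- **(GS2), torsion form**: the mod-`m` Galois representation on `J₀(N)[m]` is trivial on the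
inertia groups at the places over `ℓ`, for `ℓ ∤ N m`. -/
theorem torsionGaloisRep_inertia {ℓ : ℕ} (hℓ : ℓ.Prime) (hℓN : ¬ ℓ ∣ N) (A : ValuationSubring Qb)
    (hA : A.LiesOverPrime ℓ) (τ : Qb ≃ₐ[ℚ] Qb) (hτ : τ ∈ A.inertiaSubgroupIn ℚ)
    (m : ℕ) (hm : ¬ ℓ ∣ m) : JZero.torsionGaloisRep N m τ = 1 := by
  ext x
  rw [JZero.coe_torsionGaloisRep_apply]
  exact inertia_fix N hℓ hℓN A hA τ hτ m hm (x : JZero N) (nsmul_eq_zero_of_mem_torsion N x.2)

/-- **(GS1), torsion form**: the Eichler-Shimura relation on `J₀(N)[m]`, `ℓ ∤ N m`. -/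
theorem frob_quad_torsion {ℓ : ℕ} (hℓ : ℓ.Prime) (hℓN : ¬ ℓ ∣ N) (A : ValuationSubring Qb)
    (hA : A.LiesOverPrime ℓ) (σ : Qb ≃ₐ[ℚ] Qb) (hσ : A.IsFrobeniusAt σ ℓ)
    (m : ℕ) (hm : ¬ ℓ ∣ m) (x : Pic0.torsion Qb (modularFunctionFieldBar N) m) :
    σ • σ • (x : JZero N) - heckeOperatorBar N ⟨ℓ, hℓ⟩ (σ • (x : JZero N)) + ℓ • (x : JZero N)
      = 0 :=
  frob_quad N hℓ hℓN A hA σ hσ m hm (x : JZero N) (nsmul_eq_zero_of_mem_torsion N x.2)

end

end Fermat.Agent.S29.H26
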