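import Fermat.Prelude.Def_ModularCurve_HeckeModule

/-!
# (GC) The arithmetic Galois action commutes with the Hecke correspondence

Prelude-only.  Abstract part: if `g`, `g'` are semilinear automorphisms of `F`, `F'`
intertwined by the two maps `φ ψ : F →ₐ[K] F'` of a correspondence, then the correspondence
on divisors and on `Pic0` commutes with them.  Modular part: coefficientwise `σ` is
intertwined by the two degeneracy maps (`q ↦ q` and `q ↦ q ^ ℓ`).
-/

set_option autoImplicit false
set_option linter.style.haveILetI false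

noncomputable section

namespace Fermat.Agent.S29.H13

open AlgebraicCurve ModularCurve
open scoped Pointwise

section Tower

variable {K F F' : Type*} [Field K] [Field F] [Field F']
  [Algebra K F] [Algebra K F'] [Algebra F F'] [IsScalarTower K F F']
  [Algebra.IsIntegral F F']

/-- `(g • w).ord y = w.ord (g⁻¹ • y)`. -/
theorem ord_smul_place {K F : Type*} [Field K] [Field F] [Algebra K F]
    (g : SemilinearAut K F) (w : Place K F) (y : F) :
    (g • w).ord y = w.ord (g⁻¹ • y) := by
  have h := SemilinearAut.ord_smul g w (g⁻¹ • y)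
  rwa [smul_inv_smul] at h

variable (g : SemilinearAut K F) (g' : SemilinearAut K F')

omit [IsScalarTower K F F'] [Algebra.IsIntegral F F'] in
/-- The intertwining relation for the inverses, in the tower setting. -/
theorem inv_tower (hgg' : ∀ x : F, g' • (algebraMap F F' x) = algebraMap F F' (g • x))
    (x : F) : g'⁻¹ • (algebraMap F F' x) = algebraMap F F' (g⁻¹ • x) := by
  have hx := hgg' (g⁻¹ • x)
  rw [smul_inv_smul] at hx
  rw [← hx, inv_smul_smul]

theorem restrict_smul (hgg' : ∀ x : F, g' • (algebraMap F F' x) = algebraMap F F' (g • x))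
    (w : Place K F') : (g' • w).restrict F = g • (w.restrict F) := by
  ext1
  ext x
  rw [Place.restrict_toValuationSubring, SemilinearAut.smul_toValuationSubring,
    SemilinearAut.smul_toValuationSubring, Place.restrict_toValuationSubring,
    ValuationSubring.mem_comap, ValuationSubring.mem_pointwise_smul_iff_inv_smul_mem,
    ValuationSubring.mem_pointwise_smul_iff_inv_smul_mem, ValuationSubring.mem_comap,
    inv_tower g g' hgg']

omit [IsScalarTower K F F'] [Algebra.IsIntegral F F'] in
theorem ramificationIndex_smul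
    (hgg' : ∀ x : F, g' • (algebraMap F F' x) = algebraMap F F' (g • x))
    (w : Place K F') : (g' • w).ramificationIndex F = w.ramificationIndex F := by
  unfold Place.ramificationIndex
  congr 1
  ext n
  simp only [Set.mem_ofPred_eq]
  refine and_congr_right fun _ => ⟨?_, ?_⟩
  · rintro ⟨f, hf, h⟩
    refine ⟨g⁻¹ • f, by simpa using hf, ?_⟩
    rw [← inv_tower g g' hgg', ← ord_smul_place]
    exact h
  · rintro ⟨f, hf, h⟩
    refine ⟨g • f, by simpa using hf, ?_⟩
    rw [ord_smul_place, inv_tower g g' hgg', inv_smul_smul]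
    exact h

/-- The ring isomorphism between the valuation rings of `w.restrict F` and of
`(g' • w).restrict F` induced by `g`. -/
def restrictEquiv (hgg' : ∀ x : F, g' • (algebraMap F F' x) = algebraMap F F' (g • x))
    (w : Place K F') :
    (w.restrict F).toValuationSubring ≃+* ((g' • w).restrict F).toValuationSubring where
  toFun x := ⟨g • (x : F), by
    have hx : algebraMap F F' (x : F) ∈ w.toValuationSubring := ValuationSubring.mem_comap.mp x.2
    rw [Place.restrict_toValuationSubring, SemilinearAut.smul_toValuationSubring,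
      ValuationSubring.mem_comap, ← hgg']
    exact ValuationSubring.smul_mem_pointwise_smul g' _ _ hx⟩
  invFun y := ⟨g⁻¹ • (y : F), by
    have hy : algebraMap F F' (y : F) ∈ g' • w.toValuationSubring :=
      ValuationSubring.mem_comap.mp y.2
    rw [Place.restrict_toValuationSubring, ValuationSubring.mem_comap, ← inv_tower g g' hgg']
    exact ValuationSubring.mem_pointwise_smul_iff_inv_smul_mem.mp hy⟩
  left_inv x := Subtype.ext (inv_smul_smul g (x : F))
  right_inv y := Subtype.ext (smul_inv_smul g (y : F))
  map_mul' x y := Subtype.ext (smul_mul' g (x : F) (y : F))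
  map_add' x y := Subtype.ext (smul_add g (x : F) (y : F))

theorem coe_restrictEquiv_apply
    (hgg' : ∀ x : F, g' • (algebraMap F F' x) = algebraMap F F' (g • x))
    (w : Place K F') (x : (w.restrict F).toValuationSubring) :
    ((restrictEquiv g g' hgg' w x : ((g' • w).restrict F).toValuationSubring) : F)
      = g • (x : F) := rfl

theorem inertiaDeg_smul
    (hgg' : ∀ x : F, g' • (algebraMap F F' x) = algebraMap F F' (g • x))
    (w : Place K F') : (g' • w).inertiaDeg F = w.inertiaDeg F := by
  unfold Place.inertiaDeg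
  refine (Algebra.finrank_eq_of_equiv_equiv
    (IsLocalRing.ResidueField.mapEquiv (restrictEquiv g g' hgg' w))
    (SemilinearAut.smulResidueRingEquiv g' w) ?_).symm
  refine Ideal.Quotient.ringHom_ext (RingHom.ext fun x => ?_)
  show Place.restrictResidueMap F (g' • w)
      (IsLocalRing.ResidueField.mapEquiv (restrictEquiv g g' hgg' w)
        (IsLocalRing.residue _ x))
    = IsLocalRing.ResidueField.mapEquiv
        (SemilinearAut.smulValuationSubringEquiv g' w.toValuationSubring)
        (Place.restrictResidueMap F w (IsLocalRing.residue _ x))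
  rw [IsLocalRing.ResidueField.mapEquiv_apply, IsLocalRing.ResidueField.map_residue,
    Place.restrictResidueMap_residue, Place.restrictResidueMap_residue,
    IsLocalRing.ResidueField.mapEquiv_apply, IsLocalRing.ResidueField.map_residue]
  refine congrArg _ (Subtype.ext ?_)
  show algebraMap F F' (g • (x : F)) = g' • algebraMap F F' (x : F)
  rw [hgg']

theorem pushforward_smul
    (hgg' : ∀ x : F, g' • (algebraMap F F' x) = algebraMap F F' (g • x))
    (D : Divisor K F') :
    Divisor.pushforward F (g' • D) = g • Divisor.pushforward F D := by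
  induction D using Finsupp.induction with
  | zero => rw [smul_zero, map_zero, smul_zero]
  | single_add w n D _ _ ih =>
    rw [smul_add, map_add, map_add, smul_add, ih, SemilinearAut.smul_single,
      Divisor.pushforward_single, Divisor.pushforward_single, SemilinearAut.smul_single,
      restrict_smul g g' hgg', inertiaDeg_smul g g' hgg']

theorem pullback_smul [HasPrincipalDivisors K F']
    (hgg' : ∀ x : F, g' • (algebraMap F F' x) = algebraMap F F' (g • x))
    (D : Divisor K F) :
    Divisor.pullback F' (g • D) = g' • Divisor.pullback F' D := by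
  ext w
  have hinv : ∀ x : F, g'⁻¹ • (algebraMap F F' x) = algebraMap F F' (g⁻¹ • x) :=
    inv_tower g g' hgg'
  rw [Divisor.pullback_apply, SemilinearAut.divisor_smul_apply, SemilinearAut.divisor_smul_apply,
    Divisor.pullback_apply, restrict_smul g⁻¹ g'⁻¹ hinv, ramificationIndex_smul g⁻¹ g'⁻¹ hinv]

end Tower

section Along

variable {K F F' : Type*} [Field K] [Field F] [Field F'] [Algebra K F] [Algebra K F']

theorem pushforwardAlong_smul (ψ : F →ₐ[K] F') (hψ : ψ.toRingHom.IsIntegral)
    (g : SemilinearAut K F) (g' : SemilinearAut K F')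
    (h : SemilinearAut.IntertwinesAlong (ψ : F →+* F') g g') (D : Divisor K F') :
    Divisor.pushforwardAlong ψ hψ (g' • D) = g • Divisor.pushforwardAlong ψ hψ D := by
  letI := algebraAlong ψ
  haveI := isScalarTower_along ψ
  haveI := isIntegral_along ψ hψ
  exact pushforward_smul g g' h D

theorem pullbackAlong_smul [HasPrincipalDivisors K F'] (φ : F →ₐ[K] F')
    (hφ : φ.toRingHom.IsIntegral) (g : SemilinearAut K F) (g' : SemilinearAut K F')
    (h : SemilinearAut.IntertwinesAlong (φ : F →+* F') g g') (D : Divisor K F) :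
    Divisor.pullbackAlong φ hφ (g • D) = g' • Divisor.pullbackAlong φ hφ D := by
  letI := algebraAlong φ
  haveI := isScalarTower_along φ
  haveI := isIntegral_along φ hφ
  exact pullback_smul g g' h D

/-- (GC-abs) A correspondence whose two legs intertwine `g` and `g'` commutes with them on
divisors. -/
theorem correspondence_smul [HasPrincipalDivisors K F'] (φ ψ : F →ₐ[K] F')
    (hφ : φ.toRingHom.IsIntegral) (hψ : ψ.toRingHom.IsIntegral)
    (g : SemilinearAut K F) (g' : SemilinearAut K F')
    (h1 : SemilinearAut.IntertwinesAlong (φ : F →+* F') g g')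
    (h2 : SemilinearAut.IntertwinesAlong (ψ : F →+* F') g g') (D : Divisor K F) :
    Divisor.correspondence φ ψ hφ hψ (g • D) = g • Divisor.correspondence φ ψ hφ hψ D := by
  rw [Divisor.correspondence_apply, Divisor.correspondence_apply,
    pullbackAlong_smul φ hφ g g' h1, pushforwardAlong_smul ψ hψ g g' h2]

/-- (GC-abs), on `Pic0`. -/
theorem pic0_correspondence_smul [HasPrincipalDivisors K F'] (φ ψ : F →ₐ[K] F')
    (hφ : φ.toRingHom.IsIntegral) (hψ : ψ.toRingHom.IsIntegral)
    (hFI : FundamentalIdentityAlong K φ hφ) (hfin : FiniteAlong K ψ)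
    (hN : NormFormulaAlong K ψ hfin)
    (g : SemilinearAut K F) (g' : SemilinearAut K F')
    (h1 : SemilinearAut.IntertwinesAlong (φ : F →+* F') g g')
    (h2 : SemilinearAut.IntertwinesAlong (ψ : F →+* F') g g') (x : Pic0 K F) :
    Pic0.correspondence φ ψ hφ hψ hFI hfin hN (g • x)
      = g • Pic0.correspondence φ ψ hφ hψ hFI hfin hN x := by
  obtain ⟨D, rfl⟩ := Pic0.mk_surjective x
  rw [SemilinearAut.pic0_smul_mk, Pic0.correspondence_mk, Pic0.correspondence_mk,
    SemilinearAut.pic0_smul_mk]
  refine congrArg Pic0.mk (Subtype.ext ?_)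
  rw [Pic0.coe_degZeroCorrespondence, SemilinearAut.coe_degZeroSMulHom,
    SemilinearAut.coe_degZeroSMulHom, Pic0.coe_degZeroCorrespondence]
  exact correspondence_smul φ ψ hφ hψ g g' h1 h2 (D : Divisor K F)

end Along

section Modular

open HahnSeries

theorem coeffMap_qExpand_comm {R S : Type*} [CommRing R] [CommRing S] (f : R →+* S) (n : ℕ)
    [NeZero n] (x : LaurentSeries R) :
    coeffMap f (qExpand R n x) = qExpand S n (coeffMap f x) := by
  ext k
  by_cases hk : (n : ℤ) ∣ k
  · obtain ⟨m, rfl⟩ := hk
    rw [coeffMap_coeff, qExpand_coeff_mul, qExpand_coeff_mul, coeffMap_coeff]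
  · rw [coeffMap_coeff, qExpand_coeff_of_not_dvd n _ hk, qExpand_coeff_of_not_dvd n _ hk,
      map_zero]

variable {L : Type*} [Field L] [Algebra ℚ L]
variable (N ℓ : ℕ) [NeZero N] [NeZero ℓ]

/-- The inclusion leg `q ↦ q` intertwines the coefficientwise Galois actions. -/
theorem intertwines_heckeAlphaBar (σ : L ≃ₐ[ℚ] L) :
    SemilinearAut.IntertwinesAlong
      ((heckeAlphaBar L N ℓ :
          laurentBaseChange L (modularFunctionFieldFull N) →ₐ[L]
            laurentBaseChange L (modularFunctionFieldFull (N * ℓ))) :
        laurentBaseChange L (modularFunctionFieldFull N) →+*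
          laurentBaseChange L (modularFunctionFieldFull (N * ℓ)))
      (arithmeticGalois (modularFunctionFieldFull N) σ)
      (arithmeticGalois (modularFunctionFieldFull (N * ℓ)) σ) := by
  intro x
  refine Subtype.ext ?_
  show coeffMap (σ : L →+* L) ((heckeAlphaBar L N ℓ x : LaurentSeries L))
    = ((heckeAlphaBar L N ℓ (arithmeticGalois (modularFunctionFieldFull N) σ • x)) :
        LaurentSeries L)
  rw [coe_heckeAlphaBar, coe_heckeAlphaBar, coe_arithmeticGalois_smul]

omit [NeZero N] in
/-- The leg `q ↦ q ^ ℓ` intertwines the coefficientwise Galois actions. -/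
theorem intertwines_heckeBetaBar (σ : L ≃ₐ[ℚ] L) :
    SemilinearAut.IntertwinesAlong
      ((heckeBetaBar L N ℓ :
          laurentBaseChange L (modularFunctionFieldFull N) →ₐ[L]
            laurentBaseChange L (modularFunctionFieldFull (N * ℓ))) :
        laurentBaseChange L (modularFunctionFieldFull N) →+*
          laurentBaseChange L (modularFunctionFieldFull (N * ℓ)))
      (arithmeticGalois (modularFunctionFieldFull N) σ)
      (arithmeticGalois (modularFunctionFieldFull (N * ℓ)) σ) := by
  intro x
  refine Subtype.ext ?_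
  show coeffMap (σ : L →+* L) ((heckeBetaBar L N ℓ x : LaurentSeries L))
    = ((heckeBetaBar L N ℓ (arithmeticGalois (modularFunctionFieldFull N) σ • x)) :
        LaurentSeries L)
  rw [coe_heckeBetaBar, coe_heckeBetaBar, coe_arithmeticGalois_smul, coeffMap_qExpand_comm]

variable {N ℓ}

/-- (GC-div) The Hecke correspondence on divisors commutes with the arithmetic Galois
action. -/
theorem heckeDivBar_smul (hα : HeckeAlphaBarIntegral L N ℓ) (hβ : HeckeBetaBarIntegral L N ℓ)
    [HasPrincipalDivisors L (laurentBaseChange L (modularFunctionFieldFull (N * ℓ)))]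
    (σ : L ≃ₐ[ℚ] L) (D : Divisor L (laurentBaseChange L (modularFunctionFieldFull N))) :
    heckeDivBar hα hβ (arithmeticGalois (modularFunctionFieldFull N) σ • D)
      = arithmeticGalois (modularFunctionFieldFull N) σ • heckeDivBar hα hβ D :=
  correspondence_smul (heckeBetaBar L N ℓ) (heckeAlphaBar L N ℓ) hβ hα _ _
    (intertwines_heckeBetaBar N ℓ σ) (intertwines_heckeAlphaBar N ℓ σ) D

/-- The transposed Hecke correspondence on divisors commutes with the arithmetic Galois
action. -/
theorem heckeDivBarTranspose_smul (hα : HeckeAlphaBarIntegral L N ℓ)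
    (hβ : HeckeBetaBarIntegral L N ℓ)
    [HasPrincipalDivisors L (laurentBaseChange L (modularFunctionFieldFull (N * ℓ)))]
    (σ : L ≃ₐ[ℚ] L) (D : Divisor L (laurentBaseChange L (modularFunctionFieldFull N))) :
    heckeDivBarTranspose hα hβ (arithmeticGalois (modularFunctionFieldFull N) σ • D)
      = arithmeticGalois (modularFunctionFieldFull N) σ • heckeDivBarTranspose hα hβ D :=
  correspondence_smul (heckeAlphaBar L N ℓ) (heckeBetaBar L N ℓ) hα hβ _ _
    (intertwines_heckeAlphaBar N ℓ σ) (intertwines_heckeBetaBar N ℓ σ) D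

/-- The Hecke correspondence on `Pic0` commutes with the arithmetic Galois action. -/
theorem heckePic0Bar_smul (hα : HeckeAlphaBarIntegral L N ℓ) (hβ : HeckeBetaBarIntegral L N ℓ)
    [HasPrincipalDivisors L (laurentBaseChange L (modularFunctionFieldFull (N * ℓ)))]
    (hFI : FundamentalIdentityAlong L (heckeBetaBar L N ℓ) hβ)
    (hfin : FiniteAlong L (heckeAlphaBar L N ℓ))
    (hN : NormFormulaAlong L (heckeAlphaBar L N ℓ) hfin)
    (σ : L ≃ₐ[ℚ] L) (x : Pic0 L (laurentBaseChange L (modularFunctionFieldFull N))) :
    heckePic0Bar hα hβ hFI hfin hN (σ • x) = σ • heckePic0Bar hα hβ hFI hfin hN x :=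
  pic0_correspondence_smul (heckeBetaBar L N ℓ) (heckeAlphaBar L N ℓ) hβ hα hFI hfin hN _ _
    (intertwines_heckeBetaBar N ℓ σ) (intertwines_heckeAlphaBar N ℓ σ) x

variable (L N ℓ)

/-- (GC-pic) The total Hecke operator on `Pic0` commutes with the arithmetic Galois action
(no hypothesis: in the junk branch the operator is `0`). -/
theorem heckeOperatorAlong_smul (σ : L ≃ₐ[ℚ] L)
    (x : Pic0 L (laurentBaseChange L (modularFunctionFieldFull N))) :
    heckeOperatorAlong L N ℓ (σ • x) = σ • heckeOperatorAlong L N ℓ x := by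
  by_cases h : HeckeInputsAlong L N ℓ
  · obtain ⟨hα, hβ, hP, hfin, hFI, hN⟩ := h
    rw [heckeOperatorAlong_eq hα hβ hFI hfin hN]
    exact heckePic0Bar_smul hα hβ hFI hfin hN σ x
  · rw [heckeOperatorAlong_of_not h, AddMonoidHom.zero_apply, AddMonoidHom.zero_apply,
      smul_zero]

end Modular

section Bar

variable (N : ℕ) [NeZero N]

/-- (GC) for the operators `heckeOperatorBar` on `JZero N`. -/
theorem heckeOperatorBar_smul (ℓ : Nat.Primes)
    (σ : AlgebraicClosure ℚ ≃ₐ[ℚ] AlgebraicClosure ℚ) (x : JZero N) :
    heckeOperatorBar N ℓ (σ • x) = σ • heckeOperatorBar N ℓ x := by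
  haveI : NeZero (ℓ : ℕ) := ⟨ℓ.2.ne_zero⟩
  rw [heckeOperatorBar_apply, heckeOperatorBar_apply]
  exact heckeOperatorAlong_smul (AlgebraicClosure ℚ) N ℓ σ x

end Bar

end Fermat.Agent.S29.H13
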