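import Mathlib
import Fermat.Prelude.Def_GaloisRep_Residual

/-!
# S29, node (WIT), abstract assembly (helper53)

Pure algebra / Galois theory: from a nonzero simultaneous eigen-element `w` of abstract "Hecke
operators" `T ℓ` in `k0 ⊗[ℤ] M` (`M` an abelian group with an action of `G_ℚ` in which every
element has an open stabiliser, on which Frobenius elements satisfy `σ² - T_ℓ σ + ℓ = 0` and
inertia acts trivially) we produce the finite-dimensional `k0`-representation `W` = the span of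
the Galois orbit of `w` (`exists_wit_of_eigen`).

`sum_tmul_ne_zero` and `baseChange_sum_tmul_eq` produce such a `w` from coordinate data.

Imports Mathlib and Prelude definitions only; no dependence on curves or Hecke operators.
-/

set_option autoImplicit false

open scoped TensorProduct

namespace Fermat.Agent.S29.H53

local notation "Qb" => AlgebraicClosure ℚ
local notation "Γ" => (AlgebraicClosure ℚ ≃ₐ[ℚ] AlgebraicClosure ℚ)

section BaseChange

variable (k0 : Type) [Field k0] {M : Type} [AddCommGroup M]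

/-- Base change to `k0` of an additive endomorphism of `M`. -/
noncomputable def bcEnd (f : AddMonoid.End M) : Module.End k0 (k0 ⊗[ℤ] M) :=
  (AddMonoidHom.toIntLinearMap f).baseChange k0

@[simp]
theorem bcEnd_tmul (f : AddMonoid.End M) (c : k0) (m : M) :
    bcEnd k0 f (c ⊗ₜ[ℤ] m) = c ⊗ₜ[ℤ] f m := rfl

theorem bcEnd_one : bcEnd k0 (1 : AddMonoid.End M) = 1 := by
  refine TensorProduct.AlgebraTensorModule.ext (fun c m => ?_)
  rfl

theorem bcEnd_mul (f g : AddMonoid.End M) : bcEnd k0 (f * g) = bcEnd k0 f * bcEnd k0 g := by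
  refine TensorProduct.AlgebraTensorModule.ext (fun c m => ?_)
  rfl

/-- The base-changed action as a monoid homomorphism. -/
noncomputable def bcHom : AddMonoid.End M →* Module.End k0 (k0 ⊗[ℤ] M) where
  toFun := bcEnd k0
  map_one' := bcEnd_one k0
  map_mul' := bcEnd_mul k0

end BaseChange

section Wit

variable {k0 : Type} [Field k0] {M : Type} [AddCommGroup M]

/-- Every element of `k0 ⊗ M` is fixed at finite level if every element of `M` is. -/
theorem exists_fix_tensor (act : Γ →* AddMonoid.End M)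
    (hFL : ∀ x : M, ∃ K0 : IntermediateField ℚ Qb, FiniteDimensional ℚ K0 ∧
      ∀ σ : Γ, (∀ a ∈ K0, σ a = a) → act σ x = x) (v : k0 ⊗[ℤ] M) :
    ∃ K0 : IntermediateField ℚ Qb, FiniteDimensional ℚ K0 ∧
      ∀ σ : Γ, (∀ a ∈ K0, σ a = a) → bcEnd k0 (act σ) v = v := by
  induction v using TensorProduct.induction_on with
  | zero => exact ⟨⊥, inferInstance, fun σ _ => map_zero _⟩
  | tmul c m =>
    obtain ⟨K0, hK0, h⟩ := hFL m
    exact ⟨K0, hK0, fun σ hσ => by rw [bcEnd_tmul, h σ hσ]⟩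
  | add x y hx hy =>
    obtain ⟨K1, hK1, h1⟩ := hx
    obtain ⟨K2, hK2, h2⟩ := hy
    refine ⟨K1 ⊔ K2, IntermediateField.finiteDimensional_sup K1 K2, fun σ hσ => ?_⟩
    rw [map_add, h1 σ (fun a ha => hσ a ((le_sup_left : K1 ≤ K1 ⊔ K2) ha)),
      h2 σ (fun a ha => hσ a ((le_sup_right : K2 ≤ K1 ⊔ K2) ha))]

/-- The Galois orbit of an element of `k0 ⊗ M` is finite. -/
theorem finite_orbit_tensor (act : Γ →* AddMonoid.End M)
    (hFL : ∀ x : M, ∃ K0 : IntermediateField ℚ Qb, FiniteDimensional ℚ K0 ∧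
      ∀ σ : Γ, (∀ a ∈ K0, σ a = a) → act σ x = x) (v : k0 ⊗[ℤ] M) :
    (Set.range fun σ : Γ => bcEnd k0 (act σ) v).Finite := by
  classical
  obtain ⟨L, hL, hfix⟩ := exists_fix_tensor act hFL v
  let r : Γ → (L →ₐ[ℚ] Qb) := fun σ => (σ : Qb →ₐ[ℚ] Qb).comp L.val
  let f : (L →ₐ[ℚ] Qb) → k0 ⊗[ℤ] M := fun e =>
    if h : ∃ σ : Γ, r σ = e then bcEnd k0 (act h.choose) v else 0
  refine (Set.finite_range f).subset ?_
  rintro _ ⟨σ, rfl⟩
  refine ⟨r σ, ?_⟩
  have h : ∃ τ : Γ, r τ = r σ := ⟨σ, rfl⟩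
  show f (r σ) = bcEnd k0 (act σ) v
  simp only [f, dif_pos h]
  have hτ : r h.choose = r σ := h.choose_spec
  have hfix' : bcEnd k0 (act (σ⁻¹ * h.choose)) v = v := by
    refine hfix _ (fun c hc => ?_)
    have h1 : h.choose c = σ c := DFunLike.congr_fun hτ ⟨c, hc⟩
    show σ⁻¹ (h.choose c) = c
    rw [h1]
    exact σ.symm_apply_apply c
  calc bcEnd k0 (act h.choose) v
      = bcEnd k0 (act (σ * (σ⁻¹ * h.choose))) v := by rw [mul_inv_cancel_left]
    _ = bcEnd k0 (act σ) (bcEnd k0 (act (σ⁻¹ * h.choose)) v) := by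
        rw [map_mul, bcEnd_mul]; rfl
    _ = bcEnd k0 (act σ) v := by rw [hfix']

/-- **(WIT), abstract form.** -/
theorem exists_wit_of_eigen
    (act : Γ →* AddMonoid.End M)
    (hFL : ∀ x : M, ∃ K0 : IntermediateField ℚ Qb, FiniteDimensional ℚ K0 ∧
      ∀ σ : Γ, (∀ a ∈ K0, σ a = a) → act σ x = x)
    (S : Set ℕ) (T : ℕ → AddMonoid.End M) (c : ℕ → k0)
    (hGC : ∀ ℓ ∈ S, ∀ (σ : Γ) (x : M), T ℓ (act σ x) = act σ (T ℓ x))
    (hFrob : ∀ ℓ ∈ S, ∀ A : ValuationSubring Qb, A.LiesOverPrime ℓ →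
      ∀ σ : Γ, A.IsFrobeniusAt σ ℓ → ∀ x : M, act σ (act σ x) - T ℓ (act σ x) + ℓ • x = 0)
    (hInert : ∀ ℓ ∈ S, ∀ A : ValuationSubring Qb, A.LiesOverPrime ℓ →
      ∀ τ ∈ A.inertiaSubgroupIn ℚ, ∀ x : M, act τ x = x)
    (w : k0 ⊗[ℤ] M) (hw : w ≠ 0)
    (heig : ∀ ℓ ∈ S, bcEnd k0 (T ℓ) w = c ℓ • w) :
    ∃ (W : Type) (_ : AddCommGroup W) (_ : Module k0 W) (_ : FiniteDimensional k0 W)
      (_ : Nontrivial W) (r : Γ →* Module.End k0 W),
      GaloisFactorsThroughFiniteLevel r ∧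
      ∀ ℓ ∈ S, ∀ A : ValuationSubring Qb, A.LiesOverPrime ℓ →
        (∀ σ ∈ A.inertiaSubgroupIn ℚ, r σ = 1) ∧
        ∀ σ : Γ, A.IsFrobeniusAt σ ℓ →
          r σ * r σ + (ℓ : k0) • (1 : Module.End k0 W) = c ℓ • r σ := by
  classical
  -- the base-changed action
  let B : Γ →* Module.End k0 (k0 ⊗[ℤ] M) := (bcHom k0).comp act
  have hB : ∀ σ, B σ = bcEnd k0 (act σ) := fun σ => rfl
  -- the span of the orbit
  let Wsub : Submodule k0 (k0 ⊗[ℤ] M) := Submodule.span k0 (Set.range fun σ : Γ => B σ w)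
  have hstab : ∀ σ : Γ, ∀ v ∈ Wsub, B σ v ∈ Wsub := by
    intro σ v hv
    induction hv using Submodule.span_induction with
    | mem x hx =>
      obtain ⟨τ, rfl⟩ := hx
      refine Submodule.subset_span ⟨σ * τ, ?_⟩
      show B (σ * τ) w = B σ (B τ w)
      rw [map_mul]; rfl
    | zero => rw [map_zero]; exact Submodule.zero_mem _
    | add x y _ _ hx hy => rw [map_add]; exact Submodule.add_mem _ hx hy
    | smul a x _ hx => rw [map_smul]; exact Submodule.smul_mem _ _ hx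
  have hwW : w ∈ Wsub := Submodule.subset_span ⟨1, by show B 1 w = w; rw [map_one]; rfl⟩
  have hfd : FiniteDimensional k0 Wsub :=
    FiniteDimensional.span_of_finite k0 (finite_orbit_tensor act hFL w)
  have hnt : Nontrivial Wsub :=
    ⟨⟨⟨w, hwW⟩, 0, fun h => hw (congrArg Subtype.val h)⟩⟩
  -- the representation on the span
  let r : Γ →* Module.End k0 Wsub :=
    { toFun := fun σ => (B σ).restrict (hstab σ)
      map_one' := by
        refine LinearMap.ext (fun v => Subtype.ext ?_)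
        show B 1 (v : k0 ⊗[ℤ] M) = v
        rw [map_one]; rfl
      map_mul' := fun σ τ => by
        refine LinearMap.ext (fun v => Subtype.ext ?_)
        show B (σ * τ) (v : k0 ⊗[ℤ] M) = B σ (B τ v)
        rw [map_mul]; rfl }
  have hr : ∀ (σ : Γ) (v : Wsub), ((r σ v : Wsub) : k0 ⊗[ℤ] M) = B σ v := fun σ v => rfl
  refine ⟨Wsub, inferInstance, inferInstance, hfd, hnt, r, ?_, ?_⟩
  · -- finite level
    let b := Module.finBasis k0 Wsub
    have hex : ∀ i, ∃ K0 : IntermediateField ℚ Qb, FiniteDimensional ℚ K0 ∧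
        ∀ σ : Γ, (∀ a ∈ K0, σ a = a) → bcEnd k0 (act σ) (b i : k0 ⊗[ℤ] M) = b i :=
      fun i => exists_fix_tensor act hFL _
    choose L hL h using hex
    have := hL
    refine ⟨⨆ i, L i, IntermediateField.finiteDimensional_iSup_of_finite, fun σ hσ => ?_⟩
    refine b.ext (fun i => Subtype.ext ?_)
    rw [Module.End.one_apply, hr, hB]
    exact h i σ (fun a ha => hσ a ((le_iSup L i) ha))
  · intro ℓ hℓ A hA
    refine ⟨fun σ hσ => ?_, fun σ hσ => ?_⟩
    · -- inertia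
      have h1 : act σ = 1 := by
        refine AddMonoidHom.ext (fun x => ?_)
        exact hInert ℓ hℓ A hA σ hσ x
      refine LinearMap.ext (fun v => Subtype.ext ?_)
      rw [hr, hB, h1, bcEnd_one]; rfl
    · -- Frobenius
      -- the relation on `k0 ⊗ M`
      have hrel : ∀ v : k0 ⊗[ℤ] M,
          B σ (B σ v) - bcEnd k0 (T ℓ) (B σ v) + (ℓ : k0) • v = 0 := by
        intro v
        induction v using TensorProduct.induction_on with
        | zero => simp
        | tmul a m =>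
          rw [hB, bcEnd_tmul, bcEnd_tmul, bcEnd_tmul, TensorProduct.smul_tmul', ← TensorProduct.tmul_sub]
          have e : (ℓ : k0) • a = (ℓ : ℕ) • a := by rw [nsmul_eq_mul, smul_eq_mul]
          rw [e, TensorProduct.smul_tmul, ← TensorProduct.tmul_add, hFrob ℓ hℓ A hA σ hσ m,
            TensorProduct.tmul_zero]
        | add x y hx hy =>
          have : B σ (B σ (x + y)) - bcEnd k0 (T ℓ) (B σ (x + y)) + (ℓ : k0) • (x + y)
              = (B σ (B σ x) - bcEnd k0 (T ℓ) (B σ x) + (ℓ : k0) • x)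
                + (B σ (B σ y) - bcEnd k0 (T ℓ) (B σ y) + (ℓ : k0) • y) := by
            simp only [map_add, smul_add]; abel
          rw [this, hx, hy, add_zero]
      -- `T ℓ` is the scalar `c ℓ` on the span
      have hT : ∀ v ∈ Wsub, bcEnd k0 (T ℓ) v = c ℓ • v := by
        intro v hv
        induction hv using Submodule.span_induction with
        | mem x hx =>
          obtain ⟨τ, rfl⟩ := hx
          have hcomm : bcEnd k0 (T ℓ) (B τ w) = B τ (bcEnd k0 (T ℓ) w) := by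
            have : bcEnd k0 (T ℓ) * bcEnd k0 (act τ) = bcEnd k0 (act τ) * bcEnd k0 (T ℓ) := by
              rw [← bcEnd_mul, ← bcEnd_mul]
              congr 1
              exact AddMonoidHom.ext (fun x => hGC ℓ hℓ τ x)
            exact LinearMap.congr_fun this w
          show bcEnd k0 (T ℓ) (B τ w) = c ℓ • B τ w
          rw [hcomm, heig ℓ hℓ, map_smul]
        | zero => rw [map_zero, smul_zero]
        | add x y _ _ hx hy => rw [map_add, hx, hy, smul_add]
        | smul a x _ hx => rw [map_smul, hx, smul_comm]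
      refine LinearMap.ext (fun v => Subtype.ext ?_)
      have h1 := hrel (v : k0 ⊗[ℤ] M)
      rw [hT _ (hstab σ v v.2)] at h1
      show B σ (B σ (v : k0 ⊗[ℤ] M)) + (ℓ : k0) • (v : k0 ⊗[ℤ] M) = c ℓ • B σ (v : k0 ⊗[ℤ] M)
      have h2 : B σ (B σ (v : k0 ⊗[ℤ] M)) + (ℓ : k0) • (v : k0 ⊗[ℤ] M)
          - c ℓ • B σ (v : k0 ⊗[ℤ] M) = 0 := by
        rw [← h1]; abel
      exact sub_eq_zero.mp h2

end Wit

section Eigen

/-- The eigen-equation from the matrix form of the eigen-data. -/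
theorem bcEnd_sum_tmul_eq
    {k0 : Type} [Field k0] {M : Type} [AddCommGroup M] (T : AddMonoid.End M)
    {d : ℕ} (x : Fin d → M) (θ : Fin d → k0) (c : k0) (A : Fin d → Fin d → ℤ)
    (h1 : ∀ i, T (x i) = ∑ j, A i j • x j)
    (h2 : ∀ j, ∑ i, ((A i j : ℤ) : k0) * θ i = c * θ j) :
    bcEnd k0 T (∑ i, θ i ⊗ₜ[ℤ] x i : k0 ⊗[ℤ] M) = c • (∑ i, θ i ⊗ₜ[ℤ] x i : k0 ⊗[ℤ] M) := by
  rw [map_sum, Finset.smul_sum]
  have e1 : ∀ i, bcEnd k0 T (θ i ⊗ₜ[ℤ] x i) = ∑ j, (((A i j : ℤ) : k0) * θ i) ⊗ₜ[ℤ] x j := by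
    intro i
    rw [bcEnd_tmul, h1 i, TensorProduct.tmul_sum]
    refine Finset.sum_congr rfl (fun j _ => ?_)
    rw [TensorProduct.tmul_smul, TensorProduct.smul_tmul', zsmul_eq_mul]
  simp_rw [e1]
  rw [Finset.sum_comm]
  refine Finset.sum_congr rfl (fun j _ => ?_)
  rw [← TensorProduct.sum_tmul, h2 j, TensorProduct.smul_tmul', smul_eq_mul]

/-- Nonvanishing of the eigen-element: `Ψ : Λ → M` additive with `ker Ψ ⊆ p Λ`, `M` killed by
`p`, and an integer-valued additive functional `ev` on `Λ` with `∑ θ i * ev (χ i) ≠ 0` in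
characteristic `p`. -/
theorem sum_tmul_ne_zero
    {p : ℕ} (hp : p.Prime) {k0 : Type} [Field k0] [CharP k0 p]
    {M : Type} [AddCommGroup M] (hM : ∀ x : M, p • x = 0)
    {Λ : Type*} [AddCommGroup Λ] (Ψ : Λ →+ M) (hker : ∀ l : Λ, Ψ l = 0 → ∃ m : Λ, l = p • m)
    (ev : Λ →+ ℤ) {d : ℕ} (χ : Fin d → Λ) (θ : Fin d → k0)
    (hne : ∑ i, θ i * ((ev (χ i) : ℤ) : k0) ≠ 0) :
    (∑ i, θ i ⊗ₜ[ℤ] Ψ (χ i) : k0 ⊗[ℤ] M) ≠ 0 := by
  classical
  have : Fact p.Prime := ⟨hp⟩
  -- `Q = Λ / p Λ`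
  let Λp : AddSubgroup Λ := (zsmulAddGroupHom (p : ℤ) : Λ →+ Λ).range
  have hmem : ∀ m : Λ, p • m ∈ Λp := fun m => ⟨m, by simp [zsmulAddGroupHom]⟩
  have hQ : ∀ q : Λ ⧸ Λp, p • q = 0 := by
    intro q
    induction q using QuotientAddGroup.induction_on with
    | H l =>
      rw [← QuotientAddGroup.mk_nsmul]
      exact (QuotientAddGroup.eq_zero_iff _).mpr (hmem l)
  have iQ : Module (ZMod p) (Λ ⧸ Λp) := AddCommGroup.zmodModule hQ
  have iM : Module (ZMod p) M := AddCommGroup.zmodModule hM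
  let Ψb : (Λ ⧸ Λp) →+ M := QuotientAddGroup.lift Λp Ψ (by
    rintro _ ⟨m, rfl⟩
    show Ψ ((p : ℤ) • m) = 0
    rw [natCast_zsmul, map_nsmul, hM])
  have hΨb : ∀ l : Λ, Ψb (QuotientAddGroup.mk l) = Ψ l := fun l => rfl
  have hinj : Function.Injective Ψb := by
    refine (injective_iff_map_eq_zero Ψb).mpr (fun q hq => ?_)
    induction q using QuotientAddGroup.induction_on with
    | H l =>
      rw [hΨb] at hq
      obtain ⟨m, rfl⟩ := hker l hq
      exact (QuotientAddGroup.eq_zero_iff _).mpr (hmem m)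
  let evb : (Λ ⧸ Λp) →+ ZMod p :=
    QuotientAddGroup.lift Λp ((Int.castAddHom (ZMod p)).comp ev) (by
      rintro _ ⟨m, rfl⟩
      show ((ev ((p : ℤ) • m) : ℤ) : ZMod p) = 0
      rw [map_zsmul, smul_eq_mul, Int.cast_mul, Int.cast_natCast, CharP.cast_eq_zero, zero_mul])
  have hevb : ∀ l : Λ, evb (QuotientAddGroup.mk l) = ((ev l : ℤ) : ZMod p) := fun l => rfl
  obtain ⟨s, hs⟩ := (AddMonoidHom.toZModLinearMap p Ψb).exists_leftInverse_of_injective
    (LinearMap.ker_eq_bot.mpr hinj)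
  have hs' : ∀ q : Λ ⧸ Λp, s (Ψb q) = q := fun q => LinearMap.congr_fun hs q
  -- the additive functional `F : M → k0`
  let F : M →+ k0 :=
    ((ZMod.castHom (dvd_refl p) k0).toAddMonoidHom.comp evb).comp s.toAddMonoidHom
  have hF : ∀ l : Λ, F (Ψ l) = ((ev l : ℤ) : k0) := by
    intro l
    show ZMod.castHom (dvd_refl p) k0 (evb (s (Ψ l))) = _
    rw [← hΨb, hs', hevb, map_intCast]
  let L : k0 ⊗[ℤ] M →ₗ[ℤ] k0 :=
    TensorProduct.lift ((LinearMap.mul ℤ k0).compl₂ F.toIntLinearMap)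
  have hL : ∀ (a : k0) (m : M), L (a ⊗ₜ[ℤ] m) = a * F m := fun a m => rfl
  intro h0
  apply hne
  have h1 := congrArg L h0
  rw [map_sum, map_zero] at h1
  rw [← h1]
  refine Finset.sum_congr rfl (fun i _ => ?_)
  rw [hL, hF]

end Eigen

end Fermat.Agent.S29.H53
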