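import Mathlib
import Fermat.Agent.S29.Stmts_helper27
import Fermat.Agent.S29.Top_helper24
import Fermat.Agent.S29.GalClass_helper26
import Fermat.Agent.S29.GalHecke_helper13
import Fermat.Agent.S29.FinLevel_helper94
import Fermat.Agent.S29.WitAbs_helper53

/-!
# S29, node (WIT): the witness module from (PSI) and (EIG) (helper53)

`wit_of` : `H27.PsiStmt N p` and `H27.EigStmt N g k0 φ0` give the body of `H24.WitStmt` at
`(N, g, p, k0, φ0)`; `witStmt_of` : the interface statement `H24.WitStmt` itself.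

The witness is the `k0`-span of the Galois orbit of `w = ∑ θ i ⊗ Ψ (χ i)` in `k0 ⊗[ℤ] J₀(N)[p]`
(abstract assembly: `WitAbs_helper53`), with the landed Galois side: `H26.frob_quad`,
`H26.inertia_fix` (S37 on torsion), `H13.heckeOperatorBar_smul` (Galois commutes with Hecke),
`H94.exists_finiteDimensional_fix_class` (open stabilisers).
-/

set_option autoImplicit false

open ModularCurve ModularCurve.Period AlgebraicCurve CongruenceSubgroup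
open scoped TensorProduct MatrixGroups

namespace Fermat.Agent.S29.H53

local notation "Qb" => AlgebraicClosure ℚ
local notation "Γ" => (AlgebraicClosure ℚ ≃ₐ[ℚ] AlgebraicClosure ℚ)
local notation "Zbar" => integralClosure ℤ ℂ

/-! ### A vanishing criterion in `k0 ⊗[ℤ] M` -/

/-- If `Λ` is `p`-saturated with respect to a family `ev` of integer-valued functionals, `Ψ` is
an additive map from `Λ` to a group killed by `p`, and `∑ t i * ev e (μ i) = 0` in a field of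
characteristic `p` for every `e`, then `∑ t i ⊗ Ψ (μ i) = 0`. -/
theorem sum_tmul_eq_zero_of_eval
    {p : ℕ} (hp : p.Prime) {k0 : Type} [Field k0] [CharP k0 p]
    {M : Type} [AddCommGroup M] {Λ : Type*} [AddCommGroup Λ] (Ψ : Λ →+ M)
    (hΨ : ∀ l : Λ, p • Ψ l = 0)
    {E : Type*} (ev : E → Λ →+ ℤ)
    (hsat : ∀ l : Λ, (∀ e, (p : ℤ) ∣ ev e l) → ∃ l' : Λ, l = p • l')
    {ι : Type*} [Fintype ι] (μ : ι → Λ) (t : ι → k0)
    (h0 : ∀ e, ∑ i, t i * ((ev e (μ i) : ℤ) : k0) = 0) :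
    (∑ i, t i ⊗ₜ[ℤ] Ψ (μ i) : k0 ⊗[ℤ] M) = 0 := by
  classical
  have : Fact p.Prime := ⟨hp⟩
  let _ : Algebra (ZMod p) k0 := ZMod.algebra k0 p
  -- a basis of the `𝔽_p`-span of the coefficients
  let V : Submodule (ZMod p) k0 := Submodule.span (ZMod p) (Set.range t)
  have : FiniteDimensional (ZMod p) V := FiniteDimensional.span_of_finite _ (Set.finite_range t)
  let b := Module.finBasis (ZMod p) V
  let r := Module.finrank (ZMod p) V
  let tV : ι → V := fun i => ⟨t i, Submodule.subset_span ⟨i, rfl⟩⟩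
  let c : ι → Fin r → ℤ := fun i j => ((b.repr (tV i) j).val : ℤ)
  let e : Fin r → k0 := fun j => (b j : k0)
  have hc : ∀ i j, ((c i j : ℤ) : ZMod p) = b.repr (tV i) j := by
    intro i j
    show (((b.repr (tV i) j).val : ℤ) : ZMod p) = _
    rw [Int.cast_natCast, ZMod.natCast_zmod_val]
  have hsmul : ∀ (z : ℤ) (y : k0), ((z : ZMod p)) • y = (z : k0) * y := by
    intro z y
    rw [Algebra.smul_def, map_intCast]
  have ht : ∀ i, t i = ∑ j, (c i j : k0) * e j := by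
    intro i
    have h1 : tV i = ∑ j, b.repr (tV i) j • b j := (b.sum_repr (tV i)).symm
    have h2 := congrArg (Subtype.val : V → k0) h1
    rw [Submodule.coe_sum] at h2
    show t i = _
    rw [show t i = (tV i : k0) from rfl, h2]
    refine Finset.sum_congr rfl (fun j _ => ?_)
    rw [Submodule.coe_smul, ← hc i j, hsmul]
  have hind : LinearIndependent (ZMod p) e :=
    b.linearIndependent.map' V.subtype (Submodule.ker_subtype V)
  -- regroup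
  let ν : Fin r → Λ := fun j => ∑ i, c i j • μ i
  have h1 : (∑ i, t i ⊗ₜ[ℤ] Ψ (μ i) : k0 ⊗[ℤ] M) = ∑ j, e j ⊗ₜ[ℤ] Ψ (ν j) := by
    have e1 : ∀ i, (t i ⊗ₜ[ℤ] Ψ (μ i) : k0 ⊗[ℤ] M) = ∑ j, e j ⊗ₜ[ℤ] (c i j • Ψ (μ i)) := by
      intro i
      conv_lhs => rw [ht i]
      rw [TensorProduct.sum_tmul]
      refine Finset.sum_congr rfl (fun j _ => ?_)
      rw [← zsmul_eq_mul, TensorProduct.smul_tmul]
    simp_rw [e1]
    rw [Finset.sum_comm]
    refine Finset.sum_congr rfl (fun j _ => ?_)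
    rw [← TensorProduct.tmul_sum]
    congr 1
    show _ = Ψ (∑ i, c i j • μ i)
    rw [map_sum]
    refine Finset.sum_congr rfl (fun i _ => ?_)
    rw [map_zsmul]
  -- each `ν j` is divisible by `p`
  have h2 : ∀ j, ∀ e', (p : ℤ) ∣ ev e' (ν j) := by
    intro j e'
    have h3 : ∑ j, (((ev e' (ν j) : ℤ)) : ZMod p) • e j = 0 := by
      have h4 : ∀ j, (((ev e' (ν j) : ℤ)) : ZMod p) • e j
          = ∑ i, (c i j : k0) * e j * ((ev e' (μ i) : ℤ) : k0) := by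
        intro j
        rw [hsmul]
        show ((ev e' (∑ i, c i j • μ i) : ℤ) : k0) * e j = _
        rw [map_sum, Int.cast_sum, Finset.sum_mul]
        refine Finset.sum_congr rfl (fun i _ => ?_)
        rw [map_zsmul, smul_eq_mul, Int.cast_mul]
        ring
      simp_rw [h4]
      rw [Finset.sum_comm, ← h0 e']
      refine Finset.sum_congr rfl (fun i _ => ?_)
      rw [ht i, Finset.sum_mul]
    have h5 := Fintype.linearIndependent_iff.mp hind _ h3 j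
    exact (ZMod.intCast_zmod_eq_zero_iff_dvd _ _).mp h5
  rw [h1]
  refine Finset.sum_eq_zero (fun j _ => ?_)
  obtain ⟨l', hl'⟩ := hsat (ν j) (h2 j)
  rw [hl', map_nsmul, hΨ, TensorProduct.tmul_zero]

/-- **(WIT), lattice form.**  The abstract assembly `exists_wit_of_eigen` fed with the
eigen-element `w = ∑ θ i ⊗ Ψ (χ i)`: `Ψ : Λ → M` additive with kernel in `p Λ`, `Λ` saturated
with respect to the evaluations `ev`, and the eigen-equations given pointwise on evaluations. -/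
theorem exists_wit_of_lattice
    {p : ℕ} (hp : p.Prime) {k0 : Type} [Field k0] [CharP k0 p]
    {M : Type} [AddCommGroup M] (hM : ∀ x : M, p • x = 0)
    (act : Γ →* AddMonoid.End M)
    (hFL : ∀ x : M, ∃ K0 : IntermediateField ℚ Qb, FiniteDimensional ℚ K0 ∧
      ∀ σ : Γ, (∀ a ∈ K0, σ a = a) → act σ x = x)
    (S : Set ℕ) (T : ℕ → AddMonoid.End M) (c : ℕ → k0)
    (hGC : ∀ ℓ ∈ S, ∀ (σ : Γ) (x : M), T ℓ (act σ x) = act σ (T ℓ x))
    (hFrob : ∀ ℓ ∈ S, ∀ A : ValuationSubring Qb, A.LiesOverPrime ℓ →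
      ∀ σ : Γ, A.IsFrobeniusAt σ ℓ → ∀ x : M, act σ (act σ x) - T ℓ (act σ x) + ℓ • x = 0)
    (hInert : ∀ ℓ ∈ S, ∀ A : ValuationSubring Qb, A.LiesOverPrime ℓ →
      ∀ τ ∈ A.inertiaSubgroupIn ℚ, ∀ x : M, act τ x = x)
    {Λ : Type*} [AddCommGroup Λ] (Ψ : Λ →+ M) (hker : ∀ l : Λ, Ψ l = 0 → ∃ m : Λ, l = p • m)
    {E : Type*} (ev : E → Λ →+ ℤ)
    (hsat : ∀ l : Λ, (∀ e, (p : ℤ) ∣ ev e l) → ∃ l' : Λ, l = p • l')
    {d : ℕ} (χ : Fin d → Λ) (θ : Fin d → k0)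
    (hne : ∃ e, ∑ i, θ i * ((ev e (χ i) : ℤ) : k0) ≠ 0)
    (heig : ∀ ℓ ∈ S, ∃ χ' : Fin d → Λ, (∀ i, T ℓ (Ψ (χ i)) = Ψ (χ' i)) ∧
      ∀ e, ∑ i, θ i * ((ev e (χ' i) : ℤ) : k0) = c ℓ * ∑ i, θ i * ((ev e (χ i) : ℤ) : k0)) :
    ∃ (W : Type) (_ : AddCommGroup W) (_ : Module k0 W) (_ : FiniteDimensional k0 W)
      (_ : Nontrivial W) (r : Γ →* Module.End k0 W),
      GaloisFactorsThroughFiniteLevel r ∧
      ∀ ℓ ∈ S, ∀ A : ValuationSubring Qb, A.LiesOverPrime ℓ →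
        (∀ σ ∈ A.inertiaSubgroupIn ℚ, r σ = 1) ∧
        ∀ σ : Γ, A.IsFrobeniusAt σ ℓ →
          r σ * r σ + (ℓ : k0) • (1 : Module.End k0 W) = c ℓ • r σ := by
  classical
  obtain ⟨e0, hne⟩ := hne
  refine exists_wit_of_eigen act hFL S T c hGC hFrob hInert (∑ i, θ i ⊗ₜ[ℤ] Ψ (χ i))
    (sum_tmul_ne_zero hp hM Ψ hker (ev e0) χ θ hne) (fun ℓ hℓS => ?_)
  obtain ⟨χ', hTr, hpt⟩ := heig ℓ hℓS
  have e1 : bcEnd k0 (T ℓ) (∑ i, θ i ⊗ₜ[ℤ] Ψ (χ i) : k0 ⊗[ℤ] M) = ∑ i, θ i ⊗ₜ[ℤ] Ψ (χ' i) := by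
    rw [map_sum]
    refine Finset.sum_congr rfl (fun i _ => ?_)
    rw [bcEnd_tmul, hTr i]
  have e2 : c ℓ • (∑ i, θ i ⊗ₜ[ℤ] Ψ (χ i) : k0 ⊗[ℤ] M) = ∑ i, (c ℓ * θ i) ⊗ₜ[ℤ] Ψ (χ i) := by
    rw [Finset.smul_sum]
    refine Finset.sum_congr rfl (fun i _ => ?_)
    rw [TensorProduct.smul_tmul', smul_eq_mul]
  have e3 : (∑ i : Fin d ⊕ Fin d,
      (Sum.elim θ (fun i => -(c ℓ * θ i)) i) ⊗ₜ[ℤ] Ψ (Sum.elim χ' χ i) : k0 ⊗[ℤ] M) = 0 := by
    refine sum_tmul_eq_zero_of_eval hp Ψ (fun l => hM (Ψ l)) ev hsat _ _ (fun e => ?_)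
    rw [Fintype.sum_sum_type]
    simp only [Sum.elim_inl, Sum.elim_inr]
    rw [hpt e, Finset.mul_sum, ← Finset.sum_add_distrib]
    refine Finset.sum_eq_zero (fun i _ => ?_)
    ring
  rw [Fintype.sum_sum_type] at e3
  simp only [Sum.elim_inl, Sum.elim_inr, TensorProduct.neg_tmul, Finset.sum_neg_distrib] at e3
  rw [e1, e2]
  exact add_neg_eq_zero.mp e3

/-! ### `Hom_par(Γ₀(N), ℤ)` is saturated -/

/-- A parabolic character all of whose values are divisible by `p` is `p` times a parabolic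
character. -/
theorem lam_saturated (N : ℕ) {p : ℕ} (hp : p ≠ 0) (l : H27.Lam N)
    (h : ∀ γ : Gamma0 N, (p : ℤ) ∣ (l : Additive (Gamma0 N) →+ ℤ) (Additive.ofMul γ)) :
    ∃ l' : H27.Lam N, l = p • l' := by
  have hp' : (p : ℤ) ≠ 0 := by exact_mod_cast hp
  have h' : ∀ γ : Additive (Gamma0 N), (p : ℤ) ∣ (l : Additive (Gamma0 N) →+ ℤ) γ :=
    fun γ => h (Additive.toMul γ)
  let f : Additive (Gamma0 N) →+ ℤ :=
    { toFun := fun γ => (l : Additive (Gamma0 N) →+ ℤ) γ / (p : ℤ)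
      map_zero' := by simp
      map_add' := fun a b => by
        show (l : Additive (Gamma0 N) →+ ℤ) (a + b) / (p : ℤ) = _
        rw [map_add, Int.add_ediv_of_dvd_left (h' a)] }
  have hf : ∀ γ, (p : ℤ) * f γ = (l : Additive (Gamma0 N) →+ ℤ) γ :=
    fun γ => Int.mul_ediv_cancel' (h' γ)
  have hfpar : f ∈ H27.Lam N := by
    intro γ hγ
    have h1 : (l : Additive (Gamma0 N) →+ ℤ) (Additive.ofMul γ) = 0 := l.2 γ hγ
    show (l : Additive (Gamma0 N) →+ ℤ) (Additive.ofMul γ) / (p : ℤ) = 0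
    rw [h1, Int.zero_ediv]
  refine ⟨⟨f, hfpar⟩, Subtype.ext (AddMonoidHom.ext (fun γ => ?_))⟩
  show (l : Additive (Gamma0 N) →+ ℤ) γ = (p • f) γ
  rw [AddMonoidHom.nsmul_apply, nsmul_eq_mul, hf]

/-! ### The Galois module `J₀(N)[p]` -/

section Tors

variable (N : ℕ) [NeZero N] (p : ℕ)

/-- `J₀(N)[p]`, as the kernel of multiplication by `p`. -/
noncomputable def Tors : AddSubgroup (JZero N) := (nsmulAddMonoidHom (α := JZero N) p).ker

variable {N p}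

omit [NeZero N] in
theorem mem_tors_iff {x : JZero N} : x ∈ Tors N p ↔ p • x = 0 := Iff.rfl

variable (N p)

/-- The Galois action on `J₀(N)[p]`. -/
noncomputable def actTors : Γ →* AddMonoid.End (Tors N p) where
  toFun σ :=
    { toFun := fun x => ⟨σ • (x : JZero N),
        mem_tors_iff.mpr (H26.galois_smul_torsion N σ p (mem_tors_iff.mp x.2))⟩
      map_zero' := Subtype.ext (smul_zero σ)
      map_add' := fun x y => Subtype.ext (smul_add σ (x : JZero N) (y : JZero N)) }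
  map_one' := AddMonoidHom.ext fun x => Subtype.ext (one_smul Γ (x : JZero N))
  map_mul' σ τ := AddMonoidHom.ext fun x => Subtype.ext (mul_smul σ τ (x : JZero N))

omit [NeZero N] in
theorem coe_actTors (σ : Γ) (x : Tors N p) :
    ((actTors N p σ x : Tors N p) : JZero N) = σ • (x : JZero N) := rfl

/-- The Hecke operator `T_ℓ` on `J₀(N)[p]`, `ℓ` prime. -/
noncomputable def heckeTorsPrime (ℓ : Nat.Primes) : AddMonoid.End (Tors N p) :=
  ((heckeOperatorBar N ℓ).toAddMonoidHom.comp (Tors N p).subtype).codRestrict (Tors N p)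
    (fun x => by
      rw [mem_tors_iff]
      show p • (heckeOperatorBar N ℓ) (x : JZero N) = 0
      rw [← map_nsmul, mem_tors_iff.mp x.2, map_zero])

/-- The Hecke operator `T_ℓ` on `J₀(N)[p]` (zero if `ℓ` is not prime). -/
noncomputable def heckeTors (ℓ : ℕ) : AddMonoid.End (Tors N p) :=
  if hℓ : ℓ.Prime then heckeTorsPrime N p ⟨ℓ, hℓ⟩ else 0

theorem coe_heckeTors {ℓ : ℕ} (hℓ : ℓ.Prime) (x : Tors N p) :
    ((heckeTors N p ℓ x : Tors N p) : JZero N) =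
      heckeOperatorBar N (⟨ℓ, hℓ⟩ : Nat.Primes) (x : JZero N) := by
  have h : heckeTors N p ℓ = heckeTorsPrime N p ⟨ℓ, hℓ⟩ := dif_pos hℓ
  rw [h]
  rfl

theorem heckeTors_actTors {ℓ : ℕ} (hℓ : ℓ.Prime) (σ : Γ) (x : Tors N p) :
    heckeTors N p ℓ (actTors N p σ x) = actTors N p σ (heckeTors N p ℓ x) := by
  apply Subtype.ext
  have h1 := coe_heckeTors N p hℓ (actTors N p σ x)
  have h2 := coe_actTors N p σ (heckeTors N p ℓ x)
  rw [h1, h2, coe_heckeTors N p hℓ x]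
  exact H13.heckeOperatorBar_smul N ⟨ℓ, hℓ⟩ σ (x : JZero N)

theorem frob_quad_tors {ℓ : ℕ} (hℓ : ℓ.Prime) (hℓN : ¬ ℓ ∣ N) (hℓp : ¬ ℓ ∣ p)
    (A : ValuationSubring Qb) (hA : A.LiesOverPrime ℓ) (σ : Γ) (hσ : A.IsFrobeniusAt σ ℓ)
    (x : Tors N p) :
    actTors N p σ (actTors N p σ x) - heckeTors N p ℓ (actTors N p σ x) + ℓ • x = 0 := by
  have key := H26.frob_quad N hℓ hℓN A hA σ hσ p hℓp (x : JZero N) (mem_tors_iff.mp x.2)
  have h1 : ((heckeTors N p ℓ (actTors N p σ x) : Tors N p) : JZero N) =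
      heckeOperatorBar N (⟨ℓ, hℓ⟩ : Nat.Primes) (σ • (x : JZero N)) :=
    coe_heckeTors N p hℓ (actTors N p σ x)
  refine Subtype.ext ?_
  exact (congrArg (fun t : JZero N => σ • σ • (x : JZero N) - t + ℓ • (x : JZero N)) h1).trans
    key

theorem inertia_fix_tors {ℓ : ℕ} (hℓ : ℓ.Prime) (hℓN : ¬ ℓ ∣ N) (hℓp : ¬ ℓ ∣ p)
    (A : ValuationSubring Qb) (hA : A.LiesOverPrime ℓ) (τ : Γ) (hτ : τ ∈ A.inertiaSubgroupIn ℚ)
    (x : Tors N p) : actTors N p τ x = x :=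
  Subtype.ext (H26.inertia_fix N hℓ hℓN A hA τ hτ p hℓp (x : JZero N) (mem_tors_iff.mp x.2))

theorem exists_fix_tors (x : Tors N p) :
    ∃ K0 : IntermediateField ℚ Qb, FiniteDimensional ℚ K0 ∧
      ∀ σ : Γ, (∀ a ∈ K0, σ a = a) → actTors N p σ x = x := by
  obtain ⟨L, hL, h⟩ := H94.exists_finiteDimensional_fix_class N (x : JZero N)
  exact ⟨L, hL, fun σ hσ => Subtype.ext (h σ hσ)⟩

end Tors

/-! ### (WIT) -/

/-- **(WIT)** at `(N, g, p, k0, φ0)` from (PSI) at `(N, p)` and (EIG) at `(N, g, k0, φ0)`. -/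
theorem wit_of (N : ℕ) [NeZero N] (g : CuspForm (Gamma0 N) 2) {p : ℕ} (hp : p.Prime)
    (k0 : Type) [Field k0] [CharP k0 p] (φ0 : Zbar →+* k0)
    (hPsi : H27.PsiStmt N p) (hEig : H27.EigStmt N g k0 φ0) :
    ∃ (W : Type) (_ : AddCommGroup W) (_ : Module k0 W) (_ : FiniteDimensional k0 W)
      (_ : Nontrivial W) (r : Γ →* Module.End k0 W),
      GaloisFactorsThroughFiniteLevel r ∧
      ∀ ℓ : ℕ, ℓ.Prime → ¬ ℓ ∣ N * p →
        ∀ A : ValuationSubring Qb, A.LiesOverPrime ℓ →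
          (∀ σ ∈ A.inertiaSubgroupIn ℚ, r σ = 1) ∧
          ∃ a : Zbar, (a : ℂ) = ModularFormClass.qCoeff g ℓ ∧
            ∀ σ : Γ, A.IsFrobeniusAt σ ℓ →
              r σ * r σ + (ℓ : k0) • (1 : Module.End k0 W) = φ0 a • r σ := by
  classical
  obtain ⟨Ψ, hΨm, hΨker, hΨT⟩ := hPsi
  obtain ⟨d, χ, θ, ⟨γ0, hne⟩, hE⟩ := hEig
  -- `Ψ` with values in the torsion subgroup
  let Ψ' : H27.Lam N →+ Tors N p :=
    Ψ.codRestrict (Tors N p) (fun l => mem_tors_iff.mpr (hΨm l))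
  have hΨ' : ∀ l, ((Ψ' l : Tors N p) : JZero N) = Ψ l := fun l => rfl
  have hM : ∀ x : Tors N p, p • x = 0 := fun x => Subtype.ext (mem_tors_iff.mp x.2)
  have hker' : ∀ l : H27.Lam N, Ψ' l = 0 → ∃ m : H27.Lam N, l = p • m := fun l hl =>
    hΨker l (congrArg Subtype.val hl)
  -- evaluation functionals
  let ev : Gamma0 N → H27.Lam N →+ ℤ := fun γ =>
    (AddMonoidHom.eval (Additive.ofMul γ)).comp (H27.Lam N).subtype.toAddMonoidHom
  -- the good primes and the eigenvalues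
  let S : Set ℕ := {ℓ | ℓ.Prime ∧ ¬ ℓ ∣ N * p}
  have hSN : ∀ ℓ ∈ S, ¬ ℓ ∣ N := fun ℓ h hd => h.2 (Dvd.dvd.mul_right hd p)
  have hSp : ∀ ℓ ∈ S, ¬ ℓ ∣ p := fun ℓ h hd => h.2 (Dvd.dvd.mul_left hd N)
  let c : ℕ → k0 := fun ℓ =>
    if h : ℓ.Prime ∧ ¬ ℓ ∣ N then φ0 (hE ℓ h.1 h.2).choose else 0
  have hc : ∀ ℓ (h : ℓ ∈ S), c ℓ = φ0 (hE ℓ h.1 (hSN ℓ h)).choose := fun ℓ h => by
    show (if h : ℓ.Prime ∧ ¬ ℓ ∣ N then φ0 (hE ℓ h.1 h.2).choose else 0) = _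
    rw [dif_pos ⟨h.1, hSN ℓ h⟩]
  have heig : ∀ ℓ ∈ S, ∃ χ' : Fin d → H27.Lam N,
      (∀ i, heckeTors N p ℓ (Ψ' (χ i)) = Ψ' (χ' i)) ∧
      ∀ γ, ∑ i, θ i * ((ev γ (χ' i) : ℤ) : k0) = c ℓ * ∑ i, θ i * ((ev γ (χ i) : ℤ) : k0) := by
    intro ℓ h
    obtain ⟨χ', -, hTr, hpt⟩ := (hE ℓ h.1 (hSN ℓ h)).choose_spec
    rw [hc ℓ h]
    refine ⟨χ', fun i => Subtype.ext ?_, hpt⟩
    rw [coe_heckeTors N p h.1, hΨ', hΨ']
    exact hΨT ⟨ℓ, h.1⟩ (hSN ℓ h) (χ i) (χ' i) (hTr i)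
  -- the abstract assembly
  obtain ⟨W, i1, i2, i3, i4, r, hr, hrS⟩ := exists_wit_of_lattice hp hM (actTors N p)
    (exists_fix_tors N p) S (heckeTors N p) c
    (fun ℓ hℓS σ x => heckeTors_actTors N p hℓS.1 σ x)
    (fun ℓ hℓS A hA σ hσ x => frob_quad_tors N p hℓS.1 (hSN ℓ hℓS) (hSp ℓ hℓS) A hA σ hσ x)
    (fun ℓ hℓS A hA τ hτ x => inertia_fix_tors N p hℓS.1 (hSN ℓ hℓS) (hSp ℓ hℓS) A hA τ hτ x)
    Ψ' hker' ev (fun l h => lam_saturated N hp.ne_zero l h) χ θ ⟨γ0, hne⟩ heig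
  refine ⟨W, i1, i2, i3, i4, r, hr, fun ℓ hℓ hℓNp A hA => ?_⟩
  have hℓS : ℓ ∈ S := ⟨hℓ, hℓNp⟩
  obtain ⟨hin, hfr⟩ := hrS ℓ hℓS A hA
  refine ⟨hin, (hE ℓ hℓ (hSN ℓ hℓS)).choose, (hE ℓ hℓ (hSN ℓ hℓS)).choose_spec.choose_spec.1,
    fun σ hσ => ?_⟩
  rw [← hc ℓ hℓS]
  exact hfr σ hσ

/-- **(WIT)** the interface statement `H24.WitStmt` from (PSI) and (EIG). -/
theorem witStmt_of
    (hPsi : ∀ (N : ℕ) [NeZero N] (p : ℕ), p.Prime → H27.PsiStmt N p)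
    (hEig : ∀ (N : ℕ) [NeZero N] (g : CuspForm (Gamma0 N) 2), g.IsNormalizedEigenform →
      ∀ (p : ℕ), p.Prime → ∀ (κ : Type) [Field κ] [CharP κ p] (ψ : Zbar →+* κ),
        H27.EigStmt N g κ ψ) :
    H24.WitStmt := by
  intro N _ g hg p hp k0 _ _ _ φ0 _
  exact wit_of N g hp k0 φ0 (hPsi N p hp) (hEig N g hg p hp k0 φ0)

end Fermat.Agent.S29.H53
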