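import Mathlib
import Fermat.Agent.S29.KumHecke_helper8
import Fermat.Agent.S29.RHecke_helper58
import Fermat.Agent.S29.DescC_helper60
import Fermat.Agent.S29.KumC_helper52
import Fermat.Agent.S29.KumQ_helper71
import Fermat.Agent.S29.Wit_helper53
import Fermat.Agent.S24.ValSpec_helper90
import Fermat.Agent.S24.PhiData_helper69

/-!
# S29, node (PSI-ASM): the Kummer class map `Ψ : Hom_par(Γ₀(N), ℤ) → J₀(N)[m]`

`psiStmt N m hm : H27.PsiStmt N m` for every level `N ≥ 1` and every modulus `m ≠ 0`, by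
`H08.psiStmt_of_real` applied to the relation

`KumReal χ y := y ≠ 0 ∧ (m ∣ all orders of y) ∧ kumChar [P.Φ y] = expChar χ m`

(`y` a function of `X₀(N)` over `ℚ̄`, `P.Φ y` its analytic realisation, `kumChar` the multiplier
character of an `m`-th root). The seven clauses:

* existence: (KC2) `H52.exists_kummer_of_char` over `ℂ`, then (DESC) `H60.desc_C_dvd`;
* multiplicativity: `kumChar` is a homomorphism, `H35.expChar_add`;
* `KumReal 0 y → y = s ^ m`: (KQ2) `H71.kq2_pow`;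
* `KumReal χ (s ^ m) → χ ∈ m • Lam`: `H29.kumChar_pow_mem`, `H35.expChar_eq_one_iff`,
  `H53.lam_saturated`;
* Hecke: (HK) `H58.real_heckeNorm35`.
-/

set_option autoImplicit false

open UpperHalfPlane CongruenceSubgroup ModularCurve AlgebraicCurve
open scoped MatrixGroups
open Fermat.Agent.S24 Fermat.Agent.S24.H31

namespace Fermat.Agent.S29.H27

variable {N : ℕ} [NeZero N]

/-- the unit of `L N` attached to a nonzero function over `ℚ̄` -/
noncomputable def unitOf (P : PhiData N) (y : FN N) (hy : y ≠ 0) : (L N)ˣ :=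
  Units.mk0 (P.Φ y) ((map_ne_zero P.Φ).mpr hy)

/-- the Kummer relation between parabolic characters and functions over `ℚ̄` -/
def KumReal (V : ValSpec N) (P : PhiData N) {m : ℕ} (hm : m ≠ 0) (χ : Lam N) (y : FN N) : Prop :=
  ∃ (hy : y ≠ 0) (_ : ∀ v : Place Kbar (FN N), (m : ℤ) ∣ v.ord y)
    (hx : Units.mk0 (P.Φ y) ((map_ne_zero P.Φ).mpr hy) ∈ H29.kumGroup V m),
    H29.kumChar V hm ⟨_, hx⟩ = H35.expChar (χ : Additive (Gamma0 N) →+ ℤ) m

theorem expChar_zero (m : ℕ) : H35.expChar (0 : Additive (Gamma0 N) →+ ℤ) m = 1 := by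
  have h := H35.expChar_add (0 : Additive (Gamma0 N) →+ ℤ) 0 m
  rw [add_zero] at h
  exact (mul_eq_left (a := H35.expChar (0 : Additive (Gamma0 N) →+ ℤ) m)).mp h.symm

theorem expChar_neg (c : Additive (Gamma0 N) →+ ℤ) (m : ℕ) :
    H35.expChar (-c) m = (H35.expChar c m)⁻¹ := by
  have h := H35.expChar_add c (-c) m
  rw [add_neg_cancel, expChar_zero] at h
  refine MonoidHom.ext fun γ => ?_
  have h1 := DFunLike.congr_fun h γ
  rw [MonoidHom.one_apply, MonoidHom.mul_apply] at h1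
  rw [MonoidHom.inv_apply]
  exact eq_inv_of_mul_eq_one_right h1.symm

/-- the Kummer character does not depend on the proof of membership -/
theorem kumChar_congr (V : ValSpec N) {m : ℕ} (hm : m ≠ 0) {x y : (L N)ˣ} (h : x = y)
    (hx : x ∈ H29.kumGroup V m) (hy : y ∈ H29.kumGroup V m) :
    H29.kumChar V hm ⟨x, hx⟩ = H29.kumChar V hm ⟨y, hy⟩ := by
  subst h; rfl

theorem real_ne (V : ValSpec N) (P : PhiData N) {m : ℕ} (hm : m ≠ 0) (χ : Lam N) (y : FN N)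
    (h : KumReal V P hm χ y) : y ≠ 0 ∧ ∀ v : Place Kbar (FN N), (m : ℤ) ∣ v.ord y := by
  obtain ⟨hy, hdvd, -, -⟩ := h
  exact ⟨hy, hdvd⟩

theorem real_mul (V : ValSpec N) (P : PhiData N) {m : ℕ} (hm : m ≠ 0) (χ χ' : Lam N)
    (y y' : FN N) (h : KumReal V P hm χ y) (h' : KumReal V P hm χ' y') :
    KumReal V P hm (χ + χ') (y * y') := by
  obtain ⟨hy, hdvd, hx, hκ⟩ := h
  obtain ⟨hy', hdvd', hx', hκ'⟩ := h'
  have hyy : y * y' ≠ 0 := mul_ne_zero hy hy'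
  have hdvd2 : ∀ v : Place Kbar (FN N), (m : ℤ) ∣ v.ord (y * y') := fun v => by
    rw [v.ord_mul hy hy']
    exact dvd_add (hdvd v) (hdvd' v)
  have hmem := H71.kq1 P V (y * y') hyy hdvd2
  refine ⟨hyy, hdvd2, hmem, ?_⟩
  have hEq : (⟨Units.mk0 (P.Φ (y * y')) ((map_ne_zero P.Φ).mpr hyy), hmem⟩ : H29.kumGroup V m)
      = ⟨_, hx⟩ * ⟨_, hx'⟩ := by
    apply Subtype.ext
    apply Units.ext
    simp
  rw [hEq, map_mul, hκ, hκ']
  exact (H35.expChar_add _ _ m).symm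

theorem real_inv (V : ValSpec N) (P : PhiData N) {m : ℕ} (hm : m ≠ 0) (χ : Lam N)
    (y : FN N) (h : KumReal V P hm χ y) : KumReal V P hm (-χ) y⁻¹ := by
  obtain ⟨hy, hdvd, hx, hκ⟩ := h
  have hyi : y⁻¹ ≠ 0 := inv_ne_zero hy
  have hdvd2 : ∀ v : Place Kbar (FN N), (m : ℤ) ∣ v.ord y⁻¹ := fun v => by
    rw [v.ord_inv]
    exact (dvd_neg).mpr (hdvd v)
  have hmem := H71.kq1 P V y⁻¹ hyi hdvd2
  refine ⟨hyi, hdvd2, hmem, ?_⟩
  have hEq : (⟨Units.mk0 (P.Φ y⁻¹) ((map_ne_zero P.Φ).mpr hyi), hmem⟩ : H29.kumGroup V m)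
      = (⟨_, hx⟩ : H29.kumGroup V m)⁻¹ := by
    apply Subtype.ext
    apply Units.ext
    simp
  rw [hEq, map_inv, hκ]
  exact (expChar_neg _ m).symm

theorem real_zero (V : ValSpec N) (P : PhiData N) {m : ℕ} (hm : m ≠ 0) (y : FN N)
    (h : KumReal V P hm 0 y) : ∃ s : FN N, y = s ^ m := by
  obtain ⟨hy, -, hx, hκ⟩ := h
  refine H71.kq2_pow P V hm y hy hx ?_
  rw [hκ]
  exact expChar_zero m

theorem real_pow (V : ValSpec N) (P : PhiData N) {m : ℕ} (hm : m ≠ 0) (χ : Lam N) (s : FN N)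
    (h : KumReal V P hm χ (s ^ m)) : ∃ χ' : Lam N, χ = m • χ' := by
  obtain ⟨hy, -, hx, hκ⟩ := h
  have hs : s ≠ 0 := fun h0 => hy (by rw [h0, zero_pow hm])
  have hfix : ∀ γ ∈ Gamma0 N, γ • ((unitOf P s hs : (L N)ˣ) : L N) = unitOf P s hs :=
    fun γ hγ => P.inv γ hγ s
  have h1 := H29.kumChar_pow_mem V hm (unitOf P s hs) hfix
  have hEq : Units.mk0 (P.Φ (s ^ m)) ((map_ne_zero P.Φ).mpr hy) = unitOf P s hs ^ m := by
    apply Units.ext
    simp [unitOf]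
  rw [kumChar_congr V hm hEq hx (H29.pow_mem_kumGroup V m _ hfix), h1] at hκ
  refine H53.lam_saturated N hm χ fun γ => ?_
  rw [← H35.expChar_eq_one_iff _ hm γ, ← hκ]
  rfl

theorem real_ex (V : ValSpec N) (P : PhiData N) {m : ℕ} (hm : m ≠ 0) (χ : Lam N) :
    ∃ y, KumReal V P hm χ y := by
  obtain ⟨PC⟩ := H71.nonempty_phiC N
  obtain ⟨x, hx, hdiv, hκ⟩ := H52.exists_kummer_of_char PC.isCover V hm
    (χ : Additive (Gamma0 N) →+ ℤ) χ.2
  obtain ⟨f0, c, u, hf0, hc, hu, hEq, hdvd0⟩ := H60.desc_C_dvd N hm x hx hdiv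
  have hmem0 := H71.kq1 P V f0 hf0 hdvd0
  refine ⟨f0, hf0, hdvd0, hmem0, ?_⟩
  -- the unit attached to `u`
  have hu' : PC.Φ u ≠ 0 := (map_ne_zero PC.Φ).mpr hu
  have hfix : ∀ γ ∈ Gamma0 N, γ • ((Units.mk0 (PC.Φ u) hu' : (L N)ˣ) : L N)
      = (Units.mk0 (PC.Φ u) hu' : (L N)ˣ) := fun γ hγ => PC.inv γ hγ u
  have hEqU : (⟨Units.mk0 (PC.Φ x) ((map_ne_zero PC.Φ).mpr hx),
        H52.mk0_mem_kumGroup PC.isCover V x hx hdiv⟩ : H29.kumGroup V m)
      = ⟨_, H29.const_mem_kumGroup V hm hc⟩ * ⟨_, hmem0⟩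
        * ⟨_, H29.pow_mem_kumGroup V m (Units.mk0 (PC.Φ u) hu') hfix⟩ := by
    apply Subtype.ext
    apply Units.ext
    show PC.Φ x = algebraMap ℂ (L N) c * P.Φ f0 * (PC.Φ u) ^ m
    rw [hEq, map_mul, map_mul, map_pow, PC.map_const, PC.map_bcC P]
  rw [hEqU, map_mul, map_mul, H29.kumChar_const V hm hc, H29.kumChar_pow_mem V hm _ hfix] at hκ
  refine MonoidHom.ext fun γ => ?_
  have h1 := DFunLike.congr_fun hκ γ
  rw [MonoidHom.mul_apply, MonoidHom.mul_apply, MonoidHom.one_apply, one_mul, mul_one] at h1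
  exact h1

/-- **(PSI)**: the Kummer class map, for every level and every modulus. -/
theorem psiStmt (N : ℕ) [NeZero N] (m : ℕ) (hm : m ≠ 0) : PsiStmt N m := by
  refine H08.psiStmt_of_real N hm (KumReal (H90.valSpec N) (H69.phiData N) hm)
    (real_ne _ _ hm) (real_ex _ _ hm) (real_mul _ _ hm) (real_inv _ _ hm) (real_zero _ _ hm)
    (real_pow _ _ hm) ?_
  intro ℓ _ hℓ hℓN χ χ' y hy hT
  obtain ⟨hy0, hdvd, hx, hκ⟩ := hy
  exact H58.real_heckeNorm35 (H90.valSpec N) (H69.phiData N) hm hℓ hℓN hT hy0 hdvd hx hκ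

end Fermat.Agent.S29.H27
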