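import Fermat.Agent.S29.QuadRep_helper78

/-!
# (TOP-ALG) in the quadratic shape of the S29 top

`exists_rep_quad` is `H78.exists_rep` with the relation written as
`r g * r g + δ g • 1 = t g • r g` (the literal body of the top's `TopAlgStmt`);
`exists_rep_quad_of_powers` is the density form in the same shape, and `quad_pow` the power step.
-/

set_option autoImplicit false

open Polynomial

namespace Fermat.Agent.S29.H78

variable {k : Type*} [Field k] {G : Type*} [Group G] {W : Type*} [AddCommGroup W] [Module k W]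

/-- The quadratic relation `r g ^ 2 + δ g = t r g` is the relation `r g + δ g r g⁻¹ = t`. -/
theorem rel_iff_quad (r : G →* Module.End k W) (δ : G →* kˣ) (g : G) (t : k) :
    r g + (δ g : k) • r g⁻¹ = t • (1 : Module.End k W) ↔
      r g * r g + (δ g : k) • (1 : Module.End k W) = t • r g := by
  have h1 : r g⁻¹ * r g = 1 := by rw [← map_mul, inv_mul_cancel, map_one]
  have h2 : r g * r g⁻¹ = 1 := by rw [← map_mul, mul_inv_cancel, map_one]
  constructor
  · intro h
    have := congrArg (fun x => x * r g) h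
    simp only [add_mul, smul_mul_assoc, h1, one_mul] at this
    exact this
  · intro h
    have := congrArg (fun x => x * r g⁻¹) h
    simp only [add_mul, smul_mul_assoc, mul_assoc, h2, one_mul, mul_one] at this
    exact this

/-- **(TOP-ALG), quadratic shape.** -/
theorem exists_rep_quad [IsAlgClosed k] [FiniteDimensional k W] [Nontrivial W]
    (r : G →* Module.End k W) (δ : G →* kˣ) (t : G → k)
    (h : ∀ g, r g * r g + (δ g : k) • (1 : Module.End k W) = t g • r g) :
    ∃ ρ : G →* Matrix (Fin 2) (Fin 2) k,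
      (∀ g, (ρ g).charpoly = X ^ 2 - C (t g) * X + C (δ g : k)) ∧
      ∀ g, r g = 1 → δ g = 1 → ρ g = 1 :=
  exists_rep r δ t fun g => (rel_iff_quad r δ g (t g)).mpr (h g)

/-- Power step, quadratic shape. -/
theorem quad_pow (r : G →* Module.End k W) (δ : G →* kˣ) (g : G) (t : k)
    (h : r g * r g + (δ g : k) • (1 : Module.End k W) = t • r g) (j : ℕ) :
    ∃ t' : k, r (g ^ j) * r (g ^ j) + (δ (g ^ j) : k) • (1 : Module.End k W) = t' • r (g ^ j) := by
  obtain ⟨t', ht'⟩ := rel_pow r δ g t ((rel_iff_quad r δ g t).mpr h) j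
  exact ⟨t', (rel_iff_quad r δ (g ^ j) t').mp ht'⟩

/-- **(TOP-ALG), density form, quadratic shape.** `Frob` = "is a Frobenius lift at a good prime",
`a` = the prescribed traces there; every `g` acts like a power of some Frobenius lift. -/
theorem exists_rep_quad_of_powers [IsAlgClosed k] [FiniteDimensional k W] [Nontrivial W]
    (r : G →* Module.End k W) (δ : G →* kˣ) (Frob : G → Prop)
    (hfrob : ∀ s, Frob s → ∃ t : k, r s * r s + (δ s : k) • (1 : Module.End k W) = t • r s)
    (hgen : ∀ g : G, ∃ (s : G) (j : ℕ), Frob s ∧ r (s ^ j) = r g ∧ δ (s ^ j) = δ g) :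
    ∃ ρ : G →* Matrix (Fin 2) (Fin 2) k,
      (∀ g (t : k), r g * r g + (δ g : k) • (1 : Module.End k W) = t • r g →
        (ρ g).charpoly = X ^ 2 - C t * X + C (δ g : k)) ∧
      ∀ g, r g = 1 → δ g = 1 → ρ g = 1 := by
  obtain ⟨ρ, h1, h2⟩ := exists_rep_of_powers r δ {s | Frob s}
    (fun s hs => by
      obtain ⟨t, ht⟩ := hfrob s hs
      exact ⟨t, (rel_iff_quad r δ s t).mpr ht⟩)
    (fun g => by
      obtain ⟨s, j, hs, e1, e2⟩ := hgen g
      exact ⟨s, hs, j, e1.symm, e2.symm⟩)
  exact ⟨ρ, fun g t ht => h1 g t ((rel_iff_quad r δ g t).mpr ht), h2⟩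

end Fermat.Agent.S29.H78
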