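import Fermat.Agent.S29.Top_helper24
import Fermat.Agent.S29.QuadRepAdapt_helper78

/-!
# S29, node (TOP-ALG): the interface statement of the top

`topAlgStmt : H24.TopAlgStmt` is the literal (TOP-ALG) hypothesis of `H24.s29_of`
(`Top_helper24`), closed by the landed `H78.exists_rep_quad` (`QuadRepAdapt_helper78`,
on top of `QuadRep_helper78`).
-/

set_option autoImplicit false

namespace Fermat.Agent.S29.H65

/-- **(TOP-ALG)**: quadratic relations with a multiplicative constant term give a representation
of rank two with the expected characteristic polynomials (interface statement of the top). -/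
theorem topAlgStmt : Fermat.Agent.S29.H24.TopAlgStmt :=
  fun _ _ _ _ _ _ _ _ _ _ r δ t h => Fermat.Agent.S29.H78.exists_rep_quad r δ t h

end Fermat.Agent.S29.H65
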