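import Mathlib

/-!
# Reduction of an eigen-homomorphism modulo a prime of the algebraic integers

Mathlib only.  `u : Γ → ℂ` an additive character of a finitely generated group which is a
simultaneous eigenvector of "transfer-type" operators `(T_i u)(γ) = ∑_j u (τ i j γ)` with
eigenvalues `a i`.  Then the `a i` are algebraic integers, `u = ∑_j lam j • e j` with integer
valued characters `lam j`, and for every ring hom `φ` from the algebraic integers to a field `k`
there is a nonzero `k`-combination `∑_j c j • lam j` with eigenvalues `φ (a i)`.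
No commutativity of the operators, no Hecke algebra, no Nakayama.
-/

set_option autoImplicit false
set_option linter.style.haveILetI false

namespace Fermat.Agent.S29.H13

open Module

/-- For complex numbers `e : Fin r → ℂ`, not all zero, and a ring hom `φ` from the algebraic
integers to a field `k`, there is a nonzero `c : Fin r → k` orthogonal to the `φ`-image of every
relation `∑ ρ j * e j = 0` with algebraic-integer coefficients. -/
theorem exists_semilinear_coeffs {k : Type*} [Field k] (φ : integralClosure ℤ ℂ →+* k) {r : ℕ}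
    (e : Fin r → ℂ) (he : e ≠ 0) :
    ∃ c : Fin r → k, c ≠ 0 ∧ ∀ ρ : Fin r → integralClosure ℤ ℂ,
      ∑ j, (ρ j : ℂ) * e j = 0 → ∑ j, φ (ρ j) * c j = 0 := by
  classical
  set S : Set (Fin r → k) :=
    (fun ρ : Fin r → integralClosure ℤ ℂ => fun j => φ (ρ j)) ''
      {ρ | ∑ j, (ρ j : ℂ) * e j = 0} with hS
  have hW : Submodule.span k S ≠ ⊤ := by
    intro htop
    let B := Module.Basis.ofSpan (K := k) (s := S) (le_of_eq htop.symm)
    have hBS : Set.range B ⊆ S := Module.Basis.ofSpan_subset _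
    let B' := B.reindex (B.indexEquiv (Pi.basisFun k (Fin r)))
    have hB'S : ∀ i, B' i ∈ S := fun i => hBS ⟨_, (B.reindex_apply _ i).symm⟩
    choose ρ hρ hρeq using hB'S
    let A : Matrix (Fin r) (Fin r) (integralClosure ℤ ℂ) := Matrix.of ρ
    have hdetk : IsUnit ((Pi.basisFun k (Fin r)).det B') :=
      (Module.Basis.is_basis_iff_det (Pi.basisFun k (Fin r))).mp ⟨B'.linearIndependent, B'.span_eq⟩
    rw [Pi.basisFun_det_apply] at hdetk
    have hmap : Matrix.of (fun i => B' i) = φ.mapMatrix A := by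
      ext i j
      rw [Matrix.of_apply, ← hρeq i]
      rfl
    rw [hmap, ← RingHom.map_det] at hdetk
    have hdetA : A.det ≠ 0 := by
      intro h0
      rw [h0, map_zero] at hdetk
      exact not_isUnit_zero hdetk
    have hmul : (A.map (algebraMap (integralClosure ℤ ℂ) ℂ)).mulVec e = 0 := by
      ext i
      exact hρ i
    have hdetC : (A.map (algebraMap (integralClosure ℤ ℂ) ℂ)).det ≠ 0 := by
      rw [← RingHom.mapMatrix_apply, ← RingHom.map_det]
      exact fun h => hdetA (Subtype.ext h)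
    exact he (Matrix.eq_zero_of_mulVec_eq_zero hdetC hmul)
  obtain ⟨f, hf0, hfW⟩ := Submodule.exists_le_ker_of_lt_top _ (lt_top_iff_ne_top.mpr hW)
  have hf : ∀ w : Fin r → k, f w = ∑ j, w j * f (Pi.single j 1) := by
    intro w
    conv_lhs => rw [← Finset.univ_sum_single w]
    rw [map_sum]
    refine Finset.sum_congr rfl fun j _ => ?_
    rw [show (Pi.single j (w j) : Fin r → k) = w j • Pi.single j 1 by
      rw [← Pi.single_smul, smul_eq_mul, mul_one], map_smul, smul_eq_mul]
  refine ⟨fun j => f (Pi.single j 1), ?_, ?_⟩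
  · intro h0
    apply hf0
    refine LinearMap.ext fun w => ?_
    rw [hf w, LinearMap.zero_apply]
    exact Finset.sum_eq_zero fun j _ => by rw [show f (Pi.single j 1) = 0 from congrFun h0 j, mul_zero]
  · intro ρ hρ
    have hmem : (fun j => φ (ρ j)) ∈ Submodule.span k S :=
      Submodule.subset_span ⟨ρ, hρ, rfl⟩
    have := hfW hmem
    rw [LinearMap.mem_ker, hf] at this
    exact this

section Reduction

variable {Γ : Type*} [Group Γ]

/-- The values of an additive character of a finitely generated group form a finitely generated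
`ℤ`-submodule of `ℂ`. -/
theorem valueLattice_fg [Group.FG Γ] (u : Additive Γ →+ ℂ) :
    (AddSubgroup.toIntSubmodule u.range).FG := by
  rw [Submodule.fg_iff_addSubgroup_fg, AddSubgroup.toIntSubmodule_toAddSubgroup]
  exact (AddGroup.fg_iff_addSubgroup_fg u.range).mp inferInstance

variable {ι : Type*} {J : ι → Type*} [∀ i, Fintype (J i)]

/-- Eigenvalues of transfer-type operators on a nonzero complex character of a finitely
generated group are algebraic integers. -/
theorem isIntegral_eigenvalue [Group.FG Γ] (τ : ∀ i, J i → Γ → Γ)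
    (u : Additive Γ →+ ℂ) (hu : u ≠ 0) (a : ι → ℂ)
    (h : ∀ i γ, ∑ j, u (Additive.ofMul (τ i j γ)) = a i * u (Additive.ofMul γ)) (i : ι) :
    IsIntegral ℤ (a i) := by
  refine isIntegral_of_smul_mem_submodule (M := ℂ) (AddSubgroup.toIntSubmodule u.range) ?_
    (valueLattice_fg u) (a i) ?_
  · intro hbot
    apply hu
    refine AddMonoidHom.ext fun γ => ?_
    have hmem : u γ ∈ AddSubgroup.toIntSubmodule u.range := ⟨γ, rfl⟩
    rw [hbot, Submodule.mem_bot] at hmem
    rw [hmem, AddMonoidHom.zero_apply]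
  · rintro _ ⟨γ, rfl⟩
    have hγ := h i (Additive.toMul γ)
    rw [ofMul_toMul] at hγ
    rw [smul_eq_mul, ← hγ]
    exact Submodule.sum_mem _ fun j _ => ⟨_, rfl⟩

/-- **Reduction of an eigen-character.**  Let `u : Γ → ℂ` be a nonzero additive character of
a finitely generated group with `∑_j u (τ i j γ) = a i * u γ` for all `i`, `γ`.  For every ring
hom `φ` from the algebraic integers to a field `k` there are integer-valued characters
`lam j` (each vanishing wherever `u` vanishes), coefficients `c j : k` and the character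
`ubar = ∑_j c j • lam j : Γ → k`, nonzero, with `∑_j' ubar (τ i j' γ) = φ (a i) * ubar γ`. -/
theorem exists_eigen_reduction [Group.FG Γ] (τ : ∀ i, J i → Γ → Γ)
    (u : Additive Γ →+ ℂ) (hu : u ≠ 0) (a : ι → ℂ)
    (h : ∀ i γ, ∑ j, u (Additive.ofMul (τ i j γ)) = a i * u (Additive.ofMul γ))
    {k : Type*} [Field k] (φ : integralClosure ℤ ℂ →+* k) :
    ∃ (r : ℕ) (lam : Fin r → (Additive Γ →+ ℤ)) (c : Fin r → k) (ubar : Additive Γ →+ k),
      (∀ j γ, u γ = 0 → lam j γ = 0) ∧
      (∀ γ, ubar γ = ∑ j, c j * ((lam j γ : ℤ) : k)) ∧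
      ubar ≠ 0 ∧
      ∀ (i : ι) (hi : a i ∈ integralClosure ℤ ℂ) (γ : Γ),
        ∑ j', ubar (Additive.ofMul (τ i j' γ)) = φ ⟨a i, hi⟩ * ubar (Additive.ofMul γ) := by
  classical
  set P : Submodule ℤ ℂ := AddSubgroup.toIntSubmodule u.range with hP
  haveI : Module.Finite ℤ P := Module.Finite.iff_fg.mpr (valueLattice_fg u)
  haveI : Module.Free ℤ P := inferInstance
  set r := Module.finrank ℤ P with hr
  let b : Module.Basis (Fin r) ℤ P := Module.finBasis ℤ P
  let uP : Additive Γ →+ P :=
    { toFun := fun γ => ⟨u γ, ⟨γ, rfl⟩⟩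
      map_zero' := Subtype.ext u.map_zero
      map_add' := fun x y => Subtype.ext (u.map_add x y) }
  have huP : ∀ γ, ((uP γ : P) : ℂ) = u γ := fun _ => rfl
  let lam : Fin r → (Additive Γ →+ ℤ) := fun j =>
    ((b.coord j : P →ₗ[ℤ] ℤ).toAddMonoidHom).comp uP
  have hlam : ∀ j γ, lam j γ = b.repr (uP γ) j := fun _ _ => rfl
  let e : Fin r → ℂ := fun j => ((b j : P) : ℂ)
  have hdecomp : ∀ γ, u γ = ∑ j, ((lam j γ : ℤ) : ℂ) * e j := by
    intro γ
    have h1 := congrArg (fun x : P => (x : ℂ)) (b.sum_repr (uP γ))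
    simp only [Submodule.coe_sum, Submodule.coe_smul, zsmul_eq_mul] at h1
    rw [← huP γ, ← h1]
    rfl
  have he : e ≠ 0 := by
    intro h0
    apply hu
    refine AddMonoidHom.ext fun γ => ?_
    rw [hdecomp γ, AddMonoidHom.zero_apply]
    exact Finset.sum_eq_zero fun j _ => by rw [congrFun h0 j, Pi.zero_apply, mul_zero]
  obtain ⟨c, hc0, hc⟩ := exists_semilinear_coeffs φ e he
  let ubar : Additive Γ →+ k :=
    { toFun := fun γ => ∑ j, c j * ((lam j γ : ℤ) : k)
      map_zero' := by simp
      map_add' := fun x y => by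
        rw [← Finset.sum_add_distrib]
        exact Finset.sum_congr rfl fun j _ => by rw [map_add, Int.cast_add, mul_add] }
  have hubar : ∀ γ, ubar γ = ∑ j, c j * ((lam j γ : ℤ) : k) := fun _ => rfl
  refine ⟨r, lam, c, ubar, ?_, hubar, ?_, ?_⟩
  · intro j γ hγ
    have h0 : uP γ = 0 := Subtype.ext hγ
    rw [hlam, h0, map_zero, Finsupp.zero_apply]
  · obtain ⟨j0, hj0⟩ : ∃ j0, c j0 ≠ 0 := by
      by_contra hall
      push Not at hall
      exact hc0 (funext hall)
    obtain ⟨γ0, hγ0⟩ : ∃ γ0, u γ0 = ((b j0 : P) : ℂ) := (b j0).2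
    have huP0 : uP γ0 = b j0 := Subtype.ext hγ0
    intro hzero
    have h1 : ubar γ0 = c j0 := by
      rw [hubar]
      rw [Finset.sum_eq_single j0]
      · rw [hlam, huP0, Module.Basis.repr_self, Finsupp.single_eq_same, Int.cast_one, mul_one]
      · intro j _ hj
        rw [hlam, huP0, Module.Basis.repr_self, Finsupp.single_eq_of_ne hj, Int.cast_zero,
          mul_zero]
      · intro hj
        exact absurd (Finset.mem_univ j0) hj
    rw [hzero, AddMonoidHom.zero_apply] at h1
    exact hj0 h1.symm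
  · intro i hi γ
    -- the relation `a i * u γ - ∑ j', u (τ i j' γ) = 0`, coordinatewise
    let ρ : Fin r → integralClosure ℤ ℂ := fun j =>
      (⟨a i, hi⟩ : integralClosure ℤ ℂ) * ((lam j (Additive.ofMul γ) : ℤ) : integralClosure ℤ ℂ)
        - ∑ j', ((lam j (Additive.ofMul (τ i j' γ)) : ℤ) : integralClosure ℤ ℂ)
    have hρ : ∑ j, (ρ j : ℂ) * e j = 0 := by
      have h1 : ∀ j, (ρ j : ℂ) * e j
          = a i * (((lam j (Additive.ofMul γ) : ℤ) : ℂ) * e j)
            - ∑ j', ((lam j (Additive.ofMul (τ i j' γ)) : ℤ) : ℂ) * e j := by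
        intro j
        simp only [ρ]
        push_cast
        rw [sub_mul, Finset.sum_mul, mul_assoc]
      simp_rw [h1]
      rw [Finset.sum_sub_distrib, ← Finset.mul_sum, ← hdecomp, Finset.sum_comm]
      simp_rw [← hdecomp]
      rw [h i γ, sub_self]
    have hφ := hc ρ hρ
    have h2 : ∀ j, φ (ρ j) * c j
        = φ ⟨a i, hi⟩ * (c j * ((lam j (Additive.ofMul γ) : ℤ) : k))
          - ∑ j', c j * ((lam j (Additive.ofMul (τ i j' γ)) : ℤ) : k) := by
      intro j
      simp only [ρ]
      rw [map_sub, map_mul, map_sum, sub_mul, Finset.sum_mul]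
      simp only [map_intCast]
      congr 1
      · ring
      · exact Finset.sum_congr rfl fun j' _ => mul_comm _ _
    simp_rw [h2] at hφ
    rw [Finset.sum_sub_distrib, ← Finset.mul_sum, Finset.sum_comm, sub_eq_zero] at hφ
    simp_rw [hubar]
    exact hφ.symm

end Reduction

section Gamma0

open scoped MatrixGroups

/-- `SL(2, ℤ)` is finitely generated (by `S` and `T`). -/
theorem sl2Z_fg : Group.FG SL(2, ℤ) :=
  Group.fg_iff.mpr ⟨{ModularGroup.S, ModularGroup.T}, SpecialLinearGroup.SL2Z_generators,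
    Set.toFinite _⟩

/-- `Γ₀(N)` is finitely generated (Schreier). -/
theorem gamma0_fg (N : ℕ) [NeZero N] : Group.FG (CongruenceSubgroup.Gamma0 N) := by
  haveI := sl2Z_fg
  infer_instance

/-- Eigenvalues on a nonzero complex character of `Γ₀(N)` are algebraic integers. -/
theorem isIntegral_eigenvalue_gamma0 (N : ℕ) [NeZero N] {ι : Type*} {J : ι → Type*}
    [∀ i, Fintype (J i)]
    (τ : ∀ i, J i → CongruenceSubgroup.Gamma0 N → CongruenceSubgroup.Gamma0 N)
    (u : Additive (CongruenceSubgroup.Gamma0 N) →+ ℂ) (hu : u ≠ 0) (a : ι → ℂ)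
    (h : ∀ i γ, ∑ j, u (Additive.ofMul (τ i j γ)) = a i * u (Additive.ofMul γ)) (i : ι) :
    a i ∈ integralClosure ℤ ℂ := by
  haveI := gamma0_fg N
  exact isIntegral_eigenvalue τ u hu a h i

/-- `exists_eigen_reduction` for `Γ₀(N)`, with the parabolic condition of the Prelude spelled
out: each `lam j` kills every `γ` killed by `u`. -/
theorem exists_eigen_reduction_gamma0 (N : ℕ) [NeZero N] {ι : Type*} {J : ι → Type*}
    [∀ i, Fintype (J i)]
    (τ : ∀ i, J i → CongruenceSubgroup.Gamma0 N → CongruenceSubgroup.Gamma0 N)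
    (u : Additive (CongruenceSubgroup.Gamma0 N) →+ ℂ) (hu : u ≠ 0) (a : ι → ℂ)
    (h : ∀ i γ, ∑ j, u (Additive.ofMul (τ i j γ)) = a i * u (Additive.ofMul γ))
    {k : Type*} [Field k] (φ : integralClosure ℤ ℂ →+* k) :
    ∃ (r : ℕ) (lam : Fin r → (Additive (CongruenceSubgroup.Gamma0 N) →+ ℤ)) (c : Fin r → k)
      (ubar : Additive (CongruenceSubgroup.Gamma0 N) →+ k),
      (∀ j γ, u γ = 0 → lam j γ = 0) ∧
      (∀ γ, ubar γ = ∑ j, c j * ((lam j γ : ℤ) : k)) ∧
      ubar ≠ 0 ∧
      ∀ (i : ι) (hi : a i ∈ integralClosure ℤ ℂ) (γ : CongruenceSubgroup.Gamma0 N),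
        ∑ j', ubar (Additive.ofMul (τ i j' γ)) = φ ⟨a i, hi⟩ * ubar (Additive.ofMul γ) := by
  haveI := gamma0_fg N
  exact exists_eigen_reduction τ u hu a h φ

end Gamma0

end Fermat.Agent.S29.H13
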