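import Mathlib
import Fermat.Prelude.Def_ModularCurve_PeriodMap
import Fermat.Agent.S29.TransferDef_helper6
import Fermat.Agent.S29.EigenRed_helper13

/-!
# (EIG), algebra core in the relational form of `H06.IsHeckeTr`

A nonzero parabolic complex character `u` of `Γ₀(N)` whose Hecke transfers are `a ℓ • u`
yields: integer-valued parabolic characters `χ i` (the coordinates of `u` in a `ℤ`-basis of its
value lattice, jointly surjective onto `ℤ ^ d`), integer matrices `A` of the transfer in these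
coordinates, and a nonzero `θ : Fin d → k` with `∑ j, A j i * θ j = φ (a ℓ) * θ i`.
-/

set_option autoImplicit false
set_option linter.style.haveILetI false

namespace Fermat.Agent.S29.H13

open CongruenceSubgroup ModularCurve.Period Module
open Fermat.Agent.S29

theorem exists_eigen_of_char (N : ℕ) [NeZero N] (u : Additive (Gamma0 N) →+ ℂ) (hu : u ≠ 0)
    (hpar : u ∈ parabolicHoms ℂ (Gamma0 N) ℂ) (a : ℕ → ℂ)
    (h : ∀ ℓ : ℕ, ℓ.Prime → ¬ ℓ ∣ N → ∃ u' : Additive (Gamma0 N) →+ ℂ,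
      H06.IsHeckeTr N ℓ u u' ∧ ∀ γ, u' γ = a ℓ * u γ)
    {k : Type*} [Field k] (φ : integralClosure ℤ ℂ →+* k) :
    ∃ (d : ℕ) (χ : Fin d → Additive (Gamma0 N) →+ ℤ) (θ : Fin d → k),
      (∀ i, χ i ∈ parabolicHoms ℤ (Gamma0 N) ℤ) ∧
      (∀ c : Fin d → ℤ, ∃ γ, ∀ i, χ i γ = c i) ∧ θ ≠ 0 ∧
      ∀ ℓ : ℕ, ℓ.Prime → ¬ ℓ ∣ N → ∃ a' : integralClosure ℤ ℂ, (a' : ℂ) = a ℓ ∧
        ∃ A : Matrix (Fin d) (Fin d) ℤ,
          (∀ j, H06.IsHeckeTr N ℓ (χ j) (∑ i, A j i • χ i)) ∧
          (∀ i, ∑ j, (A j i : k) * θ j = φ a' * θ i) := by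
  classical
  haveI := gamma0_fg N
  set P : Submodule ℤ ℂ := AddSubgroup.toIntSubmodule u.range with hP
  haveI : Module.Finite ℤ P := Module.Finite.iff_fg.mpr (valueLattice_fg u)
  haveI : Module.Free ℤ P := inferInstance
  set d := Module.finrank ℤ P with hd
  let b : Module.Basis (Fin d) ℤ P := Module.finBasis ℤ P
  have hmemP : ∀ γ, u γ ∈ P := fun γ => ⟨γ, rfl⟩
  let uP : Additive (Gamma0 N) →+ P :=
    { toFun := fun γ => ⟨u γ, hmemP γ⟩
      map_zero' := Subtype.ext u.map_zero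
      map_add' := fun x y => Subtype.ext (u.map_add x y) }
  have huP : ∀ γ, ((uP γ : P) : ℂ) = u γ := fun _ => rfl
  have huPsurj : Function.Surjective uP := by
    rintro ⟨x, γ, rfl⟩
    exact ⟨γ, rfl⟩
  let χ : Fin d → (Additive (Gamma0 N) →+ ℤ) := fun j =>
    ((b.coord j : P →ₗ[ℤ] ℤ).toAddMonoidHom).comp uP
  have hχ : ∀ j γ, χ j γ = b.repr (uP γ) j := fun _ _ => rfl
  let e : Fin d → ℂ := fun j => ((b j : P) : ℂ)
  have hcoe : ∀ x : P, (x : ℂ) = ∑ j, ((b.repr x j : ℤ) : ℂ) * e j := by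
    intro x
    have h1 := congrArg (fun y : P => (y : ℂ)) (b.sum_repr x)
    simp only [Submodule.coe_sum, Submodule.coe_smul, zsmul_eq_mul] at h1
    exact h1.symm
  have he : e ≠ 0 := by
    intro h0
    apply hu
    refine AddMonoidHom.ext fun γ => ?_
    rw [← huP γ, hcoe (uP γ), AddMonoidHom.zero_apply]
    exact Finset.sum_eq_zero fun j _ => by rw [congrFun h0 j, Pi.zero_apply, mul_zero]
  obtain ⟨θ, hθ0, hθ⟩ := exists_semilinear_coeffs φ e he
  refine ⟨d, χ, θ, ?_, ?_, hθ0, ?_⟩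
  · -- parabolic
    intro i γ hγ
    have h0 : uP (Additive.ofMul γ) = 0 := Subtype.ext (hpar γ hγ)
    show χ i (Additive.ofMul γ) = 0
    rw [hχ, h0, map_zero, Finsupp.zero_apply]
  · -- jointly surjective
    intro c
    obtain ⟨γ, hγ⟩ := huPsurj (∑ i, c i • b i)
    refine ⟨γ, fun i => ?_⟩
    rw [hχ, hγ, Module.Basis.repr_sum_self]
  · intro ℓ hℓ hℓN
    obtain ⟨u', hu', hu'a⟩ := h ℓ hℓ hℓN
    -- multiplication by `a ℓ` preserves the value lattice
    have hstab : ∀ x ∈ P, LinearMap.mulLeft ℤ (a ℓ) x ∈ P := by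
      rintro _ ⟨γ, rfl⟩
      obtain ⟨σ, g', hdec⟩ := H06.exists_isDecomp hℓ hℓN (Additive.toMul γ)
      have h1 := hu' _ σ g' hdec
      rw [ofMul_toMul, hu'a] at h1
      rw [LinearMap.mulLeft_apply, h1]
      exact Submodule.sum_mem _ fun x _ => hmemP _
    have hint : IsIntegral ℤ (a ℓ) := by
      refine isIntegral_of_smul_mem_submodule (M := ℂ) P ?_ (valueLattice_fg u) (a ℓ)
        (fun x hx => hstab x hx)
      intro hbot
      apply hu
      refine AddMonoidHom.ext fun γ => ?_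
      have hmem := hmemP γ
      rw [hbot, Submodule.mem_bot] at hmem
      rw [hmem, AddMonoidHom.zero_apply]
    let m : P →ₗ[ℤ] P := (LinearMap.mulLeft ℤ (a ℓ)).restrict hstab
    have hm : ∀ x : P, ((m x : P) : ℂ) = a ℓ * (x : ℂ) := fun _ => rfl
    let A : Matrix (Fin d) (Fin d) ℤ := LinearMap.toMatrix b b m
    have hA : ∀ (x : P) (j : Fin d), b.repr (m x) j = ∑ i, A j i * b.repr x i := by
      intro x j
      have := congrFun (LinearMap.toMatrix_mulVec_repr b b m x) j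
      rw [← this]
      rfl
    refine ⟨⟨a ℓ, hint⟩, rfl, A, ?_, ?_⟩
    · intro j γ σ g' hdec
      have h1 := hu' γ σ g' hdec
      rw [hu'a] at h1
      have h2 : m (uP (Additive.ofMul γ)) = ∑ x, uP (Additive.ofMul (g' x)) := by
        apply Subtype.ext
        rw [hm, huP, h1, Submodule.coe_sum]
        rfl
      have h3 := hA (uP (Additive.ofMul γ)) j
      rw [h2, map_sum, Finsupp.finsetSum_apply] at h3
      rw [AddMonoidHom.finsetSum_apply]
      simp only [AddMonoidHom.smul_apply, smul_eq_mul, hχ]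
      exact h3.symm
    · intro i
      let ρ : Fin d → integralClosure ℤ ℂ := fun j =>
        ((A j i : ℤ) : integralClosure ℤ ℂ) - if j = i then ⟨a ℓ, hint⟩ else 0
      have hρ : ∑ j, (ρ j : ℂ) * e j = 0 := by
        have h1 : ∀ j, (ρ j : ℂ) * e j
            = ((A j i : ℤ) : ℂ) * e j - if j = i then a ℓ * e i else 0 := by
          intro j
          simp only [ρ]
          split_ifs with hji
          · subst hji
            push_cast
            ring
          · push_cast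
            ring
        simp_rw [h1]
        rw [Finset.sum_sub_distrib, Finset.sum_ite_eq' Finset.univ i, if_pos (Finset.mem_univ i)]
        have h2 := hcoe (m (b i))
        rw [hm] at h2
        have h3 : ∀ j, b.repr (m (b i)) j = A j i := fun j => by
          rw [hA, Finset.sum_eq_single i]
          · rw [Module.Basis.repr_self, Finsupp.single_eq_same, mul_one]
          · intro i' _ hi'
            rw [Module.Basis.repr_self, Finsupp.single_eq_of_ne hi', mul_zero]
          · intro hi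
            exact absurd (Finset.mem_univ i) hi
        simp_rw [h3] at h2
        rw [← h2, sub_self]
      have h4 := hθ ρ hρ
      have h5 : ∀ j, φ (ρ j) * θ j
          = ((A j i : ℤ) : k) * θ j - if j = i then φ ⟨a ℓ, hint⟩ * θ i else 0 := by
        intro j
        simp only [ρ]
        split_ifs with hji
        · subst hji
          rw [map_sub, map_intCast, sub_mul]
        · rw [sub_zero, map_intCast, sub_zero]
      simp_rw [h5] at h4
      rw [Finset.sum_sub_distrib, Finset.sum_ite_eq' Finset.univ i, if_pos (Finset.mem_univ i),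
        sub_eq_zero] at h4
      exact h4

/-- The same with the transfer hypothesis in the form `IsHeckeTr N ℓ u (a ℓ • u)`. -/
theorem exists_eigen_of_char' (N : ℕ) [NeZero N] (u : Additive (Gamma0 N) →+ ℂ) (hu : u ≠ 0)
    (hpar : u ∈ parabolicHoms ℂ (Gamma0 N) ℂ) (a : ℕ → ℂ)
    (h : ∀ ℓ : ℕ, ℓ.Prime → ¬ ℓ ∣ N → H06.IsHeckeTr N ℓ u (a ℓ • u))
    {k : Type*} [Field k] (φ : integralClosure ℤ ℂ →+* k) :
    ∃ (d : ℕ) (χ : Fin d → Additive (Gamma0 N) →+ ℤ) (θ : Fin d → k),
      (∀ i, χ i ∈ parabolicHoms ℤ (Gamma0 N) ℤ) ∧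
      (∀ c : Fin d → ℤ, ∃ γ, ∀ i, χ i γ = c i) ∧ θ ≠ 0 ∧
      ∀ ℓ : ℕ, ℓ.Prime → ¬ ℓ ∣ N → ∃ a' : integralClosure ℤ ℂ, (a' : ℂ) = a ℓ ∧
        ∃ A : Matrix (Fin d) (Fin d) ℤ,
          (∀ j, H06.IsHeckeTr N ℓ (χ j) (∑ i, A j i • χ i)) ∧
          (∀ i, ∑ j, (A j i : k) * θ j = φ a' * θ i) :=
  exists_eigen_of_char N u hu hpar a
    (fun ℓ hℓ hℓN => ⟨a ℓ • u, h ℓ hℓ hℓN, fun _ => rfl⟩) φ

end Fermat.Agent.S29.H13
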