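import Mathlib
import Fermat.Prelude.Def_FLTPrelim_Modularity
import Fermat.Prelude.Def_ModularForm_HeckeOperatorForms
import Fermat.Prelude.Thm_CongruenceSubgroup_one_mem_strictPeriods_Gamma0
import Fermat.Prelude.Thm_ModularFormClass_qCoeff_heckeT
import Fermat.Prelude.Thm_UpperHalfPlane_eq_of_forall_qCoeff_eq

/-!
# (E2): a normalized eigenform is a pointwise eigenfunction of the Hecke correspondence

For a normalized eigenform `g` of level `N` and a prime `ℓ ∤ N`: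
`ℓ⁻¹ ∑_{u<ℓ} g((z+u)/ℓ) + ℓ g(ℓ z) = a_ℓ(g) g(z)`.
-/

set_option autoImplicit false

namespace Fermat.Agent.S29.H36

open UpperHalfPlane ModularFormClass CongruenceSubgroup
open scoped MatrixGroups ModularForm Manifold

variable {N : ℕ}

theorem one_mem_periods_Gamma0 (N : ℕ) :
    (1 : ℝ) ∈ (Subgroup.map (Matrix.SpecialLinearGroup.mapGL ℝ) (Gamma0 N)).strictPeriods :=
  CongruenceSubgroup.one_mem_strictPeriods_Gamma0 N

theorem qCoeff_smul_cusp (c : ℂ) (f : CuspForm (Gamma0 N) 2) (n : ℕ) :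
    qCoeff ⇑(c • f) n = c * qCoeff ⇑f n := by
  have h1 : ⇑(c • f) = c • ⇑f := by
    ext z
    simp
  simp only [qCoeff, h1]
  rw [ModularForm.qExpansion_smul one_pos (one_mem_periods_Gamma0 N) c f]
  simp

theorem qCoeff_zero_cusp (f : CuspForm (Gamma0 N) 2) : qCoeff ⇑f 0 = 0 := by
  simp only [qCoeff]
  exact CuspFormClass.qExpansion_coeff_zero f one_pos (one_mem_periods_Gamma0 N)

/-- **Coefficient form of (E2).** -/
theorem qCoeff_hecke_relation {g : CuspForm (Gamma0 N) 2} (hg : g.IsNormalizedEigenform)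
    {ℓ : ℕ} (hℓ : ℓ.Prime) (hN : ¬ ℓ ∣ N) (n : ℕ) :
    qCoeff ⇑g (n * ℓ) + (if ℓ ∣ n then (ℓ : ℂ) * qCoeff ⇑g (n / ℓ) else 0)
      = qCoeff ⇑g ℓ * qCoeff ⇑g n := by
  rcases Nat.eq_zero_or_pos n with rfl | hn
  · simp [qCoeff_zero_cusp]
  obtain ⟨r, m, hm, rfl⟩ := Nat.exists_eq_pow_mul_and_not_dvd hn.ne' ℓ hℓ.ne_one
  have hcop : ∀ j : ℕ, Nat.Coprime (ℓ ^ j) m :=
    fun j => Nat.Coprime.pow_left j ((Nat.Prime.coprime_iff_not_dvd hℓ).mpr hm)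
  rcases r with _ | s
  · -- `ℓ ∤ n`
    have hnd : ¬ ℓ ∣ ℓ ^ 0 * m := by simpa using hm
    rw [if_neg hnd]
    simp only [pow_zero, one_mul, add_zero]
    rw [mul_comm m ℓ, hg.qCoeff_mul_of_coprime ℓ m (by simpa using hcop 1)]
  · have hd : ℓ ∣ ℓ ^ (s + 1) * m := Dvd.dvd.mul_right (dvd_pow_self ℓ (Nat.succ_ne_zero s)) m
    rw [if_pos hd]
    have e1 : ℓ ^ (s + 1) * m * ℓ = ℓ ^ (s + 2) * m := by ring
    have e2 : ℓ ^ (s + 1) * m / ℓ = ℓ ^ s * m := by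
      rw [pow_succ, mul_assoc, mul_comm ℓ m, ← mul_assoc]
      exact Nat.mul_div_cancel _ hℓ.pos
    rw [e1, e2, hg.qCoeff_mul_of_coprime _ _ (hcop (s + 2)),
      hg.qCoeff_mul_of_coprime _ _ (hcop (s + 1)), hg.qCoeff_mul_of_coprime _ _ (hcop s),
      hg.qCoeff_prime_pow_of_not_dvd ℓ s hℓ hN]
    ring

/-- The Prelude Hecke operator `T_ℓ` has `g` as an eigenvector with eigenvalue `a_ℓ(g)`. -/
theorem heckeT_eq_smul {g : CuspForm (Gamma0 N) 2} (hg : g.IsNormalizedEigenform)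
    {ℓ : ℕ} (hℓ : ℓ.Prime) (hN : ¬ ℓ ∣ N) :
    CuspForm.heckeTLin 2 hℓ hN g = qCoeff ⇑g ℓ • g := by
  have hΓ := one_mem_periods_Gamma0 N
  have : Fact (IsCusp OnePoint.infty
      (Subgroup.map (Matrix.SpecialLinearGroup.mapGL ℝ) (Gamma0 N))) :=
    ⟨Subgroup.isCusp_of_mem_strictPeriods one_pos hΓ⟩
  apply DFunLike.coe_injective
  refine UpperHalfPlane.eq_of_forall_qCoeff_eq
    (SlashInvariantFormClass.periodic_comp_ofComplex _ hΓ) (CuspFormClass.holo _)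
    (ModularFormClass.bdd_at_infty _)
    (SlashInvariantFormClass.periodic_comp_ofComplex _ hΓ) (CuspFormClass.holo _)
    (ModularFormClass.bdd_at_infty _) ?_
  intro n
  rw [CuspForm.coe_heckeTLin_apply, ModularFormClass.qCoeff_heckeT g hΓ hℓ.ne_zero n,
    ModularForm.coeffHeckeT_apply, qCoeff_smul_cusp]
  have := qCoeff_hecke_relation hg hℓ hN n
  simpa using this

/-- **(E2), `ℍ` form.** -/
theorem hecke_fn_eq_uhp {g : CuspForm (Gamma0 N) 2} (hg : g.IsNormalizedEigenform)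
    {ℓ : ℕ} (hℓ : ℓ.Prime) (hN : ¬ ℓ ∣ N) (τ : ℍ) :
    (ℓ : ℂ)⁻¹ * ∑ j ∈ Finset.range ℓ, g (ModularForm.heckeMatrix ℓ j • τ)
      + (ℓ : ℂ) * g (ModularForm.heckeDiagMatrix ℓ • τ) = qCoeff ⇑g ℓ * g τ := by
  have h := congrArg (fun f : CuspForm (Gamma0 N) 2 => f τ) (heckeT_eq_smul hg hℓ hN)
  simp only [CuspForm.heckeTLin_apply_apply] at h
  rw [ModularForm.heckeT_apply 2 hℓ.ne_zero] at h
  have h2 : ((qCoeff ⇑g ℓ • g : CuspForm (Gamma0 N) 2) τ) = qCoeff ⇑g ℓ * g τ := by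
    simp
  rw [h2] at h
  simpa using h

/-- **(E2), `ℂ → ℂ` form.** -/
theorem hecke_fn_eq {g : CuspForm (Gamma0 N) 2} (hg : g.IsNormalizedEigenform)
    {ℓ : ℕ} (hℓ : ℓ.Prime) (hN : ¬ ℓ ∣ N) (z : ℂ) (hz : 0 < z.im) :
    (ℓ : ℂ) * (⇑g ∘ UpperHalfPlane.ofComplex) (ℓ * z)
      + (ℓ : ℂ)⁻¹ * ∑ u ∈ Finset.range ℓ, (⇑g ∘ UpperHalfPlane.ofComplex) ((z + u) / ℓ)
      = qCoeff ⇑g ℓ * (⇑g ∘ UpperHalfPlane.ofComplex) z := by
  have h := hecke_fn_eq_uhp hg hℓ hN ⟨z, hz⟩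
  have hd : (ModularForm.heckeDiagMatrix ℓ • (⟨z, hz⟩ : ℍ)) = UpperHalfPlane.ofComplex (ℓ * z) := by
    apply UpperHalfPlane.ext
    rw [ModularForm.coe_heckeDiagMatrix_smul hℓ.ne_zero]
    have him : 0 < ((ℓ : ℂ) * z).im := by
      simp only [Complex.mul_im, Complex.natCast_re, Complex.natCast_im, zero_mul, add_zero]
      exact mul_pos (by exact_mod_cast hℓ.pos) hz
    rw [UpperHalfPlane.ofComplex_apply_of_im_pos him]
  have hu : ∀ u : ℕ, (ModularForm.heckeMatrix ℓ u • (⟨z, hz⟩ : ℍ))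
      = UpperHalfPlane.ofComplex ((z + u) / ℓ) := by
    intro u
    apply UpperHalfPlane.ext
    rw [ModularForm.coe_heckeMatrix_smul hℓ.ne_zero]
    have him : 0 < ((z + u) / (ℓ : ℂ)).im := by
      have : ((z + u) / (ℓ : ℂ)).im = z.im / ℓ := by
        rw [Complex.div_natCast_im]; simp
      rw [this]
      exact div_pos hz (by exact_mod_cast hℓ.pos)
    rw [UpperHalfPlane.ofComplex_apply_of_im_pos him]
  have hz0 : (⇑g ∘ UpperHalfPlane.ofComplex) z = g ⟨z, hz⟩ := by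
    simp [UpperHalfPlane.ofComplex_apply_of_im_pos hz]
  simp only [Function.comp_apply] at hz0 ⊢
  rw [hz0, ← hd, ← h, add_comm]
  congr 2
  apply Finset.sum_congr rfl
  intro u _
  rw [hu u]

end Fermat.Agent.S29.H36
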