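import Mathlib
import Fermat.Prelude.Def_ModularCurve_PeriodHomPair
import Fermat.Prelude.Def_ModularForm_HeckeOperatorForms
import Fermat.Agent.S21.Prim_helper25
import Fermat.Agent.S22.HeckeDecomp_helper56
import Fermat.Agent.S22.Transform_helper28
import Fermat.Agent.S29.TransferDef_helper6

/-!
# S29, node (EIG), part 1 (helper6): equivariance of the period map

`isHeckeTr_periodMap` : for every weight-2 cusp form `f` on `Γ₀(N)` and every prime `ℓ ∤ N`,
`periodMap N (T_ℓ f)` is the Hecke transfer (`H06.IsHeckeTr`, see `TransferDef_helper6`) of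
`periodMap N f`.  Here `T_ℓ = CuspForm.heckeTLin 2` is the frozen Prelude operator.
-/

set_option autoImplicit false

namespace Fermat.Agent.S29.H06

open UpperHalfPlane CongruenceSubgroup ModularCurve ModularCurve.Period Filter Topology
open Fermat.Agent.S22 Fermat.Agent.S21
open scoped MatrixGroups ModularForm

/-! ### The period map -/

/-- Chain rule along a matrix of positive determinant: if `F' = f` then
`(F ∘ α)' = f ∣[2] α`. -/
theorem hasDerivAt_comp_GL {F f : ℍ → ℂ}
    (hF : ∀ τ : ℍ, HasDerivAt (F ∘ ofComplex) (f τ) ↑τ) (α : GL (Fin 2) ℝ)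
    (hα : 0 < α.val.det) (z : ℍ) :
    HasDerivAt ((fun w : ℍ => F (α • w)) ∘ ofComplex) ((f ∣[(2 : ℤ)] α) z) (z : ℂ) := by
  have h1 := H28.hasDerivAt_smul_coe α hα z
  have h2 : HasDerivAt (F ∘ ofComplex) (f (α • z))
      ((fun w : ℂ => ((α • ofComplex w : ℍ) : ℂ)) (z : ℂ)) := by
    simp only [ofComplex_apply]
    exact hF (α • z)
  have h3 := HasDerivAt.comp (z : ℂ) h2 h1
  have h4 : (f ∣[(2 : ℤ)] α) z = f (α • z) * ((α.val.det : ℂ) / denom α z ^ 2) := by
    have := H28.slash_apply_of_det_pos 0 f α hα z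
    simp only [Nat.cast_zero, zero_add, pow_one] at this
    rw [this]
    ring
  rw [h4]
  refine h3.congr_of_eventuallyEq (Eventually.of_forall fun w => ?_)
  simp [ofComplex_apply]

/-- The sum of the translates of a primitive of `f` along the representatives of `T_ℓ` is a
primitive of `T_ℓ f`. -/
theorem hasDerivAt_sum_repT {F f : ℍ → ℂ}
    (hF : ∀ τ : ℍ, HasDerivAt (F ∘ ofComplex) (f τ) ↑τ) (ℓ : ℕ) (z : ℍ) :
    HasDerivAt ((fun w : ℍ => ∑ x : Option (Fin ℓ), F (H56.repT ℓ x • w)) ∘ ofComplex)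
      (ModularForm.heckeT 2 ℓ f z) (z : ℂ) := by
  have h := HasDerivAt.fun_sum (u := (Finset.univ : Finset (Option (Fin ℓ))))
    (fun x _ => hasDerivAt_comp_GL hF (H56.repT ℓ x) (H56.repT_det_pos x) z)
  rw [H56.heckeT_eq_sum_repT, Finset.sum_apply]
  refine h.congr_of_eventuallyEq (Eventually.of_forall fun w => ?_)
  simp

/-- **Equivariance of the period map**: the period homomorphism of `T_ℓ f` is the Hecke transfer
of the period homomorphism of `f`. -/
theorem isHeckeTr_periodMap {N ℓ : ℕ} [NeZero N] (hℓ : ℓ.Prime) (hℓN : ¬ ℓ ∣ N)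
    (f : CuspForm (Gamma0 N) 2) :
    IsHeckeTr N ℓ (periodMap N f) (periodMap N (CuspForm.heckeTLin 2 hℓ hℓN f)) := by
  obtain ⟨F, hF⟩ := H25.exists_hasEquivariantPrimitive N f
  obtain ⟨FT, hFT⟩ := H25.exists_hasEquivariantPrimitive N (CuspForm.heckeTLin 2 hℓ hℓN f)
  set G : ℍ → ℂ := fun w => ∑ x : Option (Fin ℓ), F (H56.repT ℓ x • w) with hG
  have hD : ∀ z : ℍ, HasDerivAt ((fun w : ℍ => G w - FT w) ∘ ofComplex) 0 z := by
    intro z
    have h1 := hasDerivAt_sum_repT hF.1 ℓ z
    have h2 := hFT.1 z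
    have h3 := h1.sub h2
    rw [CuspForm.heckeTLin_apply_apply, sub_self] at h3
    exact h3
  have hconst : ∀ w w' : ℍ, G w - FT w = G w' - FT w' := fun w w' =>
    H26.eq_of_hasDerivAt_zero hD w w'
  intro γ σ g' hd
  rw [H25.periodMap_apply hFT γ]
  have hterm : ∀ x : Option (Fin ℓ), periodMap N f (Additive.ofMul (g' x)) =
      F (H56.repT ℓ x • ((γ : SL(2, ℤ)) • I)) - F (H56.repT ℓ (σ x) • I) := by
    intro x
    rw [H25.periodMap_apply' hF (g' x), ← hF.2.2.1.sub_eq_period (g' x) (H56.repT ℓ (σ x) • I)]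
    congr 2
    have e := congrArg (fun M : GL (Fin 2) ℝ => M • (I : ℍ)) (hd x)
    simp only [mul_smul] at e
    exact e.symm
  rw [Finset.sum_congr rfl fun x _ => hterm x, Finset.sum_sub_distrib,
    Equiv.sum_comp σ (fun y => F (H56.repT ℓ y • I))]
  have := hconst ((γ : SL(2, ℤ)) • I) I
  simp only [hG] at this
  linear_combination -this

end Fermat.Agent.S29.H06
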