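import Mathlib
import Fermat.Agent.S29.Stmts_helper27
import Fermat.Agent.S29.PeriodHecke_helper6
import Fermat.Agent.S29.HeckeFn_helper36
import Fermat.Agent.S29.EigChar_helper13
import Fermat.Agent.S21.Injective_helper25
import Fermat.Agent.S21.Parabolic_helper23

/-!
# (EIG): `H27.EigStmt` for every normalized eigenform and every coefficient field

`eigStmt : g.IsNormalizedEigenform → H27.EigStmt N g κ ψ` for every field `κ` and every ring
hom `ψ` from the algebraic integers (no hypothesis on the characteristic).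
Inputs: `H06.isHeckeTr_periodMap` (period map is transfer-equivariant), `H36.heckeT_eq_smul`
(`T_ℓ g = a_ℓ g`), S21 (injectivity and parabolicity of the period map) and the algebra core
`H13.exists_eigen_of_char`.
-/

set_option autoImplicit false

namespace Fermat.Agent.S29.H13

open CongruenceSubgroup ModularCurve ModularCurve.Period ModularFormClass
open Fermat.Agent.S29 Fermat.Agent.S21

/-- The period homomorphism of a normalized eigenform is nonzero. -/
theorem periodMap_ne_zero (N : ℕ) [NeZero N] {g : CuspForm (Gamma0 N) 2}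
    (hg : g.IsNormalizedEigenform) : periodMap N g ≠ 0 := by
  intro h0
  have h1 : periodHomPair N (g, g) = 0 := by
    refine AddMonoidHom.ext fun γ => ?_
    obtain ⟨γ, rfl⟩ := Additive.ofMul.surjective γ
    rw [H25.periodHomPair_apply, h0]
    simp
  have h2 : (g, g) = (0 : CuspForm (Gamma0 N) 2 × CuspForm (Gamma0 N) 2) :=
    H25.periodHomPair_injective N (h1.trans (map_zero _).symm)
  have hg0 : g = 0 := (Prod.ext_iff.mp h2).1
  have h3 : qCoeff (⇑g) 1 = 0 := by
    have h4 := H36.qCoeff_smul_cusp (0 : ℂ) g 1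
    rw [zero_smul, zero_mul] at h4
    rw [hg0]
    exact h4
  rw [hg.qCoeff_one] at h3
  exact one_ne_zero h3

/-- **(EIG)** for every field `κ` and every `ψ`. -/
theorem eigStmt (N : ℕ) [NeZero N] {g : CuspForm (Gamma0 N) 2}
    (hg : g.IsNormalizedEigenform) (κ : Type) [Field κ] (ψ : integralClosure ℤ ℂ →+* κ) :
    H27.EigStmt N g κ ψ := by
  classical
  obtain ⟨d, χ, θ, hpar, hsurj, hθ0, hE⟩ :=
    exists_eigen_of_char N (periodMap N g) (periodMap_ne_zero N hg)
      (H23.periodMap_mem_parabolicHoms N g) (fun ℓ => qCoeff (⇑g) ℓ)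
      (fun ℓ hℓ hℓN => ⟨periodMap N (CuspForm.heckeTLin 2 hℓ hℓN g),
        H06.isHeckeTr_periodMap hℓ hℓN g, fun γ => by
          rw [H36.heckeT_eq_smul hg hℓ hℓN]
          have h1 := (H25.pml N).map_smul (qCoeff (⇑g) ℓ) g
          rw [H25.pml_apply, H25.pml_apply] at h1
          rw [h1]
          rfl⟩) ψ
  refine ⟨d, fun i => ⟨χ i, hpar i⟩, θ, ?_, ?_⟩
  · obtain ⟨i0, hi0⟩ : ∃ i0, θ i0 ≠ 0 := by
      by_contra hall
      push Not at hall
      exact hθ0 (funext hall)
    obtain ⟨γ, hγ⟩ := hsurj (fun i => if i = i0 then 1 else 0)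
    refine ⟨Additive.toMul γ, ?_⟩
    rw [ofMul_toMul]
    have h1 : ∑ i, θ i * (((χ i γ : ℤ)) : κ) = θ i0 := by
      rw [Finset.sum_eq_single i0]
      · rw [hγ, if_pos rfl, Int.cast_one, mul_one]
      · intro i _ hi
        rw [hγ, if_neg hi, Int.cast_zero, mul_zero]
      · intro hi
        exact absurd (Finset.mem_univ i0) hi
    show ∑ i, θ i * (((χ i γ : ℤ)) : κ) ≠ 0
    rw [h1]
    exact hi0
  · intro ℓ hℓ hℓN
    obtain ⟨a', ha', A, hA1, hA2⟩ := hE ℓ hℓ hℓN
    refine ⟨a', fun j => ⟨∑ i, A j i • χ i,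
      Submodule.sum_mem _ fun i _ => Submodule.smul_mem _ _ (hpar i)⟩, ha', hA1, fun γ => ?_⟩
    show ∑ j, θ j * ((((∑ i, A j i • χ i : Additive (Gamma0 N) →+ ℤ) (Additive.ofMul γ)) : ℤ) : κ)
      = ψ a' * ∑ i, θ i * (((χ i (Additive.ofMul γ) : ℤ)) : κ)
    have h1 : ∀ j, θ j * ((((∑ i, A j i • χ i : Additive (Gamma0 N) →+ ℤ)
        (Additive.ofMul γ)) : ℤ) : κ)
        = ∑ i, ((A j i : ℤ) : κ) * θ j * (((χ i (Additive.ofMul γ) : ℤ)) : κ) := by
      intro j
      rw [AddMonoidHom.finsetSum_apply, Int.cast_sum, Finset.mul_sum]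
      refine Finset.sum_congr rfl fun i _ => ?_
      rw [AddMonoidHom.smul_apply, smul_eq_mul, Int.cast_mul]
      ring
    simp_rw [h1]
    rw [Finset.sum_comm, Finset.mul_sum]
    refine Finset.sum_congr rfl fun i _ => ?_
    rw [← Finset.sum_mul, hA2 i]
    ring

end Fermat.Agent.S29.H13
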