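import Fermat.Agent.S29.Wit_helper53
import Fermat.Agent.S29.EigStmt_helper13

/-!
# S29, node (WIT-ASM): `H24.WitStmt` from (PSI) alone (helper53)

`witStmt_of_psi` : the witness statement `H24.WitStmt` of the S29 top (`Top_helper24`) from the
Kummer class maps `H27.PsiStmt N m` (`m ≠ 0`; used at `m = p` only).  The eigen-data are the
landed `H13.eigStmt`; the assembly is `H53.wit_of` (`Wit_helper53`).
-/

set_option autoImplicit false

namespace Fermat.Agent.S29.H53

/-- **(WIT-ASM)** `H24.WitStmt` from (PSI). -/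
theorem witStmt_of_psi
    (hPsi : ∀ (N : ℕ) [NeZero N] (m : ℕ), m ≠ 0 → H27.PsiStmt N m) : H24.WitStmt := by
  intro N _ g hg p hp k0 _ _ _ φ0 _
  exact wit_of N g hp k0 φ0 (hPsi N p hp.ne_zero) (H13.eigStmt N hg k0 φ0)

end Fermat.Agent.S29.H53
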