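import Mathlib
import Fermat.Agent.S22.HeckeDecomp_helper56

/-!
# Coset representatives of `Γ₀(Nℓ) \ Γ₀(N)` adapted to the Hecke representatives `repT ℓ x`

For `ℓ` prime, `ℓ ∤ N` and the standard representatives `repT ℓ none = [[ℓ,0],[0,1]]`,
`repT ℓ (some u) = [[1,u],[0,ℓ]]` (landed `S22.H56.repT`):

* `exists_gamma0_rep` : for every `x` there are `γ h ∈ Γ₀(N)` with
  `repT ℓ none * γ = h * repT ℓ x` (so `f ∘ (ℓ ·) ∘ γ = f ∘ repT ℓ x` for `Γ₀(N)`-invariant `f`);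
* `rep_index_eq` : if `repT ℓ none * γ = h * repT ℓ x`, `repT ℓ none * γ' = h' * repT ℓ y`
  and the lower left entry of `γ * γ'⁻¹` is divisible by `ℓ` (e.g. `γ * γ'⁻¹ ∈ Γ₀(Nℓ)`),
  then `x = y` - the `ℓ + 1` elements `γ_x` are pairwise inequivalent modulo `Γ₀(Nℓ)`.
-/

set_option autoImplicit false

namespace Fermat.Agent.S29.H36.Reps

open UpperHalfPlane CongruenceSubgroup
open Fermat.Agent.S22
open scoped MatrixGroups

/-- Integer matrices of the standard coset representatives. -/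
def cosetMat (ℓ : ℕ) : Option (Fin ℓ) → Matrix (Fin 2) (Fin 2) ℤ
  | none => !![(ℓ : ℤ), 0; 0, 1]
  | some u => !![1, ((u : ℕ) : ℤ); 0, (ℓ : ℤ)]

/-- An element of `SL₂(ℤ)` from its entries. -/
def mkSL (x y z w : ℤ) (hdet : x * w - y * z = 1) : SL(2, ℤ) :=
  ⟨!![x, y; z, w], by rw [Matrix.det_fin_two_of]; exact hdet⟩

theorem coe_mkSL (x y z w : ℤ) (hdet : x * w - y * z = 1) :
    ((mkSL x y z w hdet : SL(2, ℤ)) : Matrix (Fin 2) (Fin 2) ℤ) = !![x, y; z, w] := rfl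

theorem mkSL_mem_Gamma0 (N : ℕ) (x y z w : ℤ) (hdet : x * w - y * z = 1) (hz : (N : ℤ) ∣ z) :
    mkSL x y z w hdet ∈ Gamma0 N := by
  rw [Gamma0_mem]
  show (((!![x, y; z, w] : Matrix (Fin 2) (Fin 2) ℤ) 1 0 : ℤ) : ZMod N) = 0
  simpa using (ZMod.intCast_zmod_eq_zero_iff_dvd z N).mpr hz

theorem two_mul_two_eq {a11 a12 a21 a22 b11 b12 b21 b22 c11 c12 c21 c22 d11 d12 d21 d22 : ℤ}
    (h11 : a11 * b11 + a12 * b21 = c11 * d11 + c12 * d21)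
    (h12 : a11 * b12 + a12 * b22 = c11 * d12 + c12 * d22)
    (h21 : a21 * b11 + a22 * b21 = c21 * d11 + c22 * d21)
    (h22 : a21 * b12 + a22 * b22 = c21 * d12 + c22 * d22) :
    !![a11, a12; a21, a22] * !![b11, b12; b21, b22]
      = !![c11, c12; c21, c22] * !![d11, d12; d21, d22] := by
  rw [Matrix.mul_fin_two, Matrix.mul_fin_two, h11, h12, h21, h22]

/-- The cosets `SL₂(ℤ) b_i` are pairwise distinct. -/
theorem cosetMat_index_eq {ℓ : ℕ} (hℓ : 2 ≤ ℓ) (σ : SL(2, ℤ)) (i i' : Option (Fin ℓ))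
    (h : (σ : Matrix (Fin 2) (Fin 2) ℤ) * cosetMat ℓ i' = cosetMat ℓ i) : i = i' := by
  set S : Matrix (Fin 2) (Fin 2) ℤ := (σ : Matrix (Fin 2) (Fin 2) ℤ) with hSdef
  have hS : S = !![S 0 0, S 0 1; S 1 0, S 1 1] := Matrix.eta_fin_two S
  have hℓ' : (2 : ℤ) ≤ (ℓ : ℤ) := by exact_mod_cast hℓ
  have hnd : ∀ s : ℤ, s * (ℓ : ℤ) ≠ 1 := by
    intro s hs
    have hd : (ℓ : ℤ) ∣ 1 := ⟨s, by linarith⟩
    have := Int.le_of_dvd one_pos hd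
    omega
  rw [hS] at h
  generalize S 0 0 = s11 at *
  generalize S 0 1 = s12 at *
  generalize S 1 0 = s21 at *
  generalize S 1 1 = s22 at *
  rcases i with _ | u <;> rcases i' with _ | u'
  · rfl
  · exfalso
    have h' : !![s11, s12; s21, s22] * !![1, ((u' : ℕ) : ℤ); 0, (ℓ : ℤ)]
        = !![(ℓ : ℤ), 0; 0, 1] := h
    rw [Matrix.mul_fin_two] at h'
    have h10 := congrFun (congrFun h' 1) 0
    have h11 := congrFun (congrFun h' 1) 1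
    simp at h10 h11
    rw [h10] at h11
    simp at h11
    exact hnd s22 h11
  · exfalso
    have h' : !![s11, s12; s21, s22] * !![(ℓ : ℤ), 0; 0, 1]
        = !![1, ((u : ℕ) : ℤ); 0, (ℓ : ℤ)] := h
    rw [Matrix.mul_fin_two] at h'
    have h00 := congrFun (congrFun h' 0) 0
    simp at h00
    exact hnd s11 h00
  · have h' : !![s11, s12; s21, s22] * !![1, ((u' : ℕ) : ℤ); 0, (ℓ : ℤ)]
        = !![1, ((u : ℕ) : ℤ); 0, (ℓ : ℤ)] := h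
    rw [Matrix.mul_fin_two] at h'
    have h00 := congrFun (congrFun h' 0) 0
    have h01 := congrFun (congrFun h' 0) 1
    simp at h00 h01
    rw [h00] at h01
    have hd : (ℓ : ℤ) ∣ ((u : ℕ) : ℤ) - ((u' : ℕ) : ℤ) := ⟨s12, by linarith⟩
    have hu : ((u : ℕ) : ℤ) < ℓ := by exact_mod_cast u.2
    have hu' : ((u' : ℕ) : ℤ) < ℓ := by exact_mod_cast u'.2
    have hu0 : (0 : ℤ) ≤ ((u : ℕ) : ℤ) := Int.natCast_nonneg _
    have hu0' : (0 : ℤ) ≤ ((u' : ℕ) : ℤ) := Int.natCast_nonneg _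
    have hmod : ((u : ℕ) : ℤ) % ℓ = ((u' : ℕ) : ℤ) % ℓ :=
      Int.emod_eq_emod_iff_emod_sub_eq_zero.mpr (Int.emod_eq_zero_of_dvd hd)
    rw [Int.emod_eq_of_lt hu0 hu, Int.emod_eq_of_lt hu0' hu'] at hmod
    have : (u : ℕ) = (u' : ℕ) := by exact_mod_cast hmod
    exact congrArg some (Fin.ext this)

theorem sl_coe_mul_inv (G : SL(2, ℤ)) :
    (G : Matrix (Fin 2) (Fin 2) ℤ) * ((G⁻¹ : SL(2, ℤ)) : Matrix (Fin 2) (Fin 2) ℤ) = 1 := by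
  rw [← Matrix.SpecialLinearGroup.coe_mul, mul_inv_cancel, Matrix.SpecialLinearGroup.coe_one]

theorem sl_coe_inv_mul (G : SL(2, ℤ)) :
    ((G⁻¹ : SL(2, ℤ)) : Matrix (Fin 2) (Fin 2) ℤ) * (G : Matrix (Fin 2) (Fin 2) ℤ) = 1 := by
  rw [← Matrix.SpecialLinearGroup.coe_mul, inv_mul_cancel, Matrix.SpecialLinearGroup.coe_one]

/-- **(T1), integer matrices**: `Γ₀(N)` is transitive on the `ℓ + 1` cosets. -/
theorem exists_gamma0_rep_int {N ℓ : ℕ} (hℓ : ℓ.Prime) (hN : ¬ ℓ ∣ N) (x : Option (Fin ℓ)) :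
    ∃ γ h : SL(2, ℤ), γ ∈ Gamma0 N ∧ h ∈ Gamma0 N ∧
      cosetMat ℓ none * (γ : Matrix (Fin 2) (Fin 2) ℤ)
        = (h : Matrix (Fin 2) (Fin 2) ℤ) * cosetMat ℓ x := by
  rcases x with _ | u
  · refine ⟨1, 1, one_mem _, one_mem _, ?_⟩
    rw [Matrix.SpecialLinearGroup.coe_one, mul_one, one_mul]
  · have hcop : IsCoprime (((u : ℕ) : ℤ) * N + ℓ) (N : ℤ) := by
      have h1 : IsCoprime (ℓ : ℤ) (N : ℤ) :=
        Nat.isCoprime_iff_coprime.mpr ((Nat.Prime.coprime_iff_not_dvd hℓ).mpr hN)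
      have h2 := h1.add_mul_right_left ((u : ℕ) : ℤ)
      rwa [add_comm] at h2
    obtain ⟨a, b', hab⟩ := hcop
    -- `a * (u N + ℓ) + b' * N = 1`
    refine ⟨mkSL a (-b') N (((u : ℕ) : ℤ) * N + ℓ) (by linear_combination hab),
      mkSL (ℓ * a) (-b' - ((u : ℕ) : ℤ) * a) N 1 (by linear_combination hab),
      mkSL_mem_Gamma0 N _ _ _ _ _ dvd_rfl, mkSL_mem_Gamma0 N _ _ _ _ _ dvd_rfl, ?_⟩
    rw [coe_mkSL, coe_mkSL]
    show !![(ℓ : ℤ), 0; 0, 1] * !![a, -b'; (N : ℤ), ((u : ℕ) : ℤ) * N + ℓ]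
      = !![ℓ * a, -b' - ((u : ℕ) : ℤ) * a; (N : ℤ), 1] * !![1, ((u : ℕ) : ℤ); 0, (ℓ : ℤ)]
    apply two_mul_two_eq
    · ring
    · ring
    · ring
    · ring

/-- **(T2), integer matrices**: the representatives of (T1) are inequivalent modulo `Γ₀(Nℓ)`
(only `ℓ ∣ (γ γ'⁻¹)₁₀` is used). -/
theorem rep_index_eq_int {ℓ : ℕ} (hℓ : 2 ≤ ℓ) {x y : Option (Fin ℓ)} {γ h γ' h' : SL(2, ℤ)}
    (hx : cosetMat ℓ none * (γ : Matrix (Fin 2) (Fin 2) ℤ)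
      = (h : Matrix (Fin 2) (Fin 2) ℤ) * cosetMat ℓ x)
    (hy : cosetMat ℓ none * (γ' : Matrix (Fin 2) (Fin 2) ℤ)
      = (h' : Matrix (Fin 2) (Fin 2) ℤ) * cosetMat ℓ y)
    (hmem : (ℓ : ℤ) ∣ ((γ * γ'⁻¹ : SL(2, ℤ)) : Matrix (Fin 2) (Fin 2) ℤ) 1 0) : x = y := by
  set δ : SL(2, ℤ) := γ * γ'⁻¹ with hδ
  set D : Matrix (Fin 2) (Fin 2) ℤ := (δ : Matrix (Fin 2) (Fin 2) ℤ) with hDdef
  have hD : D = !![D 0 0, D 0 1; D 1 0, D 1 1] := Matrix.eta_fin_two D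
  have hdet : D 0 0 * D 1 1 - D 0 1 * D 1 0 = 1 := by
    have h := δ.2
    rw [Matrix.det_fin_two] at h
    exact h
  obtain ⟨c', hc'⟩ := hmem
  -- `g B_∞ = B_∞ δ`
  let g : SL(2, ℤ) := mkSL (D 0 0) (ℓ * D 0 1) c' (D 1 1) (by linear_combination hdet + D 0 1 * hc')
  have hg : (g : Matrix (Fin 2) (Fin 2) ℤ) * cosetMat ℓ none = cosetMat ℓ none * D := by
    rw [hD]
    show !![D 0 0, ℓ * D 0 1; c', D 1 1] * !![(ℓ : ℤ), 0; 0, 1]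
      = !![(ℓ : ℤ), 0; 0, 1] * !![D 0 0, D 0 1; D 1 0, D 1 1]
    apply two_mul_two_eq
    · ring
    · ring
    · linear_combination -hc'
    · ring
  have hγ : (γ : Matrix (Fin 2) (Fin 2) ℤ) = D * (γ' : Matrix (Fin 2) (Fin 2) ℤ) := by
    rw [hDdef, hδ, ← Matrix.SpecialLinearGroup.coe_mul, inv_mul_cancel_right]
  -- `h B_x = g h' B_y`
  have key : (h : Matrix (Fin 2) (Fin 2) ℤ) * cosetMat ℓ x
      = (g : Matrix (Fin 2) (Fin 2) ℤ) * ((h' : Matrix (Fin 2) (Fin 2) ℤ) * cosetMat ℓ y) := by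
    rw [← hx, hγ, ← mul_assoc, ← hg, mul_assoc, hy]
  symm
  refine cosetMat_index_eq hℓ ((g * h')⁻¹ * h) y x ?_
  rw [Matrix.SpecialLinearGroup.coe_mul, mul_assoc, key, ← mul_assoc (g : Matrix (Fin 2) (Fin 2) ℤ),
    ← Matrix.SpecialLinearGroup.coe_mul g h', ← mul_assoc, sl_coe_inv_mul, one_mul]

/-! ### `GL₂(ℝ)` forms with the landed `S22.H56.repT` -/

theorem val_repT {ℓ : ℕ} (hℓ : ℓ ≠ 0) (i : Option (Fin ℓ)) :
    ((H56.repT ℓ i : GL (Fin 2) ℝ) : Matrix (Fin 2) (Fin 2) ℝ)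
      = (cosetMat ℓ i).map (algebraMap ℤ ℝ) := by
  rcases i with _ | u
  · show ((ModularForm.heckeDiagMatrix ℓ : GL (Fin 2) ℝ) : Matrix (Fin 2) (Fin 2) ℝ) = _
    rw [ModularForm.val_heckeDiagMatrix hℓ]
    ext a b
    fin_cases a <;> fin_cases b <;> simp [cosetMat]
  · show ((ModularForm.heckeMatrix ℓ u : GL (Fin 2) ℝ) : Matrix (Fin 2) (Fin 2) ℝ) = _
    rw [ModularForm.val_heckeMatrix hℓ]
    ext a b
    fin_cases a <;> fin_cases b <;> simp [cosetMat]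

theorem repT_mul_iff {ℓ : ℕ} (hℓ : ℓ ≠ 0) {G G' : SL(2, ℤ)} {i j : Option (Fin ℓ)} :
    H56.repT ℓ i * (G : GL (Fin 2) ℝ) = (G' : GL (Fin 2) ℝ) * H56.repT ℓ j ↔
      cosetMat ℓ i * (G : Matrix (Fin 2) (Fin 2) ℤ)
        = (G' : Matrix (Fin 2) (Fin 2) ℤ) * cosetMat ℓ j := by
  have hinj : Function.Injective
      (fun M : Matrix (Fin 2) (Fin 2) ℤ => M.map (algebraMap ℤ ℝ)) := by
    intro M M' hMM'
    ext a b
    have := congrFun (congrFun hMM' a) b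
    simpa using this
  constructor
  · intro h
    apply hinj
    have h1 := congrArg (fun A : GL (Fin 2) ℝ => (A : Matrix (Fin 2) (Fin 2) ℝ)) h
    simp only [Units.val_mul, val_repT hℓ] at h1
    show (cosetMat ℓ i * (G : Matrix (Fin 2) (Fin 2) ℤ)).map (algebraMap ℤ ℝ)
      = ((G' : Matrix (Fin 2) (Fin 2) ℤ) * cosetMat ℓ j).map (algebraMap ℤ ℝ)
    rw [Matrix.map_mul, Matrix.map_mul]
    exact h1
  · intro h
    apply Units.ext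
    rw [Units.val_mul, Units.val_mul, val_repT hℓ, val_repT hℓ]
    have := congrArg (fun M : Matrix (Fin 2) (Fin 2) ℤ => M.map (algebraMap ℤ ℝ)) h
    simp only [Matrix.map_mul] at this
    exact this

/-- **(T1)**: for every index `x` there are `γ, h ∈ Γ₀(N)` with `b_∞ γ = h b_x`. -/
theorem exists_gamma0_rep {N ℓ : ℕ} (hℓ : ℓ.Prime) (hN : ¬ ℓ ∣ N) (x : Option (Fin ℓ)) :
    ∃ γ h : Gamma0 N,
      H56.repT ℓ none * (((γ : SL(2, ℤ)) : GL (Fin 2) ℝ))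
        = (((h : SL(2, ℤ)) : GL (Fin 2) ℝ)) * H56.repT ℓ x := by
  obtain ⟨γ, h, hγ, hh, he⟩ := exists_gamma0_rep_int hℓ hN x
  exact ⟨⟨γ, hγ⟩, ⟨h, hh⟩, (repT_mul_iff hℓ.ne_zero).mpr he⟩

/-- **(T2)**: if `b_∞ γ = h b_x`, `b_∞ γ' = h' b_y` and `γ γ'⁻¹ ∈ Γ₀(ℓ)` then `x = y`. -/
theorem rep_index_eq {ℓ : ℕ} (hℓ : ℓ.Prime) {x y : Option (Fin ℓ)} {γ h γ' h' : SL(2, ℤ)}
    (hx : H56.repT ℓ none * (γ : GL (Fin 2) ℝ) = (h : GL (Fin 2) ℝ) * H56.repT ℓ x)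
    (hy : H56.repT ℓ none * (γ' : GL (Fin 2) ℝ) = (h' : GL (Fin 2) ℝ) * H56.repT ℓ y)
    (hmem : γ * γ'⁻¹ ∈ Gamma0 ℓ) : x = y := by
  refine rep_index_eq_int hℓ.two_le ((repT_mul_iff hℓ.ne_zero).mp hx)
    ((repT_mul_iff hℓ.ne_zero).mp hy) ?_
  exact (ZMod.intCast_zmod_eq_zero_iff_dvd _ ℓ).mp (Gamma0_mem.mp hmem)

/-- (T2) for `Γ₀(Nℓ)`. -/
theorem rep_index_eq_of_mem_Gamma0_mul {N ℓ : ℕ} (hℓ : ℓ.Prime) {x y : Option (Fin ℓ)}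
    {γ h γ' h' : SL(2, ℤ)}
    (hx : H56.repT ℓ none * (γ : GL (Fin 2) ℝ) = (h : GL (Fin 2) ℝ) * H56.repT ℓ x)
    (hy : H56.repT ℓ none * (γ' : GL (Fin 2) ℝ) = (h' : GL (Fin 2) ℝ) * H56.repT ℓ y)
    (hmem : γ * γ'⁻¹ ∈ Gamma0 (N * ℓ)) : x = y := by
  refine rep_index_eq hℓ hx hy ?_
  rw [Gamma0_mem] at hmem ⊢
  have h1 := (ZMod.intCast_zmod_eq_zero_iff_dvd _ (N * ℓ)).mp hmem
  refine (ZMod.intCast_zmod_eq_zero_iff_dvd _ ℓ).mpr ?_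
  exact Dvd.dvd.trans (by push_cast; exact Dvd.intro_left _ rfl) h1

end Fermat.Agent.S29.H36.Reps
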