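import Mathlib
import Fermat.Agent.S29.CoverDict_helper90

/-!
# The weak place dictionary with an integer index

`IsCover.place_dict_weak` with the index `k : ℤ` (`0 < k`, `k ∣ 6 * N` in `ℤ`), the literal
shape consumed by the Kummer-element construction.
-/

set_option autoImplicit false

open AlgebraicCurve
open UpperHalfPlane
open scoped MatrixGroups
open Fermat.Agent.S24 Fermat.Agent.S24.H31

namespace Fermat.Agent.S29.H90

variable {N : ℕ} [NeZero N] {K F : Type*} [Field K] [Field F] [Algebra K F]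
  {ι : K →+* ℂ} {Φ : F →+* L N} {j jN : F}

/-- **The dictionary, weak form, integer index**: every place of `F/K` is `1/k` times an
analytic valuation (at a point or at the cusp) of some conjugate `g • Φ f`, with `k ∣ 6 * N`. -/
theorem IsCover.place_dict_weak_int (h : IsCover ι Φ j jN) [IsAlgClosed K] [CharZero K]
    (V : ValSpec N) (v : Place K F) :
    ∃ (z : ZVal (L N)) (g : SL(2, ℤ)) (k : ℤ), (z = V.cusp ∨ ∃ z₀ : ℍ, z = V.pt z₀) ∧
      0 < k ∧ k ∣ 6 * N ∧ ∀ f : F, f ≠ 0 → z.ord (g • Φ f) = k * v.ord f := by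
  obtain ⟨z, g, k, hz, hk0, hkN, hzv⟩ := h.place_dict_weak V v
  refine ⟨z, g, (k : ℤ), hz, by exact_mod_cast hk0, ?_, hzv⟩
  have := Int.natCast_dvd_natCast.mpr hkN
  simpa using this

end Fermat.Agent.S29.H90
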