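import Mathlib
import Fermat.Prelude.Def_GaloisRep_Residual
import Fermat.Prelude.Def_ExtCitation_AdmissibleExtension

/-!
# S29, leaf (CYC) (helper51): the mod-`m` cyclotomic character of `G_ℚ`

`cyc m : (Qb ≃ₐ[ℚ] Qb) →* (ZMod m)ˣ` (Mathlib's `modularCyclotomicCharacter` on
`Qb = AlgebraicClosure ℚ`) with

* `cyc_spec` : `σ ζ = ζ ^ (cyc m σ).val` for every `m`-th root of unity `ζ`;
* `cyc_frobenius` : a Frobenius lift at a prime `ℓ` coprime to `m` (in the Prelude's sense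
  `A.IsFrobeniusAt σ ℓ`, `A` over `ℓ`) has `cyc m σ = ℓ`;
* `cyc_inertia` : inertia at such an `ℓ` is in the kernel;
* `cyc_finiteLevel` : the kernel contains the absolute Galois group of a number field.

`cycK p k` is the same character with values in `kˣ` for a field `k` of characteristic `p`.
-/

set_option autoImplicit false

namespace Fermat.Agent.S29.H51

/-- `ℚ̄`. -/
abbrev Qb : Type := AlgebraicClosure ℚ

section Cyc

variable (m : ℕ) [NeZero m]

/-- `ℚ̄` has exactly `m` roots of unity of order dividing `m`. -/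
theorem card_rootsOfUnity_Qb : Nat.card (rootsOfUnity m Qb) = m :=
  IsAlgClosed.card_rootsOfUnity_eq Qb m

/-- The mod-`m` cyclotomic character of `G_ℚ`. -/
noncomputable def cyc : (Qb ≃ₐ[ℚ] Qb) →* (ZMod m)ˣ where
  toFun σ := modularCyclotomicCharacter Qb (card_rootsOfUnity_Qb m) (σ : Qb ≃+* Qb)
  map_one' := map_one (modularCyclotomicCharacter Qb (card_rootsOfUnity_Qb m))
  map_mul' σ τ := map_mul (modularCyclotomicCharacter Qb (card_rootsOfUnity_Qb m))
    (σ : Qb ≃+* Qb) (τ : Qb ≃+* Qb)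

theorem cyc_apply (σ : Qb ≃ₐ[ℚ] Qb) :
    cyc m σ = modularCyclotomicCharacter Qb (card_rootsOfUnity_Qb m) (σ : Qb ≃+* Qb) := rfl

/-- The defining property of `cyc`. -/
theorem cyc_spec (σ : Qb ≃ₐ[ℚ] Qb) (ζ : Qb) (hζ : ζ ^ m = 1) :
    σ ζ = ζ ^ ((cyc m σ : (ZMod m)ˣ) : ZMod m).val := by
  have h := modularCyclotomicCharacter.spec Qb (card_rootsOfUnity_Qb m) (σ : Qb ≃+* Qb)
    (t := (rootsOfUnity.mkOfPowEq ζ hζ : Qbˣ)) (rootsOfUnity.mkOfPowEq ζ hζ).2
  simpa [cyc_apply] using h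

/-- There is a primitive `m`-th root of unity in `ℚ̄`. -/
theorem exists_primitiveRoot_Qb : ∃ ζ : Qb, IsPrimitiveRoot ζ m := by
  have : NeZero (m : Qb) := ⟨Nat.cast_ne_zero.mpr (NeZero.ne m)⟩
  exact HasEnoughRootsOfUnity.exists_primitiveRoot Qb m

/-- Exponents of equal powers of a primitive `m`-th root are congruent mod `m`. -/
theorem modEq_of_pow_eq_pow {M : Type*} [CommMonoid M] {ζ : M} (hζ : IsPrimitiveRoot ζ m)
    {a b : ℕ} (h : ζ ^ a = ζ ^ b) : a ≡ b [MOD m] := by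
  have ho : orderOf ζ = m := hζ.eq_orderOf.symm
  have ha : ζ ^ (a % m) = ζ ^ a := by rw [← ho]; exact pow_mod_orderOf ζ a
  have hb : ζ ^ (b % m) = ζ ^ b := by rw [← ho]; exact pow_mod_orderOf ζ b
  exact hζ.pow_inj (Nat.mod_lt _ (NeZero.pos m)) (Nat.mod_lt _ (NeZero.pos m))
    (by rw [ha, hb, h])

/-- `cyc m σ` is determined by the action on one primitive root. -/
theorem cyc_eq_of_primitiveRoot {ζ : Qb} (hζ : IsPrimitiveRoot ζ m) (σ : Qb ≃ₐ[ℚ] Qb) (c : ℕ)
    (h : σ ζ = ζ ^ c) : ((cyc m σ : (ZMod m)ˣ) : ZMod m) = (c : ZMod m) := by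
  have h1 := cyc_spec m σ ζ hζ.pow_eq_one
  rw [h] at h1
  have h2 : c ≡ ((cyc m σ : (ZMod m)ˣ) : ZMod m).val [MOD m] := modEq_of_pow_eq_pow m hζ h1
  rw [(ZMod.natCast_eq_natCast_iff _ _ _).mpr h2, ZMod.natCast_zmod_val]

/-- The kernel of `cyc m` contains the absolute Galois group of `ℚ(ζ_m)`. -/
theorem cyc_finiteLevel :
    ∃ L : IntermediateField ℚ Qb, FiniteDimensional ℚ L ∧
      ∀ σ : Qb ≃ₐ[ℚ] Qb, (∀ x ∈ L, σ x = x) → cyc m σ = 1 := by
  obtain ⟨ζ, hζ⟩ := exists_primitiveRoot_Qb m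
  have hint : IsIntegral ℚ ζ := (hζ.isIntegral (NeZero.pos m)).tower_top
  refine ⟨IntermediateField.adjoin ℚ {ζ}, IntermediateField.adjoin.finiteDimensional hint, ?_⟩
  intro σ hσ
  have h1 : σ ζ = ζ ^ 1 := by
    rw [pow_one]
    exact hσ ζ (IntermediateField.mem_adjoin_simple_self ℚ ζ)
  have h2 := cyc_eq_of_primitiveRoot m hζ σ 1 h1
  apply Units.ext
  rw [h2]
  simp

end Cyc

section Local

variable {m : ℕ} [NeZero m]

/-- An integral element of `ℚ̄` lies in every valuation subring. -/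
theorem mem_of_isIntegral (A : ValuationSubring Qb) {b : Qb} (hb : IsIntegral ℤ b) : b ∈ A := by
  have h1 : IsIntegral A b := hb.tower_top
  obtain ⟨y, hy⟩ := IsIntegrallyClosed.isIntegral_iff.mp h1
  rw [← hy]
  exact y.2

omit [NeZero m] in
/-- If `A` lies over a prime `ℓ` coprime to `m`, then `m` is nonzero in the residue field. -/
theorem natCast_residue_ne_zero (A : ValuationSubring Qb) {ℓ : ℕ} (hℓm : ℓ.Coprime m)
    (hA : A.LiesOverPrime ℓ) : (m : IsLocalRing.ResidueField A) ≠ 0 := by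
  intro hm
  have hℓ0 : (ℓ : IsLocalRing.ResidueField A) = 0 := by
    have h1 : ((ℓ : A) : Qb) ∈ A.nonunits := by
      have h0 : ((ℓ : A) : Qb) = (ℓ : Qb) := by simp
      rw [h0]
      exact hA
    have h2 : IsLocalRing.residue A (ℓ : A) = 0 := by
      rw [IsLocalRing.residue_eq_zero_iff, ← ValuationSubring.coe_mem_nonunits_iff]
      exact h1
    simpa using h2
  have hcop : IsCoprime (ℓ : ℤ) (m : ℤ) := Nat.isCoprime_iff_coprime.mpr hℓm
  obtain ⟨u, v, huv⟩ := hcop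
  have h3 : ((u * ℓ + v * m : ℤ) : IsLocalRing.ResidueField A) = 1 := by
    rw [huv]
    simp
  have h4 : ((u * ℓ + v * m : ℤ) : IsLocalRing.ResidueField A) = 0 := by
    push_cast
    rw [hℓ0, hm]
    simp
  rw [h4] at h3
  exact zero_ne_one h3

/-- The reduction of a primitive `m`-th root of unity is a primitive `m`-th root of unity of the
residue field, when `m` is nonzero there. -/
theorem isPrimitiveRoot_residue (A : ValuationSubring Qb) {ζ : Qb} (hζ : IsPrimitiveRoot ζ m)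
    (hζA : ζ ∈ A) (hm : (m : IsLocalRing.ResidueField A) ≠ 0) :
    IsPrimitiveRoot (IsLocalRing.residue A ⟨ζ, hζA⟩) m := by
  set z : A := ⟨ζ, hζA⟩ with hz
  have hzpow : z ^ m = 1 := by
    apply Subtype.ext
    simpa [hz] using hζ.pow_eq_one
  refine IsPrimitiveRoot.mk_of_lt _ (NeZero.pos m) ?_ ?_
  · rw [← map_pow, hzpow, map_one]
  · intro i hi0 him hi1
    -- `ξ := z ^ i` is an `m`-th root of unity different from `1` reducing to `1`
    set ξ : A := z ^ i with hξ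
    have hξm : ξ ^ m = 1 := by rw [hξ, ← pow_mul, mul_comm, pow_mul, hzpow, one_pow]
    have hξ1 : ξ ≠ 1 := by
      intro h
      have h' : ζ ^ i = 1 := by
        have := congrArg (fun a : A => (a : Qb)) h
        simpa [hξ, hz] using this
      exact (hζ.pow_ne_one_of_pos_of_lt hi0.ne' him) h'
    have hres : IsLocalRing.residue A ξ = 1 := by rw [hξ, map_pow, hi1]
    -- `∑_{j<m} ξ^j = 0`
    have hsum : ∑ j ∈ Finset.range m, ξ ^ j = 0 := by
      have h1 : (∑ j ∈ Finset.range m, ξ ^ j) * (ξ - 1) = 0 := by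
        rw [geom_sum_mul, hξm, sub_self]
      rcases mul_eq_zero.mp h1 with h | h
      · exact h
      · exact absurd (sub_eq_zero.mp h) hξ1
    -- reduce: `m = ∑_{j<m} 1 = ∑ res(ξ)^j = res(0) = 0`
    have h2 : (m : IsLocalRing.ResidueField A) = 0 := by
      have h3 := congrArg (IsLocalRing.residue A) hsum
      rw [map_sum, map_zero] at h3
      simp only [map_pow, hres, one_pow, Finset.sum_const, Finset.card_range, nsmul_eq_mul,
        mul_one] at h3
      exact h3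
    exact hm h2

/-- Key local lemma: if `σ` is in the decomposition group of `A` (over `ℓ` coprime to `m`) and
acts on the residue field as `x ↦ x ^ e`, then `cyc m σ = e`. -/
theorem cyc_eq_of_residue_action (A : ValuationSubring Qb) {ℓ : ℕ} (hℓm : ℓ.Coprime m)
    (hA : A.LiesOverPrime ℓ) (σ : Qb ≃ₐ[ℚ] Qb) (hσ : σ ∈ A.decompositionSubgroup ℚ) (e : ℕ)
    (h : ∀ x : IsLocalRing.ResidueField A,
      (⟨σ, hσ⟩ : A.decompositionSubgroup ℚ) • x = x ^ e) :
    ((cyc m σ : (ZMod m)ˣ) : ZMod m) = (e : ZMod m) := by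
  obtain ⟨ζ, hζ⟩ := exists_primitiveRoot_Qb m
  have hζA : ζ ∈ A := mem_of_isIntegral A
    ⟨Polynomial.X ^ m - 1, Polynomial.monic_X_pow_sub_C 1 (NeZero.ne m), by simp [hζ.pow_eq_one]⟩
  have hm := natCast_residue_ne_zero (m := m) A hℓm hA
  have hprim := isPrimitiveRoot_residue A hζ hζA hm
  set c : ℕ := ((cyc m σ : (ZMod m)ˣ) : ZMod m).val with hc
  have hσζ : σ ζ = ζ ^ c := cyc_spec m σ ζ hζ.pow_eq_one
  set z : A := ⟨ζ, hζA⟩ with hz
  have hsm : (⟨σ, hσ⟩ : A.decompositionSubgroup ℚ) • z = z ^ c := by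
    apply Subtype.ext
    show σ ζ = ((z ^ c : A) : Qb)
    rw [hσζ]
    simp [hz]
  have h1 := h (IsLocalRing.residue A z)
  rw [← IsLocalRing.ResidueField.residue_smul, hsm, map_pow] at h1
  have h2 : c ≡ e [MOD m] := modEq_of_pow_eq_pow m hprim h1
  rw [← (ZMod.natCast_eq_natCast_iff _ _ _).mpr h2, hc, ZMod.natCast_zmod_val]

end Local

section Main

variable (m : ℕ) [NeZero m]

/-- A Frobenius lift at a prime `ℓ` coprime to `m` has cyclotomic character `ℓ`. -/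
theorem cyc_frobenius {ℓ : ℕ} (hℓm : ℓ.Coprime m) (A : ValuationSubring Qb)
    (hA : A.LiesOverPrime ℓ) (σ : Qb ≃ₐ[ℚ] Qb) (hσ : A.IsFrobeniusAt σ ℓ) :
    ((cyc m σ : (ZMod m)ˣ) : ZMod m) = (ℓ : ZMod m) := by
  obtain ⟨hσ', h⟩ := hσ
  exact cyc_eq_of_residue_action A hℓm hA σ hσ' ℓ h

/-- Inertia at a prime `ℓ` coprime to `m` is in the kernel of the cyclotomic character. -/
theorem cyc_inertia {ℓ : ℕ} (hℓm : ℓ.Coprime m) (A : ValuationSubring Qb)
    (hA : A.LiesOverPrime ℓ) (σ : Qb ≃ₐ[ℚ] Qb) (hσ : σ ∈ A.inertiaSubgroupIn ℚ) :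
    cyc m σ = 1 := by
  obtain ⟨τ, hτ, rfl⟩ := hσ
  have hτ' : ∀ x : IsLocalRing.ResidueField A, τ • x = x ^ 1 := by
    intro x
    have h1 : MulSemiringAction.toRingAut (A.decompositionSubgroup ℚ)
        (IsLocalRing.ResidueField A) τ = 1 := hτ
    have h2 := congrArg (fun f : RingAut (IsLocalRing.ResidueField A) => f x) h1
    simpa using h2
  have h := cyc_eq_of_residue_action (m := m) A hℓm hA
    ((A.decompositionSubgroup ℚ).subtype τ) τ.2 1 (fun x => hτ' x)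
  apply Units.ext
  rw [h]
  simp

end Main

section CycK

variable (p : ℕ) [Fact p.Prime] (k : Type*) [Field k] [CharP k p]

/-- The mod-`p` cyclotomic character with values in a field of characteristic `p`. -/
noncomputable def cycK : (Qb ≃ₐ[ℚ] Qb) →* kˣ :=
  (Units.map ((ZMod.castHom (dvd_refl p) k : ZMod p →+* k) : ZMod p →* k)).comp (cyc p)

theorem cycK_apply (σ : Qb ≃ₐ[ℚ] Qb) :
    ((cycK p k σ : kˣ) : k) =
      (ZMod.castHom (dvd_refl p) k : ZMod p →+* k) ((cyc p σ : (ZMod p)ˣ) : ZMod p) := rfl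

/-- A Frobenius lift at a prime `ℓ ≠ p` has `cycK = ℓ`. -/
theorem cycK_frobenius {ℓ : ℕ} (hℓ : ℓ.Prime) (hℓp : ℓ ≠ p) (A : ValuationSubring Qb)
    (hA : A.LiesOverPrime ℓ) (σ : Qb ≃ₐ[ℚ] Qb) (hσ : A.IsFrobeniusAt σ ℓ) :
    ((cycK p k σ : kˣ) : k) = (ℓ : k) := by
  have hcop : ℓ.Coprime p := (Nat.coprime_primes hℓ (Fact.out : p.Prime)).mpr hℓp
  rw [cycK_apply, cyc_frobenius p hcop A hA σ hσ, map_natCast]

/-- Inertia at a prime `ℓ ≠ p` is in the kernel of `cycK`. -/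
theorem cycK_inertia {ℓ : ℕ} (hℓ : ℓ.Prime) (hℓp : ℓ ≠ p) (A : ValuationSubring Qb)
    (hA : A.LiesOverPrime ℓ) (σ : Qb ≃ₐ[ℚ] Qb) (hσ : σ ∈ A.inertiaSubgroupIn ℚ) :
    cycK p k σ = 1 := by
  have hcop : ℓ.Coprime p := (Nat.coprime_primes hℓ (Fact.out : p.Prime)).mpr hℓp
  rw [cycK, MonoidHom.comp_apply, cyc_inertia p hcop A hA σ hσ, map_one]

/-- The kernel of `cycK` contains the absolute Galois group of a number field. -/
theorem cycK_finiteLevel :
    ∃ L : IntermediateField ℚ Qb, FiniteDimensional ℚ L ∧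
      ∀ σ : Qb ≃ₐ[ℚ] Qb, (∀ x ∈ L, σ x = x) → cycK p k σ = 1 := by
  obtain ⟨L, hL, h⟩ := cyc_finiteLevel p
  exact ⟨L, hL, fun σ hσ => by rw [cycK, MonoidHom.comp_apply, h σ hσ, map_one]⟩

end CycK

/-- `cycK` factors through finite level, in the Prelude's form. -/
theorem cycK_factorsThroughFiniteLevel (p : ℕ) [Fact p.Prime] (k : Type) [Field k] [CharP k p] :
    GaloisFactorsThroughFiniteLevel (cycK p k) :=
  cycK_finiteLevel p k

end Fermat.Agent.S29.H51
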