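import Mathlib
import Fermat.Prelude.Def_FLTPrelim_Ramification
import Fermat.Prelude.Def_EllipticCurve_FrobeniusTrace
import Fermat.Prelude.Def_ExtCitation_KummerBridge
import Fermat.Prelude.Def_GaloisRep_Residual

/-!
# S29 leaf (CYC): the cyclotomic character at Frobenius lifts, inertia and finite level

`Qb := AlgebraicClosure ℚ`, `A` a valuation subring of `Qb` over the prime `ℓ`.

* `frob_root_of_unity`    : a Frobenius lift at `ℓ` raises every root of unity of order prime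
  to `ℓ` to its `ℓ`-th power;
* `inertia_root_of_unity` : inertia at `ℓ` fixes the roots of unity of order prime to `ℓ`;
* `cycloChar_frob`, `cycloChar_inertia`, `cycloChar_finiteLevel` : the same for the Prelude's
  mod-`p` cyclotomic character `ExtCitation.cycloChar p`;
* `cycloK p k` : the character with values in a field `k` of characteristic `p`, with
  `cycloK_frob`, `cycloK_inertia`, `cycloK_finiteLevel`, `cycloK_map_root`.
-/

set_option autoImplicit false

namespace Fermat.Agent.S29.H44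

open IsLocalRing

local notation "Qb" => AlgebraicClosure ℚ

/-- A root of unity lies in every valuation subring. -/
theorem mem_of_pow_eq_one {L : Type*} [Field L] (A : ValuationSubring L) {m : ℕ} (hm : m ≠ 0)
    {ζ : L} (hζ : ζ ^ m = 1) : ζ ∈ A := by
  rcases A.mem_or_inv_mem ζ with h | h
  · exact h
  · have hζ0 : ζ ≠ 0 := by
      rintro rfl
      rw [zero_pow hm] at hζ
      exact zero_ne_one hζ
    have h1 : ζ = ζ⁻¹ ^ (m - 1) := by
      have h2 : ζ * ζ⁻¹ ^ m = ζ * 1 := by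
        rw [inv_pow, hζ, inv_one]
      obtain ⟨n, rfl⟩ : ∃ n, m = n + 1 := Nat.exists_eq_succ_of_ne_zero hm
      rw [Nat.add_sub_cancel]
      rw [pow_succ] at hζ
      have h3 : ζ ^ n = ζ⁻¹ := by
        field_simp
        rw [mul_comm] at hζ
        rw [← hζ]; ring
      rw [inv_pow, h3, inv_inv]
    rw [h1]
    exact pow_mem h _

/-- Two `m`-th roots of unity of a local domain with the same residue are equal, as soon as
a prime `ℓ` not dividing `m` vanishes in the residue field. -/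
theorem eq_of_residue_eq {R : Type*} [CommRing R] [IsDomain R] [IsLocalRing R] {ℓ : ℕ}
    (hℓ : ℓ.Prime) (hℓR : (ℓ : R) ∈ maximalIdeal R) {m : ℕ} (hm : ¬ ℓ ∣ m) {a b : R}
    (ha : a ^ m = 1) (hb : b ^ m = 1) (h : residue R a = residue R b) : a = b := by
  by_contra hab
  have hsub : a - b ≠ 0 := sub_ne_zero.mpr hab
  have hgeom : (∑ i ∈ Finset.range m, a ^ i * b ^ (m - 1 - i)) * (a - b) = 0 := by
    rw [geom_sum₂_mul, ha, hb, sub_self]
  have hsum : ∑ i ∈ Finset.range m, a ^ i * b ^ (m - 1 - i) = 0 :=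
    (mul_eq_zero.mp hgeom).resolve_right hsub
  have hres := congrArg (residue R) hsum
  rw [map_sum, map_zero] at hres
  set c := residue R b with hc
  have hcm : c ^ m = 1 := by rw [hc, ← map_pow, hb, map_one]
  have hm0 : m ≠ 0 := fun h0 => hm (h0 ▸ dvd_zero ℓ)
  have hc0 : c ≠ 0 := by
    rintro h0
    rw [h0, zero_pow hm0] at hcm
    exact zero_ne_one hcm
  have hterm : ∀ i ∈ Finset.range m, residue R (a ^ i * b ^ (m - 1 - i)) = c ^ (m - 1) := by
    intro i hi
    have hi' : i ≤ m - 1 := by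
      have := Finset.mem_range.mp hi
      omega
    rw [map_mul, map_pow, map_pow, h, ← hc, ← pow_add]
    congr 1
    omega
  rw [Finset.sum_congr rfl hterm, Finset.sum_const, Finset.card_range, nsmul_eq_mul] at hres
  have hmres : (m : ResidueField R) = 0 :=
    (mul_eq_zero.mp hres).resolve_right (pow_ne_zero _ hc0)
  have hℓres : (ℓ : ResidueField R) = 0 := by
    have := (residue_eq_zero_iff (R := R) (ℓ : R)).mpr hℓR
    rwa [map_natCast] at this
  have hcop : Nat.Coprime ℓ m := (Nat.Prime.coprime_iff_not_dvd hℓ).mpr hm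
  have h1 : ((Nat.gcd ℓ m : ℕ) : ResidueField R) = 0 := by
    have hbez := Nat.gcd_eq_gcd_ab ℓ m
    have : ((Nat.gcd ℓ m : ℕ) : ResidueField R) = ((Nat.gcd ℓ m : ℤ) : ResidueField R) := by
      push_cast; rfl
    rw [this, hbez]
    push_cast
    rw [hmres, hℓres]; ring
  rw [hcop, Nat.cast_one] at h1
  exact one_ne_zero h1

section Galois

variable {ℓ : ℕ} (A : ValuationSubring Qb)

/-- The prime `ℓ` lies in the maximal ideal of `A`. -/
theorem natCast_mem_maximalIdeal (hA : A.LiesOverPrime ℓ) : ((ℓ : ℕ) : A) ∈ maximalIdeal A := by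
  have h : (((ℓ : ℕ) : A) : Qb) ∈ A.nonunits := by
    simpa [ValuationSubring.LiesOverPrime] using hA
  exact ValuationSubring.coe_mem_nonunits_iff.mp h

/-- Key congruence principle: if `g` in the decomposition group acts on the residue field as
`x ↦ x ^ e`, then it raises every root of unity of order prime to `ℓ` to the `e`-th power. -/
theorem map_root_of_residue (hℓ : ℓ.Prime) (hA : A.LiesOverPrime ℓ)
    (g : A.decompositionSubgroup ℚ) (e : ℕ)
    (hg : ∀ x : ResidueField A, g • x = x ^ e) {m : ℕ} (hm : ¬ ℓ ∣ m) {ζ : Qb}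
    (hζ : ζ ^ m = 1) : (g : Qb ≃ₐ[ℚ] Qb) ζ = ζ ^ e := by
  have hm0 : m ≠ 0 := fun h0 => hm (h0 ▸ dvd_zero ℓ)
  have hζA : ζ ∈ A := mem_of_pow_eq_one A hm0 hζ
  set z : A := ⟨ζ, hζA⟩ with hz
  have hzm : z ^ m = 1 := Subtype.ext (by simpa [hz] using hζ)
  have hgz : (g • z) ^ m = 1 := by
    rw [← smul_pow', hzm, smul_one]
  have hzem : (z ^ e) ^ m = 1 := by
    rw [← pow_mul, mul_comm, pow_mul, hzm, one_pow]
  have hres : residue A (g • z) = residue A (z ^ e) := by
    rw [ResidueField.residue_smul, hg, map_pow]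
  have hEq : g • z = z ^ e :=
    eq_of_residue_eq hℓ (natCast_mem_maximalIdeal A hA) hm hgz hzem hres
  have hcoe : ((g • z : A) : Qb) = (g : Qb ≃ₐ[ℚ] Qb) ζ := rfl
  have h1 : ((g • z : A) : Qb) = ((z ^ e : A) : Qb) := congrArg (fun a : A => (a : Qb)) hEq
  rw [hcoe] at h1
  rw [h1]
  rfl

/-- **(C1)** A Frobenius lift at `ℓ` raises every root of unity of order prime to `ℓ` to its
`ℓ`-th power. -/
theorem frob_root_of_unity (hℓ : ℓ.Prime) (hA : A.LiesOverPrime ℓ) (s : Qb ≃ₐ[ℚ] Qb)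
    (hs : A.IsFrobeniusAt s ℓ) (m : ℕ) (hm : ¬ ℓ ∣ m) (ζ : Qb) (hζ : ζ ^ m = 1) :
    s ζ = ζ ^ ℓ := by
  obtain ⟨hσ, hx⟩ := hs
  exact map_root_of_residue A hℓ hA ⟨s, hσ⟩ ℓ hx hm hζ

/-- **(C2)** Inertia at `ℓ` fixes every root of unity of order prime to `ℓ`. -/
theorem inertia_root_of_unity (hℓ : ℓ.Prime) (hA : A.LiesOverPrime ℓ) (τ : Qb ≃ₐ[ℚ] Qb)
    (hτ : τ ∈ A.inertiaSubgroupIn ℚ) (m : ℕ) (hm : ¬ ℓ ∣ m) (ζ : Qb) (hζ : ζ ^ m = 1) :
    τ ζ = ζ := by
  obtain ⟨g, hg, rfl⟩ := hτ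
  have hg' : ∀ x : ResidueField A, g • x = x ^ 1 := by
    intro x
    have h1 : MulSemiringAction.toRingAut (A.decompositionSubgroup ℚ) (ResidueField A) g = 1 :=
      hg
    have h2 := congrArg (fun f : RingAut (ResidueField A) => f x) h1
    simpa using h2
  have := map_root_of_residue A hℓ hA g 1 hg' hm hζ
  simpa using this

end Galois

section Character

variable (p : ℕ) [Fact p.Prime]

/-- The Prelude's mod-`p` cyclotomic character, unfolded. -/
theorem cycloChar_apply (σ : Qb ≃ₐ[ℚ] Qb) :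
    haveI : NeZero p := ⟨(Fact.out : p.Prime).ne_zero⟩
    ExtCitation.cycloChar p σ =
      modularCyclotomicCharacter Qb (ExtCitation.card_rootsOfUnity_eq_self p)
        (σ : Qb ≃+* Qb) := rfl

/-- Characterisation of the values of the mod-`p` cyclotomic character. -/
theorem cycloChar_eq_of_forall (σ : Qb ≃ₐ[ℚ] Qb) (e : ℕ)
    (h : ∀ ζ : Qb, ζ ^ p = 1 → σ ζ = ζ ^ e) :
    ((ExtCitation.cycloChar p σ : (ZMod p)ˣ) : ZMod p) = (e : ZMod p) := by
  have : NeZero p := ⟨(Fact.out : p.Prime).ne_zero⟩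
  rw [cycloChar_apply]
  symm
  apply modularCyclotomicCharacter.unique Qb (ExtCitation.card_rootsOfUnity_eq_self p)
  intro t ht
  have htp : (t : Qb) ^ p = 1 := by
    have := (mem_rootsOfUnity p t).mp ht
    rw [← Units.val_pow_eq_pow_val, this, Units.val_one]
  have h1 := h (t : Qb) htp
  rw [ZMod.val_natCast]
  have h2 : (t : Qb) ^ e = (t : Qb) ^ (e % p) := by
    conv_lhs => rw [← Nat.div_add_mod e p, pow_add, pow_mul, htp, one_pow, one_mul]
  rw [← h2]
  exact h1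

/-- `σ ζ = ζ ^ cycloExp p σ` for every `p`-th root of unity. -/
theorem map_root (σ : Qb ≃ₐ[ℚ] Qb) {ζ : Qb} (hζ : ζ ^ p = 1) :
    σ ζ = ζ ^ ExtCitation.cycloExp p σ := by
  have : NeZero p := ⟨(Fact.out : p.Prime).ne_zero⟩
  have h := modularCyclotomicCharacter.spec Qb (ExtCitation.card_rootsOfUnity_eq_self p)
    (σ : Qb ≃+* Qb) (t := (rootsOfUnity.mkOfPowEq ζ hζ : Qbˣ)) (SetLike.coe_mem _)
  simpa [ExtCitation.cycloExp] using h

variable {ℓ : ℕ} (A : ValuationSubring Qb)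

/-- **(C3)** the mod-`p` cyclotomic character of a Frobenius lift at `ℓ ≠ p` is `ℓ`. -/
theorem cycloChar_frob (hℓ : ℓ.Prime) (hℓp : ℓ ≠ p) (hA : A.LiesOverPrime ℓ)
    (s : Qb ≃ₐ[ℚ] Qb) (hs : A.IsFrobeniusAt s ℓ) :
    ((ExtCitation.cycloChar p s : (ZMod p)ˣ) : ZMod p) = (ℓ : ZMod p) := by
  have hp : p.Prime := Fact.out
  have hm : ¬ ℓ ∣ p := fun h => hℓp ((Nat.prime_dvd_prime_iff_eq hℓ hp).mp h)
  exact cycloChar_eq_of_forall p s ℓ fun ζ hζ => frob_root_of_unity A hℓ hA s hs p hm ζ hζ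

/-- **(C4)** the mod-`p` cyclotomic character is trivial on inertia at `ℓ ≠ p`. -/
theorem cycloChar_inertia (hℓ : ℓ.Prime) (hℓp : ℓ ≠ p) (hA : A.LiesOverPrime ℓ)
    (τ : Qb ≃ₐ[ℚ] Qb) (hτ : τ ∈ A.inertiaSubgroupIn ℚ) :
    ExtCitation.cycloChar p τ = 1 := by
  have hp : p.Prime := Fact.out
  have hm : ¬ ℓ ∣ p := fun h => hℓp ((Nat.prime_dvd_prime_iff_eq hℓ hp).mp h)
  have h := cycloChar_eq_of_forall p τ 1 fun ζ hζ => by
    rw [pow_one]; exact inertia_root_of_unity A hℓ hA τ hτ p hm ζ hζ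
  apply Units.ext
  rw [h, Nat.cast_one, Units.val_one]

/-- **(C5)** the mod-`p` cyclotomic character factors through a finite level. -/
theorem cycloChar_finiteLevel : GaloisFactorsThroughFiniteLevel (ExtCitation.cycloChar p) := by
  have hp : p.Prime := Fact.out
  have : NeZero p := ⟨hp.ne_zero⟩
  obtain ⟨ζ, hζ⟩ := HasEnoughRootsOfUnity.exists_primitiveRoot Qb p
  have hint : IsIntegral ℚ ζ := (hζ.isIntegral hp.pos).tower_top (R := ℤ) |>.map_of_comp_eq
    (RingHom.id ℚ) (RingHom.id Qb) rfl |> fun h => by simpa using h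
  refine ⟨IntermediateField.adjoin ℚ {ζ}, IntermediateField.adjoin.finiteDimensional hint, ?_⟩
  intro σ hσ
  have hσζ : σ ζ = ζ := hσ ζ (IntermediateField.mem_adjoin_simple_self ℚ ζ)
  have h := cycloChar_eq_of_forall p σ 1 fun t ht => by
    obtain ⟨i, _, rfl⟩ := hζ.eq_pow_of_pow_eq_one ht
    rw [map_pow, hσζ, pow_one]
  apply Units.ext
  rw [h, Nat.cast_one, Units.val_one]

variable (k : Type) [Field k] [CharP k p]

/-- **(C6)** the mod-`p` cyclotomic character with values in a field of characteristic `p`. -/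
noncomputable def cycloK : (Qb ≃ₐ[ℚ] Qb) →* kˣ :=
  (Units.map ((ZMod.castHom (dvd_refl p) k : ZMod p →+* k) : ZMod p →* k)).comp
    (ExtCitation.cycloChar p)

theorem cycloK_apply (σ : Qb ≃ₐ[ℚ] Qb) :
    ((cycloK p k σ : kˣ) : k) =
      ZMod.castHom (dvd_refl p) k ((ExtCitation.cycloChar p σ : (ZMod p)ˣ) : ZMod p) := rfl

theorem cycloK_eq_cycloExp (σ : Qb ≃ₐ[ℚ] Qb) :
    ((cycloK p k σ : kˣ) : k) = (ExtCitation.cycloExp p σ : k) := by
  rw [cycloK_apply, ExtCitation.coe_cycloChar, map_natCast]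

theorem cycloK_frob (hℓ : ℓ.Prime) (hℓp : ℓ ≠ p) (hA : A.LiesOverPrime ℓ)
    (s : Qb ≃ₐ[ℚ] Qb) (hs : A.IsFrobeniusAt s ℓ) :
    ((cycloK p k s : kˣ) : k) = (ℓ : k) := by
  rw [cycloK_apply, cycloChar_frob p A hℓ hℓp hA s hs, map_natCast]

theorem cycloK_inertia (hℓ : ℓ.Prime) (hℓp : ℓ ≠ p) (hA : A.LiesOverPrime ℓ)
    (τ : Qb ≃ₐ[ℚ] Qb) (hτ : τ ∈ A.inertiaSubgroupIn ℚ) :
    cycloK p k τ = 1 := by
  unfold cycloK
  rw [MonoidHom.comp_apply, cycloChar_inertia p A hℓ hℓp hA τ hτ, map_one]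

theorem cycloK_finiteLevel : GaloisFactorsThroughFiniteLevel (cycloK p k) := by
  obtain ⟨L, hL, h⟩ := cycloChar_finiteLevel p
  refine ⟨L, hL, fun σ hσ => ?_⟩
  unfold cycloK
  rw [MonoidHom.comp_apply, h σ hσ, map_one]

/-- every `p`-th root of unity is moved by `σ` to its `cycloExp p σ`-th power; the exponent
is `cycloK` read in `k`. -/
theorem cycloK_map_root (σ : Qb ≃ₐ[ℚ] Qb) {ζ : Qb} (hζ : ζ ^ p = 1) :
    σ ζ = ζ ^ ExtCitation.cycloExp p σ ∧
      ((cycloK p k σ : kˣ) : k) = (ExtCitation.cycloExp p σ : k) :=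
  ⟨map_root p σ hζ, cycloK_eq_cycloExp p k σ⟩

end Character

end Fermat.Agent.S29.H44
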