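import Mathlib
import Fermat.Agent.S24.HurwitzFinal_helper14
import Fermat.Agent.S29.ModelC_helper71

/-!
# S29, node (C-MODEL): principal divisors on the modular function field over `ℂ`

Generic part (any function field `F` of one variable over an algebraically closed field `K` of
characteristic zero, presented as a finite extension of `K(x)`):

* `finite_ord_ne_zero_of_rhInputs` : a function has finitely many zeros and poles;
* `exists_divisor_of_rhInputs`     : its divisor exists and has degree `0`;
* `hasPrincipalDivisors_of_rhInputs`, `hasPrincipalDivisors_of_finite` : the Prelude class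
  `HasPrincipalDivisors K F`.

Instance at the `ℂ`-model `H71.FC N` of the modular function field:

* `rhInputs_FC`, `hasPrincipalDivisors_FC`, `deg_eq_one_FC`, `ord_algebraMap_FC`,
  `finite_ord_ne_zero_FC`, `exists_divisor_FC`.
-/

set_option autoImplicit false

open AlgebraicCurve IntermediateField
open Fermat.Agent.S24

namespace Fermat.Agent.S29.H27

section Generic

variable {K F : Type*} [Field K] [Field F] [Algebra K F] {x : F}

/-- a function has finitely many zeros and poles -/
theorem finite_ord_ne_zero_of_rhInputs [IsAlgClosed K] (h : H14.RHInputs K F x) (f : F) :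
    {P : Place K F | P.ord f ≠ 0}.Finite := by
  have h1 := H14.finite_pos h f
  have h2 := H14.finite_neg h f
  refine (h1.union h2).subset ?_
  intro P hP
  simp only [Set.mem_setOf_eq] at hP
  simp only [Set.mem_union, Set.mem_setOf_eq]
  omega

/-- the divisor of a function exists and has degree zero -/
theorem exists_divisor_of_rhInputs [IsAlgClosed K] (h : H14.RHInputs K F x) (f : F) :
    ∃ E : Divisor K F, (∀ P, E P = P.ord f) ∧ Divisor.degree E = 0 := by
  classical
  have hfin := finite_ord_ne_zero_of_rhInputs h f
  let E : Divisor K F :=
    Finsupp.onFinset hfin.toFinset (fun P => P.ord f) (fun P hP => by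
      simpa using hP)
  have hE : ∀ P, E P = P.ord f := fun P => rfl
  refine ⟨E, hE, ?_⟩
  have hdeg : Divisor.degree E = ∑ P ∈ hfin.toFinset, P.ord f := by
    have h1 : Divisor.degree E = E.sum fun P n => n * (P.deg : ℤ) := by
      simp [Divisor.degree, Finsupp.liftAddHom_apply]
    rw [h1, Finsupp.sum_of_support_subset E (s := hfin.toFinset)
      (Finsupp.support_onFinset_subset) _ (fun P _ => by simp)]
    refine Finset.sum_congr rfl fun P _ => ?_
    rw [hE, h.deg_eq_one P]
    simp
  rw [hdeg]
  refine H14.sum_ord_eq_zero h f hfin.toFinset ?_ ?_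
  · intro P hP
    simp only [Set.Finite.mem_toFinset, Set.mem_setOf_eq]
    omega
  · intro P hP
    simp only [Set.Finite.mem_toFinset, Set.mem_setOf_eq]
    omega

/-- the Prelude class `HasPrincipalDivisors` from the function-field inputs -/
theorem hasPrincipalDivisors_of_rhInputs [IsAlgClosed K] (h : H14.RHInputs K F x) :
    HasPrincipalDivisors K F :=
  ⟨fun f _ => exists_divisor_of_rhInputs h f⟩

/-- a finite extension of `K(x)`, `K` algebraically closed of characteristic zero, has principal
divisors of degree zero -/
theorem hasPrincipalDivisors_of_finite [IsAlgClosed K] [CharZero K] (x : F)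
    (hx : Transcendental K x) [FiniteDimensional K⟮x⟯ F] : HasPrincipalDivisors K F :=
  hasPrincipalDivisors_of_rhInputs (H14.rhInputs x hx)

end Generic

section ModelC

variable (N : ℕ) [NeZero N]

/-- the function-field inputs for the modular function field over `ℂ` -/
theorem rhInputs_FC : H14.RHInputs ℂ (H71.FC N) (H71.jC N) := by
  obtain ⟨P⟩ := H71.nonempty_phiC N
  haveI := H71.finite_FC P
  exact H14.rhInputs (H71.jC N) (H71.transcendental_jC P)

/-- the modular function field over `ℂ` has principal divisors of degree zero -/
theorem hasPrincipalDivisors_FC : HasPrincipalDivisors ℂ (H71.FC N) :=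
  hasPrincipalDivisors_of_rhInputs (rhInputs_FC N)

/-- every place of the modular function field over `ℂ` has degree one -/
theorem deg_eq_one_FC (P : Place ℂ (H71.FC N)) : P.deg = 1 :=
  (rhInputs_FC N).deg_eq_one P

/-- constants have order zero at every place -/
theorem ord_algebraMap_FC (P : Place ℂ (H71.FC N)) (c : ℂ) :
    P.ord (algebraMap ℂ (H71.FC N) c) = 0 :=
  (rhInputs_FC N).ord_algebraMap P c

/-- a function has finitely many zeros and poles -/
theorem finite_ord_ne_zero_FC (f : H71.FC N) : {P : Place ℂ (H71.FC N) | P.ord f ≠ 0}.Finite :=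
  finite_ord_ne_zero_of_rhInputs (rhInputs_FC N) f

/-- the divisor of a function exists and has degree zero -/
theorem exists_divisor_FC (f : H71.FC N) :
    ∃ E : Divisor ℂ (H71.FC N), (∀ P, E P = P.ord f) ∧ Divisor.degree E = 0 :=
  exists_divisor_of_rhInputs (rhInputs_FC N) f

/-- `j` is transcendental over `ℂ` in the `ℂ`-model (no choice of embedding needed) -/
theorem transcendental_jC : Transcendental ℂ (H71.jC N) := by
  obtain ⟨P⟩ := H71.nonempty_phiC N
  exact H71.transcendental_jC P

/-- the `ℂ`-model is finite over `ℂ(j)` (no choice of embedding needed) -/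
theorem finite_FC : FiniteDimensional ℂ⟮H71.jC N⟯ (H71.FC N) := by
  obtain ⟨P⟩ := H71.nonempty_phiC N
  exact H71.finite_FC P

end ModelC

end Fermat.Agent.S29.H27
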