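import Mathlib
import Fermat.Prelude.Def_ModularCurve_ArithmeticGalois
import Fermat.Agent.S24.Basics_helper19
import Fermat.Agent.S29.DescGlue_helper43

/-!
# The `q`-order place and the coefficientwise action (helper38)

S29, descent node (DESC), leaf (G-a): what the canonical section (CAN) and the landed descent
glue `H43.desc_glue` still need about the coefficientwise action `H43.gal F₀` of `Aut(L/K)` on
`F_L = laurentBaseChange L F₀`.

* `dvd_ord_smul` : a semilinear automorphism preserves "all orders divisible by `m`";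
  `exists_rep_gal_smul` : the hypothesis `hS` of `H43.desc_glue` from a finite set of Kummer
  representatives;
* `gal_smul_of_coe_eq_coeffEmb` : the action is trivial on the rational functions (on `j`);
* `qPlace F₀ hnt : Place L F_L`, the place of the `q`-order, with `qPlace_ord`,
  `mem_qPlace_iff`, `nonneg_qPlace_ord_iff`;
* `arithmeticGalois_smul_qPlace`, `gal_smul_qPlace` : the coefficientwise action fixes it.
-/

set_option autoImplicit false

noncomputable section

namespace Fermat.Agent.S29.H38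

open ModularCurve AlgebraicCurve

section Generic

variable {K F : Type*} [Field K] [Field F] [Algebra K F]

/-- a semilinear automorphism preserves "all orders divisible by `m`" -/
theorem dvd_ord_smul (g : SemilinearAut K F) {m : ℤ} {f : F}
    (h : ∀ v : Place K F, m ∣ v.ord f) (v : Place K F) : m ∣ v.ord (g • f) := by
  have h1 := SemilinearAut.ord_smul g (g⁻¹ • v) f
  rw [smul_inv_smul] at h1
  rw [h1]
  exact h _

theorem smul_ne_zero_of_ne_zero (g : SemilinearAut K F) {x : F} (hx : x ≠ 0) : g • x ≠ 0 := by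
  intro h
  apply hx
  have h1 := congrArg (g⁻¹ • ·) h
  simpa using h1

end Generic

section Order

/-- coefficientwise injective maps preserve the order -/
theorem order_coeffMap {R S : Type*} [CommRing R] [CommRing S] (φ : R →+* S)
    (hφ : Function.Injective φ) (x : LaurentSeries R) : (coeffMap φ x).order = x.order := by
  rcases eq_or_ne x 0 with rfl | hx
  · rw [map_zero, HahnSeries.order_zero, HahnSeries.order_zero]
  have h1 : (coeffMap φ x).coeff x.order ≠ 0 := by
    rw [coeffMap_coeff]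
    intro h
    exact hx (HahnSeries.coeff_order_eq_zero.mp (hφ (by rw [h, map_zero])))
  have hx' : coeffMap φ x ≠ 0 := by
    intro h
    rw [h] at h1
    exact h1 rfl
  refine le_antisymm (HahnSeries.order_le_of_coeff_ne_zero h1) ?_
  refine HahnSeries.order_le_of_coeff_ne_zero ?_
  intro h
  apply hx'
  apply HahnSeries.coeff_order_eq_zero.mp
  rw [coeffMap_coeff, h, map_zero]

end Order

section QPlace

variable {L : Type*} [Field L] [Algebra ℚ L]
variable (F₀ : IntermediateField ℚ (LaurentSeries ℚ))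

/-- the `q`-order on `F_L` as a `ℤ`-valued valuation -/
def qZVal : S24.H31.ZVal ↥(laurentBaseChange L F₀) where
  ord f := (f : LaurentSeries L).order
  ord_mul := by
    intro f g hf hg
    have hf' : (f : LaurentSeries L) ≠ 0 := fun h => hf (Subtype.ext h)
    have hg' : (g : LaurentSeries L) ≠ 0 := fun h => hg (Subtype.ext h)
    exact HahnSeries.order_mul hf' hg'
  ord_add := by
    intro f g _ _ hfg
    have hfg' : (f : LaurentSeries L) + (g : LaurentSeries L) ≠ 0 :=
      fun h => hfg (Subtype.ext h)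
    exact HahnSeries.min_order_le_order_add hfg'

@[simp] theorem qZVal_ord (f : ↥(laurentBaseChange L F₀)) :
    (qZVal F₀).ord f = (f : LaurentSeries L).order := rfl

theorem qZVal_algebraMap (c : L) (_hc : c ≠ 0) :
    (qZVal F₀).ord (algebraMap L ↥(laurentBaseChange L F₀) c) = 0 := by
  show (algebraMap L (LaurentSeries L) c).order = 0
  rw [H43.algebraMap_eq_C]
  exact HahnSeries.order_C

/-- the `q`-order place of `F_L` (`hnt`: some function has nonzero `q`-order) -/
def qPlace (hnt : ∃ f : ↥(laurentBaseChange L F₀), f ≠ 0 ∧ (f : LaurentSeries L).order ≠ 0) :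
    Place L ↥(laurentBaseChange L F₀) :=
  S24.H19.placeOfZVal (qZVal F₀) (qZVal_algebraMap F₀) hnt

/-- the `q`-order is a positive multiple of the order at `qPlace` -/
theorem qPlace_ord
    (hnt : ∃ f : ↥(laurentBaseChange L F₀), f ≠ 0 ∧ (f : LaurentSeries L).order ≠ 0) :
    ∃ e : ℤ, 0 < e ∧ ∀ f : ↥(laurentBaseChange L F₀), f ≠ 0 →
      (f : LaurentSeries L).order = e * (qPlace F₀ hnt).ord f :=
  S24.H19.placeOfZVal_ord (qZVal F₀) (qZVal_algebraMap F₀) hnt

theorem mem_qPlace_iff
    (hnt : ∃ f : ↥(laurentBaseChange L F₀), f ≠ 0 ∧ (f : LaurentSeries L).order ≠ 0)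
    (f : ↥(laurentBaseChange L F₀)) :
    f ∈ (qPlace F₀ hnt).toValuationSubring ↔ 0 ≤ (f : LaurentSeries L).order := by
  show f ∈ S24.H19.zvalSubring (qZVal F₀) ↔ _
  rw [S24.H19.mem_zvalSubring, qZVal_ord]
  constructor
  · rintro (rfl | h)
    · show (0 : ℤ) ≤ (0 : LaurentSeries L).order
      rw [HahnSeries.order_zero]
    · exact h
  · exact fun h => Or.inr h

theorem nonneg_qPlace_ord_iff
    (hnt : ∃ f : ↥(laurentBaseChange L F₀), f ≠ 0 ∧ (f : LaurentSeries L).order ≠ 0)
    (f : ↥(laurentBaseChange L F₀)) :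
    0 ≤ (qPlace F₀ hnt).ord f ↔ 0 ≤ (f : LaurentSeries L).order := by
  rw [← S24.H19.mem_iff', mem_qPlace_iff]

/-- the coefficientwise action (of any automorphism of `L`) fixes the `q`-order place -/
theorem arithmeticGalois_smul_qPlace
    (hnt : ∃ f : ↥(laurentBaseChange L F₀), f ≠ 0 ∧ (f : LaurentSeries L).order ≠ 0)
    (τ : L ≃ₐ[ℚ] L) : arithmeticGalois F₀ τ • qPlace F₀ hnt = qPlace F₀ hnt := by
  apply Place.ext
  rw [SemilinearAut.smul_toValuationSubring]
  ext f
  rw [ValuationSubring.mem_pointwise_smul_iff_inv_smul_mem, mem_qPlace_iff, mem_qPlace_iff,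
    ← map_inv]
  have h1 : (((arithmeticGalois F₀ τ⁻¹ • f : ↥(laurentBaseChange L F₀))) : LaurentSeries L) =
      coeffMap ((τ⁻¹ : L ≃ₐ[ℚ] L) : L →+* L) (f : LaurentSeries L) := rfl
  rw [h1, order_coeffMap _ (τ⁻¹ : L ≃ₐ[ℚ] L).injective]

end QPlace

section Gal

variable {K L : Type*} [Field K] [Field L] [Algebra K L] [Algebra ℚ K] [Algebra ℚ L]
  [IsScalarTower ℚ K L]
variable (F₀ : IntermediateField ℚ (LaurentSeries ℚ))

/-- **(G-a)** `Aut(L/K)` fixes the `q`-order place (`v0` of the canonical section). -/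
theorem gal_smul_qPlace
    (hnt : ∃ f : ↥(laurentBaseChange L F₀), f ≠ 0 ∧ (f : LaurentSeries L).order ≠ 0)
    (σ : L ≃ₐ[K] L) : H43.gal F₀ σ • qPlace F₀ hnt = qPlace F₀ hnt :=
  arithmeticGalois_smul_qPlace F₀ hnt (σ.restrictScalars ℚ)

/-- **(G-a)** `Aut(L/K)` acts trivially on the rational functions (e.g. on `j`). -/
theorem gal_smul_of_coe_eq_coeffEmb (σ : L ≃ₐ[K] L) (x : ↥(laurentBaseChange L F₀))
    (x₀ : LaurentSeries ℚ) (hx : (x : LaurentSeries L) = coeffEmb L x₀) :
    H43.gal F₀ σ • x = x := by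
  apply Subtype.ext
  show coeffMap ((σ.restrictScalars ℚ : L ≃ₐ[ℚ] L) : L →+* L) (x : LaurentSeries L) =
    (x : LaurentSeries L)
  rw [hx]
  exact coeffMap_coeffEmb (σ.restrictScalars ℚ) x₀

/-- the hypothesis `hS` of `H43.desc_glue` from a finite set of Kummer representatives
(the shape of (KC4)). -/
theorem exists_rep_gal_smul {m : ℕ} (S : Finset ↥(laurentBaseChange L F₀))
    (hS : ∀ x : ↥(laurentBaseChange L F₀), x ≠ 0 →
      (∀ v : Place L ↥(laurentBaseChange L F₀), (m : ℤ) ∣ v.ord x) →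
      ∃ s ∈ S, ∃ w : ↥(laurentBaseChange L F₀), w ≠ 0 ∧ x = s * w ^ m)
    (f : ↥(laurentBaseChange L F₀)) (hf : f ≠ 0)
    (hdiv : ∀ v : Place L ↥(laurentBaseChange L F₀), (m : ℤ) ∣ v.ord f) (τ : L ≃ₐ[K] L) :
    ∃ s ∈ S, ∃ w : ↥(laurentBaseChange L F₀), w ≠ 0 ∧ H43.gal F₀ τ • f = s * w ^ m :=
  hS _ (smul_ne_zero_of_ne_zero _ hf) (dvd_ord_smul _ hdiv)

end Gal

end Fermat.Agent.S29.H38
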