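import Mathlib
import Fermat.Agent.S29.KumC_helper52
import Fermat.Agent.S29.CanSection_helper37
import Fermat.Agent.S29.DescGlue_helper43
import Fermat.Agent.S29.QPlace_helper38
import Fermat.Agent.S29.CoverC_helper71
import Fermat.Agent.S29.PrincDivC_helper27
import Fermat.Agent.S29.ConstPlaceC_helper23

/-!
# S29 node (DESC), closed form (helper79): descent of Kummer functions from `ℂ(j, j_N)` to
`ℚ̄(j, j_N)`

`descC` : every nonzero `f ∈ F_ℂ = ℂ(j, j_N)` all of whose orders are divisible by `m ≠ 0` is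
`c · bc(f₀) · u ^ m` with `f₀ ∈ F̄_N = ℚ̄(j, j_N)`, `c ∈ ℂ^×`, `u ∈ F_ℂ^×`; moreover all orders of
`f₀` (at the places of `F̄_N`) are divisible by `m`.

Assembly of the landed nodes: (KC4) `H52.exists_finset_kummer_reps_cover` (finitely many Kummer
classes over `ℂ`), (G-a) `H38.qPlace` / `H38.exists_rep_gal_smul`, (CAN)
`H37.exists_semiinvariant`, (CD-B) `H43.desc_glue`, (C-MODEL) `H71` + `H27.hasPrincipalDivisors_FC`,
(CD-C) `H23.dvd_ord_of_forall_dvd_bcC`.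
-/

set_option autoImplicit false
set_option linter.style.haveILetI false

open ModularCurve AlgebraicCurve

namespace Fermat.Agent.S29.H79

open Fermat.Agent.S24 Fermat.Agent.S24.H31

noncomputable section

/-- `j ∈ F_ℂ` has a pole at `q = 0`. -/
theorem jC_ne_zero_and_order_ne_zero (N : ℕ) [NeZero N] :
    H71.jC N ≠ 0 ∧ ((H71.jC N : H71.FC N) : LaurentSeries ℂ).order ≠ 0 := by
  have hcoe : ((H71.jC N : H71.FC N) : LaurentSeries ℂ) = coeffEmb ℂ jq := by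
    show H20.Jd N ℂ ⟨1, one_dvd N⟩ = coeffEmb ℂ jq
    rw [H20.Jd_eq, qExpand_one_apply]
  have hc : ((H71.jC N : H71.FC N) : LaurentSeries ℂ).coeff (-1) ≠ 0 := by
    rw [hcoe, coeffEmb_coeff, coeff_jq_neg_one, map_one]
    exact one_ne_zero
  have hle : ((H71.jC N : H71.FC N) : LaurentSeries ℂ).order ≤ -1 :=
    HahnSeries.order_le_of_coeff_ne_zero hc
  refine ⟨fun h => hc (by rw [h]; rfl), fun h => ?_⟩
  rw [h] at hle
  omega

/-- **(DESC)**: descent of Kummer functions from `ℂ(j, j_N)` to `ℚ̄(j, j_N)`, general modulus. -/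
theorem descC (N : ℕ) [NeZero N] {m : ℕ} (hm : m ≠ 0) (f : H71.FC N) (hf : f ≠ 0)
    (hdiv : ∀ w : Place ℂ (H71.FC N), (m : ℤ) ∣ w.ord f) :
    ∃ (f₀ : FN N) (c : ℂ) (u : H71.FC N), f₀ ≠ 0 ∧ c ≠ 0 ∧ u ≠ 0 ∧
      f = algebraMap ℂ (H71.FC N) c * H71.bcC N f₀ * u ^ m ∧
      ∀ v : Place Kbar (FN N), (m : ℤ) ∣ v.ord f₀ := by
  letI : Algebra Kbar ℂ := iota.toAlgebra
  haveI : IsScalarTower ℚ Kbar ℂ := IsScalarTower.of_algebraMap_eq fun q => by
    rw [eq_ratCast, eq_ratCast]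
    exact (map_ratCast (algebraMap Kbar ℂ) q).symm
  haveI := H27.hasPrincipalDivisors_FC N
  haveI := H27.finite_FC N
  obtain ⟨P⟩ := H71.nonempty_phiC N
  obtain ⟨S, hS⟩ := H52.exists_finset_kummer_reps_cover P.isCover (S24.H90.valSpec N) hm
  have hnt : ∃ y : ↥(laurentBaseChange ℂ (modularFunctionFieldFull N)),
      y ≠ 0 ∧ (y : LaurentSeries ℂ).order ≠ 0 :=
    ⟨H71.jC N, (jC_ne_zero_and_order_ne_zero N).1, (jC_ne_zero_and_order_ne_zero N).2⟩
  obtain ⟨s, hs, hsemi⟩ := H37.exists_semiinvariant (H71.jC N) (H27.transcendental_jC N)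
    (H38.qPlace (modularFunctionFieldFull N) hnt) hm f hf
  have hj : ∀ τ : ℂ ≃ₐ[Kbar] ℂ, H43.gal (modularFunctionFieldFull N) τ • H71.jC N = H71.jC N :=
    fun τ => H38.gal_smul_of_coe_eq_coeffEmb (modularFunctionFieldFull N) τ (H71.jC N)
      (H20.JdQ N ⟨1, one_dvd N⟩) rfl
  obtain ⟨f₀, c, u, hf₀, hc, hu, hfeq⟩ :=
    H43.desc_glue (K := Kbar) (modularFunctionFieldFull N) m f hf S
      (fun τ => H38.exists_rep_gal_smul (modularFunctionFieldFull N) S hS f hf hdiv τ) s hs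
      (fun τ h => hsemi (H43.gal (modularFunctionFieldFull N) τ) (hj τ)
        (H38.gal_smul_qPlace (modularFunctionFieldFull N) hnt τ) h)
  have hfeq' : f = algebraMap ℂ (H71.FC N) c * H71.bcC N f₀ * u ^ m := hfeq
  refine ⟨f₀, c, u, hf₀, hc, hu, hfeq', ?_⟩
  have hcF : algebraMap ℂ (H71.FC N) c ≠ 0 := by
    rw [Ne, map_eq_zero]; exact hc
  have hb : H71.bcC N f₀ ≠ 0 := by
    rw [Ne, map_eq_zero]; exact hf₀
  refine H23.dvd_ord_of_forall_dvd_bcC N (m : ℤ) f₀ (fun w => ?_)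
  have h1 := hdiv w
  rw [hfeq', w.ord_mul (mul_ne_zero hcF hb) (pow_ne_zero m hu), w.ord_mul hcF hb,
    H27.ord_algebraMap_FC, zero_add, ← zpow_natCast, w.ord_zpow] at h1
  exact (Int.dvd_add_left (Dvd.intro _ rfl)).mp h1

end

end Fermat.Agent.S29.H79
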