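import Mathlib
import Fermat.Prelude.Def_ModularCurve_ArithmeticGalois
import Fermat.Agent.S24.Basics_helper19
import Fermat.Agent.S29.CoeffDesc_helper43

/-!
# S29 node (DESC) (helper79): descent of Kummer functions along a constant extension

`K ⊆ L` algebraically closed fields, `F₀` a subfield of `ℚ((q))`, `FK = laurentBaseChange K F₀`,
`FL = laurentBaseChange L F₀` (for `K = Qbar`, `L = ℂ`, `F₀ = modularFunctionFieldFull N`:
`FK = Qbar(j, j_N)` and `FL = ℂ(j, j_N)`).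

**(DESC)** (`desc_of`): a function `f ∈ FL^×` all of whose orders are divisible by `m` is
`c · ι(f₀) · u ^ m` with `f₀ ∈ FK`, `c ∈ L^×`, `u ∈ FL^×`, provided

* (FIN) the group of such functions modulo `m`-th powers is finite ((KC4));
* (CAN) the canonical-section statement `CanStmt` (helper37's `exists_semiinvariant`);
* (CD-B) the coefficient descent statement `CdbStmt` (helper43).

Structure of the proof: the stabiliser `stab F₀ m f` of the class of `f` in `Aut(L/K)` has finite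
index by (FIN); (CAN), applied with the `q`-order place `qPlace`, gives `s` with `f s ^ m`
semi-invariant under the stabiliser; (CD-B) descends `f s ^ m`.
-/

set_option autoImplicit false

open ModularCurve AlgebraicCurve

namespace Fermat.Agent.S29.H79

open Fermat.Agent.S24 Fermat.Agent.S24.H31

noncomputable section

variable {K L : Type*} [Field K] [Field L] [Algebra K L] [Algebra ℚ L]
variable (F₀ : IntermediateField ℚ (LaurentSeries ℚ))

/-! ### the action of `Aut(L/K)` on `FL` -/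

/-- restriction of scalars to `ℚ` for automorphisms of `L` over `K`. -/
def toQ : (L ≃ₐ[K] L) →* (L ≃ₐ[ℚ] L) where
  toFun τ := AlgEquiv.ofRingEquiv (f := τ.toRingEquiv) (fun q => by
    rw [eq_ratCast]
    exact map_ratCast τ.toRingEquiv q)
  map_one' := by ext; rfl
  map_mul' _ _ := by ext; rfl

theorem toQ_apply (τ : L ≃ₐ[K] L) (a : L) : toQ τ a = τ a := rfl

/-- the semilinear action of `Aut(L/K)` on `FL`. -/
def act : (L ≃ₐ[K] L) →* SemilinearAut L ↥(laurentBaseChange L F₀) :=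
  (arithmeticGalois F₀).comp toQ

theorem coe_act_smul (τ : L ≃ₐ[K] L) (y : ↥(laurentBaseChange L F₀)) :
    ((act F₀ τ • y : ↥(laurentBaseChange L F₀)) : LaurentSeries L)
      = coeffMap (τ : L →+* L) (y : LaurentSeries L) :=
  rfl

/-! ### the `q`-order place -/

section QPlace

variable {R : Type*} [Field R]

theorem order_coeffMap_of_injective {S : Type*} [Field S] (φ : R →+* S) (y : LaurentSeries R) :
    (coeffMap φ y).order = y.order := by
  by_cases hy : y = 0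
  · rw [hy, map_zero, HahnSeries.order_zero, HahnSeries.order_zero]
  have hy' : coeffMap φ y ≠ 0 := fun h => hy (by
    have := (coeffMap φ).injective (a₁ := y) (a₂ := 0) (by rw [h, map_zero])
    exact this)
  refine le_antisymm ?_ ?_
  · refine HahnSeries.order_le_of_coeff_ne_zero ?_
    rw [coeffMap_coeff]
    have h1 : y.coeff y.order ≠ 0 := by
      rw [← HahnSeries.leadingCoeff_eq]
      exact HahnSeries.leadingCoeff_ne_zero.mpr hy
    exact fun h => h1 (φ.injective (by rw [h, map_zero]))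
  · refine HahnSeries.order_le_of_coeff_ne_zero ?_
    have h1 : (coeffMap φ y).coeff (coeffMap φ y).order ≠ 0 := by
      rw [← HahnSeries.leadingCoeff_eq]
      exact HahnSeries.leadingCoeff_ne_zero.mpr hy'
    rw [coeffMap_coeff] at h1
    exact fun h => h1 (by rw [h, map_zero])

end QPlace

/-- the `q`-order valuation on `FL`. -/
def qZVal : ZVal ↥(laurentBaseChange L F₀) where
  ord y := (y : LaurentSeries L).order
  ord_mul {f g} hf hg := by
    have hf' : (f : LaurentSeries L) ≠ 0 := fun h => hf (Subtype.ext h)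
    have hg' : (g : LaurentSeries L) ≠ 0 := fun h => hg (Subtype.ext h)
    exact HahnSeries.order_mul hf' hg'
  ord_add {f g} _ _ hfg := by
    have hfg' : (f : LaurentSeries L) + (g : LaurentSeries L) ≠ 0 := fun h => hfg (Subtype.ext h)
    exact HahnSeries.min_order_le_order_add hfg'

theorem qZVal_ord (y : ↥(laurentBaseChange L F₀)) :
    (qZVal F₀).ord y = (y : LaurentSeries L).order := rfl

theorem qZVal_algebraMap (c : L) (hc : c ≠ 0) :
    (qZVal F₀).ord (algebraMap L ↥(laurentBaseChange L F₀) c) = 0 := by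
  rw [qZVal_ord]
  show (algebraMap L (LaurentSeries L) c).order = 0
  rw [H43.algebraMap_eq_C]
  exact HahnSeries.order_single hc

/-- the `q`-order place of `FL` (it exists as soon as some function has a zero or a pole at
`q = 0`). -/
def qPlace (hnt : ∃ y : ↥(laurentBaseChange L F₀), y ≠ 0 ∧ (y : LaurentSeries L).order ≠ 0) :
    Place L ↥(laurentBaseChange L F₀) :=
  H19.placeOfZVal (qZVal F₀) (qZVal_algebraMap F₀) hnt

/-- the `q`-order place is fixed by every coefficient automorphism. -/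
theorem act_smul_qPlace
    (hnt : ∃ y : ↥(laurentBaseChange L F₀), y ≠ 0 ∧ (y : LaurentSeries L).order ≠ 0)
    (σ : L ≃ₐ[ℚ] L) : arithmeticGalois F₀ σ • qPlace F₀ hnt = qPlace F₀ hnt := by
  apply Place.ext
  rw [SemilinearAut.smul_toValuationSubring]
  ext y
  rw [ValuationSubring.mem_pointwise_smul_iff_inv_smul_mem]
  show (arithmeticGalois F₀ σ)⁻¹ • y ∈ H19.zvalSubring (qZVal F₀) ↔ y ∈ H19.zvalSubring (qZVal F₀)
  rw [H19.mem_zvalSubring, H19.mem_zvalSubring, qZVal_ord, qZVal_ord, ← map_inv,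
    coe_arithmeticGalois_smul, order_coeffMap_of_injective]
  constructor
  · rintro (h | h)
    · left
      have := congrArg (fun z => arithmeticGalois F₀ σ • z) h
      simpa using this
    · exact Or.inr h
  · rintro (h | h)
    · left; rw [h, smul_zero]
    · exact Or.inr h

/-! ### the stabiliser of a Kummer class -/

theorem smul_ne_zero_of_ne_zero (g : SemilinearAut L ↥(laurentBaseChange L F₀))
    {w : ↥(laurentBaseChange L F₀)} (hw : w ≠ 0) : g • w ≠ 0 := by
  intro h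
  apply hw
  have h1 := congrArg (fun z => g⁻¹ • z) h
  simpa using h1

theorem smul_mul_pow (g : SemilinearAut L ↥(laurentBaseChange L F₀))
    (a w : ↥(laurentBaseChange L F₀)) (m : ℕ) : g • (a * w ^ m) = g • a * (g • w) ^ m := by
  rw [smul_mul', smul_pow']

/-- the relation "`g • f` and `f` differ by an `m`-th power". -/
def SameClass (m : ℕ) (f : ↥(laurentBaseChange L F₀))
    (g : SemilinearAut L ↥(laurentBaseChange L F₀)) : Prop :=
  ∃ w : ↥(laurentBaseChange L F₀), w ≠ 0 ∧ g • f = f * w ^ m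

theorem sameClass_one (m : ℕ) (f : ↥(laurentBaseChange L F₀)) : SameClass F₀ m f 1 :=
  ⟨1, one_ne_zero, by rw [one_smul, one_pow, mul_one]⟩

theorem sameClass_mul {m : ℕ} {f : ↥(laurentBaseChange L F₀)}
    {g h : SemilinearAut L ↥(laurentBaseChange L F₀)}
    (hg : SameClass F₀ m f g) (hh : SameClass F₀ m f h) : SameClass F₀ m f (g * h) := by
  obtain ⟨w, hw, hgw⟩ := hg
  obtain ⟨w', hw', hhw⟩ := hh
  refine ⟨w * g • w', mul_ne_zero hw (smul_ne_zero_of_ne_zero F₀ g hw'), ?_⟩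
  rw [mul_smul, hhw, smul_mul_pow, hgw, mul_pow, mul_assoc]

theorem sameClass_inv {m : ℕ} {f : ↥(laurentBaseChange L F₀)}
    {g : SemilinearAut L ↥(laurentBaseChange L F₀)}
    (hg : SameClass F₀ m f g) : SameClass F₀ m f g⁻¹ := by
  obtain ⟨w, hw, hgw⟩ := hg
  have hw' : g⁻¹ • w ≠ 0 := smul_ne_zero_of_ne_zero F₀ g⁻¹ hw
  refine ⟨(g⁻¹ • w)⁻¹, inv_ne_zero hw', ?_⟩
  have h1 : f = g⁻¹ • f * (g⁻¹ • w) ^ m := by
    have h2 := congrArg (fun z => g⁻¹ • z) hgw
    simp only [smul_mul_pow, inv_smul_smul] at h2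
    exact h2
  rw [inv_pow]
  exact (eq_mul_inv_iff_mul_eq₀ (pow_ne_zero m hw')).mpr h1.symm

theorem sameClass_inv_mul {m : ℕ} {f : ↥(laurentBaseChange L F₀)}
    {g g' : SemilinearAut L ↥(laurentBaseChange L F₀)} {s w w' : ↥(laurentBaseChange L F₀)}
    (hw : w ≠ 0) (hw' : w' ≠ 0) (hg : g • f = s * w ^ m) (hg' : g' • f = s * w' ^ m) :
    SameClass F₀ m f (g'⁻¹ * g) := by
  have hw1 : g'⁻¹ • w' ≠ 0 := smul_ne_zero_of_ne_zero F₀ _ hw'
  refine ⟨g'⁻¹ • w * (g'⁻¹ • w')⁻¹,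
    mul_ne_zero (smul_ne_zero_of_ne_zero F₀ _ hw) (inv_ne_zero hw1), ?_⟩
  have h1 : f = g'⁻¹ • s * (g'⁻¹ • w') ^ m := by
    have h2 := congrArg (fun z => g'⁻¹ • z) hg'
    simp only [smul_mul_pow, inv_smul_smul] at h2
    exact h2
  have h3 : g'⁻¹ • s = f * ((g'⁻¹ • w') ^ m)⁻¹ :=
    (eq_mul_inv_iff_mul_eq₀ (pow_ne_zero m hw1)).mpr h1.symm
  rw [mul_smul, hg, smul_mul_pow, h3, mul_pow, inv_pow, mul_assoc]
  congr 1
  exact mul_comm _ _

/-- the stabiliser in `Aut(L/K)` of the class of `f` modulo `m`-th powers. -/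
def stab (m : ℕ) (f : ↥(laurentBaseChange L F₀)) : Subgroup (L ≃ₐ[K] L) where
  carrier := {τ | SameClass F₀ m f (act F₀ τ)}
  one_mem' := by
    show SameClass F₀ m f (act F₀ 1)
    rw [map_one]
    exact sameClass_one F₀ m f
  mul_mem' := by
    intro τ σ hτ hσ
    show SameClass F₀ m f (act F₀ (τ * σ))
    rw [map_mul]
    exact sameClass_mul F₀ hτ hσ
  inv_mem' := by
    intro τ hτ
    show SameClass F₀ m f (act F₀ τ⁻¹)
    rw [map_inv]
    exact sameClass_inv F₀ hτ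

theorem mem_stab {m : ℕ} {f : ↥(laurentBaseChange L F₀)} {τ : L ≃ₐ[K] L} :
    τ ∈ stab F₀ m f ↔ ∃ w : ↥(laurentBaseChange L F₀), w ≠ 0 ∧ act F₀ τ • f = f * w ^ m :=
  Iff.rfl

/-- the orders of a translate. -/
theorem dvd_ord_smul {m : ℕ} (g : SemilinearAut L ↥(laurentBaseChange L F₀))
    {f : ↥(laurentBaseChange L F₀)}
    (hdiv : ∀ v : Place L ↥(laurentBaseChange L F₀), (m : ℤ) ∣ v.ord f)
    (v : Place L ↥(laurentBaseChange L F₀)) : (m : ℤ) ∣ v.ord (g • f) := by
  have h := SemilinearAut.ord_smul g (g⁻¹ • v) f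
  rw [smul_inv_smul] at h
  rw [h]
  exact hdiv _

/-- **finite index** of the stabiliser, from the finiteness (KC4) of Kummer classes. -/
theorem stab_finiteIndex {m : ℕ}
    (hfin : ∃ S : Finset ↥(laurentBaseChange L F₀), ∀ y : ↥(laurentBaseChange L F₀), y ≠ 0 →
      (∀ v : Place L ↥(laurentBaseChange L F₀), (m : ℤ) ∣ v.ord y) →
        ∃ s ∈ S, ∃ w : ↥(laurentBaseChange L F₀), w ≠ 0 ∧ y = s * w ^ m)
    (f : ↥(laurentBaseChange L F₀)) (hf : f ≠ 0)
    (hdiv : ∀ v : Place L ↥(laurentBaseChange L F₀), (m : ℤ) ∣ v.ord f) :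
    (stab (K := K) F₀ m f).FiniteIndex := by
  classical
  obtain ⟨S, hS⟩ := hfin
  have key : ∀ τ : L ≃ₐ[K] L, ∃ s ∈ S, ∃ w : ↥(laurentBaseChange L F₀),
      w ≠ 0 ∧ act F₀ τ • f = s * w ^ m := fun τ =>
    hS (act F₀ τ • f) (smul_ne_zero_of_ne_zero F₀ _ hf) (dvd_ord_smul F₀ (act F₀ τ) hdiv)
  choose φ hφS w hw hφ using key
  have hinj : ∀ τ τ' : L ≃ₐ[K] L, φ τ = φ τ' → τ'⁻¹ * τ ∈ stab F₀ m f := by
    intro τ τ' h
    show SameClass F₀ m f (act F₀ (τ'⁻¹ * τ))
    have e : act F₀ (τ'⁻¹ * τ) = (act F₀ τ')⁻¹ * act F₀ τ := by rw [map_mul, map_inv]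
    rw [e]
    exact sameClass_inv_mul F₀ (hw τ) (hw τ') (hφ τ) (h ▸ hφ τ')
  let ψ : (L ≃ₐ[K] L) ⧸ stab (K := K) F₀ m f → S := fun q => ⟨φ q.out, hφS q.out⟩
  have hψ : Function.Injective ψ := by
    intro q q' h
    have h' : φ q.out = φ q'.out := congrArg Subtype.val h
    have h2 := hinj q.out q'.out h'
    have h3 : ((q'.out : L ≃ₐ[K] L) : (L ≃ₐ[K] L) ⧸ stab (K := K) F₀ m f) = (q.out : L ≃ₐ[K] L) :=
      QuotientGroup.eq.mpr h2
    rw [QuotientGroup.out_eq', QuotientGroup.out_eq'] at h3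
    exact h3.symm
  have : Finite ((L ≃ₐ[K] L) ⧸ stab (K := K) F₀ m f) := Finite.of_injective ψ hψ
  exact Subgroup.finiteIndex_of_finite_quotient

/-! ### the two consumed statements -/

/-- **(CAN)**: helper37's `exists_semiinvariant`, at `(x, v0, m)`, as a statement. -/
def CanStmt (x : ↥(laurentBaseChange L F₀)) (v0 : Place L ↥(laurentBaseChange L F₀))
    (m : ℕ) : Prop :=
  ∀ b : ↥(laurentBaseChange L F₀), b ≠ 0 →
    (∀ v : Place L ↥(laurentBaseChange L F₀), (m : ℤ) ∣ v.ord b) →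
    ∃ s : ↥(laurentBaseChange L F₀), s ≠ 0 ∧
      ∀ g : SemilinearAut L ↥(laurentBaseChange L F₀), g • x = x → g • v0 = v0 →
        (∃ (c : L) (u : ↥(laurentBaseChange L F₀)), c ≠ 0 ∧ u ≠ 0 ∧
          g • b = algebraMap L ↥(laurentBaseChange L F₀) c * b * u ^ m) →
        ∃ c' : L, c' ≠ 0 ∧
          g • (b * s ^ m) = algebraMap L ↥(laurentBaseChange L F₀) c' * (b * s ^ m)

variable (K) in
/-- **(CD-B)**: helper43's coefficient descent of a semi-invariant function, as a statement. -/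
def CdbStmt [Algebra ℚ K] : Prop :=
  ∀ (h : LaurentSeries L), h ∈ laurentBaseChange L F₀ → h ≠ 0 →
    ∀ (H : Subgroup (L ≃ₐ[K] L)), H.FiniteIndex →
      (∀ τ ∈ H, ∃ c : L, coeffMap (τ : L →+* L) h = HahnSeries.C c * h) →
      ∃ (c : L) (h₀ : LaurentSeries K), c ≠ 0 ∧ h₀ ∈ laurentBaseChange K F₀ ∧
        h = HahnSeries.C c * coeffMap (algebraMap K L) h₀

/-! ### (DESC) -/

/-- **(DESC)** from (KC4), (CAN), (CD-B). -/
theorem desc_of [Algebra ℚ K]
    (x : ↥(laurentBaseChange L F₀))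
    (hxfix : ∀ τ : L ≃ₐ[K] L, coeffMap (τ : L →+* L) (x : LaurentSeries L) = (x : LaurentSeries L))
    (hnt : ∃ y : ↥(laurentBaseChange L F₀), y ≠ 0 ∧ (y : LaurentSeries L).order ≠ 0)
    {m : ℕ}
    (hCan : CanStmt F₀ x (qPlace F₀ hnt) m)
    (hCdb : CdbStmt K F₀ (L := L))
    (hfin : ∃ S : Finset ↥(laurentBaseChange L F₀), ∀ y : ↥(laurentBaseChange L F₀), y ≠ 0 →
      (∀ v : Place L ↥(laurentBaseChange L F₀), (m : ℤ) ∣ v.ord y) →
        ∃ s ∈ S, ∃ w : ↥(laurentBaseChange L F₀), w ≠ 0 ∧ y = s * w ^ m)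
    (f : ↥(laurentBaseChange L F₀)) (hf : f ≠ 0)
    (hdiv : ∀ v : Place L ↥(laurentBaseChange L F₀), (m : ℤ) ∣ v.ord f) :
    ∃ (f₀ : ↥(laurentBaseChange K F₀)) (c : L) (u : ↥(laurentBaseChange L F₀)),
      f₀ ≠ 0 ∧ c ≠ 0 ∧ u ≠ 0 ∧
      (f : LaurentSeries L) = HahnSeries.C c * coeffMap (algebraMap K L) (f₀ : LaurentSeries K) *
        (u : LaurentSeries L) ^ m := by
  have hH : (stab (K := K) F₀ m f).FiniteIndex := stab_finiteIndex F₀ hfin f hf hdiv
  obtain ⟨s, hs, hsemi⟩ := hCan f hf hdiv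
  have hfs : f * s ^ m ≠ 0 := mul_ne_zero hf (pow_ne_zero m hs)
  have hfs' : ((f * s ^ m : ↥(laurentBaseChange L F₀)) : LaurentSeries L) ≠ 0 :=
    fun h => hfs (Subtype.ext h)
  have hτ : ∀ τ ∈ stab (K := K) F₀ m f, ∃ c : L,
      coeffMap (τ : L →+* L) ((f * s ^ m : ↥(laurentBaseChange L F₀)) : LaurentSeries L)
        = HahnSeries.C c * ((f * s ^ m : ↥(laurentBaseChange L F₀)) : LaurentSeries L) := by
    rintro τ ⟨w, hw, hτw⟩
    have hx' : act F₀ τ • x = x := Subtype.ext (by rw [coe_act_smul]; exact hxfix τ)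
    have hv0 : act F₀ τ • qPlace F₀ hnt = qPlace F₀ hnt := act_smul_qPlace F₀ hnt (toQ τ)
    obtain ⟨c', -, hc'⟩ := hsemi (act F₀ τ) hx' hv0
      ⟨1, w, one_ne_zero, hw, by rw [map_one, one_mul]; exact hτw⟩
    refine ⟨c', ?_⟩
    have := congrArg (fun z : ↥(laurentBaseChange L F₀) => (z : LaurentSeries L)) hc'
    rw [← H43.algebraMap_eq_C]
    exact this
  obtain ⟨c, h₀, hc, hh₀, hh⟩ := hCdb _ (f * s ^ m).2 hfs' _ hH hτ
  have hh₀0 : (⟨h₀, hh₀⟩ : ↥(laurentBaseChange K F₀)) ≠ 0 := by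
    intro h0
    have h1 : h₀ = 0 := congrArg Subtype.val h0
    rw [h1, map_zero, mul_zero] at hh
    exact hfs' hh
  refine ⟨⟨h₀, hh₀⟩, c, s⁻¹, hh₀0, hc, inv_ne_zero hs, ?_⟩
  have hs' : (s : LaurentSeries L) ≠ 0 := fun h => hs (Subtype.ext h)
  have e1 : ((f * s ^ m : ↥(laurentBaseChange L F₀)) : LaurentSeries L)
      = (f : LaurentSeries L) * (s : LaurentSeries L) ^ m := rfl
  have e2 : ((s⁻¹ : ↥(laurentBaseChange L F₀)) : LaurentSeries L) = (s : LaurentSeries L)⁻¹ := rfl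
  rw [e2, ← hh, e1, inv_pow, mul_assoc, mul_inv_cancel₀ (pow_ne_zero m hs'), mul_one]

/-- **(DESC), divisibility over `K`**: if every place of `FK` has an extension to `FL` with the
same orders ((CD-C)), the descended function has all its orders divisible by `m`. -/
theorem dvd_ord_of_desc [Algebra ℚ K]
    (hext : ∀ v : Place K ↥(laurentBaseChange K F₀), ∃ w : Place L ↥(laurentBaseChange L F₀),
      ∀ y : ↥(laurentBaseChange K F₀),
        w.ord ⟨coeffMap (algebraMap K L) (y : LaurentSeries K), H43.coeffMap_mem_of_mem F₀ y.2⟩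
          = v.ord y)
    {m : ℕ} (f : ↥(laurentBaseChange L F₀))
    (hdiv : ∀ v : Place L ↥(laurentBaseChange L F₀), (m : ℤ) ∣ v.ord f)
    (f₀ : ↥(laurentBaseChange K F₀)) (c : L) (u : ↥(laurentBaseChange L F₀))
    (hf₀ : f₀ ≠ 0) (hc : c ≠ 0) (hu : u ≠ 0)
    (h : (f : LaurentSeries L) = HahnSeries.C c * coeffMap (algebraMap K L) (f₀ : LaurentSeries K) *
        (u : LaurentSeries L) ^ m) :
    ∀ v : Place K ↥(laurentBaseChange K F₀), (m : ℤ) ∣ v.ord f₀ := by
  intro v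
  obtain ⟨w, hw⟩ := hext v
  set g₀ : ↥(laurentBaseChange L F₀) :=
    ⟨coeffMap (algebraMap K L) (f₀ : LaurentSeries K), H43.coeffMap_mem_of_mem F₀ f₀.2⟩ with hg₀
  have hg₀0 : g₀ ≠ 0 := by
    intro h0
    have h1 : coeffMap (algebraMap K L) (f₀ : LaurentSeries K) = 0 := congrArg Subtype.val h0
    have h2 : (f₀ : LaurentSeries K) = 0 :=
      H43.coeffMap_injective (L := L) (by rw [h1, map_zero])
    exact hf₀ (Subtype.ext h2)
  have hcF : algebraMap L ↥(laurentBaseChange L F₀) c ≠ 0 := by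
    rw [Ne, map_eq_zero]; exact hc
  have hf : f = algebraMap L ↥(laurentBaseChange L F₀) c * g₀ * u ^ m := by
    apply Subtype.ext
    rw [h]
    show _ = algebraMap L (LaurentSeries L) c * _ * _
    rw [H43.algebraMap_eq_C]
    rfl
  have h1 := hdiv w
  rw [hf, w.ord_mul (mul_ne_zero hcF hg₀0) (pow_ne_zero m hu), w.ord_mul hcF hg₀0,
    H19.ord_algebraMap, zero_add, ← zpow_natCast, w.ord_zpow] at h1
  rw [← hw f₀]
  exact (Int.dvd_add_left (Dvd.intro _ rfl)).mp h1

end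

end Fermat.Agent.S29.H79
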