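import Mathlib
import Fermat.Agent.S29.EigStmt_helper13

/-!
# (EIG), matrix form (the literal shape consumed by the (WIT) assembly)

`exists_eigen` : for a normalized eigenform `g` of level `N` and a ring hom `φ` from the
algebraic integers to a field `k`: parabolic integer characters `χ i` of `Γ₀(N)`, jointly
surjective onto `ℤ ^ d`, a nonzero `θ : Fin d → k`, and for every prime `ℓ ∤ N` the algebraic
integer `a = a_ℓ(g)` and an integer matrix `A` with `T_ℓ^tr (χ j) = ∑ i, A j i • χ i` and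
`∑ j, A j i * θ j = φ a * θ i`.  No hypothesis on the characteristic of `k`.
-/

set_option autoImplicit false

namespace Fermat.Agent.S29.H13

open CongruenceSubgroup ModularCurve ModularCurve.Period ModularFormClass
open Fermat.Agent.S29 Fermat.Agent.S21

/-- **(EIG), matrix form**, any field `k`. -/
theorem exists_eigen (N : ℕ) [NeZero N] {g : CuspForm (Gamma0 N) 2}
    (hg : g.IsNormalizedEigenform) {k : Type*} [Field k] (φ : integralClosure ℤ ℂ →+* k) :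
    ∃ (d : ℕ) (χ : Fin d → Additive (Gamma0 N) →+ ℤ) (θ : Fin d → k),
      (∀ i, χ i ∈ parabolicHoms ℤ (Gamma0 N) ℤ) ∧
      (∀ c : Fin d → ℤ, ∃ γ, ∀ i, χ i γ = c i) ∧ θ ≠ 0 ∧
      ∀ ℓ : ℕ, ℓ.Prime → ¬ ℓ ∣ N → ∃ a : integralClosure ℤ ℂ, (a : ℂ) = qCoeff (⇑g) ℓ ∧
        ∃ A : Matrix (Fin d) (Fin d) ℤ,
          (∀ j, H06.IsHeckeTr N ℓ (χ j) (∑ i, A j i • χ i)) ∧
          (∀ i, ∑ j, (A j i : k) * θ j = φ a * θ i) :=
  exists_eigen_of_char N (periodMap N g) (periodMap_ne_zero N hg)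
    (H23.periodMap_mem_parabolicHoms N g) (fun ℓ => qCoeff (⇑g) ℓ)
    (fun ℓ hℓ hℓN => ⟨periodMap N (CuspForm.heckeTLin 2 hℓ hℓN g),
      H06.isHeckeTr_periodMap hℓ hℓN g, fun γ => by
        rw [H36.heckeT_eq_smul hg hℓ hℓN]
        have h1 := (H25.pml N).map_smul (qCoeff (⇑g) ℓ) g
        rw [H25.pml_apply, H25.pml_apply] at h1
        rw [h1]
        rfl⟩) φ

/-- The same with the binder list announced for the (WIT) assembly (`p`, `CharP k p` unused). -/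
theorem exists_eigen_charP (N : ℕ) [NeZero N] {g : CuspForm (Gamma0 N) 2}
    (hg : g.IsNormalizedEigenform) {p : ℕ} (_hp : p.Prime) {k : Type} [Field k] [CharP k p]
    (φ : integralClosure ℤ ℂ →+* k) :
    ∃ (d : ℕ) (χ : Fin d → Additive (Gamma0 N) →+ ℤ) (θ : Fin d → k),
      (∀ i, χ i ∈ parabolicHoms ℤ (Gamma0 N) ℤ) ∧
      (∀ c : Fin d → ℤ, ∃ γ, ∀ i, χ i γ = c i) ∧ θ ≠ 0 ∧
      ∀ ℓ : ℕ, ℓ.Prime → ¬ ℓ ∣ N → ∃ a : integralClosure ℤ ℂ, (a : ℂ) = qCoeff (⇑g) ℓ ∧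
        ∃ A : Matrix (Fin d) (Fin d) ℤ,
          (∀ j, H06.IsHeckeTr N ℓ (χ j) (∑ i, A j i • χ i)) ∧
          (∀ i, ∑ j, (A j i : k) * θ j = φ a * θ i) :=
  exists_eigen N hg φ

end Fermat.Agent.S29.H13
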