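import Mathlib
import Fermat.Prelude.Def_FLTPrelim_Modularity
import Fermat.Agent.S21.Injective_helper25
import Fermat.Agent.S21.Parabolic_helper23
import Fermat.Agent.S22.CocycleAlg_helper16
import Fermat.Agent.S49.QCoeff_h78
import Fermat.Agent.S29.PeriodHecke_helper6

/-!
# S29, node (EIG), part 2 (helper6): the eigensystem of a normalised eigenform occurs in
`Hom_par(Γ₀(N), ℤ)` modulo `p`

For a normalised weight-2 eigenform `g` on `Γ₀(N)`, the period lattice `P := periodMap N g (Γ₀(N))`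
is a finitely generated subgroup of `ℂ`, stable under multiplication by every `a_ℓ = qCoeff g ℓ`
(`ℓ ∤ N` prime).  Hence the `a_ℓ` are algebraic integers, and a determinant (Nakayama) argument
gives, for every ring homomorphism `φ` from the algebraic integers to a field `k`, a nonzero
`φ`-semilinear functional on `P`.  In coordinates with respect to a `ℤ`-basis of `P` this is
`exists_eigen`.
-/

set_option autoImplicit false

namespace Fermat.Agent.S29.H06

open UpperHalfPlane CongruenceSubgroup ModularCurve ModularCurve.Period ModularFormClass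
open Fermat.Agent.S22 Fermat.Agent.S21 Fermat.Agent.S49
open scoped MatrixGroups ModularForm

/-! ### The eigen-equation `T_ℓ g = a_ℓ g` -/

/-- The Hecke relation between the `q`-coefficients of a normalised eigenform. -/
theorem qCoeff_rel {N : ℕ} {g : CuspForm (Gamma0 N) 2} (hg : g.IsNormalizedEigenform)
    {ℓ : ℕ} (hℓ : ℓ.Prime) (hℓN : ¬ ℓ ∣ N) (n : ℕ) :
    qCoeff ⇑g (n * ℓ) + (if ℓ ∣ n then (ℓ : ℂ) * qCoeff ⇑g (n / ℓ) else 0) =
      qCoeff ⇑g ℓ * qCoeff ⇑g n := by
  rcases Nat.eq_zero_or_pos n with rfl | hn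
  · simp [H78.qCoeff_zero_idx]
  · obtain ⟨r, m, hm, rfl⟩ := Nat.exists_eq_pow_mul_and_not_dvd hn.ne' ℓ hℓ.ne_one
    have hcop : ∀ s : ℕ, (ℓ ^ s).Coprime m := fun s =>
      Nat.Coprime.pow_left s ((Nat.Prime.coprime_iff_not_dvd hℓ).mpr hm)
    have e1 : ℓ ^ r * m * ℓ = ℓ ^ (r + 1) * m := by ring
    rw [e1, hg.qCoeff_mul_of_coprime _ _ (hcop (r + 1)), hg.qCoeff_mul_of_coprime _ _ (hcop r)]
    cases r with
    | zero =>
      have hnd : ¬ ℓ ∣ ℓ ^ 0 * m := by simpa using hm
      rw [if_neg hnd, pow_zero, hg.qCoeff_one, zero_add, pow_one]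
      ring
    | succ s =>
      have hd : ℓ ∣ ℓ ^ (s + 1) * m := Dvd.dvd.mul_right (dvd_pow_self ℓ (Nat.succ_ne_zero s)) m
      have hdiv : ℓ ^ (s + 1) * m / ℓ = ℓ ^ s * m := by
        rw [pow_succ, mul_assoc, mul_comm ℓ m, ← mul_assoc, Nat.mul_div_cancel _ hℓ.pos]
      rw [if_pos hd, hdiv, hg.qCoeff_mul_of_coprime _ _ (hcop s),
        hg.qCoeff_prime_pow_of_not_dvd ℓ s hℓ hℓN]
      ring

/-- A normalised eigenform is an eigenvector of the frozen Hecke operator `T_ℓ`, `ℓ ∤ N`. -/
theorem heckeTLin_eq_smul {N : ℕ} {g : CuspForm (Gamma0 N) 2} (hg : g.IsNormalizedEigenform)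
    {ℓ : ℕ} (hℓ : ℓ.Prime) (hℓN : ¬ ℓ ∣ N) :
    CuspForm.heckeTLin 2 hℓ hℓN g = qCoeff ⇑g ℓ • g := by
  rw [← sub_eq_zero]
  apply H78.eq_zero_of_qCoeff
  intro n
  rw [H78.qCoeff_sub, H78.qCoeff_heckeTLin hℓ hℓN, H78.qCoeff_smul, qCoeff_rel hg hℓ hℓN n,
    sub_self]

/-- The period homomorphism of a normalised eigenform is an eigenvector of the Hecke transfer. -/
theorem isHeckeTr_periodMap_eigen {N : ℕ} [NeZero N] {g : CuspForm (Gamma0 N) 2}
    (hg : g.IsNormalizedEigenform) {ℓ : ℕ} (hℓ : ℓ.Prime) (hℓN : ¬ ℓ ∣ N) :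
    IsHeckeTr N ℓ (periodMap N g) (qCoeff ⇑g ℓ • periodMap N g) := by
  have h := isHeckeTr_periodMap hℓ hℓN g
  rw [heckeTLin_eq_smul hg hℓ hℓN] at h
  have e : periodMap N (qCoeff ⇑g ℓ • g) = qCoeff ⇑g ℓ • periodMap N g :=
    (H25.pml N).map_smul (qCoeff ⇑g ℓ) g
  rwa [e] at h

/-- The period homomorphism of a normalised eigenform is nonzero. -/
theorem periodMap_ne_zero {N : ℕ} [NeZero N] {g : CuspForm (Gamma0 N) 2}
    (hg : g.IsNormalizedEigenform) : periodMap N g ≠ 0 := by
  intro h0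
  have hz : periodMap N (0 : CuspForm (Gamma0 N) 2) = 0 := (H25.pml N).map_zero
  have h1 : periodHomPair N (g, 0) = 0 := by
    refine AddMonoidHom.ext fun γ => ?_
    have := H25.periodHomPair_apply N g 0 (Additive.toMul γ)
    rw [h0, hz] at this
    simpa using this
  have h2 : (g, (0 : CuspForm (Gamma0 N) 2)) = 0 :=
    H25.periodHomPair_injective N (h1.trans (map_zero _).symm)
  have hg0 : g = 0 := congrArg Prod.fst h2
  have h3 := hg.qCoeff_one
  rw [hg0, H78.qCoeff_zero_form] at h3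
  exact zero_ne_one h3

/-! ### The determinant (Nakayama) lemma -/

/-- Let `ω` be a nonzero vector with entries in a domain `L ⊇ R` and `φ : R → k` a ring
homomorphism to a field.  Then there is a nonzero `θ ∈ k^d` such that every `R`-linear relation
`∑ c i * ω i = 0` gives `∑ φ (c i) * θ i = 0`. -/
theorem exists_dual_vector_ring {R : Type*} [CommRing R] {k : Type*} [Field k] (φ : R →+* k)
    {L : Type*} [CommRing L] [IsDomain L] (ι : R →+* L) (hι : Function.Injective ι)
    {d : ℕ} (ω : Fin d → L) (hω : ω ≠ 0) :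
    ∃ θ : Fin d → k, θ ≠ 0 ∧
      ∀ c : Fin d → R, ∑ i, ι (c i) * ω i = 0 → ∑ i, φ (c i) * θ i = 0 := by
  classical
  set T : Set (Fin d → k) :=
    {v | ∃ c : Fin d → R, ∑ i, ι (c i) * ω i = 0 ∧ v = fun i => φ (c i)} with hT
  by_cases hS : Submodule.span k T = ⊤
  · exfalso
    obtain ⟨f, hfT, -, hfli⟩ := Submodule.exists_fun_fin_finrank_span_eq k T
    have hn : Module.finrank k (Submodule.span k T) = d := by
      rw [hS, finrank_top, Module.finrank_fin_fun]
    revert f
    rw [hn]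
    intro f hfT hfli
    choose c hc hcf using hfT
    set C : Matrix (Fin d) (Fin d) R := Matrix.of c with hC
    have h1 : (C.map ι).mulVec ω = 0 := by
      funext i
      simp only [Matrix.mulVec, dotProduct, Matrix.map_apply, hC, Matrix.of_apply, Pi.zero_apply]
      exact hc i
    have h2 : (C.map ι).det = 0 := by
      by_contra hne
      exact hω (Matrix.eq_zero_of_mulVec_eq_zero hne h1)
    have h3 : C.det = 0 := by
      apply hι
      rw [map_zero, RingHom.map_det]
      exact h2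
    have h4 : (C.map φ).det = 0 := by
      have := RingHom.map_det φ C
      rw [h3, map_zero] at this
      exact this.symm
    have h5 : LinearIndependent k (C.map φ).row := by
      have : (C.map φ).row = f := by
        funext i
        rw [hcf i]
        rfl
      rw [this]
      exact hfli
    have h6 := (Matrix.linearIndependent_rows_iff_isUnit.mp h5)
    rw [Matrix.isUnit_iff_isUnit_det, h4] at h6
    exact not_isUnit_zero h6
  · obtain ⟨f, hf0, hfmap⟩ := Submodule.exists_dual_map_eq_bot_of_lt_top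
      (lt_top_iff_ne_top.mpr hS) inferInstance
    refine ⟨fun i => f (fun j => if i = j then 1 else 0), ?_, ?_⟩
    · intro h0
      apply hf0
      refine LinearMap.ext fun v => ?_
      rw [LinearMap.pi_apply_eq_sum_univ f v]
      simp only [LinearMap.zero_apply]
      refine Finset.sum_eq_zero fun i _ => ?_
      have := congrFun h0 i
      simp only [Pi.zero_apply] at this
      rw [this, smul_zero]
    · intro c hc
      have hmem : (fun i => φ (c i)) ∈ Submodule.span k T :=
        Submodule.subset_span ⟨c, hc, rfl⟩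
      have h1 : f (fun i => φ (c i)) ∈ (Submodule.span k T).map f := Submodule.mem_map_of_mem hmem
      rw [hfmap, Submodule.mem_bot, LinearMap.pi_apply_eq_sum_univ f] at h1
      simpa [smul_eq_mul] using h1

/-! ### The period lattice in coordinates -/

/-- The period lattice of a cusp form is finitely generated. -/
theorem periodLattice_fg (N : ℕ) [NeZero N] (g : CuspForm (Gamma0 N) 2) :
    (AddSubgroup.toIntSubmodule (periodMap N g).range).FG := by
  obtain ⟨r, γ, hγ⟩ := H16.Gamma0_generators N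
  refine ⟨Finset.univ.image fun i : Fin r => periodMap N g (Additive.ofMul (γ i)), ?_⟩
  apply le_antisymm
  · rw [Submodule.span_le]
    intro y hy
    simp only [Finset.coe_image, Finset.coe_univ, Set.image_univ, Set.mem_range] at hy
    obtain ⟨i, rfl⟩ := hy
    exact ⟨_, rfl⟩
  · rintro y ⟨δ, rfl⟩
    have hδ : Additive.toMul δ ∈ Subgroup.closure (Set.range γ) := by rw [hγ]; trivial
    have key : ∀ ε : Gamma0 N, ε ∈ Subgroup.closure (Set.range γ) →
        periodMap N g (Additive.ofMul ε) ∈ Submodule.span ℤ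
          ((Finset.univ.image fun i : Fin r => periodMap N g (Additive.ofMul (γ i)) :
            Finset ℂ) : Set ℂ) := by
      intro ε hε
      induction hε using Subgroup.closure_induction with
      | mem x hx =>
        obtain ⟨i, rfl⟩ := hx
        apply Submodule.subset_span
        simp
      | one => simp
      | mul x y _ _ hx hy =>
        rw [ofMul_mul, map_add]
        exact Submodule.add_mem _ hx hy
      | inv x _ hx =>
        rw [ofMul_inv, map_neg]
        exact Submodule.neg_mem _ hx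
    exact key _ hδ

/-- **Period coordinates.** For a normalised eigenform `g` the period homomorphism is
`γ ↦ ∑ i, χ i γ * ω i` with `ℤ`-valued parabolic characters `χ i` which are jointly surjective
onto `ℤ^d`; every `a_ℓ` (`ℓ ∤ N`) is an algebraic integer, multiplies the periods `ω` by an integer
matrix `A`, and the Hecke transfer of `χ j` is `∑ i, A j i • χ i`. -/
theorem exists_period_coords (N : ℕ) [NeZero N] {g : CuspForm (Gamma0 N) 2}
    (hg : g.IsNormalizedEigenform) :
    ∃ (d : ℕ) (χ : Fin d → Additive (Gamma0 N) →+ ℤ) (ω : Fin d → ℂ), ω ≠ 0 ∧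
      (∀ γ, periodMap N g γ = ∑ i, (χ i γ : ℂ) * ω i) ∧
      (∀ i, χ i ∈ parabolicHoms ℤ (Gamma0 N) ℤ) ∧
      (∀ c : Fin d → ℤ, ∃ γ, ∀ i, χ i γ = c i) ∧
      ∀ ℓ : ℕ, ℓ.Prime → ¬ ℓ ∣ N → IsIntegral ℤ (qCoeff ⇑g ℓ) ∧
        ∃ A : Matrix (Fin d) (Fin d) ℤ,
          (∀ i, qCoeff ⇑g ℓ * ω i = ∑ j, (A j i : ℂ) * ω j) ∧
          (∀ j, IsHeckeTr N ℓ (χ j) (∑ i, A j i • χ i)) := by
  classical
  set per := periodMap N g with hper
  set P : Submodule ℤ ℂ := AddSubgroup.toIntSubmodule per.range with hP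
  have hPfg : P.FG := periodLattice_fg N g
  have : Module.Finite ℤ P := Module.Finite.iff_fg.mpr hPfg
  have : Module.Free ℤ P := inferInstance
  let b := Module.finBasis ℤ P
  let perP : Additive (Gamma0 N) →+ P := AddMonoidHom.codRestrict per P (fun γ => ⟨γ, rfl⟩)
  have hperP : ∀ γ, ((perP γ : P) : ℂ) = per γ := fun γ => rfl
  let χ : Fin (Module.finrank ℤ P) → Additive (Gamma0 N) →+ ℤ := fun i =>
    ((b.coord i : P →ₗ[ℤ] ℤ).toAddMonoidHom).comp perP
  have hχ : ∀ i γ, χ i γ = b.repr (perP γ) i := fun i γ => rfl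
  let ω : Fin (Module.finrank ℤ P) → ℂ := fun i => ((b i : P) : ℂ)
  have hcoe : ∀ y : P, (y : ℂ) = ∑ i, ((b.repr y i : ℤ) : ℂ) * ω i := by
    intro y
    have h := congrArg (Subtype.val) (b.sum_repr y)
    rw [← h, AddSubmonoidClass.coe_finsetSum]
    refine Finset.sum_congr rfl fun i _ => ?_
    rw [Submodule.coe_smul, zsmul_eq_mul]
  have hsum : ∀ γ, per γ = ∑ i, (χ i γ : ℂ) * ω i := fun γ => hcoe (perP γ)
  refine ⟨Module.finrank ℤ P, χ, ω, ?_, hsum, ?_, ?_, ?_⟩
  · intro hω
    apply periodMap_ne_zero hg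
    refine AddMonoidHom.ext fun γ => ?_
    have := hsum γ
    rw [hω] at this
    simpa using this
  · intro i γ hγ
    have h0 : per (Additive.ofMul γ) = 0 := H23.periodMap_mem_parabolicHoms N g γ hγ
    have h1 : perP (Additive.ofMul γ) = 0 := Subtype.ext h0
    rw [hχ, h1, map_zero]
    rfl
  · intro c
    obtain ⟨γ, hγ⟩ : ∃ γ, per γ = ((∑ i, c i • b i : P) : ℂ) := (∑ i, c i • b i : P).2
    refine ⟨γ, fun i => ?_⟩
    have h1 : perP γ = ∑ i, c i • b i := Subtype.ext hγ
    rw [hχ, h1, b.repr_sum_self]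
  · intro ℓ hℓ hℓN
    set a := qCoeff ⇑g ℓ with ha
    have hrel := isHeckeTr_periodMap_eigen hg hℓ hℓN
    have hrel' : ∀ (γ : Gamma0 N) (σ : Equiv.Perm (Option (Fin ℓ)))
        (g' : Option (Fin ℓ) → Gamma0 N), IsDecomp N ℓ γ σ g' →
        a * per (Additive.ofMul γ) = ∑ x, per (Additive.ofMul (g' x)) := by
      intro γ σ g' hd
      have := hrel γ σ g' hd
      rwa [AddMonoidHom.smul_apply, smul_eq_mul] at this
    have hstab : ∀ y ∈ P, a * y ∈ P := by
      rintro y ⟨γ, rfl⟩
      obtain ⟨σ, g', hd⟩ := exists_isDecomp hℓ hℓN (Additive.toMul γ)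
      have e := hrel' _ σ g' hd
      rw [ofMul_toMul] at e
      rw [e]
      exact P.sum_mem fun x _ => ⟨_, rfl⟩
    have hPne : P ≠ ⊥ := by
      intro hbot
      apply periodMap_ne_zero hg
      refine AddMonoidHom.ext fun γ => ?_
      have : per γ ∈ P := ⟨γ, rfl⟩
      rw [hbot, Submodule.mem_bot] at this
      exact this
    have hint : IsIntegral ℤ a :=
      isIntegral_of_smul_mem_submodule P hPne hPfg a fun y hy => by
        rw [smul_eq_mul]
        exact hstab y hy
    let aω : Fin (Module.finrank ℤ P) → P := fun i => ⟨a * ω i, hstab _ (b i).2⟩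
    refine ⟨hint, Matrix.of fun j i => b.repr (aω i) j, fun i => ?_, fun j γ σ g' hd => ?_⟩
    · exact hcoe (aω i)
    · have e := hrel' γ σ g' hd
      have hP' : ∑ x, perP (Additive.ofMul (g' x)) =
          ∑ i, (χ i (Additive.ofMul γ)) • aω i := by
        apply Subtype.ext
        rw [AddSubmonoidClass.coe_finsetSum, AddSubmonoidClass.coe_finsetSum]
        simp only [hperP, Submodule.coe_smul, zsmul_eq_mul]
        rw [← e, hsum (Additive.ofMul γ), Finset.mul_sum]
        refine Finset.sum_congr rfl fun i _ => ?_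
        show a * ((χ i (Additive.ofMul γ) : ℂ) * ω i) = (χ i (Additive.ofMul γ) : ℂ) * (a * ω i)
        ring
      have h2 := congrArg (fun y : P => b.repr y j) hP'
      simp only [map_sum, map_smul, Finsupp.coe_finsetSum, Finset.sum_apply,
        Finsupp.coe_smul, Pi.smul_apply, smul_eq_mul] at h2
      rw [AddMonoidHom.finsetSum_apply]
      simp only [AddMonoidHom.smul_apply, smul_eq_mul, Matrix.of_apply]
      rw [show (∑ x, χ j (Additive.ofMul (g' x))) = ∑ x, b.repr (perP (Additive.ofMul (g' x))) j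
        from rfl, h2]
      exact Finset.sum_congr rfl fun i _ => mul_comm _ _

/-- **(EIG).** The eigensystem of a normalised weight-2 eigenform `g` on `Γ₀(N)` occurs in
`Hom_par(Γ₀(N), ℤ) ⊗ k` for every ring homomorphism `φ` from the algebraic integers to a field
`k`: there are jointly surjective parabolic characters `χ : Fin d → Hom(Γ₀(N), ℤ)`, a nonzero
`θ ∈ k^d` and, for every prime `ℓ ∤ N`, an integer matrix `A` such that the Hecke transfer of
`χ j` is `∑ i, A j i • χ i` and `Aᵀ θ = φ(a_ℓ) θ`; in particular `a_ℓ` is an algebraic integer. -/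
theorem exists_eigen (N : ℕ) [NeZero N] {g : CuspForm (Gamma0 N) 2}
    (hg : g.IsNormalizedEigenform) {k : Type*} [Field k] (φ : integralClosure ℤ ℂ →+* k) :
    ∃ (d : ℕ) (χ : Fin d → Additive (Gamma0 N) →+ ℤ) (θ : Fin d → k),
      (∀ i, χ i ∈ parabolicHoms ℤ (Gamma0 N) ℤ) ∧
      (∀ c : Fin d → ℤ, ∃ γ, ∀ i, χ i γ = c i) ∧ θ ≠ 0 ∧
      ∀ ℓ : ℕ, ℓ.Prime → ¬ ℓ ∣ N → ∃ a : integralClosure ℤ ℂ, (a : ℂ) = qCoeff ⇑g ℓ ∧
        ∃ A : Matrix (Fin d) (Fin d) ℤ,
          (∀ j, IsHeckeTr N ℓ (χ j) (∑ i, A j i • χ i)) ∧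
          (∀ i, ∑ j, (A j i : k) * θ j = φ a * θ i) := by
  obtain ⟨d, χ, ω, hω, -, hpar, hsurj, hH⟩ := exists_period_coords N hg
  obtain ⟨θ, hθ, hθrel⟩ := exists_dual_vector_ring φ (algebraMap (integralClosure ℤ ℂ) ℂ)
    Subtype.val_injective ω hω
  refine ⟨d, χ, θ, hpar, hsurj, hθ, fun ℓ hℓ hℓN => ?_⟩
  obtain ⟨hint, A, hA, hTr⟩ := hH ℓ hℓ hℓN
  refine ⟨⟨qCoeff ⇑g ℓ, hint⟩, rfl, A, hTr, fun i => ?_⟩
  classical
  set aZ : integralClosure ℤ ℂ := ⟨qCoeff ⇑g ℓ, hint⟩ with haZ
  have hrelc : ∑ j, (algebraMap (integralClosure ℤ ℂ) ℂ)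
      ((A j i : integralClosure ℤ ℂ) - if j = i then aZ else 0) * ω j = 0 := by
    have e1 : ∀ j, (algebraMap (integralClosure ℤ ℂ) ℂ)
        ((A j i : integralClosure ℤ ℂ) - if j = i then aZ else 0) * ω j
          = (A j i : ℂ) * ω j - (if j = i then qCoeff ⇑g ℓ * ω j else 0) := by
      intro j
      split_ifs with hji
      · rw [map_sub, map_intCast, sub_mul]
        rfl
      · rw [sub_zero, map_intCast, sub_zero]
    simp only [e1, Finset.sum_sub_distrib, Finset.sum_ite_eq', Finset.mem_univ, if_true]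
    rw [← hA i, sub_self]
  have h := hθrel _ hrelc
  have e2 : ∀ j, φ ((A j i : integralClosure ℤ ℂ) - if j = i then aZ else 0) * θ j
      = (A j i : k) * θ j - (if j = i then φ aZ * θ j else 0) := by
    intro j
    split_ifs with hji
    · rw [map_sub, map_intCast, sub_mul]
    · rw [sub_zero, map_intCast, sub_zero]
  simp only [e2, Finset.sum_sub_distrib, Finset.sum_ite_eq', Finset.mem_univ, if_true] at h
  exact sub_eq_zero.mp h

end Fermat.Agent.S29.H06
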