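import Mathlib
import Fermat.Agent.S37.Rat_helper5

/-!
# S29 leaf (FL) (helper32): the arithmetic Galois action on `J₀(L)` has finite level

Every place of `Fbar_L = modularFunctionFieldBar L`, every divisor and every class of
`JZero L = Pic0 Qbar Fbar_L` is fixed by `Gal(Qbar / K0)` for a NUMBER FIELD `K0`
(a finite-index stabiliser in `Gal(Qbar/ℚ)` need not be open, so this is not formal).

The proof is the stabiliser argument of the landed `S37.H05.exists_rational_one`
(a uniformiser at the place + finitely many separating functions, all defined over a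
number field).
-/

set_option autoImplicit false

open ModularCurve AlgebraicCurve IntermediateField
open scoped Pointwise

namespace Fermat.Agent.S29.H32

noncomputable section

open Fermat.Agent.S37.H05 (Qb gal)

variable (L : ℕ) [NeZero L]

/-- **(FL-place)**: a place of `Fbar_L` is fixed by every `σ` fixing a suitable finite set of
algebraic numbers. -/
theorem exists_finset_stab_place (w : Place Qb ↥(modularFunctionFieldBar L)) :
    ∃ C : Finset Qb, ∀ σ : Qb ≃ₐ[ℚ] Qb, (∀ c ∈ C, σ c = c) → gal L σ • w = w := by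
  classical
  obtain ⟨τ, hτ⟩ := S24.H92.exists_ord_eq_one w
  have hZfin := S18.H98.finite_ord_ne_zero L τ
  have hsep : ∀ P : Place Qb ↥(modularFunctionFieldBar L), ∃ y : ↥(modularFunctionFieldBar L),
      P ≠ w → y ∈ w.toValuationSubring ∧ y ∉ P.toValuationSubring := by
    intro P
    by_cases hP : P = w
    · exact ⟨0, fun h => absurd hP h⟩
    · have hnle : ¬ w.toValuationSubring ≤ P.toValuationSubring := fun hle =>
        hP (S24.H92.eq_of_le hle).symm
      obtain ⟨y, hy1, hy2⟩ := SetLike.not_le_iff_exists.mp hnle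
      exact ⟨y, fun _ => ⟨hy1, hy2⟩⟩
  choose ysep hysep using hsep
  obtain ⟨Cτ, hCτ⟩ := S37.H05.exists_finset_defOver L τ.2
  choose Cy hCy using fun P : Place Qb ↥(modularFunctionFieldBar L) =>
    S37.H05.exists_finset_defOver L (ysep P).2
  refine ⟨Cτ ∪ hZfin.toFinset.biUnion Cy, fun σ hσ => ?_⟩
  -- the fixed field of `σ`
  let K0 : IntermediateField ℚ Qb :=
    { carrier := {x | σ x = x}
      mul_mem' := fun {a b} ha hb => by
        show σ (a * b) = a * b
        rw [map_mul, ha, hb]
      one_mem' := map_one σ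
      add_mem' := fun {a b} ha hb => by
        show σ (a + b) = a + b
        rw [map_add, ha, hb]
      zero_mem' := map_zero σ
      algebraMap_mem' := fun r => σ.commutes r
      inv_mem' := fun a ha => by
        show σ a⁻¹ = a⁻¹
        rw [map_inv₀, ha] }
  have hK0 : ∀ c ∈ Cτ ∪ hZfin.toFinset.biUnion Cy, c ∈ K0 := fun c hc => hσ c hc
  have hσ' : ∀ x ∈ K0, σ x = x := fun x hx => hx
  have hτdef : S18.H61.DefOver K0 L (τ : LaurentSeries Qb) :=
    hCτ K0 fun c hc => hK0 c (Finset.mem_union_left _ hc)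
  have hydef : ∀ P : Place Qb ↥(modularFunctionFieldBar L), P.ord τ ≠ 0 →
      S18.H61.DefOver K0 L (ysep P : LaurentSeries Qb) := fun P hP =>
    hCy P K0 fun c hc => hK0 c (Finset.mem_union_right _
      (Finset.mem_biUnion.mpr ⟨P, hZfin.mem_toFinset.mpr hP, hc⟩))
  by_contra hne
  have h1 : (gal L σ • w).ord τ ≠ 0 := by
    have h2 := SemilinearAut.ord_smul (gal L σ) w τ
    rw [S37.H05.gal_smul_of_defOver L σ hσ' τ hτdef, hτ] at h2
    rw [h2]; exact one_ne_zero
  obtain ⟨hy1, hy2⟩ := hysep _ hne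
  apply hy2
  have h3 := (S37.H05.smul_mem_smul_place_iff (gal L σ) w (ysep (gal L σ • w))).mpr hy1
  rwa [S37.H05.gal_smul_of_defOver L σ hσ' _ (hydef _ h1)] at h3

/-- **(FL-div)**: a divisor of `Fbar_L` is fixed by every `σ` fixing a suitable finite set. -/
theorem exists_finset_stab_divisor (D : Divisor Qb ↥(modularFunctionFieldBar L)) :
    ∃ C : Finset Qb, ∀ σ : Qb ≃ₐ[ℚ] Qb, (∀ c ∈ C, σ c = c) → gal L σ • D = D := by
  classical
  choose Cw hCw using exists_finset_stab_place L
  refine ⟨D.support.biUnion Cw, fun σ hσ => ?_⟩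
  rw [SemilinearAut.divisor_smul_def]
  have h : ∀ w ∈ D.support, (gal L σ • w : Place Qb ↥(modularFunctionFieldBar L)) = id w :=
    fun w hw => hCw w σ fun c hc => hσ c (Finset.mem_biUnion.mpr ⟨w, hw, hc⟩)
  rw [Finsupp.mapDomain_congr h, Finsupp.mapDomain_id]

/-- **(FL-pic)**: a class of `JZero L` is fixed by every `σ` fixing a suitable finite set. -/
theorem exists_finset_stab_jZero (x : JZero L) :
    ∃ C : Finset Qb, ∀ σ : Qb ≃ₐ[ℚ] Qb, (∀ c ∈ C, σ c = c) → σ • x = x := by
  obtain ⟨D, rfl⟩ := Pic0.mk_surjective x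
  obtain ⟨C, hC⟩ := exists_finset_stab_divisor L (D : Divisor Qb ↥(modularFunctionFieldBar L))
  refine ⟨C, fun σ hσ => ?_⟩
  rw [galois_smul_pic0_def, SemilinearAut.pic0_smul_mk]
  exact congrArg Pic0.mk (Subtype.ext (hC σ hσ))

/-- a finite set of algebraic numbers generates a number field -/
theorem finiteDimensional_adjoin_finset (C : Finset Qb) :
    FiniteDimensional ℚ ↥(IntermediateField.adjoin ℚ (C : Set Qb)) :=
  have halg : Algebra.IsAlgebraic ℚ Qb := by
    have h : (DivisionRing.toRatAlgebra : Algebra ℚ Qb) =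
        AlgebraicClosure.instAlgebra ℚ := Subsingleton.elim _ _
    rw [h]
    infer_instance
  IntermediateField.finiteDimensional_adjoin fun x _ =>
    (Algebra.IsAlgebraic.isAlgebraic (R := ℚ) x).isIntegral

/-- **(FL)**, number-field form: every class of `JZero L` is fixed by `Gal(Qbar / K0)` for a
number field `K0`. -/
theorem exists_numberField_stab_jZero (x : JZero L) :
    ∃ K0 : IntermediateField ℚ Qb, FiniteDimensional ℚ K0 ∧
      ∀ σ : Qb ≃ₐ[ℚ] Qb, (∀ c ∈ K0, σ c = c) → σ • x = x := by
  obtain ⟨C, hC⟩ := exists_finset_stab_jZero L x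
  exact ⟨IntermediateField.adjoin ℚ (C : Set Qb), finiteDimensional_adjoin_finset C,
    fun σ hσ => hC σ fun c hc => hσ c (IntermediateField.subset_adjoin ℚ _ hc)⟩

/-- **(FL)** for finitely many classes at once. -/
theorem exists_numberField_stab_finset (T : Finset (JZero L)) :
    ∃ K0 : IntermediateField ℚ Qb, FiniteDimensional ℚ K0 ∧
      ∀ σ : Qb ≃ₐ[ℚ] Qb, (∀ c ∈ K0, σ c = c) → ∀ x ∈ T, σ • x = x := by
  classical
  choose C hC using exists_finset_stab_jZero L
  exact ⟨IntermediateField.adjoin ℚ ((T.biUnion C : Finset Qb) : Set Qb),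
    finiteDimensional_adjoin_finset _, fun σ hσ x hx => hC x σ fun c hc =>
      hσ c (IntermediateField.subset_adjoin ℚ _ (Finset.mem_coe.mpr
        (Finset.mem_biUnion.mpr ⟨x, hx, hc⟩)))⟩

/-- **(FL)** for a finite subgroup-like family: if the `p`-torsion (any finite set `S` of
classes) is finite, the whole set is fixed pointwise by `Gal(Qbar / K0)`. -/
theorem exists_numberField_stab_of_finite (S : Set (JZero L)) (hS : S.Finite) :
    ∃ K0 : IntermediateField ℚ Qb, FiniteDimensional ℚ K0 ∧
      ∀ σ : Qb ≃ₐ[ℚ] Qb, (∀ c ∈ K0, σ c = c) → ∀ x ∈ S, σ • x = x := by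
  obtain ⟨K0, h1, h2⟩ := exists_numberField_stab_finset L hS.toFinset
  exact ⟨K0, h1, fun σ hσ x hx => h2 σ hσ x (hS.mem_toFinset.mpr hx)⟩

end

end Fermat.Agent.S29.H32
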