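/-
S29, node (FD) "Frobenius power" (helper86), part 2: the analytic input.

For a number field `F` let `mass F s P = ∑_{ℓ ∈ P} ℓ^(-s) * #{degree-one primes of F above ℓ}`.
From the landed S14 density statements (`StmtD3`, and the zeta bounds of `SplitPrimes_helper61`)
`mass F s P = log (1/(s-1)) + O(1)` for all large finite sets `P` (`mass_bounds`), and hence
an integer combination of the counting functions with total weight `≥ 1` cannot vanish at all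
primes outside a finite set (`exists_prime_sum_ne_zero`).
-/
import Mathlib
import Fermat.Agent.S14.D3_helper56
import Fermat.Agent.S14.AN1_helper1
import Fermat.Agent.S14.Euler_helper19
import Fermat.Agent.S14.SplitPrimes_helper61
import Fermat.Agent.S29.FrobCount_helper86

set_option autoImplicit false

open NumberField Ideal
open scoped nonZeroDivisors

namespace Fermat.Agent.S29.H86

section Mass

variable (F : Type*) [Field F] [NumberField F]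

/-- the mass of the degree-one primes above the numbers of `P`. -/
noncomputable def mass (s : ℝ) (P : Finset ℕ) : ℝ :=
  ∑ ℓ ∈ P, (ℓ : ℝ) ^ (-s) * ((degOne F ℓ).card : ℝ)

variable {F}

theorem prime_of_mem_degOne {ℓ : ℕ} {𝔮 : Ideal (𝓞 F)} (h : 𝔮 ∈ degOne F ℓ) : ℓ.Prime := by
  by_contra hℓ
  rw [degOne, primesAbove, dif_neg hℓ] at h
  simp at h

theorem absNorm_of_mem_degOne {ℓ : ℕ} {𝔮 : Ideal (𝓞 F)} (h : 𝔮 ∈ degOne F ℓ) :
    absNorm 𝔮 = ℓ := by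
  rw [degOne, Finset.mem_filter] at h
  exact h.2

theorem mass_eq_sum [DecidableEq (Ideal (𝓞 F))] (s : ℝ) (P : Finset ℕ) :
    mass F s P = ∑ 𝔮 ∈ P.biUnion (degOne F), (absNorm 𝔮 : ℝ) ^ (-s) := by
  rw [Finset.sum_biUnion]
  · refine Finset.sum_congr rfl fun ℓ _ => ?_
    have h1 : ∑ 𝔮 ∈ degOne F ℓ, (absNorm 𝔮 : ℝ) ^ (-s) = ∑ 𝔮 ∈ degOne F ℓ, (ℓ : ℝ) ^ (-s) :=
      Finset.sum_congr rfl fun 𝔮 h𝔮 => by rw [absNorm_of_mem_degOne h𝔮]
    rw [h1, Finset.sum_const, nsmul_eq_mul, mul_comm]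
  · intro ℓ _ ℓ' _ hne
    exact Finset.disjoint_left.mpr fun 𝔮 h1 h2 =>
      hne ((absNorm_of_mem_degOne h1).symm.trans (absNorm_of_mem_degOne h2))

variable (F)

/-- upper bound for the mass (finite Euler product against the residue of the zeta function). -/
theorem mass_le : ∃ C : ℝ, ∀ s : ℝ, 1 < s → s < 2 → ∀ P : Finset ℕ,
    mass F s P ≤ Real.log (1 / (s - 1)) + C := by
  classical
  obtain ⟨C, hC⟩ := Fermat.Agent.S14.H61.log_zetaR_le F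
  refine ⟨C, fun s hs1 hs2 P => ?_⟩
  rw [mass_eq_sum]
  refine (Fermat.Agent.S14.H61.sum_le_log_zetaR F hs1 _ ?_).trans (hC s hs1 hs2)
  intro 𝔮 h𝔮
  rw [Finset.mem_biUnion] at h𝔮
  obtain ⟨ℓ, _, h𝔮⟩ := h𝔮
  have hℓ := prime_of_mem_degOne h𝔮
  have h := (mem_degOne hℓ).mp h𝔮
  refine ⟨h.1, ?_⟩
  intro hbot
  have h2 := h.2.2
  rw [hbot, Ideal.absNorm_bot] at h2
  exact hℓ.ne_zero h2.symm

variable {F}

/-- removing finitely many primes costs a bounded amount of mass. -/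
theorem mass_sdiff_ge (s : ℝ) (hs : 0 < s) (P S₁ : Finset ℕ) :
    mass F s P - ∑ ℓ ∈ S₁, ((degOne F ℓ).card : ℝ) ≤ mass F s (P \ S₁) := by
  classical
  have h1 : mass F s P = mass F s (P \ S₁) + mass F s (P ∩ S₁) := by
    unfold mass
    rw [← Finset.sum_sdiff (Finset.inter_subset_left : P ∩ S₁ ⊆ P), Finset.sdiff_inter_self_left]
  have h2 : mass F s (P ∩ S₁) ≤ ∑ ℓ ∈ S₁, ((degOne F ℓ).card : ℝ) := by
    unfold mass
    calc ∑ ℓ ∈ P ∩ S₁, (ℓ : ℝ) ^ (-s) * ((degOne F ℓ).card : ℝ)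
        ≤ ∑ ℓ ∈ P ∩ S₁, ((degOne F ℓ).card : ℝ) := by
          refine Finset.sum_le_sum fun ℓ _ => ?_
          refine mul_le_of_le_one_left (Nat.cast_nonneg _) ?_
          rcases Nat.eq_zero_or_pos ℓ with rfl | hpos
          · rw [Nat.cast_zero, Real.zero_rpow (by linarith)]
            exact zero_le_one
          · exact Real.rpow_le_one_of_one_le_of_nonpos (by exact_mod_cast hpos) (by linarith)
      _ ≤ ∑ ℓ ∈ S₁, ((degOne F ℓ).card : ℝ) :=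
          Finset.sum_le_sum_of_subset_of_nonneg Finset.inter_subset_right
            (fun _ _ _ => Nat.cast_nonneg _)
  linarith

end Mass

/-- lower bound for the mass: the degree-one primes carry all the mass (S14, `StmtD3`). -/
theorem le_mass (F : Type) [Field F] [NumberField F] :
    ∃ C : ℝ, ∀ s ∈ Set.Ioo (1 : ℝ) 2, ∃ P₀ : Finset ℕ, ∀ P : Finset ℕ, P₀ ⊆ P →
      Real.log (1 / (s - 1)) - C ≤ mass F s P := by
  classical
  have hD3 : Fermat.Agent.S14.StmtD3 :=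
    Fermat.Agent.S14.H56.d3_of' Fermat.Agent.S14.H01.an1a Fermat.Agent.S14.H01.an1b
      (Fermat.Agent.S14.H19.euler_limit Fermat.Agent.S14.H01.an1a)
  obtain ⟨C, hC⟩ := hD3 F 0
  refine ⟨C, fun s hs => ?_⟩
  obtain ⟨T, hT, hle⟩ := hC s hs
  refine ⟨T.image (fun 𝔩 : (Ideal (𝓞 F))⁰ => absNorm 𝔩.1), fun P hP => ?_⟩
  rw [mass_eq_sum]
  refine hle.trans ?_
  have h1 : ∑ 𝔩 ∈ T, (absNorm (𝔩 : Ideal (𝓞 F)) : ℝ) ^ (-s) =
      ∑ 𝔮 ∈ T.image (fun 𝔩 : (Ideal (𝓞 F))⁰ => 𝔩.1), (absNorm 𝔮 : ℝ) ^ (-s) := by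
    rw [Finset.sum_image]
    intro a _ b _ hab
    exact Subtype.ext hab
  rw [h1]
  refine Finset.sum_le_sum_of_subset_of_nonneg ?_
    (fun 𝔮 _ _ => Real.rpow_nonneg (Nat.cast_nonneg _) _)
  intro 𝔮 h𝔮
  rw [Finset.mem_image] at h𝔮
  obtain ⟨𝔩, h𝔩, rfl⟩ := h𝔮
  obtain ⟨hp, hprime, -⟩ := hT 𝔩 h𝔩
  rw [Finset.mem_biUnion]
  refine ⟨absNorm 𝔩.1, hP (Finset.mem_image_of_mem _ h𝔩), ?_⟩
  rw [mem_degOne hprime]
  exact ⟨hp, Ideal.absNorm_mem _, rfl⟩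

/-- two-sided bound for the mass outside a finite set `S₁` of primes. -/
theorem mass_bounds (F : Type) [Field F] [NumberField F] (S₁ : Finset ℕ) :
    ∃ E : ℝ, ∀ s ∈ Set.Ioo (1 : ℝ) 2, ∃ P₀ : Finset ℕ, ∀ P : Finset ℕ, P₀ ⊆ P →
      |mass F s (P \ S₁) - Real.log (1 / (s - 1))| ≤ E := by
  obtain ⟨C₁, h₁⟩ := mass_le F
  obtain ⟨C₂, h₂⟩ := le_mass F
  refine ⟨max C₁ (C₂ + ∑ ℓ ∈ S₁, ((degOne F ℓ).card : ℝ)), fun s hs => ?_⟩
  obtain ⟨P₀, hP₀⟩ := h₂ s hs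
  refine ⟨P₀, fun P hP => ?_⟩
  have hup := h₁ s hs.1 hs.2 (P \ S₁)
  have hlo := hP₀ P hP
  have hrm := mass_sdiff_ge (F := F) s (by linarith [hs.1]) P S₁
  rw [abs_le]
  constructor
  · have := le_max_right C₁ (C₂ + ∑ ℓ ∈ S₁, ((degOne F ℓ).card : ℝ))
    linarith
  · have := le_max_left C₁ (C₂ + ∑ ℓ ∈ S₁, ((degOne F ℓ).card : ℝ))
    linarith

/-- **the analytic input of (FD)**: an integer combination, of total weight `≥ 1`, of the
functions `ℓ ↦ #{degree-one primes of F i above ℓ}` does not vanish at all primes outside a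
finite set. -/
theorem exists_prime_sum_ne_zero {ι : Type*} (D : Finset ι) (F : ι → Type) [∀ i, Field (F i)]
    [∀ i, NumberField (F i)] (w : ι → ℤ) (hw : 1 ≤ ∑ i ∈ D, w i) (S₁ : Finset ℕ) :
    ∃ ℓ : ℕ, ℓ.Prime ∧ ℓ ∉ S₁ ∧ ∑ i ∈ D, w i * ((degOne (F i) ℓ).card : ℤ) ≠ 0 := by
  classical
  by_contra hcon
  have hZ : ∀ ℓ : ℕ, ℓ ∉ S₁ → ∑ i ∈ D, w i * ((degOne (F i) ℓ).card : ℤ) = 0 := by
    intro ℓ hℓS
    by_cases hℓ : ℓ.Prime
    · by_contra hne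
      exact hcon ⟨ℓ, hℓ, hℓS, hne⟩
    · refine Finset.sum_eq_zero fun i _ => ?_
      have : degOne (F i) ℓ = ∅ := by
        rw [Finset.eq_empty_iff_forall_notMem]
        intro 𝔮 h𝔮
        exact hℓ (prime_of_mem_degOne h𝔮)
      rw [this, Finset.card_empty, Nat.cast_zero, mul_zero]
  have hE : ∀ i, ∃ E : ℝ, ∀ s ∈ Set.Ioo (1 : ℝ) 2, ∃ P₀ : Finset ℕ, ∀ P : Finset ℕ, P₀ ⊆ P →
      |mass (F i) s (P \ S₁) - Real.log (1 / (s - 1))| ≤ E := fun i => mass_bounds (F i) S₁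
  choose E hE using hE
  obtain ⟨K, hK⟩ : ∃ K : ℝ, K = ∑ i ∈ D, |(w i : ℝ)| * E i := ⟨_, rfl⟩
  obtain ⟨s, hs⟩ : ∃ s : ℝ, s = 1 + Real.exp (-(|K| + 1)) := ⟨_, rfl⟩
  have hs_mem : s ∈ Set.Ioo (1 : ℝ) 2 := by
    constructor
    · have := Real.exp_pos (-(|K| + 1))
      linarith
    · have : Real.exp (-(|K| + 1)) < 1 := by
        rw [Real.exp_lt_one_iff]
        have := abs_nonneg K
        linarith
      linarith
  have hX : Real.log (1 / (s - 1)) = |K| + 1 := by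
    rw [hs, add_sub_cancel_left, one_div, ← Real.exp_neg, neg_neg, Real.log_exp]
  have hP : ∀ i, ∃ P₀ : Finset ℕ, ∀ P : Finset ℕ, P₀ ⊆ P →
      |mass (F i) s (P \ S₁) - Real.log (1 / (s - 1))| ≤ E i := fun i => hE i s hs_mem
  choose P₀ hP₀ using hP
  have hb : ∀ i ∈ D, |mass (F i) s (D.biUnion P₀ \ S₁) - (|K| + 1)| ≤ E i := by
    intro i hi
    rw [← hX]
    exact hP₀ i _ (Finset.subset_biUnion_of_mem P₀ hi)
  -- the weighted sum of the masses vanishes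
  have hzero : ∑ i ∈ D, (w i : ℝ) * mass (F i) s (D.biUnion P₀ \ S₁) = 0 := by
    unfold mass
    simp_rw [Finset.mul_sum]
    rw [Finset.sum_comm]
    refine Finset.sum_eq_zero fun ℓ hℓ => ?_
    have hℓS : ℓ ∉ S₁ := (Finset.mem_sdiff.mp hℓ).2
    have h1 : ∑ i ∈ D, (w i : ℝ) * ((ℓ : ℝ) ^ (-s) * ((degOne (F i) ℓ).card : ℝ)) =
        (ℓ : ℝ) ^ (-s) * ((∑ i ∈ D, w i * ((degOne (F i) ℓ).card : ℤ) : ℤ) : ℝ) := by
      push_cast
      rw [Finset.mul_sum]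
      refine Finset.sum_congr rfl fun i _ => ?_
      ring
    rw [h1, hZ ℓ hℓS, Int.cast_zero, mul_zero]
  -- but it is at least `(|K| + 1) * ∑ w - K`
  have h2 : ∑ i ∈ D, (w i : ℝ) * mass (F i) s (D.biUnion P₀ \ S₁) =
      (|K| + 1) * ((∑ i ∈ D, w i : ℤ) : ℝ) +
        ∑ i ∈ D, (w i : ℝ) * (mass (F i) s (D.biUnion P₀ \ S₁) - (|K| + 1)) := by
    push_cast
    rw [Finset.mul_sum, ← Finset.sum_add_distrib]
    refine Finset.sum_congr rfl fun i _ => ?_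
    ring
  have h3 : -K ≤ ∑ i ∈ D, (w i : ℝ) * (mass (F i) s (D.biUnion P₀ \ S₁) - (|K| + 1)) := by
    have h3' : ∑ i ∈ D, -(|(w i : ℝ)| * E i) ≤
        ∑ i ∈ D, (w i : ℝ) * (mass (F i) s (D.biUnion P₀ \ S₁) - (|K| + 1)) := by
      refine Finset.sum_le_sum fun i hi => ?_
      have h4 := hb i hi
      have h5 : |(w i : ℝ) * (mass (F i) s (D.biUnion P₀ \ S₁) - (|K| + 1))| ≤
          |(w i : ℝ)| * E i := by
        rw [abs_mul]
        exact mul_le_mul_of_nonneg_left h4 (abs_nonneg _)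
      exact (abs_le.mp h5).1
    rw [Finset.sum_neg_distrib, ← hK] at h3'
    exact h3'
  have hW : (1 : ℝ) ≤ ((∑ i ∈ D, w i : ℤ) : ℝ) := by exact_mod_cast hw
  have h6 : (|K| + 1) * 1 ≤ (|K| + 1) * ((∑ i ∈ D, w i : ℤ) : ℝ) :=
    mul_le_mul_of_nonneg_left hW (by positivity)
  have h7 := le_abs_self K
  linarith

end Fermat.Agent.S29.H86
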