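/-
(K0) for S29 (helper46): the literal interface statement `H27.K0Red` of `Stmts_helper27`
(reduction of the frozen S29 to algebraically closed coefficient fields), from the landed
`K0_helper46`.
-/
import Fermat.Agent.S29.Stmts_helper27
import Fermat.Agent.S29.K0_helper46

set_option autoImplicit false

namespace Fermat.Agent.S29.H46

/-- The interface statement (K0) of `Stmts_helper27`. -/
theorem k0Red : Fermat.Agent.S29.H27.K0Red := by
  intro N g p hp k _ _ φ H
  exact s29_of_algClosed hp (fun κ _ _ _ ψ _ => H κ ψ) φ

end Fermat.Agent.S29.H46
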