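/-
helper29, S29/S42 tree, node (HK)(iv): cross-level comparison of Kummer characters.

`kumChar_eq_of_fun_data` : the Kummer character of `x = a₁ / b₁ ∈ kumGroup V m` can be read off
from ANY root datum `R ^ m = A * B ^ (m - 1)` with `a₁ * B = A * b₁` on `ℍ`, where `A, B, R` are
plain functions on `ℍ` (of any level, e.g. products over Hecke coset representatives).
-/
import Mathlib
import Fermat.Agent.S29.KumChar_helper29
import Fermat.Agent.S24.ValFn_helper90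

set_option autoImplicit false

open Complex Set Filter Topology
open UpperHalfPlane hiding I
open CongruenceSubgroup
open scoped MatrixGroups Manifold Real
open Fermat.Agent.S24 Fermat.Agent.S24.H31

namespace Fermat.Agent.S29.H29

variable {N : ℕ}

/-- SPEC of `kumChar` for a GIVEN representation `x = a / b`. -/
theorem exists_isKumData_of_rep [NeZero N] (V : ValSpec N) {m : ℕ} (hm : m ≠ 0)
    (x : kumGroup V m) {a b : RN N} (hb : b ≠ 0)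
    (hx : (((x : (L N)ˣ) : L N)) = algebraMap (RN N) (L N) a / algebraMap (RN N) (L N) b) :
    ∃ r : ℍ → ℂ, IsKumData (((x : (L N)ˣ) : L N)) m a b r (kumChar V hm x) := by
  have hx0 : (((x : (L N)ˣ) : L N)) ≠ 0 := Units.ne_zero _
  have ha : a ≠ 0 := by
    rintro rfl
    apply hx0
    rw [hx, map_zero, zero_div]
  obtain ⟨r, hr, hpow⟩ := exists_mdiff_pow_eq_mul hm a.2.mdiff b.2.mdiff
    (coe_ne_zero_RN ha) (coe_ne_zero_RN hb) (fun z => by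
      rw [← ord_algebraMap_eq V ha z, ← ord_algebraMap_eq V hb z,
        ← ZVal.ord_div _ (algebraMap_RN_ne_zero ha) (algebraMap_RN_ne_zero hb), ← hx]
      exact x.2.2 z)
  have hcross : ∀ γ ∈ Gamma0 N, ∀ z : ℍ,
      (a : ℍ → ℂ) (γ • z) * (b : ℍ → ℂ) z = (a : ℍ → ℂ) z * (b : ℍ → ℂ) (γ • z) := by
    intro γ hγ z
    have h1 := x.2.1 γ⁻¹ (inv_mem hγ)
    rw [hx] at h1
    exact cross_of_smul_eq hb h1 z
  have hr0 : r ≠ 0 := by
    intro hr0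
    have h0 : a * b ^ (m - 1) = 0 := by
      apply Subtype.ext
      funext z
      have := hpow z
      rw [hr0, Pi.zero_apply, zero_pow hm] at this
      simpa using this.symm
    rcases mul_eq_zero.mp h0 with h1 | h1
    · exact ha h1
    · exact hb (eq_zero_of_pow_eq_zero h1)
  obtain ⟨χ, -, hχ2⟩ := exists_character_of_ratio hm b.2.mdiff hr (coe_ne_zero_RN hb) hr0
    hpow (Gamma0 N) hcross
  have hdata : IsKumData (((x : (L N)ˣ) : L N)) m a b r χ := ⟨hb, hx, hr, hpow, hχ2⟩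
  refine ⟨r, ?_⟩
  rw [kumChar_eq_of_isKumData V hm x hdata]
  exact hdata

/-- (HK)(iv) **Cross-level comparison.** If `x = a₁ / b₁ ∈ kumGroup V m` and `A, B, R` are
functions on `ℍ` (`B, R` holomorphic, `B ≢ 0`) with `a₁ * B = A * b₁`, `R ^ m = A * B ^ (m - 1)`
and `R (γ z) * B z = c γ * (R z * B (γ z))` for `γ ∈ Γ₀(N)`, then `kumChar x γ = c γ`. -/
theorem kumChar_eq_of_fun_data [NeZero N] (V : ValSpec N) {m : ℕ} (hm : m ≠ 0)
    (x : kumGroup V m) {a₁ b₁ : RN N} (hb₁ : b₁ ≠ 0)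
    (hx : (((x : (L N)ˣ) : L N)) = algebraMap (RN N) (L N) a₁ / algebraMap (RN N) (L N) b₁)
    {A B R : ℍ → ℂ} (hB : MDiff B) (hR : MDiff R) (hB0 : B ≠ 0)
    (hcross : ∀ z : ℍ, (a₁ : ℍ → ℂ) z * B z = A z * (b₁ : ℍ → ℂ) z)
    (hpow : ∀ z : ℍ, R z ^ m = A z * B z ^ (m - 1))
    {c : Gamma0 N → ℂ}
    (hc : ∀ (γ : Gamma0 N) (z : ℍ), R ((γ : SL(2, ℤ)) • z) * B z
      = c γ * (R z * B ((γ : SL(2, ℤ)) • z)))
    (γ : Gamma0 N) : (kumChar V hm x γ : ℂ) = c γ := by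
  have hx0 : (((x : (L N)ˣ) : L N)) ≠ 0 := Units.ne_zero _
  have hp1 : m - 1 + 1 = m := Nat.sub_add_cancel (Nat.one_le_iff_ne_zero.mpr hm)
  obtain ⟨r₁, hdata⟩ := exists_isKumData_of_rep V hm x hb₁ hx
  have ha₁ := hdata.a_ne_zero hx0
  have hr₁0 := hdata.r_ne_zero hm hx0
  obtain ⟨-, -, hr₁, hpow₁, hχ⟩ := hdata
  have hbm : MDiff (b₁ : ℍ → ℂ) := b₁.2.mdiff
  have hb0 := coe_ne_zero_RN hb₁
  have ha0 := coe_ne_zero_RN ha₁
  -- `R ≢ 0`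
  have hR0 : R ≠ 0 := by
    intro hR0
    -- then `a₁ * B ^ m = 0`
    have h1 : (fun z : ℍ => (a₁ : ℍ → ℂ) z * B z ^ m) = 0 := by
      funext z
      have h2 := hpow z
      rw [hR0, Pi.zero_apply, zero_pow hm] at h2
      have h3 : (a₁ : ℍ → ℂ) z * B z ^ m = (A z * B z ^ (m - 1)) * (b₁ : ℍ → ℂ) z := by
        conv_lhs => rw [← hp1, pow_succ]
        have := hcross z
        calc (a₁ : ℍ → ℂ) z * (B z ^ (m - 1) * B z)
            = ((a₁ : ℍ → ℂ) z * B z) * B z ^ (m - 1) := by ring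
          _ = (A z * (b₁ : ℍ → ℂ) z) * B z ^ (m - 1) := by rw [this]
          _ = _ := by ring
      rw [h3, ← h2, zero_mul]
      rfl
    exact mul_ne_zero_uhp a₁.2.mdiff (hB.pow m) ha0 (pow_ne_zero m hB0) h1
  -- the two roots differ by a root of unity
  obtain ⟨ζ, hζ1, hζ2⟩ := exists_root_of_unity_of_pow_eq_uhp
    (g := fun z => r₁ z * B z) (h := fun z => R z * (b₁ : ℍ → ℂ) z) hm
    (hr₁.mul hB) (hR.mul hbm) (fun z => by
      simp only [mul_pow, hpow₁, hpow]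
      have hcz := hcross z
      calc (a₁ : ℍ → ℂ) z * (b₁ : ℍ → ℂ) z ^ (m - 1) * B z ^ m
          = ((a₁ : ℍ → ℂ) z * B z) * (b₁ : ℍ → ℂ) z ^ (m - 1) * B z ^ (m - 1) := by
            conv_lhs => rw [← hp1, pow_succ]
            rw [hp1]; ring
        _ = (A z * (b₁ : ℍ → ℂ) z) * (b₁ : ℍ → ℂ) z ^ (m - 1) * B z ^ (m - 1) := by rw [hcz]
        _ = A z * B z ^ (m - 1) * (b₁ : ℍ → ℂ) z ^ m := by
            conv_rhs => rw [← hp1, pow_succ]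
            rw [hp1]; ring)
  have hζ0 : ζ ≠ 0 := fun h0 => by
    rw [h0, zero_pow hm] at hζ1
    exact zero_ne_one hζ1
  -- `Q = (b₁ ∘ γ) * (B ∘ γ) * R * b₁` is not identically zero
  have hQ : (fun z : ℍ => ((b₁ : ℍ → ℂ) ((γ : SL(2, ℤ)) • z) * B ((γ : SL(2, ℤ)) • z))
      * (R z * (b₁ : ℍ → ℂ) z)) ≠ 0 :=
    mul_ne_zero_uhp ((hbm.comp (mdiff_smul_SL _)).mul (hB.comp (mdiff_smul_SL _))) (hR.mul hbm)
      (mul_ne_zero_uhp (hbm.comp (mdiff_smul_SL _)) (hB.comp (mdiff_smul_SL _))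
        (comp_smul_ne_zero hb0 _) (comp_smul_ne_zero hB0 _))
      (mul_ne_zero_uhp hR hbm hR0 hb0)
  obtain ⟨z, hz⟩ : ∃ z : ℍ, ((b₁ : ℍ → ℂ) ((γ : SL(2, ℤ)) • z) * B ((γ : SL(2, ℤ)) • z))
      * (R z * (b₁ : ℍ → ℂ) z) ≠ 0 := by
    by_contra hcon
    exact hQ (funext fun z => not_not.mp fun hz => hcon ⟨z, hz⟩)
  have e1 := hχ γ z
  have e2 := hc γ z
  have e3 : r₁ ((γ : SL(2, ℤ)) • z) * B ((γ : SL(2, ℤ)) • z)
      = ζ * (R ((γ : SL(2, ℤ)) • z) * (b₁ : ℍ → ℂ) ((γ : SL(2, ℤ)) • z)) :=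
    hζ2 ((γ : SL(2, ℤ)) • z)
  have e4 : r₁ z * B z = ζ * (R z * (b₁ : ℍ → ℂ) z) := hζ2 z
  have key : (kumChar V hm x γ : ℂ) * (ζ * (((b₁ : ℍ → ℂ) ((γ : SL(2, ℤ)) • z)
      * B ((γ : SL(2, ℤ)) • z)) * (R z * (b₁ : ℍ → ℂ) z)))
      = c γ * (ζ * (((b₁ : ℍ → ℂ) ((γ : SL(2, ℤ)) • z)
      * B ((γ : SL(2, ℤ)) • z)) * (R z * (b₁ : ℍ → ℂ) z))) := by
    calc (kumChar V hm x γ : ℂ) * (ζ * (((b₁ : ℍ → ℂ) ((γ : SL(2, ℤ)) • z)
          * B ((γ : SL(2, ℤ)) • z)) * (R z * (b₁ : ℍ → ℂ) z)))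
        = ((kumChar V hm x γ : ℂ) * (r₁ z * (b₁ : ℍ → ℂ) ((γ : SL(2, ℤ)) • z)))
            * B ((γ : SL(2, ℤ)) • z) * B z := by
          calc (kumChar V hm x γ : ℂ) * (ζ * (((b₁ : ℍ → ℂ) ((γ : SL(2, ℤ)) • z)
                * B ((γ : SL(2, ℤ)) • z)) * (R z * (b₁ : ℍ → ℂ) z)))
              = (kumChar V hm x γ : ℂ) * ((ζ * (R z * (b₁ : ℍ → ℂ) z))
                * (b₁ : ℍ → ℂ) ((γ : SL(2, ℤ)) • z) * B ((γ : SL(2, ℤ)) • z)) := by ring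
            _ = _ := by rw [← e4]; ring
      _ = (r₁ ((γ : SL(2, ℤ)) • z) * (b₁ : ℍ → ℂ) z)
            * B ((γ : SL(2, ℤ)) • z) * B z := by rw [e1]
      _ = (r₁ ((γ : SL(2, ℤ)) • z) * B ((γ : SL(2, ℤ)) • z))
            * (b₁ : ℍ → ℂ) z * B z := by ring
      _ = (ζ * (R ((γ : SL(2, ℤ)) • z) * (b₁ : ℍ → ℂ) ((γ : SL(2, ℤ)) • z)))
            * (b₁ : ℍ → ℂ) z * B z := by rw [e3]
      _ = ζ * ((b₁ : ℍ → ℂ) ((γ : SL(2, ℤ)) • z) * (b₁ : ℍ → ℂ) z)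
            * (R ((γ : SL(2, ℤ)) • z) * B z) := by ring
      _ = ζ * ((b₁ : ℍ → ℂ) ((γ : SL(2, ℤ)) • z) * (b₁ : ℍ → ℂ) z)
            * (c γ * (R z * B ((γ : SL(2, ℤ)) • z))) := by rw [e2]
      _ = _ := by ring
  exact mul_right_cancel₀ (mul_ne_zero hζ0 hz) key

/-- A root for the fraction `a₁ / b₁` from function-level root data `R ^ m = A * B ^ (m - 1)`,
`a₁ * B = A * b₁`: then `a₁ * b₁ ^ (m - 1)` has a holomorphic `m`-th root. Together with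
`mem_kumGroup_of_root` this gives membership in the Kummer group. -/
theorem exists_root_of_fun_data {m : ℕ} (hm : m ≠ 0) {a₁ b₁ : RN N} (ha₁ : a₁ ≠ 0)
    (hb₁ : b₁ ≠ 0) {A B R : ℍ → ℂ} (hB : MDiff B) (hR : MDiff R) (hB0 : B ≠ 0)
    (hcross : ∀ z : ℍ, (a₁ : ℍ → ℂ) z * B z = A z * (b₁ : ℍ → ℂ) z)
    (hpow : ∀ z : ℍ, R z ^ m = A z * B z ^ (m - 1)) :
    ∃ r₁ : ℍ → ℂ, MDiff r₁ ∧
      ∀ z : ℍ, r₁ z ^ m = (a₁ : ℍ → ℂ) z * (b₁ : ℍ → ℂ) z ^ (m - 1) := by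
  have hp1 : m - 1 + 1 = m := Nat.sub_add_cancel (Nat.one_le_iff_ne_zero.mpr hm)
  have ham : MDiff (a₁ : ℍ → ℂ) := a₁.2.mdiff
  have hbm : MDiff (b₁ : ℍ → ℂ) := b₁.2.mdiff
  have ha0 := coe_ne_zero_RN ha₁
  have hb0 := coe_ne_zero_RN hb₁
  -- the key identity `(R * b₁) ^ m = a₁ * b₁ ^ (m - 1) * B ^ m`
  have hkey : ∀ z : ℍ, (R z * (b₁ : ℍ → ℂ) z) ^ m
      = (a₁ : ℍ → ℂ) z * (b₁ : ℍ → ℂ) z ^ (m - 1) * B z ^ m := by
    intro z
    have hcz := hcross z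
    rw [mul_pow, hpow z]
    calc A z * B z ^ (m - 1) * (b₁ : ℍ → ℂ) z ^ m
        = (A z * (b₁ : ℍ → ℂ) z) * (b₁ : ℍ → ℂ) z ^ (m - 1) * B z ^ (m - 1) := by
          conv_lhs => rw [← hp1, pow_succ]
          rw [hp1]; ring
      _ = ((a₁ : ℍ → ℂ) z * B z) * (b₁ : ℍ → ℂ) z ^ (m - 1) * B z ^ (m - 1) := by rw [hcz]
      _ = _ := by
          conv_rhs => rw [← hp1, pow_succ]
          rw [hp1]; ring
  have hR0 : R ≠ 0 := by
    intro hR0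
    have h1 : (fun z : ℍ => ((a₁ : ℍ → ℂ) z * (b₁ : ℍ → ℂ) z ^ (m - 1)) * B z ^ m) = 0 := by
      funext z
      rw [← hkey z, hR0, Pi.zero_apply, zero_mul, zero_pow hm]
    exact mul_ne_zero_uhp (ham.mul (hbm.pow _)) (hB.pow m)
      (mul_ne_zero_uhp ham (hbm.pow _) ha0 (pow_ne_zero _ hb0)) (pow_ne_zero m hB0) h1
  refine exists_mdiff_pow_eq_mul hm ham hbm ha0 hb0 (fun z => ?_)
  have an : ∀ {f : ℍ → ℂ}, MDiff f → AnalyticAt ℂ (f ∘ ofComplex) (z : ℂ) := fun hf =>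
    ((UpperHalfPlane.mdifferentiable_iff.mp hf).analyticOnNhd isOpen_upperHalfPlaneSet) _ z.im_pos
  have hfun : ((R ∘ ofComplex) * ((b₁ : ℍ → ℂ) ∘ ofComplex)) ^ m
      = ((a₁ : ℍ → ℂ) ∘ ofComplex) * ((b₁ : ℍ → ℂ) ∘ ofComplex) ^ (m - 1)
        * (B ∘ ofComplex) ^ m := by
    funext w
    exact hkey (ofComplex w)
  have hord := congrArg (fun f => analyticOrderAt f (z : ℂ)) hfun
  simp only [analyticOrderAt_pow ((an hR).mul (an hbm)), analyticOrderAt_mul (an hR) (an hbm),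
    analyticOrderAt_mul ((an ham).mul ((an hbm).pow _)) ((an hB).pow _),
    analyticOrderAt_mul (an ham) ((an hbm).pow _), analyticOrderAt_pow (an hbm),
    analyticOrderAt_pow (an hB)] at hord
  obtain ⟨ka, hka⟩ := ENat.ne_top_iff_exists.mp
    (Fermat.Agent.S24.H90.analyticOrderAt_ne_top_of_ne_zero ham ha0 z)
  obtain ⟨kb, hkb⟩ := ENat.ne_top_iff_exists.mp
    (Fermat.Agent.S24.H90.analyticOrderAt_ne_top_of_ne_zero hbm hb0 z)
  obtain ⟨kR, hkR⟩ := ENat.ne_top_iff_exists.mp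
    (Fermat.Agent.S24.H90.analyticOrderAt_ne_top_of_ne_zero hR hR0 z)
  obtain ⟨kB, hkB⟩ := ENat.ne_top_iff_exists.mp
    (Fermat.Agent.S24.H90.analyticOrderAt_ne_top_of_ne_zero hB hB0 z)
  rw [← hka, ← hkb, ← hkR, ← hkB] at hord
  rw [← hka, ← hkb]
  simp only [ENat.toNat_natCast]
  have h5 : m * (kR + kb) = ka + (m - 1) * kb + m * kB := by
    have : ((m * (kR + kb) : ℕ) : ℕ∞) = ((ka + (m - 1) * kb + m * kB : ℕ) : ℕ∞) := by
      simp only [nsmul_eq_mul] at hord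
      push_cast
      exact hord
    exact_mod_cast this
  have hm1 : 1 ≤ m := Nat.one_le_iff_ne_zero.mpr hm
  refine ⟨(kR : ℤ) - kB, ?_⟩
  have h6 : ((m * (kR + kb) : ℕ) : ℤ) = ((ka + (m - 1) * kb + m * kB : ℕ) : ℤ) := by
    exact_mod_cast h5
  push_cast [Nat.cast_sub hm1] at h6
  linarith

end Fermat.Agent.S29.H29
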