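import Mathlib
import Fermat.Agent.S29.KumFn_helper35
import Fermat.Agent.S29.EisChar_helper39

/-!
# Bridge between the two landed copies of `expChar` (helper35)

`H35.expChar` (`TwistFn_helper35`) and `H39.expChar` (`EisChar_helper39`) are the same character
`γ ↦ exp (2πi c(γ) / n)`; the Kummer function `H35.exists_kumFn` is restated with `H39.expChar`
(the vocabulary of `Stmts`/`PsiFormal`/`(HK)`).
-/

set_option autoImplicit false

open UpperHalfPlane Matrix CongruenceSubgroup ModularGroup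
open scoped MatrixGroups Manifold Real
open Fermat.Agent.S24 Fermat.Agent.S24.H31

namespace Fermat.Agent.S29.H35

theorem expChar_eq_H39 {N : ℕ} (c : Additive (Gamma0 N) →+ ℤ) (n : ℕ) :
    expChar c n = H39.expChar c n := by
  ext γ
  rfl

/-- **(KF)** with `H39.expChar`. -/
theorem exists_kumFn_H39 {N : ℕ} [NeZero N] (V : ValSpec N) (c : Additive (Gamma0 N) →+ ℤ)
    (hc : ∀ γ : Gamma0 N, ((γ : SL(2, ℤ)) : Matrix (Fin 2) (Fin 2) ℤ).trace ^ 2 = 4 →
      c (Additive.ofMul γ) = 0) {m M : ℕ} (hm : m ≠ 0) (hM : M ≠ 0) :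
    ∃ (f : RN N) (r : ℍ → ℂ), f ≠ 0 ∧ (∀ γ ∈ Gamma0 N, γ • f = f) ∧ MDiff r ∧
      (∀ z : ℍ, r z ^ m = (f : ℍ → ℂ) z) ∧
      (∀ (γ : Gamma0 N) (z : ℍ),
        r ((γ : SL(2, ℤ)) • z) = ((H39.expChar c m γ : ℂˣ) : ℂ) * r z) ∧
      (∀ (g : SL(2, ℤ)) (z : ℍ),
        ((m * M : ℕ) : ℤ) ∣ (V.pt z).ord (g • algebraMap (RN N) (L N) f)) ∧
      ∀ g : SL(2, ℤ), ((m * M : ℕ) : ℤ) ∣ V.cusp.ord (g • algebraMap (RN N) (L N) f) := by
  have h := exists_kumFn V c hc hm hM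
  rw [expChar_eq_H39] at h
  exact h

end Fermat.Agent.S29.H35
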