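import Mathlib
import Fermat.Agent.S24.PhiRows_helper31
import Fermat.Agent.S24.Finite_helper89
import Fermat.Agent.S24.PhiData_helper69
import Fermat.Agent.S29.CoverQbar_helper31
import Fermat.Agent.S29.CoverOrd_helper90
import Fermat.Agent.S29.Gamma0Fixed_helper32
import Fermat.Agent.S29.CoeffStab_helper43

/-!
# S29, node (KQ): the Kummer glue over `ℚ̄` (helper55)

`P : PhiData N` is the embedding of the function field `FN N = modularFunctionFieldBar N` (constant
field `ℚ̄`) into the analytic field `L N`.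

* `kq1_fixed`, `kq1_dvd` **(KQ1)**: if `m` divides the order of `x : FN N` at every place, then
  `P.Φ x` is `Γ₀(N)`-fixed and `m` divides all its analytic orders on the upper half plane
  (i.e. `P.Φ x` lies in the Kummer group of `L N`).
* `exists_phiC`: an embedding `Φ_C` of the function field with constant field `ℂ`
  (`laurentBaseChange ℂ (modularFunctionFieldFull N)`) into `L N`, by the landed generic
  `H20.exists_Phi_abstract` at `K := ℂ`.
* `phiC_coeffMap`: the compatibility `Φ_C ∘ (coeffMap iota) = P.Φ`, for any `Φ_C` with the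
  expected values on constants and on the generators `j(q^d)`.
* `root_descent` **(KQ2)**: if `P.Φ x = u ^ m` with `u : L N` fixed by `Γ₀(N)`, then `x` is an
  `m`-th power in `FN N`.
-/

set_option autoImplicit false

open AlgebraicCurve IntermediateField
open UpperHalfPlane CongruenceSubgroup ModularCurve
open scoped MatrixGroups
open Fermat.Agent.S24 Fermat.Agent.S24.H31

noncomputable section

namespace Fermat.Agent.S29.H55

variable {N : ℕ} [NeZero N]

/-! ### (KQ1) -/

/-- **(KQ1)**, invariance: the image of a function of `FN N` is `Γ₀(N)`-fixed. -/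
theorem kq1_fixed (P : PhiData N) (x : FN N) : ∀ γ ∈ Gamma0 N, γ • P.Φ x = P.Φ x :=
  fun γ hγ => P.inv γ hγ x

/-- **(KQ1)**, divisibility: if `m` divides the order of `x` at every place of `FN N / ℚ̄`, then
`m` divides the order of `P.Φ x` at every point of the upper half plane. -/
theorem kq1_dvd (P : PhiData N) (V : ValSpec N) {m : ℤ} {x : FN N} (hx : x ≠ 0)
    (hdiv : ∀ v : Place Kbar (FN N), m ∣ v.ord x) (z : ℍ) : m ∣ (V.pt z).ord (P.Φ x) := by
  have h := (Fermat.Agent.S29.H31.isCover_Kbar N P).dvd_pt_of_dvd_place V z 1 hx hdiv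
  rwa [one_smul] at h

/-! ### The embedding over `ℂ` -/

/-- the function field with constant field `ℂ` -/
abbrev FCx (N : ℕ) : Type := ↥(laurentBaseChange ℂ (modularFunctionFieldFull N))

/-- An embedding of the function field over `ℂ` into `L N` with the expected values on the
constants and on the generators `j(q^d)`. -/
theorem exists_phiC (N : ℕ) [NeZero N] :
    ∃ ΦC : FCx N →+* L N,
      (∀ c : ℂ, ΦC (algebraMap ℂ (FCx N) c) = algebraMap ℂ (L N) c) ∧
      (∀ (d : ℕ) (hd : d ∣ N), ΦC ⟨H20.Jd N ℂ ⟨d, hd⟩, H20.Jd_mem N ℂ ⟨d, hd⟩⟩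
        = algebraMap (RN N) (L N) (H23.jd N d hd)) := by
  obtain ⟨Φ, h1, h2, -⟩ := H20.exists_Phi_abstract N (K := ℂ)
    (IsFractionRing.injective (RN N) (L N)) (algebraMap ℂ (RN N)) (fun d => H23.jd N d.1 d.2)
    (H20.phiFormal N (RingHom.id ℂ)) (H20.phiFormal_injective N (RingHom.id ℂ))
    (H69.ExRN N).toRingHom (H69.ExRN_injective N)
    (fun c => by
      rw [H20.phiFormal_algebraMap]
      exact H69.ExRN_algebraMap N c)
    (fun d => by
      have : NeZero d.1 := H20.neZero_of_dvd d.2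
      have h := H20.phiFormal_Jd N (RingHom.id ℂ) d.1 d.2
      rw [h]
      exact H69.ExRN_jd N d.1 (H23.jd N d.1 d.2) (H23.coe_jd N d.1 d.2))
  refine ⟨Φ, ?_, ?_⟩
  · intro c
    rw [h1, ← IsScalarTower.algebraMap_apply ℂ (RN N) (L N)]
  · intro d hd
    exact h2 ⟨d, hd⟩

/-! ### Base change along `iota` and the compatibility -/

omit [NeZero N] in
/-- `coeffMap iota` maps the function field over `ℚ̄` into the function field over `ℂ`. -/
theorem coeffMap_iota_mem {y : LaurentSeries Kbar} (hy : y ∈ modularFunctionFieldBar N) :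
    coeffMap iota y ∈ laurentBaseChange ℂ (modularFunctionFieldFull N) := by
  let _ : Algebra Kbar ℂ := iota.toAlgebra
  exact H43.coeffMap_mem_of_mem (K := Kbar) (L := ℂ) (modularFunctionFieldFull N) hy

/-- base change of functions along `iota`, coefficientwise -/
def bcIota (N : ℕ) : FN N →+* FCx N where
  toFun y := ⟨coeffMap iota (y : LaurentSeries Kbar), coeffMap_iota_mem y.2⟩
  map_one' := Subtype.ext (map_one (coeffMap iota))
  map_mul' _ _ := Subtype.ext (map_mul (coeffMap iota) _ _)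
  map_zero' := Subtype.ext (map_zero (coeffMap iota))
  map_add' _ _ := Subtype.ext (map_add (coeffMap iota) _ _)

omit [NeZero N] in
@[simp]
theorem coe_bcIota (y : FN N) :
    ((bcIota N y : FCx N) : LaurentSeries ℂ) = coeffMap iota (y : LaurentSeries Kbar) :=
  rfl

omit [NeZero N] in
theorem bcIota_algebraMap (c : Kbar) :
    bcIota N (algebraMap Kbar (FN N) c) = algebraMap ℂ (FCx N) (iota c) := by
  apply Subtype.ext
  show coeffMap iota (algebraMap Kbar (LaurentSeries Kbar) c) =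
    algebraMap ℂ (LaurentSeries ℂ) (iota c)
  rw [H43.algebraMap_eq_C, H43.algebraMap_eq_C]
  show coeffMap iota (HahnSeries.single 0 c) = HahnSeries.single 0 (iota c)
  rw [coeffMap_single]

theorem bcIota_Jd (d : ℕ) [NeZero d] (hd : d ∣ N) :
    bcIota N (Jd N d hd) = ⟨H20.Jd N ℂ ⟨d, hd⟩, H20.Jd_mem N ℂ ⟨d, hd⟩⟩ := by
  apply Subtype.ext
  show coeffMap iota (coeffEmb Kbar (qExpand ℚ d jq)) = H20.Jd N ℂ ⟨d, hd⟩
  rw [H20.Jd_eq N ℂ d hd, coeffEmb, coeffMap_coeffMap]
  exact coeffMap_congr (RingHom.ext fun c => iota.map_rat_algebraMap c) _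

/-- **Compatibility** `Φ_C ∘ bc = P.Φ`: any embedding of the function field over `ℂ` with the
expected values on constants and generators restricts to `P.Φ` on the function field over
`ℚ̄`. -/
theorem phiC_bcIota (P : PhiData N) (ΦC : FCx N →+* L N)
    (hconst : ∀ c : ℂ, ΦC (algebraMap ℂ (FCx N) c) = algebraMap ℂ (L N) c)
    (hJd : ∀ (d : ℕ) (hd : d ∣ N), ΦC ⟨H20.Jd N ℂ ⟨d, hd⟩, H20.Jd_mem N ℂ ⟨d, hd⟩⟩
      = algebraMap (RN N) (L N) (H23.jd N d hd))
    (x : FN N) : ΦC (bcIota N x) = P.Φ x := by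
  have hx : x ∈ IntermediateField.adjoin Kbar (JdSet N) := by
    rw [H89.adjoin_JdSet_eq_top N]
    exact IntermediateField.mem_top
  induction hx using IntermediateField.adjoin_induction with
  | mem y hy =>
    obtain ⟨d, hd0, hd, rfl⟩ := hy
    rw [bcIota_Jd, hJd, Phi_Jd]
  | algebraMap c => rw [bcIota_algebraMap, hconst, P.map_const]
  | add y z _ _ hy hz => rw [map_add, map_add, map_add, hy, hz]
  | mul y z _ _ hy hz => rw [map_mul, map_mul, map_mul, hy, hz]
  | inv y _ hy => rw [map_inv₀, map_inv₀, map_inv₀, hy]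

/-- The compatibility, for an element of the function field over `ℂ` given by its Laurent
series. -/
theorem phiC_coeffMap (P : PhiData N) (ΦC : FCx N →+* L N)
    (hconst : ∀ c : ℂ, ΦC (algebraMap ℂ (FCx N) c) = algebraMap ℂ (L N) c)
    (hJd : ∀ (d : ℕ) (hd : d ∣ N), ΦC ⟨H20.Jd N ℂ ⟨d, hd⟩, H20.Jd_mem N ℂ ⟨d, hd⟩⟩
      = algebraMap (RN N) (L N) (H23.jd N d hd))
    (x : FN N) (y : FCx N) (hy : (y : LaurentSeries ℂ) = coeffMap iota (x : LaurentSeries Kbar)) :
    ΦC y = P.Φ x := by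
  rw [← phiC_bcIota P ΦC hconst hJd x]
  congr 1
  exact Subtype.ext hy

/-! ### (KQ2) -/

/-- **(KQ2)**, for a given embedding over `ℂ`: if `P.Φ x` is the `m`-th power of a
`Γ₀(N)`-fixed element of `L N`, then `x` is an `m`-th power in `FN N`. -/
theorem root_descent_of_phiC (P : PhiData N) (ΦC : FCx N →+* L N)
    (hconst : ∀ c : ℂ, ΦC (algebraMap ℂ (FCx N) c) = algebraMap ℂ (L N) c)
    (hJd : ∀ (d : ℕ) (hd : d ∣ N), ΦC ⟨H20.Jd N ℂ ⟨d, hd⟩, H20.Jd_mem N ℂ ⟨d, hd⟩⟩
      = algebraMap (RN N) (L N) (H23.jd N d hd))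
    {m : ℕ} (hm : m ≠ 0) (x : FN N) (u : L N) (hu : ∀ γ ∈ Gamma0 N, γ • u = u)
    (hpow : u ^ m = P.Φ x) : ∃ w : FN N, x = w ^ m := by
  -- (K2): `u` is in the range of `Φ_C`
  obtain ⟨w', hw'⟩ : u ∈ ΦC.range :=
    H32.mem_range_of_gamma0_fixed N ΦC (fun c => ⟨_, hconst c⟩)
      ⟨_, hJd 1 (one_dvd N)⟩ ⟨_, hJd N dvd_rfl⟩ u hu
  -- `bc x = w' ^ m` in the function field over `ℂ`
  have h1 : bcIota N x = w' ^ m := by
    apply ΦC.injective
    rw [phiC_bcIota P ΦC hconst hJd, map_pow, hw', hpow]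
  have h2 : coeffMap iota (x : LaurentSeries Kbar) = (w' : LaurentSeries ℂ) ^ m := by
    have := congrArg (fun y : FCx N => (y : LaurentSeries ℂ)) h1
    simpa using this
  -- descent of the root
  let _ : Algebra Kbar ℂ := iota.toAlgebra
  obtain ⟨r₀, hr₀, hxr⟩ := H43.pow_descent (K := Kbar) (L := ℂ) (modularFunctionFieldFull N) hm
    (h₀ := (x : LaurentSeries Kbar)) (r := (w' : LaurentSeries ℂ)) w'.2 h2
  exact ⟨⟨r₀, hr₀⟩, Subtype.ext hxr⟩

/-- **(KQ2)**: if `P.Φ x` is the `m`-th power of a `Γ₀(N)`-fixed element of `L N`, then `x` is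
an `m`-th power in `FN N`. -/
theorem root_descent (P : PhiData N) {m : ℕ} (hm : m ≠ 0) (x : FN N) (u : L N)
    (hu : ∀ γ ∈ Gamma0 N, γ • u = u) (hpow : u ^ m = P.Φ x) : ∃ w : FN N, x = w ^ m := by
  obtain ⟨ΦC, hconst, hJd⟩ := exists_phiC N
  exact root_descent_of_phiC P ΦC hconst hJd hm x u hu hpow

/-- **(KQ2)**, in the form `x = c · w ^ m`. -/
theorem root_descent' (P : PhiData N) {m : ℕ} (hm : m ≠ 0) (x : FN N) (u : L N)
    (hu : ∀ γ ∈ Gamma0 N, γ • u = u) (hpow : u ^ m = P.Φ x) :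
    ∃ (c : Kbar) (w : FN N), x = algebraMap Kbar (FN N) c * w ^ m := by
  obtain ⟨w, hw⟩ := root_descent P hm x u hu hpow
  exact ⟨1, w, by rw [map_one, one_mul, hw]⟩

end Fermat.Agent.S29.H55
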