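import Mathlib
import Fermat.Prelude.Def_AlgebraicCurve_BaseChangeGalois
import Fermat.Agent.S24.Basics_helper19

/-!
# S29 (DE) leaf (LS): generic Riemann–Roch spaces and the flag-canonical effective divisor

Generic in `{K F} [Field K] [Field F] [Algebra K F]`; no modular input.

* `LSpace A` : the `K`-space `{f | f = 0 ∨ ∀ v, 0 ≤ v.ord f + A v}`;
* `mul_mem_LSpace_iff` : `L(A + div g) = g⁻¹ L(A)`;
* `LSpace_eq_bot_of_degree_neg`;
* `exists_sub_smul_mem` : `L(A - v0)` has codimension `≤ 1` in `L(A)` (residue field of `v0` = `K`);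
* `exists_flag`, `exists_eq_span_singleton` : the last nonzero step of the `v0`-adic flag is a line;
* `finiteDimensional_LSpace`, `finrank_LSpace_le`;
* `smul_mem_LSpace_iff` : semilinear equivariance;
* `IsFlagDivisor v0 A E` : `E` is the (unique) effective divisor `div f + A - m • v0` attached to
  the last nonzero step of the flag; existence, uniqueness, invariance under `A ↦ A + div g`,
  equivariance under semilinear automorphisms fixing `v0`.
-/

set_option autoImplicit false

noncomputable section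

namespace Fermat.Agent.S29.H20

open AlgebraicCurve Fermat.Agent.S24
open scoped IntermediateField

universe u v

variable {K : Type u} {F : Type v} [Field K] [Field F] [Algebra K F]

/-- the residue field of the place `v0` is the constant field `K` (the shape of the landed
`H19.residue_eq`). -/
def ResidueTrivial (v0 : Place K F) : Prop :=
  ∀ u ∈ v0.toValuationSubring, ∃ c : K, u = algebraMap K F c ∨ 0 < v0.ord (u - algebraMap K F c)

theorem residueTrivial_of_isAlgClosed [IsAlgClosed K] (x : F) (hx : Transcendental K x)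
    (hfin : FiniteDimensional K⟮x⟯ F) (v0 : Place K F) : ResidueTrivial v0 :=
  fun _ hu => H19.residue_eq x hx hfin v0 hu

/-! ### the space `L(A)` -/

/-- the Riemann–Roch space of a divisor. -/
def LSpace (A : Divisor K F) : Submodule K F where
  carrier := {f | f = 0 ∨ ∀ v : Place K F, 0 ≤ v.ord f + A v}
  zero_mem' := Or.inl rfl
  add_mem' := by
    intro f g hf hg
    by_cases hfg : f + g = 0
    · exact Or.inl hfg
    refine Or.inr fun v => ?_
    rcases hf with rfl | hf
    · rcases hg with rfl | hg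
      · simp at hfg
      · simpa using hg v
    rcases hg with rfl | hg
    · simpa using hf v
    have h0 := H19.ord_add_ge v hfg
    have h1 := hf v
    have h2 := hg v
    rcases min_le_iff.mp h0 with h | h <;> omega
  smul_mem' := by
    intro c f hf
    by_cases hc : c = 0
    · left; simp [hc]
    rcases hf with rfl | hf
    · left; simp
    by_cases hf0 : f = 0
    · left; simp [hf0]
    refine Or.inr fun v => ?_
    rw [Algebra.smul_def, v.ord_mul ((map_ne_zero _).mpr hc) hf0, H19.ord_algebraMap, zero_add]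
    exact hf v

theorem mem_LSpace {A : Divisor K F} {f : F} :
    f ∈ LSpace A ↔ f = 0 ∨ ∀ v : Place K F, 0 ≤ v.ord f + A v := Iff.rfl

theorem mem_LSpace_of_ne_zero {A : Divisor K F} {f : F} (hf : f ≠ 0) :
    f ∈ LSpace A ↔ ∀ v : Place K F, 0 ≤ v.ord f + A v := by
  rw [mem_LSpace]
  exact ⟨fun h => h.resolve_left hf, Or.inr⟩

theorem LSpace_mono {A B : Divisor K F} (h : A ≤ B) : LSpace A ≤ LSpace B := by
  intro f hf
  rcases hf with rfl | hf
  · exact zero_mem _
  · exact Or.inr fun v => le_trans (hf v) (by have := h v; omega)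

theorem LSpace_ne_bot_iff {A : Divisor K F} :
    LSpace A ≠ ⊥ ↔ ∃ f : F, f ≠ 0 ∧ f ∈ LSpace A := by
  rw [Submodule.ne_bot_iff]
  exact ⟨fun ⟨f, hf, hf0⟩ => ⟨f, hf0, hf⟩, fun ⟨f, hf0, hf⟩ => ⟨f, hf, hf0⟩⟩

/-- `L(A + div g) = g⁻¹ · L(A)`. -/
theorem mul_mem_LSpace_iff {A : Divisor K F} {g : F} (hg : g ≠ 0) {Dg : Divisor K F}
    (hDg : ∀ v : Place K F, Dg v = v.ord g) {f : F} :
    f * g ∈ LSpace A ↔ f ∈ LSpace (A + Dg) := by
  by_cases hf : f = 0
  · simp [hf]
  rw [mem_LSpace_of_ne_zero (mul_ne_zero hf hg), mem_LSpace_of_ne_zero hf]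
  refine forall_congr' fun v => ?_
  rw [v.ord_mul hf hg, Finsupp.add_apply, hDg v]
  constructor <;> intro h <;> omega

/-! ### degree -/

theorem degree_eq_sum (E : Divisor K F) :
    Divisor.degree E = E.sum fun v n => n * (v.deg : ℤ) := by
  simp [Divisor.degree, Finsupp.liftAddHom_apply]

theorem degree_nonneg_of_nonneg {E : Divisor K F} (h : ∀ v, 0 ≤ E v) :
    0 ≤ Divisor.degree E := by
  rw [degree_eq_sum]
  exact Finset.sum_nonneg fun v _ => mul_nonneg (h v) (Int.natCast_nonneg _)

theorem LSpace_eq_bot_of_degree_neg [HasPrincipalDivisors K F] {A : Divisor K F}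
    (h : Divisor.degree A < 0) : LSpace A = ⊥ := by
  by_contra hne
  obtain ⟨f, hf0, hf⟩ := LSpace_ne_bot_iff.mp hne
  obtain ⟨D, hD, hdeg⟩ := HasPrincipalDivisors.exists_divisor (K := K) f hf0
  have h1 : 0 ≤ Divisor.degree (D + A) := by
    refine degree_nonneg_of_nonneg fun v => ?_
    rw [Finsupp.add_apply, hD v]
    exact (mem_LSpace_of_ne_zero hf0).mp hf v
  rw [map_add, hdeg, zero_add] at h1
  omega

/-! ### the flag at a place -/

/-- the divisor `n • v0`. -/
abbrev Dv (v0 : Place K F) (n : ℕ) : Divisor K F := Finsupp.single v0 (n : ℤ)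

theorem sub_Dv_succ (v0 : Place K F) (A : Divisor K F) (m : ℕ) :
    A - Dv v0 (m + 1) = A - Dv v0 m - Dv v0 1 := by
  rw [Dv, Dv, Dv, Nat.cast_add, Finsupp.single_add]
  abel

theorem LSpace_sub_Dv_anti (v0 : Place K F) (A : Divisor K F) {m n : ℕ} (h : m ≤ n) :
    LSpace (A - Dv v0 n) ≤ LSpace (A - Dv v0 m) := by
  apply LSpace_mono
  intro v
  rw [Finsupp.sub_apply, Finsupp.sub_apply]
  by_cases hv : v = v0
  · subst hv
    rw [Dv, Dv, Finsupp.single_eq_same, Finsupp.single_eq_same]
    have : (m : ℤ) ≤ n := by exact_mod_cast h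
    omega
  · rw [Dv, Dv, Finsupp.single_eq_of_ne hv, Finsupp.single_eq_of_ne hv]

/-- **codimension ≤ 1**. -/
theorem exists_sub_smul_mem {v0 : Place K F} (hres : ResidueTrivial v0) {A : Divisor K F}
    {f g : F} (hf : f ∈ LSpace A) (hg : g ∈ LSpace A) (hg' : g ∉ LSpace (A - Dv v0 1)) :
    ∃ c : K, f - c • g ∈ LSpace (A - Dv v0 1) := by
  have hg0 : g ≠ 0 := fun h => hg' (h ▸ zero_mem _)
  by_cases hf0 : f = 0
  · exact ⟨0, by simp [hf0]⟩
  have hgA := (mem_LSpace_of_ne_zero hg0).mp hg
  have hfA := (mem_LSpace_of_ne_zero hf0).mp hf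
  -- `ord g = -A v0` exactly
  have hordg : v0.ord g + A v0 = 0 := by
    by_contra hne
    apply hg'
    rw [mem_LSpace_of_ne_zero hg0]
    intro v
    rw [Finsupp.sub_apply]
    by_cases hv : v = v0
    · subst hv
      rw [Dv, Finsupp.single_eq_same]
      have := hgA v
      push_cast
      omega
    · rw [Dv, Finsupp.single_eq_of_ne hv, sub_zero]
      exact hgA v
  have hquot : f / g ∈ v0.toValuationSubring := by
    rw [H19.mem_iff' v0, H19.ord_div v0 hf0 hg0]
    have := hfA v0
    omega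
  obtain ⟨c, hc⟩ := hres _ hquot
  refine ⟨c, ?_⟩
  have hdecomp : f - c • g = (f / g - algebraMap K F c) * g := by
    rw [Algebra.smul_def]
    field_simp
  by_cases hz : f - c • g = 0
  · rw [hz]; exact zero_mem _
  have hne : f / g - algebraMap K F c ≠ 0 := by
    intro h0
    apply hz
    rw [hdecomp, h0, zero_mul]
  have hpos : 0 < v0.ord (f / g - algebraMap K F c) := by
    rcases hc with hc | hc
    · exact absurd (sub_eq_zero.mpr hc) hne
    · exact hc
  have hmem : f - c • g ∈ LSpace A := sub_mem hf (Submodule.smul_mem _ c hg)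
  have hmemA := (mem_LSpace_of_ne_zero hz).mp hmem
  rw [mem_LSpace_of_ne_zero hz]
  intro v
  rw [Finsupp.sub_apply]
  by_cases hv : v = v0
  · subst hv
    rw [Dv, Finsupp.single_eq_same, hdecomp, v.ord_mul hne hg0]
    push_cast
    omega
  · rw [Dv, Finsupp.single_eq_of_ne hv, sub_zero]
    exact hmemA v

theorem degree_sub_Dv (v0 : Place K F) (A : Divisor K F) (m : ℕ) :
    Divisor.degree (A - Dv v0 m) = Divisor.degree A - m * v0.deg := by
  rw [map_sub, Dv, Divisor.degree_single]

/-- **the flag terminates**: there is a last nonzero step. -/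
theorem exists_flag [HasPrincipalDivisors K F] {v0 : Place K F} (hdeg : 0 < v0.deg)
    {A : Divisor K F} (hA : LSpace A ≠ ⊥) :
    ∃ m : ℕ, LSpace (A - Dv v0 m) ≠ ⊥ ∧ LSpace (A - Dv v0 (m + 1)) = ⊥ := by
  classical
  have hex : ∃ M : ℕ, LSpace (A - Dv v0 M) = ⊥ := by
    refine ⟨(Divisor.degree A).toNat + 1, LSpace_eq_bot_of_degree_neg ?_⟩
    rw [degree_sub_Dv]
    have h1 : (1 : ℤ) ≤ v0.deg := by exact_mod_cast hdeg
    have h2 : Divisor.degree A ≤ (Divisor.degree A).toNat := Int.self_le_toNat _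
    push_cast
    nlinarith
  have h0 : Nat.find hex ≠ 0 := by
    intro h
    have := Nat.find_spec hex
    rw [h] at this
    apply hA
    rw [← this]
    congr 1
    simp [Dv]
  obtain ⟨m, hm⟩ := Nat.exists_eq_succ_of_ne_zero h0
  refine ⟨m, ?_, ?_⟩
  · exact Nat.find_min hex (by omega)
  · have := Nat.find_spec hex
    rwa [hm] at this

/-- **the last nonzero step is a line**. -/
theorem exists_eq_span_singleton {v0 : Place K F} (hres : ResidueTrivial v0) {A : Divisor K F}
    (h1 : LSpace A ≠ ⊥) (h2 : LSpace (A - Dv v0 1) = ⊥) :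
    ∃ f : F, f ≠ 0 ∧ LSpace A = K ∙ f := by
  obtain ⟨g, hg0, hg⟩ := LSpace_ne_bot_iff.mp h1
  have hg' : g ∉ LSpace (A - Dv v0 1) := by
    rw [h2, Submodule.mem_bot]; exact hg0
  refine ⟨g, hg0, le_antisymm ?_ ?_⟩
  · intro f hf
    obtain ⟨c, hc⟩ := exists_sub_smul_mem hres hf hg hg'
    rw [h2, Submodule.mem_bot, sub_eq_zero] at hc
    rw [hc]
    exact Submodule.smul_mem _ c (Submodule.mem_span_singleton_self g)
  · rw [Submodule.span_singleton_le_iff_mem]
    exact hg

/-! ### finite-dimensionality -/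

theorem LSpace_le_sup_span {v0 : Place K F} (hres : ResidueTrivial v0) (A : Divisor K F) :
    ∃ g : F, LSpace A ≤ LSpace (A - Dv v0 1) ⊔ K ∙ g := by
  by_cases h : LSpace A ≤ LSpace (A - Dv v0 1)
  · exact ⟨0, le_trans h le_sup_left⟩
  · obtain ⟨g, hg, hg'⟩ := SetLike.not_le_iff_exists.mp h
    refine ⟨g, fun f hf => ?_⟩
    obtain ⟨c, hc⟩ := exists_sub_smul_mem hres hf hg hg'
    have : f = (f - c • g) + c • g := by ring
    rw [this]
    exact Submodule.add_mem_sup hc (Submodule.smul_mem _ c (Submodule.mem_span_singleton_self g))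

theorem finite_and_finrank_LSpace_le [HasPrincipalDivisors K F] {v0 : Place K F}
    (hres : ResidueTrivial v0) (hdeg : 0 < v0.deg) (n : ℕ) :
    ∀ A : Divisor K F, Divisor.degree A + 1 ≤ n →
      Module.Finite K (LSpace A) ∧ Module.finrank K (LSpace A) ≤ n := by
  induction n with
  | zero =>
      intro A hA
      have hbot : LSpace A = ⊥ := LSpace_eq_bot_of_degree_neg (by push_cast at hA; omega)
      rw [hbot]
      exact ⟨inferInstance, by simp⟩
  | succ n ih =>
      intro A hA
      have hd : Divisor.degree (A - Dv v0 1) + 1 ≤ n := by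
        rw [degree_sub_Dv]
        have h1 : (1 : ℤ) ≤ v0.deg := by exact_mod_cast hdeg
        push_cast at hA ⊢
        nlinarith
      obtain ⟨hfin, hrank⟩ := ih (A - Dv v0 1) hd
      obtain ⟨g, hg⟩ := LSpace_le_sup_span hres A
      have hfin2 : Module.Finite K ↥(LSpace (A - Dv v0 1) ⊔ K ∙ g) := inferInstance
      have hfinA : Module.Finite K (LSpace A) :=
        Submodule.finiteDimensional_of_le hg
      refine ⟨hfinA, ?_⟩
      calc Module.finrank K (LSpace A)
          ≤ Module.finrank K ↥(LSpace (A - Dv v0 1) ⊔ K ∙ g) := Submodule.finrank_mono hg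
        _ ≤ Module.finrank K (LSpace (A - Dv v0 1)) + Module.finrank K (K ∙ g) :=
            Submodule.finrank_add_le_finrank_add_finrank _ _
        _ ≤ n + 1 := by
            have h1 : Module.finrank K (K ∙ g) ≤ 1 := by
              have := finrank_span_le_card (R := K) ({g} : Set F)
              simpa using this
            omega

theorem finiteDimensional_LSpace [HasPrincipalDivisors K F] {v0 : Place K F}
    (hres : ResidueTrivial v0) (hdeg : 0 < v0.deg) (A : Divisor K F) :
    FiniteDimensional K (LSpace A) :=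
  (finite_and_finrank_LSpace_le hres hdeg (Divisor.degree A + 1).toNat A
    (Int.self_le_toNat _)).1

theorem finrank_LSpace_le [HasPrincipalDivisors K F] {v0 : Place K F}
    (hres : ResidueTrivial v0) (hdeg : 0 < v0.deg) (A : Divisor K F) :
    Module.finrank K (LSpace A) ≤ (Divisor.degree A + 1).toNat :=
  (finite_and_finrank_LSpace_le hres hdeg (Divisor.degree A + 1).toNat A
    (Int.self_le_toNat _)).2

/-! ### semilinear equivariance -/

theorem smul_mem_LSpace_iff (g : SemilinearAut K F) {A : Divisor K F} {f : F} :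
    g • f ∈ LSpace (g • A) ↔ f ∈ LSpace A := by
  by_cases hf : f = 0
  · simp [hf]
  have hgf : g • f ≠ 0 := by
    intro h
    apply hf
    have := congrArg (fun x => g⁻¹ • x) h
    simpa using this
  rw [mem_LSpace_of_ne_zero hgf, mem_LSpace_of_ne_zero hf]
  constructor
  · intro h v
    have := h (g • v)
    rwa [SemilinearAut.ord_smul, SemilinearAut.divisor_smul_apply_smul] at this
  · intro h w
    have := h (g⁻¹ • w)
    rw [← SemilinearAut.ord_smul g (g⁻¹ • w) f,
      ← SemilinearAut.divisor_smul_apply_smul g A (g⁻¹ • w), smul_inv_smul] at this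
    exact this

theorem LSpace_smul_eq_bot_iff (g : SemilinearAut K F) {A : Divisor K F} :
    LSpace (g • A) = ⊥ ↔ LSpace A = ⊥ := by
  constructor
  · intro h
    rw [Submodule.eq_bot_iff] at h ⊢
    intro f hf
    have := h (g • f) ((smul_mem_LSpace_iff g).mpr hf)
    have h2 := congrArg (fun x => g⁻¹ • x) this
    simpa using h2
  · intro h
    rw [Submodule.eq_bot_iff] at h ⊢
    intro f hf
    have hf' : g • (g⁻¹ • f) ∈ LSpace (g • A) := by rwa [smul_inv_smul]
    have := h (g⁻¹ • f) ((smul_mem_LSpace_iff g).mp hf')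
    have h2 := congrArg (fun x => g • x) this
    simpa using h2

/-! ### the flag-canonical effective divisor -/

/-- `E` is the flag divisor of `A` at `v0`: `E = div f + A - m • v0` where `L(A - m • v0)` is the
last nonzero step of the `v0`-adic flag of `L(A)` and `f` spans it. -/
def IsFlagDivisor (v0 : Place K F) (A E : Divisor K F) : Prop :=
  ∃ (m : ℕ) (f : F), f ≠ 0 ∧ f ∈ LSpace (A - Dv v0 m) ∧ LSpace (A - Dv v0 (m + 1)) = ⊥ ∧
    ∀ v : Place K F, E v = v.ord f + A v - Dv v0 m v

theorem IsFlagDivisor.nonneg {v0 : Place K F} {A E : Divisor K F} (h : IsFlagDivisor v0 A E)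
    (v : Place K F) : 0 ≤ E v := by
  obtain ⟨m, f, hf0, hf, -, hE⟩ := h
  have := (mem_LSpace_of_ne_zero hf0).mp hf v
  rw [Finsupp.sub_apply] at this
  rw [hE v]
  omega

/-- `E` is linearly equivalent to `A - m • v0`. -/
theorem IsFlagDivisor.exists_principal {v0 : Place K F} {A E : Divisor K F}
    (h : IsFlagDivisor v0 A E) :
    ∃ (m : ℕ) (f : F), f ≠ 0 ∧ ∀ v : Place K F, E v = v.ord f + (A - Dv v0 m) v := by
  obtain ⟨m, f, hf0, -, -, hE⟩ := h
  exact ⟨m, f, hf0, fun v => by rw [hE v, Finsupp.sub_apply]; ring⟩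

theorem exists_isFlagDivisor [HasPrincipalDivisors K F] {v0 : Place K F} (hdeg : 0 < v0.deg)
    {A : Divisor K F} (hA : LSpace A ≠ ⊥) : ∃ E : Divisor K F, IsFlagDivisor v0 A E := by
  obtain ⟨m, hm1, hm2⟩ := exists_flag hdeg hA
  obtain ⟨f, hf0, hf⟩ := LSpace_ne_bot_iff.mp hm1
  obtain ⟨D, hD, -⟩ := HasPrincipalDivisors.exists_divisor (K := K) f hf0
  refine ⟨D + A - Dv v0 m, m, f, hf0, hf, hm2, fun v => ?_⟩
  rw [Finsupp.sub_apply, Finsupp.add_apply, hD v]

/-- **uniqueness** of the flag divisor. -/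
theorem IsFlagDivisor.unique {v0 : Place K F} (hres : ResidueTrivial v0) {A E E' : Divisor K F}
    (h : IsFlagDivisor v0 A E) (h' : IsFlagDivisor v0 A E') : E = E' := by
  obtain ⟨m, f, hf0, hf, hbot, hE⟩ := h
  obtain ⟨m', f', hf0', hf', hbot', hE'⟩ := h'
  have hmm : m = m' := by
    rcases lt_trichotomy m m' with hlt | heq | hgt
    · exfalso
      have := LSpace_sub_Dv_anti v0 A (show m + 1 ≤ m' by omega) hf'
      rw [hbot, Submodule.mem_bot] at this
      exact hf0' this
    · exact heq
    · exfalso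
      have := LSpace_sub_Dv_anti v0 A (show m' + 1 ≤ m by omega) hf
      rw [hbot', Submodule.mem_bot] at this
      exact hf0 this
  subst hmm
  have hne : LSpace (A - Dv v0 m) ≠ ⊥ := LSpace_ne_bot_iff.mpr ⟨f, hf0, hf⟩
  have hf'' : f' ∉ LSpace (A - Dv v0 m - Dv v0 1) := by
    rw [← sub_Dv_succ, hbot, Submodule.mem_bot]; exact hf0'
  obtain ⟨c, hc⟩ := exists_sub_smul_mem hres hf hf' hf''
  rw [← sub_Dv_succ, hbot, Submodule.mem_bot, sub_eq_zero] at hc
  have hc0 : c ≠ 0 := by
    rintro rfl
    rw [zero_smul] at hc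
    exact hf0 hc
  ext v
  rw [hE v, hE' v, hc, Algebra.smul_def, v.ord_mul ((map_ne_zero _).mpr hc0) hf0',
    H19.ord_algebraMap, zero_add]

/-- the flag divisor only depends on the class of `A`. -/
theorem IsFlagDivisor.add_principal {v0 : Place K F} {A E : Divisor K F}
    (h : IsFlagDivisor v0 A E) {g : F} (hg : g ≠ 0) {Dg : Divisor K F}
    (hDg : ∀ v : Place K F, Dg v = v.ord g) : IsFlagDivisor v0 (A + Dg) E := by
  obtain ⟨m, f, hf0, hf, hbot, hE⟩ := h
  have hfg : f / g ≠ 0 := div_ne_zero hf0 hg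
  refine ⟨m, f / g, hfg, ?_, ?_, fun v => ?_⟩
  · have h1 : A + Dg - Dv v0 m = A - Dv v0 m + Dg := by abel
    rw [h1, ← mul_mem_LSpace_iff hg hDg, div_mul_cancel₀ _ hg]
    exact hf
  · rw [Submodule.eq_bot_iff]
    intro x hx
    have h1 : A + Dg - Dv v0 (m + 1) = A - Dv v0 (m + 1) + Dg := by abel
    rw [h1, ← mul_mem_LSpace_iff hg hDg, hbot, Submodule.mem_bot] at hx
    exact (mul_eq_zero.mp hx).resolve_right hg
  · rw [hE v, H19.ord_div v hf0 hg, Finsupp.add_apply, hDg v]
    ring

/-- converse direction, convenient for consumers: remove a principal divisor. -/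
theorem IsFlagDivisor.of_add_principal {v0 : Place K F} {A E : Divisor K F} {g : F} (hg : g ≠ 0)
    {Dg : Divisor K F} (hDg : ∀ v : Place K F, Dg v = v.ord g)
    (h : IsFlagDivisor v0 (A + Dg) E) : IsFlagDivisor v0 A E := by
  have hg' : g⁻¹ ≠ 0 := inv_ne_zero hg
  have hD' : ∀ v : Place K F, (-Dg) v = v.ord g⁻¹ := fun v => by
    rw [Finsupp.neg_apply, hDg v, Place.ord_inv]
  have := h.add_principal hg' hD'
  rwa [add_neg_cancel_right] at this

/-- equivariance under a semilinear automorphism fixing the flag place. -/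
theorem IsFlagDivisor.smul {v0 : Place K F} {A E : Divisor K F} (h : IsFlagDivisor v0 A E)
    (g : SemilinearAut K F) (hg : g • v0 = v0) : IsFlagDivisor v0 (g • A) (g • E) := by
  obtain ⟨m, f, hf0, hf, hbot, hE⟩ := h
  have hgf : g • f ≠ 0 := by
    intro h0
    apply hf0
    have := congrArg (fun x => g⁻¹ • x) h0
    simpa using this
  have hD : ∀ n : ℕ, g • A - Dv v0 n = g • (A - Dv v0 n) := by
    intro n
    rw [smul_sub, Dv, SemilinearAut.smul_single, hg]
  refine ⟨m, g • f, hgf, ?_, ?_, fun w => ?_⟩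
  · rw [hD, smul_mem_LSpace_iff]
    exact hf
  · rw [hD, LSpace_smul_eq_bot_iff]
    exact hbot
  · have hw : w = g • (g⁻¹ • w) := (smul_inv_smul g w).symm
    have h1 : (g • E) w = E (g⁻¹ • w) := SemilinearAut.divisor_smul_apply g E w
    have h2 : (g • A) w = A (g⁻¹ • w) := SemilinearAut.divisor_smul_apply g A w
    have h3 : w.ord (g • f) = (g⁻¹ • w).ord f := by
      conv_lhs => rw [hw]
      exact SemilinearAut.ord_smul g (g⁻¹ • w) f
    have h4 : Dv v0 m w = Dv v0 m (g⁻¹ • w) := by
      have : (g • Dv v0 m) w = Dv v0 m (g⁻¹ • w) := SemilinearAut.divisor_smul_apply g _ w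
      rw [← this, Dv, SemilinearAut.smul_single, hg]
    rw [h1, h2, h3, h4]
    exact hE _

/-- **existence and uniqueness** of the flag divisor. -/
theorem existsUnique_isFlagDivisor [HasPrincipalDivisors K F] {v0 : Place K F}
    (hres : ResidueTrivial v0) (hdeg : 0 < v0.deg) {A : Divisor K F} (hA : LSpace A ≠ ⊥) :
    ∃! E : Divisor K F, IsFlagDivisor v0 A E := by
  obtain ⟨E, hE⟩ := exists_isFlagDivisor hdeg hA
  exact ⟨E, hE, fun E' hE' => hE'.unique hres hE⟩

/-- a flag divisor fixed by a group of semilinear automorphisms: if `g • v0 = v0` and `g • A`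
differs from `A` by a principal divisor, then `g • E = E`. -/
theorem IsFlagDivisor.smul_eq {v0 : Place K F} (hres : ResidueTrivial v0) {A E : Divisor K F}
    (h : IsFlagDivisor v0 A E) (g : SemilinearAut K F) (hg : g • v0 = v0) {r : F} (hr : r ≠ 0)
    {Dr : Divisor K F} (hDr : ∀ v : Place K F, Dr v = v.ord r) (hA : g • A = A + Dr) :
    g • E = E := by
  have h1 : IsFlagDivisor v0 (A + Dr) (g • E) := hA ▸ h.smul g hg
  exact (h1.of_add_principal hr hDr).unique hres h

end Fermat.Agent.S29.H20
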