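import Mathlib

/-!
# S29 / S42, node (LAT): reduction of a simultaneous eigenvector along a ring homomorphism

Generic linear algebra (Mathlib only).  Let `A` be a commutative ring, `A → F` an injective ring
homomorphism into a field and `φ : A → k` any ring homomorphism into a field.  If a family of
square matrices over `A` has a nonzero common kernel vector over `F`, then it has one over `k`
(`exists_common_kernel_of_ringHom`): the existence of such a vector is the vanishing of all
`n × n` minors of the stacked matrix, a family of polynomial identities in the entries.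

Consequently a simultaneous eigenvector over `F` of ANY family of matrices `T i` over `A` with
eigenvalues `a i ∈ A` yields a simultaneous eigenvector over `k` with eigenvalues `φ (a i)`
(`exists_common_eigenvector_of_ringHom`); no commutation between the `T i` is used.  The integral
forms (`exists_eigenvector_int`, `exists_eigenvector_of_basis`) are the ones used for the lattice
`Hom_par(Γ₀(N), ℤ)` with `A = integralClosure ℤ ℂ`, `F = ℂ`.
-/

set_option autoImplicit false

namespace Fermat.Agent.S29.H89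

open Matrix

section Core

variable {n : Type*} [Fintype n] [DecidableEq n]

/-- Over a field, a family of row vectors all of whose `n`-tuples have determinant zero is
annihilated by a nonzero vector. -/
theorem exists_ne_zero_dotProduct_eq_zero {K : Type*} [Field K] {ι : Type*} (r : ι → n → K)
    (h : ∀ f : n → ι, (Matrix.of fun s => r (f s)).det = 0) :
    ∃ w : n → K, w ≠ 0 ∧ ∀ i, r i ⬝ᵥ w = 0 := by
  classical
  by_cases hs : Submodule.span K (Set.range r) = ⊤
  · exfalso
    let b := Module.Basis.ofSpan (K := K) (s := Set.range r) hs.ge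
    have hsub : Set.range b ⊆ Set.range r := Module.Basis.ofSpan_subset hs.ge
    let e := (Pi.basisFun K n).indexEquiv b
    have hex : ∀ s : n, ∃ i, r i = b (e s) := fun s => hsub ⟨e s, rfl⟩
    choose f hf using hex
    have hli : LinearIndependent K (fun s => b (e s)) :=
      b.linearIndependent.comp e e.injective
    have hrow : (Matrix.of fun s => r (f s)).row = fun s => b (e s) := by
      funext s
      exact hf s
    have hunit : IsUnit (Matrix.of fun s => r (f s)) := by
      rw [← Matrix.linearIndependent_rows_iff_isUnit, hrow]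
      exact hli
    exact ((Matrix.isUnit_iff_isUnit_det _).mp hunit).ne_zero (h f)
  · obtain ⟨ψ, hψ, hle⟩ := Submodule.exists_le_ker_of_lt_top _ (lt_top_iff_ne_top.mpr hs)
    have key : ∀ x : n → K, ψ x = x ⬝ᵥ fun j => ψ (Pi.single j 1) := by
      intro x
      rw [LinearMap.pi_apply_eq_sum_univ ψ x]
      simp only [dotProduct, smul_eq_mul]
      refine Finset.sum_congr rfl fun j _ => ?_
      congr 2
      funext l
      simp [Pi.single_apply, eq_comm]
    refine ⟨fun j => ψ (Pi.single j 1), ?_, fun i => ?_⟩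
    · intro h0
      apply hψ
      refine LinearMap.ext fun x => ?_
      rw [LinearMap.zero_apply, key x, h0, dotProduct_zero]
    · rw [← key]
      exact hle (Submodule.subset_span ⟨i, rfl⟩)

/-- **Common annihilators pass along ring homomorphisms** (row form).  A family of rows over
`A` annihilated by a nonzero vector over a field `F ⊇ A` is annihilated by a nonzero vector over
every field `k` receiving `A`. -/
theorem exists_ne_zero_dotProduct_eq_zero_of_ringHom
    {A : Type*} [CommRing A] {F : Type*} [Field F] (ι₀ : A →+* F)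
    (hinj : Function.Injective ι₀) {k : Type*} [Field k] (φ : A →+* k) {ι : Type*}
    (r : ι → n → A)
    (h : ∃ v : n → F, v ≠ 0 ∧ ∀ i, (fun c => ι₀ (r i c)) ⬝ᵥ v = 0) :
    ∃ w : n → k, w ≠ 0 ∧ ∀ i, (fun c => φ (r i c)) ⬝ᵥ w = 0 := by
  classical
  obtain ⟨v, hv, hr⟩ := h
  have hdet : ∀ f : n → ι, (Matrix.of fun s => r (f s)).det = 0 := by
    intro f
    apply hinj
    rw [map_zero, RingHom.map_det]
    rw [← Matrix.exists_mulVec_eq_zero_iff]
    refine ⟨v, hv, ?_⟩
    funext s
    have := hr (f s)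
    simpa [Matrix.mulVec, dotProduct] using this
  exact exists_ne_zero_dotProduct_eq_zero
    (K := k) (fun i : ι => fun c => φ (r i c)) (fun f => by
      have := congrArg φ (hdet f)
      rw [map_zero, RingHom.map_det] at this
      simpa [RingHom.mapMatrix_apply, Matrix.map] using this)

/-- **Common kernel vectors pass along ring homomorphisms.**  A family of square matrices over
`A` with a nonzero common kernel vector over a field `F ⊇ A` has a nonzero common kernel vector
over every field `k` receiving `A`. -/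
theorem exists_common_kernel_of_ringHom
    {A : Type*} [CommRing A] {F : Type*} [Field F] (ι₀ : A →+* F)
    (hinj : Function.Injective ι₀) {k : Type*} [Field k] (φ : A →+* k) {I : Type*}
    (M : I → Matrix n n A)
    (h : ∃ v : n → F, v ≠ 0 ∧ ∀ i, (M i).map ι₀ *ᵥ v = 0) :
    ∃ w : n → k, w ≠ 0 ∧ ∀ i, (M i).map φ *ᵥ w = 0 := by
  classical
  obtain ⟨v, hv, hM⟩ := h
  obtain ⟨w, hw, hrow⟩ := exists_ne_zero_dotProduct_eq_zero_of_ringHom ι₀ hinj φ
    (fun x : I × n => M x.1 x.2) ⟨v, hv, fun x => by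
      have := congrFun (hM x.1) x.2
      simpa [Matrix.mulVec, dotProduct] using this⟩
  refine ⟨w, hw, fun i => ?_⟩
  funext j
  have := hrow (i, j)
  simpa [Matrix.mulVec, dotProduct] using this

theorem sub_scalar_map_mulVec {A : Type*} [CommRing A] {R : Type*} [Field R] (χ : A →+* R)
    (T : Matrix n n A) (a : A) (x : n → R) :
    (T - Matrix.scalar n a).map χ *ᵥ x = T.map χ *ᵥ x - χ a • x := by
  have h1 : (T - Matrix.scalar n a).map χ = T.map χ - Matrix.scalar n (χ a) := by
    ext r c
    by_cases hrc : r = c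
    · subst hrc; simp [Matrix.scalar_apply]
    · simp [Matrix.scalar_apply, hrc]
  rw [h1, Matrix.sub_mulVec]
  congr 1
  funext r
  simp [Matrix.scalar_apply, Matrix.mulVec, dotProduct, Matrix.diagonal_apply]

/-- **Simultaneous eigenvectors pass along ring homomorphisms.**  No commutation between the
`T i` is assumed. -/
theorem exists_common_eigenvector_of_ringHom
    {A : Type*} [CommRing A] {F : Type*} [Field F] (ι₀ : A →+* F)
    (hinj : Function.Injective ι₀) {k : Type*} [Field k] (φ : A →+* k) {I : Type*}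
    (T : I → Matrix n n A) (a : I → A)
    (h : ∃ v : n → F, v ≠ 0 ∧ ∀ i, (T i).map ι₀ *ᵥ v = ι₀ (a i) • v) :
    ∃ w : n → k, w ≠ 0 ∧ ∀ i, (T i).map φ *ᵥ w = φ (a i) • w := by
  classical
  obtain ⟨v, hv, hT⟩ := h
  obtain ⟨w, hw, hk⟩ := exists_common_kernel_of_ringHom ι₀ hinj φ
    (fun i => T i - Matrix.scalar n (a i)) ⟨v, hv, fun i => by
      rw [sub_scalar_map_mulVec ι₀ (T i) (a i) v, hT i, sub_self]⟩
  refine ⟨w, hw, fun i => ?_⟩
  have := hk i
  rw [sub_scalar_map_mulVec φ (T i) (a i) w] at this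
  exact sub_eq_zero.mp this

omit [Fintype n] [DecidableEq n] in
theorem map_intCast_map {A : Type*} [CommRing A] {R : Type*} [CommRing R] (χ : A →+* R)
    (T : Matrix n n ℤ) :
    (T.map (Int.castRingHom A)).map χ = T.map (Int.cast : ℤ → R) := by
  ext r c
  simp

/-- Integral matrices, eigenvalues in a ring `A ⊆ F`: a simultaneous eigenvector over `F`
gives one over `k`. -/
theorem exists_eigenvector_int
    {A : Type*} [CommRing A] {F : Type*} [Field F] (ι₀ : A →+* F)
    (hinj : Function.Injective ι₀) {k : Type*} [Field k] (φ : A →+* k) {I : Type*}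
    (T : I → Matrix n n ℤ) (a : I → A) (v : n → F) (hv : v ≠ 0)
    (h : ∀ i, (T i).map (Int.cast : ℤ → F) *ᵥ v = ι₀ (a i) • v) :
    ∃ w : n → k, w ≠ 0 ∧ ∀ i, (T i).map (Int.cast : ℤ → k) *ᵥ w = φ (a i) • w := by
  obtain ⟨w, hw, hk⟩ := exists_common_eigenvector_of_ringHom ι₀ hinj φ
    (fun i => (T i).map (Int.castRingHom A)) a ⟨v, hv, fun i => by
      rw [map_intCast_map ι₀ (T i)]; exact h i⟩
  refine ⟨w, hw, fun i => ?_⟩
  have := hk i
  rwa [map_intCast_map φ (T i)] at this

/-- An eigenvalue of an integral matrix is integral over `ℤ`. -/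
theorem isIntegral_of_mulVec_eq {F : Type*} [Field F] (T : Matrix n n ℤ) (v : n → F)
    (hv : v ≠ 0) (c : F) (h : T.map (Int.cast : ℤ → F) *ᵥ v = c • v) : IsIntegral ℤ c := by
  refine ⟨T.charpoly, Matrix.charpoly_monic T, ?_⟩
  have h1 : (T.map (Int.castRingHom F)).charpoly = T.charpoly.map (Int.castRingHom F) :=
    Matrix.charpoly_map T _
  rw [algebraMap_int_eq, ← Polynomial.eval_map, ← h1, Matrix.eval_charpoly,
    ← Matrix.exists_mulVec_eq_zero_iff]
  refine ⟨v, hv, ?_⟩
  rw [Matrix.sub_mulVec]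
  have h2 : (Matrix.scalar n c) *ᵥ v = c • v := by
    funext r
    simp [Matrix.scalar_apply, Matrix.mulVec, dotProduct, Matrix.diagonal_apply]
  rw [h2, sub_eq_zero]
  exact h.symm

end Core

/-! ### Integer-valued functions: linear independence after extension of scalars -/

section Indep

variable {G : Type*} {m : Type*} [Fintype m] [DecidableEq m]

/-- `ℤ`-independent integer-valued functions stay independent over a field of characteristic
zero. -/
theorem eq_zero_of_sum_mul_intCast_charZero (β : m → G → ℤ)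
    (hβ : ∀ z : m → ℤ, (∀ g, ∑ j, z j * β j g = 0) → z = 0)
    {F : Type*} [Field F] [CharZero F] (c : m → F)
    (hc : ∀ g, ∑ j, c j * (β j g : F) = 0) : c = 0 := by
  classical
  by_contra hne
  -- descend the dependence from `F` to `ℚ`
  obtain ⟨q, hq, hqr⟩ := exists_ne_zero_dotProduct_eq_zero_of_ringHom
    (algebraMap ℚ F) (algebraMap ℚ F).injective (RingHom.id ℚ)
    (fun g : G => fun j => (β j g : ℚ)) ⟨c, hne, fun g => by
      have := hc g
      simpa [dotProduct, mul_comm] using this⟩
  -- clear denominators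
  obtain ⟨N, hN⟩ := IsLocalization.exist_integer_multiples_of_finset (nonZeroDivisors ℤ)
    (Finset.univ.image q)
  have hint : ∀ j, ∃ z : ℤ, (z : ℚ) = (N : ℤ) * q j := by
    intro j
    obtain ⟨z, hz⟩ := hN (q j) (Finset.mem_image_of_mem q (Finset.mem_univ j))
    exact ⟨z, by simpa [Algebra.smul_def] using hz⟩
  choose z hz using hint
  have hz0 : z = 0 := by
    apply hβ
    intro g
    have h1 : ((∑ j, z j * β j g : ℤ) : ℚ) = (N : ℤ) * ∑ j, (β j g : ℚ) * q j := by
      push_cast
      rw [Finset.mul_sum]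
      refine Finset.sum_congr rfl fun j _ => ?_
      rw [hz j]; ring
    have h2 : ∑ j, (β j g : ℚ) * q j = 0 := by
      have := hqr g
      simpa [dotProduct] using this
    rw [h2, mul_zero] at h1
    exact_mod_cast h1
  apply hq
  funext j
  have h3 : ((N : ℤ) : ℚ) * q j = 0 := by
    rw [← hz j, hz0]; simp
  have hN0 : ((N : ℤ) : ℚ) ≠ 0 := by
    exact_mod_cast nonZeroDivisors.coe_ne_zero N
  simpa [hN0] using h3

/-- Integer-valued functions that are independent and saturated at `p` stay independent over a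
field of characteristic `p`. -/
theorem eq_zero_of_sum_mul_intCast_charP (β : m → G → ℤ) (p : ℕ) [Fact p.Prime]
    (hβ : ∀ z : m → ℤ, (∀ g, (p : ℤ) ∣ ∑ j, z j * β j g) → ∀ j, (p : ℤ) ∣ z j)
    {k : Type*} [Field k] [CharP k p] (c : m → k)
    (hc : ∀ g, ∑ j, c j * (β j g : k) = 0) : c = 0 := by
  classical
  by_contra hne
  let _ : Algebra (ZMod p) k := ZMod.algebra k p
  obtain ⟨q, hq, hqr⟩ := exists_ne_zero_dotProduct_eq_zero_of_ringHom
    (algebraMap (ZMod p) k) (algebraMap (ZMod p) k).injective (RingHom.id (ZMod p))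
    (fun g : G => fun j => (β j g : ZMod p)) ⟨c, hne, fun g => by
      have := hc g
      simpa [dotProduct, mul_comm] using this⟩
  apply hq
  funext j
  have hdvd : ∀ j, (p : ℤ) ∣ ((q j).val : ℤ) := by
    apply hβ
    intro g
    rw [← ZMod.intCast_zmod_eq_zero_iff_dvd]
    have := hqr g
    simpa [dotProduct, mul_comm] using this
  have := hdvd j
  rw [← ZMod.intCast_zmod_eq_zero_iff_dvd] at this
  simpa using this

end Indep

/-! ### The lattice of integer-valued homomorphisms vanishing on a set -/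

section HomLattice

variable {G : Type*} [AddGroup G]

/-- Integer-valued homomorphisms vanishing on `Par`. -/
def parLattice (Par : Set G) : Submodule ℤ (G →+ ℤ) where
  carrier := {χ | ∀ g ∈ Par, χ g = 0}
  zero_mem' := fun _ _ => rfl
  add_mem' := by
    intro χ ψ hχ hψ g hg
    show χ g + ψ g = 0
    rw [hχ g hg, hψ g hg, add_zero]
  smul_mem' := by
    intro c χ hχ g hg
    show c • χ g = 0
    rw [hχ g hg, smul_zero]

theorem mem_parLattice {Par : Set G} {χ : G →+ ℤ} :
    χ ∈ parLattice Par ↔ ∀ g ∈ Par, χ g = 0 := Iff.rfl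

/-- For a finitely generated group the lattice is free of finite rank. -/
theorem exists_basis_parLattice [AddGroup.FG G] (Par : Set G) :
    ∃ m : ℕ, Nonempty (Module.Basis (Fin m) ℤ (parLattice Par)) := by
  classical
  obtain ⟨S, hS⟩ := AddGroup.fg_def.mp ‹AddGroup.FG G›
  let ev : (parLattice Par) →ₗ[ℤ] (S → ℤ) :=
    { toFun := fun χ s => (χ : G →+ ℤ) s
      map_add' := fun _ _ => rfl
      map_smul' := fun _ _ => rfl }
  have hinj : Function.Injective ev := by
    intro χ ψ h
    apply Subtype.ext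
    apply AddMonoidHom.eq_of_eqOn_dense hS
    intro s hs
    exact congrFun h ⟨s, hs⟩
  have : Module.Finite ℤ (parLattice Par) := Module.Finite.of_injective ev hinj
  have : Module.IsTorsionFree ℤ (parLattice Par) :=
    hinj.moduleIsTorsionFree ev (fun _ _ => rfl)
  obtain ⟨n, b⟩ := Module.basisOfFiniteTypeTorsionFree' (R := ℤ) (M := parLattice Par)
  exact ⟨n, ⟨b⟩⟩

/-- A homomorphism from a finitely generated group to a field of characteristic zero is a
combination of integer-valued homomorphisms with the same vanishing. -/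
theorem exists_decomp_hom [AddGroup.FG G] {F : Type*} [Field F] [CharZero F] (Par : Set G)
    (P : G →+ F) (hPar : ∀ g ∈ Par, P g = 0) :
    ∃ (r : ℕ) (u : Fin r → F) (χ : Fin r → (G →+ ℤ)),
      (∀ l, χ l ∈ parLattice Par) ∧ ∀ g, P g = ∑ l, (χ l g : F) * u l := by
  classical
  have : AddGroup.FG P.range := AddGroup.fg_range P
  have : Module.Finite ℤ P.range := Module.Finite.iff_addGroup_fg.mpr inferInstance
  have : Module.IsTorsionFree ℤ P.range :=
    Function.Injective.moduleIsTorsionFree (P.range.subtype) Subtype.coe_injective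
      (fun _ _ => rfl)
  obtain ⟨r, b⟩ := Module.basisOfFiniteTypeTorsionFree' (R := ℤ) (M := P.range)
  refine ⟨r, fun l => (b l : F),
    fun l => (Finsupp.applyAddHom l).comp
      ((b.repr : P.range →ₗ[ℤ] (Fin r →₀ ℤ)).toAddMonoidHom.comp P.rangeRestrict), ?_, ?_⟩
  · intro l g hg
    have h0 : P.rangeRestrict g = 0 := Subtype.ext (hPar g hg)
    simp [h0]
  · intro g
    have h1 := b.sum_repr (P.rangeRestrict g)
    have h2 := congrArg (fun x : P.range => (x : F)) h1
    simp only [AddSubmonoidClass.coe_finsetSum] at h2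
    rw [show P g = ((P.rangeRestrict g : P.range) : F) from rfl, ← h2]
    refine Finset.sum_congr rfl fun l _ => ?_
    simp [zsmul_eq_mul]

/-- Coordinates in a basis of the lattice, evaluated. -/
theorem basis_parLattice_eval {Par : Set G} {m : ℕ}
    (b : Module.Basis (Fin m) ℤ (parLattice Par)) (χ : G →+ ℤ) (hχ : χ ∈ parLattice Par) (g : G) :
    χ g = ∑ j, b.repr ⟨χ, hχ⟩ j * (b j : G →+ ℤ) g := by
  have h1 := b.sum_repr ⟨χ, hχ⟩
  have h2 := congrArg (fun x : parLattice Par => (x : G →+ ℤ) g) h1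
  simp only [Submodule.coe_sum, Submodule.coe_smul, AddMonoidHom.finsetSum_apply,
    AddMonoidHom.smul_apply, smul_eq_mul] at h2
  exact h2.symm

/-- A basis of the lattice is `ℤ`-independent as a family of functions. -/
theorem basis_parLattice_indep {Par : Set G} {m : ℕ}
    (b : Module.Basis (Fin m) ℤ (parLattice Par)) (z : Fin m → ℤ)
    (hz : ∀ g, ∑ j, z j * (b j : G →+ ℤ) g = 0) : z = 0 := by
  have h0 : ∑ j, z j • b j = 0 := by
    apply Subtype.ext
    ext g
    simp only [Submodule.coe_sum, Submodule.coe_smul, AddMonoidHom.finsetSum_apply,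
      AddMonoidHom.smul_apply, smul_eq_mul]
    exact hz g
  funext j
  exact Fintype.linearIndependent_iff.mp b.linearIndependent z h0 j

/-- A basis of the lattice is saturated at every natural number `p ≠ 0`. -/
theorem basis_parLattice_sat {Par : Set G} {m : ℕ}
    (b : Module.Basis (Fin m) ℤ (parLattice Par)) (p : ℕ) (hp : p ≠ 0) (z : Fin m → ℤ)
    (hz : ∀ g, (p : ℤ) ∣ ∑ j, z j * (b j : G →+ ℤ) g) : ∀ j, (p : ℤ) ∣ z j := by
  have hp' : (p : ℤ) ≠ 0 := by exact_mod_cast hp
  let ψ : G →+ ℤ := ∑ j, z j • (b j : G →+ ℤ)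
  have hψ : ∀ g, ψ g = ∑ j, z j * (b j : G →+ ℤ) g := by
    intro g
    simp [ψ]
  have hdvd : ∀ g, (p : ℤ) ∣ ψ g := fun g => by rw [hψ]; exact hz g
  let f : G →+ ℤ := AddMonoidHom.mk' (fun g => ψ g / p) (by
    intro g h
    show ψ (g + h) / p = ψ g / p + ψ h / p
    rw [map_add, Int.add_ediv_of_dvd_left (hdvd g)])
  have hf : ∀ g, ψ g = p * f g := fun g => (Int.mul_ediv_cancel' (hdvd g)).symm
  have hfpar : f ∈ parLattice Par := by
    intro g hg
    have h1 : ψ g = 0 := by
      rw [hψ]
      refine Finset.sum_eq_zero fun j _ => ?_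
      rw [(b j).2 g hg, mul_zero]
    have h2 := hf g
    rw [h1] at h2
    exact (mul_eq_zero.mp h2.symm).resolve_left hp'
  have hzero := basis_parLattice_indep b (fun j => z j - p * b.repr ⟨f, hfpar⟩ j) (by
    intro g
    have h1 := basis_parLattice_eval b f hfpar g
    have h2 := hf g
    rw [hψ, h1, Finset.mul_sum] at h2
    simp only [sub_mul, Finset.sum_sub_distrib]
    rw [h2, sub_eq_zero]
    refine Finset.sum_congr rfl fun j _ => ?_
    ring)
  intro j
  have := congrFun hzero j
  simp only [Pi.zero_apply, sub_eq_zero] at this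
  exact ⟨_, this⟩

/-- The action of an operator compatible with the coefficient map, in coordinates. -/
theorem basis_parLattice_coord {Par : Set G} {m : ℕ}
    (b : Module.Basis (Fin m) ℤ (parLattice Par))
    (TZi : (G →+ ℤ) → (G →+ ℤ)) (hTZ : ∀ χ : G →+ ℤ, χ ∈ parLattice Par → TZi χ ∈ parLattice Par)
    {R : Type*} [Field R] (TR : (G →+ R) →ₗ[R] (G →+ R))
    (hTR : ∀ χ : G →+ ℤ, χ ∈ parLattice Par →
      TR ((Int.castAddHom R).comp χ) = (Int.castAddHom R).comp (TZi χ))
    (x : Fin m → R) (g : G) :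
    TR (∑ j, x j • (Int.castAddHom R).comp (b j : G →+ ℤ)) g
      = ∑ l, ((Matrix.of fun l j => b.repr ⟨TZi (b j : G →+ ℤ), hTZ _ (b j).2⟩ l).map
          (Int.cast : ℤ → R) *ᵥ x) l * ((b l : G →+ ℤ) g : R) := by
  have ht : ∀ j, TZi (b j : G →+ ℤ) g
      = ∑ l, b.repr ⟨TZi (b j : G →+ ℤ), hTZ _ (b j).2⟩ l * (b l : G →+ ℤ) g := fun j =>
    basis_parLattice_eval b _ (hTZ _ (b j).2) g
  rw [map_sum]
  simp only [map_smul, hTR _ (b _).2, AddMonoidHom.finsetSum_apply, AddMonoidHom.smul_apply,
    AddMonoidHom.coe_comp, Function.comp_apply, Int.coe_castAddHom, smul_eq_mul, ht,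
    Matrix.mulVec, dotProduct, Matrix.map_apply, Matrix.of_apply, Finset.sum_mul]
  push_cast
  simp only [Finset.mul_sum]
  rw [Finset.sum_comm]
  refine Finset.sum_congr rfl fun l _ => Finset.sum_congr rfl fun j _ => ?_
  ring

/-- Coordinates of an eigen-homomorphism: in a basis `b` of the lattice the operators are given
by integral matrices, and the coordinate vector of `P` is a simultaneous eigenvector. -/
theorem exists_eigen_coords [AddGroup.FG G] (Par : Set G) {F : Type*} [Field F] [CharZero F]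
    {m : ℕ} (b : Module.Basis (Fin m) ℤ (parLattice Par)) {I : Type*}
    (TZ : I → (G →+ ℤ) → (G →+ ℤ))
    (TZ_par : ∀ i (χ : G →+ ℤ), χ ∈ parLattice Par → TZ i χ ∈ parLattice Par)
    (TF : I → (G →+ F) →ₗ[F] (G →+ F))
    (hTF : ∀ i (χ : G →+ ℤ), χ ∈ parLattice Par →
      TF i ((Int.castAddHom F).comp χ) = (Int.castAddHom F).comp (TZ i χ))
    (c : I → F) (P : G →+ F) (hP : P ≠ 0) (hPar : ∀ g ∈ Par, P g = 0)
    (hev : ∀ i, TF i P = c i • P) :
    ∃ v : Fin m → F, v ≠ 0 ∧ ∀ i,
      (Matrix.of fun l j => b.repr ⟨TZ i (b j : G →+ ℤ), TZ_par i _ (b j).2⟩ l).map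
        (Int.cast : ℤ → F) *ᵥ v = c i • v := by
  classical
  have hindF : ∀ x : Fin m → F, (∀ g, ∑ j, x j * ((b j : G →+ ℤ) g : F) = 0) → x = 0 :=
    fun x hx => eq_zero_of_sum_mul_intCast_charZero (fun j g => (b j : G →+ ℤ) g)
      (basis_parLattice_indep b) x hx
  -- coordinates of `P`
  obtain ⟨r, u, χ, hχ, hPχ⟩ := exists_decomp_hom Par P hPar
  let v : Fin m → F := fun j => ∑ l, (b.repr ⟨χ l, hχ l⟩ j : F) * u l
  have hPv : P = ∑ j, v j • (Int.castAddHom F).comp (b j : G →+ ℤ) := by
    ext g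
    rw [hPχ g]
    simp only [AddMonoidHom.finsetSum_apply, AddMonoidHom.smul_apply, AddMonoidHom.coe_comp,
      Function.comp_apply, Int.coe_castAddHom, smul_eq_mul, v, Finset.sum_mul]
    rw [Finset.sum_comm]
    refine Finset.sum_congr rfl fun l _ => ?_
    rw [basis_parLattice_eval b (χ l) (hχ l) g]
    push_cast
    rw [Finset.sum_mul]
    refine Finset.sum_congr rfl fun j _ => ?_
    ring
  have hv : v ≠ 0 := by
    intro h0
    apply hP
    rw [hPv, h0]
    simp
  refine ⟨v, hv, fun i => ?_⟩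
  have h1 : ∀ g, ∑ l, (((Matrix.of fun l j =>
      b.repr ⟨TZ i (b j : G →+ ℤ), TZ_par i _ (b j).2⟩ l).map (Int.cast : ℤ → F) *ᵥ v) l
        - c i * v l) * ((b l : G →+ ℤ) g : F) = 0 := by
    intro g
    have h2 : TF i P g = (c i • P) g := congrArg (fun ψ : G →+ F => ψ g) (hev i)
    rw [hPv, basis_parLattice_coord b (TZ i) (TZ_par i) (TF i) (hTF i) v g] at h2
    simp only [sub_mul, Finset.sum_sub_distrib]
    rw [sub_eq_zero]
    refine h2.trans ?_
    simp only [AddMonoidHom.finsetSum_apply, AddMonoidHom.smul_apply, AddMonoidHom.coe_comp,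
      Function.comp_apply, Int.coe_castAddHom, smul_eq_mul, Finset.mul_sum, mul_assoc]
  have h3 := hindF _ h1
  funext l
  have h4 := congrFun h3 l
  simp only [Pi.zero_apply, sub_eq_zero] at h4
  rw [h4]
  rfl

/-- **Eigenvalues on homomorphisms of a finitely generated group are algebraic integers.** -/
theorem isIntegral_of_eigen_hom [AddGroup.FG G] (Par : Set G) {F : Type*} [Field F] [CharZero F]
    (TZ : (G →+ ℤ) → (G →+ ℤ))
    (TZ_par : ∀ χ : G →+ ℤ, χ ∈ parLattice Par → TZ χ ∈ parLattice Par)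
    (TF : (G →+ F) →ₗ[F] (G →+ F))
    (hTF : ∀ χ : G →+ ℤ, χ ∈ parLattice Par →
      TF ((Int.castAddHom F).comp χ) = (Int.castAddHom F).comp (TZ χ))
    (c : F) (P : G →+ F) (hP : P ≠ 0) (hPar : ∀ g ∈ Par, P g = 0)
    (hev : TF P = c • P) : IsIntegral ℤ c := by
  classical
  obtain ⟨m, ⟨b⟩⟩ := exists_basis_parLattice Par
  obtain ⟨v, hv, h⟩ := exists_eigen_coords Par b (I := Unit) (fun _ => TZ) (fun _ => TZ_par)
    (fun _ => TF) (fun _ => hTF) (fun _ => c) P hP hPar (fun _ => hev)
  exact isIntegral_of_mulVec_eq _ v hv c (h ())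

/-- **Betti side of (N3): reduction of an eigen-homomorphism.**

`G` a finitely generated group, `Par ⊆ G`; `TZ i`, `TF i`, `Tk i` operators on homomorphisms to
`ℤ`, `F`, `k` which are compatible with the coefficient maps `ℤ → F`, `ℤ → k` on integer-valued
homomorphisms vanishing on `Par` (for instance transfer operators, for which this is
`map_sum`), `TZ i` preserving vanishing on `Par`; **no commutation is assumed**.
If `P : G →+ F` is nonzero, vanishes on `Par` and `TF i P = a i • P` with `a i` in a subring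
`A ⊆ F`, then for every `φ : A →+* k` there is a nonzero `k`-combination of reductions of a
`ℤ`-basis `b` of the lattice of integer homomorphisms vanishing on `Par` on which `Tk i` acts by
`φ (a i)`.  The reductions of the basis are independent over `ZMod p` and over `k`. -/
theorem exists_eigen_hom [AddGroup.FG G] (Par : Set G)
    {A : Type*} [CommRing A] {F : Type*} [Field F] [CharZero F]
    (ι₀ : A →+* F) (hinj : Function.Injective ι₀)
    {k : Type*} [Field k] (p : ℕ) [Fact p.Prime] [CharP k p] (φ : A →+* k)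
    {I : Type*}
    (TZ : I → (G →+ ℤ) → (G →+ ℤ))
    (TZ_par : ∀ i (χ : G →+ ℤ), χ ∈ parLattice Par → TZ i χ ∈ parLattice Par)
    (TF : I → (G →+ F) →ₗ[F] (G →+ F))
    (hTF : ∀ i (χ : G →+ ℤ), χ ∈ parLattice Par →
      TF i ((Int.castAddHom F).comp χ) = (Int.castAddHom F).comp (TZ i χ))
    (Tk : I → (G →+ k) →ₗ[k] (G →+ k))
    (hTk : ∀ i (χ : G →+ ℤ), χ ∈ parLattice Par →
      Tk i ((Int.castAddHom k).comp χ) = (Int.castAddHom k).comp (TZ i χ))
    (a : I → A) (P : G →+ F) (hP : P ≠ 0) (hPar : ∀ g ∈ Par, P g = 0)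
    (hev : ∀ i, TF i P = ι₀ (a i) • P) :
    ∃ (m : ℕ) (b : Module.Basis (Fin m) ℤ (parLattice Par)) (d : Fin m → k),
      (∀ c : Fin m → ZMod p, (∀ g, ∑ j, c j * ((b j : G →+ ℤ) g : ZMod p) = 0) → c = 0) ∧
      (∀ c : Fin m → k, (∀ g, ∑ j, c j * ((b j : G →+ ℤ) g : k) = 0) → c = 0) ∧
      d ≠ 0 ∧
      ∀ i, Tk i (∑ j, d j • (Int.castAddHom k).comp (b j : G →+ ℤ))
        = φ (a i) • ∑ j, d j • (Int.castAddHom k).comp (b j : G →+ ℤ) := by
  classical
  obtain ⟨m, ⟨b⟩⟩ := exists_basis_parLattice Par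
  have hp0 : p ≠ 0 := (Fact.out : p.Prime).ne_zero
  have hindp : ∀ c : Fin m → ZMod p,
      (∀ g, ∑ j, c j * ((b j : G →+ ℤ) g : ZMod p) = 0) → c = 0 :=
    fun c hc => eq_zero_of_sum_mul_intCast_charP (fun j g => (b j : G →+ ℤ) g) p
      (basis_parLattice_sat b p hp0) c hc
  have hindk : ∀ c : Fin m → k, (∀ g, ∑ j, c j * ((b j : G →+ ℤ) g : k) = 0) → c = 0 :=
    fun c hc => eq_zero_of_sum_mul_intCast_charP (fun j g => (b j : G →+ ℤ) g) p
      (basis_parLattice_sat b p hp0) c hc
  obtain ⟨v, hv, hvF⟩ := exists_eigen_coords Par b TZ TZ_par TF hTF (fun i => ι₀ (a i)) P hP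
    hPar hev
  obtain ⟨d, hd, hdk⟩ := exists_eigenvector_int ι₀ hinj φ
    (fun i => Matrix.of fun l j => b.repr ⟨TZ i (b j : G →+ ℤ), TZ_par i _ (b j).2⟩ l)
    a v hv hvF
  refine ⟨m, b, d, hindp, hindk, hd, fun i => ?_⟩
  ext g
  rw [basis_parLattice_coord b (TZ i) (TZ_par i) (Tk i) (hTk i) d g]
  have h5 : ∀ l, ((Matrix.of fun l j => b.repr ⟨TZ i (b j : G →+ ℤ), TZ_par i _ (b j).2⟩ l).map
      (Int.cast : ℤ → k) *ᵥ d) l = φ (a i) * d l := by
    intro l
    exact congrFun (hdk i) l
  simp only [h5, AddMonoidHom.finsetSum_apply, AddMonoidHom.smul_apply, AddMonoidHom.coe_comp,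
    Function.comp_apply, Int.coe_castAddHom, smul_eq_mul, Finset.mul_sum, mul_assoc]

/-- The same with eigenvalues given in `F`: they are algebraic integers, and the reduction is
taken along any ring homomorphism `φ` from the ring of algebraic integers of `F`. -/
theorem exists_eigen_hom_integralClosure [AddGroup.FG G] (Par : Set G)
    {F : Type*} [Field F] [CharZero F]
    {k : Type*} [Field k] (p : ℕ) [Fact p.Prime] [CharP k p] (φ : integralClosure ℤ F →+* k)
    {I : Type*}
    (TZ : I → (G →+ ℤ) → (G →+ ℤ))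
    (TZ_par : ∀ i (χ : G →+ ℤ), χ ∈ parLattice Par → TZ i χ ∈ parLattice Par)
    (TF : I → (G →+ F) →ₗ[F] (G →+ F))
    (hTF : ∀ i (χ : G →+ ℤ), χ ∈ parLattice Par →
      TF i ((Int.castAddHom F).comp χ) = (Int.castAddHom F).comp (TZ i χ))
    (Tk : I → (G →+ k) →ₗ[k] (G →+ k))
    (hTk : ∀ i (χ : G →+ ℤ), χ ∈ parLattice Par →
      Tk i ((Int.castAddHom k).comp χ) = (Int.castAddHom k).comp (TZ i χ))
    (c : I → F) (P : G →+ F) (hP : P ≠ 0) (hPar : ∀ g ∈ Par, P g = 0)
    (hev : ∀ i, TF i P = c i • P) :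
    ∃ a : I → integralClosure ℤ F, (∀ i, (a i : F) = c i) ∧
    ∃ (m : ℕ) (b : Module.Basis (Fin m) ℤ (parLattice Par)) (d : Fin m → k),
      (∀ x : Fin m → ZMod p, (∀ g, ∑ j, x j * ((b j : G →+ ℤ) g : ZMod p) = 0) → x = 0) ∧
      (∀ x : Fin m → k, (∀ g, ∑ j, x j * ((b j : G →+ ℤ) g : k) = 0) → x = 0) ∧
      d ≠ 0 ∧
      ∀ i, Tk i (∑ j, d j • (Int.castAddHom k).comp (b j : G →+ ℤ))
        = φ (a i) • ∑ j, d j • (Int.castAddHom k).comp (b j : G →+ ℤ) := by
  have hint : ∀ i, IsIntegral ℤ (c i) := fun i =>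
    isIntegral_of_eigen_hom Par (TZ i) (TZ_par i) (TF i) (hTF i) (c i) P hP hPar (hev i)
  refine ⟨fun i => ⟨c i, hint i⟩, fun i => rfl, ?_⟩
  exact exists_eigen_hom Par (algebraMap (integralClosure ℤ F) F) Subtype.coe_injective p φ
    TZ TZ_par TF hTF Tk hTk (fun i => ⟨c i, hint i⟩) P hP hPar hev

end HomLattice

end Fermat.Agent.S29.H89
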