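import Mathlib
import Fermat.Agent.S29.Lat_helper89

/-!
# Characters of a commutative ring acting faithfully on a finite free module occur as eigensystems

Generic linear algebra (Mathlib only, on top of `Lat_helper89`).  Let `T` be a commutative ring,
`R` a commutative ring and `M : T →+* Matrix n n R` an **injective** ring homomorphism (a faithful
action of `T` on `Rⁿ`), `M t` having entries in the image of a ring homomorphism `c : R →+* T`
compatible with `M` (for instance `R = ℤ`).  Then for every ring homomorphism `χ : T →+* K` into
a field there is a nonzero vector `w ∈ Kⁿ` with `w ᵥ* M t = χ t • w` for all `t`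
(`exists_left_eigenvector_of_faithful`), and likewise `M t *ᵥ w = χ t • w`
(`exists_right_eigenvector_of_faithful`).  Proof: determinant trick (all `n × n` minors of the
stacked system `M t - t` vanish in `T` by faithfulness) and the minors criterion of
`Lat_helper89`.  No Artinian decomposition, no characteristic hypothesis.
-/

set_option autoImplicit false

namespace Fermat.Agent.S29.H89

open Matrix

section Faithful

variable {n : Type*} [Fintype n] [DecidableEq n]

/-- **Determinant trick.**  If `M : T →+* Matrix n n ℤ` is injective, every `n × n` minor of the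
stacked system with rows `(M t)_{· l} - t • δ_{· l}` vanishes in `T`. -/
theorem det_rows_eq_zero_of_faithful {T : Type*} [CommRing T] (M : T →+* Matrix n n ℤ)
    (hM : Function.Injective M) (f : n → T × n) :
    (Matrix.of fun s j => ((M (f s).1 j (f s).2 : ℤ) : T) - if j = (f s).2 then (f s).1 else 0).det
      = 0 := by
  classical
  set N : Matrix n n T :=
    Matrix.of fun s j => ((M (f s).1 j (f s).2 : ℤ) : T) - if j = (f s).2 then (f s).1 else 0
    with hN
  apply hM
  rw [map_zero]
  -- entries of the images of the entries of `N`
  have hent : ∀ s j b, M (N s j) b j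
      = (if b = j then M (f s).1 j (f s).2 else 0)
        - (if j = (f s).2 then M (f s).1 b j else 0) := by
    intro s j b
    simp only [hN, Matrix.of_apply, map_sub, map_intCast, Matrix.sub_apply,
      Matrix.intCast_apply, Int.cast_id]
    congr 1
    split_ifs <;> simp
  -- each row of `N` kills the tautological vector of basis vectors
  have hrow : ∀ s b, ∑ j, M (N s j) b j = 0 := by
    intro s b
    simp only [hent, Finset.sum_sub_distrib]
    rw [Finset.sum_ite_eq, Finset.sum_ite_eq']
    simp
  -- multiply by the adjugate
  have hadj : ∀ i a, M N.det a i = 0 := by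
    intro i a
    have h3 : ∑ j, M ((N.adjugate * N) i j) a j = 0 := by
      have h4 : ∀ j, M ((N.adjugate * N) i j) a j
          = ∑ s, ∑ b, M (N.adjugate i s) a b * M (N s j) b j := by
        intro j
        rw [Matrix.mul_apply, map_sum, Matrix.sum_apply]
        refine Finset.sum_congr rfl fun s _ => ?_
        rw [map_mul, Matrix.mul_apply]
      simp only [h4]
      rw [Finset.sum_comm]
      refine Finset.sum_eq_zero fun s _ => ?_
      rw [Finset.sum_comm]
      refine Finset.sum_eq_zero fun b _ => ?_
      rw [← Finset.mul_sum, hrow s b, mul_zero]
    rw [Matrix.adjugate_mul] at h3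
    rw [← h3]
    rw [Finset.sum_eq_single i (by
      intro b _ hb
      simp [Matrix.smul_apply, Ne.symm hb]) (by simp)]
    simp [Matrix.smul_apply]
  ext a b
  exact hadj b a

/-- **Every character occurs (left eigenvector).** -/
theorem exists_left_eigenvector_of_faithful {T : Type*} [CommRing T] (M : T →+* Matrix n n ℤ)
    (hM : Function.Injective M) {K : Type*} [Field K] (χ : T →+* K) :
    ∃ w : n → K, w ≠ 0 ∧ ∀ t : T, w ᵥ* (M t).map (Int.cast : ℤ → K) = χ t • w := by
  classical
  obtain ⟨w, hw, h⟩ := exists_ne_zero_dotProduct_eq_zero (K := K)
    (fun x : T × n => fun j => χ (((M x.1 j x.2 : ℤ) : T) - if j = x.2 then x.1 else 0))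
    (fun f => by
      have := congrArg χ (det_rows_eq_zero_of_faithful M hM f)
      rw [map_zero, RingHom.map_det] at this
      simpa [RingHom.mapMatrix_apply, Matrix.map] using this)
  refine ⟨w, hw, fun t => ?_⟩
  funext l
  have h1 := h (t, l)
  simp only [dotProduct, map_sub, map_intCast] at h1
  simp only [Matrix.vecMul, dotProduct, Matrix.map_apply, Pi.smul_apply, smul_eq_mul]
  have h2 : ∑ j, (((M t j l : ℤ) : K) - χ (if j = l then t else 0)) * w j
      = ∑ j, w j * ((M t j l : ℤ) : K) - χ t * w l := by
    simp only [sub_mul, Finset.sum_sub_distrib]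
    congr 1
    · exact Finset.sum_congr rfl fun j _ => mul_comm _ _
    · rw [Finset.sum_eq_single l (by intro b _ hb; simp [hb]) (by simp)]
      simp
  rw [h2, sub_eq_zero] at h1
  exact h1

/-- **Every character occurs (right eigenvector).** -/
theorem exists_right_eigenvector_of_faithful {T : Type*} [CommRing T] (M : T →+* Matrix n n ℤ)
    (hM : Function.Injective M) {K : Type*} [Field K] (χ : T →+* K) :
    ∃ w : n → K, w ≠ 0 ∧ ∀ t : T, (M t).map (Int.cast : ℤ → K) *ᵥ w = χ t • w := by
  classical
  -- the transposed action is again a ring homomorphism because `T` is commutative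
  let M' : T →+* Matrix n n ℤ :=
    { toFun := fun t => (M t)ᵀ
      map_one' := by simp
      map_mul' := fun s t => by
        rw [mul_comm s t, map_mul, Matrix.transpose_mul]
      map_zero' := by simp
      map_add' := fun s t => by simp }
  have hM' : Function.Injective M' := fun s t h => hM (Matrix.transpose_injective h)
  obtain ⟨w, hw, h⟩ := exists_left_eigenvector_of_faithful M' hM' χ
  refine ⟨w, hw, fun t => ?_⟩
  have := h t
  rw [← this]
  funext l
  simp [M', Matrix.vecMul, Matrix.mulVec, dotProduct, mul_comm]

end Faithful

end Fermat.Agent.S29.H89
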