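/-
S29, (HK) support (helper16): the norm along `α = heckeAlphaBar` as a product over ANY explicit
family of `ℓ + 1` distinct embeddings of `Fbar_{Nℓ}` which restrict to a common ring hom `g` on
`α(Fbar_N)` - packaged so that the consumer does no instance work.

* `norm_alpha_eq_prod`: `g (Norm_α z) = ∏ x, s x z`;
* `heckeNorm_eq_prod`: `g (heckeNorm N ℓ y) = ∏ x, s x (β y)` (`heckeNorm = Norm_β(α ·) = Norm_α(β ·)`);
* `injective_of_apply`: the family is injective as soon as its values at ONE element (for instance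
  `β j = j(q^ℓ)`) are pairwise distinct.
-/
import Mathlib
import Fermat.Agent.S29.Swap_helper16

set_option autoImplicit false
set_option linter.unusedSectionVars false
set_option linter.style.haveILetI false

open IntermediateField ModularCurve Polynomial AlgebraicCurve

namespace Fermat.Agent.S29.H16

open Fermat.Agent.S18.H16 (Kbar Ebar jE)
open Fermat.Agent.S37.H16 (FN)

noncomputable section

variable (N ℓ : ℕ) [NeZero N] [NeZero ℓ]

/-- **Norm along `α` = product over an explicit full family of embeddings.** -/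
theorem norm_alpha_eq_prod {W : Type*} [Field W] {ι : Type*} [Fintype ι]
    (hℓ : ℓ.Prime) (hℓN : ¬ ℓ ∣ N) (g : FN N →+* W) (s : ι → FN (N * ℓ) →+* W)
    (hs : ∀ x y, s x (heckeAlphaBar Kbar N ℓ y) = g y) (hinj : Function.Injective s)
    (hcard : Fintype.card ι = ℓ + 1) (z : FN (N * ℓ)) :
    g (letI := AlgebraicCurve.algebraAlong (heckeAlphaBar Kbar N ℓ); Algebra.norm (FN N) z)
      = ∏ x, s x z := by
  have hfin := finrank_along_alpha N ℓ hℓ hℓN
  have hfα := S37.H37.finiteAlong_FN N (N * ℓ) (heckeAlphaBar Kbar N ℓ)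
  letI := AlgebraicCurve.algebraAlong (heckeAlphaBar Kbar N ℓ)
  haveI : FiniteDimensional (FN N) (FN (N * ℓ)) := hfα
  exact S37.H16.norm_eq_prod_of_ringHoms g s hs hinj (hcard.trans hfin.symm) z

/-- The same for the landed `heckeNorm N ℓ y` (`= Norm_β (α y) = Norm_α (β y)`). -/
theorem heckeNorm_eq_prod {W : Type*} [Field W] {ι : Type*} [Fintype ι]
    (hℓ : ℓ.Prime) (hℓN : ¬ ℓ ∣ N) (g : FN N →+* W) (s : ι → FN (N * ℓ) →+* W)
    (hs : ∀ x y, s x (heckeAlphaBar Kbar N ℓ y) = g y) (hinj : Function.Injective s)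
    (hcard : Fintype.card ι = ℓ + 1) (y : FN N) :
    g (S37.H58.heckeNorm N ℓ y) = ∏ x, s x (heckeBetaBar Kbar N ℓ y) := by
  rw [← norm_alpha_beta_eq_heckeNorm N ℓ hℓ hℓN y]
  exact norm_alpha_eq_prod N ℓ hℓ hℓN g s hs hinj hcard (heckeBetaBar Kbar N ℓ y)

/-- A family of ring homs on `Fbar_{Nℓ}` is injective as soon as its values at one element are
pairwise distinct. -/
theorem injective_of_apply {W : Type*} [Field W] {ι : Type*} (s : ι → FN (N * ℓ) →+* W)
    (z : FN (N * ℓ)) (h : ∀ x x', s x z = s x' z → x = x') : Function.Injective s :=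
  fun x x' hxx => h x x' (by rw [hxx])

end

end Fermat.Agent.S29.H16
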