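import Mathlib
import Fermat.Agent.S29.Stmts_helper27

/-!
# S29 (PSI), the formal layer (helper27)

`psiStmt_of_rel` : the interface statement `H27.PsiStmt N m` from an ABSTRACT relation
`R χ D` ("`D` is a Kummer divisor of the character `χ` modulo `m`") between
`χ ∈ Hom_par(Γ₀(N), ℤ)` and degree-zero divisors `D` of `X₀(N)` over `Qbar`, with

* `hex`    : every `χ` has a Kummer divisor;
* `hadd`, `hneg` : `R` is additive;
* `htors`  : `R χ D → m • D` is principal;
* `huniq`  : `R 0 D → D` is principal;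
* `hker`   : `R χ D`, `D` principal `→ χ ∈ m • Hom_par`;
* `hhecke` : `R χ D`, `χ'` the Hecke transfer of `χ` at `ℓ ∤ N` `→` there is `E` with `R χ' E`
  and `T_ℓ [D] = [E]`.

The concrete relation (node (KUMQ)): `R χ D := ∃ f₀ ≠ 0, div f₀ = m • D ∧ κ(f₀) = e(χ / m)`,
`κ` the Kummer character of the function `f₀` (multiplier of an `m`-th root on the upper half
plane).
-/

set_option autoImplicit false

open ModularCurve ModularCurve.Period CongruenceSubgroup AlgebraicCurve
open scoped MatrixGroups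

namespace Fermat.Agent.S29.H27

noncomputable section

local notation "Qb" => AlgebraicClosure ℚ

variable (N m : ℕ) [NeZero N]

/-- **(PSI) from an abstract Kummer relation.** -/
theorem psiStmt_of_rel
    (R : Lam N → Divisor.degZero (K := Qb) (F := modularFunctionFieldBar N) → Prop)
    (hex : ∀ χ : Lam N, ∃ D, R χ D)
    (hadd : ∀ χ₁ χ₂ D₁ D₂, R χ₁ D₁ → R χ₂ D₂ → R (χ₁ + χ₂) (D₁ + D₂))
    (hneg : ∀ χ D, R χ D → R (-χ) (-D))
    (htors : ∀ χ D, R χ D →
      m • (D : Divisor Qb (modularFunctionFieldBar N)) ∈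
        Divisor.principal (K := Qb) (F := modularFunctionFieldBar N))
    (huniq : ∀ D, R 0 D →
      (D : Divisor Qb (modularFunctionFieldBar N)) ∈
        Divisor.principal (K := Qb) (F := modularFunctionFieldBar N))
    (hker : ∀ χ D, R χ D →
      (D : Divisor Qb (modularFunctionFieldBar N)) ∈
        Divisor.principal (K := Qb) (F := modularFunctionFieldBar N) →
      ∃ χ' : Lam N, χ = m • χ')
    (hhecke : ∀ ℓ : Nat.Primes, ¬ (ℓ : ℕ) ∣ N → ∀ (χ χ' : Lam N) (D), R χ D →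
      H06.IsHeckeTr N ℓ (χ : Additive (Gamma0 N) →+ ℤ) (χ' : Additive (Gamma0 N) →+ ℤ) →
      ∃ E, R χ' E ∧ heckeOperatorBar N ℓ (Pic0.mk D : JZero N) = Pic0.mk E) :
    PsiStmt N m := by
  classical
  -- classes of principal degree-zero divisors vanish
  have hmk0 : ∀ D : Divisor.degZero (K := Qb) (F := modularFunctionFieldBar N),
      (D : Divisor Qb (modularFunctionFieldBar N)) ∈
        Divisor.principal (K := Qb) (F := modularFunctionFieldBar N) ↔
      (Pic0.mk D : JZero N) = 0 := by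
    intro D
    rw [Pic0.mk, QuotientAddGroup.eq_zero_iff, AddSubgroup.mem_addSubgroupOf]
  -- well-definedness
  have hwd : ∀ χ D₁ D₂, R χ D₁ → R χ D₂ → (Pic0.mk D₁ : JZero N) = Pic0.mk D₂ := by
    intro χ D₁ D₂ h₁ h₂
    have h := hadd χ (-χ) D₁ (-D₂) h₁ (hneg χ D₂ h₂)
    rw [add_neg_cancel] at h
    have h0 := (hmk0 _).mp (huniq _ h)
    have h1 : (Pic0.mk (D₁ + -D₂) : JZero N) = Pic0.mk D₁ - Pic0.mk D₂ := by
      rw [← sub_eq_add_neg]; rfl
    rw [h1, sub_eq_zero] at h0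
    exact h0
  let Ψf : Lam N → JZero N := fun χ => Pic0.mk (hex χ).choose
  have hΨ : ∀ χ D, R χ D → Ψf χ = Pic0.mk D := fun χ D h =>
    hwd χ _ _ (hex χ).choose_spec h
  let Ψ : Lam N →+ JZero N := AddMonoidHom.mk' Ψf (by
    intro χ₁ χ₂
    have h := hadd χ₁ χ₂ _ _ (hex χ₁).choose_spec (hex χ₂).choose_spec
    rw [hΨ _ _ h]
    rfl)
  refine ⟨Ψ, ?_, ?_, ?_⟩
  · intro χ
    have h := htors χ _ (hex χ).choose_spec
    have h1 : m • Ψ χ = (Pic0.mk (m • (hex χ).choose) : JZero N) := rfl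
    rw [h1, ← hmk0, AddSubgroup.coe_nsmul]
    exact h
  · intro χ h0
    exact hker χ _ (hex χ).choose_spec ((hmk0 _).mpr h0)
  · intro ℓ hℓ χ χ' hT
    obtain ⟨E, hE, hTE⟩ := hhecke ℓ hℓ χ χ' _ (hex χ).choose_spec hT
    have h1 : Ψ χ = Pic0.mk (hex χ).choose := rfl
    have h2 : Ψ χ' = Pic0.mk E := hΨ χ' E hE
    rw [h1, h2, hTE]

end

end Fermat.Agent.S29.H27
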