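import Mathlib
import Fermat.Agent.S29.Stmts_helper27
import Fermat.Agent.S37.HeckeInputs_helper37
import Fermat.Agent.S37.K1Gen_helper72
import Fermat.Agent.S18.PlaceInst_helper60
import Fermat.Agent.S18.PrincDiv_helper98

/-!
# S29: the formal top of (PSI) (helper8)

`H27.PsiStmt N m` (the Kummer class map `Ψ_m : Hom_par(Γ₀(N), ℤ) → J₀(N)`) from a relation `R`
between characters and *Kummer elements* of `Fbar_N = modularFunctionFieldBar N`, i.e. nonzero
functions whose divisor is divisible by `m`.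

* `IsKumClass m h x` : `x` is the class of the divisor `div h / m`.
* `heckeNorm N ℓ h` : `Norm_α (β h)` (`α` the inclusion `q ↦ q`, `β : q ↦ q ^ ℓ`); its divisor is
  the image of `div h` under the Hecke correspondence `α_* β^*`.
* `IsKumClass.hecke` : `T_ℓ [div h / m] = [div (Norm_α (β h)) / m]`.
* `psiStmt_of_rel` : the assembly.
-/

set_option autoImplicit false

open AlgebraicCurve ModularCurve CongruenceSubgroup

namespace Fermat.Agent.S29.H08

open Fermat.Agent.S18 Fermat.Agent.S37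

noncomputable section

local notation "Qb" => AlgebraicClosure ℚ

section Kummer

variable {N : ℕ} [NeZero N]

/-- `x` is the Kummer class of `h` modulo `m`: `x = [D]` with `m • D = div h`. -/
def IsKumClass (m : ℕ) (h : ↥(modularFunctionFieldBar N)) (x : JZero N) : Prop :=
  h ≠ 0 ∧ ∃ D : Divisor.degZero (K := Qb) (F := modularFunctionFieldBar N),
    (∀ v : Place Qb ↥(modularFunctionFieldBar N),
      (m : ℤ) * (D : Divisor Qb ↥(modularFunctionFieldBar N)) v = v.ord h) ∧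
    Pic0.mk D = x

variable {m : ℕ}

/-- a divisor `D` with `m • D = div h` has degree zero. -/
theorem degree_eq_zero_of_mul_eq_ord (hm : m ≠ 0) {h : ↥(modularFunctionFieldBar N)}
    (hh : h ≠ 0) (D : Divisor Qb ↥(modularFunctionFieldBar N))
    (hD : ∀ v : Place Qb ↥(modularFunctionFieldBar N), (m : ℤ) * D v = v.ord h) :
    Divisor.degree D = 0 := by
  haveI := H98.hasPrincipalDivisors_FN N
  obtain ⟨Dh, hDh, hdeg⟩ := HasPrincipalDivisors.exists_divisor (K := Qb) h hh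
  have e : (m : ℤ) • D = Dh := by
    refine Finsupp.ext fun v => ?_
    rw [Finsupp.smul_apply, smul_eq_mul, hD v, hDh v]
  have h2 : (m : ℤ) * Divisor.degree D = 0 := by
    rw [← smul_eq_mul, ← map_zsmul, e, hdeg]
  rcases mul_eq_zero.mp h2 with h3 | h3
  · exact absurd (by exact_mod_cast h3) hm
  · exact h3

/-- existence of the Kummer class. -/
theorem IsKumClass.exists (hm : m ≠ 0) {h : ↥(modularFunctionFieldBar N)} (hh : h ≠ 0)
    (hdiv : ∀ v : Place Qb ↥(modularFunctionFieldBar N), (m : ℤ) ∣ v.ord h) :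
    ∃ x : JZero N, IsKumClass m h x := by
  haveI := H98.hasPrincipalDivisors_FN N
  obtain ⟨Dh, hDh, -⟩ := HasPrincipalDivisors.exists_divisor (K := Qb) h hh
  set D : Divisor Qb ↥(modularFunctionFieldBar N) :=
    Finsupp.mapRange (fun n : ℤ => n / (m : ℤ)) (Int.zero_ediv _) Dh with hDdef
  have hD : ∀ v : Place Qb ↥(modularFunctionFieldBar N), (m : ℤ) * D v = v.ord h := by
    intro v
    rw [hDdef, Finsupp.mapRange_apply, hDh v]
    exact Int.mul_ediv_cancel' (hdiv v)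
  exact ⟨Pic0.mk ⟨D, degree_eq_zero_of_mul_eq_ord hm hh D hD⟩, hh, ⟨D, _⟩, hD, rfl⟩

/-- uniqueness of the Kummer class. -/
theorem IsKumClass.unique (hm : m ≠ 0) {h : ↥(modularFunctionFieldBar N)} {x x' : JZero N}
    (hx : IsKumClass m h x) (hx' : IsKumClass m h x') : x = x' := by
  obtain ⟨-, D, hD, rfl⟩ := hx
  obtain ⟨-, D', hD', rfl⟩ := hx'
  have hm' : (m : ℤ) ≠ 0 := by exact_mod_cast hm
  have e : D = D' := by
    apply Subtype.ext
    refine Finsupp.ext fun v => ?_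
    exact mul_left_cancel₀ hm' ((hD v).trans (hD' v).symm)
  rw [e]

/-- multiplicativity. -/
theorem IsKumClass.mul {h h' : ↥(modularFunctionFieldBar N)} {x x' : JZero N}
    (hx : IsKumClass m h x) (hx' : IsKumClass m h' x') : IsKumClass m (h * h') (x + x') := by
  obtain ⟨hh, D, hD, rfl⟩ := hx
  obtain ⟨hh', D', hD', rfl⟩ := hx'
  refine ⟨mul_ne_zero hh hh', D + D', fun v => ?_, rfl⟩
  rw [AddSubgroup.coe_add, Finsupp.add_apply, mul_add, hD v, hD' v, v.ord_mul hh hh']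

/-- the Kummer class is killed by `m`. -/
theorem IsKumClass.nsmul_eq_zero {h : ↥(modularFunctionFieldBar N)} {x : JZero N}
    (hx : IsKumClass m h x) : m • x = 0 := by
  obtain ⟨hh, D, hD, rfl⟩ := hx
  have e : m • (Pic0.mk D : JZero N) = Pic0.mk (m • D) := rfl
  rw [e]
  refine (QuotientAddGroup.eq_zero_iff _).mpr ?_
  rw [AddSubgroup.mem_addSubgroupOf]
  refine ⟨h, hh, fun v => ?_⟩
  rw [AddSubgroup.coe_nsmul, Finsupp.smul_apply, nsmul_eq_mul, hD v]

/-- the Kummer class of a constant times an `m`-th power is trivial. -/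
theorem IsKumClass.const_mul_pow {c : Qb} {r : ↥(modularFunctionFieldBar N)} (hc : c ≠ 0)
    (hr : r ≠ 0) :
    IsKumClass m (algebraMap Qb ↥(modularFunctionFieldBar N) c * r ^ m) (0 : JZero N) := by
  haveI := H98.hasPrincipalDivisors_FN N
  obtain ⟨Dr, hDr, hdeg⟩ := HasPrincipalDivisors.exists_divisor (K := Qb) r hr
  have hc' : algebraMap Qb ↥(modularFunctionFieldBar N) c ≠ 0 := by
    rwa [Ne, map_eq_zero]
  refine ⟨mul_ne_zero hc' (pow_ne_zero _ hr), ⟨Dr, hdeg⟩, fun v => ?_, ?_⟩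
  · rw [v.ord_mul hc' (pow_ne_zero _ hr), S24.H19.ord_algebraMap, zero_add, S24.H19.ord_pow]
    exact congrArg _ (hDr v)
  · refine (QuotientAddGroup.eq_zero_iff _).mpr ?_
    rw [AddSubgroup.mem_addSubgroupOf]
    exact ⟨r, hr, hDr⟩

/-- a function with trivial Kummer class is a constant times an `m`-th power. -/
theorem IsKumClass.eq_const_mul_pow {h : ↥(modularFunctionFieldBar N)}
    (hx : IsKumClass m h (0 : JZero N)) :
    ∃ (c : Qb) (r : ↥(modularFunctionFieldBar N)), c ≠ 0 ∧ r ≠ 0 ∧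
      h = algebraMap Qb ↥(modularFunctionFieldBar N) c * r ^ m := by
  obtain ⟨hh, D, hD, hD0⟩ := hx
  have hprin := (QuotientAddGroup.eq_zero_iff _).mp hD0
  rw [AddSubgroup.mem_addSubgroupOf] at hprin
  obtain ⟨r, hr, hDr⟩ := hprin
  have hrm : r ^ m ≠ 0 := pow_ne_zero _ hr
  have hord : ∀ Q : Place Qb ↥(modularFunctionFieldBar N), Q.ord (h / r ^ m) = 0 := by
    intro Q
    rw [S24.H19.ord_div Q hh hrm, S24.H19.ord_pow, ← hD Q, hDr Q, sub_self]
  obtain ⟨c, hc⟩ := H60.bar_exists_algebraMap_eq_of_forall_ord_eq_zero N (h / r ^ m) hord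
  refine ⟨c, r, ?_, hr, ?_⟩
  · rintro rfl
    rw [map_zero, div_eq_zero_iff] at hc
    rcases hc with hc | hc
    · exact hh hc
    · exact hrm hc
  · rw [← hc, div_mul_cancel₀ _ hrm]

/-- the Kummer class only depends on the function up to constants and `m`-th powers. -/
theorem IsKumClass.congr {h h' : ↥(modularFunctionFieldBar N)} {x : JZero N}
    (hx : IsKumClass m h x) {c : Qb} {r : ↥(modularFunctionFieldBar N)} (hc : c ≠ 0)
    (hr : r ≠ 0) (e : h' = algebraMap Qb ↥(modularFunctionFieldBar N) c * r ^ m * h) :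
    IsKumClass m h' x := by
  have h1 := (IsKumClass.const_mul_pow (m := m) hc hr).mul hx
  rw [zero_add] at h1
  rw [e]
  exact h1

end Kummer

section Hecke

variable (N : ℕ) [NeZero N]

/-- `Norm_α (β h)`: the norm, along the inclusion `α : Fbar_N → Fbar_{Nℓ}`, of `h (q ^ ℓ)`. -/
def heckeNorm (ℓ : Nat.Primes) (h : ↥(modularFunctionFieldBar N)) :
    ↥(modularFunctionFieldBar N) :=
  haveI : NeZero (ℓ : ℕ) := ⟨ℓ.2.ne_zero⟩
  letI := algebraAlong (heckeAlphaBar Qb N ℓ)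
  Algebra.norm ↥(modularFunctionFieldBar N) (heckeBetaBar Qb N ℓ h)

variable {N}

/-- **Hecke on Kummer classes**: `T_ℓ [div h / m] = [div (Norm_α (β h)) / m]`. -/
theorem IsKumClass.hecke {m : ℕ} (ℓ : Nat.Primes) {h : ↥(modularFunctionFieldBar N)}
    {x : JZero N} (hx : IsKumClass m h x) :
    IsKumClass m (heckeNorm N ℓ h) (heckeOperatorBar N ℓ x) := by
  haveI : NeZero (ℓ : ℕ) := ⟨ℓ.2.ne_zero⟩
  obtain ⟨hh, D, hD, rfl⟩ := hx
  obtain ⟨hα, hβ, hP, hfin, hFI, hN⟩ := H37.heckeInputsAlong N (ℓ : ℕ)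
  obtain ⟨E, hE, hTE⟩ := H72.heckeOperatorBar_mk N (ℓ : ℕ) ℓ.2 hα hβ hFI hfin hN D
  -- the divisor of `h`
  haveI := H98.hasPrincipalDivisors_FN N
  obtain ⟨Dh, hDh, -⟩ := HasPrincipalDivisors.exists_divisor (K := Qb) h hh
  have e : (m : ℤ) • (D : Divisor Qb ↥(modularFunctionFieldBar N)) = Dh := by
    refine Finsupp.ext fun v => ?_
    rw [Finsupp.smul_apply, smul_eq_mul, hD v, hDh v]
  -- the pull-back of `div h` is `div (β h)`
  have hβh : heckeBetaBar Qb N (ℓ : ℕ) h ≠ 0 := (map_ne_zero _).mpr hh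
  have hpull : ∀ w : Place Qb ↥(modularFunctionFieldBar (N * (ℓ : ℕ))),
      Divisor.pullbackAlong (heckeBetaBar Qb N (ℓ : ℕ)) hβ Dh w =
        w.ord (heckeBetaBar Qb N (ℓ : ℕ) h) := by
    intro w
    letI := algebraAlong (heckeBetaBar Qb N (ℓ : ℕ))
    haveI := isScalarTower_along (heckeBetaBar Qb N (ℓ : ℕ))
    haveI := isIntegral_along (heckeBetaBar Qb N (ℓ : ℕ)) hβ
    exact Divisor.pullback_apply_eq_ord hDh w
  -- the push-forward of `div (β h)` is `div (Norm_α (β h))`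
  have hpush : ∀ v : Place Qb ↥(modularFunctionFieldBar N),
      heckeDivBar hα hβ Dh v = v.ord (heckeNorm N ℓ h) := by
    intro v
    exact hN (heckeBetaBar Qb N (ℓ : ℕ) h) hβh _ hpull v
  have hne : heckeNorm N ℓ h ≠ 0 := by
    letI := algebraAlong (heckeAlphaBar Qb N (ℓ : ℕ))
    haveI : Module.Finite ↥(modularFunctionFieldBar N)
        ↥(modularFunctionFieldBar (N * (ℓ : ℕ))) := hfin
    exact Algebra.norm_ne_zero_iff.mpr hβh
  refine ⟨hne, E, fun v => ?_, ?_⟩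
  · rw [hE, ← hpush v, ← e, map_zsmul, Finsupp.smul_apply, smul_eq_mul]
  · exact hTE.symm

end Hecke

section Top

open Classical in
/-- **(PSI) from a Kummer relation.**  `R χ h` : "`h ∈ Fbar_N` is a Kummer element of the
character `χ` modulo `m`".  If every `χ` has one (`hex`), Kummer elements are nonzero with
divisor divisible by `m` (`hne`, `hdiv`), two Kummer elements of the same character differ by a
constant and an `m`-th power (`huniq`), `R` is multiplicative (`hadd`), a constant times an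
`m`-th power is a Kummer element only of characters in `m · Hom_par` (`hker`), and
`Norm_α (β h)` is a Kummer element of the Hecke transfer (`hhecke`), then `H27.PsiStmt N m`. -/
theorem psiStmt_of_rel (N m : ℕ) [NeZero N] (hm : m ≠ 0)
    (R : H27.Lam N → ↥(modularFunctionFieldBar N) → Prop)
    (hex : ∀ χ : H27.Lam N, ∃ h, R χ h)
    (hne : ∀ (χ : H27.Lam N) (h : ↥(modularFunctionFieldBar N)), R χ h → h ≠ 0)
    (hdiv : ∀ (χ : H27.Lam N) (h : ↥(modularFunctionFieldBar N)), R χ h →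
      ∀ v : Place Qb ↥(modularFunctionFieldBar N), (m : ℤ) ∣ v.ord h)
    (huniq : ∀ (χ : H27.Lam N) (h h' : ↥(modularFunctionFieldBar N)), R χ h → R χ h' →
      ∃ (c : Qb) (r : ↥(modularFunctionFieldBar N)), c ≠ 0 ∧ r ≠ 0 ∧
        h' = algebraMap Qb ↥(modularFunctionFieldBar N) c * r ^ m * h)
    (hadd : ∀ (χ₁ χ₂ : H27.Lam N) (h₁ h₂ : ↥(modularFunctionFieldBar N)), R χ₁ h₁ → R χ₂ h₂ →
      R (χ₁ + χ₂) (h₁ * h₂))
    (hker : ∀ (χ : H27.Lam N) (c : Qb) (r : ↥(modularFunctionFieldBar N)), c ≠ 0 → r ≠ 0 →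
      R χ (algebraMap Qb ↥(modularFunctionFieldBar N) c * r ^ m) →
      ∃ χ' : H27.Lam N, χ = m • χ')
    (hhecke : ∀ ℓ : Nat.Primes, ¬ (ℓ : ℕ) ∣ N → ∀ (χ χ' : H27.Lam N)
      (h : ↥(modularFunctionFieldBar N)), R χ h →
      H06.IsHeckeTr N ℓ (χ : Additive (Gamma0 N) →+ ℤ) (χ' : Additive (Gamma0 N) →+ ℤ) →
      R χ' (heckeNorm N ℓ h)) :
    H27.PsiStmt N m := by
  -- the class of a character
  have hcls : ∀ χ : H27.Lam N, ∃ x : JZero N, ∀ h, R χ h → IsKumClass m h x := by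
    intro χ
    obtain ⟨h₀, hR₀⟩ := hex χ
    obtain ⟨x, hx⟩ := IsKumClass.exists hm (hne χ h₀ hR₀) (hdiv χ h₀ hR₀)
    refine ⟨x, fun h hR => ?_⟩
    obtain ⟨c, r, hc, hr, e⟩ := huniq χ h₀ h hR₀ hR
    exact hx.congr hc hr e
  choose ψ hψ using hcls
  have hψadd : ∀ χ₁ χ₂ : H27.Lam N, ψ (χ₁ + χ₂) = ψ χ₁ + ψ χ₂ := by
    intro χ₁ χ₂
    obtain ⟨h₁, hR₁⟩ := hex χ₁
    obtain ⟨h₂, hR₂⟩ := hex χ₂
    exact (hψ _ _ (hadd χ₁ χ₂ h₁ h₂ hR₁ hR₂)).unique hm ((hψ χ₁ h₁ hR₁).mul (hψ χ₂ h₂ hR₂))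
  refine ⟨AddMonoidHom.mk' ψ hψadd, fun χ => ?_, fun χ hχ => ?_, fun ℓ hℓN χ χ' htr => ?_⟩
  · obtain ⟨h, hR⟩ := hex χ
    exact (hψ χ h hR).nsmul_eq_zero
  · obtain ⟨h, hR⟩ := hex χ
    have h0 : IsKumClass m h (0 : JZero N) := by
      have := hψ χ h hR
      rwa [show ψ χ = 0 from hχ] at this
    obtain ⟨c, r, hc, hr, e⟩ := h0.eq_const_mul_pow
    exact hker χ c r hc hr (e ▸ hR)
  · obtain ⟨h, hR⟩ := hex χ
    have h1 : IsKumClass m (heckeNorm N ℓ h) (heckeOperatorBar N ℓ (ψ χ)) :=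
      (hψ χ h hR).hecke ℓ
    have h2 : IsKumClass m (heckeNorm N ℓ h) (ψ χ') := hψ χ' _ (hhecke ℓ hℓN χ χ' h hR htr)
    exact h1.unique hm h2

end Top

end

end Fermat.Agent.S29.H08
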