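import Mathlib

/-!
# From "every element is quadratic" to a two-dimensional representation

Let `ρ : G →* End k W` be a finite-dimensional nonzero representation over an algebraically closed
field, `δ : G →* kˣ` a character and `τ : G → k` a function with
`ρ g + δ g • ρ g⁻¹ = τ g • 1` for all `g`.  Then there is `r : G →* M₂(k)` with
`charpoly (r g) = X² - τ g X + δ g` for every `g`, trivial wherever `ρ` and `δ` are.

No pseudo-characters, no density theorem: we work with the span `starPairs` of the pairs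
`(ρ g, δ g • ρ g⁻¹)` (the graph of the anti-involution `g ↦ δ g g⁻¹` of the group algebra).
-/

set_option autoImplicit false

open Polynomial Module

namespace Fermat.Agent.S29.H78

section pairs

variable {k : Type*} [Field k] {G : Type*} [Group G] {W : Type*} [AddCommGroup W] [Module k W]
variable (ρ : G →* Module.End k W) (δ : G →* kˣ)

/-- The `k`-span of the pairs `(ρ g, δ g • ρ g⁻¹)`. -/
def starPairs : Submodule k (Module.End k W × Module.End k W) :=
  Submodule.span k (Set.range fun g : G => (ρ g, (δ g : k) • ρ g⁻¹))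

theorem starPairs_gen (g : G) : (ρ g, (δ g : k) • ρ g⁻¹) ∈ starPairs ρ δ :=
  Submodule.subset_span ⟨g, rfl⟩

theorem starPairs_one : ((1 : Module.End k W), (1 : Module.End k W)) ∈ starPairs ρ δ := by
  have h := starPairs_gen ρ δ 1
  simpa using h

theorem starPairs_scalar (c : k) :
    ((c • 1 : Module.End k W), (c • 1 : Module.End k W)) ∈ starPairs ρ δ := by
  have h := (starPairs ρ δ).smul_mem c (starPairs_one ρ δ)
  simpa using h

theorem starPairs_swap {p : Module.End k W × Module.End k W} (hp : p ∈ starPairs ρ δ) :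
    (p.2, p.1) ∈ starPairs ρ δ := by
  induction hp using Submodule.span_induction with
  | mem x hx =>
    obtain ⟨g, rfl⟩ := hx
    have h := (starPairs ρ δ).smul_mem (δ g : k) (starPairs_gen ρ δ g⁻¹)
    have e : ((δ g : k) • (ρ g⁻¹, ((δ g⁻¹ : kˣ) : k) • ρ g⁻¹⁻¹)) = ((δ g : k) • ρ g⁻¹, ρ g) := by
      have h1 : (δ g : k) * ((δ g⁻¹ : kˣ) : k) = 1 := by
        rw [← Units.val_mul, ← map_mul, mul_inv_cancel, map_one, Units.val_one]
      rw [Prod.smul_mk, smul_smul, inv_inv, h1, one_smul]
    rw [e] at h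
    exact h
  | zero => exact (starPairs ρ δ).zero_mem
  | add x y _ _ hx hy => exact (starPairs ρ δ).add_mem hx hy
  | smul c x _ hx => exact (starPairs ρ δ).smul_mem c hx

theorem starPairs_gen_mul (g : G) {q : Module.End k W × Module.End k W}
    (hq : q ∈ starPairs ρ δ) : (ρ g * q.1, q.2 * ((δ g : k) • ρ g⁻¹)) ∈ starPairs ρ δ := by
  induction hq using Submodule.span_induction with
  | mem y hy =>
    obtain ⟨h, rfl⟩ := hy
    have h0 := starPairs_gen ρ δ (g * h)
    have e : (ρ (g * h), ((δ (g * h) : kˣ) : k) • ρ (g * h)⁻¹) =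
        (ρ g * ρ h, ((δ h : k) • ρ h⁻¹) * ((δ g : k) • ρ g⁻¹)) := by
      rw [map_mul, mul_inv_rev, map_mul, map_mul, Units.val_mul, smul_mul_smul_comm,
        mul_comm (δ h : k)]
    rw [e] at h0
    exact h0
  | zero =>
    have e : (ρ g * (0 : Module.End k W × Module.End k W).1,
        (0 : Module.End k W × Module.End k W).2 * ((δ g : k) • ρ g⁻¹)) = 0 := by simp
    rw [e]
    exact zero_mem _
  | add y z _ _ hy hz =>
    have e : (ρ g * (y + z).1, (y + z).2 * ((δ g : k) • ρ g⁻¹)) =
        (ρ g * y.1, y.2 * ((δ g : k) • ρ g⁻¹)) + (ρ g * z.1, z.2 * ((δ g : k) • ρ g⁻¹)) := by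
      simp only [Prod.fst_add, Prod.snd_add, mul_add, add_mul, Prod.mk_add_mk]
    rw [e]
    exact add_mem hy hz
  | smul c y _ hy =>
    have e : (ρ g * (c • y).1, (c • y).2 * ((δ g : k) • ρ g⁻¹)) =
        c • (ρ g * y.1, y.2 * ((δ g : k) • ρ g⁻¹)) := by
      simp only [Prod.smul_fst, Prod.smul_snd, Prod.smul_mk, mul_smul_comm, smul_mul_assoc]
      rw [smul_comm c]
    rw [e]
    exact Submodule.smul_mem _ c hy

theorem starPairs_mul {p q : Module.End k W × Module.End k W} (hp : p ∈ starPairs ρ δ)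
    (hq : q ∈ starPairs ρ δ) : (p.1 * q.1, q.2 * p.2) ∈ starPairs ρ δ := by
  induction hp using Submodule.span_induction with
  | mem x hx =>
    obtain ⟨g, rfl⟩ := hx
    exact starPairs_gen_mul ρ δ g hq
  | zero =>
    have e : ((0 : Module.End k W × Module.End k W).1 * q.1,
        q.2 * (0 : Module.End k W × Module.End k W).2) = 0 := by simp
    rw [e]
    exact zero_mem _
  | add x y _ _ hx hy =>
    have e : ((x + y).1 * q.1, q.2 * (x + y).2) = (x.1 * q.1, q.2 * x.2) + (y.1 * q.1, q.2 * y.2) := by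
      simp only [Prod.fst_add, Prod.snd_add, mul_add, add_mul, Prod.mk_add_mk]
    rw [e]
    exact add_mem hx hy
  | smul c x _ hx =>
    have e : ((c • x).1 * q.1, q.2 * (c • x).2) = c • (x.1 * q.1, q.2 * x.2) := by
      simp only [Prod.smul_fst, Prod.smul_snd, Prod.smul_mk, mul_smul_comm, smul_mul_assoc]
    rw [e]
    exact Submodule.smul_mem _ c hx

variable {ρ δ}
variable {τ : G → k}

theorem starPairs_add_scalar (hrel : ∀ g, ρ g + (δ g : k) • ρ g⁻¹ = τ g • (1 : Module.End k W))
    {p : Module.End k W × Module.End k W} (hp : p ∈ starPairs ρ δ) :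
    ∃ t : k, p.1 + p.2 = t • (1 : Module.End k W) := by
  induction hp using Submodule.span_induction with
  | mem x hx =>
    obtain ⟨g, rfl⟩ := hx
    exact ⟨τ g, hrel g⟩
  | zero => exact ⟨0, by simp⟩
  | add x y _ _ hx hy =>
    obtain ⟨t₁, h₁⟩ := hx
    obtain ⟨t₂, h₂⟩ := hy
    refine ⟨t₁ + t₂, ?_⟩
    rw [add_smul, ← h₁, ← h₂]
    simp only [Prod.fst_add, Prod.snd_add]
    abel
  | smul c x _ hx =>
    obtain ⟨t, h⟩ := hx
    refine ⟨c * t, ?_⟩
    rw [mul_smul, ← h]
    simp only [Prod.smul_fst, Prod.smul_snd, smul_add]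

theorem starPairs_mul_scalar (hrel : ∀ g, ρ g + (δ g : k) • ρ g⁻¹ = τ g • (1 : Module.End k W))
    {p : Module.End k W × Module.End k W} (hp : p ∈ starPairs ρ δ) :
    ∃ n : k, p.1 * p.2 = n • (1 : Module.End k W) := by
  induction hp using Submodule.span_induction with
  | mem x hx =>
    obtain ⟨g, rfl⟩ := hx
    refine ⟨(δ g : k), ?_⟩
    rw [mul_smul_comm, ← map_mul, mul_inv_cancel, map_one]
  | zero => exact ⟨0, by simp⟩
  | add x y hx' hy' hx hy =>
    obtain ⟨n₁, h₁⟩ := hx
    obtain ⟨n₂, h₂⟩ := hy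
    obtain ⟨t, ht⟩ := starPairs_add_scalar hrel (starPairs_mul ρ δ hx' (starPairs_swap ρ δ hy'))
    refine ⟨n₁ + n₂ + t, ?_⟩
    simp only at ht
    rw [add_smul, add_smul, ← h₁, ← h₂, ← ht]
    simp only [Prod.fst_add, Prod.snd_add, mul_add, add_mul]
    abel
  | smul c x _ hx =>
    obtain ⟨n, h⟩ := hx
    refine ⟨c * c * n, ?_⟩
    rw [mul_smul, ← h]
    simp only [Prod.smul_fst, Prod.smul_snd, smul_mul_smul_comm]

/-- In an irreducible representation every nonzero vector is cyclic for the span of `ρ G`. -/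
theorem starPairs_cyclic
    (hs : ∀ U : Submodule k W, (∀ g, ∀ w ∈ U, ρ g w ∈ U) → U = ⊥ ∨ U = ⊤)
    {v : W} (hv : v ≠ 0) (w : W) : ∃ p ∈ starPairs ρ δ, p.1 v = w := by
  let L : (Module.End k W × Module.End k W) →ₗ[k] W :=
    (LinearMap.applyₗ v).comp (LinearMap.fst k (Module.End k W) (Module.End k W))
  have hL : ∀ p : Module.End k W × Module.End k W, L p = p.1 v := fun _ => rfl
  have hU := hs ((starPairs ρ δ).map L) (by
    rintro g _ ⟨p, hp, rfl⟩
    refine ⟨(ρ g * p.1, p.2 * ((δ g : k) • ρ g⁻¹)), starPairs_gen_mul ρ δ g hp, ?_⟩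
    rw [hL, hL]
    rfl)
  rcases hU with h | h
  · exfalso
    have h1 : v ∈ (starPairs ρ δ).map L := ⟨(1, 1), starPairs_one ρ δ, by rw [hL]; rfl⟩
    rw [h] at h1
    exact hv ((Submodule.mem_bot k).mp h1)
  · have h1 : w ∈ (starPairs ρ δ).map L := by rw [h]; exact Submodule.mem_top
    obtain ⟨p, hp, hpw⟩ := h1
    exact ⟨p, hp, hpw⟩

/-- If all `ρ g` are scalars, an irreducible representation is a line. -/
theorem finrank_le_one_of_scalar
    (hs : ∀ U : Submodule k W, (∀ g, ∀ w ∈ U, ρ g w ∈ U) → U = ⊥ ∨ U = ⊤)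
    (hsc : ∀ g, ∃ c : k, ρ g = c • (1 : Module.End k W)) : Module.finrank k W ≤ 1 := by
  by_cases hW : ∀ v : W, v = 0
  · have : Subsingleton W := ⟨fun a b => by rw [hW a, hW b]⟩
    rw [Module.finrank_zero_of_subsingleton]
    exact Nat.zero_le 1
  · push Not at hW
    obtain ⟨v, hv⟩ := hW
    have hU := hs (Submodule.span k {v}) (by
      intro g w hw
      obtain ⟨c, hc⟩ := hsc g
      rw [hc]
      simpa using Submodule.smul_mem _ c hw)
    rcases hU with h | h
    · exact absurd (Submodule.span_singleton_eq_bot.mp h) hv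
    · rw [← finrank_top k W, ← h]
      exact (finrank_span_singleton hv).le

/-- **Dimension bound.** An irreducible representation in which every `g` satisfies
`g + δ g g⁻¹ = τ g` has dimension at most two. -/
theorem finrank_le_two [IsAlgClosed k] [FiniteDimensional k W]
    (hrel : ∀ g, ρ g + (δ g : k) • ρ g⁻¹ = τ g • (1 : Module.End k W))
    (hs : ∀ U : Submodule k W, (∀ g, ∀ w ∈ U, ρ g w ∈ U) → U = ⊥ ∨ U = ⊤) :
    Module.finrank k W ≤ 2 := by
  classical
  by_cases hsc : ∀ g, ∃ c : k, ρ g = c • (1 : Module.End k W)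
  · exact (finrank_le_one_of_scalar hs hsc).trans one_le_two
  push Not at hsc
  obtain ⟨g, hg⟩ := hsc
  have hnt : Nontrivial W := by
    by_contra hnt
    rw [not_nontrivial_iff_subsingleton] at hnt
    exact hg 0 (Subsingleton.elim _ _)
  obtain ⟨μ, hμ⟩ := Module.End.exists_eigenvalue (ρ g)
  obtain ⟨v, hv⟩ := hμ.exists_hasEigenvector
  have hv0 : v ≠ 0 := hv.2
  have hgv : ρ g v = μ • v := hv.apply_eq_smul
  -- the shifted element `e = ρ g - μ`, killing `v`
  obtain ⟨e, e', hee', he_def⟩ : ∃ e e' : Module.End k W, (e, e') ∈ starPairs ρ δ ∧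
      e = ρ g - μ • 1 :=
    ⟨ρ g - μ • 1, (δ g : k) • ρ g⁻¹ - μ • 1,
      sub_mem (starPairs_gen ρ δ g) (starPairs_scalar ρ δ μ), rfl⟩
  have hev : e v = 0 := by
    rw [he_def]
    simp [hgv]
  have he0 : e ≠ 0 := by
    intro h
    rw [he_def] at h
    exact hg μ (sub_eq_zero.mp h)
  obtain ⟨t, ht⟩ := starPairs_add_scalar hrel hee'
  have ht' : ∀ x, e' x = t • x - e x := by
    intro x
    have := LinearMap.congr_fun ht x
    simp only [LinearMap.add_apply, LinearMap.smul_apply, Module.End.one_apply] at this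
    rw [← this]
    abel
  -- the anticommutation identity
  have key : ∀ p ∈ starPairs ρ δ, ∃ s c : k, ∀ w,
      e (p.1 w) + p.1 (e w) = t • p.1 w + s • e w + c • w := by
    intro p hp
    obtain ⟨s, hs'⟩ := starPairs_add_scalar hrel hp
    obtain ⟨c₁, hc₁⟩ := starPairs_add_scalar hrel (starPairs_mul ρ δ hee' hp)
    have hp2 : ∀ x, p.2 x = s • x - p.1 x := by
      intro x
      have := LinearMap.congr_fun hs' x
      simp only [LinearMap.add_apply, LinearMap.smul_apply, Module.End.one_apply] at this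
      rw [← this]
      abel
    refine ⟨s, c₁ - s * t, fun w => ?_⟩
    have h := LinearMap.congr_fun hc₁ w
    simp only [LinearMap.add_apply, LinearMap.smul_apply, Module.End.one_apply,
      Module.End.mul_apply] at h
    rw [ht' w, hp2, map_sub, map_smul] at h
    -- h : e (p.1 w) + (s • (t • w - e w) - (t • p.1 w - p.1 (e w))) = c₁ • w
    have h2 : e (p.1 w) + p.1 (e w) =
        c₁ • w - (s • (t • w - e w) - (t • p.1 w - p.1 (e w))) + p.1 (e w) := by
      rw [← h]
      abel
    rw [h2]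
    module
  have hstar : ∀ w, ∃ c : k, e w = t • w + c • v := by
    intro w
    obtain ⟨p, hp, rfl⟩ := starPairs_cyclic (ρ := ρ) (δ := δ) hs hv0 w
    obtain ⟨s, c, hkey⟩ := key p hp
    refine ⟨c, ?_⟩
    have h := hkey v
    rw [hev, map_zero, smul_zero, add_zero, add_zero] at h
    exact h
  by_cases ht0 : t = 0
  · -- `e` is nilpotent of rank one
    have hrange : ∀ w, e w ∈ Submodule.span k {v} := by
      intro w
      obtain ⟨c, hc⟩ := hstar w
      rw [hc, ht0, zero_smul, zero_add]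
      exact Submodule.smul_mem _ c (Submodule.mem_span_singleton_self v)
    have hker : LinearMap.ker e ≤ Submodule.span k {v} := by
      intro w hw
      by_contra hwv
      have hw0 : w ≠ 0 := fun h => hwv (h ▸ zero_mem _)
      have hew : e w = 0 := LinearMap.mem_ker.mp hw
      apply he0
      refine LinearMap.ext fun x => ?_
      obtain ⟨p, hp, rfl⟩ := starPairs_cyclic (ρ := ρ) (δ := δ) hs hw0 x
      obtain ⟨s, c, hkey⟩ := key p hp
      have h1 := hkey w
      rw [hew, map_zero, smul_zero, add_zero, add_zero, ht0, zero_smul, zero_add] at h1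
      have h2 := hrange (p.1 w)
      by_cases hc : c = 0
      · rw [h1, hc, zero_smul]
        rfl
      · exfalso
        apply hwv
        rw [h1] at h2
        exact (Submodule.smul_mem_iff _ hc).mp h2
    have h1 : Module.finrank k (LinearMap.ker e) ≤ 1 :=
      (Submodule.finrank_mono hker).trans (finrank_span_singleton hv0).le
    have h2 : Module.finrank k (LinearMap.range e) ≤ 1 := by
      refine (Submodule.finrank_mono ?_).trans (finrank_span_singleton hv0).le
      rintro _ ⟨w, rfl⟩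
      exact hrange w
    have h3 := LinearMap.finrank_range_add_finrank_ker e
    omega
  · -- `e` has a nonzero eigenvalue `t`
    obtain ⟨w₀, hw₀⟩ : ∃ w₀, e w₀ ≠ 0 := by
      by_contra h
      push Not at h
      exact he0 (LinearMap.ext h)
    obtain ⟨u, hu_def⟩ : ∃ u, u = e w₀ := ⟨_, rfl⟩
    have hu0 : u ≠ 0 := hu_def ▸ hw₀
    have heu : e u = t • u := by
      obtain ⟨c, hc⟩ := hstar w₀
      rw [hu_def]
      conv_lhs => rw [hc]
      rw [map_add, map_smul, map_smul, hev, smul_zero, add_zero]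
    have hall : ∀ x, x ∈ Submodule.span k ((({u, v} : Finset W)) : Set W) := by
      intro x
      obtain ⟨p, hp, rfl⟩ := starPairs_cyclic (ρ := ρ) (δ := δ) hs hu0 x
      obtain ⟨s, c, hkey⟩ := key p hp
      have h1 := hkey u
      rw [heu, map_smul] at h1
      obtain ⟨c', hc'⟩ := hstar (p.1 u)
      rw [hc'] at h1
      have h3 : p.1 u = (t⁻¹ * (s * t + c)) • u + (-(t⁻¹ * c')) • v := by
        have h5 : t • p.1 u = (s * t + c) • u - c' • v := by
          have h6 : t • p.1 u = (t • p.1 u + c' • v + t • p.1 u) - t • p.1 u - c' • v := by abel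
          rw [h6, h1]
          module
        calc p.1 u = t⁻¹ • (t • p.1 u) := by rw [smul_smul, inv_mul_cancel₀ ht0, one_smul]
          _ = _ := by
            rw [h5]
            module
      rw [h3]
      refine add_mem (Submodule.smul_mem _ _ (Submodule.subset_span ?_))
        (Submodule.smul_mem _ _ (Submodule.subset_span ?_)) <;> simp
    calc Module.finrank k W = Module.finrank k (⊤ : Submodule k W) := (finrank_top k W).symm
      _ ≤ Module.finrank k (Submodule.span k ((({u, v} : Finset W)) : Set W)) :=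
          Submodule.finrank_mono (fun x _ => hall x)
      _ ≤ ({u, v} : Finset W).card := finrank_span_finset_le_card _
      _ ≤ 2 := Finset.card_le_two

/-- A non-scalar endomorphism of a plane satisfying a monic quadratic has that quadratic as its
characteristic polynomial. -/
theorem charpoly_eq_of_nonscalar [FiniteDimensional k W] (h2 : Module.finrank k W = 2)
    (a : Module.End k W) (t n : k) (ha : a * (t • 1 - a) = n • 1)
    (hns : ∀ c : k, a ≠ c • 1) : a.charpoly = X ^ 2 - C t * X + C n := by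
  have hnt : Nontrivial W := Module.nontrivial_of_finrank_pos (R := k) (by rw [h2]; norm_num)
  obtain ⟨P₀, hP₀⟩ : ∃ P₀ : k[X], P₀ = X ^ 2 - C t * X + C n := ⟨_, rfl⟩
  have hmonic : P₀.Monic := by
    rw [hP₀]
    monicity!
  have hdeg : P₀.natDegree = 2 := by
    rw [hP₀]
    compute_degree!
  have hroot : Polynomial.aeval a P₀ = 0 := by
    rw [hP₀]
    simp only [map_add, map_sub, map_mul, map_pow, aeval_X, aeval_C]
    rw [Algebra.algebraMap_eq_smul_one, Algebra.algebraMap_eq_smul_one]
    have h : a ^ 2 - t • (1 : Module.End k W) * a + n • 1 = -(a * (t • 1 - a)) + n • 1 := by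
      rw [mul_sub, sq, mul_smul_comm, mul_one, smul_mul_assoc, one_mul]
      abel
    rw [h, ha]
    abel
  have hint : IsIntegral k a := Algebra.IsIntegral.isIntegral a
  have h2le : 2 ≤ (minpoly k a).natDegree := by
    rw [minpoly.two_le_natDegree_iff hint]
    rintro ⟨c, hc⟩
    exact hns c (by rw [← hc, Algebra.algebraMap_eq_smul_one])
  have hdvd1 : minpoly k a ∣ P₀ := minpoly.dvd k a hroot
  have hdvd2 : minpoly k a ∣ a.charpoly := LinearMap.minpoly_dvd_charpoly a
  have hmm := minpoly.monic hint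
  have e1 : P₀ = minpoly k a :=
    Polynomial.eq_of_monic_of_dvd_of_natDegree_le hmm hmonic hdvd1 (by rw [hdeg]; exact h2le)
  have e2 : a.charpoly = minpoly k a :=
    Polynomial.eq_of_monic_of_dvd_of_natDegree_le hmm a.charpoly_monic hdvd2
      (by rw [LinearMap.charpoly_natDegree, h2]; exact h2le)
  rw [e2, ← e1, hP₀]

theorem rho_mul_star (hrel : ∀ g, ρ g + (δ g : k) • ρ g⁻¹ = τ g • (1 : Module.End k W)) (g : G) :
    ρ g * (τ g • 1 - ρ g) = (δ g : k) • (1 : Module.End k W) := by
  have h : τ g • (1 : Module.End k W) - ρ g = (δ g : k) • ρ g⁻¹ := by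
    rw [← hrel g]
    abel
  rw [h, mul_smul_comm, ← map_mul, mul_inv_cancel, map_one]

/-- **Exact characteristic polynomial** in the two-dimensional irreducible case. -/
theorem charpoly_rho [FiniteDimensional k W] (h2 : Module.finrank k W = 2)
    (hrel : ∀ g, ρ g + (δ g : k) • ρ g⁻¹ = τ g • (1 : Module.End k W))
    (hs : ∀ U : Submodule k W, (∀ g, ∀ w ∈ U, ρ g w ∈ U) → U = ⊥ ∨ U = ⊤) (g : G) :
    (ρ g).charpoly = X ^ 2 - C (τ g) * X + C (δ g : k) := by
  have hnt : Nontrivial W := Module.nontrivial_of_finrank_pos (R := k) (by rw [h2]; norm_num)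
  by_cases hns : ∀ c : k, ρ g ≠ c • 1
  · exact charpoly_eq_of_nonscalar h2 _ _ _ (rho_mul_star hrel g) hns
  push Not at hns
  obtain ⟨c, hc⟩ := hns
  -- a non-scalar element exists
  obtain ⟨h, hh⟩ : ∃ h, ∀ c' : k, ρ h ≠ c' • 1 := by
    by_contra hall
    push Not at hall
    have := finrank_le_one_of_scalar hs hall
    omega
  obtain ⟨v, hv⟩ := exists_ne (0 : W)
  -- the two quadratic relations, pointwise
  have hp : (ρ h, (δ h : k) • ρ h⁻¹) ∈ starPairs ρ δ := starPairs_gen ρ δ h
  have hq : (ρ g + ρ h, (δ g : k) • ρ g⁻¹ + (δ h : k) • ρ h⁻¹) ∈ starPairs ρ δ :=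
    add_mem (starPairs_gen ρ δ g) (starPairs_gen ρ δ h)
  obtain ⟨n, hn⟩ := starPairs_mul_scalar hrel hp
  obtain ⟨n₂, hn₂⟩ := starPairs_mul_scalar hrel hq
  have hg' : (δ g : k) • ρ g⁻¹ = (τ g - c) • (1 : Module.End k W) := by
    have := hrel g
    rw [hc] at this
    rw [sub_smul, ← this]
    abel
  have hh' : (δ h : k) • ρ h⁻¹ = τ h • (1 : Module.End k W) - ρ h := by
    rw [← hrel h]
    abel
  rw [hh'] at hn hn₂
  rw [hg', hc] at hn₂
  have key : ∀ w, (τ g - (c + c)) • ρ h w = (n₂ - n - c * (τ g - c + τ h)) • w := by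
    intro w
    have e1 := LinearMap.congr_fun hn w
    have e2 := LinearMap.congr_fun hn₂ w
    simp only [Module.End.mul_apply, LinearMap.add_apply, LinearMap.sub_apply,
      LinearMap.smul_apply, Module.End.one_apply, map_add, map_sub, map_smul] at e1 e2
    linear_combination (norm := module) e2 - e1
  have hτ : τ g = c + c := by
    by_contra hne
    have hne' : τ g - (c + c) ≠ 0 := sub_ne_zero.mpr hne
    refine hh ((τ g - (c + c))⁻¹ * (n₂ - n - c * (τ g - c + τ h))) (LinearMap.ext fun w => ?_)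
    have := key w
    rw [LinearMap.smul_apply, Module.End.one_apply, mul_smul, ← this, smul_smul,
      inv_mul_cancel₀ hne', one_smul]
  have hδ : (δ g : k) = c * c := by
    have h1 := LinearMap.congr_fun (rho_mul_star hrel g) v
    rw [hc, hτ] at h1
    simp only [Module.End.mul_apply, LinearMap.smul_apply, Module.End.one_apply,
      LinearMap.sub_apply] at h1
    have h3 : (c * c - (δ g : k)) • v = 0 := by
      linear_combination (norm := module) h1
    rcases smul_eq_zero.mp h3 with h5 | h5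
    · exact (sub_eq_zero.mp h5).symm
    · exact absurd h5 hv
  -- charpoly of the scalar `c` on a plane
  let b := Module.finBasisOfFinrankEq k W h2
  have htr : (c • (1 : Matrix (Fin 2) (Fin 2) k)).trace = c + c := by
    simp
    ring
  have hdet : (c • (1 : Matrix (Fin 2) (Fin 2) k)).det = c * c := by
    simp
    ring
  rw [← LinearMap.charpoly_toMatrix (ρ g) b, hc, map_smul, LinearMap.toMatrix_one,
    Matrix.charpoly_fin_two, htr, hdet, hτ, hδ]

end pairs

section main

variable {k : Type*} [Field k] {G : Type*} [Group G] {W : Type*} [AddCommGroup W] [Module k W]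
variable {ρ : G →* Module.End k W} {δ : G →* kˣ} {τ : G → k}

/-- The irreducible case. -/
theorem exists_rep_of_simple [IsAlgClosed k] [FiniteDimensional k W] [Nontrivial W]
    (hrel : ∀ g, ρ g + (δ g : k) • ρ g⁻¹ = τ g • (1 : Module.End k W))
    (hs : ∀ U : Submodule k W, (∀ g, ∀ w ∈ U, ρ g w ∈ U) → U = ⊥ ∨ U = ⊤) :
    ∃ r : G →* Matrix (Fin 2) (Fin 2) k,
      (∀ g, (r g).charpoly = X ^ 2 - C (τ g) * X + C (δ g : k)) ∧
      (∀ g, ρ g = 1 → δ g = 1 → r g = 1) := by
  have h2 := finrank_le_two hrel hs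
  have h0 : 0 < Module.finrank k W := Module.finrank_pos
  obtain h | h : Module.finrank k W = 2 ∨ Module.finrank k W = 1 := by omega
  · let b := Module.finBasisOfFinrankEq k W h
    refine ⟨{ toFun := fun g => LinearMap.toMatrix b b (ρ g)
              map_one' := by rw [map_one, LinearMap.toMatrix_one]
              map_mul' := fun g g' => by rw [map_mul, LinearMap.toMatrix_mul] }, ?_, ?_⟩
    · intro g
      show (LinearMap.toMatrix b b (ρ g)).charpoly = _
      rw [LinearMap.charpoly_toMatrix, charpoly_rho h hrel hs g]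
    · intro g hg _
      show LinearMap.toMatrix b b (ρ g) = 1
      rw [hg, LinearMap.toMatrix_one]
  · let b := Module.finBasisOfFinrankEq k W h
    obtain ⟨χ, hχ⟩ : ∃ χ : G → k, ∀ g, χ g = LinearMap.toMatrix b b (ρ g) 0 0 := ⟨_, fun _ => rfl⟩
    have hχ1 : χ 1 = 1 := by
      rw [hχ, map_one, LinearMap.toMatrix_one, Matrix.one_apply_eq]
    have hχmul : ∀ g g', χ (g * g') = χ g * χ g' := by
      intro g g'
      rw [hχ, hχ, hχ, map_mul, LinearMap.toMatrix_mul, Matrix.mul_apply]
      simp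
    have hχrel : ∀ g, χ g + (δ g : k) * χ g⁻¹ = τ g := by
      intro g
      have := congrArg (fun f => LinearMap.toMatrix b b f 0 0) (hrel g)
      simp only [map_add, map_smul, LinearMap.toMatrix_one, Matrix.add_apply, Matrix.smul_apply,
        Matrix.one_apply_eq, smul_eq_mul, mul_one] at this
      rw [hχ, hχ]
      exact this
    have hχinv : ∀ g, χ g * χ g⁻¹ = 1 := fun g => by rw [← hχmul, mul_inv_cancel, hχ1]
    refine ⟨{ toFun := fun g => !![χ g, 0; 0, (δ g : k) * χ g⁻¹]
              map_one' := by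
                rw [hχ1, inv_one, hχ1, map_one, Units.val_one, mul_one, Matrix.one_fin_two]
              map_mul' := fun g g' => by
                rw [Matrix.mul_fin_two, hχmul, mul_inv_rev, hχmul, map_mul, Units.val_mul]
                congr 1
                simp only [mul_zero, zero_mul, add_zero, zero_add]
                congr 2
                ring_nf }, ?_, ?_⟩
    · intro g
      show (!![χ g, 0; 0, (δ g : k) * χ g⁻¹] : Matrix (Fin 2) (Fin 2) k).charpoly = _
      rw [Matrix.charpoly_fin_two, Matrix.trace_fin_two_of, Matrix.det_fin_two_of, hχrel]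
      have : χ g * ((δ g : k) * χ g⁻¹) - 0 * 0 = (δ g : k) := by
        rw [mul_left_comm, hχinv, mul_one, mul_zero, sub_zero]
      rw [this]
    · intro g hg hδ
      show (!![χ g, 0; 0, (δ g : k) * χ g⁻¹] : Matrix (Fin 2) (Fin 2) k) = 1
      have h1 : χ g = 1 := by
        rw [hχ, hg, LinearMap.toMatrix_one, Matrix.one_apply_eq]
      have h2 : χ g⁻¹ = 1 := by
        have := hχinv g
        rwa [h1, one_mul] at this
      rw [h1, h2, hδ, Units.val_one, mul_one, Matrix.one_fin_two]

/-- **Main theorem.** A nonzero finite-dimensional representation `ρ` over an algebraically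
closed field in which every group element satisfies `g + δ g g⁻¹ = τ g` (for a character `δ`)
yields a two-dimensional representation `r` with `charpoly (r g) = X² - τ g X + δ g` for every
`g`; `r g = 1` as soon as `ρ g = 1` and `δ g = 1`. -/
theorem exists_rep [IsAlgClosed k] [FiniteDimensional k W] [Nontrivial W]
    (ρ : G →* Module.End k W) (δ : G →* kˣ) (τ : G → k)
    (hrel : ∀ g, ρ g + (δ g : k) • ρ g⁻¹ = τ g • (1 : Module.End k W)) :
    ∃ r : G →* Matrix (Fin 2) (Fin 2) k,
      (∀ g, (r g).charpoly = X ^ 2 - C (τ g) * X + C (δ g : k)) ∧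
      (∀ g, ρ g = 1 → δ g = 1 → r g = 1) := by
  classical
  have hS : ∃ n : ℕ, ∃ V : Submodule k W, V ≠ ⊥ ∧ (∀ g, ∀ w ∈ V, ρ g w ∈ V) ∧
      Module.finrank k V = n :=
    ⟨Module.finrank k W, ⊤, top_ne_bot, fun _ _ _ => Submodule.mem_top, finrank_top k W⟩
  obtain ⟨V, hV0, hVst, hVn⟩ := Nat.find_spec hS
  have hmin : ∀ U : Submodule k W, U ≠ ⊥ → (∀ g, ∀ w ∈ U, ρ g w ∈ U) →
      Module.finrank k V ≤ Module.finrank k U := by
    intro U h0 hst
    rw [hVn]
    exact Nat.find_min' hS ⟨U, h0, hst, rfl⟩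
  let ρV : G →* Module.End k V :=
    { toFun := fun g => (ρ g).restrict (hVst g)
      map_one' := by
        ext w
        simp
      map_mul' := fun g g' => by
        ext w
        simp }
  have hρV : ∀ g (w : V), ((ρV g w : V) : W) = ρ g w := fun _ _ => rfl
  have hrelV : ∀ g, ρV g + (δ g : k) • ρV g⁻¹ = τ g • (1 : Module.End k V) := by
    intro g
    ext w
    have := LinearMap.congr_fun (hrel g) w
    simp only [LinearMap.add_apply, LinearMap.smul_apply, Module.End.one_apply] at this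
    simp only [LinearMap.add_apply, LinearMap.smul_apply, Module.End.one_apply,
      Submodule.coe_add, Submodule.coe_smul, hρV]
    exact this
  have hsV : ∀ U : Submodule k V, (∀ g, ∀ w ∈ U, ρV g w ∈ U) → U = ⊥ ∨ U = ⊤ := by
    intro U hU
    by_cases hU0 : U = ⊥
    · exact Or.inl hU0
    · right
      have h1 : U.map V.subtype ≠ ⊥ := by
        intro h
        apply hU0
        rw [Submodule.eq_bot_iff]
        intro u hu
        have hu' : V.subtype u ∈ U.map V.subtype := Submodule.mem_map_of_mem hu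
        rw [h, Submodule.mem_bot] at hu'
        exact Submodule.coe_eq_zero.mp hu'
      have h2 : ∀ g, ∀ w ∈ U.map V.subtype, ρ g w ∈ U.map V.subtype := by
        rintro g _ ⟨u, hu, rfl⟩
        exact ⟨ρV g u, hU g u hu, rfl⟩
      have h3 := hmin _ h1 h2
      have h4 : Module.finrank k (U.map V.subtype) = Module.finrank k U :=
        (Submodule.equivMapOfInjective V.subtype V.injective_subtype U).finrank_eq.symm
      apply Submodule.eq_top_of_finrank_eq
      have h5 : Module.finrank k U ≤ Module.finrank k V := Submodule.finrank_le U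
      omega
  have hntV : Nontrivial V := (Submodule.nontrivial_iff_ne_bot).mpr hV0
  obtain ⟨r, hr1, hr2⟩ := exists_rep_of_simple hrelV hsV
  refine ⟨r, hr1, fun g hg hδ => hr2 g ?_ hδ⟩
  ext w
  rw [hρV, hg]
  rfl

/-- Version with an existential hypothesis: the trace function is recovered from the relation. -/
theorem exists_rep' [IsAlgClosed k] [FiniteDimensional k W] [Nontrivial W]
    (ρ : G →* Module.End k W) (δ : G →* kˣ)
    (hrel : ∀ g, ∃ t : k, ρ g + (δ g : k) • ρ g⁻¹ = t • (1 : Module.End k W)) :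
    ∃ r : G →* Matrix (Fin 2) (Fin 2) k,
      (∀ g (t : k), ρ g + (δ g : k) • ρ g⁻¹ = t • (1 : Module.End k W) →
        (r g).charpoly = X ^ 2 - C t * X + C (δ g : k)) ∧
      (∀ g, ρ g = 1 → δ g = 1 → r g = 1) := by
  choose τ hτ using hrel
  obtain ⟨r, hr1, hr2⟩ := exists_rep ρ δ τ hτ
  refine ⟨r, fun g t ht => ?_, hr2⟩
  have h : t = τ g := by
    obtain ⟨v, hv⟩ := exists_ne (0 : W)
    have h1 := LinearMap.congr_fun (ht.symm.trans (hτ g)) v
    simp only [LinearMap.smul_apply, Module.End.one_apply] at h1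
    exact smul_left_injective k hv h1
  rw [h]
  exact hr1 g

theorem lucas_identity {A : Type*} [Ring A] (a a' : A) (j : ℕ) :
    a ^ (j + 1 + 1) + a' ^ (j + 1 + 1) =
      (a + a') * (a ^ (j + 1) + a' ^ (j + 1)) - (a * a') * a' ^ j - (a' * a) * a ^ j := by
  rw [pow_succ' a (j + 1), pow_succ' a' (j + 1), pow_succ' a j, pow_succ' a' j]
  noncomm_ring

/-- **Power step.** If `g` satisfies the quadratic relation, so does every power of `g`
(Lucas recurrence `u_{j+2} = t u_{j+1} - δ g u_j`). -/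
theorem rel_pow (ρ : G →* Module.End k W) (δ : G →* kˣ) (g : G) (t : k)
    (h : ρ g + (δ g : k) • ρ g⁻¹ = t • (1 : Module.End k W)) (j : ℕ) :
    ∃ t' : k, ρ (g ^ j) + (δ (g ^ j) : k) • ρ (g ^ j)⁻¹ = t' • (1 : Module.End k W) := by
  have hcomm : ρ g * ((δ g : k) • ρ g⁻¹) = (δ g : k) • (1 : Module.End k W) := by
    rw [mul_smul_comm, ← map_mul, mul_inv_cancel, map_one]
  have hcomm' : ((δ g : k) • ρ g⁻¹) * ρ g = (δ g : k) • (1 : Module.End k W) := by
    rw [smul_mul_assoc, ← map_mul, inv_mul_cancel, map_one]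
  have hpow : ∀ j : ℕ, (δ (g ^ j) : k) • ρ (g ^ j)⁻¹ = ((δ g : k) • ρ g⁻¹) ^ j := by
    intro j
    rw [_root_.smul_pow, ← map_pow, ← inv_pow, map_pow ρ, map_pow δ, Units.val_pow_eq_pow_val]
  have key : ∀ j : ℕ, (∃ t₁ : k, ρ g ^ j + ((δ g : k) • ρ g⁻¹) ^ j = t₁ • (1 : Module.End k W)) ∧
      ∃ t₂ : k, ρ g ^ (j + 1) + ((δ g : k) • ρ g⁻¹) ^ (j + 1) = t₂ • (1 : Module.End k W) := by
    intro j
    induction j with
    | zero =>
      refine ⟨⟨2, ?_⟩, ⟨t, ?_⟩⟩
      · rw [pow_zero, pow_zero, two_smul]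
      · rw [zero_add, pow_one, pow_one, h]
    | succ j ih =>
      obtain ⟨⟨t₁, h₁⟩, ⟨t₂, h₂⟩⟩ := ih
      refine ⟨⟨t₂, h₂⟩, ⟨t * t₂ - (δ g : k) * t₁, ?_⟩⟩
      have e := lucas_identity (ρ g) ((δ g : k) • ρ g⁻¹) j
      rw [e, h, h₂, hcomm, hcomm', sub_sub, ← mul_add, add_comm (((δ g : k) • ρ g⁻¹) ^ j), h₁]
      rw [smul_mul_smul_comm, smul_mul_smul_comm, one_mul, ← sub_smul]
  obtain ⟨⟨t₁, h₁⟩, -⟩ := key j
  exact ⟨t₁, by rw [hpow, map_pow, h₁]⟩

/-- **Main theorem, density form.** It suffices to know the quadratic relation on a set `S`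
(the Frobenius lifts) such that every `g` acts (through `ρ` and `δ`) like a power of an
element of `S`. -/
theorem exists_rep_of_powers [IsAlgClosed k] [FiniteDimensional k W] [Nontrivial W]
    (ρ : G →* Module.End k W) (δ : G →* kˣ) (S : Set G)
    (hS : ∀ s ∈ S, ∃ t : k, ρ s + (δ s : k) • ρ s⁻¹ = t • (1 : Module.End k W))
    (hgen : ∀ g, ∃ s ∈ S, ∃ j : ℕ, ρ g = ρ (s ^ j) ∧ δ g = δ (s ^ j)) :
    ∃ r : G →* Matrix (Fin 2) (Fin 2) k,
      (∀ g (t : k), ρ g + (δ g : k) • ρ g⁻¹ = t • (1 : Module.End k W) →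
        (r g).charpoly = X ^ 2 - C t * X + C (δ g : k)) ∧
      (∀ g, ρ g = 1 → δ g = 1 → r g = 1) := by
  refine exists_rep' ρ δ fun g => ?_
  obtain ⟨s, hs, j, h1, h2⟩ := hgen g
  obtain ⟨t, ht⟩ := hS s hs
  obtain ⟨t', ht'⟩ := rel_pow ρ δ s t ht j
  refine ⟨t', ?_⟩
  have h3 : ρ g⁻¹ = ρ (s ^ j)⁻¹ := by
    have e1 : ρ g⁻¹ * ρ g = 1 := by rw [← map_mul, inv_mul_cancel, map_one]
    have e2 : ρ (s ^ j) * ρ (s ^ j)⁻¹ = 1 := by rw [← map_mul, mul_inv_cancel, map_one]
    calc ρ g⁻¹ = ρ g⁻¹ * (ρ (s ^ j) * ρ (s ^ j)⁻¹) := by rw [e2, mul_one]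
      _ = (ρ g⁻¹ * ρ g) * ρ (s ^ j)⁻¹ := by rw [h1, mul_assoc]
      _ = ρ (s ^ j)⁻¹ := by rw [e1, one_mul]
  rw [h1, h2, h3]
  exact ht'

end main

end Fermat.Agent.S29.H78
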