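import Mathlib
import Fermat.Prelude.Def_GaloisRep_Residual
import Fermat.Prelude.Def_FreyPackage_EigenformResidualAttachment
import Fermat.Agent.S13.Assembly_helper16
import Fermat.Agent.S13.T_helper83

/-!
# S42 from the statement of S29 (helper2)

`s42_of_s29 : S29Stmt → ∀ P : FreyPackage, ∀ M, 0 < M → P.EigenformResidualAttachmentAt M`.

`S29Stmt` is literally the frozen statement of S29 (as a `Prop`).  Everything here is formal:
* the coefficient field is `K := ℤ̄ ⧸ 𝔪` (characteristic `P.p`), `ψ := Ideal.Quotient.mk 𝔪`;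
* `ρ` is the representation supplied by S29 for `φ := ψ`;
* the number field `F` is the normal closure of the compositum of a finite level of `ρ` and of the
  field of definition of the (finite, landed in S13) `P.p`-torsion of the Frey curve;
* trace and determinant are read off from the characteristic polynomial `X² - ψ(a_ℓ) X + ℓ`.
-/

set_option autoImplicit false

open Polynomial WeierstrassCurve WeierstrassCurve.Affine WeierstrassCurve.Affine.Point

namespace Fermat.Agent.S29.H02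

local notation "Qb" => AlgebraicClosure ℚ
local notation "GalQ" => (AlgebraicClosure ℚ ≃ₐ[ℚ] AlgebraicClosure ℚ)
local notation "Zb" => integralClosure ℤ ℂ

/-- The frozen statement of S29, as a proposition. -/
def S29Stmt : Prop :=
  ∀ {N : ℕ} {g : CuspForm (CongruenceSubgroup.Gamma0 N) 2} (_ : g.IsNormalizedEigenform)
    {p : ℕ} (_ : p.Prime) {k : Type} [Field k] [CharP k p]
    (φ : integralClosure ℤ ℂ →+* k),
    ∃ ρ : ResidualGaloisRep k, ρ.IsAttachedTo g φ ∧
      ∀ ℓ : ℕ, ℓ.Prime → ¬ ℓ ∣ N * p → ρ.IsUnramifiedAt ℓ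

section LinAlg

variable {K V : Type*} [Field K] [AddCommGroup V] [Module K V]

/-- trace and determinant of an endomorphism of a `2`-dimensional space from its characteristic
polynomial. -/
theorem trace_det_of_charpoly [Module.Finite K V] (h2 : Module.finrank K V = 2)
    (f : Module.End K V) (t d : K)
    (hf : LinearMap.charpoly f = X ^ 2 - C t * X + C d) :
    LinearMap.trace K V f = t ∧ LinearMap.det f = d := by
  let b := Module.finBasis K V
  have hcard : Fintype.card (Fin (Module.finrank K V)) = 2 := by rw [Fintype.card_fin, h2]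
  have hM : (LinearMap.toMatrix b b f).charpoly = X ^ 2 - C t * X + C d := by
    rw [LinearMap.charpoly_toMatrix]; exact hf
  constructor
  · rw [LinearMap.trace_eq_matrix_trace K b f, Matrix.trace_eq_neg_charpoly_nextCoeff, hM]
    have hdeg : (X ^ 2 - C t * X + C d : K[X]).natDegree = 2 := by
      compute_degree!
    rw [Polynomial.nextCoeff_of_natDegree_pos (by rw [hdeg]; norm_num), hdeg]
    simp [Polynomial.coeff_C, Polynomial.coeff_X_pow]
  · rw [← LinearMap.det_toMatrix b f, Matrix.det_eq_sign_charpoly_coeff, hM, hcard]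
    simp [Polynomial.coeff_X, Polynomial.coeff_C, Polynomial.coeff_X_pow]

end LinAlg

section Field

theorem isGalois_qb : IsGalois ℚ Qb := by
  have h : (DivisionRing.toRatAlgebra : Algebra ℚ (AlgebraicClosure ℚ)) =
      AlgebraicClosure.instAlgebra ℚ := Subsingleton.elim _ _
  rw [h]
  infer_instance

/-- A finite level for a pair of conditions: a finite **Galois** subextension `F` of `ℚ̄/ℚ`
containing two given finite subextensions. -/
theorem exists_galois_level (L₁ L₂ : IntermediateField ℚ Qb) [FiniteDimensional ℚ L₁]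
    [FiniteDimensional ℚ L₂] :
    ∃ F : IntermediateField ℚ Qb, FiniteDimensional ℚ F ∧ Normal ℚ F ∧ L₁ ≤ F ∧ L₂ ≤ F := by
  haveI : IsGalois ℚ Qb := isGalois_qb
  refine ⟨IntermediateField.normalClosure ℚ (↥(L₁ ⊔ L₂)) Qb, ?_, ?_, ?_, ?_⟩
  · exact normalClosure.is_finiteDimensional ℚ (↥(L₁ ⊔ L₂)) Qb
  · exact normalClosure.normal ℚ (↥(L₁ ⊔ L₂)) Qb
  · exact le_sup_left.trans (IntermediateField.le_normalClosure (L₁ ⊔ L₂))
  · exact le_sup_right.trans (IntermediateField.le_normalClosure (L₁ ⊔ L₂))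

end Field

/-- **S42 from S29.** -/
theorem s42_of_s29 (h29 : S29Stmt) (P : FreyPackage) :
    ∀ M : ℕ, 0 < M → P.EigenformResidualAttachmentAt M := by
  intro M _hM g hg 𝔪 hmax hp𝔪
  haveI := hmax
  letI : Field (Zb ⧸ 𝔪) := Ideal.Quotient.field 𝔪
  have h0 : ((P.p : ℕ) : Zb ⧸ 𝔪) = 0 := by
    have h : (Ideal.Quotient.mk 𝔪) ((P.p : ℕ) : Zb) = 0 := Ideal.Quotient.eq_zero_iff_mem.mpr hp𝔪
    simpa using h
  haveI : CharP (Zb ⧸ 𝔪) P.p := by
    have h := CharP.ringChar_of_prime_eq_zero P.pp h0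
    exact h ▸ ringChar.charP (Zb ⧸ 𝔪)
  obtain ⟨ρ, hatt, -⟩ := h29 hg P.pp (Ideal.Quotient.mk 𝔪)
  obtain ⟨hfinV, -⟩ := Fermat.Agent.S13.H83.frey_torsion_card_le P
  haveI := hfinV
  obtain ⟨L₂, hL₂, hfix₂⟩ := Fermat.Agent.S13.H16.exists_finite_fixing P
  obtain ⟨L₁, hL₁, hfix₁⟩ := ρ.factorsThroughFiniteLevel
  obtain ⟨F, hFfin, hFnorm, h1F, h2F⟩ := exists_galois_level L₁ L₂
  have hℓk : ∀ ℓ : ℕ, ℓ.Prime → ℓ ≠ P.p → ((ℓ : ℕ) : Zb ⧸ 𝔪) ≠ 0 := by
    intro ℓ hℓ hℓp h
    have h' := (CharP.cast_eq_zero_iff (Zb ⧸ 𝔪) P.p ℓ).mp h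
    exact hℓp ((Nat.prime_dvd_prime_iff_eq P.pp hℓ).mp h').symm
  refine ⟨Zb ⧸ 𝔪, inferInstance, ZMod.algebra _ P.p, ρ.V, inferInstance, inferInstance, ρ.ρ,
    Ideal.Quotient.mk 𝔪, ↥F, inferInstance, ?nf, ?gal, inferInstance, ?tower, ?_, ρ.finrank_eq,
    ?_, ?_, ?_⟩
  case nf =>
    have emod : (@Algebra.toModule ℚ F _ _ DivisionRing.toRatAlgebra) = F.module' :=
      Subsingleton.elim _ _
    exact { to_charZero := inferInstance
            to_finiteDimensional := by rw [emod]; exact hFfin }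
  case gal =>
    have ealg : (DivisionRing.toRatAlgebra : Algebra ℚ F) = F.algebra' := Subsingleton.elim _ _
    haveI : IsGalois ℚ Qb := isGalois_qb
    rw [ealg]
    exact @IsGalois.mk ℚ _ ↥F _ _ inferInstance hFnorm
  case tower => exact IsScalarTower.of_algebraMap_eq (fun x => by simp)
  · exact (Ideal.mk_ker (I := 𝔪)).ge
  · intro σ hσ
    have key : ∀ x ∈ F, σ x = x := by
      intro x hx
      have h2 := MonoidHom.mem_ker.mp hσ
      have h3 := congrArg (fun e => algebraMap (↥F) Qb (e ⟨x, hx⟩)) h2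
      simp only [AlgEquiv.one_apply] at h3
      exact (AlgEquiv.restrictNormal_commutes σ _ _).symm.trans h3
    refine Subgroup.mem_inf.mpr ⟨?_, ?_⟩
    · rw [MonoidHom.mem_ker]
      ext x
      rw [galoisRepModuleEnd_apply]
      exact congrArg _ (hfix₂ σ ((IntermediateField.mem_fixingSubgroup_iff _ _).mpr
        (fun y hy => key y (h2F hy))) x)
    · exact MonoidHom.mem_ker.mpr (hfix₁ σ (fun x hx => key x (h1F hx)))
  · intro ℓ hℓ hℓM hℓp A hA τ hτ
    obtain ⟨a, ha, hchar⟩ := hatt ℓ hℓ hℓM (hℓk ℓ hℓ hℓp) A hA τ hτ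
    exact ⟨a, ha, (trace_det_of_charpoly ρ.finrank_eq (ρ.ρ τ) _ _ hchar).1⟩
  · intro ℓ hℓ hℓM hℓp A hA τ hτ
    obtain ⟨a, ha, hchar⟩ := hatt ℓ hℓ hℓM (hℓk ℓ hℓ hℓp) A hA τ hτ
    exact (trace_det_of_charpoly ρ.finrank_eq (ρ.ρ τ) _ _ hchar).2

end Fermat.Agent.S29.H02
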