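import Mathlib
import Fermat.Agent.S22.HeckeDecomp_helper56
import Fermat.Agent.S29.TransferDef_helper6

/-!
# S29 / S31, node (TR-HOM) (helper6): the Hecke transfer as an operator

* `repT_eq_of_mul_eq` : for `M ∈ SL(2,ℤ)`, `M * repT ℓ y = repT ℓ y'` forces `y = y'`, `M = 1`
  (the `ℓ + 1` cosets `SL(2,ℤ) · repT ℓ y` are pairwise distinct).
* `IsDecomp.unique` : the coset decomposition of `γ ∈ Γ₀(N)` is unique.
* `IsDecomp.one`, `IsDecomp.mul` : decompositions compose.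
* `exists_isHeckeTr` : every additive character `χ` of `Γ₀(N)` has a Hecke transfer `χ'`
  (`ℓ` prime, `ℓ ∤ N`).
* `heckeTr hℓ hℓN` : the transfer as an additive endomorphism of `Hom(Γ₀(N), A)`, with
  `isHeckeTr_heckeTr` and `IsHeckeTr.eq_heckeTr`.
-/

set_option autoImplicit false

namespace Fermat.Agent.S29.H06

open CongruenceSubgroup
open Fermat.Agent.S22
open scoped MatrixGroups

/-! ### Distinctness of the cosets -/

theorem coe_mul_GL (M M' : SL(2, ℤ)) :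
    ((M * M' : SL(2, ℤ)) : GL (Fin 2) ℝ) = (M : GL (Fin 2) ℝ) * (M' : GL (Fin 2) ℝ) :=
  map_mul (Matrix.SpecialLinearGroup.mapGL ℝ) M M'

theorem coe_inv_GL (M : SL(2, ℤ)) :
    ((M⁻¹ : SL(2, ℤ)) : GL (Fin 2) ℝ) = (M : GL (Fin 2) ℝ)⁻¹ :=
  map_inv (Matrix.SpecialLinearGroup.mapGL ℝ) M

theorem coe_one_GL : ((1 : SL(2, ℤ)) : GL (Fin 2) ℝ) = 1 :=
  map_one (Matrix.SpecialLinearGroup.mapGL ℝ)

theorem sl_eq_one_of_entries (M : SL(2, ℤ)) (h00 : M 0 0 = 1) (h01 : M 0 1 = 0)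
    (h10 : M 1 0 = 0) (h11 : M 1 1 = 1) : M = 1 := by
  ext i j
  fin_cases i <;> fin_cases j <;> simp [h00, h01, h10, h11]

/-- The cosets `SL(2,ℤ) · repT ℓ y` are pairwise distinct (and the stabiliser is trivial). -/
theorem repT_eq_of_mul_eq {ℓ : ℕ} (hℓ : 2 ≤ ℓ) (M : SL(2, ℤ)) (y y' : Option (Fin ℓ))
    (h : (M : GL (Fin 2) ℝ) * H56.repT ℓ y = H56.repT ℓ y') : y = y' ∧ M = 1 := by
  have hℓ0 : ℓ ≠ 0 := by omega
  have e : ∀ i j : Fin 2,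
      ((M i 0 : ℤ) : ℝ) * H56.repT ℓ y 0 j + ((M i 1 : ℤ) : ℝ) * H56.repT ℓ y 1 j =
        H56.repT ℓ y' i j := by
    intro i j
    have := congrArg (fun A : GL (Fin 2) ℝ => (A : Matrix (Fin 2) (Fin 2) ℝ) i j) h
    simp only [Matrix.GeneralLinearGroup.coe_mul, Matrix.mul_apply, Fin.sum_univ_two] at this
    exact this
  have e00 := e 0 0
  have e01 := e 0 1
  have e10 := e 1 0
  have e11 := e 1 1
  cases y with
  | none =>
    obtain ⟨a00, a01, a10, a11⟩ : H56.repT ℓ none 0 0 = ℓ ∧ H56.repT ℓ none 0 1 = 0 ∧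
        H56.repT ℓ none 1 0 = 0 ∧ H56.repT ℓ none 1 1 = 1 := H56.heckeDiagMatrix_entries hℓ0
    rw [a00, a10] at e00 e10
    rw [a01, a11] at e01 e11
    cases y' with
    | none =>
      rw [a00] at e00
      rw [a01] at e01
      rw [a10] at e10
      rw [a11] at e11
      refine ⟨rfl, sl_eq_one_of_entries M ?_ ?_ ?_ ?_⟩
      · have h1 : ((M 0 0 : ℤ) : ℝ) * (ℓ : ℝ) = (ℓ : ℝ) := by linarith
        have h2 : (M 0 0 : ℤ) * (ℓ : ℤ) = (ℓ : ℤ) := by exact_mod_cast h1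
        have h3 : (ℓ : ℤ) ≠ 0 := by exact_mod_cast hℓ0
        exact mul_right_cancel₀ h3 (h2.trans (one_mul _).symm)
      · have h1 : ((M 0 1 : ℤ) : ℝ) = 0 := by linarith
        exact_mod_cast h1
      · have h1 : ((M 1 0 : ℤ) : ℝ) * (ℓ : ℝ) = 0 := by linarith
        have h2 : (M 1 0 : ℤ) * (ℓ : ℤ) = 0 := by exact_mod_cast h1
        have h3 : (ℓ : ℤ) ≠ 0 := by exact_mod_cast hℓ0
        exact (mul_eq_zero.mp h2).resolve_right h3
      · have h1 : ((M 1 1 : ℤ) : ℝ) = 1 := by linarith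
        exact_mod_cast h1
    | some j' =>
      exfalso
      obtain ⟨b00, -, -, -⟩ : H56.repT ℓ (some j') 0 0 = 1 ∧
          H56.repT ℓ (some j') 0 1 = ((j' : ℕ) : ℝ) ∧
          H56.repT ℓ (some j') 1 0 = 0 ∧ H56.repT ℓ (some j') 1 1 = ℓ :=
        H56.heckeMatrix_entries hℓ0 j'
      rw [b00] at e00
      have h1 : ((M 0 0 : ℤ) : ℝ) * (ℓ : ℝ) = 1 := by linarith
      have h2 : (M 0 0 : ℤ) * (ℓ : ℤ) = 1 := by exact_mod_cast h1
      have h3 : ((ℓ : ℤ)) ∣ 1 := Dvd.intro_left _ h2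
      have h4 := Int.le_of_dvd one_pos h3
      omega
  | some j =>
    obtain ⟨a00, a01, a10, a11⟩ : H56.repT ℓ (some j) 0 0 = 1 ∧
        H56.repT ℓ (some j) 0 1 = ((j : ℕ) : ℝ) ∧
        H56.repT ℓ (some j) 1 0 = 0 ∧ H56.repT ℓ (some j) 1 1 = ℓ :=
      H56.heckeMatrix_entries hℓ0 j
    rw [a00, a10] at e00 e10
    rw [a01, a11] at e01 e11
    cases y' with
    | none =>
      exfalso
      obtain ⟨-, -, b10, b11⟩ : H56.repT ℓ none 0 0 = ℓ ∧ H56.repT ℓ none 0 1 = 0 ∧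
          H56.repT ℓ none 1 0 = 0 ∧ H56.repT ℓ none 1 1 = 1 := H56.heckeDiagMatrix_entries hℓ0
      rw [b10] at e10
      rw [b11] at e11
      have h0 : ((M 1 0 : ℤ) : ℝ) = 0 := by linarith
      rw [h0] at e11
      have h1 : ((M 1 1 : ℤ) : ℝ) * (ℓ : ℝ) = 1 := by linarith
      have h2 : (M 1 1 : ℤ) * (ℓ : ℤ) = 1 := by exact_mod_cast h1
      have h3 : ((ℓ : ℤ)) ∣ 1 := Dvd.intro_left _ h2
      have h4 := Int.le_of_dvd one_pos h3
      omega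
    | some j' =>
      obtain ⟨b00, b01, b10, b11⟩ : H56.repT ℓ (some j') 0 0 = 1 ∧
          H56.repT ℓ (some j') 0 1 = ((j' : ℕ) : ℝ) ∧
          H56.repT ℓ (some j') 1 0 = 0 ∧ H56.repT ℓ (some j') 1 1 = ℓ :=
        H56.heckeMatrix_entries hℓ0 j'
      rw [b00] at e00
      rw [b01] at e01
      rw [b10] at e10
      rw [b11] at e11
      have hℓpos : (0 : ℤ) < (ℓ : ℤ) := by exact_mod_cast (by omega : 0 < ℓ)
      have h00 : (M 0 0 : ℤ) = 1 := by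
        have h1 : ((M 0 0 : ℤ) : ℝ) = 1 := by linarith
        exact_mod_cast h1
      have h10 : (M 1 0 : ℤ) = 0 := by
        have h1 : ((M 1 0 : ℤ) : ℝ) = 0 := by linarith
        exact_mod_cast h1
      have h11 : (M 1 1 : ℤ) = 1 := by
        have h1 : ((M 1 1 : ℤ) : ℝ) * (ℓ : ℝ) = (ℓ : ℝ) := by
          have : ((M 1 0 : ℤ) : ℝ) = 0 := by exact_mod_cast h10
          rw [this] at e11
          linarith
        have h2 : (M 1 1 : ℤ) * (ℓ : ℤ) = (ℓ : ℤ) := by exact_mod_cast h1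
        exact mul_right_cancel₀ hℓpos.ne' (h2.trans (one_mul _).symm)
      have hj : ((j : ℕ) : ℤ) + (M 0 1 : ℤ) * (ℓ : ℤ) = ((j' : ℕ) : ℤ) := by
        have h1 : ((M 0 0 : ℤ) : ℝ) = 1 := by exact_mod_cast h00
        rw [h1] at e01
        have h2 : (((j : ℕ) : ℝ)) + ((M 0 1 : ℤ) : ℝ) * (ℓ : ℝ) = ((j' : ℕ) : ℝ) := by linarith
        exact_mod_cast h2
      have hjlt : ((j : ℕ) : ℤ) < ℓ := by exact_mod_cast j.isLt
      have hj'lt : ((j' : ℕ) : ℤ) < ℓ := by exact_mod_cast j'.isLt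
      have hj0 : (0 : ℤ) ≤ ((j : ℕ) : ℤ) := Int.natCast_nonneg _
      have hj'0 : (0 : ℤ) ≤ ((j' : ℕ) : ℤ) := Int.natCast_nonneg _
      have h01 : (M 0 1 : ℤ) = 0 := by
        by_contra hne
        rcases lt_or_gt_of_ne hne with hlt | hgt
        · have : (M 0 1 : ℤ) * (ℓ : ℤ) ≤ -1 * (ℓ : ℤ) :=
            mul_le_mul_of_nonneg_right (by omega) hℓpos.le
          omega
        · have : 1 * (ℓ : ℤ) ≤ (M 0 1 : ℤ) * (ℓ : ℤ) :=
            mul_le_mul_of_nonneg_right (by omega) hℓpos.le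
          omega
      refine ⟨?_, sl_eq_one_of_entries M h00 h01 h10 h11⟩
      rw [h01, zero_mul, add_zero] at hj
      have : (j : ℕ) = (j' : ℕ) := by exact_mod_cast hj
      rw [Fin.ext this]

/-! ### Uniqueness and composition of decompositions -/

variable {N ℓ : ℕ}

/-- **Uniqueness of the Hecke coset decomposition.** -/
theorem IsDecomp.unique (hℓ : ℓ.Prime) {γ : Gamma0 N} {σ τ : Equiv.Perm (Option (Fin ℓ))}
    {g' h' : Option (Fin ℓ) → Gamma0 N} (h₁ : IsDecomp N ℓ γ σ g') (h₂ : IsDecomp N ℓ γ τ h') :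
    σ = τ ∧ g' = h' := by
  have key : ∀ x, σ x = τ x ∧ g' x = h' x := by
    intro x
    have e : (((g' x : Gamma0 N) : SL(2, ℤ)) : GL (Fin 2) ℝ) * H56.repT ℓ (σ x) =
        (((h' x : Gamma0 N) : SL(2, ℤ)) : GL (Fin 2) ℝ) * H56.repT ℓ (τ x) :=
      (h₁ x).symm.trans (h₂ x)
    have e' : ((((h' x : Gamma0 N) : SL(2, ℤ))⁻¹ * ((g' x : Gamma0 N) : SL(2, ℤ)) : SL(2, ℤ)) :
        GL (Fin 2) ℝ) * H56.repT ℓ (σ x) = H56.repT ℓ (τ x) := by
      rw [coe_mul_GL, coe_inv_GL, mul_assoc, e, ← mul_assoc, inv_mul_cancel, one_mul]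
    obtain ⟨hy, hM⟩ := repT_eq_of_mul_eq hℓ.two_le _ _ _ e'
    refine ⟨hy, Subtype.ext ?_⟩
    have := inv_mul_eq_one.mp hM
    exact this.symm
  exact ⟨Equiv.ext fun x => (key x).1, funext fun x => (key x).2⟩

/-- The trivial decomposition of `1`. -/
theorem IsDecomp.one : IsDecomp N ℓ 1 (Equiv.refl _) (fun _ => 1) := by
  intro x
  simp only [Equiv.refl_apply, OneMemClass.coe_one]
  rw [coe_one_GL, mul_one, one_mul]

/-- Decompositions compose. -/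
theorem IsDecomp.mul {γ δ : Gamma0 N} {σ τ : Equiv.Perm (Option (Fin ℓ))}
    {g' h' : Option (Fin ℓ) → Gamma0 N} (h₁ : IsDecomp N ℓ γ σ g') (h₂ : IsDecomp N ℓ δ τ h') :
    IsDecomp N ℓ (γ * δ) (σ.trans τ) (fun x => g' x * h' (σ x)) := by
  intro x
  simp only [Equiv.trans_apply, Subgroup.coe_mul]
  rw [coe_mul_GL, coe_mul_GL, ← mul_assoc, h₁ x, mul_assoc, h₂ (σ x), ← mul_assoc]

/-! ### The transfer operator -/

section Operator

variable {A : Type*} [AddCommGroup A]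

/-- The chosen decomposition of `γ`. -/
noncomputable def decompPerm (hℓ : ℓ.Prime) (hℓN : ¬ ℓ ∣ N) (γ : Gamma0 N) :
    Equiv.Perm (Option (Fin ℓ)) :=
  (exists_isDecomp hℓ hℓN γ).choose

/-- The chosen decomposition of `γ`. -/
noncomputable def decompFun (hℓ : ℓ.Prime) (hℓN : ¬ ℓ ∣ N) (γ : Gamma0 N) :
    Option (Fin ℓ) → Gamma0 N :=
  (exists_isDecomp hℓ hℓN γ).choose_spec.choose

theorem isDecomp_decomp (hℓ : ℓ.Prime) (hℓN : ¬ ℓ ∣ N) (γ : Gamma0 N) :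
    IsDecomp N ℓ γ (decompPerm hℓ hℓN γ) (decompFun hℓ hℓN γ) :=
  (exists_isDecomp hℓ hℓN γ).choose_spec.choose_spec

theorem decompFun_mul (hℓ : ℓ.Prime) (hℓN : ¬ ℓ ∣ N) (γ δ : Gamma0 N) (x : Option (Fin ℓ)) :
    decompFun hℓ hℓN (γ * δ) x =
      decompFun hℓ hℓN γ x * decompFun hℓ hℓN δ (decompPerm hℓ hℓN γ x) :=
  congrFun (IsDecomp.unique hℓ (isDecomp_decomp hℓ hℓN (γ * δ))
    ((isDecomp_decomp hℓ hℓN γ).mul (isDecomp_decomp hℓ hℓN δ))).2 x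

/-- The Hecke transfer of a character, as a character. -/
noncomputable def heckeTrFun (hℓ : ℓ.Prime) (hℓN : ¬ ℓ ∣ N) (χ : Additive (Gamma0 N) →+ A) :
    Additive (Gamma0 N) →+ A :=
  AddMonoidHom.mk' (fun γ => ∑ x, χ (Additive.ofMul (decompFun hℓ hℓN (Additive.toMul γ) x)))
    (by
      intro γ δ
      simp only [toMul_add]
      rw [← Equiv.sum_comp (decompPerm hℓ hℓN (Additive.toMul γ))
        (fun y => χ (Additive.ofMul (decompFun hℓ hℓN (Additive.toMul δ) y))),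
        ← Finset.sum_add_distrib]
      refine Finset.sum_congr rfl fun x _ => ?_
      rw [decompFun_mul, ofMul_mul, map_add])

theorem heckeTrFun_apply (hℓ : ℓ.Prime) (hℓN : ¬ ℓ ∣ N) (χ : Additive (Gamma0 N) →+ A)
    (γ : Gamma0 N) :
    heckeTrFun hℓ hℓN χ (Additive.ofMul γ) =
      ∑ x, χ (Additive.ofMul (decompFun hℓ hℓN γ x)) := rfl

theorem isHeckeTr_heckeTrFun (hℓ : ℓ.Prime) (hℓN : ¬ ℓ ∣ N) (χ : Additive (Gamma0 N) →+ A) :
    IsHeckeTr N ℓ χ (heckeTrFun hℓ hℓN χ) := by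
  intro γ σ g' hd
  rw [heckeTrFun_apply, (IsDecomp.unique hℓ hd (isDecomp_decomp hℓ hℓN γ)).2]

/-- **(TR-HOM)** every additive character of `Γ₀(N)` has a Hecke transfer. -/
theorem exists_isHeckeTr (hℓ : ℓ.Prime) (hℓN : ¬ ℓ ∣ N) (χ : Additive (Gamma0 N) →+ A) :
    ∃ χ' : Additive (Gamma0 N) →+ A, IsHeckeTr N ℓ χ χ' :=
  ⟨heckeTrFun hℓ hℓN χ, isHeckeTr_heckeTrFun hℓ hℓN χ⟩

/-- The Hecke transfer `T_ℓ^tr` as an additive endomorphism of `Hom(Γ₀(N), A)`. -/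
noncomputable def heckeTr (hℓ : ℓ.Prime) (hℓN : ¬ ℓ ∣ N) :
    (Additive (Gamma0 N) →+ A) →+ (Additive (Gamma0 N) →+ A) :=
  AddMonoidHom.mk' (heckeTrFun hℓ hℓN) (by
    intro χ₁ χ₂
    exact IsHeckeTr.unique hℓ hℓN (isHeckeTr_heckeTrFun hℓ hℓN (χ₁ + χ₂))
      ((isHeckeTr_heckeTrFun hℓ hℓN χ₁).add (isHeckeTr_heckeTrFun hℓ hℓN χ₂)))

theorem heckeTr_apply_apply (hℓ : ℓ.Prime) (hℓN : ¬ ℓ ∣ N) (χ : Additive (Gamma0 N) →+ A)
    (γ : Gamma0 N) :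
    heckeTr hℓ hℓN χ (Additive.ofMul γ) =
      ∑ x, χ (Additive.ofMul (decompFun hℓ hℓN γ x)) := rfl

theorem isHeckeTr_heckeTr (hℓ : ℓ.Prime) (hℓN : ¬ ℓ ∣ N) (χ : Additive (Gamma0 N) →+ A) :
    IsHeckeTr N ℓ χ (heckeTr hℓ hℓN χ) :=
  isHeckeTr_heckeTrFun hℓ hℓN χ

theorem IsHeckeTr.eq_heckeTr (hℓ : ℓ.Prime) (hℓN : ¬ ℓ ∣ N) {χ χ' : Additive (Gamma0 N) →+ A}
    (h : IsHeckeTr N ℓ χ χ') : χ' = heckeTr hℓ hℓN χ :=
  IsHeckeTr.unique hℓ hℓN h (isHeckeTr_heckeTr hℓ hℓN χ)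

theorem isHeckeTr_iff (hℓ : ℓ.Prime) (hℓN : ¬ ℓ ∣ N) {χ χ' : Additive (Gamma0 N) →+ A} :
    IsHeckeTr N ℓ χ χ' ↔ χ' = heckeTr hℓ hℓN χ :=
  ⟨fun h => h.eq_heckeTr hℓ hℓN, fun h => h ▸ isHeckeTr_heckeTr hℓ hℓN χ⟩

/-- Naturality of the transfer operator in the coefficient group. -/
theorem heckeTr_comp {B : Type*} [AddCommGroup B] (hℓ : ℓ.Prime) (hℓN : ¬ ℓ ∣ N)
    (f : A →+ B) (χ : Additive (Gamma0 N) →+ A) :
    heckeTr hℓ hℓN (f.comp χ) = f.comp (heckeTr hℓ hℓN χ) :=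
  (((isHeckeTr_heckeTr hℓ hℓN χ).comp f).eq_heckeTr hℓ hℓN).symm

end Operator

end Fermat.Agent.S29.H06
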