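import Mathlib
import Fermat.Agent.S29.TransferDef_helper6
import Fermat.Prelude.Def_ModularCurve_PeriodMap

/-!
# S29 / S31, leaf (TR-PAR) (helper70): the Hecke transfer preserves parabolic homomorphisms

If `χ'` is the Hecke transfer of `χ` at `ℓ` (`H06.IsHeckeTr N ℓ χ χ'`, `ℓ` prime, `ℓ ∤ N`) and
`χ` vanishes on the elements of `Γ₀(N)` of trace `±2`, then so does `χ'`, as soon as the
coefficient group has no torsion (in particular for `ℤ`).

Proof.  Let `γ` have trace `±2` and let `(σ, g')` be a decomposition of `γ`.  Iterating,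
`repT x * γ ^ k = (g' x * g' (σ x) * ⋯ * g' (σ ^ (k-1) x)) * repT (σ ^ k x)`; with
`k = n := orderOf σ` the element `δ x := g' x * ⋯ * g' (σ ^ (n-1) x)` of `Γ₀(N)` is conjugate in
`GL₂(ℝ)` to `γ ^ n`, hence has trace `±2` and `χ (δ x) = 0`.  Summing over `x`,
`0 = ∑ x, ∑ i < n, χ (g' (σ ^ i x)) = n • ∑ x, χ (g' x) = n • χ' γ`.
-/

set_option autoImplicit false

namespace Fermat.Agent.S29.H70

open CongruenceSubgroup
open Fermat.Agent.S22 Fermat.Agent.S29
open scoped MatrixGroups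

/-! ### Traces of powers of a parabolic matrix -/

/-- Cayley–Hamilton for `2 × 2` matrices of determinant one. -/
theorem sq_eq_of_det_one (A : Matrix (Fin 2) (Fin 2) ℤ) (hA : A.det = 1) :
    A * A = A.trace • A - 1 := by
  rw [Matrix.det_fin_two] at hA
  ext i j
  fin_cases i <;> fin_cases j <;>
    simp [Matrix.mul_apply, Fin.sum_univ_two, Matrix.trace_fin_two, -zsmul_eq_mul] <;>
    first
      | linear_combination (-1 : ℤ) * hA
      | ring1

theorem trace_pow_add_two (A : Matrix (Fin 2) (Fin 2) ℤ) (hA : A.det = 1) (k : ℕ) :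
    (A ^ (k + 2)).trace = A.trace * (A ^ (k + 1)).trace - (A ^ k).trace := by
  have h : A ^ (k + 2) = A.trace • A ^ (k + 1) - A ^ k := by
    rw [pow_add, pow_two, sq_eq_of_det_one A hA, mul_sub, mul_one, Matrix.mul_smul, ← pow_succ]
  rw [h, Matrix.trace_sub, Matrix.trace_smul, smul_eq_mul]

/-- The powers of a matrix of determinant one and trace `±2` have trace `±2`. -/
theorem trace_pow_sq_eq_four (A : Matrix (Fin 2) (Fin 2) ℤ) (hA : A.det = 1)
    (ht : A.trace ^ 2 = 4) (k : ℕ) : (A ^ k).trace ^ 2 = 4 := by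
  have key : ∀ k : ℕ, (A ^ k).trace ^ 2 = 4 ∧
      (A ^ (k + 1)).trace = (A.trace * (A ^ k).trace) / 2 ∧ 2 ∣ A.trace * (A ^ k).trace := by
    have ht2 : A.trace = 2 ∨ A.trace = -2 := by
      have h0 : (A.trace - 2) * (A.trace + 2) = 0 := by ring_nf; ring_nf at ht; omega
      rcases mul_eq_zero.mp h0 with h | h
      · left; omega
      · right; omega
    intro k
    induction k with
    | zero =>
      have h1 : (A ^ 0).trace = 2 := by simp
      refine ⟨by rw [h1]; norm_num, ?_, ?_⟩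
      · rw [h1, zero_add, pow_one]; omega
      · rw [h1]; exact Dvd.intro_left _ rfl
    | succ k ih =>
      obtain ⟨ih1, ih2, ih3⟩ := ih
      have hk2 : (A ^ k).trace = 2 ∨ (A ^ k).trace = -2 := by
        have h0 : ((A ^ k).trace - 2) * ((A ^ k).trace + 2) = 0 := by
          ring_nf; ring_nf at ih1; omega
        rcases mul_eq_zero.mp h0 with h | h
        · left; omega
        · right; omega
      have hrec := trace_pow_add_two A hA k
      rcases ht2 with h | h <;> rcases hk2 with h' | h' <;> rw [h, h'] at ih2 <;>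
        norm_num at ih2 <;> rw [h, h', ih2] at hrec <;> norm_num at hrec <;>
        refine ⟨by rw [ih2]; norm_num, ?_, ?_⟩ <;> rw [h, ih2] <;> first
          | (rw [hrec]; norm_num) | norm_num
  exact (key k).1

/-! ### Iterating a decomposition -/

variable {N ℓ : ℕ}

/-- The ordered product `g' x * g' (σ x) * ⋯ * g' (σ ^ (k-1) x)`. -/
def iterProd (σ : Equiv.Perm (Option (Fin ℓ))) (g' : Option (Fin ℓ) → Gamma0 N) :
    ℕ → Option (Fin ℓ) → Gamma0 N
  | 0, _ => 1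
  | k + 1, x => g' x * iterProd σ g' k (σ x)

theorem iterProd_decomp {γ : Gamma0 N} {σ : Equiv.Perm (Option (Fin ℓ))}
    {g' : Option (Fin ℓ) → Gamma0 N} (hd : H06.IsDecomp N ℓ γ σ g') (k : ℕ)
    (x : Option (Fin ℓ)) :
    H56.repT ℓ x * ((((γ ^ k : Gamma0 N) : SL(2, ℤ)) : GL (Fin 2) ℝ)) =
      (((iterProd σ g' k x : SL(2, ℤ)) : GL (Fin 2) ℝ)) * H56.repT ℓ ((σ ^ k) x) := by
  induction k generalizing x with
  | zero => simp [iterProd]
  | succ k ih =>
    have h1 : (((γ ^ (k + 1) : Gamma0 N) : SL(2, ℤ)) : GL (Fin 2) ℝ) =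
        (((γ : SL(2, ℤ)) : GL (Fin 2) ℝ)) * (((γ ^ k : Gamma0 N) : SL(2, ℤ)) : GL (Fin 2) ℝ) := by
      rw [pow_succ']; simp
    have h2 : (((iterProd σ g' (k + 1) x : SL(2, ℤ)) : GL (Fin 2) ℝ)) =
        (((g' x : SL(2, ℤ)) : GL (Fin 2) ℝ)) *
          (((iterProd σ g' k (σ x) : SL(2, ℤ)) : GL (Fin 2) ℝ)) := by
      simp [iterProd]
    rw [h1, h2, ← mul_assoc, hd x, mul_assoc, ih (σ x), mul_assoc, pow_succ, Equiv.Perm.mul_apply]

theorem map_iterProd {A : Type*} [AddCommGroup A] (χ : Additive (Gamma0 N) →+ A)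
    (σ : Equiv.Perm (Option (Fin ℓ))) (g' : Option (Fin ℓ) → Gamma0 N) (k : ℕ)
    (x : Option (Fin ℓ)) :
    χ (Additive.ofMul (iterProd σ g' k x)) =
      ∑ i ∈ Finset.range k, χ (Additive.ofMul (g' ((σ ^ i) x))) := by
  induction k generalizing x with
  | zero => simp [iterProd]
  | succ k ih =>
    rw [Finset.sum_range_succ', iterProd, ofMul_mul, map_add, ih (σ x), add_comm]
    simp [pow_succ, Equiv.Perm.mul_apply]

/-- The real trace of an element of `Γ₀(N)` is the cast of its integral trace. -/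
theorem trace_coe_real (δ : Gamma0 N) :
    ((((δ : SL(2, ℤ)) : GL (Fin 2) ℝ)) : Matrix (Fin 2) (Fin 2) ℝ).trace =
      ((((δ : SL(2, ℤ)) : Matrix (Fin 2) (Fin 2) ℤ).trace : ℤ) : ℝ) := by
  simp [Matrix.trace_fin_two]

/-- If `γ` has trace `±2`, so does the iterated product at the order of `σ`. -/
theorem trace_iterProd_orderOf {γ : Gamma0 N} {σ : Equiv.Perm (Option (Fin ℓ))}
    {g' : Option (Fin ℓ) → Gamma0 N} (hd : H06.IsDecomp N ℓ γ σ g')
    (hγ : ((γ : SL(2, ℤ)) : Matrix (Fin 2) (Fin 2) ℤ).trace ^ 2 = 4) (x : Option (Fin ℓ)) :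
    (((iterProd σ g' (orderOf σ) x : Gamma0 N) : SL(2, ℤ)) :
      Matrix (Fin 2) (Fin 2) ℤ).trace ^ 2 = 4 := by
  have h := iterProd_decomp hd (orderOf σ) x
  rw [pow_orderOf_eq_one, Equiv.Perm.one_apply] at h
  -- conjugate elements of `GL₂(ℝ)` have the same trace
  have hconj : (((iterProd σ g' (orderOf σ) x : SL(2, ℤ)) : GL (Fin 2) ℝ)) =
      H56.repT ℓ x * ((((γ ^ orderOf σ : Gamma0 N) : SL(2, ℤ)) : GL (Fin 2) ℝ)) *
        (H56.repT ℓ x)⁻¹ := by
    rw [h, mul_inv_cancel_right]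
  have htr : ((((iterProd σ g' (orderOf σ) x : SL(2, ℤ)) : GL (Fin 2) ℝ)) :
      Matrix (Fin 2) (Fin 2) ℝ).trace =
      (((((γ ^ orderOf σ : Gamma0 N) : SL(2, ℤ)) : GL (Fin 2) ℝ)) :
        Matrix (Fin 2) (Fin 2) ℝ).trace := by
    rw [hconj, Units.val_mul, Units.val_mul]
    exact Matrix.trace_units_conj _ _
  rw [trace_coe_real, trace_coe_real] at htr
  have htr' : (((iterProd σ g' (orderOf σ) x : Gamma0 N) : SL(2, ℤ)) :
      Matrix (Fin 2) (Fin 2) ℤ).trace =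
      (((γ ^ orderOf σ : Gamma0 N) : SL(2, ℤ)) : Matrix (Fin 2) (Fin 2) ℤ).trace := by
    exact_mod_cast htr
  rw [htr']
  have hpow : (((γ ^ orderOf σ : Gamma0 N) : SL(2, ℤ)) : Matrix (Fin 2) (Fin 2) ℤ) =
      ((γ : SL(2, ℤ)) : Matrix (Fin 2) (Fin 2) ℤ) ^ orderOf σ := by
    simp
  rw [hpow]
  exact trace_pow_sq_eq_four _ (γ : SL(2, ℤ)).2 hγ _

/-! ### The leaf -/

/-- **(TR-PAR), torsion-free coefficients.**  The Hecke transfer of a parabolic homomorphism is
parabolic. -/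
theorem isParabolicHom_of_isHeckeTr {A : Type*} [AddCommGroup A]
    (hA : ∀ (n : ℕ) (a : A), n ≠ 0 → n • a = 0 → a = 0)
    (hℓ : ℓ.Prime) (hℓN : ¬ ℓ ∣ N) {χ χ' : Additive (Gamma0 N) →+ A}
    (h : H06.IsHeckeTr N ℓ χ χ') (hχ : ModularCurve.Period.IsParabolicHom (Gamma0 N) χ) :
    ModularCurve.Period.IsParabolicHom (Gamma0 N) χ' := by
  intro γ hγ
  obtain ⟨σ, g', hd⟩ := H06.exists_isDecomp hℓ hℓN γ
  have hn : orderOf σ ≠ 0 := (orderOf_pos σ).ne'
  apply hA (orderOf σ) _ hn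
  rw [h γ σ g' hd]
  have h0 : ∀ x, χ (Additive.ofMul (iterProd σ g' (orderOf σ) x)) = 0 := fun x =>
    hχ _ (trace_iterProd_orderOf hd hγ x)
  have hsum : ∑ x, χ (Additive.ofMul (iterProd σ g' (orderOf σ) x)) = 0 :=
    Finset.sum_eq_zero fun x _ => h0 x
  simp only [map_iterProd] at hsum
  rw [Finset.sum_comm] at hsum
  have hre : ∀ i ∈ Finset.range (orderOf σ),
      ∑ x, χ (Additive.ofMul (g' ((σ ^ i) x))) = ∑ x, χ (Additive.ofMul (g' x)) := fun i _ =>
    Equiv.sum_comp (σ ^ i) fun x => χ (Additive.ofMul (g' x))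
  rw [Finset.sum_congr rfl hre, Finset.sum_const, Finset.card_range] at hsum
  exact hsum

/-- **(TR-PAR)**, in the literal shape asked by the S31 top (helper69, board #2078). -/
theorem IsHeckeTr.isParabolicHom (hℓ : ℓ.Prime) (hℓN : ¬ ℓ ∣ N)
    {χ χ' : Additive (Gamma0 N) →+ ℤ} (h : H06.IsHeckeTr N ℓ χ χ')
    (hχ : ModularCurve.Period.IsParabolicHom (Gamma0 N) χ) :
    ModularCurve.Period.IsParabolicHom (Gamma0 N) χ' :=
  isParabolicHom_of_isHeckeTr
    (fun n a hn h0 => by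
      rcases smul_eq_zero.mp h0 with h1 | h1
      · exact absurd h1 hn
      · exact h1) hℓ hℓN h hχ

/-- Membership form: the transfer maps `parabolicHoms ℤ (Γ₀(N)) ℤ` into itself. -/
theorem IsHeckeTr.mem_parabolicHoms (hℓ : ℓ.Prime) (hℓN : ¬ ℓ ∣ N)
    {χ χ' : Additive (Gamma0 N) →+ ℤ} (h : H06.IsHeckeTr N ℓ χ χ')
    (hχ : χ ∈ ModularCurve.Period.parabolicHoms ℤ (Gamma0 N) ℤ) :
    χ' ∈ ModularCurve.Period.parabolicHoms ℤ (Gamma0 N) ℤ :=
  IsHeckeTr.isParabolicHom hℓ hℓN h hχ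

/-- Complex coefficients. -/
theorem IsHeckeTr.isParabolicHom_complex (hℓ : ℓ.Prime) (hℓN : ¬ ℓ ∣ N)
    {χ χ' : Additive (Gamma0 N) →+ ℂ} (h : H06.IsHeckeTr N ℓ χ χ')
    (hχ : ModularCurve.Period.IsParabolicHom (Gamma0 N) χ) :
    ModularCurve.Period.IsParabolicHom (Gamma0 N) χ' :=
  isParabolicHom_of_isHeckeTr
    (fun n a hn h0 => by
      rcases smul_eq_zero.mp h0 with h1 | h1
      · exact absurd h1 hn
      · exact h1) hℓ hℓN h hχ

end Fermat.Agent.S29.H70
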