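import Mathlib

/-!
# S29, (WIT) assembly, abstract core (helper94)

`G` a group acting additively on an abelian group `J`, `p` a prime, `k` a field of
characteristic `p`, `Ψ : Λ →+ J` an additive map into the `p`-torsion whose kernel is cut out
by integer-valued "evaluations" `ev e : Λ →+ ℤ` modulo `p`.  For `χ i ∈ Λ`, `θ i ∈ k` with
`∑ θ i * ev e (χ i) ≠ 0` for some `e`, we build the `k`-span `W` of the `G`-orbit of
`∑ θ i ⊗ Ψ (χ i)` without tensor products: `W` lives in the `k`-valued functions on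
`D = Hom (J[p], ZMod p)`, the vector being `f ↦ ∑ θ i * f (Ψ (χ i))`.

`exists_wit_core` : `W` is a nonzero finite-dimensional representation of `G`; an element of
`G` fixing the orbits of the `Ψ (χ i)` acts trivially; and every additive relation
`σ² - T σ + ℓ = 0` on `J[p]`, with `T` a `G`-equivariant endomorphism of `J` acting on
`∑ θ i ⊗ χ i` through the scalar `a` (as `k`-valued functions of `e`), gives
`r σ * r σ + ℓ • 1 = a • r σ` on `W`.
-/

set_option autoImplicit false

noncomputable section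

namespace Fermat.Agent.S29.H94

open Module

section Core

variable {G : Type} [Group G] {J : Type} [AddCommGroup J] [DistribMulAction G J]
variable (p : ℕ)

/-- the `p`-torsion subgroup of `J` -/
def tors (J : Type) [AddCommGroup J] (p : ℕ) : AddSubgroup J where
  carrier := {y | p • y = 0}
  zero_mem' := smul_zero p
  add_mem' := fun {a b} ha hb => by
    show p • (a + b) = 0
    rw [smul_add, ha, hb, add_zero]
  neg_mem' := fun {a} ha => by
    show p • (-a) = 0
    rw [smul_neg, ha, neg_zero]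

theorem mem_tors {y : J} : y ∈ tors J p ↔ p • y = 0 := Iff.rfl

theorem smul_mem_tors (σ : G) {y : J} (hy : p • y = 0) : p • (σ • y) = 0 := by
  rw [smul_comm, hy, smul_zero]

/-- the action of `G` on the `p`-torsion -/
def actT (σ : G) : tors J p →+ tors J p where
  toFun y := ⟨σ • (y : J), smul_mem_tors p σ y.2⟩
  map_zero' := Subtype.ext (smul_zero σ)
  map_add' a b := Subtype.ext (smul_add σ (a : J) b)

@[simp] theorem coe_actT (σ : G) (y : tors J p) : ((actT p σ y : tors J p) : J) = σ • (y : J) :=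
  rfl

theorem actT_one : actT p (1 : G) = AddMonoidHom.id (tors J p) := by
  ext y
  simp

theorem actT_mul (σ τ : G) : actT p (σ * τ) = (actT p σ).comp (actT p τ (J := J)) := by
  ext y
  simp [mul_smul]

variable {k : Type} [Field k]

/-- the representation of `G` on `k`-valued functions on the dual of the `p`-torsion -/
def rep (k : Type) [Field k] (σ : G) :
    ((tors J p →+ ZMod p) → k) →ₗ[k] ((tors J p →+ ZMod p) → k) :=
  LinearMap.funLeft k k (fun f : tors J p →+ ZMod p => f.comp (actT p σ))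

theorem rep_apply (σ : G) (w : (tors J p →+ ZMod p) → k) (f : tors J p →+ ZMod p) :
    rep p k σ w f = w (f.comp (actT p σ)) := rfl

theorem rep_one : rep p k (1 : G) = (LinearMap.id : ((tors J p →+ ZMod p) → k) →ₗ[k] _) := by
  ext w f
  rw [rep_apply, actT_one, LinearMap.id_apply, AddMonoidHom.comp_id]

theorem rep_mul (σ τ : G) :
    rep p k (σ * τ) = (rep p k σ).comp (rep p k τ (J := J)) := by
  ext w f
  rw [rep_apply, LinearMap.comp_apply, rep_apply, rep_apply, actT_mul, AddMonoidHom.comp_assoc]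

variable [Fact p.Prime] [CharP k p]

attribute [local instance] ZMod.algebra

/-- the vector `f ↦ ∑ θ i * f (y i)` -/
def vec {ι : Type*} [Fintype ι] (θ : ι → k) (y : ι → tors J p) : (tors J p →+ ZMod p) → k :=
  fun f => ∑ i, θ i * algebraMap (ZMod p) k (f (y i))

theorem rep_vec {ι : Type*} [Fintype ι] (σ : G) (θ : ι → k) (y : ι → tors J p) :
    rep p k σ (vec p θ y) = vec p θ (fun i => actT p σ (y i)) := rfl

/-- `ZMod p`-linear functionals on `k` separate points -/
theorem eq_zero_of_dual (x : k) (h : ∀ π : Dual (ZMod p) k, π x = 0) : x = 0 :=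
  (Module.forall_dual_apply_eq_zero_iff (ZMod p) x).mp h

theorem dual_mul_algebraMap (π : Dual (ZMod p) k) (c : k) (m : ZMod p) :
    π (c * algebraMap (ZMod p) k m) = π c * m := by
  rw [mul_comm c, ← Algebra.smul_def, map_smul, smul_eq_mul, mul_comm]

theorem sum_eq_zero_iff_dual {ι : Type*} [Fintype ι] (c : ι → k) (m : ι → ZMod p) :
    ∑ i, c i * algebraMap (ZMod p) k (m i) = 0 ↔
      ∀ π : Dual (ZMod p) k, ∑ i, π (c i) * m i = 0 := by
  constructor
  · intro h π
    have := congrArg π h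
    rw [map_sum, map_zero] at this
    rw [← this]
    exact Finset.sum_congr rfl (fun i _ => (dual_mul_algebraMap p π (c i) (m i)).symm)
  · intro h
    refine eq_zero_of_dual p _ (fun π => ?_)
    rw [map_sum, ← h π]
    exact Finset.sum_congr rfl (fun i _ => dual_mul_algebraMap p π (c i) (m i))

/-- additive functionals on a `ZMod p`-vector space separate points -/
theorem eq_zero_of_forall_hom_aux {T : Type*} [AddCommGroup T] [Module (ZMod p) T] (z : T)
    (h : ∀ f : T →+ ZMod p, f z = 0) : z = 0 :=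
  (Module.forall_dual_apply_eq_zero_iff (ZMod p) z).mp (fun φ => h φ.toAddMonoidHom)

/-- additive functionals on the `p`-torsion separate points -/
theorem eq_zero_of_forall_hom (z : tors J p) (h : ∀ f : tors J p →+ ZMod p, f z = 0) :
    z = 0 := by
  let _ : Module (ZMod p) (tors J p) := AddCommGroup.zmodModule (fun x => Subtype.ext (by
    rw [AddSubgroup.coe_nsmul]
    exact x.2))
  exact eq_zero_of_forall_hom_aux p z h

variable {Λ : Type*} [AddCommGroup Λ] (Ψ : Λ →+ J) (hp : ∀ χ, p • Ψ χ = 0)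
variable {E : Type*} (ev : E → Λ →+ ℤ)

include hp in
/-- **key lemma**: a `k`-linear combination of the `Ψ (μ i)` vanishes on the dual of the
`p`-torsion iff the corresponding combination of the evaluations vanishes -/
theorem key (hker : ∀ χ, Ψ χ = 0 ↔ ∀ e, (p : ℤ) ∣ ev e χ) {ι : Type*} [Fintype ι]
    (c : ι → k) (μ : ι → Λ) :
    (∀ f : tors J p →+ ZMod p,
        ∑ i, c i * algebraMap (ZMod p) k (f ⟨Ψ (μ i), hp (μ i)⟩) = 0) ↔
      ∀ e, ∑ i, c i * ((ev e (μ i) : ℤ) : k) = 0 := by
  -- the integer combination attached to a functional `π`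
  set M : Dual (ZMod p) k → Λ := fun π => ∑ i, (π (c i)).val • μ i with hM
  have hA : ∀ π : Dual (ZMod p) k,
      (∀ f : tors J p →+ ZMod p, ∑ i, π (c i) * f ⟨Ψ (μ i), hp (μ i)⟩ = 0) ↔ Ψ (M π) = 0 := by
    intro π
    have hz : (⟨Ψ (M π), hp (M π)⟩ : tors J p) =
        ∑ i, (π (c i)).val • (⟨Ψ (μ i), hp (μ i)⟩ : tors J p) := by
      refine Subtype.ext ?_
      rw [AddSubmonoidClass.coe_finsetSum]
      simp only [hM, map_sum, map_nsmul, AddSubgroup.coe_nsmul]
    have hf : ∀ f : tors J p →+ ZMod p,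
        f ⟨Ψ (M π), hp (M π)⟩ = ∑ i, π (c i) * f ⟨Ψ (μ i), hp (μ i)⟩ := by
      intro f
      rw [hz, map_sum]
      refine Finset.sum_congr rfl (fun i _ => ?_)
      rw [map_nsmul, nsmul_eq_mul, ZMod.natCast_zmod_val]
    constructor
    · intro h
      have : (⟨Ψ (M π), hp (M π)⟩ : tors J p) = 0 :=
        eq_zero_of_forall_hom p _ (fun f => by rw [hf f]; exact h f)
      exact congrArg Subtype.val this
    · intro h f
      rw [← hf f]
      have : (⟨Ψ (M π), hp (M π)⟩ : tors J p) = 0 := Subtype.ext h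
      rw [this, map_zero]
  have hB : ∀ π : Dual (ZMod p) k,
      (∀ e, ∑ i, π (c i) * ((ev e (μ i) : ℤ) : ZMod p) = 0) ↔ Ψ (M π) = 0 := by
    intro π
    rw [hker]
    refine forall_congr' (fun e => ?_)
    rw [← ZMod.intCast_zmod_eq_zero_iff_dvd]
    have : ((ev e (M π) : ℤ) : ZMod p) = ∑ i, π (c i) * ((ev e (μ i) : ℤ) : ZMod p) := by
      simp only [hM, map_sum, map_nsmul, Int.cast_sum, nsmul_eq_mul, Int.cast_mul,
        Int.cast_natCast, ZMod.natCast_zmod_val]
    rw [this]
  have hcast : ∀ n : ℤ, ((n : ℤ) : k) = algebraMap (ZMod p) k ((n : ℤ) : ZMod p) :=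
    fun n => (map_intCast (algebraMap (ZMod p) k) n).symm
  constructor
  · intro h e
    simp only [hcast]
    rw [sum_eq_zero_iff_dual]
    intro π
    have h1 : Ψ (M π) = 0 := (hA π).mp (fun f => (sum_eq_zero_iff_dual p c _).mp (h f) π)
    exact (hB π).mpr h1 e
  · intro h f
    rw [sum_eq_zero_iff_dual]
    intro π
    have h1 : Ψ (M π) = 0 := (hB π).mp (fun e => by
      have := h e
      simp only [hcast] at this
      exact (sum_eq_zero_iff_dual p c _).mp this π)
    exact (hA π).mpr h1 f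

include hp in
/-- the eigen-identity passes from the evaluations to the dual of the `p`-torsion -/
theorem key_eig (hker : ∀ χ, Ψ χ = 0 ↔ ∀ e, (p : ℤ) ∣ ev e χ) {d : ℕ} (χ χ' : Fin d → Λ)
    (θ : Fin d → k) (a : k)
    (heig : ∀ e, ∑ i, θ i * ((ev e (χ' i) : ℤ) : k) = a * ∑ i, θ i * ((ev e (χ i) : ℤ) : k))
    (f : tors J p →+ ZMod p) :
    ∑ i, θ i * algebraMap (ZMod p) k (f ⟨Ψ (χ' i), hp (χ' i)⟩) =
      a * ∑ i, θ i * algebraMap (ZMod p) k (f ⟨Ψ (χ i), hp (χ i)⟩) := by
  have h := (key p Ψ hp ev hker (Sum.elim θ (fun i => -(a * θ i))) (Sum.elim χ' χ)).mpr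
    (fun e => by
      rw [Fintype.sum_sum_type]
      simp only [Sum.elim_inl, Sum.elim_inr]
      rw [heig e, Finset.mul_sum, ← Finset.sum_add_distrib]
      refine Finset.sum_eq_zero (fun i _ => ?_)
      ring) f
  rw [Fintype.sum_sum_type] at h
  simp only [Sum.elim_inl, Sum.elim_inr] at h
  rw [Finset.mul_sum]
  have h2 : ∑ i, θ i * algebraMap (ZMod p) k (f ⟨Ψ (χ' i), hp (χ' i)⟩) -
      ∑ i, a * (θ i * algebraMap (ZMod p) k (f ⟨Ψ (χ i), hp (χ i)⟩)) = 0 := by
    rw [← h, sub_eq_add_neg, ← Finset.sum_neg_distrib]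
    congr 1
    refine Finset.sum_congr rfl (fun i _ => ?_)
    ring
  exact sub_eq_zero.mp h2

end Core

section Main

attribute [local instance] ZMod.algebra

/-- **(WIT) assembly, abstract core.** -/
theorem exists_wit_core
    {G : Type} [Group G] {J : Type} [AddCommGroup J] [DistribMulAction G J]
    (p : ℕ) [Fact p.Prime] {k : Type} [Field k] [CharP k p]
    {Λ : Type*} [AddCommGroup Λ] (Ψ : Λ →+ J) (hp : ∀ χ, p • Ψ χ = 0)
    {E : Type*} (ev : E → Λ →+ ℤ)
    (hker : ∀ χ, Ψ χ = 0 ↔ ∀ e, (p : ℤ) ∣ ev e χ)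
    {d : ℕ} (χ : Fin d → Λ) (θ : Fin d → k)
    (hne : ∃ e, ∑ i, θ i * ((ev e (χ i) : ℤ) : k) ≠ 0)
    (horb : ∀ i, (Set.range fun σ : G => σ • Ψ (χ i)).Finite) :
    ∃ (W : Type) (_ : AddCommGroup W) (_ : Module k W) (_ : FiniteDimensional k W)
      (_ : Nontrivial W) (r : G →* Module.End k W),
      (∀ σ : G, (∀ i (τ : G), σ • τ • Ψ (χ i) = τ • Ψ (χ i)) → r σ = 1) ∧
      ∀ (σ : G) (T : J →+ J) (a : k) (ℓ : ℕ) (χ' : Fin d → Λ),
        (∀ (τ : G) (y : J), T (τ • y) = τ • T y) →
        (∀ i, T (Ψ (χ i)) = Ψ (χ' i)) →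
        (∀ e, ∑ i, θ i * ((ev e (χ' i) : ℤ) : k) = a * ∑ i, θ i * ((ev e (χ i) : ℤ) : k)) →
        (∀ y : J, p • y = 0 → σ • σ • y - T (σ • y) + ℓ • y = 0) →
        r σ * r σ + (ℓ : k) • (1 : Module.End k W) = a • r σ := by
  classical
  -- the base vectors
  set x : Fin d → tors J p := fun i => ⟨Ψ (χ i), hp (χ i)⟩ with hx
  set v0 : (tors J p →+ ZMod p) → k := vec p θ x with hv0
  set S : Set ((tors J p →+ ZMod p) → k) := Set.range fun τ : G => rep p k τ v0 with hS
  set W : Submodule k ((tors J p →+ ZMod p) → k) := Submodule.span k S with hW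
  have hstab : ∀ σ : G, ∀ w ∈ W, rep p k σ w ∈ W := by
    intro σ w hw
    have : Submodule.map (rep p k σ) W ≤ W := by
      rw [hW, Submodule.map_span]
      refine Submodule.span_mono ?_
      rintro _ ⟨_, ⟨τ, rfl⟩, rfl⟩
      exact ⟨σ * τ, by
        show rep p k (σ * τ) v0 = rep p k σ (rep p k τ v0)
        rw [rep_mul]
        rfl⟩
    exact this (Submodule.mem_map_of_mem hw)
  let r : G →* Module.End k W :=
    { toFun := fun σ => (rep p k σ).restrict (hstab σ)
      map_one' := by
        refine LinearMap.ext (fun w => Subtype.ext ?_)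
        rw [LinearMap.coe_restrict_apply, rep_one]
        rfl
      map_mul' := fun σ τ => by
        refine LinearMap.ext (fun w => Subtype.ext ?_)
        rw [Module.End.mul_apply, LinearMap.coe_restrict_apply, LinearMap.coe_restrict_apply,
          LinearMap.coe_restrict_apply, rep_mul]
        rfl }
  have hr : ∀ (σ : G) (w : W),
      ((r σ w : W) : (tors J p →+ ZMod p) → k) = rep p k σ (w : (tors J p →+ ZMod p) → k) :=
    fun σ w => rfl
  -- finiteness
  have hfin : S.Finite := by
    let F : (Fin d → J) → ((tors J p →+ ZMod p) → k) := fun y f =>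
      ∑ i, θ i * algebraMap (ZMod p) k (if h : p • y i = 0 then f ⟨y i, h⟩ else 0)
    have hpi : (Set.univ.pi fun i => Set.range fun σ : G => σ • Ψ (χ i)).Finite :=
      Set.Finite.pi horb
    refine (hpi.image F).subset ?_
    rintro _ ⟨τ, rfl⟩
    refine ⟨fun i => τ • Ψ (χ i), fun i _ => ⟨τ, rfl⟩, ?_⟩
    funext f
    show ∑ i, θ i * algebraMap (ZMod p) k
      (if h : p • (τ • Ψ (χ i)) = 0 then f ⟨τ • Ψ (χ i), h⟩ else 0) = rep p k τ v0 f
    rw [hv0, rep_vec]
    refine Finset.sum_congr rfl (fun i _ => ?_)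
    rw [dif_pos (smul_mem_tors p τ (hp (χ i)))]
    rfl
  have hfd : FiniteDimensional k W := FiniteDimensional.span_of_finite k hfin
  -- nontriviality
  have hv0W : v0 ∈ W := Submodule.subset_span ⟨1, by
    show rep p k 1 v0 = v0
    rw [rep_one]
    rfl⟩
  have hv0ne : v0 ≠ 0 := by
    intro h0
    obtain ⟨e, he⟩ := hne
    exact he ((key p Ψ hp ev hker θ χ).mp (fun f => congrFun h0 f) e)
  have hnt : Nontrivial W := ⟨⟨⟨v0, hv0W⟩, 0, fun h => hv0ne (congrArg Subtype.val h)⟩⟩
  refine ⟨W, inferInstance, inferInstance, hfd, hnt, r, ?_, ?_⟩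
  · intro σ hσ
    refine LinearMap.ext (fun w => Subtype.ext ?_)
    rw [hr, Module.End.one_apply]
    have hEq : Set.EqOn (rep p k σ) (LinearMap.id : _ →ₗ[k] _) S := by
      rintro _ ⟨τ, rfl⟩
      show rep p k σ (rep p k τ v0) = LinearMap.id (rep p k τ v0)
      rw [LinearMap.id_apply, hv0, rep_vec, rep_vec]
      congr 1
      funext i
      exact Subtype.ext (hσ i τ)
    exact LinearMap.eqOn_span hEq w.2
  · intro σ T a ℓ χ' hTc hTΨ heig hquad
    have hEq : Set.EqOn ((rep p k σ (J := J)).comp (rep p k σ) +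
        (ℓ : k) • (LinearMap.id : ((tors J p →+ ZMod p) → k) →ₗ[k] ((tors J p →+ ZMod p) → k)))
        (a • rep p k σ) S := by
      rintro _ ⟨τ, rfl⟩
      funext f
      have hkey := key_eig p Ψ hp ev hker χ χ' θ a heig (f.comp (actT p (σ * τ)))
      have hL : ∀ i, algebraMap (ZMod p) k (f (actT p σ (actT p σ (actT p τ (x i))))) +
          (ℓ : k) * algebraMap (ZMod p) k (f (actT p τ (x i))) =
          algebraMap (ZMod p) k ((f.comp (actT p (σ * τ))) ⟨Ψ (χ' i), hp (χ' i)⟩) := by
        intro i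
        have hz : actT p σ (actT p σ (actT p τ (x i))) + ℓ • actT p τ (x i) =
            actT p (σ * τ) ⟨Ψ (χ' i), hp (χ' i)⟩ := by
          refine Subtype.ext ?_
          have h1 := hquad (τ • Ψ (χ i)) (smul_mem_tors p τ (hp (χ i)))
          rw [hTc, hTc, hTΨ] at h1
          rw [AddSubgroup.coe_add, AddSubgroup.coe_nsmul]
          simp only [coe_actT, hx, mul_smul]
          rw [← sub_eq_zero, ← h1]
          abel
        rw [AddMonoidHom.comp_apply, ← hz, map_add, map_nsmul, map_add, map_nsmul, nsmul_eq_mul]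
      have hR : ∀ i, f (actT p σ (actT p τ (x i))) =
          (f.comp (actT p (σ * τ))) ⟨Ψ (χ i), hp (χ i)⟩ := by
        intro i
        rw [AddMonoidHom.comp_apply, actT_mul]
        rfl
      show rep p k σ (rep p k σ (rep p k τ v0)) f + (ℓ : k) * rep p k τ v0 f =
        a * rep p k σ (rep p k τ v0) f
      rw [hv0, rep_vec, rep_vec, rep_vec]
      show ∑ i, θ i * algebraMap (ZMod p) k (f (actT p σ (actT p σ (actT p τ (x i))))) +
        (ℓ : k) * ∑ i, θ i * algebraMap (ZMod p) k (f (actT p τ (x i))) =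
        a * ∑ i, θ i * algebraMap (ZMod p) k (f (actT p σ (actT p τ (x i))))
      rw [Finset.mul_sum, ← Finset.sum_add_distrib]
      have e1 : ∀ i, θ i * algebraMap (ZMod p) k (f (actT p σ (actT p σ (actT p τ (x i))))) +
          (ℓ : k) * (θ i * algebraMap (ZMod p) k (f (actT p τ (x i)))) =
          θ i * algebraMap (ZMod p) k ((f.comp (actT p (σ * τ))) ⟨Ψ (χ' i), hp (χ' i)⟩) := by
        intro i
        rw [← hL i]
        ring
      rw [Finset.sum_congr rfl (fun i _ => e1 i), hkey]
      congr 1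
      refine Finset.sum_congr rfl (fun i _ => ?_)
      rw [hR i]
    refine LinearMap.ext (fun w => Subtype.ext ?_)
    have h2 := LinearMap.eqOn_span hEq w.2
    rw [LinearMap.add_apply, LinearMap.comp_apply, LinearMap.smul_apply, LinearMap.id_apply,
      LinearMap.smul_apply] at h2
    rw [LinearMap.add_apply, Module.End.mul_apply, LinearMap.smul_apply, Module.End.one_apply,
      LinearMap.smul_apply, Submodule.coe_add, Submodule.coe_smul, Submodule.coe_smul, hr, hr]
    exact h2

end Main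

end Fermat.Agent.S29.H94
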