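import Mathlib
import Fermat.Agent.S29.Stmts_helper27
import Fermat.Agent.S29.Top_helper24
import Fermat.Agent.S29.GalClass_helper26
import Fermat.Agent.S29.GalHecke_helper13
import Fermat.Agent.S29.FinLevel_helper94
import Fermat.Agent.S29.WitCore_helper94

/-!
# S29, (WIT) assembly (helper94)

`wit_of_psi_eig` : the Kummer class map `H27.PsiStmt N p` and the eigen-character statement
`H27.EigStmt N g k0 φ0` give the witness module of `H24.WitStmt` at `(N, g, p, k0, φ0)`: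
the `k0`-span of the Galois orbit of `∑ θ i ⊗ Ψ (χ i)` (abstract core: `exists_wit_core`), with

* finite level from `finite_orbit` / `exists_finiteDimensional_fix_of_finite` (`FinLevel_helper94`);
* trivial inertia at `ℓ ∤ N p` from `H26.inertia_fix`;
* the Eichler–Shimura relation at Frobenius lifts from `H26.frob_quad`, the Hecke equivariance
  of `Ψ`, and `H13.heckeOperatorBar_smul`.

`witStmt_of` : `H24.WitStmt` from (PSI) and (EIG).
-/

set_option autoImplicit false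

noncomputable section

namespace Fermat.Agent.S29.H94

open ModularCurve ModularCurve.Period CongruenceSubgroup AlgebraicCurve
open scoped MatrixGroups

local notation "Qb" => AlgebraicClosure ℚ
local notation "Zbar" => integralClosure ℤ ℂ

/-- a parabolic integer character all of whose values are divisible by `m` is `m` times a
parabolic integer character -/
theorem exists_eq_nsmul_of_dvd (N : ℕ) (m : ℕ) (χ : H27.Lam N)
    (h : ∀ γ : Gamma0 N, (m : ℤ) ∣ (χ : Additive (Gamma0 N) →+ ℤ) (Additive.ofMul γ)) :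
    ∃ χ' : H27.Lam N, χ = m • χ' := by
  let ψ : Additive (Gamma0 N) →+ ℤ :=
    { toFun := fun a => (χ : Additive (Gamma0 N) →+ ℤ) a / (m : ℤ)
      map_zero' := by rw [map_zero, Int.zero_ediv]
      map_add' := fun a b => by
        rw [map_add]
        exact Int.add_ediv_of_dvd_left (h (Additive.toMul a)) }
  have hψ : ψ ∈ H27.Lam N := by
    intro γ hγ
    show (χ : Additive (Gamma0 N) →+ ℤ) (Additive.ofMul γ) / (m : ℤ) = 0
    rw [χ.2 γ hγ, Int.zero_ediv]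
  refine ⟨⟨ψ, hψ⟩, Subtype.ext (AddMonoidHom.ext fun a => ?_)⟩
  show (χ : Additive (Gamma0 N) →+ ℤ) a = m • ((χ : Additive (Gamma0 N) →+ ℤ) a / (m : ℤ))
  rw [nsmul_eq_mul]
  exact (Int.mul_ediv_cancel' (h (Additive.toMul a))).symm

/-- **(WIT) assembly**: from (PSI) at `m = p` and (EIG) at `(k0, φ0)` to the witness module. -/
theorem wit_of_psi_eig {N : ℕ} [NeZero N] {g : CuspForm (Gamma0 N) 2} {p : ℕ} (hp : p.Prime)
    {k0 : Type} [Field k0] [CharP k0 p] (φ0 : Zbar →+* k0)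
    (hPsi : H27.PsiStmt N p) (hEig : H27.EigStmt N g k0 φ0) :
    ∃ (W : Type) (_ : AddCommGroup W) (_ : Module k0 W) (_ : FiniteDimensional k0 W)
      (_ : Nontrivial W) (r : (Qb ≃ₐ[ℚ] Qb) →* Module.End k0 W),
      GaloisFactorsThroughFiniteLevel r ∧
      ∀ ℓ : ℕ, ℓ.Prime → ¬ ℓ ∣ N * p →
        ∀ A : ValuationSubring Qb, A.LiesOverPrime ℓ →
          (∀ σ ∈ A.inertiaSubgroupIn ℚ, r σ = 1) ∧
          ∃ a : Zbar, (a : ℂ) = ModularFormClass.qCoeff g ℓ ∧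
            ∀ σ : Qb ≃ₐ[ℚ] Qb, A.IsFrobeniusAt σ ℓ →
              r σ * r σ + (ℓ : k0) • (1 : Module.End k0 W) = φ0 a • r σ := by
  have : Fact p.Prime := ⟨hp⟩
  obtain ⟨Ψ, hΨp, hΨker, hΨT⟩ := hPsi
  obtain ⟨d, χ, θ, ⟨γ0, hγ0⟩, hE⟩ := hEig
  -- the evaluations `χ ↦ χ γ`
  let ev : Gamma0 N → H27.Lam N →+ ℤ := fun γ =>
    { toFun := fun χ => (χ : Additive (Gamma0 N) →+ ℤ) (Additive.ofMul γ)
      map_zero' := rfl
      map_add' := fun _ _ => rfl }
  have hker : ∀ χ : H27.Lam N, Ψ χ = 0 ↔ ∀ γ, (p : ℤ) ∣ ev γ χ := by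
    intro χ
    constructor
    · intro h γ
      obtain ⟨χ', rfl⟩ := hΨker χ h
      refine ⟨ev γ χ', ?_⟩
      rw [map_nsmul, nsmul_eq_mul]
    · intro h
      obtain ⟨χ', rfl⟩ := exists_eq_nsmul_of_dvd N p χ h
      rw [map_nsmul]
      exact hΨp χ'
  obtain ⟨W, i1, i2, i3, i4, r, hr1, hr2⟩ :=
    exists_wit_core (G := Qb ≃ₐ[ℚ] Qb) (J := JZero N) p (k := k0) Ψ hΨp ev hker χ θ
      ⟨γ0, hγ0⟩ (fun i => finite_orbit N (Ψ (χ i)))
  refine ⟨W, i1, i2, i3, i4, r, ?_, ?_⟩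
  · -- finite level
    have hfin : (⋃ i, Set.range fun σ : Qb ≃ₐ[ℚ] Qb => σ • Ψ (χ i)).Finite :=
      Set.finite_iUnion (fun i => finite_orbit N (Ψ (χ i)))
    obtain ⟨L, hL, hfix⟩ := exists_finiteDimensional_fix_of_finite N _ hfin
    exact ⟨L, hL, fun σ hσ =>
      hr1 σ (fun i τ => hfix σ hσ _ (Set.mem_iUnion.mpr ⟨i, τ, rfl⟩))⟩
  · intro ℓ hℓ hℓNp A hA
    have hℓN : ¬ ℓ ∣ N := fun h => hℓNp (Dvd.dvd.mul_right h p)
    have hℓp : ¬ ℓ ∣ p := fun h => hℓNp (Dvd.dvd.mul_left h N)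
    refine ⟨fun σ hσ => hr1 σ (fun i τ => ?_), ?_⟩
    · exact H26.inertia_fix N hℓ hℓN A hA σ hσ p hℓp (τ • Ψ (χ i))
        (smul_mem_tors p τ (hΨp (χ i)))
    · obtain ⟨a, χ', ha, hTr, heig⟩ := hE ℓ hℓ hℓN
      refine ⟨a, ha, fun σ hσ => ?_⟩
      exact hr2 σ (heckeOperatorBar N ⟨ℓ, hℓ⟩).toAddMonoidHom (φ0 a) ℓ χ'
        (fun τ y => H13.heckeOperatorBar_smul N ⟨ℓ, hℓ⟩ τ y)
        (fun i => hΨT ⟨ℓ, hℓ⟩ hℓN (χ i) (χ' i) (hTr i))
        (fun γ => heig γ)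
        (fun y hy => H26.frob_quad N hℓ hℓN A hA σ hσ p hℓp y hy)

/-- **(WIT)** `H24.WitStmt` from (PSI) and (EIG). -/
theorem witStmt_of
    (hPsi : ∀ (N : ℕ) [NeZero N] (m : ℕ), m ≠ 0 → H27.PsiStmt N m)
    (hEig : ∀ (N : ℕ) [NeZero N] (g : CuspForm (Gamma0 N) 2), g.IsNormalizedEigenform →
      ∀ (κ : Type) [Field κ] (ψ : Zbar →+* κ), H27.EigStmt N g κ ψ) :
    H24.WitStmt := by
  intro N _ g hg p hp k0 _ _ _ φ0 _
  exact wit_of_psi_eig hp φ0 (hPsi N p hp.ne_zero) (hEig N g hg k0 φ0)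

end Fermat.Agent.S29.H94
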